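import Mathlib

/-!
# S26-M6a (helper1632): curves with DVR local rings over an algebraically closed field are smooth

Mathlib-only, spec-independent.

## Algebra

* `isStandardSmoothOfRelativeDimension_one_polynomial` : `K[X]` is standard smooth of relative
  dimension one over `K`.
* `exists_isStandardSmoothOfRelativeDimension_one_away` : `K` algebraically closed, `R` a finitely
  generated `K`-domain, `m` a maximal ideal with `R_m` a discrete valuation ring. Then there is
  `g ∉ m` such that `R_g` is standard smooth of relative dimension one over `K`.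
-/

set_option autoImplicit false

universe u

namespace Fermat.Agent.S26.helper1632

open Polynomial

/-- `K[X]` is standard smooth of relative dimension one over `K`. -/
theorem isStandardSmoothOfRelativeDimension_one_polynomial (K : Type*) [CommRing K]
    [Nontrivial K] : Algebra.IsStandardSmoothOfRelativeDimension 1 K K[X] := by
  have hsm : Algebra.FormallySmooth K K[X] := inferInstance
  have : Subsingleton (Algebra.H1Cotangent K K[X]) :=
    ((Algebra.formallySmooth_iff K K[X]).mp hsm).2
  let b : Module.Basis Unit K[X] Ω[K[X]⁄K] :=
    (Module.Basis.singleton Unit K[X]).map (KaehlerDifferential.polynomialEquiv K).symm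
  have hb : Set.range b ⊆ Set.range (KaehlerDifferential.D K K[X]) := by
    rintro _ ⟨i, rfl⟩
    refine ⟨X, ?_⟩
    simp [b, KaehlerDifferential.polynomialEquiv_symm]
  have : Algebra.IsStandardSmooth K K[X] :=
    Algebra.IsStandardSmooth.of_basis_kaehlerDifferential b hb
  rw [Algebra.IsStandardSmoothOfRelativeDimension.iff_of_isStandardSmooth]
  rw [(KaehlerDifferential.polynomialEquiv K).rank_eq, Module.rank_self]
  simp

/-- Nullstellensatz: over an algebraically closed field, the residue field of a finitely generated
algebra at a maximal ideal is the base field. -/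
theorem algebraMap_residueField_surjective_of_isAlgClosed (K : Type*) {R : Type*} [Field K]
    [IsAlgClosed K] [CommRing R] [Algebra K R] [Algebra.FiniteType K R] (m : Ideal R)
    [m.IsMaximal] : Function.Surjective (algebraMap K m.ResidueField) := by
  let _ := Ideal.Quotient.field m
  have hfin : Module.Finite K (R ⧸ m) := finite_of_finite_type_of_isJacobsonRing K (R ⧸ m)
  have hs1 : Function.Surjective (algebraMap K (R ⧸ m)) :=
    (IsAlgClosed.algebraMap_bijective_of_isIntegral (k := K) (K := R ⧸ m)).surjective
  rw [IsScalarTower.algebraMap_eq K (R ⧸ m) m.ResidueField]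
  exact (Ideal.bijective_algebraMap_quotient_residueField m).surjective.comp hs1

/-- Over an algebraically closed field, an integral element of a domain is a scalar. -/
theorem exists_algebraMap_eq_of_isIntegral {K R : Type*} [Field K] [IsAlgClosed K] [CommRing R]
    [IsDomain R] [Algebra K R] {a : R} (h : IsIntegral K a) : ∃ c : K, algebraMap K R c = a := by
  refine ⟨-(minpoly K a).coeff 0, ?_⟩
  have hq : (minpoly K a).leadingCoeff = 1 := minpoly.monic h
  have hd : (minpoly K a).degree = 1 :=
    IsAlgClosed.degree_eq_one_of_irreducible K (minpoly.irreducible h)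
  have : aeval a (minpoly K a) = 0 := minpoly.aeval K a
  rw [eq_X_add_C_of_degree_eq_one hd, hq, C_1, one_mul, aeval_add, aeval_X, aeval_C,
    add_eq_zero_iff_eq_neg] at this
  exact (map_neg (algebraMap K R) ((minpoly K a).coeff 0)).symm ▸ this.symm

/-- Over an algebraically closed field, a nonzero nonunit of a domain is transcendental. -/
theorem transcendental_of_ne_zero_of_not_isUnit (K : Type*) {R : Type*} [Field K] [IsAlgClosed K]
    [CommRing R] [IsDomain R] [Algebra K R]
    (a : R) (ha0 : a ≠ 0) (hnu : ¬ IsUnit a) : Transcendental K a := by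
  intro halg
  obtain ⟨c, rfl⟩ := exists_algebraMap_eq_of_isIntegral halg.isIntegral
  have hc : c ≠ 0 := by
    rintro rfl
    exact ha0 (map_zero _)
  exact hnu ((isUnit_iff_ne_zero.mpr hc).map (algebraMap K R))

/-- **Local form of "a normal curve over an algebraically closed field is smooth".**
Let `K` be algebraically closed, `R` a finitely generated `K`-domain and `m` a maximal ideal such
that `R_m` is a discrete valuation ring. Then there is `g ∉ m` such that `R_g` is standard smooth
of relative dimension one over `K`.

Proof: for a uniformiser `a ∈ m` the map `K[X] → R`, `X ↦ a` is injective, hence flat (`K[X]` is a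
PID), and it is unramified at `m` since `a` generates `m R_m` and the residue field is `K`.
So it is étale on some `D(g) ∋ m`. -/
theorem exists_isStandardSmoothOfRelativeDimension_one_away
    (K : Type*) {R : Type*} [Field K] [IsAlgClosed K] [CommRing R] [IsDomain R] [Algebra K R]
    [Algebra.FiniteType K R] (m : Ideal R) [m.IsMaximal]
    [IsDiscreteValuationRing (Localization.AtPrime m)] :
    ∃ g : R, g ∉ m ∧ Algebra.IsStandardSmoothOfRelativeDimension 1 K (Localization.Away g) := by
  -- Step 1: a uniformiser `a ∈ m`
  obtain ⟨ϖ, hϖ⟩ := IsDiscreteValuationRing.exists_irreducible (Localization.AtPrime m)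
  obtain ⟨⟨a, s⟩, has⟩ := IsLocalization.surj m.primeCompl ϖ
  have hunit : IsUnit (algebraMap R (Localization.AtPrime m) s) := IsLocalization.map_units _ s
  have hirr : Irreducible (algebraMap R (Localization.AtPrime m) a) := by
    rw [← has]
    exact (irreducible_mul_isUnit hunit).mpr hϖ
  have hmax : IsLocalRing.maximalIdeal (Localization.AtPrime m) =
      Ideal.span {algebraMap R (Localization.AtPrime m) a} := hirr.maximalIdeal_eq
  have ham : a ∈ m := by
    have h1 : algebraMap R (Localization.AtPrime m) a ∈
        IsLocalRing.maximalIdeal (Localization.AtPrime m) := by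
      rw [hmax]; exact Ideal.mem_span_singleton_self _
    exact (IsLocalization.AtPrime.to_map_mem_maximal_iff _ m a).mp h1
  have ha0 : a ≠ 0 := by
    rintro rfl
    exact hirr.ne_zero (map_zero _)
  have hnu : ¬ IsUnit a := fun h =>
    (Ideal.IsMaximal.ne_top ‹_›) (Ideal.eq_top_of_isUnit_mem _ ham h)
  have htr : Transcendental K a := transcendental_of_ne_zero_of_not_isUnit K a ha0 hnu
  -- Step 2: `R` as a flat, finitely presented `K[X]`-algebra
  let _ : Algebra K[X] R := (Polynomial.aeval (R := K) a).toRingHom.toAlgebra
  have halg : ∀ f : K[X], algebraMap K[X] R f = Polynomial.aeval a f := fun f => rfl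
  have : IsScalarTower K K[X] R := IsScalarTower.of_algebraMap_eq (fun c => by
    rw [halg, Polynomial.algebraMap_apply, Algebra.algebraMap_self_apply, Polynomial.aeval_C])
  have hinj : Function.Injective (algebraMap K[X] R) := transcendental_iff_injective.mp htr
  have : Module.IsTorsionFree K[X] R := by
    refine Module.IsTorsionFree.of_smul_eq_zero (fun r x h => ?_)
    rw [Algebra.smul_def, mul_eq_zero] at h
    rcases h with h | h
    · left; exact hinj (by rw [h, map_zero])
    · right; exact h
  have : Module.Flat K[X] R := inferInstance
  have : Algebra.FinitePresentation K R :=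
    Algebra.FinitePresentation.of_finiteType.mp inferInstance
  have : Algebra.FinitePresentation K[X] R :=
    Algebra.FinitePresentation.of_restrict_scalars_finitePresentation K K[X] R
  -- Step 3: unramified at `m`
  let p : Ideal K[X] := m.under K[X]
  have : m.LiesOver p := ⟨rfl⟩
  let _ : Algebra (Localization.AtPrime p) (Localization.AtPrime m) :=
    Localization.AtPrime.algebraOfLiesOver p m
  have hsurj : Function.Surjective (algebraMap p.ResidueField m.ResidueField) := by
    intro x
    obtain ⟨c, rfl⟩ := algebraMap_residueField_surjective_of_isAlgClosed K m x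
    refine ⟨algebraMap K[X] p.ResidueField (Polynomial.C c), ?_⟩
    rw [← IsScalarTower.algebraMap_apply K[X] p.ResidueField m.ResidueField]
    rw [IsScalarTower.algebraMap_apply K[X] R m.ResidueField, halg, Polynomial.aeval_C,
      ← IsScalarTower.algebraMap_apply]
  have hsep : Algebra.IsSeparable p.ResidueField m.ResidueField := by
    refine ⟨fun x => ?_⟩
    obtain ⟨y, rfl⟩ := hsurj x
    exact isSeparable_algebraMap y
  have hmap : p.map (algebraMap K[X] (Localization.AtPrime m)) =
      IsLocalRing.maximalIdeal (Localization.AtPrime m) := by
    apply le_antisymm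
    · rw [Ideal.map_le_iff_le_comap]
      intro f hf
      rw [Ideal.mem_comap, IsScalarTower.algebraMap_apply K[X] R (Localization.AtPrime m)]
      exact (IsLocalization.AtPrime.to_map_mem_maximal_iff _ m _).mpr hf
    · rw [hmax, Ideal.span_singleton_le_iff_mem]
      have hX : (X : K[X]) ∈ p := by
        change algebraMap K[X] R X ∈ m
        rw [halg, Polynomial.aeval_X]; exact ham
      have := Ideal.mem_map_of_mem (algebraMap K[X] (Localization.AtPrime m)) hX
      rwa [IsScalarTower.algebraMap_apply K[X] R (Localization.AtPrime m), halg,
        Polynomial.aeval_X] at this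
  have hunr : Algebra.IsUnramifiedAt K[X] m :=
    (Algebra.isUnramifiedAt_iff_map_eq K[X] p m).mpr ⟨hsep, hmap⟩
  -- Step 4: flat + unramified = étale, on a basic open neighbourhood
  have het : Algebra.IsEtaleAt K[X] m := Algebra.IsEtaleAt.of_isUnramifiedAt_of_flat m
  obtain ⟨g, hgm, hg⟩ := Algebra.exists_etale_of_isEtaleAt (R := K[X]) m
  refine ⟨g, hgm, ?_⟩
  have h0 : Algebra.IsStandardSmoothOfRelativeDimension 0 K[X] (Localization.Away g) :=
    Algebra.Etale.iff_isStandardSmoothOfRelativeDimension_zero.mp hg
  have h1 := isStandardSmoothOfRelativeDimension_one_polynomial K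
  exact Algebra.IsStandardSmoothOfRelativeDimension.trans (n := 1) (m := 0) K K[X]
    (Localization.Away g)



/-- Global algebra form: if all localisations of the finitely generated `K`-domain `R` at maximal
ideals are discrete valuation rings, then `K → R` is locally standard smooth of relative
dimension one. -/
theorem locally_isStandardSmoothOfRelativeDimension_one_of_dvr
    (K : Type u) {R : Type u} [Field K] [IsAlgClosed K] [CommRing R] [IsDomain R] [Algebra K R]
    [Algebra.FiniteType K R]
    (h : ∀ (m : Ideal R) [m.IsMaximal], IsDiscreteValuationRing (Localization.AtPrime m)) :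
    RingHom.Locally (RingHom.IsStandardSmoothOfRelativeDimension 1) (algebraMap K R) := by
  refine ⟨{g | Algebra.IsStandardSmoothOfRelativeDimension 1 K (Localization.Away g)}, ?_, ?_⟩
  · by_contra hne
    obtain ⟨m, hm, hle⟩ := Ideal.exists_le_maximal _ hne
    have := h m
    obtain ⟨g, hgm, hg⟩ := exists_isStandardSmoothOfRelativeDimension_one_away K m
    exact hgm (hle (Ideal.subset_span hg))
  · intro t ht
    rw [← IsScalarTower.algebraMap_eq, RingHom.isStandardSmoothOfRelativeDimension_algebraMap]
    exact ht

/-- A finitely generated Dedekind domain over an algebraically closed field which is not a field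
is locally standard smooth of relative dimension one. -/
theorem locally_isStandardSmoothOfRelativeDimension_one_of_isDedekindDomain
    (K : Type u) {R : Type u} [Field K] [IsAlgClosed K] [CommRing R] [IsDedekindDomain R]
    [Algebra K R] [Algebra.FiniteType K R] (hR : ¬ IsField R) :
    RingHom.Locally (RingHom.IsStandardSmoothOfRelativeDimension 1) (algebraMap K R) := by
  refine locally_isStandardSmoothOfRelativeDimension_one_of_dvr K (fun m hm => ?_)
  have hm0 : m ≠ ⊥ := by
    rintro rfl
    exact hR (MulEquiv.isField ((Ideal.Quotient.maximal_ideal_iff_isField_quotient ⊥).mp hm)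
      (RingEquiv.quotientBot R).symm.toMulEquiv)
  exact IsLocalization.AtPrime.isDiscreteValuationRing_of_dedekind_domain R hm0 _


open AlgebraicGeometry CategoryTheory

/-- **Scheme adapter (cover form).** Let `K` be algebraically closed and `f : X ⟶ Spec K` locally
of finite type. If `X` is covered by affine opens whose coordinate rings are Dedekind domains
which are not fields, then `f` is smooth of relative dimension one. -/
theorem smoothOfRelativeDimension_one_of_dedekind_cover
    {K : Type u} [Field K] [IsAlgClosed K] {X : Scheme.{u}} (f : X ⟶ Spec (CommRingCat.of K))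
    [LocallyOfFiniteType f] {ι : Type*} (U : ι → X.affineOpens)
    (hU : ⨆ i, (U i : X.Opens) = ⊤)
    (hD : ∀ i, IsDedekindDomain Γ(X, (U i).1)) (hF : ∀ i, ¬ IsField Γ(X, (U i).1)) :
    SmoothOfRelativeDimension 1 f := by
  refine HasRingHomProperty.of_iSup_eq_top (P := @SmoothOfRelativeDimension 1) U hU (fun i => ?_)
  let e : K ≃+* Γ(Spec (CommRingCat.of K), ⊤) :=
    (Scheme.ΓSpecIso (CommRingCat.of K)).symm.commRingCatIsoToRingEquiv
  let φ : Γ(Spec (CommRingCat.of K), ⊤) →+* Γ(X, (U i).1) := (f.appLE ⊤ (U i).1 le_top).hom
  have hφ : φ.FiniteType := f.finiteType_appLE (isAffineOpen_top _) (U i).2 le_top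
  let _ : Algebra K Γ(X, (U i).1) := (φ.comp e.toRingHom).toAlgebra
  have : Algebra.FiniteType K Γ(X, (U i).1) :=
    RingHom.FiniteType.comp hφ (RingHom.FiniteType.of_surjective _ e.surjective)
  have := hD i
  have key := locally_isStandardSmoothOfRelativeDimension_one_of_isDedekindDomain K
    (R := Γ(X, (U i).1)) (hF i)
  have hiso := RingHom.locally_respectsIso
    (RingHom.isStandardSmoothOfRelativeDimension_respectsIso (n := 1))
  have h2 := hiso.right _ e.symm key
  have h3 : (algebraMap K Γ(X, (U i).1)).comp e.symm.toRingHom = φ := by
    ext x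
    simp [RingHom.algebraMap_toAlgebra]
  rw [h3] at h2
  exact h2

end Fermat.Agent.S26.helper1632
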