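import Fermat.Agent.S26.helper1879_CurveDim
import Fermat.Agent.S26.helper1632_CurveSmooth

/-!
# S26-M6c-COMPACT, the smoothness end (helper1879)

A normal integral `K`-scheme, locally of finite type, whose function field has transcendence
degree one (e.g. because it contains a nonempty open smooth curve) is smooth of relative
dimension one over the algebraically closed field `K`.
-/

set_option autoImplicit false

universe u

namespace Fermat.Agent.S26.helper1879

open AlgebraicGeometry CategoryTheory TopologicalSpace Opposite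

variable {K : Type u} [Field K] {C : Scheme.{u}}

/-- The structure map `K → Γ(C, V)` of a `K`-scheme `c : C ⟶ Spec K`. -/
noncomputable def secHom (c : C ⟶ Spec (CommRingCat.of K)) (V : C.Opens) : K →+* Γ(C, V) :=
  ((Scheme.ΓSpecIso (CommRingCat.of K)).inv ≫ c.appLE ⊤ V le_top).hom

theorem secHom_res (c : C ⟶ Spec (CommRingCat.of K)) {V W : C.Opens} (h : W ≤ V) :
    (C.presheaf.map (homOfLE h).op).hom.comp (secHom c V) = secHom c W := by
  unfold secHom
  rw [← CommRingCat.hom_comp, Category.assoc, Scheme.Hom.appLE_map]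

/-- The structure map `K → K(C)` of an integral `K`-scheme. -/
noncomputable def ffHom [IsIntegral C] (c : C ⟶ Spec (CommRingCat.of K)) :
    K →+* C.functionField :=
  haveI : Nonempty (⊤ : C.Opens) := ⟨⟨genericPoint C, trivial⟩⟩
  (C.germToFunctionField ⊤).hom.comp (secHom c ⊤)

theorem germ_comp_secHom [IsIntegral C] (c : C ⟶ Spec (CommRingCat.of K)) (V : C.Opens)
    [Nonempty V] : (C.germToFunctionField V).hom.comp (secHom c V) = ffHom c := by
  haveI : Nonempty (⊤ : C.Opens) := ⟨⟨genericPoint C, trivial⟩⟩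
  unfold ffHom
  rw [← secHom_res c (le_top : V ≤ ⊤), ← RingHom.comp_assoc, ← CommRingCat.hom_comp]
  congr 2
  exact C.presheaf.germ_res _ _ _

/-- On a nonempty affine open of an integral `K`-scheme, the ring of sections has the same
transcendence degree over `K` as the function field. -/
theorem trdeg_section_eq [IsIntegral C] (c : C ⟶ Spec (CommRingCat.of K)) (V : C.Opens)
    (hV : IsAffineOpen V) [Nonempty V] :
    letI := (secHom c V).toAlgebra
    letI := (ffHom c).toAlgebra
    Algebra.trdeg K Γ(C, V) = Algebra.trdeg K C.functionField := by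
  letI := (secHom c V).toAlgebra
  letI := (ffHom c).toAlgebra
  have : IsScalarTower K Γ(C, V) C.functionField :=
    IsScalarTower.of_algebraMap_eq' (germ_comp_secHom c V).symm
  have := functionField_isFractionRing_of_isAffineOpen C V hV
  have : Algebra.IsAlgebraic Γ(C, V) C.functionField :=
    IsLocalization.isAlgebraic C.functionField (nonZeroDivisors Γ(C, V))
  have h := trdeg_add_eq K Γ(C, V) (A := C.functionField)
  rw [trdeg_eq_zero (R := Γ(C, V)), add_zero] at h
  exact h

/-- `Γ(C, V)` is a `K`-algebra of finite type on affine opens of a scheme locally of finite type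
over `K`. -/
theorem finiteType_secHom (c : C ⟶ Spec (CommRingCat.of K)) [LocallyOfFiniteType c]
    (V : C.Opens) (hV : IsAffineOpen V) : (secHom c V).FiniteType := by
  have hφ : (c.appLE ⊤ V le_top).hom.FiniteType :=
    c.finiteType_appLE (isAffineOpen_top _) hV le_top
  have he : Function.Surjective (Scheme.ΓSpecIso (CommRingCat.of K)).inv.hom :=
    (Scheme.ΓSpecIso (CommRingCat.of K)).symm.commRingCatIsoToRingEquiv.surjective
  exact RingHom.FiniteType.comp hφ (RingHom.FiniteType.of_surjective _ he)

/-- On an integral `K`-scheme, locally of finite type, whose function field has transcendence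
degree one, the integrally closed rings of sections over nonempty affine opens are Dedekind domains
which are not fields. -/
theorem isDedekindDomain_section [IsIntegral C] (c : C ⟶ Spec (CommRingCat.of K))
    [LocallyOfFiniteType c]
    (htr : letI := (ffHom c).toAlgebra; Algebra.trdeg K C.functionField = 1)
    (V : C.Opens) (hV : IsAffineOpen V) [Nonempty V] (hN : IsIntegrallyClosed Γ(C, V)) :
    IsDedekindDomain Γ(C, V) ∧ ¬ IsField Γ(C, V) := by
  letI := (secHom c V).toAlgebra
  letI := (ffHom c).toAlgebra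
  have h1 : Algebra.trdeg K Γ(C, V) = 1 := (trdeg_section_eq c V hV).trans htr
  have hft : Algebra.FiniteType K Γ(C, V) := finiteType_secHom c V hV
  have hnoeth : IsNoetherianRing Γ(C, V) := Algebra.FiniteType.isNoetherianRing K _
  have hdim : Ring.KrullDimLE 1 Γ(C, V) := krullDimLE_one_of_trdeg_le_one h1.le
  refine ⟨?_, ?_⟩
  · exact
      { toIsDomain := inferInstance
        toIsNoetherian := hnoeth
        maximalOfPrime := fun hp hpp => hpp.isMaximal_of_ne_bot hp
        toIsIntegralClosure := hN }
  · intro hF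
    letI := hF.toField
    have : Module.Finite K Γ(C, V) := finite_of_finite_type_of_isJacobsonRing K _
    have : Algebra.IsAlgebraic K Γ(C, V) := Algebra.IsAlgebraic.of_finite _ _
    rw [trdeg_eq_zero] at h1
    exact zero_ne_one h1

/-- **Scheme form (trdeg version).** A normal integral scheme, locally of finite type over an
algebraically closed field `K`, whose function field has transcendence degree one over `K`, is
smooth of relative dimension one. Normality is asked on an affine cover. -/
theorem smoothOfRelativeDimension_one_of_normal_of_trdeg [IsAlgClosed K] [IsIntegral C]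
    (c : C ⟶ Spec (CommRingCat.of K)) [LocallyOfFiniteType c]
    (htr : letI := (ffHom c).toAlgebra; Algebra.trdeg K C.functionField = 1)
    {I : Type*} (U : I → C.affineOpens) (hU : ⨆ i, (U i : C.Opens) = ⊤)
    (hN : ∀ i, IsIntegrallyClosed Γ(C, (U i).1)) : SmoothOfRelativeDimension 1 c := by
  have hJ : ⨆ j : {i : I // Nonempty ((U i).1 : C.Opens)}, ((U j.1 : C.affineOpens) : C.Opens)
      = ⊤ := by
    rw [eq_top_iff]
    intro x _
    have hx : x ∈ ⨆ i, (U i : C.Opens) := hU ▸ trivial
    obtain ⟨i, hi⟩ := TopologicalSpace.Opens.mem_iSup.mp hx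
    exact TopologicalSpace.Opens.mem_iSup.mpr ⟨⟨i, ⟨⟨x, hi⟩⟩⟩, hi⟩
  refine helper1632.smoothOfRelativeDimension_one_of_dedekind_cover c
    (fun j : {i : I // Nonempty ((U i).1 : C.Opens)} => U j.1) hJ (fun j => ?_) (fun j => ?_)
  · haveI := j.2
    exact (isDedekindDomain_section c htr _ (U j.1).2 (hN j.1)).1
  · haveI := j.2
    exact (isDedekindDomain_section c htr _ (U j.1).2 (hN j.1)).2

/-- If an integral `K`-scheme `C` contains a nonempty open subscheme which is smooth of relative
dimension `n` over `K`, then its function field has transcendence degree `n` over `K`. -/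
theorem trdeg_functionField_eq_of_smooth (n : ℕ) [IsIntegral C]
    (c : C ⟶ Spec (CommRingCat.of K)) {C0 : Scheme.{u}} (ι : C0 ⟶ C) [IsOpenImmersion ι]
    [Nonempty C0] [SmoothOfRelativeDimension n (ι ≫ c)] :
    letI := (ffHom c).toAlgebra
    Algebra.trdeg K C.functionField = n := by
  letI := (ffHom c).toAlgebra
  haveI : IsIntegral C0 := isIntegral_of_isOpenImmersion ι
  obtain ⟨x0⟩ := ‹Nonempty C0›
  obtain ⟨U', hU', V0, hV0, hx0, e, hsm⟩ :=
    SmoothOfRelativeDimension.exists_isStandardSmoothOfRelativeDimension (n := n)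
      (f := ι ≫ c) x0
  obtain rfl : U' = ⊤ := by
    rw [eq_top_iff]
    intro y _
    have : y = (ι ≫ c).base x0 := Subsingleton.elim _ _
    rw [this]
    exact e hx0
  haveI : Nonempty V0 := ⟨⟨x0, hx0⟩⟩
  have hW : IsAffineOpen (ι ''ᵁ V0) := hV0.image_of_isOpenImmersion ι
  haveI : Nonempty (ι ''ᵁ V0 : C.Opens) := ⟨⟨ι.base x0, ⟨x0, hx0, rfl⟩⟩⟩
  rw [← trdeg_section_eq c (ι ''ᵁ V0) hW]
  letI := (secHom c (ι ''ᵁ V0)).toAlgebra
  have hcomp : secHom c (ι ''ᵁ V0) =
      ((ι.appIso V0).symm.commRingCatIsoToRingEquiv.toRingHom.comp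
        ((ι ≫ c).appLE ⊤ V0 e).hom).comp
        (Scheme.ΓSpecIso (CommRingCat.of K)).symm.commRingCatIsoToRingEquiv.toRingHom := by
    have h1 : (ι ≫ c).appLE ⊤ V0 e ≫ (ι.appIso V0).inv = c.appLE ⊤ (ι ''ᵁ V0) le_top := by
      rw [← Scheme.Hom.appLE_comp_appLE ι c ⊤ (ι ''ᵁ V0) V0 le_top
        (ι.preimage_image_eq V0).ge, Category.assoc, Scheme.Hom.appLE_appIso_inv]
      exact (Scheme.Hom.appLE_map _ _ _)
    unfold secHom
    rw [← h1]
    rfl
  have hiso := RingHom.isStandardSmoothOfRelativeDimension_respectsIso (n := n)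
  have hsm' : (secHom c (ι ''ᵁ V0)).IsStandardSmoothOfRelativeDimension n := by
    rw [hcomp]
    exact hiso.2 _ _ (hiso.1 _ _ hsm)
  haveI : Algebra.IsStandardSmoothOfRelativeDimension n K Γ(C, ι ''ᵁ V0) := hsm'
  exact trdeg_eq_of_isStandardSmoothOfRelativeDimension n K Γ(C, ι ''ᵁ V0)

/-- **Scheme form.** A normal integral scheme `C`, locally of finite type over an algebraically
closed field `K`, which contains a nonempty open subscheme smooth of relative dimension one over
`K`, is smooth of relative dimension one over `K`. Normality is asked on an affine cover. -/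
theorem smoothOfRelativeDimension_one_of_normal_of_open_smooth [IsAlgClosed K] [IsIntegral C]
    (c : C ⟶ Spec (CommRingCat.of K)) [LocallyOfFiniteType c] {C0 : Scheme.{u}} (ι : C0 ⟶ C)
    [IsOpenImmersion ι] [Nonempty C0] [SmoothOfRelativeDimension 1 (ι ≫ c)]
    {I : Type*} (U : I → C.affineOpens) (hU : ⨆ i, (U i : C.Opens) = ⊤)
    (hN : ∀ i, IsIntegrallyClosed Γ(C, (U i).1)) : SmoothOfRelativeDimension 1 c :=
  smoothOfRelativeDimension_one_of_normal_of_trdeg c
    (by simpa using trdeg_functionField_eq_of_smooth 1 c ι) U hU hN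

/-! ### Normality of smooth integral schemes over a field -/

/-- Standard smooth charts with the `K`-structure `secHom`. -/
theorem exists_secHom_isStandardSmooth (n : ℕ) {Z : Scheme.{u}}
    (z : Z ⟶ Spec (CommRingCat.of K)) [SmoothOfRelativeDimension n z] (x : Z) :
    ∃ V : Z.Opens, IsAffineOpen V ∧ x ∈ V ∧
      (secHom z V).IsStandardSmoothOfRelativeDimension n := by
  obtain ⟨U', hU', V0, hV0, hx0, e, hsm⟩ :=
    SmoothOfRelativeDimension.exists_isStandardSmoothOfRelativeDimension (n := n) (f := z) x
  obtain rfl : U' = ⊤ := by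
    rw [eq_top_iff]
    intro y _
    have : y = z.base x := Subsingleton.elim _ _
    rw [this]
    exact e hx0
  refine ⟨V0, hV0, hx0, ?_⟩
  have hiso := RingHom.isStandardSmoothOfRelativeDimension_respectsIso (n := n)
  exact hiso.2 _ (Scheme.ΓSpecIso (CommRingCat.of K)).symm.commRingCatIsoToRingEquiv hsm

/-- The stalks of an integral scheme which is smooth over a field are integrally closed. -/
theorem isIntegrallyClosed_stalk_of_smooth (n : ℕ) {Z : Scheme.{u}} [IsIntegral Z]
    (z : Z ⟶ Spec (CommRingCat.of K)) [SmoothOfRelativeDimension n z] (x : Z) :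
    IsIntegrallyClosed (Z.presheaf.stalk x) := by
  obtain ⟨V, hV, hxV, hsm⟩ := exists_secHom_isStandardSmooth n z x
  haveI : Nonempty V := ⟨⟨x, hxV⟩⟩
  letI := (secHom z V).toAlgebra
  haveI : Algebra.IsStandardSmoothOfRelativeDimension n K Γ(Z, V) := hsm
  haveI : IsIntegrallyClosed Γ(Z, V) :=
    isIntegrallyClosed_of_isStandardSmoothOfRelativeDimension n K Γ(Z, V)
  letI : Algebra Γ(Z, V) (Z.presheaf.stalk x) :=
    TopCat.Presheaf.algebra_section_stalk Z.presheaf ⟨x, hxV⟩
  haveI := hV.isLocalization_stalk ⟨x, hxV⟩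
  exact isIntegrallyClosed_of_isLocalization (Z.presheaf.stalk x)
    (hV.primeIdealOf ⟨x, hxV⟩).asIdeal.primeCompl
    (Ideal.primeCompl_le_nonZeroDivisors _)

/-- On an integral scheme with integrally closed stalks, the ring of sections over a nonempty open
subset is integrally closed in the function field. -/
theorem isIntegrallyClosedIn_section_of_stalk {Z : Scheme.{u}} [IsIntegral Z]
    (hst : ∀ x : Z, IsIntegrallyClosed (Z.presheaf.stalk x)) (W : Z.Opens) [Nonempty W] :
    IsIntegrallyClosedIn Γ(Z, W) Z.functionField := by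
  rw [isIntegrallyClosedIn_iff]
  refine ⟨Z.germToFunctionField_injective W, fun {x} hx => ?_⟩
  have hloc : ∀ y : W, ∃ (V : Z.Opens) (hyV : y.1 ∈ V) (_ : V ≤ W) (s : Γ(Z, V)),
      algebraMap (Z.presheaf.stalk y.1) Z.functionField (Z.presheaf.germ V y.1 hyV s) = x := by
    intro y
    have hx' : IsIntegral (Z.presheaf.stalk y.1) x := hx.tower_top
    obtain ⟨t, ht⟩ := (isIntegrallyClosed_iff Z.functionField).mp (hst y.1) hx'
    obtain ⟨V, hyV, s, hs⟩ := Z.presheaf.exists_germ_eq (x := y.1) t
    refine ⟨V ⊓ W, ⟨hyV, y.2⟩, inf_le_right, Z.presheaf.map (homOfLE inf_le_left).op s, ?_⟩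
    rw [TopCat.Presheaf.germ_res_apply, hs, ht]
  choose V hyV hVW s hs using hloc
  have hη : ∀ y : W, genericPoint Z ∈ V y := fun y =>
    ((genericPoint_spec Z).mem_open_set_iff (V y).isOpen).mpr ⟨y.1, trivial, hyV y⟩
  have hsx : ∀ y : W, Z.presheaf.germ (V y) (genericPoint Z) (hη y) (s y) = x := by
    intro y
    haveI : Nonempty (V y) := ⟨⟨y.1, hyV y⟩⟩
    rw [← hs y]
    exact (Scheme.algebraMap_germ_eq_germToFunctionField Z (hyV y) (s y)).symm
  have hcompat : TopCat.Presheaf.IsCompatible Z.presheaf V s := by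
    intro y y'
    apply germ_injective_of_isIntegral Z (genericPoint Z) (⟨hη y, hη y'⟩ : genericPoint Z ∈ V y ⊓ V y')
    rw [TopCat.Presheaf.germ_res_apply, TopCat.Presheaf.germ_res_apply, hsx, hsx]
  have hcover : W ≤ iSup V := fun p hp => Opens.mem_iSup.mpr ⟨⟨p, hp⟩, hyV ⟨p, hp⟩⟩
  obtain ⟨g, hg, -⟩ := Z.sheaf.existsUnique_gluing' V W (fun y => homOfLE (hVW y)) hcover s hcompat
  refine ⟨g, ?_⟩
  obtain ⟨y0⟩ := ‹Nonempty W›
  have h1 := hsx y0
  rw [← hg y0] at h1
  rw [← h1]
  exact (TopCat.Presheaf.germ_res_apply Z.presheaf (homOfLE (hVW y0)) (genericPoint Z) (hη y0) g).symm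


/-- On an integral scheme which is smooth over a field, the ring of sections over any nonempty
open subset (affine or not) is an integrally closed domain. -/
theorem isIntegrallyClosed_section_of_smooth (n : ℕ) {Z : Scheme.{u}} [IsIntegral Z]
    (z : Z ⟶ Spec (CommRingCat.of K)) [SmoothOfRelativeDimension n z] (W : Z.Opens)
    [Nonempty W] : IsIntegrallyClosed Γ(Z, W) := by
  have := isIntegrallyClosedIn_section_of_stalk
    (fun x => isIntegrallyClosed_stalk_of_smooth n z x) W
  have : FaithfulSMul Γ(Z, W) Z.functionField :=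
    (faithfulSMul_iff_algebraMap_injective _ _).mpr (Z.germToFunctionField_injective W)
  exact IsIntegrallyClosed.of_isIntegrallyClosedIn Γ(Z, W) Z.functionField

end Fermat.Agent.S26.helper1879
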