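import Fermat.Agent.S26.helper1463_NormFinite
import Fermat.Agent.S26.helper1879_CurveNormal
import Fermat.Agent.S25.helper893_Dedekind

/-!
# S26-M6c-COMPACT (helper1463): the smooth proper model of an affine smooth curve in `A`

`exists_proper_smooth_curve`: for `a : A ⟶ Spec K` proper (`K` algebraically closed) and an
immersion `j : C0 ⟶ A` of an affine integral curve, smooth of relative dimension one over `K`, the
relative normalization `C` of `A` in `C0` is an integral scheme, proper and smooth of relative
dimension one over `K`, and `C0 ⟶ C` is an open immersion.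

Ingredients: Mathlib's relative normalization and Zariski's main theorem; finiteness of the
normalization (`helper1463_NormFinite`, on `helper2279`); smoothness of normal curves
(`helper1879_CurveNormal`, on `helper1632`).
-/

set_option autoImplicit false

universe u

noncomputable section

namespace Fermat.Agent.S26.helper1463

open AlgebraicGeometry CategoryTheory

/-- The integral closure of `R` in an integrally closed domain `B` is integrally closed. -/
theorem isIntegrallyClosed_integralClosure (R B : Type*) [CommRing R] [CommRing B] [IsDomain B]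
    [Algebra R B] [IsIntegrallyClosed B] : IsIntegrallyClosed (integralClosure R B) :=
  IsIntegrallyClosed.of_isIntegrallyClosed_of_isIntegrallyClosedIn (integralClosure R B) B

/-- The zero ring is integrally closed. -/
theorem isIntegrallyClosed_of_subsingleton (R : Type*) [CommRing R] [Subsingleton R] :
    IsIntegrallyClosed R := by
  haveI : Subsingleton (FractionRing R) := by
    refine ⟨fun x y => ?_⟩
    have h : (1 : FractionRing R) = 0 := by
      rw [← map_one (algebraMap R (FractionRing R)), ← map_zero (algebraMap R (FractionRing R))]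
      exact congrArg _ (Subsingleton.elim _ _)
    rw [← mul_one x, ← mul_one y, h, mul_zero, mul_zero]
  exact ⟨fun x y _ => Subsingleton.elim x y, fun {x} =>
    ⟨fun _ => ⟨0, Subsingleton.elim _ _⟩, fun _ => Subsingleton.elim x 0 ▸ isIntegral_zero⟩⟩

/-- **(M6c-COMPACT)** The smooth proper model of an affine smooth curve immersed in a proper
`K`-scheme, with its map to `A`: the relative normalization of `A` in the curve. -/
theorem exists_proper_smooth_curve {K : Type u} [Field K] [IsAlgClosed K] {A C0 : Scheme.{u}}
    (a : A ⟶ Spec (CommRingCat.of K)) [IsProper a] (j : C0 ⟶ A) [IsAffine C0] [IsIntegral C0]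
    [IsImmersion j] [SmoothOfRelativeDimension 1 (j ≫ a)] :
    ∃ (C : Scheme.{u}) (ι : C0 ⟶ C) (φ : C ⟶ A), IsOpenImmersion ι ∧ ι ≫ φ = j ∧ IsIntegral C ∧
      IsProper (φ ≫ a) ∧ SmoothOfRelativeDimension 1 (φ ≫ a) := by
  haveI : IsAffineHom (j ≫ a) := isAffineHom_of_isAffine _
  haveI : IsAffineHom j := IsAffineHom.of_comp j a
  haveI : Smooth (j ≫ a) := SmoothOfRelativeDimension.smooth 1 (j ≫ a)
  haveI : LocallyOfFiniteType (j ≫ a) := inferInstance
  haveI : LocallyOfFiniteType j := locallyOfFiniteType_of_comp j a
  haveI : LocallyQuasiFinite j := inferInstance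
  haveI : IsSeparated j := inferInstance
  haveI : IsOpenImmersion j.toNormalization := inferInstance
  haveI : IsFinite j.fromNormalization := isFinite_fromNormalization a j
  haveI : IsProper (j.fromNormalization ≫ a) := inferInstance
  refine ⟨j.normalization, j.toNormalization, j.fromNormalization, inferInstance,
    j.toNormalization_fromNormalization, inferInstance, inferInstance, ?_⟩
  haveI : SmoothOfRelativeDimension 1 (j.toNormalization ≫ j.fromNormalization ≫ a) := by
    rw [Scheme.Hom.toNormalization_fromNormalization_assoc]
    infer_instance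
  haveI : Nonempty C0 := inferInstance
  refine helper1879.smoothOfRelativeDimension_one_of_normal_of_open_smooth
    (j.fromNormalization ≫ a) j.toNormalization
    (fun U : A.affineOpens => (⟨j.fromNormalization ⁻¹ᵁ U.1, U.2.preimage j.fromNormalization⟩ :
      j.normalization.affineOpens)) ?_ (fun U => ?_)
  · rw [eq_top_iff]
    intro x _
    have hx : j.fromNormalization.base x ∈ (⨆ U : A.affineOpens, (U : A.Opens)) := by
      rw [iSup_affineOpens_eq_top]; trivial
    obtain ⟨U, hU⟩ := TopologicalSpace.Opens.mem_iSup.mp hx
    exact TopologicalSpace.Opens.mem_iSup.mpr ⟨U, hU⟩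
  · -- normality of the chart `φ⁻¹ U`
    let _ : Algebra Γ(A, U.1) Γ(C0, j ⁻¹ᵁ U.1) := (j.app U.1).hom.toAlgebra
    have e := (j.normalizationObjIso U.2).commRingCatIsoToRingEquiv
    suffices h : IsIntegrallyClosed (integralClosure Γ(A, U.1) Γ(C0, j ⁻¹ᵁ U.1)) from
      IsIntegrallyClosed.of_equiv e.symm
    by_cases hne : Nonempty (j ⁻¹ᵁ U.1)
    · haveI : IsDomain Γ(C0, j ⁻¹ᵁ U.1) := inferInstance
      haveI : IsDedekindDomain Γ(C0, j ⁻¹ᵁ U.1) :=
        Fermat.Agent.S25.helper893.isDedekindDomain_of_isAffineOpen (j ≫ a) (U.2.preimage j)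
      exact isIntegrallyClosed_integralClosure _ _
    · have hbot : j ⁻¹ᵁ U.1 = ⊥ := by
        ext x
        simp only [TopologicalSpace.Opens.coe_bot, Set.mem_empty_iff_false, iff_false]
        exact fun hx => hne ⟨⟨x, hx⟩⟩
      haveI : Subsingleton Γ(C0, j ⁻¹ᵁ U.1) := by
        rw [hbot]
        infer_instance
      haveI : Subsingleton (integralClosure Γ(A, U.1) Γ(C0, j ⁻¹ᵁ U.1)) :=
        Subtype.val_injective.subsingleton
      exact isIntegrallyClosed_of_subsingleton _

end Fermat.Agent.S26.helper1463
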