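import Fermat.Agent.S26.helper154_Spec
import Fermat.Agent.S25.helper1705_Spec

/-!
# S26 specification file, part II: the module statements (captain helper154)

Every module of the S26 project proves ONE of the `Stmt_*` below (hypothesis-passing style:
a module may take other `Stmt_*` as hypotheses). Vocabulary: part I (`helper154_Spec.lean`).

Modules:
* M0  `Stmt_Integral`, `Stmt_NsmulDeg`, `Stmt_SepDomComp`, `Stmt_WsumNsmul`, `Stmt_TorsPow`
* M1  `Stmt_UFD`, `Stmt_Normal`
* M3  `Stmt_Bridge`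
* M4  `Stmt_CubeMod` (from `Stmt_S25` + rigidity), `Stmt_CubeDiv` (= `Stmt_CubeMod` + `Stmt_Bridge`)
* M5  `Stmt_QuadN`
* M6  `Stmt_Frame`
* M7  `Stmt_SW`
* M8  `Stmt_Divisor`, `Stmt_Upper`
* M9  the count: all of the above give `Stmt_S26`.
-/

set_option autoImplicit false

universe u

noncomputable section

open CategoryTheory CategoryTheory.Limits AlgebraicGeometry AlgebraicGeometry.RelPicard
  NeronModelInfra GoodReductionJacobian

namespace Fermat.Agent.S26.helper154

/-! ### The frozen data -/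

/-- The hypotheses of S26 on `(K, f, L, g)`, bundled. -/
structure IsAbVar (K : Type u) [Field K] {A : Scheme.{u}} (f : A ⟶ Spec (CommRingCat.of K))
    (L : RelativeGroupLaw K f) (g : ℕ) : Prop where
  algClosed : IsAlgClosed K
  comm : L.IsCommutative
  bundle : AbelianSchemePropertyBundle K f
  smooth : SmoothOfRelativeDimension g f

/-- The number of `n`-torsion `K`-points, in the frozen shape. -/
def torsCard {K : Type u} [Field K] {A : Scheme.{u}} {f : A ⟶ Spec (CommRingCat.of K)}
    (L : RelativeGroupLaw K f) (n : ℕ) : ℕ :=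
  Nat.card {x : SchemeHomOver (𝟙 (Spec (CommRingCat.of K))) f //
    L.IsTorsionPoint (𝟙 (Spec (CommRingCat.of K))) n x}

/-- The frozen statement S26, as a `Prop`. -/
def Stmt_S26 : Prop :=
  ∀ (K : Type u) [Field K] [IsAlgClosed K] {A : Scheme.{u}} (f : A ⟶ Spec (CommRingCat.of K))
    (L : RelativeGroupLaw K f) (_ : L.IsCommutative) (_ : AbelianSchemePropertyBundle K f)
    (g : ℕ) [SmoothOfRelativeDimension g f] (n : ℕ) (_ : (n : K) ≠ 0),
    Nat.card {x : SchemeHomOver (𝟙 (Spec (CommRingCat.of K))) f //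
        L.IsTorsionPoint (𝟙 (Spec (CommRingCat.of K))) n x} = n ^ (2 * g)

/-- The inverse morphism `[-1] : A ⟶ A`. -/
def invMap {K : Type u} [Field K] {A : Scheme.{u}} {f : A ⟶ Spec (CommRingCat.of K)}
    (L : RelativeGroupLaw K f) : A ⟶ A :=
  (L.inv f RelativeGroupLaw.idPoint).1

/-- `p` is the origin of `A` (the image of the unit section). -/
def IsOrigin {K : Type u} [Field K] {A : Scheme.{u}} {f : A ⟶ Spec (CommRingCat.of K)}
    (L : RelativeGroupLaw K f) (p : A) : Prop :=
  p ∈ Set.range (L.one (𝟙 (Spec (CommRingCat.of K)))).1.base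

/-- The `m`-th power of a `T`-point for the group law `L` (integer exponent). -/
def zpowPt {K : Type u} [Field K] {A : Scheme.{u}} {f : A ⟶ Spec (CommRingCat.of K)}
    (L : RelativeGroupLaw K f) {T : Scheme.{u}} (t : T ⟶ Spec (CommRingCat.of K)) (m : ℤ)
    (x : SchemeHomOver t f) : SchemeHomOver t f :=
  letI := L.pointGroup t
  x ^ m

/-! ### Products of pointed curves mapping to `A` -/

/-- A pointed smooth proper integral curve over `K` with a pointed map to `A`. -/
structure PCurve (K : Type u) [Field K] {A : Scheme.{u}} (f : A ⟶ Spec (CommRingCat.of K))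
    (L : RelativeGroupLaw K f) where
  C : Scheme.{u}
  c : C ⟶ Spec (CommRingCat.of K)
  proper : IsProper c
  smooth : SmoothOfRelativeDimension 1 c
  integral : IsIntegral C
  pt : SchemeHomOver (𝟙 (Spec (CommRingCat.of K))) c
  map : SchemeHomOver c f
  map_pt : pt.1 ≫ map.1 = (L.one (𝟙 (Spec (CommRingCat.of K)))).1

variable {K : Type u} [Field K] {A : Scheme.{u}} {f : A ⟶ Spec (CommRingCat.of K)}
  {L : RelativeGroupLaw K f}

/-- The product `C₁ ×_K (C₂ ×_K (⋯ ×_K Spec K))` of a list of curves, with its structure map. -/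
def prodX : List (PCurve K f L) → Σ X : Scheme.{u}, (X ⟶ Spec (CommRingCat.of K))
  | [] => ⟨Spec (CommRingCat.of K), 𝟙 _⟩
  | P :: l => ⟨pullback P.c (prodX l).2, pullback.snd P.c (prodX l).2 ≫ (prodX l).2⟩

/-- The base point of the product. -/
def prodPt : (l : List (PCurve K f L)) → SchemeHomOver (𝟙 (Spec (CommRingCat.of K))) (prodX l).2
  | [] => ⟨𝟙 _, Category.id_comp _⟩
  | P :: l => ⟨pullback.lift P.pt.1 (prodPt l).1 (by rw [P.pt.2, (prodPt l).2]), by
      show pullback.lift P.pt.1 (prodPt l).1 _ ≫ pullback.snd P.c (prodX l).2 ≫ (prodX l).2 = _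
      rw [pullback.lift_snd_assoc, (prodPt l).2]⟩

/-- The weighted sum `Σ aᵢ • (fᵢ ∘ pᵢ) : X ⟶ A` of the coordinate maps of a product of pointed
curves, with integer weights `a 0, a 1, …` (in the order of the list). -/
def wsum (L : RelativeGroupLaw K f) :
    (l : List (PCurve K f L)) → (ℕ → ℤ) → SchemeHomOver (prodX l).2 f
  | [], _ => L.one (𝟙 _)
  | P :: l, a =>
      L.mul (prodX (P :: l)).2
        (zpowPt L (prodX (P :: l)).2 (a 0)
          ⟨pullback.fst P.c (prodX l).2 ≫ P.map.1, by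
            show (pullback.fst P.c (prodX l).2 ≫ P.map.1) ≫ f =
              pullback.snd P.c (prodX l).2 ≫ (prodX l).2
            rw [Category.assoc, P.map.2, pullback.condition]⟩)
        ⟨pullback.snd P.c (prodX l).2 ≫ (wsum L l (fun i => a (i + 1))).1, by
          show (pullback.snd P.c (prodX l).2 ≫ (wsum L l (fun i => a (i + 1))).1) ≫ f =
            pullback.snd P.c (prodX l).2 ≫ (prodX l).2
          rw [Category.assoc, (wsum L l (fun i => a (i + 1))).2]⟩

/-- The sum map `s = Σ fᵢ ∘ pᵢ : X ⟶ A`. -/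
def sumMap (L : RelativeGroupLaw K f) (l : List (PCurve K f L)) : (prodX l).1 ⟶ A :=
  (wsum L l (fun _ => 1)).1

/-- The product of proper curves is proper over `K`. -/
theorem isProper_prodX (l : List (PCurve K f L)) : IsProper (prodX l).2 := by
  induction l with
  | nil => exact inferInstanceAs (IsProper (𝟙 (Spec (CommRingCat.of K))))
  | cons P l ih =>
    haveI := ih
    haveI := P.proper
    exact inferInstanceAs (IsProper (pullback.snd P.c (prodX l).2 ≫ (prodX l).2))

/-- The two slices of a product `Y ×_K Z` through a pair of `K`-points. -/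
def sliceY {Y Z : Scheme.{u}} (y : Y ⟶ Spec (CommRingCat.of K)) (z : Z ⟶ Spec (CommRingCat.of K))
    (z₀ : SchemeHomOver (𝟙 (Spec (CommRingCat.of K))) z) :
    SchemeHomOver y (pullback.fst y z ≫ y) :=
  ⟨pullback.lift (𝟙 Y) (y ≫ z₀.1) (by rw [Category.id_comp, Category.assoc, z₀.2,
    Category.comp_id]), by rw [pullback.lift_fst_assoc, Category.id_comp]⟩

/-- See `sliceY`. -/
def sliceZ {Y Z : Scheme.{u}} (y : Y ⟶ Spec (CommRingCat.of K)) (z : Z ⟶ Spec (CommRingCat.of K))
    (y₀ : SchemeHomOver (𝟙 (Spec (CommRingCat.of K))) y) :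
    SchemeHomOver z (pullback.fst y z ≫ y) :=
  ⟨pullback.lift (z ≫ y₀.1) (𝟙 Z) (by rw [Category.id_comp, Category.assoc, y₀.2,
    Category.comp_id]), by rw [pullback.lift_fst_assoc, Category.assoc, y₀.2, Category.comp_id]⟩

/-! ### Equation lemmas of the recursive definitions

`prodX`, `prodPt` and `wsum` are defined by recursion on the list.  Lean generates the equation
lemmas of such definitions lazily, in the first module that unfolds them; the three lemmas below
force their generation HERE, so that they live in this module only (no downstream module holds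
a second copy). -/

theorem prodX_nil_eq : prodX ([] : List (PCurve K f L)) = ⟨Spec (CommRingCat.of K), 𝟙 _⟩ := by
  rw [prodX]

theorem prodPt_nil_eq : prodPt ([] : List (PCurve K f L)) = ⟨𝟙 _, Category.id_comp _⟩ := by
  rw [prodPt]

theorem wsum_nil_eq (a : ℕ → ℤ) : wsum L ([] : List (PCurve K f L)) a = L.one (𝟙 _) := by
  rw [wsum]

/-! ### M0: the soft part -/

/-- M0-INT. An abelian variety is an integral scheme. -/
def Stmt_Integral : Prop :=
  ∀ (K : Type u) [Field K] {A : Scheme.{u}} (f : A ⟶ Spec (CommRingCat.of K))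
    (L : RelativeGroupLaw K f) (g : ℕ), IsAbVar K f L g → IsIntegral A

/-- M0-ETALE + M0-DEG. For `n` invertible in `K`, `[n] : A ⟶ A` is dominant and `K(A)` is finite
separable over `[n]^* K(A)`, of degree the number of `n`-torsion `K`-points. -/
def Stmt_NsmulDeg : Prop :=
  ∀ (K : Type u) [Field K] {A : Scheme.{u}} (f : A ⟶ Spec (CommRingCat.of K))
    (L : RelativeGroupLaw K f) (g : ℕ) [IsIntegral A], IsAbVar K f L g →
    ∀ n : ℕ, (n : K) ≠ 0 → IsSepDom (L.schemeNsmul n) (torsCard L n)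

/-- M0-COMP (1). Degrees multiply in towers. -/
def Stmt_SepDomComp : Prop :=
  ∀ {Z Y X : Scheme.{u}} [IsIntegral Z] [IsIntegral Y] [IsIntegral X] (ψ : Z ⟶ Y) (φ : Y ⟶ X)
    (δ δ' : ℕ), IsSepDom ψ δ → IsSepDom φ δ' → IsSepDom (ψ ≫ φ) (δ * δ')

/-- M0-COMP (2). The weighted sum with all weights `n` is `s ≫ [n]`. -/
def Stmt_WsumNsmul : Prop :=
  ∀ (K : Type u) [Field K] {A : Scheme.{u}} (f : A ⟶ Spec (CommRingCat.of K))
    (L : RelativeGroupLaw K f), L.IsCommutative → ∀ (l : List (PCurve K f L)) (n : ℕ),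
    (wsum L l (fun _ => (n : ℤ))).1 = sumMap L l ≫ L.schemeNsmul n

/-- M0-GRP. `d(n ^ k) = d(n) ^ k`. -/
def Stmt_TorsPow : Prop :=
  ∀ (K : Type u) [Field K] {A : Scheme.{u}} (f : A ⟶ Spec (CommRingCat.of K))
    (L : RelativeGroupLaw K f) (g : ℕ), IsAbVar K f L g →
    ∀ n : ℕ, (n : K) ≠ 0 → ∀ k : ℕ, torsCard L (n ^ k) = torsCard L n ^ k

/-! ### M1: local rings of smooth varieties -/

/-- M1. The stalks of an integral smooth scheme over an algebraically closed field are UFDs. -/
def Stmt_UFD : Prop :=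
  ∀ (K : Type u) [Field K] [IsAlgClosed K] {A : Scheme.{u}} (f : A ⟶ Spec (CommRingCat.of K))
    [Smooth f] [IsIntegral A] (x : A), UniqueFactorizationMonoid (A.presheaf.stalk x)

/-- Normality, in the shape `(SW)` consumes. -/
def Stmt_Normal : Prop :=
  ∀ (K : Type u) [Field K] [IsAlgClosed K] {A : Scheme.{u}} (f : A ⟶ Spec (CommRingCat.of K))
    [Smooth f] [IsIntegral A] (U : A.Opens), IsAffineOpen U → IsIntegrallyClosed Γ(A, U)

/-! ### M3: the bridge from Cartier divisors to invertible modules -/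

/-- M3. There is an assignment `D ↦ O(D)` from Cartier divisors on integral schemes to invertible
`Scheme.Modules`, compatible with pull-back, such that `O(1)` is trivial and `O(D)` trivial
implies `D` principal. -/
def Stmt_Bridge : Prop :=
  ∃ O : ∀ (V : Scheme.{u}) [IsIntegral V], CDiv V → V.Modules,
    (∀ (V : Scheme.{u}) [IsIntegral V] (D : CDiv V), Scheme.Modules.IsInvertible (O V D)) ∧
    (∀ (V : Scheme.{u}) [IsIntegral V],
      Nonempty (O V 1 ≅ SheafOfModules.unit V.ringCatSheaf)) ∧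
    (∀ (V : Scheme.{u}) [IsIntegral V] (D : CDiv V),
      Nonempty (O V D ≅ SheafOfModules.unit V.ringCatSheaf) → ∃ h, D = CDiv.principal h) ∧
    (∀ (V W : Scheme.{u}) [IsIntegral V] [IsIntegral W] (φ : W ⟶ V) (D : CDiv V) (E : CDiv W),
      CDiv.PullsTo φ D E → Nonempty ((Scheme.Modules.pullback φ).obj (O V D) ≅ O W E))

/-! ### M4: the theorem of the cube with a curve factor -/

/-- M4, `Scheme.Modules` form (from the frozen S25 statement and the rigidity lemma): a
rigidified line bundle on `C × (Y × Z)` that is trivial on `C × Y × {z₀}` and on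
`C × {y₀} × Z` is trivial. -/
def Stmt_CubeMod : Prop :=
  ∀ (K : Type u) [Field K] [IsAlgClosed K] {C : Scheme.{u}} (c : C ⟶ Spec (CommRingCat.of K))
    [IsProper c] [SmoothOfRelativeDimension 1 c] [IsIntegral C]
    (ε : SchemeHomOver (𝟙 (Spec (CommRingCat.of K))) c)
    {Y Z : Scheme.{u}} (y : Y ⟶ Spec (CommRingCat.of K)) (z : Z ⟶ Spec (CommRingCat.of K))
    [IsProper y] [IsProper z] [GeometricallyIntegral y] [GeometricallyIntegral z]
    (y₀ : SchemeHomOver (𝟙 (Spec (CommRingCat.of K))) y)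
    (z₀ : SchemeHomOver (𝟙 (Spec (CommRingCat.of K))) z)
    (M : RigidifiedLineBundle c ε (pullback.fst y z ≫ y)),
    Nonempty ((M.pullbackAlong (sliceY y z z₀)).L ≅
      (RigidifiedLineBundle.unit (c := c) (ε := ε) y).L) →
    Nonempty ((M.pullbackAlong (sliceZ y z y₀)).L ≅
      (RigidifiedLineBundle.unit (c := c) (ε := ε) z).L) →
    Nonempty (M.L ≅ (RigidifiedLineBundle.unit (c := c) (ε := ε) (pullback.fst y z ≫ y)).L)

/-- M4, divisor form (= `Stmt_CubeMod` + `Stmt_Bridge`): a Cartier divisor on `C × (Y × Z)` whose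
restrictions to the three slices `{c₀} × Y × Z`, `C × Y × {z₀}`, `C × {y₀} × Z` are the zero
divisor is principal. -/
def Stmt_CubeDiv : Prop :=
  ∀ (K : Type u) [Field K] [IsAlgClosed K] {C : Scheme.{u}} (c : C ⟶ Spec (CommRingCat.of K))
    [IsProper c] [SmoothOfRelativeDimension 1 c] [IsIntegral C]
    (ε : SchemeHomOver (𝟙 (Spec (CommRingCat.of K))) c)
    {Y Z : Scheme.{u}} (y : Y ⟶ Spec (CommRingCat.of K)) (z : Z ⟶ Spec (CommRingCat.of K))
    [IsProper y] [IsProper z] [GeometricallyIntegral y] [GeometricallyIntegral z]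
    (y₀ : SchemeHomOver (𝟙 (Spec (CommRingCat.of K))) y)
    (z₀ : SchemeHomOver (𝟙 (Spec (CommRingCat.of K))) z)
    [IsIntegral (pullback c (pullback.fst y z ≫ y))] [IsIntegral (pullback c y)]
    [IsIntegral (pullback c z)] [IsIntegral (pullback y z)]
    (E : CDiv (pullback c (pullback.fst y z ≫ y))),
    CDiv.PullsTo (rigSection c (pullback.fst y z ≫ y) ε) E 1 →
    CDiv.PullsTo (baseChangeSnd c (sliceY y z z₀)) E 1 →
    CDiv.PullsTo (baseChangeSnd c (sliceZ y z y₀)) E 1 →
    ∃ h, E = CDiv.principal h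

/-! ### M5: quadratic calculus on a product of curves -/

/-- M5. For a symmetric divisor `D` on `A` not through the origin, `(n s)^* D` is linearly
equivalent to `n² s^* D` on the product of curves `X` (`s` the sum map). -/
def Stmt_QuadN : Prop :=
  ∀ (K : Type u) [Field K] {A : Scheme.{u}} (f : A ⟶ Spec (CommRingCat.of K))
    (L : RelativeGroupLaw K f) (g : ℕ) [IsIntegral A], IsAbVar K f L g →
    ∀ (l : List (PCurve K f L)) [IsIntegral (prodX l).1] (D : CDiv A),
      CDiv.PullsTo (invMap L) D D → (∀ p, IsOrigin L p → p ∉ CDiv.supp D) →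
      ∀ (n : ℕ) (E En : CDiv (prodX l).1), CDiv.PullsTo (sumMap L l) D E →
        CDiv.PullsTo (wsum L l (fun _ => (n : ℤ))).1 D En → CDiv.LinEquiv En (E ^ (n ^ 2))

/-! ### M6: the frame of curves -/

/-- M6. There are `g` pointed smooth proper curves through the origin of `A` such that the sum
map from their product is dominant and generically finite separable. -/
def Stmt_Frame : Prop :=
  ∀ (K : Type u) [Field K] {A : Scheme.{u}} (f : A ⟶ Spec (CommRingCat.of K))
    (L : RelativeGroupLaw K f) (g : ℕ) [IsIntegral A], IsAbVar K f L g →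
    ∃ l : List (PCurve K f L), l.length = g ∧
      ∃ (_ : IsIntegral (prodX l).1) (δ : ℕ), IsSepDom (sumMap L l) δ

/-! ### M7: the sandwich -/

/-- M7 (SW). For `ψ : X ⟶ A` dominant, generically finite separable of degree `δ`, with `X`
proper and `A` normal, and `D` effective on `A` with affine complement:
`δ ℓ_A(mD) ≤ ℓ_X((m + a) ψ^* D)` and `ℓ_X(m ψ^* D) ≤ δ ℓ_A((m + a) D)`. -/
def Stmt_SW : Prop :=
  ∀ (K : Type u) [Field K] {X A : Scheme.{u}} [IsIntegral X] [IsIntegral A]
    (x : X ⟶ Spec (CommRingCat.of K)) (f : A ⟶ Spec (CommRingCat.of K)) [IsProper x]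
    [IsSeparated f] (ψ : X ⟶ A) (_ : ψ ≫ f = x) (δ : ℕ), IsSepDom ψ δ →
    (∀ U : A.Opens, IsAffineOpen U → IsIntegrallyClosed Γ(A, U)) →
    ∀ D : CDiv A, CDiv.IsEffective D → (∃ U : A.Opens, IsAffineOpen U ∧ (U : Set A) = (CDiv.supp D)ᶜ) →
    ∀ E : CDiv X, CDiv.PullsTo ψ D E → (∀ m : ℕ, CDiv.LFinite x (E ^ m)) →
    ∃ a : ℕ, ∀ m : ℕ, CDiv.LFinite f (D ^ m) ∧
      δ * CDiv.ell f (D ^ m) ≤ CDiv.ell x (E ^ (m + a)) ∧
      CDiv.ell x (E ^ m) ≤ δ * CDiv.ell f (D ^ (m + a))

/-! ### M8: the divisor and the growth bounds -/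

/-- M8-DIV. On an abelian variety of dimension `g` there is an effective symmetric Cartier
divisor `D` not through the origin, with affine complement, such that `ℓ(k a D) ≥ C(k + g, g)`
for some `a ≥ 1` and all `k` (whenever finite). -/
def Stmt_Divisor : Prop :=
  ∀ (K : Type u) [Field K] {A : Scheme.{u}} (f : A ⟶ Spec (CommRingCat.of K))
    (L : RelativeGroupLaw K f) (g : ℕ) [IsIntegral A], IsAbVar K f L g →
    ∃ D : CDiv A, CDiv.IsEffective D ∧ CDiv.PullsTo (invMap L) D D ∧
      (∀ p, IsOrigin L p → p ∉ CDiv.supp D) ∧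
      (∃ U : A.Opens, IsAffineOpen U ∧ (U : Set A) = (CDiv.supp D)ᶜ) ∧
      ∃ a : ℕ, 0 < a ∧ ∀ k : ℕ, CDiv.LFinite f (D ^ (k * a)) →
        Nat.choose (k + g) g ≤ CDiv.ell f (D ^ (k * a))

/-- M8-UP. Upper growth on the product of curves: `ℓ_X(m s^* D) ≤ (c m + 1) ^ g`
(sign trick from the quadratic calculus + the product-type bound). -/
def Stmt_Upper : Prop :=
  ∀ (K : Type u) [Field K] {A : Scheme.{u}} (f : A ⟶ Spec (CommRingCat.of K))
    (L : RelativeGroupLaw K f) (g : ℕ) [IsIntegral A], IsAbVar K f L g →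
    ∀ (l : List (PCurve K f L)) [IsIntegral (prodX l).1] (D : CDiv A), CDiv.IsEffective D →
      CDiv.PullsTo (invMap L) D D → (∀ p, IsOrigin L p → p ∉ CDiv.supp D) →
      ∀ E : CDiv (prodX l).1, CDiv.PullsTo (sumMap L l) D E →
        ∃ c : ℕ, ∀ m : ℕ, CDiv.LFinite (prodX l).2 (E ^ m) ∧
          CDiv.ell (prodX l).2 (E ^ m) ≤ (c * m + 1) ^ l.length

/-! ### Positive-dimensional variants (ruling R2: every leaf may assume `0 < g`) -/

/-- M6, for `0 < g` (the statement the M6 owners prove). -/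
def Stmt_FramePos : Prop :=
  ∀ (K : Type u) [Field K] {A : Scheme.{u}} (f : A ⟶ Spec (CommRingCat.of K))
    (L : RelativeGroupLaw K f) (g : ℕ) [IsIntegral A], IsAbVar K f L g → 0 < g →
    ∃ l : List (PCurve K f L), l.length = g ∧
      ∃ (_ : IsIntegral (prodX l).1) (δ : ℕ), IsSepDom (sumMap L l) δ

/-- M8-DIV, for `0 < g` (the statement the M8-DEXIST / M8-LOWER owners prove). -/
def Stmt_DivisorPos : Prop :=
  ∀ (K : Type u) [Field K] {A : Scheme.{u}} (f : A ⟶ Spec (CommRingCat.of K))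
    (L : RelativeGroupLaw K f) (g : ℕ) [IsIntegral A], IsAbVar K f L g → 0 < g →
    ∃ D : CDiv A, CDiv.IsEffective D ∧ CDiv.PullsTo (invMap L) D D ∧
      (∀ p, IsOrigin L p → p ∉ CDiv.supp D) ∧
      (∃ U : A.Opens, IsAffineOpen U ∧ (U : Set A) = (CDiv.supp D)ᶜ) ∧
      ∃ a : ℕ, 0 < a ∧ ∀ k : ℕ, CDiv.LFinite f (D ^ (k * a)) →
        Nat.choose (k + g) g ≤ CDiv.ell f (D ^ (k * a))

/-- M9-G0: the frozen statement for `g = 0`. -/
def Stmt_DimZero : Prop :=
  ∀ (K : Type u) [Field K] {A : Scheme.{u}} (f : A ⟶ Spec (CommRingCat.of K))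
    (L : RelativeGroupLaw K f), IsAbVar K f L 0 → ∀ n : ℕ, torsCard L n = 1

end Fermat.Agent.S26.helper154
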