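import Fermat.Agent.S26.helper1285_Integral
import Fermat.Agent.S26.helper154_Spec2

set_option autoImplicit false

/-!
# S26-M0-INT, Spec adapters: `Stmt_Integral` and `Stmt_Normal` of `helper154_Spec2`

Both are unconditional (no `LocalUFDInput`, no M1).
-/

namespace Fermat.Agent.S26.helper1285

open AlgebraicGeometry CategoryTheory

universe u

/-- `Stmt_Integral` of the S26 Spec: an abelian variety is an integral scheme. -/
theorem stmt_Integral : Fermat.Agent.S26.helper154.Stmt_Integral.{u} := by
  intro K _ A f L g h
  exact isIntegral_of_bundle f h.bundle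

/-- Sections of a smooth integral scheme over a field on ANY affine open (empty or not) are
integrally closed. -/
theorem isIntegrallyClosed_section_of_smooth_of_isIntegral {K : Type u} [Field K]
    {X : Scheme.{u}} (f : X ⟶ Spec (CommRingCat.of K)) [Smooth f] [IsIntegral X]
    (U : X.Opens) (hU : IsAffineOpen U) : IsIntegrallyClosed Γ(X, U) := by
  by_cases hne : Nonempty U
  · exact isIntegrallyClosed_section_of_smooth f hU
  · have hbot : U = ⊥ := by
      ext x
      simp only [TopologicalSpace.Opens.coe_bot, Set.mem_empty_iff_false, iff_false]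
      exact fun hx => hne ⟨⟨x, hx⟩⟩
    subst hbot
    refine (isIntegrallyClosed_iff (FractionRing Γ(X, (⊥ : X.Opens)))).mpr (fun {x} _ => ⟨0, ?_⟩)
    have : Subsingleton (FractionRing Γ(X, (⊥ : X.Opens))) :=
      IsLocalization.subsingleton (M := nonZeroDivisors Γ(X, (⊥ : X.Opens)))
        (by exact (Subsingleton.elim (0 : Γ(X, (⊥ : X.Opens))) 1) ▸ Submonoid.one_mem _)
    exact Subsingleton.elim _ _

/-- `Stmt_Normal` of the S26 Spec (indeed for every field `K`). -/
theorem stmt_Normal : Fermat.Agent.S26.helper154.Stmt_Normal.{u} := by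
  intro K _ _ A f _ _ U hU
  exact isIntegrallyClosed_section_of_smooth_of_isIntegral f U hU

end Fermat.Agent.S26.helper1285
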