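/-
S26-M5-ALG (helper2141): the pure abelian-group algebra of the "quadratic calculus"
(route #2694 (3b), #2746 D2/D3).

Setting: `M`, `P` additive commutative groups, `q : M → P`, `S : Set M`, `H : AddSubgroup M`.
In the application `M` is the group of pointed maps `X ⟶ A` (pointwise group law), `P` the group
of divisor classes on `X`, `q h` the class of `h^* D` for a symmetric divisor `D` on `A`, `S` the
set of "curve-type" maps (those factoring through a curve) and `H` the subgroup of maps for which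
the theorem of the cube is available (`H = ⊤` is allowed).

Hypotheses (`CubeData q S H`): `q 0 = 0`, `S ⊆ H`, `S` stable under integer multiples,
`q (-u) = q u` on `S`, and the cube identity `cubeDefect q u v w = 0` for `u ∈ S`, `v w ∈ H`.

Conclusions:
* `CubeData.map_zsmul`       : `q (n • u) = n ^ 2 • q u` for `u ∈ S`;
* `CubeData.map_sum`         : `q (∑ i ∈ I, u i) = ∑ q (u i) + ∑_{i<j} bform q (u i) (u j)`;
* `CubeData.bform_zsmul_zsmul`: `bform q (a • u) (c • v) = (a * c) • bform q u v` for `u v ∈ S`;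
* `CubeData.map_zsmul_sum`   : `q (n • ∑ i ∈ I, u i) = n ^ 2 • q (∑ i ∈ I, u i)`;
* `CubeData.sum_signs`       : `∑ ε : ι → ℤˣ, q (∑ i, (ε i : ℤ) • u i) = 2 ^ card ι • ∑ i, q (u i)`.
-/
import Mathlib

set_option autoImplicit false

namespace Fermat.Agent.S26.helper2141

open Finset

variable {M P : Type*} [AddCommGroup M] [AddCommGroup P]

/-- The second difference of `q`. -/
def bform (q : M → P) (u v : M) : P := q (u + v) - q u - q v

/-- The third difference ("cube defect") of `q`. -/
def cubeDefect (q : M → P) (u v w : M) : P :=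
  q (u + v + w) - q (u + v) - q (u + w) - q (v + w) + q u + q v + q w

theorem bform_comm (q : M → P) (u v : M) : bform q u v = bform q v u := by
  unfold bform
  rw [add_comm u v]
  abel

theorem cubeDefect_eq_bform (q : M → P) (u v w : M) :
    cubeDefect q u v w = bform q (u + v) w - bform q u w - bform q v w := by
  unfold cubeDefect bform
  abel

theorem cubeDefect_swap12 (q : M → P) (u v w : M) :
    cubeDefect q u v w = cubeDefect q v u w := by
  unfold cubeDefect
  rw [add_comm u v]
  abel

theorem cubeDefect_swap23 (q : M → P) (u v w : M) :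
    cubeDefect q u v w = cubeDefect q u w v := by
  unfold cubeDefect
  rw [add_right_comm u v w, add_comm v w]
  abel

theorem cubeDefect_rot (q : M → P) (u v w : M) :
    cubeDefect q u v w = cubeDefect q v w u := by
  rw [cubeDefect_swap12, cubeDefect_swap23]

/-- The hypotheses of the quadratic calculus. -/
structure CubeData (q : M → P) (S : Set M) (H : AddSubgroup M) : Prop where
  map_zero : q 0 = 0
  subset : ∀ u ∈ S, u ∈ H
  zsmul_mem : ∀ u ∈ S, ∀ a : ℤ, a • u ∈ S
  map_neg : ∀ u ∈ S, q (-u) = q u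
  cube : ∀ u ∈ S, ∀ v ∈ H, ∀ w ∈ H, cubeDefect q u v w = 0

namespace CubeData

variable {q : M → P} {S : Set M} {H : AddSubgroup M}

theorem neg_mem (h : CubeData q S H) {u : M} (hu : u ∈ S) : -u ∈ S := by
  have := h.zsmul_mem u hu (-1)
  simpa using this

theorem bform_zero_left (h : CubeData q S H) (w : M) : bform q 0 w = 0 := by
  unfold bform
  rw [zero_add, h.map_zero]
  abel

theorem bform_zero_right (h : CubeData q S H) (w : M) : bform q w 0 = 0 := by
  rw [bform_comm, h.bform_zero_left]

/-- Additivity of `bform` in the first variable, first summand in `S`. -/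
theorem bform_add_left (h : CubeData q S H) {u v w : M} (hu : u ∈ S) (hv : v ∈ H) (hw : w ∈ H) :
    bform q (u + v) w = bform q u w + bform q v w := by
  have := h.cube u hu v hv w hw
  rw [cubeDefect_eq_bform] at this
  rw [← sub_eq_zero]
  rw [← this]
  abel

/-- Additivity of `bform` in the first variable, second summand in `S`. -/
theorem bform_add_left' (h : CubeData q S H) {u v w : M} (hu : u ∈ H) (hv : v ∈ S) (hw : w ∈ H) :
    bform q (u + v) w = bform q u w + bform q v w := by
  rw [add_comm u v, h.bform_add_left hv hu hw, add_comm]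

/-- Additivity of `bform` in the first variable, the fixed second variable in `S`. -/
theorem bform_add_left'' (h : CubeData q S H) {u v w : M} (hu : u ∈ H) (hv : v ∈ H) (hw : w ∈ S) :
    bform q (u + v) w = bform q u w + bform q v w := by
  have : cubeDefect q u v w = 0 := by
    rw [cubeDefect_rot, cubeDefect_rot]
    exact h.cube w hw u hu v hv
  rw [cubeDefect_eq_bform] at this
  rw [← sub_eq_zero]
  rw [← this]
  abel

/-- Additivity of `bform` in the second variable, the fixed first variable in `S`. -/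
theorem bform_add_right (h : CubeData q S H) {u v w : M} (hu : u ∈ S) (hv : v ∈ H) (hw : w ∈ H) :
    bform q u (v + w) = bform q u v + bform q u w := by
  rw [bform_comm q u (v + w), h.bform_add_left'' hv hw hu, bform_comm q v u, bform_comm q w u]

/-- `bform q u (∑ v i) = ∑ bform q u (v i)` for `u ∈ S`, `v i ∈ H`. -/
theorem bform_sum_right (h : CubeData q S H) {ι : Type*} {u : M} (hu : u ∈ S) (v : ι → M)
    (I : Finset ι) (hv : ∀ i ∈ I, v i ∈ H) :
    bform q u (∑ i ∈ I, v i) = ∑ i ∈ I, bform q u (v i) := by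
  classical
  induction I using Finset.induction_on with
  | empty => simp [h.bform_zero_right]
  | insert k I hk ih =>
    have hv' : ∀ i ∈ I, v i ∈ H := fun i hi => hv i (Finset.mem_insert_of_mem hi)
    rw [Finset.sum_insert hk, Finset.sum_insert hk,
      h.bform_add_right hu (hv k (Finset.mem_insert_self k I)) (H.sum_mem hv'), ih hv']

/-- The recursion `q ((n+1) u) = 2 q (n u) - q ((n-1) u) + 2 q u`. -/
theorem map_succ_zsmul (h : CubeData q S H) {u : M} (hu : u ∈ S) (n : ℤ) :
    q ((n + 1) • u) = 2 • q (n • u) - q ((n - 1) • u) + 2 • q u := by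
  have h1 := h.cube (n • u) (h.zsmul_mem u hu n) u (h.subset u hu) (-u)
    (H.neg_mem (h.subset u hu))
  unfold cubeDefect at h1
  have e1 : n • u + u + -u = n • u := by abel
  have e2 : n • u + u = (n + 1) • u := by rw [add_smul, one_smul]
  have e3 : n • u + -u = (n - 1) • u := by rw [sub_smul, one_smul, sub_eq_add_neg]
  have e4 : u + -u = 0 := by abel
  rw [e1, e2, e3, e4, h.map_zero, h.map_neg u hu] at h1
  rw [← sub_eq_zero]
  rw [← neg_eq_zero, ← h1]
  abel

theorem map_natCast_zsmul (h : CubeData q S H) {u : M} (hu : u ∈ S) (n : ℕ) :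
    q ((n : ℤ) • u) = ((n : ℤ) ^ 2) • q u := by
  induction n using Nat.strong_induction_on with
  | _ n ih =>
    match n, ih with
    | 0, _ => simp [h.map_zero]
    | 1, _ => simp
    | (k + 2), ih =>
      have h0 := ih k (by omega)
      have h1 := ih (k + 1) (by omega)
      have hrec := h.map_succ_zsmul hu ((k : ℤ) + 1)
      have e1 : ((k + 2 : ℕ) : ℤ) = (k : ℤ) + 1 + 1 := by push_cast; ring
      have e2 : ((k : ℤ) + 1 - 1) = (k : ℤ) := by ring
      have e3 : ((k + 1 : ℕ) : ℤ) = (k : ℤ) + 1 := by push_cast; ring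
      rw [e3] at h1
      rw [e1, hrec, e2, h0, h1]
      have : ((k : ℤ) + 1 + 1) ^ 2 = 2 * ((k : ℤ) + 1) ^ 2 - (k : ℤ) ^ 2 + 2 := by ring
      rw [this, add_smul, sub_smul, mul_smul]
      simp only [ofNat_zsmul]

/-- (C1) `q (n • u) = n ^ 2 • q u` for `u ∈ S`. -/
theorem map_zsmul (h : CubeData q S H) {u : M} (hu : u ∈ S) (n : ℤ) :
    q (n • u) = (n ^ 2) • q u := by
  obtain ⟨k, rfl | rfl⟩ := Int.eq_nat_or_neg n
  · exact h.map_natCast_zsmul hu k
  · rw [neg_smul, h.map_neg _ (h.zsmul_mem u hu k), h.map_natCast_zsmul hu k, neg_sq]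

/-- `bform q (a • u) w = a • bform q u w` for `u ∈ S`, `w ∈ H`. -/
theorem bform_zsmul_left (h : CubeData q S H) {u w : M} (hu : u ∈ S) (hw : w ∈ H) (a : ℤ) :
    bform q (a • u) w = a • bform q u w := by
  let f : ℤ →+ P :=
    { toFun := fun a => bform q (a • u) w
      map_zero' := by simp [h.bform_zero_left]
      map_add' := fun a b => by
        show bform q ((a + b) • u) w = bform q (a • u) w + bform q (b • u) w
        rw [add_smul]
        exact h.bform_add_left (h.zsmul_mem u hu a) (h.subset _ (h.zsmul_mem u hu b)) hw }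
  have h1 : f a = a • f 1 := by
    rw [← _root_.map_zsmul f, smul_eq_mul, mul_one]
  have h2 : f 1 = bform q u w := by
    show bform q ((1 : ℤ) • u) w = bform q u w
    rw [one_smul]
  rw [h2] at h1
  exact h1

/-- `bform q w (a • u) = a • bform q w u` for `u ∈ S`, `w ∈ H`. -/
theorem bform_zsmul_right (h : CubeData q S H) {u w : M} (hu : u ∈ S) (hw : w ∈ H) (a : ℤ) :
    bform q w (a • u) = a • bform q w u := by
  rw [bform_comm q w (a • u), h.bform_zsmul_left hu hw, bform_comm q u w]

/-- (C3) `bform q (a • u) (c • v) = (a * c) • bform q u v` for `u v ∈ S`. -/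
theorem bform_zsmul_zsmul (h : CubeData q S H) {u v : M} (hu : u ∈ S) (hv : v ∈ S) (a c : ℤ) :
    bform q (a • u) (c • v) = (a * c) • bform q u v := by
  rw [h.bform_zsmul_left hu (h.subset _ (h.zsmul_mem v hv c)),
    h.bform_zsmul_right hv (h.subset u hu), mul_smul]

/-- (C2) Pairwise decomposition:
`q (∑ i ∈ I, u i) = ∑ i ∈ I, q (u i) + ∑_{i < j} bform q (u i) (u j)` for `u i ∈ S`. -/
theorem map_sum (h : CubeData q S H) {ι : Type*} [LinearOrder ι] (u : ι → M) (I : Finset ι)
    (hu : ∀ i ∈ I, u i ∈ S) :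
    q (∑ i ∈ I, u i) =
      ∑ i ∈ I, q (u i) + ∑ i ∈ I, ∑ j ∈ I, if i < j then bform q (u i) (u j) else 0 := by
  classical
  induction I using Finset.induction_on with
  | empty => simp [h.map_zero]
  | insert k I hk ih =>
    have hu' : ∀ i ∈ I, u i ∈ S := fun i hi => hu i (Finset.mem_insert_of_mem hi)
    have huk : u k ∈ S := hu k (Finset.mem_insert_self k I)
    have hB : bform q (u k) (∑ i ∈ I, u i) = ∑ i ∈ I, bform q (u k) (u i) :=
      h.bform_sum_right huk u I (fun i hi => h.subset _ (hu' i hi))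
    have hq : q (u k + ∑ i ∈ I, u i) = q (u k) + q (∑ i ∈ I, u i)
        + bform q (u k) (∑ i ∈ I, u i) := by
      unfold bform
      abel
    have hsplit : ∀ i ∈ I, bform q (u k) (u i) =
        (if k < i then bform q (u k) (u i) else 0) + (if i < k then bform q (u i) (u k) else 0) := by
      intro i hi
      have hik : i ≠ k := fun e => hk (e ▸ hi)
      rcases lt_or_gt_of_ne hik with hlt | hgt
      · rw [if_neg (not_lt.mpr hlt.le), if_pos hlt, zero_add, bform_comm]
      · rw [if_pos hgt, if_neg (not_lt.mpr hgt.le), add_zero]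
    rw [Finset.sum_insert hk, hq, ih hu', hB, Finset.sum_insert hk, Finset.sum_insert hk,
      Finset.sum_insert hk, if_neg (lt_irrefl k), zero_add,
      Finset.sum_congr rfl (fun i hi => Finset.sum_insert (f := fun j =>
        if i < j then bform q (u i) (u j) else 0) hk),
      Finset.sum_add_distrib, Finset.sum_congr rfl hsplit, Finset.sum_add_distrib]
    abel

/-- (C4) `q (n • ∑ i ∈ I, u i) = n ^ 2 • q (∑ i ∈ I, u i)` for `u i ∈ S`. -/
theorem map_zsmul_sum (h : CubeData q S H) {ι : Type*} (u : ι → M) (I : Finset ι)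
    (hu : ∀ i ∈ I, u i ∈ S) (n : ℤ) :
    q (n • ∑ i ∈ I, u i) = (n ^ 2) • q (∑ i ∈ I, u i) := by
  classical
  let _ : LinearOrder ι := IsWellOrder.linearOrder WellOrderingRel
  rw [Finset.smul_sum, h.map_sum (fun i => n • u i) I (fun i hi => h.zsmul_mem _ (hu i hi) n),
    h.map_sum u I hu, smul_add, Finset.smul_sum, Finset.smul_sum]
  congr 1
  · exact Finset.sum_congr rfl (fun i hi => h.map_zsmul (hu i hi) n)
  · refine Finset.sum_congr rfl (fun i hi => ?_)
    rw [Finset.smul_sum]
    refine Finset.sum_congr rfl (fun j hj => ?_)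
    split_ifs
    · rw [h.bform_zsmul_zsmul (hu i hi) (hu j hj), sq]
    · rw [smul_zero]

theorem sum_sign_mul_eq_zero {ι : Type*} [Fintype ι] [DecidableEq ι] {i j : ι} (hij : i ≠ j) :
    ∑ ε : ι → ℤˣ, ((ε i : ℤ) * (ε j : ℤ)) = 0 := by
  have key : ∑ ε : ι → ℤˣ, ((ε i : ℤ) * (ε j : ℤ)) =
      ∑ ε : ι → ℤˣ, -((ε i : ℤ) * (ε j : ℤ)) := by
    refine Fintype.sum_equiv (Equiv.mulLeft (Pi.mulSingle i (-1 : ℤˣ))) _ _ (fun ε => ?_)
    simp [hij.symm]
  rw [Finset.sum_neg_distrib] at key
  omega

/-- (C5) The sign trick: summing `q` over all sign choices kills the cross terms. -/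
theorem sum_signs (h : CubeData q S H) {ι : Type*} [Fintype ι] [DecidableEq ι] (u : ι → M)
    (hu : ∀ i, u i ∈ S) :
    ∑ ε : ι → ℤˣ, q (∑ i, (ε i : ℤ) • u i) = (2 ^ Fintype.card ι : ℕ) • ∑ i, q (u i) := by
  classical
  let _ : LinearOrder ι := IsWellOrder.linearOrder WellOrderingRel
  have hε : ∀ ε : ι → ℤˣ, q (∑ i, (ε i : ℤ) • u i) =
      ∑ i, q (u i) + ∑ i, ∑ j, if i < j then ((ε i : ℤ) * (ε j : ℤ)) • bform q (u i) (u j)
        else 0 := by
    intro ε
    rw [h.map_sum (fun i => (ε i : ℤ) • u i) Finset.univ (fun i _ => h.zsmul_mem _ (hu i) _)]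
    congr 1
    · refine Finset.sum_congr rfl (fun i _ => ?_)
      rw [h.map_zsmul (hu i)]
      have : ((ε i : ℤ)) ^ 2 = 1 := by
        rcases Int.units_eq_one_or (ε i) with e | e <;> simp [e]
      rw [this, one_smul]
    · refine Finset.sum_congr rfl (fun i _ => Finset.sum_congr rfl (fun j _ => ?_))
      split_ifs
      · rw [h.bform_zsmul_zsmul (hu i) (hu j)]
      · rfl
  rw [Finset.sum_congr rfl (fun ε _ => hε ε), Finset.sum_add_distrib, Finset.sum_const,
    Finset.card_univ, Fintype.card_fun, Fintype.card_units_int]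
  have hz : ∑ ε : ι → ℤˣ, ∑ i, ∑ j,
      (if i < j then ((ε i : ℤ) * (ε j : ℤ)) • bform q (u i) (u j) else 0) = 0 := by
    rw [Finset.sum_comm]
    refine Finset.sum_eq_zero (fun i _ => ?_)
    rw [Finset.sum_comm]
    refine Finset.sum_eq_zero (fun j _ => ?_)
    split_ifs with hij
    · rw [← Finset.sum_smul, sum_sign_mul_eq_zero hij.ne, zero_smul]
    · simp
  rw [hz, add_zero]

/-- (C5'), the form used for the upper growth bound: the class of the all-plus sum plus the
classes of the other sign choices is `2 ^ card ι` times the product-type class. -/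
theorem map_sum_add_sum_signs (h : CubeData q S H) {ι : Type*} [Fintype ι] [DecidableEq ι]
    (u : ι → M) (hu : ∀ i, u i ∈ S) :
    q (∑ i, u i) + ∑ ε ∈ (Finset.univ.erase (1 : ι → ℤˣ)), q (∑ i, (ε i : ℤ) • u i) =
      (2 ^ Fintype.card ι : ℕ) • ∑ i, q (u i) := by
  rw [← h.sum_signs u hu, ← Finset.add_sum_erase Finset.univ _ (Finset.mem_univ (1 : ι → ℤˣ))]
  simp

/-- (C4) for a full finite index type. -/
theorem map_zsmul_sum_univ (h : CubeData q S H) {ι : Type*} [Fintype ι] (u : ι → M)
    (hu : ∀ i, u i ∈ S) (n : ℤ) :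
    q (n • ∑ i, u i) = (n ^ 2) • q (∑ i, u i) :=
  h.map_zsmul_sum u Finset.univ (fun i _ => hu i) n

/-- (C4) with a natural number multiple. -/
theorem map_nsmul_sum_univ (h : CubeData q S H) {ι : Type*} [Fintype ι] (u : ι → M)
    (hu : ∀ i, u i ∈ S) (n : ℕ) :
    q (n • ∑ i, u i) = (n ^ 2) • q (∑ i, u i) := by
  have := h.map_zsmul_sum_univ u hu (n : ℤ)
  rw [natCast_zsmul] at this
  rw [this]
  have e : ((n : ℤ) ^ 2) = ((n ^ 2 : ℕ) : ℤ) := by push_cast; ring
  rw [e, natCast_zsmul]

end CubeData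

/-- Constructor when the cube identity is available for all `v`, `w` (e.g. from CUBE-C on
`C × X × X` pulled back along `(a, id, id)`). -/
theorem CubeData.of_forall {q : M → P} {S : Set M} (h0 : q 0 = 0)
    (hS : ∀ u ∈ S, ∀ a : ℤ, a • u ∈ S) (hneg : ∀ u ∈ S, q (-u) = q u)
    (hcube : ∀ u ∈ S, ∀ v w : M, cubeDefect q u v w = 0) : CubeData q S ⊤ where
  map_zero := h0
  subset := fun _ _ => AddSubgroup.mem_top _
  zsmul_mem := hS
  map_neg := hneg
  cube := fun u hu v _ w _ => hcube u hu v w

/-- Constructor from a set `S0` of curve-type maps not assumed stable under multiples: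
`S` is the set of integer multiples of elements of `S0`. -/
theorem CubeData.of_multiples {q : M → P} {S0 : Set M} {H : AddSubgroup M} (h0 : q 0 = 0)
    (hS0 : ∀ u ∈ S0, u ∈ H) (hneg : ∀ u ∈ S0, ∀ a : ℤ, q (-(a • u)) = q (a • u))
    (hcube : ∀ u ∈ S0, ∀ a : ℤ, ∀ v ∈ H, ∀ w ∈ H, cubeDefect q (a • u) v w = 0) :
    CubeData q {x | ∃ u ∈ S0, ∃ a : ℤ, x = a • u} H where
  map_zero := h0
  subset := by
    rintro _ ⟨u, hu, a, rfl⟩
    exact H.zsmul_mem (hS0 u hu) a
  zsmul_mem := by
    rintro _ ⟨u, hu, a, rfl⟩ b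
    exact ⟨u, hu, b * a, by rw [mul_smul]⟩
  map_neg := by
    rintro _ ⟨u, hu, a, rfl⟩
    exact hneg u hu a
  cube := by
    rintro _ ⟨u, hu, a, rfl⟩ v hv w hw
    exact hcube u hu a v hv w hw

end Fermat.Agent.S26.helper2141
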