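import Fermat.Statements.S26
import Fermat.Statements.S25

/-!
# S26 specification file, part I: shared vocabulary (captain helper154)

`#A[n](K) = n ^ (2 g)` for an abelian variety over an algebraically closed field, by the route
of findings #2694 + #2746 (D1-D4) + #2799:
crude growth of `ℓ(mD)` + theorem of the cube only on products with a curve factor (from the
frozen S25 statement and the rigidity lemma) + the `n ↦ n ^ k` trick.

This file fixes the DEFINITIONS every module shares:
* dominant morphisms of integral schemes, the induced map of function fields, `IsSepDom`;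
* Cartier divisors on an integral scheme as function-field data (`CDiv`, multiplicative notation),
  principal divisors, linear equivalence, effectivity, support, `L(D)`, `ell`, and pull-back as a
  relation `CDiv.PullsTo`.

Conventions: `D * E` is the sum of divisors, `D ^ m` is `mD`, `1` is the zero divisor.
A local equation `f` of an effective divisor is a regular function vanishing on it, and
`L(D) = {h | h * f ∈ O_x for all x}`.
-/

set_option autoImplicit false

universe u

noncomputable section

open CategoryTheory CategoryTheory.Limits AlgebraicGeometry AlgebraicGeometry.RelPicard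
  NeronModelInfra GoodReductionJacobian

namespace Fermat.Agent.S26.helper154

/-! ### Dominant morphisms and function fields -/

section Dominant

variable {Y X : Scheme.{u}} [IsIntegral Y] [IsIntegral X]

/-- `φ` is dominant: it maps the generic point to the generic point. -/
def IsDom (φ : Y ⟶ X) : Prop :=
  φ.base (genericPoint Y) = genericPoint X

/-- The map of function fields induced by a dominant morphism. -/
def funFieldHom (φ : Y ⟶ X) (h : IsDom φ) : X.functionField →+* Y.functionField :=
  (φ.stalkMap (genericPoint Y)).hom.comp
    (X.presheaf.stalkSpecializes (specializes_of_eq h)).hom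

/-- `φ` is dominant and `K(Y)` is a finite separable extension of `φ^* K(X)` of degree `δ`. -/
def IsSepDom (φ : Y ⟶ X) (δ : ℕ) : Prop :=
  ∃ h : IsDom φ,
    letI := (funFieldHom φ h).toAlgebra
    Algebra.IsSeparable X.functionField Y.functionField ∧
      FiniteDimensional X.functionField Y.functionField ∧
      Module.finrank X.functionField Y.functionField = δ

end Dominant

/-! ### Cartier divisors -/

section Divisors

variable (X : Scheme.{u}) [IsIntegral X]

/-- The local ring `O_{X,x}` as a subring of the function field. -/
def localSubring (x : X) : Subring X.functionField :=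
  (algebraMap (X.presheaf.stalk x) X.functionField).range

/-- The units of `O_{X,x}` as a subgroup of `K(X)ˣ`. -/
def unitsAt (x : X) : Subgroup (X.functionField)ˣ :=
  (Units.map
    (algebraMap (X.presheaf.stalk x) X.functionField : X.presheaf.stalk x →* X.functionField)).range

/-- Germs of Cartier divisors at `x`: `K(X)ˣ / O_{X,x}ˣ`. -/
abbrev LocDiv (x : X) : Type u := (X.functionField)ˣ ⧸ unitsAt X x

/-- Cartier divisors on an integral scheme, in MULTIPLICATIVE notation: families of germs that
are locally represented by one rational function (a local equation). -/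
def CDiv : Subgroup (∀ x : X, LocDiv X x) where
  carrier := {D | ∀ x : X, ∃ U : X.Opens, x ∈ U ∧ ∃ f : (X.functionField)ˣ,
    ∀ y ∈ U, D y = QuotientGroup.mk f}
  one_mem' := fun _ => ⟨⊤, trivial, 1, fun _ _ => rfl⟩
  mul_mem' := by
    intro D E hD hE x
    obtain ⟨U, hxU, f, hf⟩ := hD x
    obtain ⟨V, hxV, g, hg⟩ := hE x
    refine ⟨U ⊓ V, ⟨hxU, hxV⟩, f * g, fun y hy => ?_⟩
    rw [Pi.mul_apply, hf y hy.1, hg y hy.2]
    rfl
  inv_mem' := by
    intro D hD x
    obtain ⟨U, hxU, f, hf⟩ := hD x
    refine ⟨U, hxU, f⁻¹, fun y hy => ?_⟩
    rw [Pi.inv_apply, hf y hy]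
    rfl

namespace CDiv

variable {X}

/-- The principal divisor of a rational function: local equation `f` everywhere. -/
def principal : (X.functionField)ˣ →* CDiv X where
  toFun f := ⟨fun _ => QuotientGroup.mk f, fun _ => ⟨⊤, trivial, f, fun _ _ => rfl⟩⟩
  map_one' := rfl
  map_mul' _ _ := rfl

/-- Linear equivalence. -/
def LinEquiv (D E : CDiv X) : Prop :=
  ∃ f : (X.functionField)ˣ, D = E * principal f

/-- Effective divisors: the local equations are regular. -/
def IsEffective (D : CDiv X) : Prop :=
  ∀ x : X, ∃ f : (X.functionField)ˣ, D.1 x = QuotientGroup.mk f ∧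
    (f : X.functionField) ∈ localSubring X x

/-- The support of a divisor. -/
def supp (D : CDiv X) : Set X :=
  {x | D.1 x ≠ 1}

/-- `L(D)` as a set: rational functions `h` with `div h + D ≥ 0`. -/
def LSet (D : CDiv X) : Set X.functionField :=
  {h | ∀ x : X, ∃ f : (X.functionField)ˣ, D.1 x = QuotientGroup.mk f ∧
    h * (f : X.functionField) ∈ localSubring X x}

/-- `E` is the pull-back of `D` along `φ : Y ⟶ X`. Such an `E` exists iff the image of the
generic point of `Y` is not in the support of `D`, and it is then unique. -/
def PullsTo {Y : Scheme.{u}} [IsIntegral Y] (φ : Y ⟶ X) (D : CDiv X) (E : CDiv Y) : Prop :=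
  ∀ y : Y, ∃ r : (X.presheaf.stalk (φ.base (genericPoint Y)))ˣ,
    D.1 (φ.base y) = QuotientGroup.mk
      (Units.map (algebraMap (X.presheaf.stalk (φ.base (genericPoint Y))) X.functionField :
        X.presheaf.stalk (φ.base (genericPoint Y)) →* X.functionField) r) ∧
    E.1 y = QuotientGroup.mk
      (Units.map ((φ.stalkMap (genericPoint Y)).hom :
        X.presheaf.stalk (φ.base (genericPoint Y)) →* Y.functionField) r)

end CDiv

end Divisors

/-! ### The `K`-structure and `ℓ(D)` -/

section KStructure

variable {X : Scheme.{u}} [IsIntegral X]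

instance nonempty_top_opens : Nonempty (⊤ : X.Opens) := ⟨⟨genericPoint X, trivial⟩⟩

/-- The structure map `K → K(X)` of a `K`-scheme `x : X ⟶ Spec K`. -/
def constHom {K : Type u} [Field K] (x : X ⟶ Spec (CommRingCat.of K)) : K →+* X.functionField :=
  ((Scheme.ΓSpecIso (CommRingCat.of K)).inv ≫ x.appTop ≫ X.germToFunctionField ⊤).hom

theorem constHom_mem_localSubring {K : Type u} [Field K] (x : X ⟶ Spec (CommRingCat.of K)) (a : K)
    (p : X) : constHom x a ∈ localSubring X p := by
  refine ⟨X.presheaf.germ ⊤ p (TopologicalSpace.Opens.mem_top p)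
    (x.appTop ((Scheme.ΓSpecIso (CommRingCat.of K)).inv a)), ?_⟩
  rw [Scheme.algebraMap_germ_eq_germToFunctionField]
  rfl

namespace CDiv

/-- `L(D)` as a `K`-subspace of the function field (`K`-structure given by `x`). -/
def LSub {K : Type u} [Field K] (x : X ⟶ Spec (CommRingCat.of K)) (D : CDiv X) :
    letI := (constHom x).toAlgebra
    Submodule K X.functionField :=
  letI := (constHom x).toAlgebra
  { carrier := LSet D
    zero_mem' := fun p => by
      obtain ⟨f, hf⟩ := QuotientGroup.mk_surjective (D.1 p)
      exact ⟨f, hf.symm, by rw [zero_mul]; exact Subring.zero_mem _⟩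
    add_mem' := by
      intro a b ha hb p
      obtain ⟨f, hf, haf⟩ := ha p
      obtain ⟨f', hf', hbf⟩ := hb p
      refine ⟨f, hf, ?_⟩
      rw [hf] at hf'
      have h1 : f⁻¹ * f' ∈ unitsAt X p := QuotientGroup.eq.mp hf'
      obtain ⟨u, hu⟩ := h1
      have h2 : b * (f : X.functionField) = b * (f' : X.functionField) *
          (algebraMap (X.presheaf.stalk p) X.functionField (u⁻¹ : (X.presheaf.stalk p)ˣ)) := by
        have h3 : ((Units.map (algebraMap (X.presheaf.stalk p) X.functionField :
            X.presheaf.stalk p →* X.functionField) u⁻¹ : (X.functionField)ˣ) : X.functionField) =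
            (f' : X.functionField)⁻¹ * f := by
          rw [map_inv, hu]; simp
        have h4 : (algebraMap (X.presheaf.stalk p) X.functionField (u⁻¹ : (X.presheaf.stalk p)ˣ)) =
            (f' : X.functionField)⁻¹ * f := h3
        rw [h4]
        field_simp
      rw [add_mul, h2]
      exact Subring.add_mem _ haf (Subring.mul_mem _ hbf ⟨_, rfl⟩)
    smul_mem' := by
      intro a h hh p
      obtain ⟨f, hf, hhf⟩ := hh p
      refine ⟨f, hf, ?_⟩
      rw [Algebra.smul_def, mul_assoc]
      exact Subring.mul_mem _ (constHom_mem_localSubring x a p) hhf }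

/-- `ℓ(D) = dim_K L(D)` (it is `0` when `L(D)` is infinite-dimensional: see `LFinite`). -/
def ell {K : Type u} [Field K] (x : X ⟶ Spec (CommRingCat.of K)) (D : CDiv X) : ℕ :=
  letI := (constHom x).toAlgebra
  Module.finrank K (LSub x D)

/-- `L(D)` is finite-dimensional over `K`. -/
def LFinite {K : Type u} [Field K] (x : X ⟶ Spec (CommRingCat.of K)) (D : CDiv X) : Prop :=
  letI := (constHom x).toAlgebra
  Module.Finite K (LSub x D)

theorem mem_LSub_iff {K : Type u} [Field K] (x : X ⟶ Spec (CommRingCat.of K)) (D : CDiv X)
    (h : X.functionField) :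
    letI := (constHom x).toAlgebra
    h ∈ LSub x D ↔ h ∈ LSet D :=
  Iff.rfl

end CDiv

end KStructure

end Fermat.Agent.S26.helper154
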