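/-
S26-M2-PULL (helper218): the pull-back relation `CDiv.PullsTo` of `helper154_Spec`.

Contents (namespace `Fermat.Agent.S26.helper218`; `φ : Y ⟶ X` any morphism of integral schemes):

* `RestrictsTo φ f g` : `f ∈ K(X)` is regular at `φ(η_Y)` and restricts to `g ∈ K(Y)`; ring
  operations, uniqueness, `restrictsTo_of_stalk` (compatibility with the stalk maps at any `y`).
* `PullsTo.unique`, `PullsTo.one / mul / inv / div / pow / zpow`, `PullsTo.apply_genericPoint`,
  `exists_pullsTo` (existence iff `φ(η_Y) ∉ supp D`), `pullsTo_principal`,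
  `PullsTo.mem_range_principal`, `PullsTo.isEffective`.
-/
import Fermat.Agent.S26.helper154_Spec

set_option autoImplicit false

universe u

open AlgebraicGeometry CategoryTheory TopologicalSpace

namespace Fermat.Agent.S26.helper218

open Fermat.Agent.S26.helper154

/-! ### Restriction of rational functions along a morphism -/

section Restrict

variable {X Y : Scheme.{u}} [IsIntegral X] [IsIntegral Y]

/-- `f ∈ K(X)` is regular at `φ(η_Y)` and restricts to `g ∈ K(Y)`. -/
def RestrictsTo (φ : Y ⟶ X) (f : X.functionField) (g : Y.functionField) : Prop :=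
  ∃ r : X.presheaf.stalk (φ.base (genericPoint Y)),
    algebraMap (X.presheaf.stalk (φ.base (genericPoint Y))) X.functionField r = f ∧
      φ.stalkMap (genericPoint Y) r = g

theorem algebraMap_stalk_injective (x : X) :
    Function.Injective (algebraMap (X.presheaf.stalk x) X.functionField) :=
  IsFractionRing.injective _ _

theorem algebraMap_stalk_eq (x : X) (a : X.presheaf.stalk x) :
    algebraMap (X.presheaf.stalk x) X.functionField a =
      X.presheaf.stalkSpecializes ((genericPoint_spec X).specializes trivial) a := rfl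

omit [IsIntegral X] in
theorem genericPoint_specializes' (x : X) [IrreducibleSpace X] : genericPoint X ⤳ x :=
  (genericPoint_spec X).specializes trivial

omit [IsIntegral X] in
theorem map_genericPoint_specializes (φ : Y ⟶ X) (y : Y) :
    φ.base (genericPoint Y) ⤳ φ.base y :=
  φ.base.hom.map_specializes (genericPoint_specializes' y)

/-- An element of the local ring at `φ y` restricts to (the image in `K(Y)` of) its image under
the stalk map at `y`. -/
theorem restrictsTo_of_stalk (φ : Y ⟶ X) (y : Y) (a : X.presheaf.stalk (φ.base y)) :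
    RestrictsTo φ (algebraMap (X.presheaf.stalk (φ.base y)) X.functionField a)
      (algebraMap (Y.presheaf.stalk y) Y.functionField (φ.stalkMap y a)) := by
  refine ⟨X.presheaf.stalkSpecializes (map_genericPoint_specializes φ y) a, ?_, ?_⟩
  · rw [algebraMap_stalk_eq, algebraMap_stalk_eq, ← ConcreteCategory.comp_apply,
      TopCat.Presheaf.stalkSpecializes_comp]
  · rw [algebraMap_stalk_eq]
    exact Scheme.Hom.stalkSpecializes_stalkMap_apply φ _ _ (genericPoint_specializes' y) a

variable {φ : Y ⟶ X}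

theorem RestrictsTo.unique {f : X.functionField} {g g' : Y.functionField}
    (h : RestrictsTo φ f g) (h' : RestrictsTo φ f g') : g = g' := by
  obtain ⟨r, hr, rfl⟩ := h
  obtain ⟨r', hr', rfl⟩ := h'
  rw [algebraMap_stalk_injective _ (hr.trans hr'.symm)]

theorem RestrictsTo.add {f f' : X.functionField} {g g' : Y.functionField}
    (h : RestrictsTo φ f g) (h' : RestrictsTo φ f' g') : RestrictsTo φ (f + f') (g + g') := by
  obtain ⟨r, rfl, rfl⟩ := h
  obtain ⟨r', rfl, rfl⟩ := h'
  exact ⟨r + r', map_add _ _ _, map_add _ _ _⟩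

theorem RestrictsTo.mul {f f' : X.functionField} {g g' : Y.functionField}
    (h : RestrictsTo φ f g) (h' : RestrictsTo φ f' g') : RestrictsTo φ (f * f') (g * g') := by
  obtain ⟨r, rfl, rfl⟩ := h
  obtain ⟨r', rfl, rfl⟩ := h'
  exact ⟨r * r', map_mul _ _ _, map_mul _ _ _⟩

theorem RestrictsTo.neg {f : X.functionField} {g : Y.functionField}
    (h : RestrictsTo φ f g) : RestrictsTo φ (-f) (-g) := by
  obtain ⟨r, rfl, rfl⟩ := h
  exact ⟨-r, map_neg _ _, map_neg _ _⟩

theorem RestrictsTo.sub {f f' : X.functionField} {g g' : Y.functionField}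
    (h : RestrictsTo φ f g) (h' : RestrictsTo φ f' g') : RestrictsTo φ (f - f') (g - g') := by
  obtain ⟨r, rfl, rfl⟩ := h
  obtain ⟨r', rfl, rfl⟩ := h'
  exact ⟨r - r', map_sub _ _ _, map_sub _ _ _⟩

theorem RestrictsTo.one : RestrictsTo φ (1 : X.functionField) (1 : Y.functionField) :=
  ⟨1, map_one _, map_one _⟩

theorem RestrictsTo.zero : RestrictsTo φ (0 : X.functionField) (0 : Y.functionField) :=
  ⟨0, map_zero _, map_zero _⟩

theorem RestrictsTo.pow {f : X.functionField} {g : Y.functionField}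
    (h : RestrictsTo φ f g) (n : ℕ) : RestrictsTo φ (f ^ n) (g ^ n) := by
  obtain ⟨r, rfl, rfl⟩ := h
  exact ⟨r ^ n, map_pow _ _ _, map_pow _ _ _⟩

/-- If `f` restricts to a nonzero `g`, then `f⁻¹` restricts to `g⁻¹`. -/
theorem RestrictsTo.inv {f : X.functionField} {g : Y.functionField}
    (h : RestrictsTo φ f g) (hg : g ≠ 0) : RestrictsTo φ f⁻¹ g⁻¹ := by
  obtain ⟨r, rfl, rfl⟩ := h
  have hu : IsUnit r := by
    have h1 : IsUnit ((φ.stalkMap (genericPoint Y)).hom r) := isUnit_iff_ne_zero.2 hg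
    exact isUnit_of_map_unit (φ.stalkMap (genericPoint Y)).hom r h1
  obtain ⟨u, rfl⟩ := hu
  exact ⟨((u⁻¹ : (X.presheaf.stalk (φ.base (genericPoint Y)))ˣ) : X.presheaf.stalk _),
    map_units_inv _ u, map_units_inv (φ.stalkMap (genericPoint Y)).hom u⟩

/-- A function regular at `φ y` restricts to a function regular at `y`. -/
theorem exists_restrictsTo_of_mem_localSubring (φ : Y ⟶ X) (y : Y) {f : X.functionField}
    (hf : f ∈ localSubring X (φ.base y)) :
    ∃ g : Y.functionField, RestrictsTo φ f g ∧ g ∈ localSubring Y y := by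
  obtain ⟨a, rfl⟩ := hf
  exact ⟨_, restrictsTo_of_stalk φ y a, ⟨_, rfl⟩⟩

/-- If `f` is regular at `φ y` and restricts to `g`, then `g` is regular at `y`. -/
theorem RestrictsTo.mem_localSubring {f : X.functionField} {g : Y.functionField}
    (h : RestrictsTo φ f g) (y : Y) (hf : f ∈ localSubring X (φ.base y)) :
    g ∈ localSubring Y y := by
  obtain ⟨g', hg', hmem⟩ := exists_restrictsTo_of_mem_localSubring φ y hf
  rwa [h.unique hg']

end Restrict

/-! ### Units of local rings -/

section Units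

variable (X : Scheme.{u}) [IsIntegral X]

/-- The image in `K(X)ˣ` of a unit of the local ring at `x`. -/
noncomputable def stalkUnit (x : X) (u : (X.presheaf.stalk x)ˣ) : (X.functionField)ˣ :=
  Units.map (algebraMap (X.presheaf.stalk x) X.functionField :
    X.presheaf.stalk x →* X.functionField) u

variable {X}

theorem mem_unitsAt {x : X} {f : (X.functionField)ˣ} :
    f ∈ unitsAt X x ↔ ∃ u : (X.presheaf.stalk x)ˣ, stalkUnit X x u = f :=
  MonoidHom.mem_range

theorem stalkUnit_injective (x : X) : Function.Injective (stalkUnit X x) :=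
  Units.map_injective (algebraMap_stalk_injective x)

theorem coe_stalkUnit (x : X) (u : (X.presheaf.stalk x)ˣ) :
    ((stalkUnit X x u : (X.functionField)ˣ) : X.functionField) =
      algebraMap (X.presheaf.stalk x) X.functionField u := rfl

theorem mk_eq_mk_iff {x : X} {f f' : (X.functionField)ˣ} :
    (QuotientGroup.mk f : LocDiv X x) = QuotientGroup.mk f' ↔
      ∃ u : (X.presheaf.stalk x)ˣ, f' = f * stalkUnit X x u := by
  rw [QuotientGroup.eq, mem_unitsAt]
  constructor
  · rintro ⟨u, hu⟩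
    exact ⟨u, by rw [hu, mul_inv_cancel_left]⟩
  · rintro ⟨u, rfl⟩
    exact ⟨u, by rw [inv_mul_cancel_left]⟩

theorem mk_eq_one_iff {x : X} {f : (X.functionField)ˣ} :
    (QuotientGroup.mk f : LocDiv X x) = 1 ↔ ∃ u : (X.presheaf.stalk x)ˣ, f = stalkUnit X x u := by
  rw [QuotientGroup.eq_one_iff, mem_unitsAt]
  constructor
  · rintro ⟨u, hu⟩
    exact ⟨u, hu.symm⟩
  · rintro ⟨u, rfl⟩
    exact ⟨u, rfl⟩

variable {Y : Scheme.{u}} [IsIntegral Y]

/-- The unit of `K(X)` attached to a unit of the local ring at `φ(η_Y)`. -/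
noncomputable def unitK (φ : Y ⟶ X) (r : (X.presheaf.stalk (φ.base (genericPoint Y)))ˣ) :
    (X.functionField)ˣ :=
  stalkUnit X (φ.base (genericPoint Y)) r

/-- The restriction to `Y` of a unit of the local ring at `φ(η_Y)`, as a unit of `K(Y)`. -/
noncomputable def unitPull (φ : Y ⟶ X) (r : (X.presheaf.stalk (φ.base (genericPoint Y)))ˣ) :
    (Y.functionField)ˣ :=
  Units.map ((φ.stalkMap (genericPoint Y)).hom :
    X.presheaf.stalk (φ.base (genericPoint Y)) →* Y.functionField) r

theorem unitK_injective (φ : Y ⟶ X) : Function.Injective (unitK φ) :=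
  stalkUnit_injective _

theorem unitK_mul (φ : Y ⟶ X) (r r' : (X.presheaf.stalk (φ.base (genericPoint Y)))ˣ) :
    unitK φ (r * r') = unitK φ r * unitK φ r' := map_mul _ _ _

omit [IsIntegral X] in
theorem unitPull_mul (φ : Y ⟶ X) (r r' : (X.presheaf.stalk (φ.base (genericPoint Y)))ˣ) :
    unitPull φ (r * r') = unitPull φ r * unitPull φ r' := map_mul _ _ _

theorem unitK_inv (φ : Y ⟶ X) (r : (X.presheaf.stalk (φ.base (genericPoint Y)))ˣ) :
    unitK φ r⁻¹ = (unitK φ r)⁻¹ := map_inv _ _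

omit [IsIntegral X] in
theorem unitPull_inv (φ : Y ⟶ X) (r : (X.presheaf.stalk (φ.base (genericPoint Y)))ˣ) :
    unitPull φ r⁻¹ = (unitPull φ r)⁻¹ := map_inv _ _

theorem unitK_one (φ : Y ⟶ X) : unitK φ 1 = 1 := map_one _

omit [IsIntegral X] in
theorem unitPull_one (φ : Y ⟶ X) : unitPull φ 1 = 1 := map_one _

theorem unitK_pow (φ : Y ⟶ X) (r : (X.presheaf.stalk (φ.base (genericPoint Y)))ˣ) (n : ℕ) :
    unitK φ (r ^ n) = unitK φ r ^ n := map_pow _ _ _

omit [IsIntegral X] in
theorem unitPull_pow (φ : Y ⟶ X) (r : (X.presheaf.stalk (φ.base (genericPoint Y)))ˣ) (n : ℕ) :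
    unitPull φ (r ^ n) = unitPull φ r ^ n := map_pow _ _ _

theorem unitK_zpow (φ : Y ⟶ X) (r : (X.presheaf.stalk (φ.base (genericPoint Y)))ˣ) (n : ℤ) :
    unitK φ (r ^ n) = unitK φ r ^ n := map_zpow _ _ _

omit [IsIntegral X] in
theorem unitPull_zpow (φ : Y ⟶ X) (r : (X.presheaf.stalk (φ.base (genericPoint Y)))ˣ) (n : ℤ) :
    unitPull φ (r ^ n) = unitPull φ r ^ n := map_zpow _ _ _

/-- `unitK r` restricts to `unitPull r`. -/
theorem restrictsTo_unitK (φ : Y ⟶ X) (r : (X.presheaf.stalk (φ.base (genericPoint Y)))ˣ) :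
    RestrictsTo φ (unitK φ r : X.functionField) (unitPull φ r : Y.functionField) :=
  ⟨r, rfl, rfl⟩

/-- A unit of the local ring at `φ y`, transported to the local ring at `φ(η_Y)`. -/
noncomputable def specUnit (φ : Y ⟶ X) (y : Y) (u : (X.presheaf.stalk (φ.base y))ˣ) :
    (X.presheaf.stalk (φ.base (genericPoint Y)))ˣ :=
  Units.map ((X.presheaf.stalkSpecializes (map_genericPoint_specializes φ y)).hom :
    X.presheaf.stalk (φ.base y) →* X.presheaf.stalk (φ.base (genericPoint Y))) u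

theorem unitK_specUnit (φ : Y ⟶ X) (y : Y) (u : (X.presheaf.stalk (φ.base y))ˣ) :
    unitK φ (specUnit φ y u) = stalkUnit X (φ.base y) u := by
  ext
  simp only [unitK, stalkUnit, specUnit, Units.coe_map, MonoidHom.coe_coe]
  rw [algebraMap_stalk_eq, algebraMap_stalk_eq, ← ConcreteCategory.comp_apply,
    TopCat.Presheaf.stalkSpecializes_comp]

omit [IsIntegral X] in
theorem unitPull_specUnit (φ : Y ⟶ X) (y : Y) (u : (X.presheaf.stalk (φ.base y))ˣ) :
    unitPull φ (specUnit φ y u) =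
      stalkUnit Y y (Units.map ((φ.stalkMap y).hom :
        X.presheaf.stalk (φ.base y) →* Y.presheaf.stalk y) u) := by
  ext
  simp only [unitPull, stalkUnit, specUnit, Units.coe_map, MonoidHom.coe_coe]
  rw [algebraMap_stalk_eq]
  exact Scheme.Hom.stalkSpecializes_stalkMap_apply φ _ _ (genericPoint_specializes' y) _

omit [IsIntegral X] in
theorem unitPull_specUnit_mem (φ : Y ⟶ X) (y : Y) (u : (X.presheaf.stalk (φ.base y))ˣ) :
    unitPull φ (specUnit φ y u) ∈ unitsAt Y y :=
  mem_unitsAt.2 ⟨_, (unitPull_specUnit φ y u).symm⟩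

/-- Pointwise uniqueness: two local equations at `φ y` which are units at `φ(η_Y)` have
restrictions differing by a unit of the local ring at `y`. -/
theorem mk_unitPull_eq (φ : Y ⟶ X) (y : Y)
    {r r' : (X.presheaf.stalk (φ.base (genericPoint Y)))ˣ}
    (h : (QuotientGroup.mk (unitK φ r) : LocDiv X (φ.base y)) = QuotientGroup.mk (unitK φ r')) :
    (QuotientGroup.mk (unitPull φ r) : LocDiv Y y) = QuotientGroup.mk (unitPull φ r') := by
  obtain ⟨u, hu⟩ := mk_eq_mk_iff.1 h
  rw [← unitK_specUnit φ y u] at hu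
  have h2 : r' = r * specUnit φ y u := unitK_injective φ (by rw [hu, unitK_mul])
  rw [QuotientGroup.eq, h2]
  have : (unitPull φ r)⁻¹ * unitPull φ (r * specUnit φ y u) = unitPull φ (specUnit φ y u) := by
    rw [unitPull_mul, inv_mul_cancel_left]
  rw [this]
  exact unitPull_specUnit_mem φ y u

end Units

/-! ### The pull-back relation -/

section Pull

variable {X Y : Scheme.{u}} [IsIntegral X] [IsIntegral Y]

/-- Unfolding of the Spec definition in terms of `unitK` / `unitPull`. -/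
theorem pullsTo_iff {φ : Y ⟶ X} {D : CDiv X} {E : CDiv Y} :
    CDiv.PullsTo φ D E ↔ ∀ y : Y, ∃ r : (X.presheaf.stalk (φ.base (genericPoint Y)))ˣ,
      D.1 (φ.base y) = QuotientGroup.mk (unitK φ r) ∧ E.1 y = QuotientGroup.mk (unitPull φ r) :=
  Iff.rfl

/-- **Uniqueness of the pull-back.** -/
theorem PullsTo.unique {φ : Y ⟶ X} {D : CDiv X} {E E' : CDiv Y}
    (h : CDiv.PullsTo φ D E) (h' : CDiv.PullsTo φ D E') : E = E' := by
  apply Subtype.ext
  funext y
  obtain ⟨r, hr, hE⟩ := pullsTo_iff.1 h y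
  obtain ⟨r', hr', hE'⟩ := pullsTo_iff.1 h' y
  rw [hE, hE']
  exact mk_unitPull_eq φ y (hr.symm.trans hr')

theorem PullsTo.one (φ : Y ⟶ X) : CDiv.PullsTo φ (1 : CDiv X) (1 : CDiv Y) := fun _ =>
  ⟨1, by rw [map_one]; rfl, by rw [map_one]; rfl⟩

theorem PullsTo.mul {φ : Y ⟶ X} {D D' : CDiv X} {E E' : CDiv Y}
    (h : CDiv.PullsTo φ D E) (h' : CDiv.PullsTo φ D' E') :
    CDiv.PullsTo φ (D * D') (E * E') := pullsTo_iff.2 fun y => by
  obtain ⟨r, hr, hE⟩ := pullsTo_iff.1 h y
  obtain ⟨r', hr', hE'⟩ := pullsTo_iff.1 h' y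
  refine ⟨r * r', ?_, ?_⟩
  · rw [Subgroup.coe_mul, Pi.mul_apply, hr, hr', unitK_mul, QuotientGroup.mk_mul]
  · rw [Subgroup.coe_mul, Pi.mul_apply, hE, hE', unitPull_mul, QuotientGroup.mk_mul]

theorem PullsTo.inv {φ : Y ⟶ X} {D : CDiv X} {E : CDiv Y}
    (h : CDiv.PullsTo φ D E) : CDiv.PullsTo φ D⁻¹ E⁻¹ := pullsTo_iff.2 fun y => by
  obtain ⟨r, hr, hE⟩ := pullsTo_iff.1 h y
  refine ⟨r⁻¹, ?_, ?_⟩
  · rw [Subgroup.coe_inv, Pi.inv_apply, hr, unitK_inv, QuotientGroup.mk_inv]
  · rw [Subgroup.coe_inv, Pi.inv_apply, hE, unitPull_inv, QuotientGroup.mk_inv]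

theorem PullsTo.div {φ : Y ⟶ X} {D D' : CDiv X} {E E' : CDiv Y}
    (h : CDiv.PullsTo φ D E) (h' : CDiv.PullsTo φ D' E') :
    CDiv.PullsTo φ (D / D') (E / E') := by
  rw [div_eq_mul_inv, div_eq_mul_inv]
  exact PullsTo.mul h (PullsTo.inv h')

theorem PullsTo.pow {φ : Y ⟶ X} {D : CDiv X} {E : CDiv Y}
    (h : CDiv.PullsTo φ D E) (n : ℕ) : CDiv.PullsTo φ (D ^ n) (E ^ n) := by
  induction n with
  | zero => rw [pow_zero, pow_zero]; exact PullsTo.one φ
  | succ n ih => rw [pow_succ, pow_succ]; exact PullsTo.mul ih h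

theorem PullsTo.zpow {φ : Y ⟶ X} {D : CDiv X} {E : CDiv Y}
    (h : CDiv.PullsTo φ D E) (n : ℤ) : CDiv.PullsTo φ (D ^ n) (E ^ n) := by
  cases n with
  | ofNat n => rw [Int.ofNat_eq_natCast, zpow_natCast, zpow_natCast]; exact PullsTo.pow h n
  | negSucc n => rw [zpow_negSucc, zpow_negSucc]; exact PullsTo.inv (PullsTo.pow h (n + 1))

/-- If a pull-back exists, then `φ(η_Y)` is not in the support of `D`. -/
theorem PullsTo.apply_genericPoint {φ : Y ⟶ X} {D : CDiv X} {E : CDiv Y}
    (h : CDiv.PullsTo φ D E) : D.1 (φ.base (genericPoint Y)) = 1 := by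
  obtain ⟨r, hr, -⟩ := pullsTo_iff.1 h (genericPoint Y)
  rw [hr]
  exact mk_eq_one_iff.2 ⟨r, rfl⟩

theorem PullsTo.genericPoint_notMem_supp {φ : Y ⟶ X} {D : CDiv X} {E : CDiv Y}
    (h : CDiv.PullsTo φ D E) : φ.base (genericPoint Y) ∉ CDiv.supp D := fun hmem =>
  hmem (PullsTo.apply_genericPoint h)

/-- Near `φ y`, a divisor whose support misses `φ(η_Y)` has a local equation which is a unit at
`φ(η_Y)`, valid on a whole neighbourhood. -/
theorem exists_local_unit (φ : Y ⟶ X) (D : CDiv X) (hD : D.1 (φ.base (genericPoint Y)) = 1)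
    (y : Y) : ∃ U : X.Opens, φ.base y ∈ U ∧ ∃ r : (X.presheaf.stalk (φ.base (genericPoint Y)))ˣ,
      ∀ x ∈ U, D.1 x = QuotientGroup.mk (unitK φ r) := by
  obtain ⟨U, hyU, f, hf⟩ := D.2 (φ.base y)
  have hgen : φ.base (genericPoint Y) ∈ U :=
    (map_genericPoint_specializes φ y).mem_open U.isOpen hyU
  have h1 : (QuotientGroup.mk f : LocDiv X (φ.base (genericPoint Y))) = 1 := by
    rw [← hf _ hgen]; exact hD
  obtain ⟨r, rfl⟩ := mk_eq_one_iff.1 h1
  exact ⟨U, hyU, r, hf⟩

/-- **Existence of the pull-back**: if `φ(η_Y)` is not in the support of `D`, then `D` has a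
pull-back along `φ`. -/
theorem exists_pullsTo (φ : Y ⟶ X) (D : CDiv X) (hD : D.1 (φ.base (genericPoint Y)) = 1) :
    ∃ E : CDiv Y, CDiv.PullsTo φ D E := by
  choose U hyU r hr using exists_local_unit φ D hD
  refine ⟨⟨fun y => QuotientGroup.mk (unitPull φ (r y)), fun y => ?_⟩, fun y => ?_⟩
  · refine ⟨φ ⁻¹ᵁ U y, hyU y, unitPull φ (r y), fun y' hy' => ?_⟩
    exact mk_unitPull_eq φ y' ((hr y' _ (hyU y')).symm.trans (hr y _ hy'))
  · exact ⟨r y, hr y _ (hyU y), rfl⟩

/-- A pull-back of `D` along `φ` exists iff `φ(η_Y)` is not in the support of `D`. -/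
theorem exists_pullsTo_iff (φ : Y ⟶ X) (D : CDiv X) :
    (∃ E : CDiv Y, CDiv.PullsTo φ D E) ↔ φ.base (genericPoint Y) ∉ CDiv.supp D := by
  constructor
  · rintro ⟨E, hE⟩
    exact PullsTo.genericPoint_notMem_supp hE
  · intro h
    exact exists_pullsTo φ D (not_not.1 h)

/-- The pull-back of the principal divisor of a function which is a unit at `φ(η_Y)`. -/
theorem pullsTo_principal (φ : Y ⟶ X) (r : (X.presheaf.stalk (φ.base (genericPoint Y)))ˣ) :
    CDiv.PullsTo φ (CDiv.principal (unitK φ r)) (CDiv.principal (unitPull φ r)) := fun _ =>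
  ⟨r, rfl, rfl⟩

/-- If a principal divisor `div g` pulls back to `F`, then `g` is a unit at `φ(η_Y)` and `F` is
the principal divisor of its restriction. -/
theorem PullsTo.exists_eq_principal {φ : Y ⟶ X} {g : (X.functionField)ˣ} {F : CDiv Y}
    (h : CDiv.PullsTo φ (CDiv.principal g) F) :
    ∃ r : (X.presheaf.stalk (φ.base (genericPoint Y)))ˣ,
      g = unitK φ r ∧ F = CDiv.principal (unitPull φ r) := by
  have h1 : (QuotientGroup.mk g : LocDiv X (φ.base (genericPoint Y))) = 1 :=
    PullsTo.apply_genericPoint h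
  obtain ⟨r, rfl⟩ := mk_eq_one_iff.1 h1
  exact ⟨r, rfl, PullsTo.unique h (pullsTo_principal φ r)⟩

/-- Pull-backs of principal divisors are principal. -/
theorem PullsTo.mem_range_principal {φ : Y ⟶ X} {g : (X.functionField)ˣ} {F : CDiv Y}
    (h : CDiv.PullsTo φ (CDiv.principal g) F) : F ∈ (CDiv.principal (X := Y)).range := by
  obtain ⟨r, -, rfl⟩ := PullsTo.exists_eq_principal h
  exact ⟨_, rfl⟩

/-- Pull-backs of linearly equivalent divisors are linearly equivalent. -/
theorem PullsTo.linEquiv {φ : Y ⟶ X} {D D' : CDiv X} {E E' : CDiv Y}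
    (h : CDiv.PullsTo φ D E) (h' : CDiv.PullsTo φ D' E') (hl : CDiv.LinEquiv D D') :
    CDiv.LinEquiv E E' := by
  obtain ⟨g, hg⟩ := hl
  have h3 : CDiv.PullsTo φ (CDiv.principal g) (E'⁻¹ * E) := by
    have := PullsTo.mul (PullsTo.inv h') h
    rwa [hg, inv_mul_cancel_left] at this
  obtain ⟨r, -, hr⟩ := PullsTo.exists_eq_principal h3
  exact ⟨unitPull φ r, by rw [← hr, mul_inv_cancel_left]⟩

/-- **Pull-backs of effective divisors are effective.** -/
theorem PullsTo.isEffective {φ : Y ⟶ X} {D : CDiv X} {E : CDiv Y}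
    (h : CDiv.PullsTo φ D E) (hD : CDiv.IsEffective D) : CDiv.IsEffective E := fun y => by
  obtain ⟨r, hr, hE⟩ := pullsTo_iff.1 h y
  obtain ⟨f, hf, hfmem⟩ := hD (φ.base y)
  refine ⟨unitPull φ r, hE, ?_⟩
  -- `unitK r = f * u` with `u` a unit at `φ y`, hence `unitK r` is regular at `φ y`
  obtain ⟨u, hu⟩ := mk_eq_mk_iff.1 (hf.symm.trans hr)
  have hmem : (unitK φ r : X.functionField) ∈ localSubring X (φ.base y) := by
    rw [hu, Units.val_mul]
    exact Subring.mul_mem _ hfmem ⟨_, rfl⟩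
  exact (restrictsTo_unitK φ r).mem_localSubring y hmem

end Pull

end Fermat.Agent.S26.helper218
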