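/-
S26-M0-GRP (helper2966): the pure group-theory end of module M0 of the S26 route,
stated directly on the frozen data `(R, f, L : RelativeGroupLaw R f)`.

* `nsmul_eq_pow`            : the frozen `L.nsmul t n x` is `x ^ n` in `L.pointGroup t`.
* `nsmul_val`               : `(L.nsmul t n x).1 = x.1 ≫ L.schemeNsmul n`.
* `natCard_torsion_mul`     : `#A[m*n] = #A[m] * #A[n]` when `[m]` is onto on `t`-points.
* `natCard_torsion_pow`     : `#A[n^k] = (#A[n])^k` when `[n]` is onto on `t`-points.
* `natCard_fiber_eq`        : every nonempty fibre of `[n]` on points has `#A[n]` elements.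
* `torsionEquivKerPoints`   : the frozen torsion subtype is the set of sections of the
                               scheme-theoretic kernel `L.schemeKer n`.
-/
import Mathlib
import Fermat.Prelude.Def_GoodReductionJacobian_RelativeGroupLawKernel

set_option autoImplicit false
set_option linter.style.haveILetI false

noncomputable section

open CategoryTheory CategoryTheory.Limits AlgebraicGeometry NeronModelInfra GoodReductionJacobian

universe u

namespace Fermat.Agent.S26.helper2966

/-! ### Abstract group theory -/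

section Abstract

variable {G : Type*} [CommGroup G]

/-- The `n`-torsion subgroup of a commutative group, as the kernel of `x ↦ x ^ n`. -/
def torsionKer (G : Type*) [CommGroup G] (n : ℕ) : Subgroup G := (powMonoidHom n : G →* G).ker

theorem mem_torsionKer {n : ℕ} {x : G} : x ∈ torsionKer G n ↔ x ^ n = 1 := by
  simp [torsionKer, MonoidHom.mem_ker]

/-- For a surjective group hom `φ : H →* H'`, `#H = #ker φ * #H'` (no finiteness needed). -/
theorem natCard_eq_ker_mul_of_surjective {H H' : Type*} [Group H] [Group H'] (φ : H →* H')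
    (hφ : Function.Surjective φ) : Nat.card H = Nat.card φ.ker * Nat.card H' := by
  have h1 := Subgroup.card_mul_index φ.ker
  have h2 : φ.ker.index = Nat.card H' := by
    rw [Subgroup.index_ker, MonoidHom.range_eq_top.mpr hφ]
    exact Nat.card_congr Subgroup.topEquiv.toEquiv
  rw [← h1, h2]

/-- `#G[m*n] = #G[m] * #G[n]` as soon as `x ↦ x ^ m` is onto. -/
theorem natCard_torsionKer_mul (m n : ℕ) (hm : Function.Surjective fun x : G => x ^ m) :
    Nat.card (torsionKer G (m * n)) = Nat.card (torsionKer G m) * Nat.card (torsionKer G n) := by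
  -- the hom `G[m*n] → G[n]`, `x ↦ x ^ m`
  let φ : torsionKer G (m * n) →* torsionKer G n :=
    { toFun := fun x => ⟨(x : G) ^ m, by
        rw [mem_torsionKer, ← pow_mul]; exact mem_torsionKer.mp x.2⟩
      map_one' := by ext; simp
      map_mul' := fun x y => by ext; simp [mul_pow] }
  have hφ : Function.Surjective φ := by
    rintro ⟨y, hy⟩
    obtain ⟨x, hx⟩ := hm y
    have hx' : x ^ m = y := hx
    refine ⟨⟨x, ?_⟩, ?_⟩
    · rw [mem_torsionKer, pow_mul, hx']; exact mem_torsionKer.mp hy
    · ext; exact hx'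
  rw [natCard_eq_ker_mul_of_surjective φ hφ]
  congr 1
  -- the kernel of `φ` is `G[m]`
  refine Nat.card_congr
    { toFun := fun x => ⟨(x : torsionKer G (m * n)), by
        have := x.2
        rw [MonoidHom.mem_ker] at this
        rw [mem_torsionKer]
        exact congrArg Subtype.val this⟩
      invFun := fun x => ⟨⟨(x : G), by
        rw [mem_torsionKer, pow_mul, mem_torsionKer.mp x.2, one_pow]⟩, by
        rw [MonoidHom.mem_ker]
        ext
        exact mem_torsionKer.mp x.2⟩
      left_inv := fun x => by ext; rfl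
      right_inv := fun x => by ext; rfl }

/-- `#G[n^k] = (#G[n])^k` as soon as `x ↦ x ^ n` is onto. -/
theorem natCard_torsionKer_pow (n k : ℕ) (hn : Function.Surjective fun x : G => x ^ n) :
    Nat.card (torsionKer G (n ^ k)) = Nat.card (torsionKer G n) ^ k := by
  induction k with
  | zero =>
    rw [pow_zero, pow_zero]
    have : Subsingleton (torsionKer G 1) := ⟨fun a b => by
      ext
      have ha := mem_torsionKer.mp a.2
      have hb := mem_torsionKer.mp b.2
      rw [pow_one] at ha hb
      rw [ha, hb]⟩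
    exact Nat.card_of_subsingleton (1 : torsionKer G 1)
  | succ k ih =>
    rw [pow_succ, pow_succ, mul_comm (n ^ k) n, natCard_torsionKer_mul n (n ^ k) hn, ih, mul_comm]

/-- Every nonempty fibre of `x ↦ x ^ n` is a coset of `G[n]`. -/
def powFiberEquiv (n : ℕ) (y x₀ : G) (hx₀ : x₀ ^ n = y) :
    {x : G // x ^ n = y} ≃ torsionKer G n where
  toFun x := ⟨(x : G) * x₀⁻¹, by rw [mem_torsionKer, mul_pow, inv_pow, x.2, hx₀, mul_inv_cancel]⟩
  invFun z := ⟨(z : G) * x₀, by rw [mul_pow, mem_torsionKer.mp z.2, hx₀, one_mul]⟩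
  left_inv x := by ext; simp
  right_inv z := by ext; simp

theorem natCard_powFiber (n : ℕ) (y x₀ : G) (hx₀ : x₀ ^ n = y) :
    Nat.card {x : G // x ^ n = y} = Nat.card (torsionKer G n) :=
  Nat.card_congr (powFiberEquiv n y x₀ hx₀)

end Abstract

/-! ### The frozen data -/

section Frozen

variable {R : Type u} [CommRing R] {A : Scheme.{u}} {f : A ⟶ Spec (CommRingCat.of R)}

/-- The commutative group of `t`-points of a commutative relative group law. -/
@[reducible]
def pointCommGroup (L : RelativeGroupLaw R f) (hc : L.IsCommutative) {T : Scheme.{u}}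
    (t : T ⟶ Spec (CommRingCat.of R)) : CommGroup (SchemeHomOver t f) :=
  { L.pointGroup t with mul_comm := fun x y => hc t x y }

/-- The frozen `nsmul` is the power in the point group. -/
theorem nsmul_eq_pow (L : RelativeGroupLaw R f) {T : Scheme.{u}}
    (t : T ⟶ Spec (CommRingCat.of R)) (n : ℕ) (x : SchemeHomOver t f) :
    L.nsmul t n x = (letI := L.pointGroup t; x ^ n) := by
  letI := L.pointGroup t
  induction n with
  | zero => rw [pow_zero]; rfl
  | succ n ih => rw [RelativeGroupLaw.nsmul_succ, ih, pow_succ]; rfl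

theorem nsmul_eq_pow' (L : RelativeGroupLaw R f) (hc : L.IsCommutative) {T : Scheme.{u}}
    (t : T ⟶ Spec (CommRingCat.of R)) (n : ℕ) (x : SchemeHomOver t f) :
    L.nsmul t n x = (letI := pointCommGroup L hc t; x ^ n) :=
  nsmul_eq_pow L t n x

theorem isTorsionPoint_iff_pow (L : RelativeGroupLaw R f) (hc : L.IsCommutative) {T : Scheme.{u}}
    (t : T ⟶ Spec (CommRingCat.of R)) (n : ℕ) (x : SchemeHomOver t f) :
    L.IsTorsionPoint t n x ↔ (letI := pointCommGroup L hc t; x ^ n = 1) := by
  letI := pointCommGroup L hc t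
  show L.nsmul t n x = L.one t ↔ x ^ n = 1
  rw [nsmul_eq_pow' L hc]
  rfl

/-- The frozen torsion subtype is the `n`-torsion subgroup of the point group. -/
def torsionEquiv (L : RelativeGroupLaw R f) (hc : L.IsCommutative) {T : Scheme.{u}}
    (t : T ⟶ Spec (CommRingCat.of R)) (n : ℕ) :
    {x : SchemeHomOver t f // L.IsTorsionPoint t n x} ≃
      (letI := pointCommGroup L hc t; torsionKer (SchemeHomOver t f) n) :=
  letI := pointCommGroup L hc t
  Equiv.subtypeEquivRight fun x => by
    rw [mem_torsionKer]; exact isTorsionPoint_iff_pow L hc t n x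

/-- `#A[m*n](T) = #A[m](T) * #A[n](T)` when `[m]` is onto on `t`-points. -/
theorem natCard_torsion_mul (L : RelativeGroupLaw R f) (hc : L.IsCommutative) {T : Scheme.{u}}
    (t : T ⟶ Spec (CommRingCat.of R)) (m n : ℕ)
    (hm : ∀ y : SchemeHomOver t f, ∃ x, L.nsmul t m x = y) :
    Nat.card {x : SchemeHomOver t f // L.IsTorsionPoint t (m * n) x} =
      Nat.card {x : SchemeHomOver t f // L.IsTorsionPoint t m x} *
        Nat.card {x : SchemeHomOver t f // L.IsTorsionPoint t n x} := by
  letI := pointCommGroup L hc t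
  rw [Nat.card_congr (torsionEquiv L hc t (m * n)), Nat.card_congr (torsionEquiv L hc t m),
    Nat.card_congr (torsionEquiv L hc t n)]
  refine natCard_torsionKer_mul m n fun y => ?_
  obtain ⟨x, hx⟩ := hm y
  exact ⟨x, by rw [← hx, nsmul_eq_pow' L hc]⟩

/-- `#A[n^k](T) = (#A[n](T))^k` when `[n]` is onto on `t`-points. -/
theorem natCard_torsion_pow (L : RelativeGroupLaw R f) (hc : L.IsCommutative) {T : Scheme.{u}}
    (t : T ⟶ Spec (CommRingCat.of R)) (n k : ℕ)
    (hn : ∀ y : SchemeHomOver t f, ∃ x, L.nsmul t n x = y) :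
    Nat.card {x : SchemeHomOver t f // L.IsTorsionPoint t (n ^ k) x} =
      Nat.card {x : SchemeHomOver t f // L.IsTorsionPoint t n x} ^ k := by
  letI := pointCommGroup L hc t
  rw [Nat.card_congr (torsionEquiv L hc t (n ^ k)), Nat.card_congr (torsionEquiv L hc t n)]
  refine natCard_torsionKer_pow n k fun y => ?_
  obtain ⟨x, hx⟩ := hn y
  exact ⟨x, by rw [← hx, nsmul_eq_pow' L hc]⟩

/-- Every nonempty fibre of `[n]` on `t`-points has as many elements as `A[n](T)`. -/
theorem natCard_fiber_eq (L : RelativeGroupLaw R f) (hc : L.IsCommutative) {T : Scheme.{u}}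
    (t : T ⟶ Spec (CommRingCat.of R)) (n : ℕ) (y x₀ : SchemeHomOver t f)
    (hx₀ : L.nsmul t n x₀ = y) :
    Nat.card {x : SchemeHomOver t f // L.nsmul t n x = y} =
      Nat.card {x : SchemeHomOver t f // L.IsTorsionPoint t n x} := by
  letI := pointCommGroup L hc t
  rw [Nat.card_congr (torsionEquiv L hc t n),
    ← natCard_powFiber n y x₀ (by rw [← hx₀, nsmul_eq_pow' L hc])]
  exact Nat.card_congr (Equiv.subtypeEquivRight fun x => by rw [nsmul_eq_pow' L hc])

/-- A point composed with the identity point is the point itself. -/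
theorem schemeHomOverComp_idPoint {T : Scheme.{u}} {t : T ⟶ Spec (CommRingCat.of R)}
    (x : SchemeHomOver t f) :
    schemeHomOverComp x.1 x.2 (RelativeGroupLaw.idPoint (f := f)) = x :=
  Subtype.ext (Category.comp_id _)

/-- Multiplication by `n` on points is composition with the scheme morphism `[n]`. -/
theorem nsmul_eq_comp (L : RelativeGroupLaw R f) {T : Scheme.{u}}
    (t : T ⟶ Spec (CommRingCat.of R)) (n : ℕ) (x : SchemeHomOver t f) :
    L.nsmul t n x = schemeHomOverComp x.1 x.2 (L.nsmul f n RelativeGroupLaw.idPoint) := by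
  rw [L.nsmul_natural f t x.1 x.2 n RelativeGroupLaw.idPoint, schemeHomOverComp_idPoint]

theorem nsmul_val (L : RelativeGroupLaw R f) {T : Scheme.{u}}
    (t : T ⟶ Spec (CommRingCat.of R)) (n : ℕ) (x : SchemeHomOver t f) :
    (L.nsmul t n x).1 = x.1 ≫ L.schemeNsmul n := by
  rw [nsmul_eq_comp L t n x]; rfl

/-- The unit point over `t` is the structure map followed by the unit section. -/
theorem one_val (L : RelativeGroupLaw R f) {T : Scheme.{u}}
    (t : T ⟶ Spec (CommRingCat.of R)) :
    (L.one t).1 = t ≫ (L.one (𝟙 (Spec (CommRingCat.of R)))).1 := by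
  have := L.one_natural (𝟙 (Spec (CommRingCat.of R))) t t (Category.comp_id t)
  exact (congrArg Subtype.val this).symm

/-- `x` is `n`-torsion iff `x ≫ [n]` is the unit section. -/
theorem isTorsionPoint_iff_comp (L : RelativeGroupLaw R f) {T : Scheme.{u}}
    (t : T ⟶ Spec (CommRingCat.of R)) (n : ℕ) (x : SchemeHomOver t f) :
    L.IsTorsionPoint t n x ↔
      x.1 ≫ L.schemeNsmul n = t ≫ (L.one (𝟙 (Spec (CommRingCat.of R)))).1 := by
  rw [← nsmul_val, ← one_val]
  exact ⟨fun h => congrArg Subtype.val h, fun h => Subtype.ext h⟩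

/-- The frozen torsion subtype is the set of `t`-points of the scheme-theoretic kernel. -/
def torsionEquivKerPoints (L : RelativeGroupLaw R f) {T : Scheme.{u}}
    (t : T ⟶ Spec (CommRingCat.of R)) (n : ℕ) :
    {x : SchemeHomOver t f // L.IsTorsionPoint t n x} ≃ SchemeHomOver t (L.schemeKerStr n) where
  toFun x := ⟨pullback.lift x.1.1 t ((isTorsionPoint_iff_comp L t n x.1).mp x.2),
    pullback.lift_snd _ _ _⟩
  invFun z := ⟨⟨z.1 ≫ pullback.fst _ _, by
      have h1 : z.1 ≫ pullback.snd (L.schemeNsmul n) (L.one (𝟙 (Spec (CommRingCat.of R)))).1 = t :=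
        z.2
      have h2 := (L.one (𝟙 (Spec (CommRingCat.of R)))).2
      calc (z.1 ≫ pullback.fst _ _) ≫ f
          = z.1 ≫ pullback.fst _ _ ≫ L.schemeNsmul n ≫ f := by
            rw [L.schemeNsmul_over, Category.assoc]
        _ = z.1 ≫ pullback.snd _ _ ≫ (L.one (𝟙 (Spec (CommRingCat.of R)))).1 ≫ f := by
            rw [← Category.assoc (pullback.fst _ _), pullback.condition, Category.assoc]
        _ = t := by rw [h2, Category.comp_id, h1]⟩, by
      rw [isTorsionPoint_iff_comp]
      have h1 : z.1 ≫ pullback.snd (L.schemeNsmul n) (L.one (𝟙 (Spec (CommRingCat.of R)))).1 = t :=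
        z.2
      show (z.1 ≫ pullback.fst _ _) ≫ L.schemeNsmul n = _
      rw [Category.assoc, pullback.condition, ← Category.assoc, h1]⟩
  left_inv x := by
    apply Subtype.ext
    apply Subtype.ext
    exact pullback.lift_fst _ _ _
  right_inv z := by
    apply Subtype.ext
    apply pullback.hom_ext
    · exact pullback.lift_fst _ _ _
    · rw [pullback.lift_snd]
      exact z.2.symm

/-- Fibre form of `natCard_fiber_eq` in scheme language: the points `x` with `x ≫ [n] = y`. -/
theorem natCard_fiber_comp_eq (L : RelativeGroupLaw R f) (hc : L.IsCommutative) {T : Scheme.{u}}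
    (t : T ⟶ Spec (CommRingCat.of R)) (n : ℕ) (y x₀ : SchemeHomOver t f)
    (hx₀ : x₀.1 ≫ L.schemeNsmul n = y.1) :
    Nat.card {x : SchemeHomOver t f // x.1 ≫ L.schemeNsmul n = y.1} =
      Nat.card {x : SchemeHomOver t f // L.IsTorsionPoint t n x} := by
  rw [← natCard_fiber_eq L hc t n y x₀ (Subtype.ext (by rw [nsmul_val, hx₀]))]
  exact Nat.card_congr (Equiv.subtypeEquivRight fun x => by
    rw [← nsmul_val]
    exact ⟨fun h => Subtype.ext h, fun h => congrArg Subtype.val h⟩)

/-! ### Translations -/

/-- `[n]` is a homomorphism on points of a commutative group law. -/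
theorem nsmul_mul (L : RelativeGroupLaw R f) (hc : L.IsCommutative) {T : Scheme.{u}}
    (t : T ⟶ Spec (CommRingCat.of R)) (n : ℕ) (x y : SchemeHomOver t f) :
    L.nsmul t n (L.mul t x y) = L.mul t (L.nsmul t n x) (L.nsmul t n y) := by
  letI := pointCommGroup L hc t
  rw [nsmul_eq_pow' L hc, nsmul_eq_pow' L hc, nsmul_eq_pow' L hc]
  exact mul_pow x y n

/-- The constant `t`-point attached to a section `a` of `f`. -/
def constPoint {T : Scheme.{u}} (t : T ⟶ Spec (CommRingCat.of R))
    (a : SchemeHomOver (𝟙 (Spec (CommRingCat.of R))) f) : SchemeHomOver t f :=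
  schemeHomOverComp t (Category.comp_id t) a

theorem constPoint_val {T : Scheme.{u}} (t : T ⟶ Spec (CommRingCat.of R))
    (a : SchemeHomOver (𝟙 (Spec (CommRingCat.of R))) f) : (constPoint t a).1 = t ≫ a.1 :=
  rfl

theorem constPoint_id (a : SchemeHomOver (𝟙 (Spec (CommRingCat.of R))) f) :
    constPoint (𝟙 (Spec (CommRingCat.of R))) a = a :=
  Subtype.ext (Category.id_comp _)

theorem constPoint_comp {T T' : Scheme.{u}} (t : T ⟶ Spec (CommRingCat.of R))
    (t' : T' ⟶ Spec (CommRingCat.of R)) (ψ : T' ⟶ T) (hψ : ψ ≫ t = t')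
    (a : SchemeHomOver (𝟙 (Spec (CommRingCat.of R))) f) :
    schemeHomOverComp ψ hψ (constPoint t a) = constPoint t' a :=
  Subtype.ext (by
    show ψ ≫ t ≫ a.1 = t' ≫ a.1
    rw [← Category.assoc, hψ])

theorem constPoint_mul (L : RelativeGroupLaw R f) {T : Scheme.{u}}
    (t : T ⟶ Spec (CommRingCat.of R)) (a b : SchemeHomOver (𝟙 (Spec (CommRingCat.of R))) f) :
    constPoint t (L.mul (𝟙 _) a b) = L.mul t (constPoint t a) (constPoint t b) :=
  L.mul_natural (𝟙 _) t t (Category.comp_id t) a b

theorem constPoint_one (L : RelativeGroupLaw R f) {T : Scheme.{u}}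
    (t : T ⟶ Spec (CommRingCat.of R)) : constPoint t (L.one (𝟙 _)) = L.one t :=
  L.one_natural (𝟙 _) t t (Category.comp_id t)

theorem constPoint_nsmul (L : RelativeGroupLaw R f) {T : Scheme.{u}}
    (t : T ⟶ Spec (CommRingCat.of R)) (n : ℕ) (a : SchemeHomOver (𝟙 (Spec (CommRingCat.of R))) f) :
    constPoint t (L.nsmul (𝟙 _) n a) = L.nsmul t n (constPoint t a) :=
  L.nsmul_natural (𝟙 _) t t (Category.comp_id t) n a

/-- Translation by a section `a`, as a point of `A` over `f`. -/
def translatePoint (L : RelativeGroupLaw R f)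
    (a : SchemeHomOver (𝟙 (Spec (CommRingCat.of R))) f) : SchemeHomOver f f :=
  L.mul f RelativeGroupLaw.idPoint (constPoint f a)

/-- Translation by a section `a`, as an endomorphism of the scheme `A`. -/
def translate (L : RelativeGroupLaw R f)
    (a : SchemeHomOver (𝟙 (Spec (CommRingCat.of R))) f) : A ⟶ A :=
  (translatePoint L a).1

theorem translate_over (L : RelativeGroupLaw R f)
    (a : SchemeHomOver (𝟙 (Spec (CommRingCat.of R))) f) : translate L a ≫ f = f :=
  (translatePoint L a).2

/-- Translation acts on `t`-points by multiplication with the constant point. -/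
theorem comp_translatePoint (L : RelativeGroupLaw R f) {T : Scheme.{u}}
    (t : T ⟶ Spec (CommRingCat.of R)) (x : SchemeHomOver t f)
    (a : SchemeHomOver (𝟙 (Spec (CommRingCat.of R))) f) :
    schemeHomOverComp x.1 x.2 (translatePoint L a) = L.mul t x (constPoint t a) := by
  unfold translatePoint
  rw [L.mul_natural f t x.1 x.2, schemeHomOverComp_idPoint, constPoint_comp]

theorem comp_translate (L : RelativeGroupLaw R f) {T : Scheme.{u}}
    (t : T ⟶ Spec (CommRingCat.of R)) (x : SchemeHomOver t f)
    (a : SchemeHomOver (𝟙 (Spec (CommRingCat.of R))) f) :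
    x.1 ≫ translate L a = (L.mul t x (constPoint t a)).1 :=
  congrArg Subtype.val (comp_translatePoint L t x a)

/-- On sections, translation by `a` is `x ↦ x * a`. -/
theorem section_comp_translate (L : RelativeGroupLaw R f)
    (x a : SchemeHomOver (𝟙 (Spec (CommRingCat.of R))) f) :
    x.1 ≫ translate L a = (L.mul (𝟙 _) x a).1 := by
  rw [comp_translate L (𝟙 _) x a, constPoint_id]

theorem translate_comp (L : RelativeGroupLaw R f)
    (a b : SchemeHomOver (𝟙 (Spec (CommRingCat.of R))) f) :
    translate L a ≫ translate L b = translate L (L.mul (𝟙 _) a b) := by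
  have h := comp_translate L f (translatePoint L a) b
  rw [show (translatePoint L a).1 = translate L a from rfl] at h
  rw [h]
  unfold translatePoint translate translatePoint
  rw [L.mul_assoc, constPoint_mul]

theorem translate_one (L : RelativeGroupLaw R f) : translate L (L.one (𝟙 _)) = 𝟙 A := by
  unfold translate translatePoint
  rw [constPoint_one, L.mul_one]

/-- Translations are automorphisms of the scheme `A`. -/
def translateIso (L : RelativeGroupLaw R f)
    (a : SchemeHomOver (𝟙 (Spec (CommRingCat.of R))) f) : A ≅ A where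
  hom := translate L a
  inv := translate L (L.inv (𝟙 _) a)
  hom_inv_id := by rw [translate_comp, L.mul_inv_cancel, translate_one]
  inv_hom_id := by rw [translate_comp, L.inv_mul_cancel, translate_one]

instance (L : RelativeGroupLaw R f) (a : SchemeHomOver (𝟙 (Spec (CommRingCat.of R))) f) :
    IsIso (translate L a) :=
  (translateIso L a).isIso_hom

/-- `[n] ∘ τ_a = τ_{n a} ∘ [n]` for a commutative group law. -/
theorem translate_comp_schemeNsmul (L : RelativeGroupLaw R f) (hc : L.IsCommutative) (n : ℕ)
    (a : SchemeHomOver (𝟙 (Spec (CommRingCat.of R))) f) :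
    translate L a ≫ L.schemeNsmul n = L.schemeNsmul n ≫ translate L (L.nsmul (𝟙 _) n a) := by
  have h1 := nsmul_val L f n (translatePoint L a)
  rw [show (translatePoint L a).1 = translate L a from rfl] at h1
  rw [← h1]
  have h2 := comp_translate L f (L.nsmul f n RelativeGroupLaw.idPoint) (L.nsmul (𝟙 _) n a)
  rw [show (L.nsmul f n RelativeGroupLaw.idPoint).1 = L.schemeNsmul n from rfl] at h2
  rw [h2, constPoint_nsmul]
  unfold translatePoint
  rw [nsmul_mul L hc]

/-- Translation by an `n`-torsion section commutes with `[n]`: `[n] ∘ τ_a = [n]`. -/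
theorem translate_comp_schemeNsmul_of_torsion (L : RelativeGroupLaw R f) (hc : L.IsCommutative)
    (n : ℕ) (a : SchemeHomOver (𝟙 (Spec (CommRingCat.of R))) f)
    (ha : L.IsTorsionPoint (𝟙 _) n a) :
    translate L a ≫ L.schemeNsmul n = L.schemeNsmul n := by
  rw [translate_comp_schemeNsmul L hc n a, show L.nsmul (𝟙 _) n a = L.one (𝟙 _) from ha,
    translate_one, Category.comp_id]

/-- A translation that fixes one section is the identity translation (`a = 1`). -/
theorem eq_one_of_section_comp_translate (L : RelativeGroupLaw R f)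
    (x a : SchemeHomOver (𝟙 (Spec (CommRingCat.of R))) f)
    (h : x.1 ≫ translate L a = x.1) : a = L.one (𝟙 _) := by
  letI := L.pointGroup (𝟙 (Spec (CommRingCat.of R)))
  have h' : L.mul (𝟙 _) x a = x := Subtype.ext (by rw [← section_comp_translate, h])
  have : x * a = x := h'
  exact mul_eq_left.mp this

/-- Any two sections are exchanged by a unique translation. -/
theorem exists_translate_section (L : RelativeGroupLaw R f)
    (x y : SchemeHomOver (𝟙 (Spec (CommRingCat.of R))) f) :
    x.1 ≫ translate L (L.mul (𝟙 _) (L.inv (𝟙 _) x) y) = y.1 := by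
  rw [section_comp_translate, ← L.mul_assoc, L.mul_inv_cancel, L.one_mul]

end Frozen

end Fermat.Agent.S26.helper2966

end
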