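import Mathlib

/-!
# S26 leaf M6-PROD: finite products of schemes over a base, by universal property

`IsProdOver c x p` says that `x : X ⟶ S` together with the projections `p i : X ⟶ C i`
is a product of the family `c i : C i ⟶ S` in the category of schemes over `S`.
Consumers never see how `X` was built.
-/

universe u

open CategoryTheory Limits AlgebraicGeometry

namespace Fermat.Agent.S26.helper4836

/-- `x : X ⟶ S` with projections `p i : X ⟶ C i` is a product of the `c i : C i ⟶ S`
over `S` (fibre product of the whole family), stated as a universal property. -/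
structure IsProdOver {ι : Type*} {S : Scheme.{u}} {C : ι → Scheme.{u}} (c : ∀ i, C i ⟶ S)
    {X : Scheme.{u}} (x : X ⟶ S) (p : ∀ i, X ⟶ C i) : Prop where
  /-- the projections are morphisms over `S` -/
  fac : ∀ i, p i ≫ c i = x
  /-- existence of the morphism with prescribed coordinates -/
  exists_lift : ∀ {T : Scheme.{u}} (t : T ⟶ S) (h : ∀ i, T ⟶ C i), (∀ i, h i ≫ c i = t) →
    ∃ φ : T ⟶ X, φ ≫ x = t ∧ ∀ i, φ ≫ p i = h i
  /-- a morphism into the product is determined by its structure map and its coordinates -/
  hom_ext : ∀ {T : Scheme.{u}} (φ ψ : T ⟶ X), φ ≫ x = ψ ≫ x →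
    (∀ i, φ ≫ p i = ψ ≫ p i) → φ = ψ

namespace IsProdOver

variable {ι : Type*} {S : Scheme.{u}} {C : ι → Scheme.{u}} {c : ∀ i, C i ⟶ S}
  {X : Scheme.{u}} {x : X ⟶ S} {p : ∀ i, X ⟶ C i}

/-- The morphism into a product with prescribed coordinates. -/
noncomputable def lift (h : IsProdOver c x p) {T : Scheme.{u}} (t : T ⟶ S)
    (f : ∀ i, T ⟶ C i) (hf : ∀ i, f i ≫ c i = t) : T ⟶ X :=
  (h.exists_lift t f hf).choose

@[reassoc (attr := simp)]
lemma lift_fac (h : IsProdOver c x p) {T : Scheme.{u}} (t : T ⟶ S)
    (f : ∀ i, T ⟶ C i) (hf : ∀ i, f i ≫ c i = t) : h.lift t f hf ≫ x = t :=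
  (h.exists_lift t f hf).choose_spec.1

@[reassoc (attr := simp)]
lemma lift_proj (h : IsProdOver c x p) {T : Scheme.{u}} (t : T ⟶ S)
    (f : ∀ i, T ⟶ C i) (hf : ∀ i, f i ≫ c i = t) (i : ι) : h.lift t f hf ≫ p i = f i :=
  (h.exists_lift t f hf).choose_spec.2 i

/-- For a nonempty index type the coordinates alone determine a morphism into the product. -/
lemma hom_ext' [Nonempty ι] (h : IsProdOver c x p) {T : Scheme.{u}} (φ ψ : T ⟶ X)
    (hφ : ∀ i, φ ≫ p i = ψ ≫ p i) : φ = ψ := by
  refine h.hom_ext φ ψ ?_ hφ
  obtain ⟨i⟩ := ‹Nonempty ι›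
  rw [← h.fac i, ← Category.assoc, hφ i, Category.assoc]

/-! ### Uniqueness up to a unique isomorphism -/

section iso

variable {X' : Scheme.{u}} {x' : X' ⟶ S} {p' : ∀ i, X' ⟶ C i}

/-- Two products of the same family are canonically isomorphic. -/
noncomputable def iso (h : IsProdOver c x p) (h' : IsProdOver c x' p') : X ≅ X' where
  hom := h'.lift x p h.fac
  inv := h.lift x' p' h'.fac
  hom_inv_id := h.hom_ext _ _ (by simp) (by simp)
  inv_hom_id := h'.hom_ext _ _ (by simp) (by simp)

@[reassoc (attr := simp)]
lemma iso_hom_fac (h : IsProdOver c x p) (h' : IsProdOver c x' p') :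
    (h.iso h').hom ≫ x' = x := by simp [iso]

@[reassoc (attr := simp)]
lemma iso_hom_proj (h : IsProdOver c x p) (h' : IsProdOver c x' p') (i : ι) :
    (h.iso h').hom ≫ p' i = p i := by simp [iso]

@[reassoc (attr := simp)]
lemma iso_inv_fac (h : IsProdOver c x p) (h' : IsProdOver c x' p') :
    (h.iso h').inv ≫ x = x' := by simp [iso]

@[reassoc (attr := simp)]
lemma iso_inv_proj (h : IsProdOver c x p) (h' : IsProdOver c x' p') (i : ι) :
    (h.iso h').inv ≫ p i = p' i := by simp [iso]

/-- Anything isomorphic to a product, compatibly with the structure maps, is a product. -/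
theorem of_iso (h : IsProdOver c x p) (e : X' ≅ X) :
    IsProdOver c (e.hom ≫ x) (fun i => e.hom ≫ p i) where
  fac i := by rw [Category.assoc, h.fac]
  exists_lift {T} t f hf :=
    ⟨h.lift t f hf ≫ e.inv, by simp, fun i => by simp⟩
  hom_ext {T} φ ψ hx hp := by
    rw [← cancel_mono e.hom]
    exact h.hom_ext _ _ (by simpa using hx) (fun i => by simpa using hp i)

end iso

/-! ### Building blocks: change of index, empty family, one factor, sums -/

/-- Transport along an equivalence of index types and isomorphisms of the factors. -/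
theorem of_equiv (h : IsProdOver c x p) {κ : Type*} {D : κ → Scheme.{u}} {d : ∀ k, D k ⟶ S}
    (e : κ ≃ ι) (θ : ∀ k, C (e k) ⟶ D k) [∀ k, IsIso (θ k)]
    (hθ : ∀ k, θ k ≫ d k = c (e k)) :
    IsProdOver d x (fun k => p (e k) ≫ θ k) where
  fac k := by rw [Category.assoc, hθ, h.fac]
  exists_lift {T} t f hf := by
    let f' : ∀ i, T ⟶ C i :=
      Equiv.piCongrLeft (fun i => T ⟶ C i) e (fun k => f k ≫ inv (θ k))
    have hf' : ∀ k, f' (e k) = f k ≫ inv (θ k) :=
      fun k => Equiv.piCongrLeft_apply_apply _ _ _ _
    have hf'' : ∀ i, f' i ≫ c i = t := by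
      intro i
      obtain ⟨k, rfl⟩ := e.surjective i
      rw [hf', ← hθ, Category.assoc, IsIso.inv_hom_id_assoc, hf]
    obtain ⟨φ, hφ, hφ'⟩ := h.exists_lift t f' hf''
    exact ⟨φ, hφ, fun k => by
      rw [← Category.assoc, hφ', hf', Category.assoc, IsIso.inv_hom_id, Category.comp_id]⟩
  hom_ext {T} φ ψ hx hp := by
    refine h.hom_ext φ ψ hx fun i => ?_
    obtain ⟨k, rfl⟩ := e.surjective i
    have := hp k
    simp only [← Category.assoc] at this
    exact (cancel_mono (θ k)).mp this

/-- Reindexing a product along an equivalence of index types. -/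
theorem reindex (h : IsProdOver c x p) {κ : Type*} (e : κ ≃ ι) :
    IsProdOver (fun k => c (e k)) x (fun k => p (e k)) := by
  simpa using h.of_equiv (d := fun k => c (e k)) e (fun k => 𝟙 _) (by simp)

/-- The product of the empty family is the base itself. -/
theorem of_isEmpty [IsEmpty ι] (c : ∀ i, C i ⟶ S) (x : X ⟶ S) [IsIso x] (p : ∀ i, X ⟶ C i) :
    IsProdOver c x p where
  fac i := isEmptyElim i
  exists_lift t _ _ := ⟨t ≫ inv x, by simp, fun i => isEmptyElim i⟩
  hom_ext φ ψ h _ := (cancel_mono x).mp h

/-- The product of a one-element family is the factor itself. -/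
theorem of_unique [Unique ι] {C₀ : Scheme.{u}} (c₀ : C₀ ⟶ S) :
    IsProdOver (fun _ : ι => c₀) c₀ (fun _ => 𝟙 C₀) where
  fac _ := Category.id_comp _
  exists_lift t f hf := ⟨f default, hf default, fun i => by
    rw [Category.comp_id, Subsingleton.elim i default]⟩
  hom_ext φ ψ _ hp := by simpa using hp default

/-- The structure maps of the sum of two families. -/
def sumHom {κ : Type*} {D : κ → Scheme.{u}} (c : ∀ i, C i ⟶ S) (d : ∀ k, D k ⟶ S) :
    ∀ s : ι ⊕ κ, Sum.elim C D s ⟶ S
  | Sum.inl i => c i
  | Sum.inr k => d k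

/-- The coordinates of a morphism into a product over a sum of two index types. -/
def sumProj {κ : Type*} {D : κ → Scheme.{u}} {W : Scheme.{u}} (f : ∀ i, W ⟶ C i)
    (g : ∀ k, W ⟶ D k) : ∀ s : ι ⊕ κ, W ⟶ Sum.elim C D s
  | Sum.inl i => f i
  | Sum.inr k => g k

/-- Pre-generates the unfolding lemmas of `sumHom` in the defining module, so that downstream
modules never generate their own copies (a name collision in a joint import closure). -/
theorem sumHom_eqns_pregen {κ : Type*} {D : κ → Scheme.{u}} (c : ∀ i, C i ⟶ S)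
    (d : ∀ k, D k ⟶ S) (i : ι) (k : κ) :
    sumHom c d (Sum.inl i) = c i ∧ sumHom c d (Sum.inr k) = d k := by
  constructor
  · unfold sumHom
    rfl
  · simp only [sumHom]

/-- Pre-generates the unfolding lemmas of `sumProj` in the defining module. -/
theorem sumProj_eqns_pregen {κ : Type*} {D : κ → Scheme.{u}} {W : Scheme.{u}}
    (f : ∀ i, W ⟶ C i) (g : ∀ k, W ⟶ D k) (i : ι) (k : κ) :
    sumProj f g (Sum.inl i) = f i ∧ sumProj f g (Sum.inr k) = g k := by
  constructor
  · unfold sumProj
    rfl
  · simp only [sumProj]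

@[simp] lemma sumHom_inl {κ : Type*} {D : κ → Scheme.{u}} (c : ∀ i, C i ⟶ S)
    (d : ∀ k, D k ⟶ S) (i : ι) : sumHom c d (Sum.inl i) = c i := rfl

@[simp] lemma sumHom_inr {κ : Type*} {D : κ → Scheme.{u}} (c : ∀ i, C i ⟶ S)
    (d : ∀ k, D k ⟶ S) (k : κ) : sumHom c d (Sum.inr k) = d k := rfl

@[simp] lemma sumProj_inl {κ : Type*} {D : κ → Scheme.{u}} {W : Scheme.{u}}
    (f : ∀ i, W ⟶ C i) (g : ∀ k, W ⟶ D k) (i : ι) : sumProj f g (Sum.inl i) = f i := rfl

@[simp] lemma sumProj_inr {κ : Type*} {D : κ → Scheme.{u}} {W : Scheme.{u}}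
    (f : ∀ i, W ⟶ C i) (g : ∀ k, W ⟶ D k) (k : κ) : sumProj f g (Sum.inr k) = g k := rfl

/-- A property of all the structure maps of two families holds for the sum family. -/
lemma sumHom_forall {κ : Type*} {D : κ → Scheme.{u}} {d : ∀ k, D k ⟶ S}
    {P : ∀ ⦃Y : Scheme.{u}⦄, (Y ⟶ S) → Prop} (hc : ∀ i, P (c i)) (hd : ∀ k, P (d k))
    (s : ι ⊕ κ) : P (sumHom c d s) := by
  rcases s with i | k
  · exact hc i
  · exact hd k

/-- The fibre product over `S` of two products is the product of the sum of the two
families: "`X ×ₛ Y` is again of this type". -/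
theorem sum (hX : IsProdOver c x p) {κ : Type*} {D : κ → Scheme.{u}} {d : ∀ k, D k ⟶ S}
    {Y : Scheme.{u}} {y : Y ⟶ S} {q : ∀ k, Y ⟶ D k} (hY : IsProdOver d y q)
    {W : Scheme.{u}} {fst : W ⟶ X} {snd : W ⟶ Y} (hW : IsPullback fst snd x y) :
    IsProdOver (sumHom c d) (fst ≫ x) (sumProj (fun i => fst ≫ p i) (fun k => snd ≫ q k)) where
  fac s := by
    rcases s with i | k
    · simp [hX.fac]
    · simp [hY.fac, hW.w]
  exists_lift {T} t f hf := by
    refine ⟨hW.lift (hX.lift t (fun i => f (Sum.inl i)) (fun i => hf (Sum.inl i)))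
      (hY.lift t (fun k => f (Sum.inr k)) (fun k => hf (Sum.inr k))) (by simp), by simp, ?_⟩
    rintro (i | k) <;> simp
  hom_ext {T} φ ψ hx hp := by
    apply hW.hom_ext
    · exact hX.hom_ext _ _ (by simpa using hx) (fun i => by simpa using hp (Sum.inl i))
    · refine hY.hom_ext _ _ ?_ (fun k => by simpa using hp (Sum.inr k))
      simpa [← hW.w] using hx

/-- Adding one factor: if `Y` is the product of the `C (some a)` then `C none ×ₛ Y` is the
product of the whole family over `Option α`. -/
theorem option {α : Type*} {C : Option α → Scheme.{u}} {c : ∀ o, C o ⟶ S}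
    {Y : Scheme.{u}} {y : Y ⟶ S} {q : ∀ a, Y ⟶ C (some a)}
    (hY : IsProdOver (fun a => c (some a)) y q)
    {W : Scheme.{u}} {fst : W ⟶ C none} {snd : W ⟶ Y} (hW : IsPullback fst snd (c none) y) :
    IsProdOver c (fst ≫ c none)
      (fun o => Option.rec (motive := fun o => W ⟶ C o) fst (fun a => snd ≫ q a) o) where
  fac o := by
    rcases o with _ | a
    · rfl
    · simp [hY.fac (ι := α), hW.w]
  exists_lift {T} t f hf := by
    refine ⟨hW.lift (f none) (hY.lift t (fun a => f (some a)) (fun a => hf (some a)))
      (by simp [hf]), by simp [hf], ?_⟩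
    rintro (_ | a) <;> simp
  hom_ext {T} φ ψ hx hp := by
    apply hW.hom_ext
    · exact hp none
    · refine hY.hom_ext _ _ ?_ (fun a => by simpa using hp (some a))
      simpa [← hW.w] using hx

/-! ### Existence for finite families, and an induction principle for properties -/

lemma eqToHom_comp_hom (c : ∀ i, C i ⟶ S) {i j : ι} (h : i = j) :
    eqToHom (congrArg C h) ≫ c j = c i := by
  subst h; simp

/-- Existence of the product of a finite family, together with any property `P n` of the
structure map (`n` = number of factors) which holds for the identity of `S` and is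
inherited by `C ×ₛ Z ⟶ S` when one factor `C` satisfying `Q` is added. -/
theorem exists_isProdOver_and {S : Scheme.{u}}
    (Q : ∀ ⦃Y : Scheme.{u}⦄, (Y ⟶ S) → Prop) (P : ℕ → ∀ ⦃Y : Scheme.{u}⦄, (Y ⟶ S) → Prop)
    (h0 : P 0 (𝟙 S))
    (hstep : ∀ (n : ℕ) ⦃Y Z : Scheme.{u}⦄ (c : Y ⟶ S) (z : Z ⟶ S), Q c → P n z →
      P (n + 1) (pullback.fst c z ≫ c))
    (ι : Type*) [Finite ι] (C : ι → Scheme.{u}) (c : ∀ i, C i ⟶ S) (hQ : ∀ i, Q (c i)) :
    ∃ (X : Scheme.{u}) (x : X ⟶ S) (p : ∀ i, X ⟶ C i),
      IsProdOver c x p ∧ P (Nat.card ι) x := by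
  induction ι using Finite.induction_empty_option with
  | of_equiv e ih =>
    rename_i α β
    obtain ⟨X, x, p, h, hP⟩ := ih (fun a => C (e a)) (fun a => c (e a)) (fun a => hQ (e a))
    refine ⟨X, x, _, h.of_equiv e.symm
      (fun b => eqToHom (congrArg C (e.apply_symm_apply b)))
      (fun b => eqToHom_comp_hom c (e.apply_symm_apply b)), ?_⟩
    rwa [← Nat.card_congr e]
  | h_empty =>
    exact ⟨S, 𝟙 S, fun i => i.elim, of_isEmpty _ _ _, by simpa using h0⟩
  | h_option ih =>
    rename_i α _
    obtain ⟨Y, y, q, h, hP⟩ := ih (fun a => C (some a)) (fun a => c (some a))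
      (fun a => hQ (some a))
    refine ⟨pullback (c none) y, pullback.fst _ _ ≫ c none, _,
      h.option (IsPullback.of_hasPullback (c none) y), ?_⟩
    rw [Finite.card_option]
    exact hstep _ _ _ (hQ none) hP

/-- **(E)** A finite family of schemes over `S` has a product over `S`. -/
theorem _root_.Fermat.Agent.S26.helper4836.exists_isProdOver {S : Scheme.{u}} {ι : Type*}
    [Finite ι] {C : ι → Scheme.{u}} (c : ∀ i, C i ⟶ S) :
    ∃ (X : Scheme.{u}) (x : X ⟶ S) (p : ∀ i, X ⟶ C i), IsProdOver c x p := by
  obtain ⟨X, x, p, h, -⟩ := exists_isProdOver_and (fun _ _ => True) (fun _ _ _ => True)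
    trivial (fun _ _ _ _ _ _ _ => trivial) ι C c (fun _ => trivial)
  exact ⟨X, x, p, h⟩

/-- **Induction principle for properties of a finite product.** A property `P n` of
morphisms to `S` which is invariant under isomorphisms of the source, holds for `𝟙 S`,
and passes from `z : Z ⟶ S` to `C ×ₛ Z ⟶ S` whenever `c : C ⟶ S` satisfies `Q`, holds for
the structure map of every product of `n` factors satisfying `Q`. -/
theorem induction [Finite ι] (h : IsProdOver c x p)
    (Q : ∀ ⦃Y : Scheme.{u}⦄, (Y ⟶ S) → Prop) (P : ℕ → ∀ ⦃Y : Scheme.{u}⦄, (Y ⟶ S) → Prop)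
    (hiso : ∀ (n : ℕ) ⦃Y Y' : Scheme.{u}⦄ (e : Y ≅ Y') (y' : Y' ⟶ S), P n y' →
      P n (e.hom ≫ y'))
    (h0 : P 0 (𝟙 S))
    (hstep : ∀ (n : ℕ) ⦃Y Z : Scheme.{u}⦄ (c : Y ⟶ S) (z : Z ⟶ S), Q c → P n z →
      P (n + 1) (pullback.fst c z ≫ c))
    (hQ : ∀ i, Q (c i)) : P (Nat.card ι) x := by
  obtain ⟨X', x', p', h', hP⟩ := exists_isProdOver_and Q P h0 hstep ι C c hQ
  have := hiso _ (h.iso h') x' hP
  rwa [iso_hom_fac] at this

/-! ### Properties of the structure map of a finite product -/

/-- A property of morphisms which is stable under composition and base change and holds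
for `𝟙 S` holds for the structure map of a finite product as soon as it holds for every
factor. -/
theorem of_morphismProperty [Finite ι] (h : IsProdOver c x p)
    (W : MorphismProperty Scheme.{u}) [W.IsStableUnderComposition] [W.IsStableUnderBaseChange]
    (h0 : W (𝟙 S)) (hc : ∀ i, W (c i)) : W x :=
  h.induction (fun _ c => W c) (fun _ _ y => W y)
    (fun _ _ _ e y' hy' => (W.cancel_left_of_respectsIso e.hom y').mpr hy')
    h0 (fun _ _ _ _ _ hc hz => W.comp_mem _ _ (W.pullback_fst _ _ hz) hc) hc

theorem isProper [Finite ι] (h : IsProdOver c x p) [∀ i, IsProper (c i)] : IsProper x :=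
  h.of_morphismProperty @IsProper inferInstance fun _ => inferInstance

theorem smooth [Finite ι] (h : IsProdOver c x p) [∀ i, Smooth (c i)] : Smooth x :=
  h.of_morphismProperty @Smooth inferInstance fun _ => inferInstance

theorem locallyOfFiniteType [Finite ι] (h : IsProdOver c x p)
    [∀ i, LocallyOfFiniteType (c i)] : LocallyOfFiniteType x :=
  h.of_morphismProperty @LocallyOfFiniteType inferInstance fun _ => inferInstance

theorem flat [Finite ι] (h : IsProdOver c x p) [∀ i, Flat (c i)] : Flat x :=
  h.of_morphismProperty @Flat inferInstance fun _ => inferInstance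

theorem universallyOpen [Finite ι] (h : IsProdOver c x p) [∀ i, UniversallyOpen (c i)] :
    UniversallyOpen x :=
  h.of_morphismProperty @UniversallyOpen inferInstance fun _ => inferInstance

theorem quasiCompact [Finite ι] (h : IsProdOver c x p) [∀ i, QuasiCompact (c i)] :
    QuasiCompact x :=
  h.of_morphismProperty @QuasiCompact inferInstance fun _ => inferInstance

theorem isSeparated [Finite ι] (h : IsProdOver c x p) [∀ i, IsSeparated (c i)] :
    IsSeparated x :=
  h.of_morphismProperty @IsSeparated inferInstance fun _ => inferInstance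

/-- A product of `n` factors which are smooth of relative dimension `1` is smooth of
relative dimension `n`. -/
theorem smoothOfRelativeDimension [Finite ι] (h : IsProdOver c x p)
    [∀ i, SmoothOfRelativeDimension 1 (c i)] : SmoothOfRelativeDimension (Nat.card ι) x :=
  h.induction (fun _ c => SmoothOfRelativeDimension 1 c)
    (fun n _ y => SmoothOfRelativeDimension n y)
    (fun n _ _ e y' hy' => by
      have := hy'
      exact (zero_add n) ▸ (inferInstance : SmoothOfRelativeDimension (0 + n) (e.hom ≫ y')))
    inferInstance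
    (fun n _ _ c z hc hz => by
      have := hc
      have := smoothOfRelativeDimension_isStableUnderBaseChange n
      have : SmoothOfRelativeDimension n (pullback.fst c z) :=
        MorphismProperty.of_isPullback (P := @SmoothOfRelativeDimension n)
          (IsPullback.of_hasPullback c z).flip hz
      infer_instance)
    (fun _ => inferInstance)

end IsProdOver

/-! ### Geometric integrality of finite products -/


/-- The source of a geometrically integral, flat, open morphism to an integral scheme is
integral (no noetherian hypothesis). -/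
theorem isIntegral_of_geometricallyIntegral_of_isOpenMap {X Y : Scheme.{u}} (f : X ⟶ Y)
    [GeometricallyIntegral f] [Flat f] (hf : IsOpenMap f) [IsIntegral Y] : IsIntegral X := by
  rw [isIntegral_iff_irreducibleSpace_and_isReduced]
  have : Finite (irreducibleComponents Y) := by
    rw [irreducibleComponents_eq_singleton]
    exact Set.finite_singleton _
  exact ⟨GeometricallyIrreducible.irreducibleSpace f hf,
    GeometricallyReduced.isReduced_of_flat_of_finite_irreducibleComponents f⟩

/-- The identity is geometrically integral. -/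
theorem geometricallyIntegral_id (S : Scheme.{u}) : GeometricallyIntegral (𝟙 S) := by
  constructor
  intro K _ y Z fst snd hP
  have : IsIso snd := hP.isIso_snd_of_isIso
  exact IsIntegral.of_isIso (inv snd)

/-- Isomorphisms are geometrically integral. -/
theorem geometricallyIntegral_of_isIso {X Y : Scheme.{u}} (f : X ⟶ Y) [IsIso f] :
    GeometricallyIntegral f := by
  constructor
  intro K _ y Z fst snd hP
  have : IsIso snd := hP.isIso_snd_of_isIso
  exact IsIntegral.of_isIso (inv snd)

/-- Composition of geometrically integral morphisms, the first one flat and universally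
open (both automatic over a field). -/
theorem geometricallyIntegral_comp {X Y Z : Scheme.{u}} (f : X ⟶ Y) (g : Y ⟶ Z)
    [GeometricallyIntegral f] [Flat f] [UniversallyOpen f] [GeometricallyIntegral g] :
    GeometricallyIntegral (f ≫ g) := by
  constructor
  intro K _ y W fst snd hP
  have hY : IsIntegral (pullback g y) :=
    GeometricallyIntegral.geometrically_isIntegral y _ _ (IsPullback.of_hasPullback g y)
  let φ : W ⟶ pullback g y := pullback.lift (fst ≫ f) snd (by simpa using hP.w)
  have hφ1 : φ ≫ pullback.fst g y = fst ≫ f := pullback.lift_fst _ _ _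
  have hφ2 : φ ≫ pullback.snd g y = snd := pullback.lift_snd _ _ _
  have htop : IsPullback fst φ f (pullback.fst g y) := by
    refine IsPullback.of_bot ?_ hφ1.symm (IsPullback.of_hasPullback g y)
    rw [hφ2]
    exact hP
  have h1 : GeometricallyIntegral φ := MorphismProperty.of_isPullback htop ‹_›
  have h2 : Flat φ := MorphismProperty.of_isPullback htop ‹_›
  have h3 : UniversallyOpen φ := MorphismProperty.of_isPullback htop ‹_›
  exact isIntegral_of_geometricallyIntegral_of_isOpenMap φ φ.isOpenMap

namespace IsProdOver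

variable {ι : Type*} {S : Scheme.{u}} {C : ι → Scheme.{u}} {c : ∀ i, C i ⟶ S}
  {X : Scheme.{u}} {x : X ⟶ S} {p : ∀ i, X ⟶ C i}

/-- A finite product of geometrically integral, flat, universally open `S`-schemes is
geometrically integral over `S`. Over a field, flatness and universal openness are
automatic (Mathlib instances). -/
theorem geometricallyIntegral [Finite ι] (h : IsProdOver c x p)
    [∀ i, GeometricallyIntegral (c i)] [∀ i, Flat (c i)] [∀ i, UniversallyOpen (c i)] :
    GeometricallyIntegral x :=
  h.induction (fun _ c => GeometricallyIntegral c ∧ Flat c ∧ UniversallyOpen c)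
    (fun _ _ y => GeometricallyIntegral y)
    (fun _ _ _ e y' hy' => by
      have := hy'
      have := geometricallyIntegral_of_isIso e.hom
      exact geometricallyIntegral_comp e.hom y')
    (geometricallyIntegral_id S)
    (fun _ _ _ c z hc hz => by
      obtain ⟨hc1, hc2, hc3⟩ := hc
      rw [pullback.condition]
      exact geometricallyIntegral_comp (pullback.snd c z) z)
    (fun _ => ⟨inferInstance, inferInstance, inferInstance⟩)

/-- A finite product of geometrically integral schemes over a field is integral. -/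
theorem isIntegral [Finite ι] (h : IsProdOver c x p) [IsIntegral S] [Subsingleton S]
    [∀ i, GeometricallyIntegral (c i)] : IsIntegral X :=
  have := h.geometricallyIntegral
  GeometricallyIntegral.isIntegral_of_subsingleton x

end IsProdOver


/-! ### A chosen product -/

section chosen

variable {ι : Type*} [Finite ι] {S : Scheme.{u}} {C : ι → Scheme.{u}}

/-- A chosen product of a finite family of schemes over `S`. -/
noncomputable def prodObj (c : ∀ i, C i ⟶ S) : Scheme.{u} :=
  (exists_isProdOver c).choose

/-- The structure map of the chosen product. -/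
noncomputable def prodHom (c : ∀ i, C i ⟶ S) : prodObj c ⟶ S :=
  (exists_isProdOver c).choose_spec.choose

/-- The projections of the chosen product. -/
noncomputable def prodProj (c : ∀ i, C i ⟶ S) (i : ι) : prodObj c ⟶ C i :=
  (exists_isProdOver c).choose_spec.choose_spec.choose i

theorem isProdOver_prodObj (c : ∀ i, C i ⟶ S) : IsProdOver c (prodHom c) (prodProj c) :=
  (exists_isProdOver c).choose_spec.choose_spec.choose_spec

end chosen

end Fermat.Agent.S26.helper4836
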