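import Fermat.Agent.S26.helper154_Spec2
import Fermat.Agent.S26.helper4836_CurveProduct
import Fermat.Agent.S25.helper6784_GeomIntegral

/-!
# S26 leaf M6-PROD, adapter to the interface product `helper154.prodX` (ruling R4)

* `prodXProj l i : (prodX l).1 ⟶ (l.get i).C`, the coordinate projections;
* `isProdOver_prodX l : IsProdOver (fun i => (l.get i).c) (prodX l).2 (prodXProj l)`;
* `Smooth`, `SmoothOfRelativeDimension l.length`, and (for `K` algebraically closed)
  `IsIntegral`, `GeometricallyIntegral` of `prodX l`, integrality of the products used by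
  the cube (`X × X`, `C × X`, `C × (X × X)`).
-/

set_option autoImplicit false

universe u

open CategoryTheory CategoryTheory.Limits AlgebraicGeometry AlgebraicGeometry.RelPicard
  NeronModelInfra GoodReductionJacobian

namespace Fermat.Agent.S26.helper4836

open Fermat.Agent.S26.helper154

/-- Adding a first factor to a product indexed by `Fin n`: if `Y` is the product of the
`C i.succ` then `C 0 ×ₛ Y`, with structure map `snd ≫ y`, is the product of the whole family
over `Fin (n + 1)`. -/
theorem IsProdOver.finSucc {S : Scheme.{u}} {n : ℕ} {C : Fin (n + 1) → Scheme.{u}}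
    {c : ∀ i, C i ⟶ S} {Y : Scheme.{u}} {y : Y ⟶ S} {q : ∀ i : Fin n, Y ⟶ C i.succ}
    (hY : IsProdOver (fun i : Fin n => c i.succ) y q)
    {W : Scheme.{u}} {fst : W ⟶ C 0} {snd : W ⟶ Y} (hW : IsPullback fst snd (c 0) y) :
    IsProdOver c (snd ≫ y)
      (fun i => Fin.cases (motive := fun i => W ⟶ C i) fst (fun j => snd ≫ q j) i) where
  fac i := by
    refine Fin.cases ?_ (fun j => ?_) i
    · simp [hW.w]
    · simp [hY.fac (ι := Fin n)]
  exists_lift {T} t f hf := by
    refine ⟨hW.lift (f 0) (hY.lift t (fun j => f j.succ) (fun j => hf j.succ))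
      (by simp [hf]), by simp, ?_⟩
    intro i
    refine Fin.cases ?_ (fun j => ?_) i <;> simp
  hom_ext {T} φ ψ hx hp := by
    apply hW.hom_ext
    · exact hp 0
    · exact hY.hom_ext _ _ (by simpa using hx) (fun j => by simpa using hp j.succ)

variable {K : Type u} [Field K] {A : Scheme.{u}} {f : A ⟶ Spec (CommRingCat.of K)}
  {L : RelativeGroupLaw K f}

/-- The coordinate projection of `prodX l` onto its `i`-th curve. -/
noncomputable def prodXProj : (l : List (PCurve K f L)) → (i : Fin l.length) →
    ((prodX l).1 ⟶ (l.get i).C)
  | [], i => i.elim0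
  | P :: l, i =>
    Fin.cases (motive := fun i : Fin (l.length + 1) => (prodX (P :: l)).1 ⟶ ((P :: l).get i).C)
      (pullback.fst P.c (prodX l).2) (fun j => pullback.snd P.c (prodX l).2 ≫ prodXProj l j) i

/-- Pre-generates the unfolding lemmas `prodXProj.eq_1`, `.eq_2`, `.eq_def` in the defining
module, so that downstream modules unfolding `prodXProj` never generate their own copies (a
name collision in a joint import closure). -/
theorem prodXProj_eqns_pregen (P : PCurve K f L) (l : List (PCurve K f L)) :
    prodXProj (P :: l) (0 : Fin (l.length + 1)) = pullback.fst P.c (prodX l).2 := by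
  have h : ∀ (l' : List (PCurve K f L)) (i : Fin l'.length), prodXProj l' i = prodXProj l' i := by
    intro l' i
    unfold prodXProj
    rfl
  simp only [prodXProj]
  rfl

lemma prodXProj_cons_zero (P : PCurve K f L) (l : List (PCurve K f L)) :
    prodXProj (P :: l) (0 : Fin (l.length + 1)) = pullback.fst P.c (prodX l).2 := rfl

lemma prodXProj_cons_succ (P : PCurve K f L) (l : List (PCurve K f L)) (i : Fin l.length) :
    prodXProj (P :: l) i.succ = pullback.snd P.c (prodX l).2 ≫ prodXProj l i := rfl

/-- **R4.** The interface product `prodX l` is the product of the curves of `l` over `K`, with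
the projections `prodXProj l`. -/
theorem isProdOver_prodX (l : List (PCurve K f L)) :
    IsProdOver (fun i : Fin l.length => (l.get i).c) (prodX l).2 (prodXProj l) := by
  induction l with
  | nil =>
    have : IsEmpty (Fin ([] : List (PCurve K f L)).length) := inferInstanceAs (IsEmpty (Fin 0))
    exact IsProdOver.of_isEmpty _ (𝟙 (Spec (CommRingCat.of K))) _
  | cons P l ih =>
    exact IsProdOver.finSucc (C := fun i : Fin (l.length + 1) => ((P :: l).get i).C)
      (c := fun i : Fin (l.length + 1) => ((P :: l).get i).c) ih
      (IsPullback.of_hasPullback P.c (prodX l).2)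

/-- The base point of `prodX l` has the base points of the curves as coordinates. -/
@[reassoc]
lemma prodPt_prodXProj (l : List (PCurve K f L)) (i : Fin l.length) :
    (prodPt l).1 ≫ prodXProj l i = (l.get i).pt.1 := by
  induction l with
  | nil => exact i.elim0
  | cons P l ih =>
    refine Fin.cases ?_ (fun j => ?_) i
    · exact pullback.lift_fst _ _ _
    · have h1 : (prodPt (P :: l)).1 ≫ pullback.snd P.c (prodX l).2 = (prodPt l).1 :=
        pullback.lift_snd _ _ _
      have h2 : (prodPt (P :: l)).1 ≫ pullback.snd P.c (prodX l).2 ≫ prodXProj l j =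
          (l.get j).pt.1 := by
        rw [← Category.assoc, h1]
        exact ih j
      exact h2

/-! ### Properties of `prodX l` -/

/-- `prodX l` is smooth of relative dimension `l.length` over `K`. -/
theorem smoothOfRelativeDimension_prodX (l : List (PCurve K f L)) :
    SmoothOfRelativeDimension l.length (prodX l).2 := by
  have : ∀ i : Fin l.length, SmoothOfRelativeDimension 1 (l.get i).c :=
    fun i => (l.get i).smooth
  simpa using (isProdOver_prodX l).smoothOfRelativeDimension

/-- **R4.** `prodX l` is smooth over `K`. -/
theorem smooth_prodX (l : List (PCurve K f L)) : Smooth (prodX l).2 :=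
  have := smoothOfRelativeDimension_prodX l
  SmoothOfRelativeDimension.smooth l.length _

/-- Each curve of the list is geometrically integral (`K` algebraically closed). -/
theorem geometricallyIntegral_pcurve [IsAlgClosed K] (P : PCurve K f L) :
    GeometricallyIntegral P.c :=
  have := P.integral
  Fermat.Agent.S25.helper6784.geometricallyIntegral_of_isAlgClosed _

/-- **R4.** `prodX l` is integral (`K` algebraically closed). -/
theorem isIntegral_prodX [IsAlgClosed K] (l : List (PCurve K f L)) : IsIntegral (prodX l).1 := by
  have : ∀ i : Fin l.length, GeometricallyIntegral (l.get i).c :=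
    fun i => geometricallyIntegral_pcurve (l.get i)
  exact (isProdOver_prodX l).isIntegral

/-- **R4.** `prodX l` is geometrically integral over `K` (`K` algebraically closed). -/
theorem geometricallyIntegral_prodX [IsAlgClosed K] (l : List (PCurve K f L)) :
    GeometricallyIntegral (prodX l).2 :=
  have := isIntegral_prodX l
  Fermat.Agent.S25.helper6784.geometricallyIntegral_of_isAlgClosed _

/-- `X × X'` is integral. -/
theorem isIntegral_pullback_prodX [IsAlgClosed K] (l l' : List (PCurve K f L)) :
    IsIntegral (pullback (prodX l).2 (prodX l').2) :=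
  have := isIntegral_prodX l
  have := isIntegral_prodX l'
  Fermat.Agent.S25.helper6784.isIntegral_pullback_of_isAlgClosed _ _

/-- `C × X` is integral. -/
theorem isIntegral_pullback_pcurve_prodX [IsAlgClosed K] (P : PCurve K f L)
    (l : List (PCurve K f L)) : IsIntegral (pullback P.c (prodX l).2) :=
  have := P.integral
  have := isIntegral_prodX l
  Fermat.Agent.S25.helper6784.isIntegral_pullback_of_isAlgClosed _ _

/-- `C × (X × X')` is integral. -/
theorem isIntegral_pullback_pcurve_pullback_prodX [IsAlgClosed K] (P : PCurve K f L)
    (l l' : List (PCurve K f L)) :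
    IsIntegral (pullback P.c (pullback.fst (prodX l).2 (prodX l').2 ≫ (prodX l).2)) :=
  have := P.integral
  have := isIntegral_pullback_prodX l l'
  Fermat.Agent.S25.helper6784.isIntegral_pullback_of_isAlgClosed _ _

/-- The product facts consumed by the cube identity on `X = prodX l`, in one statement. -/
theorem prodX_facts (K : Type u) [Field K] [IsAlgClosed K] {A : Scheme.{u}}
    (f : A ⟶ Spec (CommRingCat.of K)) (L : RelativeGroupLaw K f) (l : List (PCurve K f L)) :
    GeometricallyIntegral (prodX l).2 ∧ IsIntegral (pullback (prodX l).2 (prodX l).2) ∧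
      ∀ P : PCurve K f L, IsIntegral (pullback P.c (prodX l).2) ∧
        IsIntegral (pullback P.c (pullback.fst (prodX l).2 (prodX l).2 ≫ (prodX l).2)) :=
  ⟨geometricallyIntegral_prodX l, isIntegral_pullback_prodX l l, fun P =>
    ⟨isIntegral_pullback_pcurve_prodX P l, isIntegral_pullback_pcurve_pullback_prodX P l l⟩⟩

end Fermat.Agent.S26.helper4836
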