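/-
S26-M8-SIGN (helper4871): the sign trick in divisor form (route #2746, D2).

Setting: `X` an integral scheme over `K`, Cartier divisors `CDiv X` of `helper154_Spec`
(multiplicative notation).  If finitely many EFFECTIVE divisors `E t` have a product that is
linearly equivalent to `P ^ N`, then for every `m` the space `L((E t0) ^ m)` embeds
(multiplication by a fixed rational function to the power `m`) into `L(P ^ (N * m))`; hence
`ell ((E t0) ^ m) ≤ ell (P ^ (N * m))`.

In the application `T` is the set of the `2 ^ g` sign vectors, `E ε = (s_ε)^* D`,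
`P = ∏ i, p_i^* f_i^* D`, `N = 2 ^ g`, and the linear equivalence is the output (Q2) of the
quadratic calculus (M5).

Also here: the small `CDiv` toolbox this needs (effective divisors are closed under products,
`L` is monotone along effective divisors, `L(D * principal u) = u⁻¹ L(D)`, `ell` and `LFinite`
are invariant under linear equivalence).
-/
import Fermat.Agent.S26.helper154_Spec

set_option autoImplicit false

universe u

noncomputable section

open CategoryTheory AlgebraicGeometry

namespace Fermat.Agent.S26.helper4871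

open Fermat.Agent.S26.helper154

variable {X : Scheme.{u}} [IsIntegral X]

/-! ### Pointwise description of the group operations -/

theorem cdiv_mul_apply (D E : CDiv X) (p : X) : (D * E).1 p = D.1 p * E.1 p := rfl

theorem cdiv_one_apply (p : X) : (1 : CDiv X).1 p = 1 := rfl

theorem cdiv_principal_apply (f : (X.functionField)ˣ) (p : X) :
    (CDiv.principal f : CDiv X).1 p = QuotientGroup.mk f := rfl

/-! ### Effective divisors -/

theorem isEffective_one : CDiv.IsEffective (1 : CDiv X) := fun p =>
  ⟨1, rfl, by rw [Units.val_one]; exact Subring.one_mem _⟩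

theorem isEffective_mul {D E : CDiv X} (hD : CDiv.IsEffective D) (hE : CDiv.IsEffective E) :
    CDiv.IsEffective (D * E) := by
  intro p
  obtain ⟨f, hf, hfm⟩ := hD p
  obtain ⟨g, hg, hgm⟩ := hE p
  refine ⟨f * g, ?_, ?_⟩
  · rw [cdiv_mul_apply, hf, hg]; rfl
  · rw [Units.val_mul]; exact Subring.mul_mem _ hfm hgm

theorem isEffective_pow {D : CDiv X} (hD : CDiv.IsEffective D) (m : ℕ) :
    CDiv.IsEffective (D ^ m) := by
  induction m with
  | zero => rw [pow_zero]; exact isEffective_one
  | succ k ih => rw [pow_succ]; exact isEffective_mul ih hD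

theorem isEffective_prod {T : Type*} (s : Finset T) (E : T → CDiv X)
    (h : ∀ t ∈ s, CDiv.IsEffective (E t)) : CDiv.IsEffective (∏ t ∈ s, E t) :=
  Finset.prod_induction E (fun D => CDiv.IsEffective D) (fun _ _ => isEffective_mul)
    isEffective_one h

/-! ### `L` along effective divisors and principal divisors -/

/-- `L(D) ⊆ L(D + E)` for `E` effective. -/
theorem lSet_subset_mul_of_isEffective (D : CDiv X) {E : CDiv X} (hE : CDiv.IsEffective E) :
    CDiv.LSet D ⊆ CDiv.LSet (D * E) := by
  intro h hh p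
  obtain ⟨f, hf, hfm⟩ := hh p
  obtain ⟨g, hg, hgm⟩ := hE p
  refine ⟨f * g, ?_, ?_⟩
  · rw [cdiv_mul_apply, hf, hg]; rfl
  · rw [Units.val_mul, ← mul_assoc]; exact Subring.mul_mem _ hfm hgm

/-- `h ∈ L(D + div u) ↔ h u ∈ L(D)`. -/
theorem mem_lSet_mul_principal (D : CDiv X) (u : (X.functionField)ˣ) (h : X.functionField) :
    h ∈ CDiv.LSet (D * CDiv.principal u) ↔ h * (u : X.functionField) ∈ CDiv.LSet D := by
  constructor
  · intro hh p
    obtain ⟨f, hf, hfm⟩ := hh p
    refine ⟨f * u⁻¹, ?_, ?_⟩
    · rw [cdiv_mul_apply, cdiv_principal_apply] at hf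
      rw [QuotientGroup.mk_mul, ← hf, QuotientGroup.mk_inv, mul_inv_cancel_right]
    · have : h * (u : X.functionField) * ((f * u⁻¹ : (X.functionField)ˣ) : X.functionField) =
          h * (f : X.functionField) := by
        rw [Units.val_mul, mul_assoc, mul_comm (f : X.functionField), ← mul_assoc
          (u : X.functionField), Units.mul_inv, one_mul]
      rw [this]; exact hfm
  · intro hh p
    obtain ⟨f, hf, hfm⟩ := hh p
    refine ⟨f * u, ?_, ?_⟩
    · rw [cdiv_mul_apply, cdiv_principal_apply, hf]; rfl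
    · have : h * ((f * u : (X.functionField)ˣ) : X.functionField) =
          h * (u : X.functionField) * (f : X.functionField) := by
        rw [Units.val_mul]; ring
      rw [this]; exact hfm

section KStructure

variable {K : Type u} [Field K] (x : X ⟶ Spec (CommRingCat.of K))

/-- Multiplication by `u` is a `K`-linear isomorphism `L(D + div u) ≃ L(D)`. -/
def lSubMulPrincipal (D : CDiv X) (u : (X.functionField)ˣ) :
    letI := (constHom x).toAlgebra
    CDiv.LSub x (D * CDiv.principal u) ≃ₗ[K] CDiv.LSub x D :=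
  letI := (constHom x).toAlgebra
  { toFun := fun h => ⟨h.1 * (u : X.functionField), (mem_lSet_mul_principal D u h.1).1 h.2⟩
    map_add' := fun a b => Subtype.ext (add_mul _ _ _)
    map_smul' := fun c a => Subtype.ext (smul_mul_assoc c a.1 (u : X.functionField))
    invFun := fun h => ⟨h.1 * ((u⁻¹ : (X.functionField)ˣ) : X.functionField),
      (mem_lSet_mul_principal D u _).2 (by
        rw [mul_assoc, Units.inv_mul, mul_one]; exact h.2)⟩
    left_inv := fun h => Subtype.ext (by
      show h.1 * (u : X.functionField) * ((u⁻¹ : (X.functionField)ˣ) : X.functionField) = h.1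
      rw [mul_assoc, Units.mul_inv, mul_one])
    right_inv := fun h => Subtype.ext (by
      show h.1 * ((u⁻¹ : (X.functionField)ˣ) : X.functionField) * (u : X.functionField) = h.1
      rw [mul_assoc, Units.inv_mul, mul_one]) }

theorem ell_mul_principal (D : CDiv X) (u : (X.functionField)ˣ) :
    CDiv.ell x (D * CDiv.principal u) = CDiv.ell x D := by
  letI := (constHom x).toAlgebra
  exact LinearEquiv.finrank_eq (lSubMulPrincipal x D u)

theorem lFinite_mul_principal_iff (D : CDiv X) (u : (X.functionField)ˣ) :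
    CDiv.LFinite x (D * CDiv.principal u) ↔ CDiv.LFinite x D := by
  letI := (constHom x).toAlgebra
  constructor
  · intro h
    haveI : Module.Finite K (CDiv.LSub x (D * CDiv.principal u)) := h
    exact Module.Finite.equiv (lSubMulPrincipal x D u)
  · intro h
    haveI : Module.Finite K (CDiv.LSub x D) := h
    exact Module.Finite.equiv (lSubMulPrincipal x D u).symm

/-- `ell` is invariant under linear equivalence. -/
theorem ell_eq_of_linEquiv {D E : CDiv X} (h : CDiv.LinEquiv D E) :
    CDiv.ell x D = CDiv.ell x E := by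
  obtain ⟨f, rfl⟩ := h
  exact ell_mul_principal x E f

theorem lFinite_iff_of_linEquiv {D E : CDiv X} (h : CDiv.LinEquiv D E) :
    CDiv.LFinite x D ↔ CDiv.LFinite x E := by
  obtain ⟨f, rfl⟩ := h
  exact lFinite_mul_principal_iff x E f

/-- Monotonicity of `ell` along effective divisors. -/
theorem ell_le_mul_of_isEffective (D : CDiv X) {E : CDiv X} (hE : CDiv.IsEffective E)
    (hfin : CDiv.LFinite x (D * E)) :
    CDiv.LFinite x D ∧ CDiv.ell x D ≤ CDiv.ell x (D * E) := by
  letI := (constHom x).toAlgebra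
  haveI : Module.Finite K (CDiv.LSub x (D * E)) := hfin
  have hle : CDiv.LSub x D ≤ CDiv.LSub x (D * E) := lSet_subset_mul_of_isEffective D hE
  exact ⟨Module.Finite.of_injective (Submodule.inclusion hle) (Submodule.inclusion_injective hle),
    LinearMap.finrank_le_finrank_of_injective (Submodule.inclusion_injective hle)⟩

end KStructure

/-! ### Linear equivalence -/

theorem linEquiv_refl (D : CDiv X) : CDiv.LinEquiv D D :=
  ⟨1, ((congrArg (D * ·) (map_one CDiv.principal)).trans (mul_one D)).symm⟩

theorem linEquiv_symm {D E : CDiv X} (h : CDiv.LinEquiv D E) : CDiv.LinEquiv E D := by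
  obtain ⟨f, rfl⟩ := h
  refine ⟨f⁻¹, ?_⟩
  have e1 : (CDiv.principal f⁻¹ : CDiv X) = (CDiv.principal f)⁻¹ := map_inv CDiv.principal f
  have e2 : E * CDiv.principal f * (CDiv.principal f)⁻¹ = E :=
    mul_inv_cancel_right E (CDiv.principal f)
  rw [e1, e2]

theorem linEquiv_trans {D E F : CDiv X} (h : CDiv.LinEquiv D E) (h' : CDiv.LinEquiv E F) :
    CDiv.LinEquiv D F := by
  obtain ⟨f, rfl⟩ := h
  obtain ⟨g, rfl⟩ := h'
  refine ⟨g * f, ?_⟩
  have e1 : (CDiv.principal (g * f) : CDiv X) = CDiv.principal g * CDiv.principal f :=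
    map_mul CDiv.principal g f
  have e2 : F * CDiv.principal g * CDiv.principal f =
      F * (CDiv.principal g * CDiv.principal f) :=
    mul_assoc F (CDiv.principal g) (CDiv.principal f)
  rw [e1, e2]

theorem linEquiv_mul {D E D' E' : CDiv X} (h : CDiv.LinEquiv D E) (h' : CDiv.LinEquiv D' E') :
    CDiv.LinEquiv (D * D') (E * E') := by
  obtain ⟨f, rfl⟩ := h
  obtain ⟨g, rfl⟩ := h'
  refine ⟨f * g, ?_⟩
  have e1 : (CDiv.principal (f * g) : CDiv X) = CDiv.principal f * CDiv.principal g :=
    map_mul CDiv.principal f g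
  have e2 : E * CDiv.principal f * (E' * CDiv.principal g) =
      E * E' * (CDiv.principal f * CDiv.principal g) :=
    mul_mul_mul_comm E (CDiv.principal f) E' (CDiv.principal g)
  rw [e1, e2]

theorem linEquiv_pow {D E : CDiv X} (h : CDiv.LinEquiv D E) (m : ℕ) :
    CDiv.LinEquiv (D ^ m) (E ^ m) := by
  obtain ⟨f, rfl⟩ := h
  refine ⟨f ^ m, ?_⟩
  have e1 : (CDiv.principal (f ^ m) : CDiv X) = CDiv.principal f ^ m :=
    map_pow CDiv.principal f m
  have e2 : (E * CDiv.principal f) ^ m = E ^ m * CDiv.principal f ^ m :=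
    mul_pow E (CDiv.principal f) m
  rw [e1, e2]

/-! ### The sign trick in divisor form -/

theorem prod_split {T : Type*} [Fintype T] [DecidableEq T] (E : T → CDiv X) (t0 : T)
    (P : CDiv X) (N : ℕ) (u : (X.functionField)ˣ) (hu : ∏ t, E t = P ^ N * CDiv.principal u)
    (m : ℕ) :
    E t0 ^ m * (∏ t ∈ Finset.univ.erase t0, E t) ^ m =
      P ^ (N * m) * CDiv.principal (u ^ m) := by
  have e1 : E t0 * ∏ t ∈ Finset.univ.erase t0, E t = ∏ t, E t :=
    Finset.mul_prod_erase Finset.univ E (Finset.mem_univ t0)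
  have e2 : E t0 ^ m * (∏ t ∈ Finset.univ.erase t0, E t) ^ m =
      (E t0 * ∏ t ∈ Finset.univ.erase t0, E t) ^ m :=
    (mul_pow (E t0) (∏ t ∈ Finset.univ.erase t0, E t) m).symm
  have e3 : (P ^ N * CDiv.principal u) ^ m = (P ^ N) ^ m * (CDiv.principal u) ^ m :=
    mul_pow (P ^ N) (CDiv.principal u) m
  have e4 : (P ^ N) ^ m = P ^ (N * m) := (pow_mul P N m).symm
  have e5 : (CDiv.principal u : CDiv X) ^ m = CDiv.principal (u ^ m) :=
    (map_pow CDiv.principal u m).symm
  rw [e2, e1, hu, e3, e4, e5]

/-- **Sign trick, function form.** If the effective divisors `E t` have product linearly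
equivalent to `P ^ N`, there is ONE rational function `u` such that multiplication by `u ^ m`
maps `L((E t0) ^ m)` into `L(P ^ (N * m))`, for every `m`. -/
theorem exists_mul_pow_mem_lSet {T : Type*} [Fintype T] (E : T → CDiv X)
    (heff : ∀ t, CDiv.IsEffective (E t)) (t0 : T) (P : CDiv X) (N : ℕ)
    (hlin : CDiv.LinEquiv (∏ t, E t) (P ^ N)) :
    ∃ u : (X.functionField)ˣ, ∀ (m : ℕ) (h : X.functionField),
      h ∈ CDiv.LSet (E t0 ^ m) → h * ((u ^ m : (X.functionField)ˣ) : X.functionField) ∈
        CDiv.LSet (P ^ (N * m)) := by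
  classical
  obtain ⟨u, hu⟩ := hlin
  refine ⟨u, fun m h hh => ?_⟩
  have hR : CDiv.IsEffective (∏ t ∈ Finset.univ.erase t0, E t) :=
    isEffective_prod _ E (fun t _ => heff t)
  have hsplit : E t0 ^ m * (∏ t ∈ Finset.univ.erase t0, E t) ^ m =
      P ^ (N * m) * CDiv.principal (u ^ m) := by
    exact prod_split E t0 P N u hu m
  have h1 : h ∈ CDiv.LSet (E t0 ^ m * (∏ t ∈ Finset.univ.erase t0, E t) ^ m) :=
    lSet_subset_mul_of_isEffective _ (isEffective_pow hR m) hh
  rw [hsplit] at h1
  exact (mem_lSet_mul_principal _ _ _).1 h1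

/-- **Sign trick, dimension form.** If the effective divisors `E t` have product linearly
equivalent to `P ^ N`, then `ℓ((E t0) ^ m) ≤ ℓ(P ^ (N * m))` (and the left side is
finite-dimensional as soon as the right side is). -/
theorem ell_pow_le_of_prod_linEquiv {K : Type u} [Field K] (x : X ⟶ Spec (CommRingCat.of K))
    {T : Type*} [Fintype T] (E : T → CDiv X) (heff : ∀ t, CDiv.IsEffective (E t)) (t0 : T)
    (P : CDiv X) (N : ℕ) (hlin : CDiv.LinEquiv (∏ t, E t) (P ^ N)) (m : ℕ)
    (hfin : CDiv.LFinite x (P ^ (N * m))) :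
    CDiv.LFinite x (E t0 ^ m) ∧ CDiv.ell x (E t0 ^ m) ≤ CDiv.ell x (P ^ (N * m)) := by
  classical
  obtain ⟨u, hu⟩ := hlin
  have hR : CDiv.IsEffective (∏ t ∈ Finset.univ.erase t0, E t) :=
    isEffective_prod _ E (fun t _ => heff t)
  have hsplit : E t0 ^ m * (∏ t ∈ Finset.univ.erase t0, E t) ^ m =
      P ^ (N * m) * CDiv.principal (u ^ m) := by
    exact prod_split E t0 P N u hu m
  have hfin' : CDiv.LFinite x (E t0 ^ m * (∏ t ∈ Finset.univ.erase t0, E t) ^ m) := by
    rw [hsplit]; exact (lFinite_mul_principal_iff x _ _).2 hfin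
  obtain ⟨h1, h2⟩ := ell_le_mul_of_isEffective x (E t0 ^ m) (isEffective_pow hR m) hfin'
  refine ⟨h1, ?_⟩
  rw [hsplit, ell_mul_principal] at h2
  exact h2

end Fermat.Agent.S26.helper4871
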