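/-
S26-M8-SIGN, part 2 (helper4871): the assembly of `helper154.Stmt_Upper` (upper growth on the
product of curves) from

* `Stmt_SignSum`   (output (Q2) of the quadratic calculus M5-GEO): the product over the `2 ^ g`
                   sign vectors of `(s_ε)^* D` is linearly equivalent to
                   `(∏ i, (f_i ∘ p_i)^* D) ^ (2 ^ g)`;
* `Stmt_ProdBound` (M8-PROD + curve input): `ℓ((∏ i, (f_i ∘ p_i)^* D) ^ k) ≤ (c k + 1) ^ g`;
* `Stmt_PullExists`, `Stmt_PullEff` (M2-PULL): pull-backs along maps sending some point outside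
                   the support exist, and pull-backs of effective divisors are effective.

Vocabulary: `helper154_Spec` / `helper154_Spec2`.  The maps `s_ε` and `f_i ∘ p_i` are expressed
with the weighted sum `wsum L l a` of the Spec (`a = signWeight ε`, `a = coordWeight i`), so no
new geometric definition is needed.

Second half of the file: `Stmt_WsumPt` is proved (`stmt_WsumPt`), the coordinate maps are
identified (`wsum_coordWeight_zero`, `wsum_coordWeight_succ`), and `Stmt_ProdBound` is reduced by
induction on the list of curves to the BINARY product bound `Stmt_BinBound`, the curve bound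
`Stmt_CurveBound` and cancellation of pull-backs `Stmt_PullCancel`
(`stmt_ProdBound_of`).  The final form is

  `stmt_Upper_of' : Stmt_SignSum → Stmt_BinBound → Stmt_CurveBound → Stmt_PullExists →
      Stmt_PullCancel → helper154.Stmt_Upper`.
-/
import Fermat.Agent.S26.helper154_Spec2
import Fermat.Agent.S26.helper4871_SignBound
import Fermat.Agent.S26.helper218_PullsTo
import Fermat.Agent.S25.helper6784_GeomIntegral

set_option autoImplicit false

universe u

noncomputable section

open CategoryTheory CategoryTheory.Limits AlgebraicGeometry AlgebraicGeometry.RelPicard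
  NeronModelInfra GoodReductionJacobian

namespace Fermat.Agent.S26.helper4871

open Fermat.Agent.S26.helper154

/-- The weight vector of a sign vector `ε ∈ {±1}^n` (zero beyond `n`; `wsum` only reads the
first `n` weights of a list of length `n`). -/
def signWeight (n : ℕ) (ε : Fin n → ℤˣ) : ℕ → ℤ :=
  fun j => if h : j < n then ((ε ⟨j, h⟩ : ℤˣ) : ℤ) else 0

/-- The weight vector of the `i`-th coordinate map `f_i ∘ p_i`. -/
def coordWeight (i : ℕ) : ℕ → ℤ :=
  fun j => if j = i then 1 else 0

section Wsum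

variable {K : Type u} [Field K] {A : Scheme.{u}} {f : A ⟶ Spec (CommRingCat.of K)}
  (L : RelativeGroupLaw K f)

/-- `wsum L l a` only depends on the first `l.length` weights. -/
theorem wsum_congr (l : List (PCurve K f L)) (a b : ℕ → ℤ)
    (h : ∀ j, j < l.length → a j = b j) : wsum L l a = wsum L l b := by
  induction l generalizing a b with
  | nil => rfl
  | cons P l ih =>
    have h0 : a 0 = b 0 := h 0 (Nat.succ_pos _)
    have ht : wsum L l (fun i => a (i + 1)) = wsum L l (fun i => b (i + 1)) :=
      ih _ _ (fun j hj => h (j + 1) (Nat.succ_lt_succ hj))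
    simp only [wsum, h0, ht]

theorem wsum_signWeight_one (l : List (PCurve K f L)) :
    (wsum L l (signWeight l.length 1)).1 = sumMap L l := by
  unfold sumMap
  rw [wsum_congr L l (signWeight l.length 1) (fun _ => 1)]
  intro j hj
  simp [signWeight, hj]

end Wsum

/-! ### The inputs, as `Prop`s -/

/-- (Q2) of M5-GEO: the sign-sum identity of the quadratic calculus, in divisor form. -/
def Stmt_SignSum : Prop :=
  ∀ (K : Type u) [Field K] {A : Scheme.{u}} (f : A ⟶ Spec (CommRingCat.of K))
    (L : RelativeGroupLaw K f) (g : ℕ) [IsIntegral A], IsAbVar K f L g →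
    ∀ (l : List (PCurve K f L)) [IsIntegral (prodX l).1] (D : CDiv A),
      CDiv.PullsTo (invMap L) D D → (∀ p, IsOrigin L p → p ∉ CDiv.supp D) →
      ∀ (Es : (Fin l.length → ℤˣ) → CDiv (prodX l).1) (Pc : Fin l.length → CDiv (prodX l).1),
        (∀ ε, CDiv.PullsTo (wsum L l (signWeight l.length ε)).1 D (Es ε)) →
        (∀ i : Fin l.length, CDiv.PullsTo (wsum L l (coordWeight i)).1 D (Pc i)) →
        CDiv.LinEquiv (∏ ε, Es ε) ((∏ i, Pc i) ^ (2 ^ l.length))

/-- M8-PROD (+ the curve input): the product-type bound for the divisor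
`∏ i, (f_i ∘ p_i)^* D` on the product of curves. -/
def Stmt_ProdBound : Prop :=
  ∀ (K : Type u) [Field K] {A : Scheme.{u}} (f : A ⟶ Spec (CommRingCat.of K))
    (L : RelativeGroupLaw K f) (g : ℕ) [IsIntegral A], IsAbVar K f L g →
    ∀ (l : List (PCurve K f L)) [IsIntegral (prodX l).1] (D : CDiv A), CDiv.IsEffective D →
      (∀ p, IsOrigin L p → p ∉ CDiv.supp D) →
      ∀ (Pc : Fin l.length → CDiv (prodX l).1),
        (∀ i : Fin l.length, CDiv.PullsTo (wsum L l (coordWeight i)).1 D (Pc i)) →
        ∃ c : ℕ, ∀ k : ℕ, CDiv.LFinite (prodX l).2 ((∏ i, Pc i) ^ k) ∧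
          CDiv.ell (prodX l).2 ((∏ i, Pc i) ^ k) ≤ (c * k + 1) ^ l.length

/-- M2-PULL (H4): a divisor pulls back along any morphism sending SOME point outside its
support. -/
def Stmt_PullExists : Prop :=
  ∀ {Y X : Scheme.{u}} [IsIntegral Y] [IsIntegral X] (φ : Y ⟶ X) (D : CDiv X) (y₀ : Y),
    φ.base y₀ ∉ CDiv.supp D → ∃ E : CDiv Y, CDiv.PullsTo φ D E

/-- M2-PULL: the pull-back of an effective divisor is effective. -/
def Stmt_PullEff : Prop :=
  ∀ {Y X : Scheme.{u}} [IsIntegral Y] [IsIntegral X] (φ : Y ⟶ X) (D : CDiv X) (E : CDiv Y),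
    CDiv.PullsTo φ D E → CDiv.IsEffective D → CDiv.IsEffective E

/-- The weighted sums are pointed maps: the base point of the product goes to the origin. -/
def Stmt_WsumPt : Prop :=
  ∀ (K : Type u) [Field K] {A : Scheme.{u}} (f : A ⟶ Spec (CommRingCat.of K))
    (L : RelativeGroupLaw K f) (l : List (PCurve K f L)) (a : ℕ → ℤ),
    (prodPt l).1 ≫ (wsum L l a).1 = (L.one (𝟙 (Spec (CommRingCat.of K)))).1

/-! ### The assembly -/

/-- `Stmt_Upper` from the sign-sum identity, the product-type bound and the pull-back API. -/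
theorem stmt_Upper_of (hS : Stmt_SignSum.{u}) (hP : Stmt_ProdBound.{u})
    (hE : Stmt_PullExists.{u}) (hEff : Stmt_PullEff.{u}) (hPt : Stmt_WsumPt.{u}) :
    Stmt_Upper.{u} := by
  intro K _ A f L g _ hA l _ D hDeff hDsym hD0 E hE0
  classical
  -- the base point of `X`, as a point of the underlying space
  obtain ⟨x₀⟩ : Nonempty (Spec (CommRingCat.of K)) := inferInstance
  have hpt : ∀ a : ℕ → ℤ,
      (wsum L l a).1.base ((prodPt l).1.base x₀) ∉ CDiv.supp D := by
    intro a
    apply hD0
    refine ⟨x₀, ?_⟩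
    rw [← hPt K f L l a]
    rfl
  -- the pull-backs along the sign maps and the coordinate maps
  have hex : ∀ a : ℕ → ℤ, ∃ Ea : CDiv (prodX l).1, CDiv.PullsTo (wsum L l a).1 D Ea :=
    fun a => hE (wsum L l a).1 D _ (hpt a)
  choose Ea hEa using hex
  let Es : (Fin l.length → ℤˣ) → CDiv (prodX l).1 :=
    fun ε => if ε = 1 then E else Ea (signWeight l.length ε)
  have hEs : ∀ ε, CDiv.PullsTo (wsum L l (signWeight l.length ε)).1 D (Es ε) := by
    intro ε
    by_cases h : ε = 1
    · subst h
      simp only [Es, if_true]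
      rw [wsum_signWeight_one]
      exact hE0
    · simp only [Es, if_neg h]
      exact hEa _
  let Pc : Fin l.length → CDiv (prodX l).1 := fun i => Ea (coordWeight i)
  have hPc : ∀ i : Fin l.length, CDiv.PullsTo (wsum L l (coordWeight i)).1 D (Pc i) :=
    fun i => hEa _
  have hlin := hS K f L g hA l D hDsym hD0 Es Pc hEs hPc
  obtain ⟨c, hc⟩ := hP K f L g hA l D hDeff hD0 Pc hPc
  have heff : ∀ ε, CDiv.IsEffective (Es ε) := fun ε => hEff _ D _ (hEs ε) hDeff
  refine ⟨c * 2 ^ l.length, fun m => ?_⟩
  obtain ⟨h1, h2⟩ := ell_pow_le_of_prod_linEquiv (prodX l).2 Es heff 1 (∏ i, Pc i)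
    (2 ^ l.length) hlin m (hc (2 ^ l.length * m)).1
  have hE1 : Es 1 = E := by simp only [Es, if_true]
  rw [hE1] at h1 h2
  refine ⟨h1, h2.trans ?_⟩
  have := (hc (2 ^ l.length * m)).2
  rwa [← mul_assoc] at this

/-! ### The group law on points: the weighted sums are pointed, coordinate maps -/

section GroupLaw

variable {K : Type u} [Field K] {A : Scheme.{u}} {f : A ⟶ Spec (CommRingCat.of K)}
  (L : RelativeGroupLaw K f)

/-- Base change of points commutes with integer powers. -/
theorem comp_zpowPt {T T' : Scheme.{u}} (t : T ⟶ Spec (CommRingCat.of K))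
    (t' : T' ⟶ Spec (CommRingCat.of K)) (ψ : T' ⟶ T) (hψ : ψ ≫ t = t') (m : ℤ)
    (x : SchemeHomOver t f) :
    schemeHomOverComp ψ hψ (zpowPt L t m x) = zpowPt L t' m (schemeHomOverComp ψ hψ x) := by
  let _ := L.pointGroup t
  let _ := L.pointGroup t'
  let φ : SchemeHomOver t f →* SchemeHomOver t' f :=
    MonoidHom.mk' (schemeHomOverComp ψ hψ) (fun x y => L.mul_natural t t' ψ hψ x y)
  exact map_zpow φ x m

theorem zpowPt_one {T : Scheme.{u}} (t : T ⟶ Spec (CommRingCat.of K)) (m : ℤ) :
    zpowPt L t m (L.one t) = L.one t := by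
  let _ := L.pointGroup t
  exact one_zpow m

theorem zpowPt_zero {T : Scheme.{u}} (t : T ⟶ Spec (CommRingCat.of K)) (x : SchemeHomOver t f) :
    zpowPt L t 0 x = L.one t := by
  let _ := L.pointGroup t
  exact zpow_zero x

theorem zpowPt_one_exp {T : Scheme.{u}} (t : T ⟶ Spec (CommRingCat.of K))
    (x : SchemeHomOver t f) : zpowPt L t 1 x = x := by
  let _ := L.pointGroup t
  exact zpow_one x

variable {L}

/-- The first projection `X = C × X' ⟶ C` of a product of curves. -/
def prodFst (P : PCurve K f L) (l : List (PCurve K f L)) : (prodX (P :: l)).1 ⟶ P.C :=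
  pullback.fst P.c (prodX l).2

/-- The second projection `X = C × X' ⟶ X'` of a product of curves. -/
def prodSnd (P : PCurve K f L) (l : List (PCurve K f L)) : (prodX (P :: l)).1 ⟶ (prodX l).1 :=
  pullback.snd P.c (prodX l).2

theorem prodSnd_comp (P : PCurve K f L) (l : List (PCurve K f L)) :
    prodSnd P l ≫ (prodX l).2 = (prodX (P :: l)).2 := rfl

theorem prodFst_comp (P : PCurve K f L) (l : List (PCurve K f L)) :
    prodFst P l ≫ P.c = (prodX (P :: l)).2 := pullback.condition

/-- The first coordinate map `f_0 ∘ p_0` of a product of curves, as a point of `A`. -/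
def coordPt (P : PCurve K f L) (l : List (PCurve K f L)) : SchemeHomOver (prodX (P :: l)).2 f :=
  schemeHomOverComp (prodFst P l) (prodFst_comp P l) P.map

theorem wsum_cons (P : PCurve K f L) (l : List (PCurve K f L)) (a : ℕ → ℤ) :
    wsum L (P :: l) a = L.mul (prodX (P :: l)).2
      (zpowPt L (prodX (P :: l)).2 (a 0) (coordPt P l))
      (schemeHomOverComp (prodSnd P l) (prodSnd_comp P l)
        (wsum L l (fun i => a (i + 1)))) := rfl

theorem wsum_zero (l : List (PCurve K f L)) : wsum L l (fun _ => 0) = L.one (prodX l).2 := by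
  induction l with
  | nil => rfl
  | cons P l ih =>
    rw [wsum_cons, ih, L.one_natural, zpowPt_zero, L.one_mul]

/-- The weighted sum with weight vector `e_0` is the first coordinate map `f_0 ∘ p_0`. -/
theorem wsum_coordWeight_zero (P : PCurve K f L) (l : List (PCurve K f L)) :
    (wsum L (P :: l) (coordWeight 0)).1 = prodFst P l ≫ P.map.1 := by
  have h0 : (fun i => coordWeight 0 (i + 1)) = fun _ => (0 : ℤ) := by
    funext i; simp [coordWeight]
  have h1 : coordWeight 0 0 = 1 := by simp [coordWeight]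
  rw [wsum_cons, h0, h1, wsum_zero, L.one_natural, zpowPt_one_exp, L.mul_one]
  rfl

/-- The weighted sum with weight vector `e_(i+1)` is the second projection followed by the
weighted sum with weight vector `e_i` on the tail. -/
theorem wsum_coordWeight_succ (P : PCurve K f L) (l : List (PCurve K f L)) (i : ℕ) :
    (wsum L (P :: l) (coordWeight (i + 1))).1 =
      prodSnd P l ≫ (wsum L l (coordWeight i)).1 := by
  have h0 : (fun j => coordWeight (i + 1) (j + 1)) = coordWeight i := by
    funext j; simp [coordWeight]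
  have h1 : coordWeight (i + 1) 0 = 0 := by simp [coordWeight]
  rw [wsum_cons, h0, h1, zpowPt_zero, L.one_mul]
  rfl

/-- The base point of a product of curves and the two projections. -/
theorem prodPt_fst (P : PCurve K f L) (l : List (PCurve K f L)) :
    (prodPt (P :: l)).1 ≫ prodFst P l = P.pt.1 :=
  pullback.lift_fst _ _ _

theorem prodPt_snd (P : PCurve K f L) (l : List (PCurve K f L)) :
    (prodPt (P :: l)).1 ≫ prodSnd P l = (prodPt l).1 :=
  pullback.lift_snd _ _ _

/-- The weighted sums are pointed. -/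
theorem stmt_WsumPt : Stmt_WsumPt.{u} := by
  intro K _ A f L l
  induction l with
  | nil =>
    intro a
    exact Category.id_comp _
  | cons P l ih =>
    intro a
    have hψ : (prodPt (P :: l)).1 ≫ (prodX (P :: l)).2 = 𝟙 _ := (prodPt (P :: l)).2
    have h1 : schemeHomOverComp (prodPt (P :: l)).1 hψ (coordPt P l) = L.one (𝟙 _) := by
      apply Subtype.ext
      show (prodPt (P :: l)).1 ≫ prodFst P l ≫ P.map.1 = _
      rw [← Category.assoc, prodPt_fst, P.map_pt]
    have h2 : schemeHomOverComp (prodPt (P :: l)).1 hψ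
        (schemeHomOverComp (prodSnd P l) (prodSnd_comp P l)
          (wsum L l (fun i => a (i + 1)))) = L.one (𝟙 _) := by
      apply Subtype.ext
      show (prodPt (P :: l)).1 ≫ prodSnd P l ≫ (wsum L l (fun i => a (i + 1))).1 = _
      rw [← Category.assoc, prodPt_snd, ih]
    have key := congrArg (schemeHomOverComp (prodPt (P :: l)).1 hψ) (wsum_cons P l a)
    rw [L.mul_natural, comp_zpowPt, h1, h2, zpowPt_one, L.one_mul] at key
    exact congrArg Subtype.val key

end GroupLaw

/-! ### The base case `Spec K` -/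

section Point

variable (K : Type u) [Field K]

theorem subsingleton_specField : Subsingleton ↥(Spec (CommRingCat.of K)) :=
  inferInstanceAs (Subsingleton (PrimeSpectrum K))

/-- On `Spec K` every rational function is a constant. -/
theorem constHom_id_surjective :
    Function.Surjective (constHom (𝟙 (Spec (CommRingCat.of K)))) := by
  intro t
  obtain ⟨U, hU, s, rfl⟩ := TopCat.Presheaf.exists_germ_eq (Spec (CommRingCat.of K)).presheaf
    (x := genericPoint (Spec (CommRingCat.of K))) t
  haveI := subsingleton_specField K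
  have hUtop : U = ⊤ := by
    ext p
    simp only [TopologicalSpace.Opens.coe_top, Set.mem_univ, iff_true]
    rw [Subsingleton.elim p (genericPoint (Spec (CommRingCat.of K)))]
    exact hU
  subst hUtop
  refine ⟨(Scheme.ΓSpecIso (CommRingCat.of K)).hom s, ?_⟩
  show (Spec (CommRingCat.of K)).germToFunctionField ⊤
    ((𝟙 (Spec (CommRingCat.of K)) : Spec (CommRingCat.of K) ⟶ _).appTop
      ((Scheme.ΓSpecIso (CommRingCat.of K)).inv ((Scheme.ΓSpecIso (CommRingCat.of K)).hom s))) = _
  simp

/-- `ℓ(D) ≤ 1` on `Spec K`. -/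
theorem ell_point_le (D : CDiv (Spec (CommRingCat.of K))) :
    CDiv.LFinite (𝟙 (Spec (CommRingCat.of K))) D ∧
      CDiv.ell (𝟙 (Spec (CommRingCat.of K))) D ≤ 1 := by
  letI := (constHom (𝟙 (Spec (CommRingCat.of K)))).toAlgebra
  have hsurj : Function.Surjective (algebraMap K (Spec (CommRingCat.of K)).functionField) :=
    constHom_id_surjective K
  have hle : ∀ v : (Spec (CommRingCat.of K)).functionField,
      v ∈ Submodule.span K {(1 : (Spec (CommRingCat.of K)).functionField)} := by
    intro v
    obtain ⟨a, rfl⟩ := hsurj v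
    rw [Submodule.mem_span_singleton]
    exact ⟨a, by rw [Algebra.smul_def, mul_one]⟩
  have htop : (⊤ : Submodule K (Spec (CommRingCat.of K)).functionField) =
      Submodule.span K {(1 : (Spec (CommRingCat.of K)).functionField)} :=
    le_antisymm (fun v _ => hle v) le_top
  have hfin : Module.Finite K (Spec (CommRingCat.of K)).functionField :=
    ⟨by rw [htop]; exact Submodule.fg_span_singleton _⟩
  have hrank : Module.finrank K (Spec (CommRingCat.of K)).functionField ≤ 1 := by
    have h1 : Module.finrank K (Submodule.span K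
        {(1 : (Spec (CommRingCat.of K)).functionField)}) ≤ 1 :=
      (finrank_span_singleton one_ne_zero).le
    have h2 : Module.finrank K (⊤ : Submodule K (Spec (CommRingCat.of K)).functionField) ≤ 1 := by
      rw [htop]; exact h1
    rwa [finrank_top] at h2
  refine ⟨?_, ?_⟩
  · show Module.Finite K (CDiv.LSub (𝟙 (Spec (CommRingCat.of K))) D)
    infer_instance
  · exact (Submodule.finrank_le _).trans hrank

end Point

/-! ### The product-type bound on a product of curves from the binary bound -/

/-- M8-PROD, binary form (Künneth / slices): `ℓ_{C × Y}(p₁^* G₁ + p₂^* G₂) ≤ ℓ_C(G₁) ℓ_Y(G₂)`. -/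
def Stmt_BinBound : Prop :=
  ∀ (K : Type u) [Field K] [IsAlgClosed K] {C Y : Scheme.{u}} (c : C ⟶ Spec (CommRingCat.of K))
    (y : Y ⟶ Spec (CommRingCat.of K)) [IsProper c] [IsProper y] [IsIntegral C] [IsIntegral Y]
    [IsIntegral (pullback c y)] (G1 : CDiv C) (G2 : CDiv Y) (E1 E2 : CDiv (pullback c y)),
    CDiv.PullsTo (pullback.fst c y) G1 E1 → CDiv.PullsTo (pullback.snd c y) G2 E2 →
    CDiv.LFinite c G1 → CDiv.LFinite y G2 →
    CDiv.LFinite (pullback.snd c y ≫ y) (E1 * E2) ∧
      CDiv.ell (pullback.snd c y ≫ y) (E1 * E2) ≤ CDiv.ell c G1 * CDiv.ell y G2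

/-- M8-CURVE (RI), Spec vocabulary: linear growth of `ℓ(mG)` on a smooth proper curve. -/
def Stmt_CurveBound : Prop :=
  ∀ (K : Type u) [Field K] [IsAlgClosed K] {C : Scheme.{u}} (c : C ⟶ Spec (CommRingCat.of K))
    [IsProper c] [SmoothOfRelativeDimension 1 c] [IsIntegral C] (G : CDiv C),
    CDiv.IsEffective G →
    ∃ δ : ℕ, ∀ m : ℕ, CDiv.LFinite c (G ^ m) ∧ CDiv.ell c (G ^ m) ≤ m * δ + 1

/-- M2-PULL (F1): cancellation for pull-backs. -/
def Stmt_PullCancel : Prop :=
  ∀ {Z Y X : Scheme.{u}} [IsIntegral Z] [IsIntegral Y] [IsIntegral X] (ψ : Z ⟶ Y) (φ : Y ⟶ X)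
    (D : CDiv X) (E : CDiv Y) (F : CDiv Z),
    CDiv.PullsTo φ D E → CDiv.PullsTo (ψ ≫ φ) D F → CDiv.PullsTo ψ E F

/-- Products of integral curves over an algebraically closed field are integral. -/
theorem isIntegral_prodX {K : Type u} [Field K] [IsAlgClosed K] {A : Scheme.{u}}
    {f : A ⟶ Spec (CommRingCat.of K)} {L : RelativeGroupLaw K f} (l : List (PCurve K f L)) :
    IsIntegral (prodX l).1 := by
  induction l with
  | nil => exact inferInstanceAs (IsIntegral (Spec (CommRingCat.of K)))
  | cons P l ih =>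
    haveI := P.integral
    haveI := ih
    exact Fermat.Agent.S25.helper6784.isIntegral_pullback_of_isAlgClosed P.c (prodX l).2

/-- Pull-back is compatible with finite products of divisors. -/
theorem pullsTo_prod {Y X : Scheme.{u}} [IsIntegral Y] [IsIntegral X] (φ : Y ⟶ X) {T : Type*}
    (s : Finset T) (D : T → CDiv X) (E : T → CDiv Y)
    (h : ∀ t ∈ s, CDiv.PullsTo φ (D t) (E t)) :
    CDiv.PullsTo φ (∏ t ∈ s, D t) (∏ t ∈ s, E t) := by
  classical
  induction s using Finset.induction_on with
  | empty =>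
    rw [Finset.prod_empty, Finset.prod_empty]
    exact helper218.PullsTo.one φ
  | insert a s ha ih =>
    rw [Finset.prod_insert ha, Finset.prod_insert ha]
    exact helper218.PullsTo.mul (h a (Finset.mem_insert_self a s))
      (ih (fun t ht => h t (Finset.mem_insert_of_mem ht)))

theorem prodBound_aux (hB : Stmt_BinBound.{u}) (hC : Stmt_CurveBound.{u})
    (hE : Stmt_PullExists.{u}) (hCan : Stmt_PullCancel.{u})
    {K : Type u} [Field K] [IsAlgClosed K] {A : Scheme.{u}} {f : A ⟶ Spec (CommRingCat.of K)}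
    {L : RelativeGroupLaw K f} [IsIntegral A]
    (D : CDiv A) (hDeff : CDiv.IsEffective D) (hD0 : ∀ p, IsOrigin L p → p ∉ CDiv.supp D) :
    ∀ (l : List (PCurve K f L)) [IsIntegral (prodX l).1] (Pc : Fin l.length → CDiv (prodX l).1),
      (∀ i : Fin l.length, CDiv.PullsTo (wsum L l (coordWeight i)).1 D (Pc i)) →
      ∃ c : ℕ, ∀ k : ℕ, CDiv.LFinite (prodX l).2 ((∏ i, Pc i) ^ k) ∧
        CDiv.ell (prodX l).2 ((∏ i, Pc i) ^ k) ≤ (c * k + 1) ^ l.length := by
  intro l
  induction l with
  | nil =>
    intro _ Pc _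
    refine ⟨0, fun k => ?_⟩
    have h := ell_point_le K ((∏ i, Pc i) ^ k)
    exact ⟨h.1, h.2.trans (by simp)⟩
  | cons P l ih =>
    intro hint Pc hPc
    haveI : IsIntegral (prodX l).1 := isIntegral_prodX l
    haveI : IsIntegral P.C := P.integral
    haveI : IsProper P.c := P.proper
    haveI : SmoothOfRelativeDimension 1 P.c := P.smooth
    haveI : IsProper (prodX l).2 := isProper_prodX l
    haveI : IsIntegral (pullback P.c (prodX l).2) := hint
    obtain ⟨x₀⟩ : Nonempty (Spec (CommRingCat.of K)) := inferInstance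
    -- the divisor on the curve
    have hG0 : P.map.1.base (P.pt.1.base x₀) ∉ CDiv.supp D := by
      apply hD0
      refine ⟨x₀, ?_⟩
      rw [← P.map_pt]
      rfl
    obtain ⟨G, hG⟩ := hE P.map.1 D _ hG0
    have hGeff : CDiv.IsEffective G := helper218.PullsTo.isEffective hG hDeff
    -- the divisors on the tail
    have hQex : ∀ j : Fin l.length, ∃ Q : CDiv (prodX l).1,
        CDiv.PullsTo (wsum L l (coordWeight j)).1 D Q := by
      intro j
      refine hE _ D ((prodPt l).1.base x₀) ?_
      apply hD0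
      refine ⟨x₀, ?_⟩
      rw [← stmt_WsumPt K f L l (coordWeight j)]
      rfl
    choose Q hQ using hQex
    -- reindex by `Fin (l.length + 1)`
    let Pc' : Fin (l.length + 1) → CDiv (prodX (P :: l)).1 := Pc
    have hPc' : ∀ i : Fin (l.length + 1),
        CDiv.PullsTo (wsum L (P :: l) (coordWeight i)).1 D (Pc' i) := hPc
    have h0 : CDiv.PullsTo (prodFst P l) G (Pc' 0) := by
      have h := hPc' 0
      rw [Fin.val_zero, wsum_coordWeight_zero] at h
      exact hCan _ _ D G _ hG h
    have hs : ∀ j : Fin l.length, CDiv.PullsTo (prodSnd P l) (Q j) (Pc' j.succ) := by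
      intro j
      have h := hPc' j.succ
      rw [Fin.val_succ, wsum_coordWeight_succ] at h
      exact hCan _ _ D (Q j) _ (hQ j) h
    have hsP : CDiv.PullsTo (prodSnd P l) (∏ j, Q j) (∏ j : Fin l.length, Pc' j.succ) :=
      pullsTo_prod _ _ _ _ (fun j _ => hs j)
    obtain ⟨δ, hδ⟩ := hC K P.c G hGeff
    obtain ⟨c', hc'⟩ := ih Q hQ
    refine ⟨max δ c', fun k => ?_⟩
    have hsplit : (∏ i, Pc' i) ^ k = Pc' 0 ^ k * (∏ j : Fin l.length, Pc' j.succ) ^ k := by
      have e1 : (∏ i, Pc' i) = Pc' 0 * ∏ j : Fin l.length, Pc' j.succ := Fin.prod_univ_succ Pc'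
      have e2 : (Pc' 0 * ∏ j : Fin l.length, Pc' j.succ) ^ k =
          Pc' 0 ^ k * (∏ j : Fin l.length, Pc' j.succ) ^ k :=
        mul_pow (Pc' 0) (∏ j : Fin l.length, Pc' j.succ) k
      rw [e1, e2]
    obtain ⟨hfin, hle⟩ := hB K P.c (prodX l).2 (G ^ k) ((∏ j, Q j) ^ k) (Pc' 0 ^ k)
      ((∏ j : Fin l.length, Pc' j.succ) ^ k) (helper218.PullsTo.pow h0 k)
      (helper218.PullsTo.pow hsP k) (hδ k).1 (hc' k).1
    show CDiv.LFinite (prodX (P :: l)).2 ((∏ i, Pc' i) ^ k) ∧
      CDiv.ell (prodX (P :: l)).2 ((∏ i, Pc' i) ^ k) ≤ (max δ c' * k + 1) ^ (l.length + 1)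
    rw [hsplit]
    refine ⟨hfin, hle.trans ?_⟩
    calc CDiv.ell P.c (G ^ k) * CDiv.ell (prodX l).2 ((∏ j, Q j) ^ k)
        ≤ (k * δ + 1) * (c' * k + 1) ^ l.length := Nat.mul_le_mul (hδ k).2 (hc' k).2
      _ ≤ (max δ c' * k + 1) * (max δ c' * k + 1) ^ l.length := by
          apply Nat.mul_le_mul
          · have h1 : k * δ ≤ max δ c' * k := by
              rw [mul_comm]
              exact Nat.mul_le_mul_right k (le_max_left δ c')
            omega
          · apply Nat.pow_le_pow_left
            have h2 : c' * k ≤ max δ c' * k := Nat.mul_le_mul_right k (le_max_right δ c')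
            omega
      _ = (max δ c' * k + 1) ^ (l.length + 1) := by rw [pow_succ, mul_comm]

/-- `Stmt_ProdBound` from the binary bound, the curve bound and the pull-back API. -/
theorem stmt_ProdBound_of (hB : Stmt_BinBound.{u}) (hC : Stmt_CurveBound.{u})
    (hE : Stmt_PullExists.{u}) (hCan : Stmt_PullCancel.{u}) : Stmt_ProdBound.{u} := by
  intro K _ A f L g _ hA l _ D hDeff hD0 Pc hPc
  haveI : IsAlgClosed K := hA.algClosed
  exact prodBound_aux hB hC hE hCan D hDeff hD0 l Pc hPc

/-- `Stmt_Upper` from the sign-sum identity (M5-GEO), the binary product bound (M8-PROD), the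
curve bound (M8-CURVE) and the pull-back API (M2-PULL). -/
theorem stmt_Upper_of' (hS : Stmt_SignSum.{u}) (hB : Stmt_BinBound.{u})
    (hC : Stmt_CurveBound.{u}) (hE : Stmt_PullExists.{u}) (hCan : Stmt_PullCancel.{u}) :
    Stmt_Upper.{u} :=
  stmt_Upper_of hS (stmt_ProdBound_of hB hC hE hCan) hE
    (fun _ _ _ h hD => helper218.PullsTo.isEffective h hD) stmt_WsumPt

end Fermat.Agent.S26.helper4871
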