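import Fermat.Agent.S26.helper160_CubeOnX
import Fermat.Agent.S26.helper218_PullsTo
import Fermat.Agent.S26.helper2141_QuadCalc
import Fermat.Agent.S26.helper2966_TorsionGroup
import Fermat.Agent.S26.helper154_Spec2
import Fermat.Agent.S26.helper4836_ProdX
import Fermat.Agent.S26.helper4871_Upper

/-!
# S26-M5-GEO (helper160, backup copy): the quadratic calculus on a product of curves

* `stmt_QuadN   : Stmt_CubeDiv → helper154.Stmt_QuadN`        (`(n s)^* D ∼ n² s^* D`);
* `stmt_SignSum : Stmt_CubeDiv → helper4871.Stmt_SignSum`     (the sign-sum identity).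

Both come from `cubeData` (the hypotheses `helper2141.CubeData` of the abstract quadratic calculus
for `q = ` class of the pull-back of `D`), which in turn is the cube identity on `X`
(`helper160_CubeOnX`) fed with CUBE-C in divisor form.
-/

set_option autoImplicit false

universe u

noncomputable section

open CategoryTheory CategoryTheory.Limits AlgebraicGeometry AlgebraicGeometry.RelPicard
  NeronModelInfra GoodReductionJacobian

namespace Fermat.Agent.S26.helper160

open Fermat.Agent.S26.helper154 Fermat.Agent.S26.helper218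

/-! ### Instances (local to this file) -/

/-- The group of Cartier divisors is commutative (mixin form, for normality of subgroups). -/
theorem isMulCommutative_cdiv (X : Scheme.{u}) [IsIntegral X] : IsMulCommutative ↥(CDiv X) :=
  ⟨⟨fun a b => mul_comm a b⟩⟩

attribute [local instance] isMulCommutative_cdiv

/-- The divisor class group `CDiv X / principal` is a commutative group. -/
@[reducible]
def commGroupCDivQuot (X : Scheme.{u}) [IsIntegral X] :
    CommGroup (CDiv X ⧸ (CDiv.principal (X := X)).range) :=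
  { (inferInstance : Group (CDiv X ⧸ (CDiv.principal (X := X)).range)) with
    mul_comm := fun a b => by
      induction a using QuotientGroup.induction_on with
      | _ a =>
        induction b using QuotientGroup.induction_on with
        | _ b =>
          rw [← QuotientGroup.mk_mul, ← QuotientGroup.mk_mul, mul_comm' a b] }

attribute [local instance] commGroupCDivQuot

/-! ### The `PullsTo` calculus: cancellation, generization, pointed maps -/

section Pull

/-- (F1) Cancellation: if `E = m^* D` and `F = (σ ≫ m)^* D` then `F = σ^* E`. -/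
theorem pullsTo_cancel {X Y Z : Scheme.{u}} [IsIntegral X] [IsIntegral Y] [IsIntegral Z]
    (m : Y ⟶ X) (σ : Z ⟶ Y) (D : CDiv X) (E : CDiv Y) (F : CDiv Z)
    (h : CDiv.PullsTo m D E) (k : CDiv.PullsTo (σ ≫ m) D F) : CDiv.PullsTo σ E F := by
  intro z
  obtain ⟨r', hr', hF⟩ := pullsTo_iff.1 k z
  obtain ⟨r, hr, hE⟩ := pullsTo_iff.1 h (σ.base z)
  let r'' : (X.presheaf.stalk (m.base (σ.base (genericPoint Z))))ˣ := r'
  obtain ⟨w, hw⟩ := mk_eq_mk_iff.1 (hr.symm.trans hr')
  refine ⟨Units.map ((m.stalkMap (σ.base (genericPoint Z))).hom :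
    X.presheaf.stalk (m.base (σ.base (genericPoint Z))) →* Y.presheaf.stalk _) r'', ?_, ?_⟩
  · rw [hE]
    refine mk_eq_mk_iff.2 ⟨Units.map ((m.stalkMap (σ.base z)).hom :
      X.presheaf.stalk (m.base (σ.base z)) →* Y.presheaf.stalk (σ.base z)) w, ?_⟩
    apply Units.ext
    have R1 := restrictsTo_unitK m r
    have R2 := restrictsTo_of_stalk m (σ.base z) (w : X.presheaf.stalk (m.base (σ.base z)))
    have R3 := restrictsTo_of_stalk m (σ.base (genericPoint Z))
      (r'' : X.presheaf.stalk (m.base (σ.base (genericPoint Z))))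
    have e : algebraMap (X.presheaf.stalk (m.base (σ.base (genericPoint Z)))) X.functionField
        (r'' : X.presheaf.stalk (m.base (σ.base (genericPoint Z)))) =
        (unitK m r : X.functionField) *
          algebraMap (X.presheaf.stalk (m.base (σ.base z))) X.functionField
            (w : X.presheaf.stalk (m.base (σ.base z))) := by
      have := congrArg (fun q : (X.functionField)ˣ => (q : X.functionField)) hw
      exact this
    rw [e] at R3
    exact R3.unique (R1.mul R2)
  · rw [hF]
    congr 1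
    apply Units.ext
    show ((σ ≫ m).stalkMap (genericPoint Z)).hom r' =
      (σ.stalkMap (genericPoint Z)).hom ((m.stalkMap (σ.base (genericPoint Z))).hom r'')
    rw [Scheme.Hom.stalkMap_comp]
    rfl

/-- The complement of the support of a Cartier divisor is stable under generization. -/
theorem germ_eq_one_of_specializes {X : Scheme.{u}} [IsIntegral X] (D : CDiv X) {x x' : X}
    (hs : x' ⤳ x) (hx : D.1 x = 1) : D.1 x' = 1 := by
  obtain ⟨U, hxU, f, hf⟩ := D.2 x
  have hx'U : x' ∈ U := hs.mem_open U.isOpen hxU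
  rw [hf x hxU] at hx
  rw [hf x' hx'U]
  obtain ⟨w, rfl⟩ := mk_eq_one_iff.1 hx
  refine mk_eq_one_iff.2 ⟨Units.map ((X.presheaf.stalkSpecializes hs).hom :
    X.presheaf.stalk x →* X.presheaf.stalk x') w, ?_⟩
  apply Units.ext
  show algebraMap (X.presheaf.stalk x) X.functionField w =
    algebraMap (X.presheaf.stalk x') X.functionField (X.presheaf.stalkSpecializes hs w)
  rw [algebraMap_stalk_eq, algebraMap_stalk_eq, ← ConcreteCategory.comp_apply,
    TopCat.Presheaf.stalkSpecializes_comp]

/-- A morphism mapping some point outside the support pulls the divisor back. -/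
theorem exists_pullsTo_of_point {X Y : Scheme.{u}} [IsIntegral X] [IsIntegral Y] (φ : Y ⟶ X)
    (D : CDiv X) (y : Y) (hy : D.1 (φ.base y) = 1) : ∃ E : CDiv Y, CDiv.PullsTo φ D E :=
  exists_pullsTo φ D (germ_eq_one_of_specializes D (map_genericPoint_specializes φ y) hy)

/-- The `PullsTo` calculus consumed by the cube computation. -/
theorem pullAPI : PullAPI.{u} where
  uniq := fun _ _ _ _ h h' => PullsTo.unique h h'
  cancel := fun m σ D E F h k => pullsTo_cancel m σ D E F h k
  mul := fun _ _ _ _ _ h h' => PullsTo.mul h h'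
  inv := fun _ _ _ h => PullsTo.inv h
  prin := fun _ _ _ h => PullsTo.mem_range_principal h

end Pull

/-! ### The additive group of maps to `A` -/

section Maps

variable {K : Type u} [Field K] {A : Scheme.{u}} {f : A ⟶ Spec (CommRingCat.of K)}

/-- The maps `T ⟶ A` over `K`, as an additive commutative group (pointwise group law). -/
def Maps (_L : RelativeGroupLaw K f) (_hc : _L.IsCommutative) {T : Scheme.{u}}
    (t : T ⟶ Spec (CommRingCat.of K)) : Type u :=
  Additive (SchemeHomOver t f)

variable (L : RelativeGroupLaw K f) (hc : L.IsCommutative)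

instance instAddCommGroupMaps {T : Scheme.{u}} (t : T ⟶ Spec (CommRingCat.of K)) :
    AddCommGroup (Maps L hc t) :=
  letI : CommGroup (SchemeHomOver t f) := helper2966.pointCommGroup L hc t
  Additive.addCommGroup (α := SchemeHomOver t f)

variable {L hc}

/-- The underlying morphism over `K`. -/
def Maps.val {T : Scheme.{u}} {t : T ⟶ Spec (CommRingCat.of K)} (p : Maps L hc t) :
    SchemeHomOver t f := p

/-- A morphism over `K` as an element of the group of maps. -/
def Maps.of {T : Scheme.{u}} {t : T ⟶ Spec (CommRingCat.of K)} (p : SchemeHomOver t f) :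
    Maps L hc t := p

theorem Maps.add_val {T : Scheme.{u}} {t : T ⟶ Spec (CommRingCat.of K)} (p q : Maps L hc t) :
    (p + q).val = L.mul t p.val q.val := rfl

theorem Maps.zero_val {T : Scheme.{u}} {t : T ⟶ Spec (CommRingCat.of K)} :
    (0 : Maps L hc t).val = L.one t := rfl

theorem Maps.neg_val {T : Scheme.{u}} {t : T ⟶ Spec (CommRingCat.of K)} (p : Maps L hc t) :
    (-p).val = L.inv t p.val := rfl

theorem Maps.zsmul_val {T : Scheme.{u}} {t : T ⟶ Spec (CommRingCat.of K)} (m : ℤ)
    (p : Maps L hc t) : (m • p).val = zpowPt L t m p.val := rfl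

variable (L hc)

/-- Precomposition with a morphism over `K`, as a homomorphism of groups of maps. -/
def compHom {T T' : Scheme.{u}} {t : T ⟶ Spec (CommRingCat.of K)}
    {t' : T' ⟶ Spec (CommRingCat.of K)} (σ : T' ⟶ T) (hσ : σ ≫ t = t') :
    Maps L hc t →+ Maps L hc t' where
  toFun p := Maps.of (schemeHomOverComp σ hσ p.val)
  map_zero' := L.one_natural t t' σ hσ
  map_add' p q := L.mul_natural t t' σ hσ p.val q.val

theorem compHom_val {T T' : Scheme.{u}} {t : T ⟶ Spec (CommRingCat.of K)}
    {t' : T' ⟶ Spec (CommRingCat.of K)} (σ : T' ⟶ T) (hσ : σ ≫ t = t') (p : Maps L hc t) :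
    (compHom L hc σ hσ p).val = schemeHomOverComp σ hσ p.val := rfl

/-- The subgroup of maps sending the base point to the origin. -/
def ptSub {T : Scheme.{u}} {t : T ⟶ Spec (CommRingCat.of K)}
    (t₀ : SchemeHomOver (𝟙 (Spec (CommRingCat.of K))) t) : AddSubgroup (Maps L hc t) :=
  (compHom L hc t₀.1 t₀.2).ker

theorem mem_ptSub {T : Scheme.{u}} {t : T ⟶ Spec (CommRingCat.of K)}
    (t₀ : SchemeHomOver (𝟙 (Spec (CommRingCat.of K))) t) (p : Maps L hc t) :
    p ∈ ptSub L hc t₀ ↔ IsPt L t₀ p.val := Iff.rfl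

include hc in
/-- `(-h) = h ≫ [-1]`. -/
theorem inv_val_eq {T : Scheme.{u}} {t : T ⟶ Spec (CommRingCat.of K)} (h : SchemeHomOver t f) :
    (L.inv t h).1 = h.1 ≫ invMap L := by
  have h1 := map_neg (compHom L hc h.1 h.2) (Maps.of RelativeGroupLaw.idPoint)
  have h2 : compHom L hc h.1 h.2 (Maps.of RelativeGroupLaw.idPoint) = Maps.of h :=
    helper2966.schemeHomOverComp_idPoint h
  rw [h2] at h1
  have h3 := congrArg (fun p : Maps L hc t => p.val.1) h1
  exact h3.symm

end Maps

/-! ### The class map `q` and the cube data -/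

section Quad

variable {K : Type u} [Field K] {A : Scheme.{u}} [IsIntegral A]
  {f : A ⟶ Spec (CommRingCat.of K)} (L : RelativeGroupLaw K f) (hc : L.IsCommutative)
  (D : CDiv A)

/-- Divisor classes on `X`, additively. -/
abbrev Cl (X : Scheme.{u}) [IsIntegral X] : Type u :=
  Additive (CDiv X ⧸ (CDiv.principal (X := X)).range)

/-- The class of a divisor. -/
def cls {X : Scheme.{u}} [IsIntegral X] (E : CDiv X) : Cl X :=
  Additive.ofMul (QuotientGroup.mk E)

theorem cls_mul {X : Scheme.{u}} [IsIntegral X] (E E' : CDiv X) :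
    cls (E * E') = cls E + cls E' := rfl

theorem cls_inv {X : Scheme.{u}} [IsIntegral X] (E : CDiv X) : cls E⁻¹ = -cls E := rfl

theorem cls_one {X : Scheme.{u}} [IsIntegral X] : cls (1 : CDiv X) = 0 := rfl

theorem cls_pow {X : Scheme.{u}} [IsIntegral X] (E : CDiv X) (n : ℕ) :
    cls (E ^ n) = n • cls E := rfl

theorem cls_eq_zero_iff {X : Scheme.{u}} [IsIntegral X] (E : CDiv X) :
    cls E = 0 ↔ E ∈ (CDiv.principal (X := X)).range :=
  (QuotientGroup.eq_one_iff E)

theorem cls_eq_iff {X : Scheme.{u}} [IsIntegral X] (E E' : CDiv X) :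
    cls E = cls E' ↔ CDiv.LinEquiv E E' := by
  constructor
  · intro h
    have h1 : cls (E'⁻¹ * E) = 0 := by rw [cls_mul, cls_inv, h]; exact neg_add_cancel _
    obtain ⟨g, hg⟩ := (cls_eq_zero_iff _).1 h1
    exact ⟨g, by rw [hg, mul_inv_cancel_left]⟩
  · rintro ⟨g, rfl⟩
    rw [cls_mul]
    have : cls (CDiv.principal g : CDiv X) = 0 := (cls_eq_zero_iff _).2 ⟨g, rfl⟩
    rw [this, add_zero]

/-- The class of the pull-back of `D` along a map (`0` if the pull-back is not defined). -/
def qMap {X : Scheme.{u}} [IsIntegral X] (x : X ⟶ Spec (CommRingCat.of K)) :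
    Maps L hc x → Cl X := fun h =>
  open Classical in
  if hh : ∃ E : CDiv X, CDiv.PullsTo h.val.1 D E then cls hh.choose else 0

variable {L hc D}

theorem qMap_eq {X : Scheme.{u}} [IsIntegral X] {x : X ⟶ Spec (CommRingCat.of K)}
    {h : Maps L hc x} {E : CDiv X} (hE : CDiv.PullsTo h.val.1 D E) :
    qMap L hc D x h = cls E := by
  unfold qMap
  have hh : ∃ E : CDiv X, CDiv.PullsTo h.val.1 D E := ⟨E, hE⟩
  rw [dif_pos hh]
  rw [PullsTo.unique hh.choose_spec hE]

variable (L hc)

/-- Pointed maps factoring through a pointed curve. -/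
def curveSet {X : Scheme.{u}} (x : X ⟶ Spec (CommRingCat.of K))
    (x₀ : SchemeHomOver (𝟙 (Spec (CommRingCat.of K))) x) : Set (Maps L hc x) :=
  {u | ∃ (P : PCurve K f L) (π : SchemeHomOver x P.c) (a : SchemeHomOver P.c f),
    x₀.1 ≫ π.1 = P.pt.1 ∧ IsPt L P.pt a ∧ u = Maps.of (schemeHomOverComp π.1 π.2 a)}

variable {L hc}

omit [IsIntegral A] in
theorem curveSet_subset {X : Scheme.{u}} {x : X ⟶ Spec (CommRingCat.of K)}
    {x₀ : SchemeHomOver (𝟙 (Spec (CommRingCat.of K))) x} {u : Maps L hc x}
    (hu : u ∈ curveSet L hc x x₀) : u ∈ ptSub L hc x₀ := by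
  obtain ⟨P, π, a, hπ, ha, rfl⟩ := hu
  rw [mem_ptSub]
  unfold IsPt at *
  rw [← ha]
  show schemeHomOverComp x₀.1 x₀.2 (schemeHomOverComp π.1 π.2 a) = _
  rw [schemeHomOverComp_comp]
  exact schemeHomOverComp_congr hπ _ _ a

omit [IsIntegral A] in
theorem curveSet_zsmul {X : Scheme.{u}} {x : X ⟶ Spec (CommRingCat.of K)}
    {x₀ : SchemeHomOver (𝟙 (Spec (CommRingCat.of K))) x} {u : Maps L hc x}
    (hu : u ∈ curveSet L hc x x₀) (n : ℤ) : n • u ∈ curveSet L hc x x₀ := by
  obtain ⟨P, π, a, hπ, ha, rfl⟩ := hu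
  refine ⟨P, π, (n • (Maps.of a : Maps L hc P.c)).val, hπ, ?_, ?_⟩
  · have h1 : (Maps.of a : Maps L hc P.c) ∈ ptSub L hc P.pt := ha
    exact (ptSub L hc P.pt).zsmul_mem h1 n
  · exact (map_zsmul (compHom L hc π.1 π.2) n (Maps.of a)).symm

end Quad

/-! ### The cube data from CUBE-C -/

section Cube

variable {K : Type u} [Field K] {A : Scheme.{u}} [IsIntegral A]
  {f : A ⟶ Spec (CommRingCat.of K)} {L : RelativeGroupLaw K f} (hc : L.IsCommutative)
  {D : CDiv A}

/-- Pointed maps pull `D` back, if the germ of `D` at the origin is trivial. -/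
theorem exists_pullsTo_of_isPt
    (hD0 : ∀ s : Spec (CommRingCat.of K),
      D.1 ((L.one (𝟙 (Spec (CommRingCat.of K)))).1.base s) = 1)
    {T : Scheme.{u}} [IsIntegral T] (t : T ⟶ Spec (CommRingCat.of K))
    (t₀ : SchemeHomOver (𝟙 (Spec (CommRingCat.of K))) t) (h : SchemeHomOver t f)
    (hh : IsPt L t₀ h) : ∃ E : CDiv T, CDiv.PullsTo h.1 D E := by
  obtain ⟨s⟩ : Nonempty (Spec (CommRingCat.of K)) := inferInstance
  refine exists_pullsTo_of_point h.1 D (t₀.1.base s) ?_
  have e : t₀.1 ≫ h.1 = (L.one (𝟙 (Spec (CommRingCat.of K)))).1 := congrArg Subtype.val hh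
  have e2 : h.1.base (t₀.1.base s) = (L.one (𝟙 (Spec (CommRingCat.of K)))).1.base s := by
    rw [← e]; rfl
  rw [e2]
  exact hD0 s

/-- **The hypotheses of the quadratic calculus hold** for `q = ` class of the pull-back of a
symmetric divisor `D` not through the origin, `S = ` pointed maps through a pointed curve,
`H = ` pointed maps, on any pointed proper geometrically integral `X` (given CUBE-C and the
integrality of the products involved). -/
theorem cubeData [IsAlgClosed K] (hCD : Stmt_CubeDiv.{u})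
    (hsymm : CDiv.PullsTo (invMap L) D D)
    (hD0 : ∀ s : Spec (CommRingCat.of K),
      D.1 ((L.one (𝟙 (Spec (CommRingCat.of K)))).1.base s) = 1)
    {X : Scheme.{u}} [IsIntegral X] (x : X ⟶ Spec (CommRingCat.of K)) [IsProper x]
    [GeometricallyIntegral x] (x₀ : SchemeHomOver (𝟙 (Spec (CommRingCat.of K))) x)
    [IsIntegral (pullback x x)]
    (hint : ∀ P : PCurve K f L, IsIntegral (pullback P.c x) ∧
      IsIntegral (pullback P.c (pullback.fst x x ≫ x))) :
    helper2141.CubeData (qMap L hc D x) (curveSet L hc x x₀) (ptSub L hc x₀) where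
  map_zero := by
    have h1 : CDiv.PullsTo (0 : Maps L hc x).val.1 D 1 := pullsTo_one_of_germ hD0 x
    rw [qMap_eq h1]
    rfl
  subset := fun u hu => curveSet_subset hu
  zsmul_mem := fun u hu a => curveSet_zsmul hu a
  map_neg := by
    intro u hu
    have hu' : IsPt L x₀ u.val := curveSet_subset hu
    have hnu : IsPt L x₀ (-u).val := (ptSub L hc x₀).neg_mem (curveSet_subset hu)
    obtain ⟨E, hE⟩ := exists_pullsTo_of_isPt hD0 x x₀ u.val hu'
    obtain ⟨E', hE'⟩ := exists_pullsTo_of_isPt hD0 x x₀ (-u).val hnu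
    rw [qMap_eq hE', qMap_eq hE]
    have e : (-u).val.1 = u.val.1 ≫ invMap L := inv_val_eq L hc u.val
    rw [e] at hE'
    rw [PullsTo.unique (pullsTo_cancel (invMap L) u.val.1 D D E' hsymm hE') hE]
  cube := by
    intro u hu v hv w hw
    have hu' : IsPt L x₀ u.val := curveSet_subset hu
    obtain ⟨P, π, a, hπ, ha, rfl⟩ := hu
    have := (hint P).1
    have := (hint P).2
    have := P.proper
    have := P.smooth
    have := P.integral
    obtain ⟨E, hE⟩ := CubeRel.exists_of_isPt (D := D)
      (fun t t₀ h hh => exists_pullsTo_of_isPt hD0 t t₀ h hh) x₀ hu' hv hw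
    have hprin : E ∈ (CDiv.principal (X := X)).range :=
      cubeRel_mem_range_principal (c := P.c) (ε := P.pt) (x := x) (x₀ := x₀) pullAPI hD0
        (fun t t₀ h hh => exists_pullsTo_of_isPt hD0 t t₀ h hh)
        (sliceY x x x₀) (sliceZ x x x₀) (pullback.lift_fst _ _ _) (pullback.lift_snd _ _ _)
        (pullback.lift_fst _ _ _) (pullback.lift_snd _ _ _)
        (fun E' h0 hY hZ => by
          obtain ⟨g, hg⟩ := hCD K P.c P.pt x x x₀ x₀ E' h0 hY hZ
          exact ⟨g, hg.symm⟩)
        π a ha v.val w.val hv hw E hE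
    obtain ⟨E₁, E₂, E₃, E₄, E₅, E₆, E₇, h₁, h₂, h₃, h₄, h₅, h₆, h₇, rfl⟩ := hE
    have q1 : qMap L hc D x (Maps.of (schemeHomOverComp π.1 π.2 a) + v + w) = cls E₁ :=
      qMap_eq h₁
    have q2 : qMap L hc D x (Maps.of (schemeHomOverComp π.1 π.2 a) + v) = cls E₂ := qMap_eq h₂
    have q3 : qMap L hc D x (Maps.of (schemeHomOverComp π.1 π.2 a) + w) = cls E₃ := qMap_eq h₃
    have q4 : qMap L hc D x (v + w) = cls E₄ := qMap_eq h₄
    have q5 : qMap L hc D x (Maps.of (schemeHomOverComp π.1 π.2 a)) = cls E₅ := qMap_eq h₅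
    have q6 : qMap L hc D x v = cls E₆ := qMap_eq h₆
    have q7 : qMap L hc D x w = cls E₇ := qMap_eq h₇
    unfold helper2141.cubeDefect
    rw [q1, q2, q3, q4, q5, q6, q7]
    have h0 := (cls_eq_zero_iff _).2 hprin
    rw [cls_mul, cls_mul, cls_mul, cls_mul, cls_mul, cls_mul, cls_inv, cls_inv, cls_inv] at h0
    rw [← h0]
    abel

end Cube

/-! ### The weighted sums on a product of curves, and `Stmt_QuadN` -/

section Final

variable {K : Type u} [Field K] {A : Scheme.{u}} {f : A ⟶ Spec (CommRingCat.of K)}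
  {L : RelativeGroupLaw K f} (hc : L.IsCommutative)

/-- The induction step of `exists_wsum_eq`, with the product written out as a pull-back. -/
theorem exists_wsum_eq_cons (P : PCurve K f L) (l : List (PCurve K f L))
    (ih : ∃ u : ℕ → Maps L hc (prodX l).2,
      (∀ i, i < l.length → u i ∈ curveSet L hc (prodX l).2 (prodPt l)) ∧
      ∀ a : ℕ → ℤ, Maps.of (wsum L l a) = ∑ i ∈ Finset.range l.length, a i • u i) :
    ∃ u : ℕ → Maps L hc (pullback.snd P.c (prodX l).2 ≫ (prodX l).2),
      (∀ i, i < l.length + 1 → u i ∈ curveSet L hc (pullback.snd P.c (prodX l).2 ≫ (prodX l).2)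
        ⟨pullback.lift P.pt.1 (prodPt l).1 (by rw [P.pt.2, (prodPt l).2]), by
          rw [pullback.lift_snd_assoc, (prodPt l).2]⟩) ∧
      ∀ a : ℕ → ℤ,
        (Maps.of (L.mul (pullback.snd P.c (prodX l).2 ≫ (prodX l).2)
          (zpowPt L (pullback.snd P.c (prodX l).2 ≫ (prodX l).2) (a 0)
            ⟨pullback.fst P.c (prodX l).2 ≫ P.map.1, by
              rw [Category.assoc, P.map.2, pullback.condition]⟩)
          ⟨pullback.snd P.c (prodX l).2 ≫ (wsum L l (fun i => a (i + 1))).1, by
            rw [Category.assoc, (wsum L l (fun i => a (i + 1))).2]⟩) :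
          Maps L hc (pullback.snd P.c (prodX l).2 ≫ (prodX l).2)) =
        ∑ i ∈ Finset.range (l.length + 1), a i • u i := by
  obtain ⟨u', hu', hw'⟩ := ih
  let u0 : Maps L hc (pullback.snd P.c (prodX l).2 ≫ (prodX l).2) :=
    Maps.of ⟨pullback.fst P.c (prodX l).2 ≫ P.map.1, by
      rw [Category.assoc, P.map.2, pullback.condition]⟩
  refine ⟨fun i => Nat.casesOn i u0
    (fun j => compHom L hc (pullback.snd P.c (prodX l).2) rfl (u' j)), ?_, ?_⟩
  · intro i hi
    cases i with
    | zero =>
      refine ⟨P, ⟨pullback.fst P.c (prodX l).2, pullback.condition⟩, P.map, ?_, ?_, rfl⟩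
      · exact pullback.lift_fst _ _ _
      · exact Subtype.ext P.map_pt
    | succ j =>
      obtain ⟨P', π', a', hπ', ha', hu⟩ := hu' j (Nat.lt_of_succ_lt_succ hi)
      refine ⟨P', ⟨pullback.snd P.c (prodX l).2 ≫ π'.1, by rw [Category.assoc, π'.2]⟩,
        a', ?_, ha', ?_⟩
      · show pullback.lift P.pt.1 (prodPt l).1 _ ≫ pullback.snd P.c (prodX l).2 ≫ π'.1 =
          P'.pt.1
        rw [← hπ']
        exact pullback.lift_snd_assoc _ _ _ _
      · show compHom L hc (pullback.snd P.c (prodX l).2) rfl (u' j) = _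
        rw [hu]
        exact schemeHomOverComp_comp (pullback.snd P.c (prodX l).2) rfl π'.1 π'.2 a'
  · intro a
    have h1 : (Maps.of (L.mul (pullback.snd P.c (prodX l).2 ≫ (prodX l).2)
          (zpowPt L (pullback.snd P.c (prodX l).2 ≫ (prodX l).2) (a 0)
            ⟨pullback.fst P.c (prodX l).2 ≫ P.map.1, by
              rw [Category.assoc, P.map.2, pullback.condition]⟩)
          ⟨pullback.snd P.c (prodX l).2 ≫ (wsum L l (fun i => a (i + 1))).1, by
            rw [Category.assoc, (wsum L l (fun i => a (i + 1))).2]⟩) :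
          Maps L hc (pullback.snd P.c (prodX l).2 ≫ (prodX l).2)) = a 0 • u0 +
        compHom L hc (pullback.snd P.c (prodX l).2) rfl
          (Maps.of (wsum L l (fun i => a (i + 1)))) := rfl
    rw [h1, hw', map_sum, Finset.sum_range_succ', add_comm]
    simp only [map_zsmul]
    rfl

/-- The weighted sums `wsum L l a` are the integer combinations `∑ aᵢ • uᵢ` of the coordinate
maps `uᵢ = fᵢ ∘ pᵢ`, which are pointed maps through a pointed curve. -/
theorem exists_wsum_eq (l : List (PCurve K f L)) :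
    ∃ u : ℕ → Maps L hc (prodX l).2,
      (∀ i, i < l.length → u i ∈ curveSet L hc (prodX l).2 (prodPt l)) ∧
      ∀ a : ℕ → ℤ, Maps.of (wsum L l a) = ∑ i ∈ Finset.range l.length, a i • u i := by
  induction l with
  | nil =>
    refine ⟨fun _ => 0, fun i hi => absurd hi (Nat.not_lt_zero i), fun a => ?_⟩
    rw [List.length_nil, Finset.sum_range_zero]
    rfl
  | cons P l ih => exact exists_wsum_eq_cons hc P l ih

/-- The integrality facts about products of curves that the quadratic calculus consumes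
(M6-PROD / M4-GEOMINT). -/
def Stmt_ProdGeom : Prop :=
  ∀ (K : Type u) [Field K] [IsAlgClosed K] {A : Scheme.{u}} (f : A ⟶ Spec (CommRingCat.of K))
    (L : RelativeGroupLaw K f) (l : List (PCurve K f L)),
    GeometricallyIntegral (prodX l).2 ∧ IsIntegral (pullback (prodX l).2 (prodX l).2) ∧
      ∀ P : PCurve K f L, IsIntegral (pullback P.c (prodX l).2) ∧
        IsIntegral (pullback P.c (pullback.fst (prodX l).2 (prodX l).2 ≫ (prodX l).2))

/-- **M5 (`Stmt_QuadN`)**: `(n s)^* D ∼ n² s^* D` on a product of pointed curves. -/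
theorem stmt_QuadN_of (hCD : Stmt_CubeDiv.{u}) (hPG : Stmt_ProdGeom.{u}) : Stmt_QuadN.{u} := by
  intro K _ A f L g _ hAb l _ D hsymm hD0' n E En hE hEn
  have := hAb.algClosed
  have hc : L.IsCommutative := fun t x y => hAb.comm t x y
  obtain ⟨hgi, hxx, hint⟩ := hPG K f L l
  have := isProper_prodX l
  have hD0 : ∀ s : Spec (CommRingCat.of K),
      D.1 ((L.one (𝟙 (Spec (CommRingCat.of K)))).1.base s) = 1 :=
    fun s => not_not.1 (hD0' _ ⟨s, rfl⟩)
  have hCube := cubeData hc hCD hsymm hD0 (prodX l).2 (prodPt l) hint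
  obtain ⟨u, hu, hw⟩ := exists_wsum_eq hc l
  have key := hCube.map_zsmul_sum u (Finset.range l.length)
    (fun i hi => hu i (Finset.mem_range.1 hi)) (n : ℤ)
  have e1 : ∑ i ∈ Finset.range l.length, u i = Maps.of (wsum L l (fun _ => 1)) := by
    rw [hw]; simp
  have en : (n : ℤ) • ∑ i ∈ Finset.range l.length, u i =
      Maps.of (wsum L l (fun _ => (n : ℤ))) := by
    rw [hw, Finset.smul_sum]
  rw [en, e1] at key
  have qE : qMap L hc D (prodX l).2 (Maps.of (wsum L l (fun _ => 1))) = cls E := qMap_eq hE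
  have qEn : qMap L hc D (prodX l).2 (Maps.of (wsum L l (fun _ => (n : ℤ)))) = cls En :=
    qMap_eq hEn
  rw [qE, qEn] at key
  refine (cls_eq_iff _ _).1 ?_
  rw [key, cls_pow, ← natCast_zsmul]
  push_cast
  rfl

/-- `Stmt_ProdGeom` holds (helper4836's product adapter). -/
theorem stmt_ProdGeom : Stmt_ProdGeom.{u} :=
  fun K _ _ _ f L l => helper4836.prodX_facts K f L l

/-- **M5 (`Stmt_QuadN`)** from CUBE-C in divisor form. -/
theorem stmt_QuadN (hCD : Stmt_CubeDiv.{u}) : Stmt_QuadN.{u} :=
  stmt_QuadN_of hCD stmt_ProdGeom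

theorem cls_prod {X : Scheme.{u}} [IsIntegral X] {ι : Type*} (s : Finset ι) (F : ι → CDiv X) :
    cls (∏ i ∈ s, F i) = ∑ i ∈ s, cls (F i) := by
  classical
  induction s using Finset.induction_on with
  | empty => rw [Finset.prod_empty, Finset.sum_empty]; rfl
  | insert i s hi ih => rw [Finset.prod_insert hi, Finset.sum_insert hi, cls_mul, ih]

/-- **(Q2) (`Stmt_SignSum`)**: the sign-sum identity of the quadratic calculus, in divisor
form, from CUBE-C in divisor form. -/
theorem stmt_SignSum (hCD : Stmt_CubeDiv.{u}) : helper4871.Stmt_SignSum.{u} := by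
  intro K _ A f L g _ hAb l _ D hsymm hD0' Es Pc hEs hPc
  have := hAb.algClosed
  have hc : L.IsCommutative := fun t x y => hAb.comm t x y
  obtain ⟨hgi, hxx, hint⟩ := stmt_ProdGeom K f L l
  have := isProper_prodX l
  have hD0 : ∀ s : Spec (CommRingCat.of K),
      D.1 ((L.one (𝟙 (Spec (CommRingCat.of K)))).1.base s) = 1 :=
    fun s => not_not.1 (hD0' _ ⟨s, rfl⟩)
  have hCube := cubeData hc hCD hsymm hD0 (prodX l).2 (prodPt l) hint
  obtain ⟨u, hu, hw⟩ := exists_wsum_eq hc l
  have key := hCube.sum_signs (fun i : Fin l.length => u i) (fun i => hu i i.2)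
  have e1 : ∀ ε : Fin l.length → ℤˣ, ∑ i : Fin l.length, ((ε i : ℤˣ) : ℤ) • u i =
      Maps.of (wsum L l (helper4871.signWeight l.length ε)) := by
    intro ε
    rw [hw, ← Fin.sum_univ_eq_sum_range
      (fun i => helper4871.signWeight l.length ε i • u i) l.length]
    refine Finset.sum_congr rfl (fun i _ => ?_)
    simp [helper4871.signWeight]
  have e2 : ∀ i : Fin l.length, u i = Maps.of (wsum L l (helper4871.coordWeight i)) := by
    intro i
    rw [hw, Finset.sum_eq_single (i : ℕ)]
    · simp [helper4871.coordWeight]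
    · intro j _ hj
      simp [helper4871.coordWeight, hj]
    · intro hi
      exact absurd (Finset.mem_range.2 i.2) hi
  have q1 : ∀ ε : Fin l.length → ℤˣ,
      qMap L hc D (prodX l).2 (∑ i : Fin l.length, ((ε i : ℤˣ) : ℤ) • u i) = cls (Es ε) := by
    intro ε
    rw [e1 ε]
    exact qMap_eq (hEs ε)
  have q2 : ∀ i : Fin l.length, qMap L hc D (prodX l).2 (u i) = cls (Pc i) := by
    intro i
    rw [e2 i]
    exact qMap_eq (hPc i)
  simp only [q1, q2] at key
  refine (cls_eq_iff _ _).1 ?_
  rw [cls_prod, cls_pow, cls_prod, key, Fintype.card_fin]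

end Final

end Fermat.Agent.S26.helper160
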