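import Mathlib
import Fermat.Prelude.Def_JacJ1Iface
import Fermat.Prelude.Def_GoodReductionJacobian_RelativeGroupLawKernel

/-!
# S26, leaf M9-G0: the case `g = 0` (architect helper26)

For the frozen data of S26 with relative dimension `0`: a proper, connected scheme that is smooth
of relative dimension `0` over a field and has a rational point (the unit section) is isomorphic
to the base, so it has exactly one rational point and the number of `n`-torsion points is
`1 = n ^ (2 * 0)`.

No hypothesis on `n`, no commutativity, no algebraic closedness is needed.

Main statements: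
* `isIso_of_section_of_etale` : a section of an étale separated morphism with connected source
  ... is an isomorphism (open and closed immersion onto a connected scheme);
* `isIso_of_dim_zero` : `f` is an isomorphism;
* `natCard_torsion_of_dim_zero` : the frozen count for `g = 0`.
-/

set_option autoImplicit false

universe u

open CategoryTheory CategoryTheory.Limits AlgebraicGeometry NeronModelInfra GoodReductionJacobian

namespace Fermat.Agent.S26.helper26

/-- A section `e` of an étale separated morphism `f : A ⟶ S` with `S` a one-point scheme and `A`
connected is an isomorphism. -/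
theorem isIso_section_of_etale {A S : Scheme.{u}} [Subsingleton S] (f : A ⟶ S) (e : S ⟶ A)
    (he : e ≫ f = 𝟙 S) [Etale f] [Nonempty S] [PreconnectedSpace A] : IsIso e := by
  have hcomp : Etale (e ≫ f) := by rw [he]; infer_instance
  have : Etale e := Etale.of_comp (f := e) f
  have : Mono e := mono_of_mono_fac he
  have : IsOpenImmersion e := IsOpenImmersion.of_flat_of_mono e
  have : IsClosedImmersion e := isClosedImmersion_of_comp_eq_id f e he
  apply isIso_of_isOpenImmersion_of_opensRange_eq_top
  apply TopologicalSpace.Opens.ext
  have hclopen : IsClopen (Set.range e.base) :=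
    ⟨e.isClosedEmbedding.isClosed_range, e.isOpenEmbedding.isOpen_range⟩
  have hne : (Set.range e.base).Nonempty := Set.range_nonempty _
  simpa using hclopen.eq_univ hne

/-- A morphism to a one-point scheme which is étale with connected source and admits a section is
an isomorphism. -/
theorem isIso_of_section_of_etale {A S : Scheme.{u}} [Subsingleton S] (f : A ⟶ S) (e : S ⟶ A)
    (he : e ≫ f = 𝟙 S) [Etale f] [Nonempty S] [PreconnectedSpace A] : IsIso f := by
  have := isIso_section_of_etale f e he
  have : IsIso (e ≫ f) := by rw [he]; infer_instance
  exact IsIso.of_isIso_comp_left e f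

variable {K : Type u} [Field K] {A : Scheme.{u}} {f : A ⟶ Spec (CommRingCat.of K)}

/-- The total space of an abelian-scheme bundle over a field is connected. -/
theorem preconnectedSpace_of_bundle (hA : AbelianSchemePropertyBundle K f) :
    PreconnectedSpace A := by
  have s : Spec (CommRingCat.of K) := (inferInstance : Nonempty (Spec (CommRingCat.of K))).some
  have h := (hA.connectedFibres s).isPreconnected
  have huniv : f.base ⁻¹' {s} = Set.univ := by
    ext a
    simp only [Set.mem_preimage, Set.mem_singleton_iff, Set.mem_univ, iff_true]
    exact Subsingleton.elim _ _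
  rw [huniv] at h
  exact ⟨h⟩

/-- **M9-G0, geometric form.** On the frozen S26 data with relative dimension `0`, the structure
morphism is an isomorphism. -/
theorem isIso_of_dim_zero (L : RelativeGroupLaw K f) (hA : AbelianSchemePropertyBundle K f)
    [SmoothOfRelativeDimension 0 f] : IsIso f := by
  have : Etale f := (Etale.iff_smoothOfRelativeDimension_zero f).mpr inferInstance
  have := preconnectedSpace_of_bundle hA
  exact isIso_of_section_of_etale f (L.one (𝟙 (Spec (CommRingCat.of K)))).1
    (L.one (𝟙 (Spec (CommRingCat.of K)))).2

/-- **M9-G0.** The frozen S26 statement for `g = 0` (any `n`, no commutativity needed). -/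
theorem natCard_torsion_of_dim_zero (L : RelativeGroupLaw K f)
    (hA : AbelianSchemePropertyBundle K f) [SmoothOfRelativeDimension 0 f] (n : ℕ) :
    Nat.card {x : SchemeHomOver (𝟙 (Spec (CommRingCat.of K))) f //
        L.IsTorsionPoint (𝟙 (Spec (CommRingCat.of K))) n x} = n ^ (2 * 0) := by
  have := isIso_of_dim_zero L hA
  have : Subsingleton (SchemeHomOver (𝟙 (Spec (CommRingCat.of K))) f) :=
    subsingleton_schemeHomOver_of_isIso _ f
  have : Nonempty {x : SchemeHomOver (𝟙 (Spec (CommRingCat.of K))) f //
      L.IsTorsionPoint (𝟙 (Spec (CommRingCat.of K))) n x} :=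
    ⟨⟨L.one _, L.isTorsionPoint_unit _ n⟩⟩
  rw [Nat.mul_zero, pow_zero]
  exact Nat.card_eq_one_iff_unique.mpr ⟨inferInstance, inferInstance⟩

end Fermat.Agent.S26.helper26
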