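/-
S26 (torsion count on abelian schemes), final counting step.  Author: helper4953.

Pure real-analysis glue, Mathlib only, hypothesis-passing.  Notation of findings #2746:
`d N` is the number of `N`-torsion points (= degree of `[N]`), `η m = dim L_X(m • s^*D)` on the
product of curves `X`.  Inputs:
* `d (n ^ k) = d n ^ k`;
* two-sided sandwich `d N * η (m - b) ≤ η (N ^ 2 * m) ≤ d N * η (m + b)` for `N = n ^ k`
  (with `b` depending on `k`);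
* growth `c₁ * m ^ g ≤ η m ≤ c₂ * m ^ g` for `m ≥ m₀`.
Output: `d n = n ^ (2 * g)`.
-/
import Mathlib

set_option autoImplicit false

namespace Fermat.Agent.S26.helper4953

/-- If `a ^ k ≤ C * b ^ k` for all `k` (with `0 ≤ a`, `0 < b`) then `a ≤ b`. -/
theorem le_of_forall_pow_le_const_mul_pow {a b C : ℝ} (_ha : 0 ≤ a) (hb : 0 < b)
    (h : ∀ k : ℕ, a ^ k ≤ C * b ^ k) : a ≤ b := by
  by_contra hlt
  have hlt' : b < a := not_le.mp hlt
  have hr : 1 < a / b := by rw [one_lt_div hb]; exact hlt'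
  have hC : ∀ k : ℕ, (a / b) ^ k ≤ C := by
    intro k
    rw [div_pow, div_le_iff₀ (pow_pos hb k)]
    exact h k
  obtain ⟨k, hk⟩ := pow_unbounded_of_one_lt C hr
  exact absurd (hC k) (not_le.mpr hk)

/-- **Counting step.**  From multiplicativity on powers, the two-sided sandwich and polynomial
growth of exact order `g`, conclude `d n = n ^ (2 * g)`. -/
theorem count_eq_pow (g : ℕ) (d η : ℕ → ℕ) (n : ℕ) (hn : 1 ≤ n)
    (hpow : ∀ k : ℕ, d (n ^ k) = d n ^ k)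
    (c₁ c₂ : ℝ) (hc₁ : 0 < c₁) (hc₂ : 0 < c₂) (m₀ : ℕ)
    (hlow : ∀ m : ℕ, m₀ ≤ m → c₁ * (m : ℝ) ^ g ≤ (η m : ℝ))
    (hup : ∀ m : ℕ, m₀ ≤ m → (η m : ℝ) ≤ c₂ * (m : ℝ) ^ g)
    (hsw : ∀ k : ℕ, ∃ b : ℕ, ∀ m : ℕ, b ≤ m →
      d (n ^ k) * η (m - b) ≤ η ((n ^ k) ^ 2 * m) ∧
        η ((n ^ k) ^ 2 * m) ≤ d (n ^ k) * η (m + b)) :
    d n = n ^ (2 * g) := by
  have hn' : (0 : ℝ) < (n : ℝ) := by exact_mod_cast hn
  set C : ℝ := 2 ^ g * c₂ / c₁ with hC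
  have hCpos : 0 < C := by positivity
  -- Step 1: for every `k`, both `d (n^k) ≤ C * (n^k)^(2g)` and `(n^k)^(2g) ≤ C * d (n^k)`.
  have key : ∀ k : ℕ, ((d (n ^ k) : ℕ) : ℝ) ≤ C * ((n : ℝ) ^ k) ^ (2 * g) ∧
      ((n : ℝ) ^ k) ^ (2 * g) ≤ C * ((d (n ^ k) : ℕ) : ℝ) := by
    intro k
    obtain ⟨b, hb⟩ := hsw k
    set N : ℕ := n ^ k with hN
    have hNpos : 0 < N := Nat.pow_pos (by omega)
    have hNR : (0 : ℝ) < (N : ℝ) := by exact_mod_cast hNpos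
    have hNcast : ((N : ℕ) : ℝ) = (n : ℝ) ^ k := by simp [hN]
    rw [← hNcast]
    -- a convenient large parameter
    set B : ℕ := max (max b m₀) 1 with hB
    have hBb : b ≤ B := le_trans (le_max_left _ _) (le_max_left _ _)
    have hBm : m₀ ≤ B := le_trans (le_max_right _ _) (le_max_left _ _)
    have hB1 : 1 ≤ B := le_max_right _ _
    have hBR : (0 : ℝ) < (B : ℝ) := by exact_mod_cast hB1
    constructor
    · -- upper bound on `d N`: use `m = 2 * B`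
      have h1 := (hb (2 * B) (by omega)).1
      have h1R : ((d N : ℕ) : ℝ) * (η (2 * B - b) : ℝ) ≤ (η (N ^ 2 * (2 * B)) : ℝ) := by
        exact_mod_cast h1
      have hmono : (η (2 * B - b) : ℝ) ≥ c₁ * (B : ℝ) ^ g := by
        have h2 : m₀ ≤ 2 * B - b := by omega
        have h3 := hlow (2 * B - b) h2
        have h4 : (B : ℝ) ≤ ((2 * B - b : ℕ) : ℝ) := by
          have : B ≤ 2 * B - b := by omega
          exact_mod_cast this
        calc c₁ * (B : ℝ) ^ g ≤ c₁ * ((2 * B - b : ℕ) : ℝ) ^ g := by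
              apply mul_le_mul_of_nonneg_left _ hc₁.le
              exact pow_le_pow_left₀ hBR.le h4 g
          _ ≤ _ := h3
      have hupper : (η (N ^ 2 * (2 * B)) : ℝ) ≤ c₂ * ((N : ℝ) ^ 2 * (2 * (B : ℝ))) ^ g := by
        have h2 : m₀ ≤ N ^ 2 * (2 * B) := by
          have : 1 ≤ N ^ 2 := Nat.one_le_pow _ _ hNpos
          nlinarith
        have h3 := hup _ h2
        have h4 : ((N ^ 2 * (2 * B) : ℕ) : ℝ) = (N : ℝ) ^ 2 * (2 * (B : ℝ)) := by push_cast; ring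
        rw [h4] at h3
        exact h3
      have hdN : (0 : ℝ) ≤ ((d N : ℕ) : ℝ) := Nat.cast_nonneg _
      have hchain : ((d N : ℕ) : ℝ) * (c₁ * (B : ℝ) ^ g) ≤
          c₂ * ((N : ℝ) ^ 2 * (2 * (B : ℝ))) ^ g :=
        le_trans (le_trans (mul_le_mul_of_nonneg_left hmono hdN) h1R) hupper
      have hBg : (0 : ℝ) < (B : ℝ) ^ g := pow_pos hBR g
      have hexp : c₂ * ((N : ℝ) ^ 2 * (2 * (B : ℝ))) ^ g =
          (C * ((N : ℝ)) ^ (2 * g)) * (c₁ * (B : ℝ) ^ g) := by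
        rw [hC, mul_pow, mul_pow, ← pow_mul]
        field_simp
      rw [hexp] at hchain
      exact le_of_mul_le_mul_right hchain (by positivity)
    · -- lower bound on `d N`: use `m = B`
      have h1 := (hb B hBb).2
      have h1R : (η (N ^ 2 * B) : ℝ) ≤ ((d N : ℕ) : ℝ) * (η (B + b) : ℝ) := by
        exact_mod_cast h1
      have hlower : c₁ * ((N : ℝ) ^ 2 * (B : ℝ)) ^ g ≤ (η (N ^ 2 * B) : ℝ) := by
        have h2 : m₀ ≤ N ^ 2 * B := by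
          have : 1 ≤ N ^ 2 := Nat.one_le_pow _ _ hNpos
          nlinarith
        have h3 := hlow _ h2
        have h4 : ((N ^ 2 * B : ℕ) : ℝ) = (N : ℝ) ^ 2 * (B : ℝ) := by push_cast; ring
        rw [h4] at h3
        exact h3
      have hup' : (η (B + b) : ℝ) ≤ c₂ * (2 * (B : ℝ)) ^ g := by
        have h2 : m₀ ≤ B + b := by omega
        have h3 := hup _ h2
        have h4 : ((B + b : ℕ) : ℝ) ≤ 2 * (B : ℝ) := by
          have : B + b ≤ 2 * B := by omega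
          exact_mod_cast this
        calc (η (B + b) : ℝ) ≤ c₂ * ((B + b : ℕ) : ℝ) ^ g := h3
          _ ≤ c₂ * (2 * (B : ℝ)) ^ g := by
              apply mul_le_mul_of_nonneg_left _ hc₂.le
              exact pow_le_pow_left₀ (Nat.cast_nonneg _) h4 g
      have hdN : (0 : ℝ) ≤ ((d N : ℕ) : ℝ) := Nat.cast_nonneg _
      have hchain : c₁ * ((N : ℝ) ^ 2 * (B : ℝ)) ^ g ≤
          ((d N : ℕ) : ℝ) * (c₂ * (2 * (B : ℝ)) ^ g) :=
        le_trans hlower (le_trans h1R (mul_le_mul_of_nonneg_left hup' hdN))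
      have hBg : (0 : ℝ) < (B : ℝ) ^ g := pow_pos hBR g
      have hexp : c₁ * ((N : ℝ) ^ 2 * (B : ℝ)) ^ g = ((N : ℝ) ^ (2 * g)) * (c₁ * (B : ℝ) ^ g) := by
        rw [mul_pow, ← pow_mul]; ring
      have hexp2 : ((d N : ℕ) : ℝ) * (c₂ * (2 * (B : ℝ)) ^ g) =
          (C * ((d N : ℕ) : ℝ)) * (c₁ * (B : ℝ) ^ g) := by
        rw [hC, mul_pow]
        field_simp
      rw [hexp, hexp2] at hchain
      exact le_of_mul_le_mul_right hchain (by positivity)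
  -- Step 2: pass to `k`-th roots.
  have hdpow : ∀ k : ℕ, ((d (n ^ k) : ℕ) : ℝ) = ((d n : ℕ) : ℝ) ^ k := by
    intro k; rw [hpow k]; push_cast; ring
  have hnpow : ∀ k : ℕ, ((n : ℝ) ^ k) ^ (2 * g) = ((n : ℝ) ^ (2 * g)) ^ k := by
    intro k; rw [← pow_mul, ← pow_mul, mul_comm]
  have hpos : (0 : ℝ) < (n : ℝ) ^ (2 * g) := pow_pos hn' _
  have hle : ((d n : ℕ) : ℝ) ≤ (n : ℝ) ^ (2 * g) := by
    apply le_of_forall_pow_le_const_mul_pow (Nat.cast_nonneg _) hpos (C := C)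
    intro k
    have := (key k).1
    rwa [hdpow, hnpow] at this
  have hdpos : (0 : ℝ) < ((d n : ℕ) : ℝ) := by
    by_contra h0
    have h0' : ((d n : ℕ) : ℝ) = 0 := le_antisymm (not_lt.mp h0) (Nat.cast_nonneg _)
    have := (key 1).2
    rw [hdpow, hnpow, h0'] at this
    simp at this
    linarith [pow_pos hn' (2 * g)]
  have hge : (n : ℝ) ^ (2 * g) ≤ ((d n : ℕ) : ℝ) := by
    apply le_of_forall_pow_le_const_mul_pow hpos.le hdpos (C := C)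
    intro k
    have := (key k).2
    rwa [hdpow, hnpow] at this
  have : ((d n : ℕ) : ℝ) = ((n ^ (2 * g) : ℕ) : ℝ) := by
    push_cast
    exact le_antisymm hle hge
  exact_mod_cast this

/-- Product shape of the upper growth bound: `∏ (B i * m + 1) ≤ (∏ (B i + 1)) * m ^ g`. -/
theorem prod_affine_le (g : ℕ) (B : Fin g → ℕ) (m : ℕ) (hm : 1 ≤ m) :
    ∏ i, (B i * m + 1) ≤ (∏ i, (B i + 1)) * m ^ g := by
  have h1 : ∀ i ∈ (Finset.univ : Finset (Fin g)), B i * m + 1 ≤ (B i + 1) * m := by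
    intro i _
    nlinarith
  calc ∏ i, (B i * m + 1) ≤ ∏ i, ((B i + 1) * m) := Finset.prod_le_prod' h1
    _ = (∏ i, (B i + 1)) * m ^ g := by
        rw [Finset.prod_mul_distrib, Finset.prod_const, Finset.card_univ, Fintype.card_fin]

/-- **Counting step, natural-number shapes** (the shapes produced by the S26 leaves):
* `hlow`: `m ^ g ≤ c * η m` (lower growth, M8-LOWER);
* `hup`: `η m ≤ C * m ^ g` for `m ≥ 1` (upper growth, M8-SIGN + M8-PROD);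
* `hsw`: for every `k` there is `b` with
  `d (n^k) * η m ≤ η ((n^k)^2 * (m + b))` and `η ((n^k)^2 * m) ≤ d (n^k) * η (m + b)`
  (the output shape of `sandwich_compose` with `η' m = η ((n^k)^2 * m)`). -/
theorem count_eq_pow_nat (g : ℕ) (d η : ℕ → ℕ) (n : ℕ) (hn : 1 ≤ n)
    (hpow : ∀ k : ℕ, d (n ^ k) = d n ^ k)
    (c : ℕ) (hlow : ∀ m : ℕ, 1 ≤ m → m ^ g ≤ c * η m)
    (C : ℕ) (hup : ∀ m : ℕ, 1 ≤ m → η m ≤ C * m ^ g)
    (hsw : ∀ k : ℕ, ∃ b : ℕ, ∀ m : ℕ,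
      d (n ^ k) * η m ≤ η ((n ^ k) ^ 2 * (m + b)) ∧
        η ((n ^ k) ^ 2 * m) ≤ d (n ^ k) * η (m + b)) :
    d n = n ^ (2 * g) := by
  have h1 := hlow 1 le_rfl
  have h2 := hup 1 le_rfl
  simp only [one_pow, mul_one] at h1 h2
  have hcpos : 0 < c := by
    rcases Nat.eq_zero_or_pos c with h | h
    · rw [h] at h1; omega
    · exact h
  have hη1 : 1 ≤ η 1 := by
    rcases Nat.eq_zero_or_pos (η 1) with h | h
    · rw [h] at h1; omega
    · exact h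
  have hCpos : 0 < C := by omega
  have hcR : (0 : ℝ) < (c : ℝ) := by exact_mod_cast hcpos
  have hCR : (0 : ℝ) < (C : ℝ) := by exact_mod_cast hCpos
  refine count_eq_pow g d η n hn hpow (1 / (c : ℝ)) (C : ℝ) (by positivity) hCR 1 ?_ ?_ ?_
  · intro m hm
    have h := hlow m hm
    have hR : ((m : ℝ)) ^ g ≤ (c : ℝ) * (η m : ℝ) := by exact_mod_cast h
    rw [one_div, inv_mul_le_iff₀ hcR]
    exact hR
  · intro m hm
    have h := hup m hm
    exact_mod_cast h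
  · intro k
    obtain ⟨b, hb⟩ := hsw k
    refine ⟨b, fun m hm => ⟨?_, (hb m).2⟩⟩
    have h := (hb (m - b)).1
    rwa [Nat.sub_add_cancel hm] at h

/-- Variant of `count_eq_pow_nat` with the upper bound in product shape
`η m ≤ ∏ i, (B i * m + 1)`. -/
theorem count_eq_pow_nat_prod (g : ℕ) (d η : ℕ → ℕ) (n : ℕ) (hn : 1 ≤ n)
    (hpow : ∀ k : ℕ, d (n ^ k) = d n ^ k)
    (c : ℕ) (hlow : ∀ m : ℕ, 1 ≤ m → m ^ g ≤ c * η m)
    (B : Fin g → ℕ) (hup : ∀ m : ℕ, 1 ≤ m → η m ≤ ∏ i, (B i * m + 1))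
    (hsw : ∀ k : ℕ, ∃ b : ℕ, ∀ m : ℕ,
      d (n ^ k) * η m ≤ η ((n ^ k) ^ 2 * (m + b)) ∧
        η ((n ^ k) ^ 2 * m) ≤ d (n ^ k) * η (m + b)) :
    d n = n ^ (2 * g) :=
  count_eq_pow_nat g d η n hn hpow c hlow (∏ i, (B i + 1))
    (fun m hm => le_trans (hup m hm) (prod_affine_le g B m hm)) hsw

/-- Variant of `count_eq_pow` with the sandwich in the shifted shape
`d N * η m ≤ η (N ^ 2 * (m + b))`, `η (N ^ 2 * m) ≤ d N * η (m + b)`. -/
theorem count_eq_pow_shift (g : ℕ) (d η : ℕ → ℕ) (n : ℕ) (hn : 1 ≤ n)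
    (hpow : ∀ k : ℕ, d (n ^ k) = d n ^ k)
    (c₁ c₂ : ℝ) (hc₁ : 0 < c₁) (hc₂ : 0 < c₂) (m₀ : ℕ)
    (hlow : ∀ m : ℕ, m₀ ≤ m → c₁ * (m : ℝ) ^ g ≤ (η m : ℝ))
    (hup : ∀ m : ℕ, m₀ ≤ m → (η m : ℝ) ≤ c₂ * (m : ℝ) ^ g)
    (hsw : ∀ k : ℕ, ∃ b : ℕ, ∀ m : ℕ,
      d (n ^ k) * η m ≤ η ((n ^ k) ^ 2 * (m + b)) ∧
        η ((n ^ k) ^ 2 * m) ≤ d (n ^ k) * η (m + b)) :
    d n = n ^ (2 * g) := by
  refine count_eq_pow g d η n hn hpow c₁ c₂ hc₁ hc₂ m₀ hlow hup ?_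
  intro k
  obtain ⟨b, hb⟩ := hsw k
  refine ⟨b, fun m hm => ⟨?_, (hb m).2⟩⟩
  have h := (hb (m - b)).1
  rwa [Nat.sub_add_cancel hm] at h

/-- **Counting step in the shapes of the S26 specification** (`helper154_Spec2`):
* `lam m = ℓ_A(D ^ m)`, monotone (`D` effective), with `C(k + g, g) ≤ lam (k * a)`
  (`Stmt_Divisor`);
* `eta m = ℓ_X(E ^ m)`, `E = s^* D`, with `eta m ≤ (c * m + 1) ^ g` (`Stmt_Upper`);
* `(SW)` for `s` (degree `δ`): `δ * lam m ≤ eta (m + a₁)` and `eta m ≤ δ * lam (m + a₁)`;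
* `(SW)` for `[N] ∘ s`, `N = n ^ k` (degree `δ * d N`), rewritten through
  `([N] s)^* D ∼ E ^ (N ^ 2)` (`Stmt_QuadN`):
  `δ * d N * lam m ≤ eta (N ^ 2 * (m + a₂))` and `eta (N ^ 2 * m) ≤ δ * d N * lam (m + a₂)`;
* `d (n ^ k) = d n ^ k` (`Stmt_TorsPow`).
Conclusion: `d n = n ^ (2 * g)`. -/
theorem count_of_spec_shapes (g : ℕ) (d lam eta : ℕ → ℕ) (n : ℕ) (hn : 1 ≤ n)
    (hpow : ∀ k : ℕ, d (n ^ k) = d n ^ k)
    (hmono : Monotone lam)
    (a : ℕ) (ha : 0 < a) (hlow : ∀ k : ℕ, Nat.choose (k + g) g ≤ lam (k * a))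
    (c : ℕ) (hup : ∀ m : ℕ, eta m ≤ (c * m + 1) ^ g)
    (δ : ℕ) (hδ : 0 < δ) (a₁ : ℕ)
    (hsw : ∀ m : ℕ, δ * lam m ≤ eta (m + a₁) ∧ eta m ≤ δ * lam (m + a₁))
    (hswN : ∀ k : ℕ, ∃ a₂ : ℕ, ∀ m : ℕ,
      δ * d (n ^ k) * lam m ≤ eta ((n ^ k) ^ 2 * (m + a₂)) ∧
        eta ((n ^ k) ^ 2 * m) ≤ δ * d (n ^ k) * lam (m + a₂)) :
    d n = n ^ (2 * g) := by
  have haR : (0 : ℝ) < (a : ℝ) := by exact_mod_cast ha
  have hfac : (0 : ℝ) < (g.factorial : ℝ) := by exact_mod_cast Nat.factorial_pos g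
  refine count_eq_pow_shift g d eta n hn hpow
    (1 / ((2 * (a : ℝ)) ^ g * (g.factorial : ℝ))) (((c : ℝ) + 1) ^ g)
    (by positivity) (by positivity) (2 * a₁ + 1) ?_ ?_ ?_
  · -- lower growth of `eta`
    intro M hM
    obtain ⟨m, rfl⟩ : ∃ m, M = m + a₁ := ⟨M - a₁, by omega⟩
    have hka : m / a * a ≤ m := Nat.div_mul_le_self m a
    have hlt : m < a * (m / a + 1) := Nat.lt_mul_div_succ m ha
    -- chain of natural-number inequalities
    have h1 : Nat.choose (m / a + g) g ≤ eta (m + a₁) := by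
      calc Nat.choose (m / a + g) g ≤ lam (m / a * a) := hlow _
        _ ≤ lam m := hmono hka
        _ ≤ δ * lam m := Nat.le_mul_of_pos_left _ hδ
        _ ≤ eta (m + a₁) := (hsw m).1
    have h2 : (((m / a + g + 1 - g : ℕ) : ℝ) ^ g) / (g.factorial : ℝ) ≤
        ((Nat.choose (m / a + g) g : ℕ) : ℝ) := Nat.pow_le_choose g (m / a + g)
    have h3 : (m / a + g + 1 - g : ℕ) = m / a + 1 := by
      rw [Nat.add_right_comm, Nat.add_sub_cancel]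
    rw [h3] at h2
    have h4 : ((m + a₁ : ℕ) : ℝ) ≤ 2 * (a : ℝ) * ((m / a + 1 : ℕ) : ℝ) := by
      have : m + a₁ ≤ 2 * a * (m / a + 1) := by nlinarith
      exact_mod_cast this
    have h5 : ((m + a₁ : ℕ) : ℝ) ^ g ≤ (2 * (a : ℝ)) ^ g * ((m / a + 1 : ℕ) : ℝ) ^ g := by
      rw [← mul_pow]
      exact pow_le_pow_left₀ (Nat.cast_nonneg _) h4 g
    have h6 : 1 / ((2 * (a : ℝ)) ^ g * (g.factorial : ℝ)) * ((m + a₁ : ℕ) : ℝ) ^ g ≤
        (((m / a + 1 : ℕ) : ℝ) ^ g) / (g.factorial : ℝ) := by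
      rw [one_div, inv_mul_le_iff₀ (by positivity)]
      calc ((m + a₁ : ℕ) : ℝ) ^ g ≤ (2 * (a : ℝ)) ^ g * ((m / a + 1 : ℕ) : ℝ) ^ g := h5
        _ = (2 * (a : ℝ)) ^ g * (g.factorial : ℝ) *
            ((((m / a + 1 : ℕ) : ℝ) ^ g) / (g.factorial : ℝ)) := by
              field_simp
    calc 1 / ((2 * (a : ℝ)) ^ g * (g.factorial : ℝ)) * ((m + a₁ : ℕ) : ℝ) ^ g
        ≤ (((m / a + 1 : ℕ) : ℝ) ^ g) / (g.factorial : ℝ) := h6
      _ ≤ ((Nat.choose (m / a + g) g : ℕ) : ℝ) := h2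
      _ ≤ (eta (m + a₁) : ℝ) := by exact_mod_cast h1
  · -- upper growth of `eta`
    intro M hM
    have hM1 : 1 ≤ M := by omega
    have h1 : eta M ≤ ((c + 1) * M) ^ g := by
      refine le_trans (hup M) (Nat.pow_le_pow_left ?_ g)
      nlinarith
    have h2 : ((eta M : ℕ) : ℝ) ≤ (((c + 1) * M : ℕ) : ℝ) ^ g := by exact_mod_cast h1
    calc ((eta M : ℕ) : ℝ) ≤ (((c + 1) * M : ℕ) : ℝ) ^ g := h2
      _ = ((c : ℝ) + 1) ^ g * (M : ℝ) ^ g := by push_cast; rw [mul_pow]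
  · -- the two-sided sandwich
    intro k
    obtain ⟨a₂, h2⟩ := hswN k
    refine ⟨a₁ + a₂, fun m => ⟨?_, ?_⟩⟩
    · calc d (n ^ k) * eta m ≤ d (n ^ k) * (δ * lam (m + a₁)) :=
            Nat.mul_le_mul_left _ (hsw m).2
        _ = δ * d (n ^ k) * lam (m + a₁) := by ring
        _ ≤ eta ((n ^ k) ^ 2 * (m + a₁ + a₂)) := (h2 (m + a₁)).1
        _ = eta ((n ^ k) ^ 2 * (m + (a₁ + a₂))) := by rw [add_assoc]
    · calc eta ((n ^ k) ^ 2 * m) ≤ δ * d (n ^ k) * lam (m + a₂) := (h2 m).2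
        _ = d (n ^ k) * (δ * lam (m + a₂)) := by ring
        _ ≤ d (n ^ k) * eta (m + a₂ + a₁) := Nat.mul_le_mul_left _ (hsw (m + a₂)).1
        _ = d (n ^ k) * eta (m + (a₁ + a₂)) := by rw [add_assoc, add_comm a₂ a₁]

end Fermat.Agent.S26.helper4953
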