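import Fermat.Agent.S26.helper154_Spec2
import Fermat.Agent.S26.helper4953_Count
import Fermat.Agent.S26.helper26_DimZero

/-!
# S26, leaf M9-ASM: the assembly (architect helper26)

`stmt_S26_of` : the module statements of `helper154_Spec2` (+ three small divisor facts, stated
here as `Stmt_PullDom`, `Stmt_EllLinEquiv`, `Stmt_EllMono`) imply the frozen statement
`Stmt_S26`.

The count: with `s : X ⟶ A` the sum map of the frame of curves, `E = s^* D`,
`η m = ℓ_X(E ^ m)`, `lam m = ℓ_A(D ^ m)`, `d N = #A[N](K)`: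
* `(SW)` for `s`         : `δ * lam m ≤ η (m + a)` and `η m ≤ δ * lam (m + a)`;
* `(SW)` for `[N] ∘ s`   : `δ * d N * lam m ≤ η (N² (m + b))` and `η (N² m) ≤ δ * d N * lam (m + b)`
  (using `([N] s)^* D ∼ N² s^* D`);
* growth                 : `m ^ g ≤ c * η m` and `η m ≤ C * m ^ g`;
* `d (n ^ k) = d n ^ k`;
and `helper4953.count_eq_pow` concludes `d n = n ^ (2 g)`.
-/

set_option autoImplicit false

universe u

open CategoryTheory CategoryTheory.Limits AlgebraicGeometry NeronModelInfra GoodReductionJacobian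

namespace Fermat.Agent.S26.helper26

open Fermat.Agent.S26.helper154

/-! ### Three divisor facts consumed by the assembly (M2-CORE / M2-PULL) -/

/-- A Cartier divisor pulls back along every dominant morphism of integral schemes. -/
def Stmt_PullDom : Prop :=
  ∀ {Y X : Scheme.{u}} [IsIntegral Y] [IsIntegral X] (φ : Y ⟶ X), IsDom φ →
    ∀ D : CDiv X, ∃ E : CDiv Y, CDiv.PullsTo φ D E

/-- `ℓ` and finiteness of `L` only depend on the linear equivalence class. -/
def Stmt_EllLinEquiv : Prop :=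
  ∀ (K : Type u) [Field K] {X : Scheme.{u}} [IsIntegral X] (x : X ⟶ Spec (CommRingCat.of K))
    (D E : CDiv X), CDiv.LinEquiv D E →
    (CDiv.LFinite x D ↔ CDiv.LFinite x E) ∧ CDiv.ell x D = CDiv.ell x E

/-- For an effective divisor, `m ↦ ℓ(D ^ m)` is monotone (where finite). -/
def Stmt_EllMono : Prop :=
  ∀ (K : Type u) [Field K] {X : Scheme.{u}} [IsIntegral X] (x : X ⟶ Spec (CommRingCat.of K))
    (D : CDiv X), CDiv.IsEffective D → ∀ m m' : ℕ, m ≤ m' → CDiv.LFinite x (D ^ m') →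
    CDiv.ell x (D ^ m) ≤ CDiv.ell x (D ^ m')

/-- M9-G0 in the shape of the Spec. -/
theorem stmt_DimZero : Stmt_DimZero.{u} := by
  intro K _ A f L hAV n
  have := hAV.smooth
  have h := natCard_torsion_of_dim_zero L hAV.bundle n
  simpa [torsCard] using h

/-! ### Auxiliary facts -/

/-- Linear equivalence is compatible with powers. -/
theorem linEquiv_pow {X : Scheme.{u}} [IsIntegral X] {D E : CDiv X} (h : CDiv.LinEquiv D E)
    (m : ℕ) : CDiv.LinEquiv (D ^ m) (E ^ m) := by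
  obtain ⟨φ, rfl⟩ := h
  exact ⟨φ ^ m, by rw [map_pow]; exact mul_pow E (CDiv.principal φ) m⟩

/-- The degree in `IsSepDom` is positive. -/
theorem IsSepDom.pos {Y X : Scheme.{u}} [IsIntegral Y] [IsIntegral X] {φ : Y ⟶ X} {δ : ℕ}
    (h : IsSepDom φ δ) : 0 < δ := by
  obtain ⟨hd, -, hfin, hrank⟩ := h
  let _ := (funFieldHom φ hd).toAlgebra
  have := hfin
  rw [← hrank]
  exact Module.finrank_pos

/-- `(k + 1) ^ g ≤ g ! * C(k + g, g)`. -/
theorem succ_pow_le_factorial_mul_choose (k g : ℕ) :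
    (k + 1) ^ g ≤ g.factorial * Nat.choose (k + g) g := by
  have h := Nat.pow_sub_le_descFactorial (k + g) g
  rw [Nat.descFactorial_eq_factorial_mul_choose] at h
  have e : k + g + 1 - g = k + 1 := by omega
  rwa [e] at h

/-- The numeric core of the lower growth bound. -/
theorem lower_numeric (g a0 a : ℕ) (ha0 : 0 < a0) (η lam : ℕ → ℕ) (δ : ℕ) (hδ : 0 < δ)
    (hmono : ∀ m m' : ℕ, m ≤ m' → lam m ≤ lam m')
    (hlow : ∀ k : ℕ, Nat.choose (k + g) g ≤ lam (k * a0))
    (hsw : ∀ m : ℕ, δ * lam m ≤ η (m + a)) (m : ℕ) (hm : a ≤ m) :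
    m ^ g ≤ (a0 + a) ^ g * g.factorial * η m := by
  set k := (m - a) / a0 with hk
  have h1 : k * a0 ≤ m - a := Nat.div_mul_le_self _ _
  have h2 : m - a < (k + 1) * a0 := by
    have := Nat.lt_mul_div_succ (m - a) ha0
    rw [Nat.mul_comm] at this
    exact this
  have h3 : Nat.choose (k + g) g ≤ η m := by
    calc Nat.choose (k + g) g ≤ lam (k * a0) := hlow k
      _ ≤ lam (m - a) := hmono _ _ h1
      _ ≤ δ * lam (m - a) := Nat.le_mul_of_pos_left _ hδ
      _ ≤ η (m - a + a) := hsw _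
      _ = η m := by rw [Nat.sub_add_cancel hm]
  have h4 : m ≤ (k + 1) * (a0 + a) := by
    have : m < (k + 1) * a0 + a := by omega
    have h5 : (k + 1) * a0 + a ≤ (k + 1) * (a0 + a) := by
      rw [Nat.mul_add]
      exact Nat.add_le_add_left (Nat.le_mul_of_pos_left _ (Nat.succ_pos k)) _
    omega
  calc m ^ g ≤ ((k + 1) * (a0 + a)) ^ g := Nat.pow_le_pow_left h4 g
    _ = (a0 + a) ^ g * (k + 1) ^ g := by rw [Nat.mul_pow, Nat.mul_comm]
    _ ≤ (a0 + a) ^ g * (g.factorial * Nat.choose (k + g) g) :=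
        Nat.mul_le_mul_left _ (succ_pow_le_factorial_mul_choose k g)
    _ = (a0 + a) ^ g * g.factorial * Nat.choose (k + g) g := by rw [Nat.mul_assoc]
    _ ≤ (a0 + a) ^ g * g.factorial * η m := Nat.mul_le_mul_left _ h3

/-- The numeric core of the composite sandwich. -/
theorem sandwich_numeric (η lam : ℕ → ℕ) (δ dN N a b : ℕ)
    (hs : ∀ m : ℕ, δ * lam m ≤ η (m + a) ∧ η m ≤ δ * lam (m + a))
    (hn : ∀ m : ℕ, δ * dN * lam m ≤ η (N ^ 2 * (m + b)) ∧ η (N ^ 2 * m) ≤ δ * dN * lam (m + b))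
    (m : ℕ) (hm : a + b ≤ m) :
    dN * η (m - (a + b)) ≤ η (N ^ 2 * m) ∧ η (N ^ 2 * m) ≤ dN * η (m + (a + b)) := by
  constructor
  · have h1 := (hs (m - (a + b))).2
    have h2 := (hn (m - (a + b) + a)).1
    have e : m - (a + b) + a + b = m := by omega
    rw [e] at h2
    calc dN * η (m - (a + b)) ≤ dN * (δ * lam (m - (a + b) + a)) := Nat.mul_le_mul_left _ h1
      _ = δ * dN * lam (m - (a + b) + a) := by ring
      _ ≤ η (N ^ 2 * m) := h2
  · have h1 := (hn m).2
    have h2 := (hs (m + b)).1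
    have e : m + b + a = m + (a + b) := by omega
    rw [e] at h2
    calc η (N ^ 2 * m) ≤ δ * dN * lam (m + b) := h1
      _ = dN * (δ * lam (m + b)) := by ring
      _ ≤ dN * η (m + (a + b)) := Nat.mul_le_mul_left _ h2

/-! ### The assembly -/

/-- **M9-ASM.** The module statements imply the frozen statement S26. -/
theorem stmt_S26_of (hInt : Stmt_Integral.{u}) (hDeg : Stmt_NsmulDeg.{u})
    (hComp : Stmt_SepDomComp.{u}) (hWN : Stmt_WsumNsmul.{u}) (hTP : Stmt_TorsPow.{u})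
    (hNorm : Stmt_Normal.{u}) (hQuad : Stmt_QuadN.{u}) (hFrame : Stmt_FramePos.{u})
    (hSW : Stmt_SW.{u}) (hDiv : Stmt_DivisorPos.{u}) (hUp : Stmt_Upper.{u})
    (hPull : Stmt_PullDom.{u}) (hLE : Stmt_EllLinEquiv.{u}) (hMono : Stmt_EllMono.{u}) :
    Stmt_S26.{u} := by
  intro K _ _ A f L hc hA g _ n hn
  have hAV : IsAbVar K f L g := ⟨inferInstance, hc, hA, inferInstance⟩
  show torsCard L n = n ^ (2 * g)
  rcases Nat.eq_zero_or_pos g with hg | hg
  · subst hg
    rw [stmt_DimZero K f L hAV n]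
    simp
  have : IsIntegral A := hInt K f L g hAV
  obtain ⟨l, hlen, hXint, δ, hδ⟩ := hFrame K f L g hAV hg
  obtain ⟨D, hDeff, hDsym, hD0, hDaff, a0, ha0, hDlow⟩ := hDiv K f L g hAV hg
  have := hXint
  have : IsProper (prodX l).2 := isProper_prodX l
  have : IsProper f := hA.proper
  have : Smooth f := SmoothOfRelativeDimension.smooth g f
  have hnormal : ∀ U : A.Opens, IsAffineOpen U → IsIntegrallyClosed Γ(A, U) :=
    fun U hU => hNorm K f U hU
  have hδpos : 0 < δ := IsSepDom.pos hδ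
  -- the pull-back `E = s^* D` and the growth of `η`
  obtain ⟨E, hE⟩ := hPull (sumMap L l) hδ.1 D
  obtain ⟨c, hUpc⟩ := hUp K f L g hAV l D hDeff hDsym hD0 E hE
  rw [hlen] at hUpc
  have hsf : sumMap L l ≫ f = (prodX l).2 := (wsum L l (fun _ => 1)).2
  obtain ⟨a, hSWs⟩ := hSW K (prodX l).2 f (sumMap L l) hsf δ hδ hnormal D hDeff hDaff E hE
    (fun m => (hUpc m).1)
  -- notation
  set η : ℕ → ℕ := fun m => CDiv.ell (prodX l).2 (E ^ m) with hη
  set lam : ℕ → ℕ := fun m => CDiv.ell f (D ^ m) with hlam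
  have hn0 : n ≠ 0 := by
    rintro rfl
    exact hn (by simp)
  have hn1 : 1 ≤ n := Nat.one_le_iff_ne_zero.mpr hn0
  have hlamMono : ∀ m m' : ℕ, m ≤ m' → lam m ≤ lam m' :=
    fun m m' h => hMono K f D hDeff m m' h (hSWs m').1
  have hlamLow : ∀ k : ℕ, Nat.choose (k + g) g ≤ lam (k * a0) :=
    fun k => hDlow k (hSWs (k * a0)).1
  have hs : ∀ m : ℕ, δ * lam m ≤ η (m + a) ∧ η m ≤ δ * lam (m + a) :=
    fun m => (hSWs m).2
  -- lower and upper growth
  have hlowNat : ∀ m : ℕ, a ≤ m → m ^ g ≤ (a0 + a) ^ g * g.factorial * η m :=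
    fun m hm => lower_numeric g a0 a ha0 η lam δ hδpos hlamMono hlamLow (fun m => (hs m).1) m hm
  have hupNat : ∀ m : ℕ, 1 ≤ m → η m ≤ (c + 1) ^ g * m ^ g := by
    intro m hm
    have h1 : c * m + 1 ≤ (c + 1) * m := by nlinarith
    calc η m ≤ (c * m + 1) ^ g := (hUpc m).2
      _ ≤ ((c + 1) * m) ^ g := Nat.pow_le_pow_left h1 g
      _ = (c + 1) ^ g * m ^ g := Nat.mul_pow _ _ _
  -- the composite sandwich for `N = n ^ k`
  have hsw : ∀ k : ℕ, ∃ b : ℕ, ∀ m : ℕ, b ≤ m →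
      torsCard L (n ^ k) * η (m - b) ≤ η ((n ^ k) ^ 2 * m) ∧
        η ((n ^ k) ^ 2 * m) ≤ torsCard L (n ^ k) * η (m + b) := by
    intro k
    set N : ℕ := n ^ k with hN
    have hNK : ((N : ℕ) : K) ≠ 0 := by
      rw [hN, Nat.cast_pow]
      exact pow_ne_zero k hn
    have hdegN : IsSepDom (L.schemeNsmul N) (torsCard L N) := hDeg K f L g hAV N hNK
    have hcompN : IsSepDom (sumMap L l ≫ L.schemeNsmul N) (δ * torsCard L N) :=
      hComp (sumMap L l) (L.schemeNsmul N) δ (torsCard L N) hδ hdegN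
    have hw : (wsum L l (fun _ => (N : ℤ))).1 = sumMap L l ≫ L.schemeNsmul N := hWN K f L hc l N
    rw [← hw] at hcompN
    obtain ⟨En, hEn⟩ := hPull (wsum L l (fun _ => (N : ℤ))).1 hcompN.1 D
    have hq : CDiv.LinEquiv En (E ^ (N ^ 2)) := hQuad K f L g hAV l D hDsym hD0 N E En hE hEn
    have hqm : ∀ m : ℕ, CDiv.LinEquiv (En ^ m) (E ^ (N ^ 2 * m)) := by
      intro m
      have := linEquiv_pow hq m
      rwa [← pow_mul] at this
    have hLEm : ∀ m : ℕ, (CDiv.LFinite (prodX l).2 (En ^ m) ↔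
        CDiv.LFinite (prodX l).2 (E ^ (N ^ 2 * m))) ∧
        CDiv.ell (prodX l).2 (En ^ m) = η (N ^ 2 * m) :=
      fun m => hLE K (prodX l).2 (En ^ m) (E ^ (N ^ 2 * m)) (hqm m)
    obtain ⟨b, hSWn⟩ := hSW K (prodX l).2 f (wsum L l (fun _ => (N : ℤ))).1
      (wsum L l (fun _ => (N : ℤ))).2 (δ * torsCard L N) hcompN hnormal D hDeff hDaff En hEn
      (fun m => (hLEm m).1.mpr (hUpc (N ^ 2 * m)).1)
    have hnN : ∀ m : ℕ, δ * torsCard L N * lam m ≤ η (N ^ 2 * (m + b)) ∧
        η (N ^ 2 * m) ≤ δ * torsCard L N * lam (m + b) := by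
      intro m
      have h := (hSWn m).2
      rw [(hLEm (m + b)).2, (hLEm m).2] at h
      exact h
    exact ⟨a + b, fun m hm => sandwich_numeric η lam δ (torsCard L N) N a b hs hnN m hm⟩
  -- the count
  have hcpos : (0 : ℝ) < ((a0 + a) ^ g * g.factorial : ℕ) := by
    have : 0 < (a0 + a) ^ g * g.factorial :=
      Nat.mul_pos (Nat.pow_pos (by omega)) (Nat.factorial_pos g)
    exact_mod_cast this
  refine helper4953.count_eq_pow g (fun N => torsCard L N) η n hn1
    (fun k => hTP K f L g hAV n hn k)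
    (1 / (((a0 + a) ^ g * g.factorial : ℕ) : ℝ)) (((c + 1) ^ g : ℕ) : ℝ) (by positivity)
    (by positivity) (max a 1) ?_ ?_ hsw
  · intro m hm
    have h := hlowNat m (le_trans (le_max_left _ _) hm)
    have hR : ((m : ℝ)) ^ g ≤ (((a0 + a) ^ g * g.factorial : ℕ) : ℝ) * (η m : ℝ) := by
      exact_mod_cast h
    rw [one_div, inv_mul_le_iff₀ hcpos]
    exact hR
  · intro m hm
    have h := hupNat m (le_trans (le_max_right _ _) hm)
    exact_mod_cast h

end Fermat.Agent.S26.helper26
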