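import Fermat.Agent.S26.helper154_Spec2
import Fermat.Agent.S26.helper218_PullsTo
import Fermat.Agent.S25.helper2952_SecHom
import Fermat.Agent.S25.helper6743_SecPullback
import Fermat.Agent.S25.helper2321_EndInvertible

/-!
# S26-M3: the bridge between Cartier divisors (`helper154.CDiv`) and invertible sheaves

For an integral scheme `X` and a family of divisor germs `D`, the sheaf `O(D)` is built by hand as
the subsheaf of the constant sheaf `K(X)` of the `h` with `h * f ∈ O_x` (`f` a local equation).
-/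

set_option autoImplicit false

universe u

noncomputable section

open CategoryTheory TopologicalSpace Opposite AlgebraicGeometry

namespace Fermat.Agent.S26.helper3135

open Fermat.Agent.S26.helper154 Fermat.Agent.S25.helper2952

variable {X : Scheme.{u}} [IsIntegral X]

/-- The generic point lies in every nonempty open. -/
theorem generic_mem (W : X.Opens) {x : X} (hx : x ∈ W) : genericPoint X ∈ W :=
  ((genericPoint_spec X).mem_open_set_iff W.isOpen).mpr ⟨x, trivial, hx⟩

/-- The image in the function field of a function on `W`, computed through the stalk at `x`. -/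
def toFF (W : X.Opens) (x : X) (hx : x ∈ W) : Γ(X, W) →+* X.functionField :=
  (algebraMap (X.presheaf.stalk x) X.functionField).comp (X.presheaf.germ W x hx).hom

theorem toFF_apply (W : X.Opens) (x : X) (hx : x ∈ W) (r : Γ(X, W)) :
    toFF W x hx r = algebraMap (X.presheaf.stalk x) X.functionField (X.presheaf.germ W x hx r) :=
  rfl

theorem toFF_eq (W : X.Opens) (x y : X) (hx : x ∈ W) (hy : y ∈ W) (r : Γ(X, W)) :
    toFF W x hx r = toFF W y hy r := by
  have : Nonempty W := ⟨⟨x, hx⟩⟩
  rw [toFF_apply, toFF_apply, Scheme.algebraMap_germ_eq_germToFunctionField,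
    Scheme.algebraMap_germ_eq_germToFunctionField]

theorem toFF_res {W W' : X.Opens} (h : W' ≤ W) (x : X) (hx : x ∈ W') (r : Γ(X, W)) :
    toFF W' x hx (resO X h r) = toFF W x (h hx) r := by
  rw [toFF_apply, toFF_apply]
  congr 1
  exact X.presheaf.germ_res_apply (homOfLE h) x hx r

theorem toFF_injective (W : X.Opens) (x : X) (hx : x ∈ W) : Function.Injective (toFF W x hx) :=
  (IsFractionRing.injective (X.presheaf.stalk x) X.functionField).comp
    (germ_injective_of_isIntegral X x hx)

theorem toFF_mem_localSubring (W : X.Opens) (x : X) (hx : x ∈ W) (r : Γ(X, W)) :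
    toFF W x hx r ∈ localSubring X x :=
  ⟨X.presheaf.germ W x hx r, rfl⟩

/-- Changing the local equation by a unit does not change the regularity condition. -/
theorem mul_mem_of_mk_eq {x : X} {f f' : (X.functionField)ˣ}
    (h : (QuotientGroup.mk f : LocDiv X x) = QuotientGroup.mk f') {c : X.functionField}
    (hc : c * (f : X.functionField) ∈ localSubring X x) :
    c * (f' : X.functionField) ∈ localSubring X x := by
  obtain ⟨v, hv⟩ := QuotientGroup.eq.mp h
  have h1 : (f' : X.functionField) = f * ((f⁻¹ * f' : (X.functionField)ˣ) : X.functionField) := by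
    rw [Units.val_mul, ← mul_assoc, Units.mul_inv, one_mul]
  rw [h1, ← hv, ← mul_assoc]
  exact Subring.mul_mem _ hc ⟨(v : X.presheaf.stalk x), rfl⟩

/-- Sections of `O(D)` over `W`: constant functions `W → K(X)` whose value `h` satisfies
`h * f ∈ O_x` for every `x ∈ W` and every local equation `f` of `D` at `x`. -/
def secs (D : ∀ x : X, LocDiv X x) (W : X.Opens) : AddSubgroup (W → X.functionField) where
  carrier := {s | (∀ x y : W, s x = s y) ∧
    ∀ x : W, ∀ f : (X.functionField)ˣ, D x.1 = QuotientGroup.mk f →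
      s x * (f : X.functionField) ∈ localSubring X x.1}
  add_mem' := by
    intro a b ha hb
    refine ⟨fun x y => ?_, fun x f hf => ?_⟩
    · rw [Pi.add_apply, Pi.add_apply, ha.1 x y, hb.1 x y]
    · rw [Pi.add_apply, add_mul]
      exact Subring.add_mem _ (ha.2 x f hf) (hb.2 x f hf)
  zero_mem' := by
    refine ⟨fun x y => rfl, fun x f _ => ?_⟩
    rw [Pi.zero_apply, zero_mul]
    exact Subring.zero_mem _
  neg_mem' := by
    intro a ha
    refine ⟨fun x y => ?_, fun x f hf => ?_⟩
    · rw [Pi.neg_apply, Pi.neg_apply, ha.1 x y]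
    · rw [Pi.neg_apply, neg_mul]
      exact Subring.neg_mem _ (ha.2 x f hf)

variable (D : ∀ x : X, LocDiv X x)

/-- Restriction of sections of `O(D)`. -/
def restr {W W' : X.Opens} (h : W' ≤ W) : secs D W →+ secs D W' where
  toFun s := ⟨fun x => s.1 ⟨x.1, h x.2⟩, fun _ _ => s.2.1 _ _,
    fun x f hf => s.2.2 ⟨x.1, h x.2⟩ f hf⟩
  map_zero' := rfl
  map_add' _ _ := rfl

instance instSMulSecs (W : X.Opens) : SMul Γ(X, W) (secs D W) where
  smul r s := ⟨fun x => toFF W x.1 x.2 r * s.1 x, fun x y => by
      change toFF W x.1 x.2 r * s.1 x = toFF W y.1 y.2 r * s.1 y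
      rw [toFF_eq W x.1 y.1 x.2 y.2 r, s.2.1 x y], fun x f hf => by
      change toFF W x.1 x.2 r * s.1 x * (f : X.functionField) ∈ localSubring X x.1
      rw [mul_assoc]
      exact Subring.mul_mem _ (toFF_mem_localSubring W x.1 x.2 r) (s.2.2 x f hf)⟩

theorem smul_secs_apply {W : X.Opens} (r : Γ(X, W)) (s : secs D W) (x : W) :
    (r • s).1 x = toFF W x.1 x.2 r * s.1 x := rfl

instance instModuleSecs (W : X.Opens) : Module Γ(X, W) (secs D W) where
  one_smul s := by
    apply Subtype.ext; funext x; rw [smul_secs_apply, map_one, one_mul]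
  mul_smul r r' s := by
    apply Subtype.ext; funext x
    rw [smul_secs_apply, smul_secs_apply, smul_secs_apply, map_mul, mul_assoc]
  smul_zero r := by
    apply Subtype.ext; funext x
    rw [smul_secs_apply]; exact mul_zero _
  smul_add r s t := by
    apply Subtype.ext; funext x
    rw [smul_secs_apply]; exact mul_add _ _ _
  add_smul r r' s := by
    apply Subtype.ext; funext x
    rw [smul_secs_apply, map_add, add_mul]; rfl
  zero_smul s := by
    apply Subtype.ext; funext x
    rw [smul_secs_apply, map_zero, zero_mul]; rfl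

/-- The underlying presheaf of abelian groups of `O(D)`. -/
def presheafOD : TopCat.Presheaf Ab.{u} X where
  obj W := AddCommGrpCat.of (secs D W.unop)
  map {W W'} f := AddCommGrpCat.ofHom (restr D (leOfHom f.unop))
  map_id W := by
    ext s
    rfl
  map_comp {W W' W''} f g := by
    ext s
    rfl

instance instModulePresheafOD (V : (Opens X)ᵒᵖ) :
    Module (X.ringCatSheaf.obj.obj V) ((presheafOD D).obj V) :=
  inferInstanceAs (Module Γ(X, V.unop) (secs D V.unop))

theorem presheafOD_map_smul ⦃V V' : (Opens X)ᵒᵖ⦄ (f : V ⟶ V') (r : X.ringCatSheaf.obj.obj V)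
    (m : (presheafOD D).obj V) :
    (presheafOD D).map f (r • m) = X.ringCatSheaf.obj.map f r • (presheafOD D).map f m := by
  apply Subtype.ext
  funext x
  have key : ∀ (r' : Γ(X, V.unop)) (m' : secs D V.unop),
      toFF V.unop x.1 (leOfHom f.unop x.2) r' * m'.1 ⟨x.1, leOfHom f.unop x.2⟩ =
      toFF V'.unop x.1 x.2 (resO X (leOfHom f.unop) r') * m'.1 ⟨x.1, leOfHom f.unop x.2⟩ := by
    intro r' m'
    rw [toFF_res]
  exact key r m

/-- The presheaf of modules `O(D)`. -/
def presheafOfModulesOD : PresheafOfModules.{u} X.ringCatSheaf.obj :=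
  PresheafOfModules.ofPresheaf (presheafOD D) (presheafOD_map_smul D)

theorem isSheaf_presheafOD : (presheafOD D).IsSheaf := by
  rw [TopCat.Presheaf.isSheaf_iff_isSheafUniqueGluing]
  intro α V sf hsf
  have hcompat : ∀ (a b : α) (x : X) (ha : x ∈ V a) (hb : x ∈ V b),
      (sf a).1 ⟨x, ha⟩ = (sf b).1 ⟨x, hb⟩ := by
    intro a b x ha hb
    have := hsf a b
    exact congrFun (congrArg Subtype.val this) ⟨x, ha, hb⟩
  have hex : ∀ x : (iSup V : X.Opens), ∃ a : α, x.1 ∈ V a := fun x => Opens.mem_iSup.mp x.2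
  choose a ha using hex
  have hconst : ∀ (b c : α) (x y : X) (hb : x ∈ V b) (hc : y ∈ V c),
      (sf b).1 ⟨x, hb⟩ = (sf c).1 ⟨y, hc⟩ := by
    intro b c x y hb hc
    rw [(sf b).2.1 ⟨x, hb⟩ ⟨genericPoint X, generic_mem (V b) hb⟩,
      (sf c).2.1 ⟨y, hc⟩ ⟨genericPoint X, generic_mem (V c) hc⟩]
    exact hcompat b c _ _ _
  refine ⟨⟨fun x => (sf (a x)).1 ⟨x.1, ha x⟩, fun x y => hconst _ _ _ _ _ _,
    fun x f hf => (sf (a x)).2.2 ⟨x.1, ha x⟩ f hf⟩, ?_, ?_⟩
  · intro b
    apply Subtype.ext
    funext x
    exact hconst _ _ _ _ _ _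
  · intro s' hs'
    apply Subtype.ext
    funext x
    have := hs' (a x)
    exact (congrFun (congrArg Subtype.val this) ⟨x.1, ha x⟩).symm ▸ rfl

/-- The sheaf of modules `O(D)` attached to a family of divisor germs on an integral scheme. -/
def OD : X.Modules :=
  (⟨presheafOfModulesOD D, isSheaf_presheafOD D⟩ : SheafOfModules.{u} X.ringCatSheaf)


/-! ### Sections of `O(D)` -/

variable {D}

/-- The value function of a section of `O(D)`. -/
def val {W : X.Opens} (s : Γ(OD D, W)) : W → X.functionField := (show secs D W from s).1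

/-- A section of `O(D)` from its value function. -/
def ofSecs {W : X.Opens} (s : secs D W) : Γ(OD D, W) := s

theorem val_ofSecs {W : X.Opens} (s : secs D W) : val (ofSecs s) = s.1 := rfl

theorem val_injective {W : X.Opens} : Function.Injective (val : Γ(OD D, W) → W → X.functionField) :=
  fun _ _ h => Subtype.ext h

theorem val_add {W : X.Opens} (s t : Γ(OD D, W)) (x : W) : val (s + t) x = val s x + val t x := rfl

theorem val_res {W W' : X.Opens} (h : W' ≤ W) (s : Γ(OD D, W)) (x : W') :
    val (res (OD D) h s) x = val s ⟨x.1, h x.2⟩ := rfl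

theorem val_smul {W : X.Opens} (r : Γ(X, W)) (s : Γ(OD D, W)) (x : W) :
    val (r • s) x = toFF W x.1 x.2 r * val s x := rfl

theorem val_const {W : X.Opens} (s : Γ(OD D, W)) (x y : W) : val s x = val s y :=
  (show secs D W from s).2.1 x y

theorem val_mem {W : X.Opens} (s : Γ(OD D, W)) (x : W) (f : (X.functionField)ˣ)
    (hf : D x.1 = QuotientGroup.mk f) : val s x * (f : X.functionField) ∈ localSubring X x.1 :=
  (show secs D W from s).2.2 x f hf

/-! ### Functions with prescribed image in the function field -/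

/-- A function is determined by its image in the function field. -/
theorem eq_of_toFF_eq (W : X.Opens) (r r' : Γ(X, W))
    (h : ∀ y : W, toFF W y.1 y.2 r = toFF W y.1 y.2 r') : r = r' := by
  refine fun_ext_of_cover X (fun _ : W => W) W (fun _ => le_rfl) ?_ r r' ?_
  · intro x hx
    exact Opens.mem_iSup.mpr ⟨⟨x, hx⟩, hx⟩
  · intro i
    rw [resO_self, resO_self]
    exact toFF_injective W i.1 i.2 (h i)

/-- **Key lemma**: a rational function lying in all the local rings `O_y`, `y ∈ W`, is (the image
of) a function on `W`. -/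
theorem exists_section_of_forall_mem (W : X.Opens) (c : W → X.functionField)
    (hconst : ∀ x y : W, c x = c y) (hc : ∀ y : W, c y ∈ localSubring X y.1) :
    ∃ r : Γ(X, W), ∀ y : W, toFF W y.1 y.2 r = c y := by
  have hloc : ∀ y : W, ∃ (U : X.Opens) (_ : U ≤ W) (hy : y.1 ∈ U) (s : Γ(X, U)),
      toFF U y.1 hy s = c y := by
    intro y
    obtain ⟨t, ht⟩ := hc y
    obtain ⟨U, hU, g, hg⟩ := X.presheaf.exists_germ_eq t
    refine ⟨U ⊓ W, inf_le_right, ⟨hU, y.2⟩, resO X inf_le_left g, ?_⟩
    rw [toFF_res, toFF_apply, hg]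
    exact ht
  choose U hUW hyU s hs using hloc
  have hcompat : ∀ i j : W, resO X (inf_le_left : U i ⊓ U j ≤ U i) (s i) =
      resO X inf_le_right (s j) := by
    intro i j
    have hη : genericPoint X ∈ U i ⊓ U j := ⟨generic_mem (U i) (hyU i), generic_mem (U j) (hyU j)⟩
    apply toFF_injective (U i ⊓ U j) (genericPoint X) hη
    rw [toFF_res, toFF_res, toFF_eq (U i) _ i.1 _ (hyU i), toFF_eq (U j) _ j.1 _ (hyU j), hs, hs]
    exact hconst i j
  obtain ⟨a, ha⟩ := fun_glue X U W hUW (fun x hx => Opens.mem_iSup.mpr ⟨⟨x, hx⟩, hyU ⟨x, hx⟩⟩)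
    s hcompat
  refine ⟨a, fun y => ?_⟩
  rw [← toFF_res (hUW y) y.1 (hyU y), ha, hs]

/-! ### Local generators of `O(D)` -/

/-- The section `1 / f` of `O(D)` over an open where `f` is a local equation of `D`. -/
def genSec (D : ∀ x : X, LocDiv X x) (U : X.Opens) (f : (X.functionField)ˣ)
    (hf : ∀ y ∈ U, D y = QuotientGroup.mk f) : Γ(OD D, U) :=
  ofSecs ⟨fun _ => ((f⁻¹ : (X.functionField)ˣ) : X.functionField), fun _ _ => rfl,
    fun x f' hf' => by
      refine mul_mem_of_mk_eq ((hf x.1 x.2).symm.trans hf') ?_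
      rw [Units.inv_mul]
      exact Subring.one_mem _⟩

theorem val_genSec (U : X.Opens) (f : (X.functionField)ˣ)
    (hf : ∀ y ∈ U, D y = QuotientGroup.mk f) (x : U) :
    val (genSec D U f hf) x = ((f⁻¹ : (X.functionField)ˣ) : X.functionField) := rfl

/-- `1 / f` generates `O(D)` over an open where `f` is a local equation of `D`. -/
theorem isGenerator_genSec (U : X.Opens) (f : (X.functionField)ˣ)
    (hf : ∀ y ∈ U, D y = QuotientGroup.mk f) : IsGenerator (OD D) U (genSec D U f hf) := by
  intro V hV
  constructor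
  · intro r r' h
    apply eq_of_toFF_eq
    intro y
    have h1 := congrFun (congrArg val h) y
    simp only [val_smul, val_res, val_genSec] at h1
    exact mul_right_cancel₀ (Units.ne_zero _) h1
  · intro m
    obtain ⟨r, hr⟩ := exists_section_of_forall_mem V (fun x => val m x * (f : X.functionField))
      (fun x y => by simp only [val_const m x y])
      (fun y => val_mem m y f (hf y.1 (hV y.2)))
    refine ⟨r, val_injective (funext fun x => ?_)⟩
    simp only [val_smul, val_res, val_genSec, hr]
    rw [mul_assoc, Units.mul_inv, mul_one]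


/-! ### Coordinates with respect to a generator -/

section Coord

variable {Z : Scheme.{u}} {M N : Z.Modules} {U : Z.Opens} {g : Γ(M, U)}

/-- The coordinate of a section with respect to a generator. -/
def coord (hg : IsGenerator M U g) {V : Z.Opens} (hV : V ≤ U) (m : Γ(M, V)) : Γ(Z, V) :=
  (Equiv.ofBijective _ (hg V hV)).symm m

theorem coord_smul (hg : IsGenerator M U g) {V : Z.Opens} (hV : V ≤ U) (m : Γ(M, V)) :
    coord hg hV m • res M hV g = m :=
  (Equiv.ofBijective _ (hg V hV)).apply_symm_apply m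

theorem coord_eq (hg : IsGenerator M U g) {V : Z.Opens} (hV : V ≤ U) {m : Γ(M, V)}
    {r : Γ(Z, V)} (h : r • res M hV g = m) : coord hg hV m = r :=
  (hg V hV).1 ((coord_smul hg hV m).trans h.symm)

/-- The local homomorphism `M → N` sending a generator `g` of `M` to a given section `e`. -/
def genHom (hg : IsGenerator M U g) (e : Γ(N, U)) : SecHom M N U where
  toFun V hV := AddMonoidHom.mk' (fun m => coord hg hV m • res N hV e) (by
    intro m m'
    rw [← add_smul]
    congr 1
    apply coord_eq
    rw [add_smul, coord_smul, coord_smul])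
  map_res V V' hV h m := by
    change coord hg (h.trans hV) (res M h m) • res N (h.trans hV) e =
      res N h (coord hg hV m • res N hV e)
    rw [res_smul, res_res]
    congr 1
    apply coord_eq
    rw [← res_res M hV h, ← res_smul, coord_smul]
  map_smul V hV r m := by
    change coord hg hV (r • m) • res N hV e = r • (coord hg hV m • res N hV e)
    rw [← mul_smul]
    congr 1
    apply coord_eq
    rw [mul_smul, coord_smul]

theorem genHom_apply (hg : IsGenerator M U g) (e : Γ(N, U)) {V : Z.Opens} (hV : V ≤ U)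
    (m : Γ(M, V)) : (genHom hg e).toFun V hV m = coord hg hV m • res N hV e := rfl

theorem genHom_genHom (hg : IsGenerator M U g) {e : Γ(N, U)} (he : IsGenerator N U e)
    {V : Z.Opens} (hV : V ≤ U) (m : Γ(M, V)) :
    (genHom he g).toFun V hV ((genHom hg e).toFun V hV m) = m := by
  rw [genHom_apply, genHom_apply, coord_eq he hV rfl, coord_smul]

end Coord

/-! ### Characterisation of `O(E)` by generators and transition functions -/

/-- **Characterisation of `O(E)`**: a module with local generators `g i` on a cover `U i`, such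
that `E` has local equation `f i` on `U i` and `g i = u • g j` on the overlaps for a function `u`
with image `f j / f i` in the function field, is isomorphic to `O(E)`. (The overlap may be
presented as any open `V` with `U i ⊓ U j ≤ V ≤ U i, U j`.) -/
theorem nonempty_iso_OD_of_generators (E : ∀ x : X, LocDiv X x) (M : X.Modules) {ι : Type u}
    (U : ι → X.Opens) (hU : ⨆ i, U i = ⊤) (f : ι → (X.functionField)ˣ)
    (hE : ∀ i, ∀ y ∈ U i, E y = QuotientGroup.mk (f i))
    (g : ∀ i, Γ(M, U i)) (hg : ∀ i, IsGenerator M (U i) (g i))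
    (htrans : ∀ i j, ∃ (V : X.Opens) (hi : V ≤ U i) (hj : V ≤ U j) (_ : U i ⊓ U j ≤ V)
      (u : Γ(X, V)),
      (∀ x : V, toFF V x.1 x.2 u =
        (f j : X.functionField) * ((f i)⁻¹ : (X.functionField)ˣ)) ∧
      res M hi (g i) = u • res M hj (g j)) :
    Nonempty (M ≅ OD E) := by
  have he : ∀ i, IsGenerator (OD E) (U i) (genSec E (U i) (f i) (hE i)) :=
    fun i => isGenerator_genSec (U i) (f i) (hE i)
  refine nonempty_iso_of_secHom U hU (fun i => genHom (hg i) (genSec E (U i) (f i) (hE i)))
    (fun i => genHom (he i) (g i)) ?_ (fun i V hV m => genHom_genHom (hg i) (he i) hV m)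
    (fun i V hV n => genHom_genHom (he i) (hg i) hV n)
  intro i j V hi hj m
  obtain ⟨V₀, hi₀, hj₀, hij, u, hu, hgu⟩ := htrans i j
  have hV : V ≤ V₀ := (le_inf hi hj).trans hij
  -- the transition relation on `V`, for `M` and for `O(E)`
  have h1 : res M hi (g i) = resO X hV u • res M hj (g j) := by
    have := congrArg (res M hV) hgu
    rwa [res_res, res_smul, res_res] at this
  have h2 : res (OD E) hi (genSec E (U i) (f i) (hE i)) =
      resO X hV u • res (OD E) hj (genSec E (U j) (f j) (hE j)) := by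
    apply val_injective
    funext x
    rw [val_smul, val_res, val_res, val_genSec, val_genSec, toFF_res, hu ⟨x.1, hV x.2⟩,
      mul_comm (f j : X.functionField), mul_assoc, Units.mul_inv, mul_one]
  rw [genHom_apply, genHom_apply, h2, ← mul_smul]
  congr 1
  symm
  apply coord_eq
  rw [mul_smul, ← h1, coord_smul]

/-! ### (B1) `O(D)` is invertible -/

/-- (B1) `O(D)` is an invertible module for a Cartier divisor `D`. -/
theorem isInvertible_OD (D : CDiv X) : Scheme.Modules.IsInvertible (OD D.1) := by
  apply Fermat.Agent.S25.helper2321.isInvertible_of_gen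
  intro x
  obtain ⟨U, hxU, f, hf⟩ := D.2 x
  exact ⟨U, genSec D.1 U f hf, hxU, isGenerator_genSec U f hf⟩

/-! ### (B2) `O(div f)` is trivial -/

/-- A family of germs with a global equation has trivial `O(D)`. -/
theorem nonempty_iso_unit_of_eq_mk (D : ∀ x : X, LocDiv X x) (f : (X.functionField)ˣ)
    (hf : ∀ y, D y = QuotientGroup.mk f) :
    Nonempty (OD D ≅ SheafOfModules.unit X.ringCatSheaf) := by
  have hg : Fermat.Agent.S25.helper6743.IsGenOn (OD D) ⊤ (genSec D ⊤ f (fun y _ => hf y)) :=
    isGenerator_genSec ⊤ f (fun y _ => hf y)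
  have := Fermat.Agent.S25.helper6743.isIso_unitHom_of_isGenOn hg
  exact ⟨(asIso (Fermat.Agent.S25.helper6743.unitHom (OD D)
    (genSec D ⊤ f (fun y _ => hf y)))).symm⟩

/-- (B2) `O(0)` is the structure sheaf. -/
theorem nonempty_iso_unit_OD_one :
    Nonempty (OD (1 : CDiv X).1 ≅ SheafOfModules.unit X.ringCatSheaf) :=
  nonempty_iso_unit_of_eq_mk _ 1 (fun _ => rfl)

/-- `O(div f)` is trivial. -/
theorem nonempty_iso_unit_OD_principal (f : (X.functionField)ˣ) :
    Nonempty (OD (CDiv.principal f : CDiv X).1 ≅ SheafOfModules.unit X.ringCatSheaf) :=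
  nonempty_iso_unit_of_eq_mk _ f (fun _ => rfl)


/-! ### (B3) `O(D)` trivial implies `D` principal -/

/-- A divisor whose `O(D)` has a global generator is principal. -/
theorem principal_of_isGenerator_top (D : CDiv X) (g : Γ(OD D.1, ⊤))
    (hg : IsGenerator (OD D.1) ⊤ g) : ∃ f : (X.functionField)ˣ, D = CDiv.principal f := by
  have key : ∀ x : X, ∃ (r : (X.presheaf.stalk x)ˣ) (f : (X.functionField)ˣ),
      D.1 x = QuotientGroup.mk f ∧
      algebraMap (X.presheaf.stalk x) X.functionField (r : X.presheaf.stalk x) *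
        val g ⟨genericPoint X, trivial⟩ = ((f⁻¹ : (X.functionField)ˣ) : X.functionField) := by
    intro x
    obtain ⟨U, hxU, f, hf⟩ := D.2 x
    have he := isGenerator_genSec U f hf
    obtain ⟨r, hr⟩ := (hg U le_top).2 (genSec D.1 U f hf)
    obtain ⟨r', hr'⟩ := (he U le_rfl).2 (res (OD D.1) le_top g)
    have h1 := congrFun (congrArg val hr) ⟨x, hxU⟩
    have h2 := congrFun (congrArg val hr') ⟨x, hxU⟩
    simp only [val_smul, val_res, val_genSec] at h1 h2
    rw [val_const g ⟨x, trivial⟩ ⟨genericPoint X, trivial⟩] at h1 h2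
    have h3 : toFF U x hxU r * toFF U x hxU r' = 1 := by
      have : toFF U x hxU r * toFF U x hxU r' * ((f⁻¹ : (X.functionField)ˣ) : X.functionField) =
          ((f⁻¹ : (X.functionField)ˣ) : X.functionField) := by rw [mul_assoc, h2, h1]
      exact mul_right_cancel₀ (Units.ne_zero _) (this.trans (one_mul _).symm)
    have h4 : X.presheaf.germ U x hxU r * X.presheaf.germ U x hxU r' = 1 := by
      apply IsFractionRing.injective (X.presheaf.stalk x) X.functionField
      rw [map_one, map_mul]
      exact h3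
    exact ⟨⟨X.presheaf.germ U x hxU r, X.presheaf.germ U x hxU r', h4, (mul_comm _ _).trans h4⟩,
      f, hf x hxU, h1⟩
  obtain ⟨r0, f0, -, h0⟩ := key (genericPoint X)
  have hne : val g ⟨genericPoint X, trivial⟩ ≠ 0 := by
    intro h0'
    rw [h0', mul_zero] at h0
    exact Units.ne_zero _ h0.symm
  refine ⟨(Units.mk0 _ hne)⁻¹, ?_⟩
  apply Subtype.ext
  funext x
  obtain ⟨r, f, hf, hr⟩ := key x
  change D.1 x = QuotientGroup.mk (Units.mk0 _ hne)⁻¹
  rw [hf]
  apply QuotientGroup.eq.mpr
  refine ⟨r, ?_⟩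
  apply Units.ext
  rw [Units.coe_map, Units.val_mul, Units.val_inv_eq_inv_val (Units.mk0 _ hne), Units.val_mk0,
    ← hr, mul_assoc, mul_inv_cancel₀ hne, mul_one]
  rfl

/-- (B3) If `O(D)` is trivial then `D` is principal. -/
theorem principal_of_iso_unit (D : CDiv X)
    (h : Nonempty (OD D.1 ≅ SheafOfModules.unit X.ringCatSheaf)) :
    ∃ f : (X.functionField)ˣ, D = CDiv.principal f := by
  obtain ⟨e⟩ := h
  exact principal_of_isGenerator_top D _
    (Fermat.Agent.S25.helper6743.isGenOn_top_of_iso e.inv)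


/-! ### (B4) compatibility with pull-back -/

section Pullback

open Fermat.Agent.S25.helper6743 Fermat.Agent.S26.helper218

variable {Y : Scheme.{u}} [IsIntegral Y]

omit [IsIntegral X] in
/-- The image in `K(Y)` of the pullback of a function: the stalk map at the generic point. -/
theorem toFF_app (φ : Y ⟶ X) (V : X.Opens) (u : Γ(X, V)) (y : Y) (hy : y ∈ φ ⁻¹ᵁ V) :
    toFF (φ ⁻¹ᵁ V) y hy ((φ.app V).hom u) =
      φ.stalkMap (genericPoint Y)
        (X.presheaf.germ V (φ.base (genericPoint Y)) (generic_mem (φ ⁻¹ᵁ V) hy) u) := by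
  have : Nonempty (φ ⁻¹ᵁ V) := ⟨⟨y, hy⟩⟩
  rw [toFF_apply, Scheme.algebraMap_germ_eq_germToFunctionField]
  exact (Scheme.Hom.germ_stalkMap_apply φ V (genericPoint Y) _ u).symm

/-- (B4) `φ^* O(D) ≅ O(E)` when `E` is the pull-back of `D` along `φ`. -/
theorem nonempty_pullback_iso (φ : Y ⟶ X) (D : CDiv X) (E : CDiv Y) (h : CDiv.PullsTo φ D E) :
    Nonempty ((Scheme.Modules.pullback φ).obj (OD D.1) ≅ OD E.1) := by
  have hD := PullsTo.apply_genericPoint h
  choose U hyU r hr using exists_local_unit φ D hD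
  have he : ∀ y, IsGenerator (OD D.1) (U y) (genSec D.1 (U y) (unitK φ (r y)) (hr y)) :=
    fun y => isGenerator_genSec _ _ _
  refine nonempty_iso_OD_of_generators E.1 _ (fun y : Y => φ ⁻¹ᵁ U y) ?_
    (fun y => unitPull φ (r y)) ?_
    (fun y => pbSec φ (OD D.1) (U y) (genSec D.1 (U y) (unitK φ (r y)) (hr y)))
    (fun y => IsGenOn.pullback φ (he y)) ?_
  · exact top_le_iff.mp fun y _ => Opens.mem_iSup.mpr ⟨y, hyU y⟩
  · intro i y' hy'
    obtain ⟨r', hr', hE'⟩ := pullsTo_iff.1 h y'
    rw [hE']
    exact mk_unitPull_eq φ y' (hr'.symm.trans (hr i _ hy'))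
  · intro i j
    have hVi : U i ⊓ U j ≤ U i := inf_le_left
    have hVj : U i ⊓ U j ≤ U j := inf_le_right
    obtain ⟨u, hu⟩ : ∃ u : Γ(X, U i ⊓ U j),
        u • res (OD D.1) hVj (genSec D.1 (U j) (unitK φ (r j)) (hr j)) =
          res (OD D.1) hVi (genSec D.1 (U i) (unitK φ (r i)) (hr i)) :=
      ⟨_, coord_smul (he j) hVj _⟩
    have hu' : ∀ x : (U i ⊓ U j : X.Opens), toFF (U i ⊓ U j) x.1 x.2 u =
        (unitK φ (r j) : X.functionField) * ((unitK φ (r i))⁻¹ : (X.functionField)ˣ) := by
      intro x
      have h1 := congrFun (congrArg val hu) x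
      simp only [val_smul, val_res, val_genSec] at h1
      rw [← h1, mul_comm (unitK φ (r j) : X.functionField), mul_assoc, Units.inv_mul, mul_one]
    refine ⟨φ ⁻¹ᵁ (U i ⊓ U j), preimage_mono φ hVi, preimage_mono φ hVj, fun x hx => hx,
      (φ.app (U i ⊓ U j)).hom u, ?_, ?_⟩
    · intro y'
      have hξ : φ.base (genericPoint Y) ∈ U i ⊓ U j := generic_mem (φ ⁻¹ᵁ (U i ⊓ U j)) y'.2
      have h2 : X.presheaf.germ (U i ⊓ U j) (φ.base (genericPoint Y)) hξ u =
          ((r j * (r i)⁻¹ : (X.presheaf.stalk (φ.base (genericPoint Y)))ˣ) :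
            X.presheaf.stalk (φ.base (genericPoint Y))) := by
        apply algebraMap_stalk_injective
        have h3 := hu' ⟨_, hξ⟩
        rw [toFF_apply] at h3
        rw [h3, ← unitK_inv, ← Units.val_mul, ← unitK_mul]
        rfl
      rw [toFF_app, h2, ← unitPull_inv, ← Units.val_mul, ← unitPull_mul]
      rfl
    · calc res _ (preimage_mono φ hVi) (pbSec φ (OD D.1) (U i) _)
          = pbSec φ (OD D.1) (U i ⊓ U j) (res (OD D.1) hVi _) := (pbSec_rs φ (OD D.1) hVi _).symm
        _ = pbSec φ (OD D.1) (U i ⊓ U j) (u • res (OD D.1) hVj _) := by rw [hu]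
        _ = (φ.app (U i ⊓ U j)).hom u • pbSec φ (OD D.1) (U i ⊓ U j) (res (OD D.1) hVj _) :=
          pbSec_smul φ (OD D.1) (U i ⊓ U j) u _
        _ = _ := congrArg _ (pbSec_rs φ (OD D.1) hVj _)

end Pullback

/-! ### The bridge statement -/

/-- **M3, the bridge** (`helper154.Stmt_Bridge`). -/
theorem stmt_Bridge : Stmt_Bridge.{u} :=
  ⟨fun _ _ D => OD D.1, fun _ _ D => isInvertible_OD D, fun _ _ => nonempty_iso_unit_OD_one,
    fun _ _ D h => principal_of_iso_unit D h,
    fun _ _ _ _ φ D E h => nonempty_pullback_iso φ D E h⟩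

end Fermat.Agent.S26.helper3135
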