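/-
S26, module M0-DEG (board row 1570; route #2694 (0) / #2746 M0 + D1), helper2550.

FIBRE COUNT = RANK = GENERIC DEGREE for a finite etale morphism.

Main results (`K` separably closed, `S = Spec K`):
* `natCard_algHom_eq_finrank_of_etale` : a finite etale `K`-algebra `B` has `dim_K B` points.
* `natCard_fibre_eq_finrank` (DEG-b) : for `φ : X ⟶ Y` finite etale and a `K`-point `y` of `Y`,
  the number of `K`-points `x` of `X` with `x ≫ φ = y` is `φ.finrank (y z)`.
* `finrank_eq_of_preconnected` (DEG-a), `surjective_of_finite_etale`.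
* `finrank_fromSpec_eq` : the rank of `φ` read off on an affine open of the target.
* `finrank_fractionRing_eq_rankAtStalk`, `isSeparable_fractionRing_of_etale`,
  `finite_fractionRing_of_finite` (DEG-c, algebra form).
* `functionField_finite_separable_finrank`, `functionFieldMap`, `functionFieldMap_germ`,
  `functionFieldMap_finite_separable_finrank` (DEG-c, scheme form).
* on the frozen S26 data: `isTorsionPoint_id_iff`, `torsionEquivFibre`,
  `natCard_torsion_eq_finrank`, `exists_nsmul_eq`, `natCard_torsion_eq_finrank_functionField`,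
  `schemeNsmul_genericPoint`.
* `germ_functionFieldMap`, `functionFieldMap_comp`, `finite_separable_finrank_comp` (tower law
  for field maps given as ring homs), and the packaged input of the sandwich lemma (SW):
  `finite_separable_finrank_comp_schemeNsmul` (deg([n] o s) = #A[n](K) * deg(s), separably).
-/
import Mathlib
import Fermat.Prelude.Def_JacJ1Iface
import Fermat.Prelude.Def_GoodReductionJacobian_RelativeGroupLawKernel

set_option autoImplicit false

open CategoryTheory AlgebraicGeometry Limits NeronModelInfra GoodReductionJacobian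

universe u

namespace Fermat.Agent.S26.helper2550

section Algebra

variable (K : Type*) [Field K]

/-- K-algebra maps `K^I → K` for finite `I` are the evaluations. -/
theorem exists_eq_eval_of_algHom_pi {I : Type*} [Finite I] (φ : (I → K) →ₐ[K] K) :
    ∃ i : I, ∀ f : I → K, φ f = f i := by
  classical
  cases nonempty_fintype I
  have h1 : (∑ i : I, (Pi.single i (1 : K) : I → K)) = 1 := by
    ext k
    simp [Finset.sum_apply, Pi.single_apply]
  have hsum : ∑ i : I, φ (Pi.single i 1) = 1 := by
    rw [← map_sum, h1]
    exact map_one φ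
  obtain ⟨i, hi⟩ : ∃ i : I, φ (Pi.single i 1) ≠ 0 := by
    by_contra h
    simp only [ne_eq, not_exists, not_not] at h
    simp [h] at hsum
  refine ⟨i, fun f => ?_⟩
  have hidem : ∀ j : I, j ≠ i → φ (Pi.single j 1) = 0 := by
    intro j hj
    have hz : (Pi.single j (1 : K) : I → K) * Pi.single i 1 = 0 := by
      ext k
      simp only [Pi.mul_apply, Pi.single_apply, Pi.zero_apply]
      split_ifs with h1 h2
      · exact absurd (h1.symm.trans h2) hj
      · simp
      · simp
      · simp
    have h0 : φ (Pi.single j 1) * φ (Pi.single i 1) = 0 := by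
      rw [← map_mul, hz, map_zero]
    exact (mul_eq_zero.mp h0).resolve_right hi
  have hi1 : φ (Pi.single i 1) = 1 := by
    have h := hsum
    rwa [Finset.sum_eq_single i (fun j _ hj => hidem j hj) (by simp)] at h
  have hf : f = ∑ j : I, f j • (Pi.single j (1 : K) : I → K) := by
    ext k
    simp [Finset.sum_apply, Pi.single_apply]
  conv_lhs => rw [hf]
  rw [map_sum, Finset.sum_eq_single i]
  · rw [map_smul, hi1, smul_eq_mul, mul_one]
  · intro j _ hj
    rw [map_smul, hidem j hj, smul_zero]
  · simp

theorem natCard_algHom_pi (I : Type*) [Finite I] :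
    Nat.card ((I → K) →ₐ[K] K) = Nat.card I := by
  classical
  refine Nat.card_congr (Equiv.ofBijective (fun φ => (exists_eq_eval_of_algHom_pi K φ).choose) ⟨?_, ?_⟩)
  · intro φ ψ h
    ext f
    rw [(exists_eq_eval_of_algHom_pi K φ).choose_spec f, (exists_eq_eval_of_algHom_pi K ψ).choose_spec f]
    simp only at h
    rw [h]
  · intro i
    refine ⟨Pi.evalAlgHom K (fun _ => K) i, ?_⟩
    have h := (exists_eq_eval_of_algHom_pi K (Pi.evalAlgHom K (fun _ : I => K) i)).choose_spec
      (Pi.single i 1)
    by_contra hne
    rw [Pi.evalAlgHom_apply, Pi.single_eq_same, Pi.single_apply, if_neg hne] at h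
    exact one_ne_zero h

/-- **(DEG-alg1)** A finite étale algebra `B` over a separably closed field `K` has exactly
`dim_K B` algebra maps to `K`. -/
theorem natCard_algHom_eq_finrank_of_etale [IsSepClosed K] (B : Type*) [CommRing B] [Algebra K B]
    [Algebra.Etale K B] : Nat.card (B →ₐ[K] K) = Module.finrank K B := by
  have : Algebra.EssFiniteType K B := inferInstance
  have hfin := Algebra.FormallyUnramified.finite_of_free K B
  let e := Algebra.FormallyEtale.equivPiOfIsSepClosed K B
  have : Finite (PrimeSpectrum B) := by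
    have : IsArtinianRing B := isArtinian_of_tower K inferInstance
    infer_instance
  cases nonempty_fintype (PrimeSpectrum B)
  rw [e.toLinearEquiv.finrank_eq, Module.finrank_pi, ← Nat.card_eq_fintype_card,
    ← natCard_algHom_pi K (PrimeSpectrum B)]
  exact Nat.card_congr
      { toFun := fun φ => φ.comp e.symm.toAlgHom
        invFun := fun ψ => ψ.comp e.toAlgHom
        left_inv := fun φ => by ext; simp
        right_inv := fun ψ => by ext; simp }

end Algebra


section Scheme

variable {K : Type u} [Field K] [IsSepClosed K]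

/-- Sections of `Spec B → Spec K` for a finite étale `K`-algebra `B`. -/
theorem natCard_sections_SpecMap {B : CommRingCat.{u}} (ψ : CommRingCat.of K ⟶ B)
    (hfin : ψ.hom.Finite) (het : ψ.hom.Etale) (z : ↥(Spec (CommRingCat.of K))) :
    Nat.card {s : Spec (CommRingCat.of K) ⟶ Spec B // s ≫ Spec.map ψ = 𝟙 _} =
      (Spec.map ψ).finrank z := by
  have hflat : ψ.hom.Flat := (RingHom.Etale.iff_flat_and_formallyUnramified.mp het).1
  have h1 : (Spec.map ψ).finrank = ψ.hom.finrank :=
    Scheme.Hom.finrank_SpecMap_eq_finrank hfin hflat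
  algebraize [ψ.hom]
  have h2 : ψ.hom.finrank = Module.rankAtStalk (R := K) B := by
    rw [← RingHom.algebraMap_toAlgebra ψ.hom]
    exact RingHom.finrank_algebraMap
  have h3 : Module.rankAtStalk (R := K) B = (Module.finrank K B : PrimeSpectrum K → ℕ) :=
    Module.rankAtStalk_eq_finrank_of_free
  have h4 : (Spec.map ψ).finrank z = Module.finrank K B := by
    rw [h1, h2, h3]
    rfl
  have : Algebra.Etale K B := inferInstanceAs (Algebra.Etale (CommRingCat.of K) B)
  rw [h4, ← natCard_algHom_eq_finrank_of_etale K B]
  refine Nat.card_congr ?_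
  exact
  { toFun := fun s =>
      { toRingHom := (Spec.preimage s.1).hom
        commutes' := fun r => by
          have h : s.1 ≫ Spec.map ψ = 𝟙 _ := s.2
          have h2 : Spec.map (ψ ≫ Spec.preimage s.1) = Spec.map (𝟙 _) := by
            rw [Spec.map_comp, Spec.map_preimage, Spec.map_id]
            exact h
          have h' := Spec.map_injective h2
          exact congrArg (fun g => g.hom r) h' }
    invFun := fun σ => ⟨Spec.map (CommRingCat.ofHom σ.toRingHom), by
        rw [← Spec.map_comp, ← Spec.map_id]
        congr 1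
        ext r
        exact σ.commutes r⟩
    left_inv := fun s => by
      apply Subtype.ext
      simp [Spec.map_preimage]
    right_inv := fun σ => by
      ext r
      simp [Spec.preimage_map] }


/-- Sections of a finite étale `F → Spec K`, `K` separably closed: exactly `rank` many. -/
theorem natCard_sections_of_finite_etale {F : Scheme.{u}} (p : F ⟶ Spec (CommRingCat.of K))
    [IsFinite p] [Etale p] (z : ↥(Spec (CommRingCat.of K))) :
    Nat.card {s : Spec (CommRingCat.of K) ⟶ F // s ≫ p = 𝟙 _} = p.finrank z := by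
  have : IsAffine F := isAffine_of_isAffineHom p
  let ψ := Spec.preimage (F.isoSpec.inv ≫ p)
  have hψ : Spec.map ψ = F.isoSpec.inv ≫ p := Spec.map_preimage _
  have hp : p = F.isoSpec.hom ≫ Spec.map ψ := by rw [hψ]; simp
  have i1 : IsFinite (Spec.map ψ) := by rw [hψ]; infer_instance
  have i2 : Etale (Spec.map ψ) := by rw [hψ]; infer_instance
  have hfin : ψ.hom.Finite := (IsFinite.SpecMap_iff ψ).mp i1
  have het : ψ.hom.Etale := (HasRingHomProperty.Spec_iff (P := @Etale)).mp i2
  have hrk : p.finrank z = (Spec.map ψ).finrank z := by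
    conv_lhs => rw [hp]
    rw [Scheme.Hom.finrank_comp_left_of_isIso]
  rw [hrk, ← natCard_sections_SpecMap ψ hfin het z]
  refine Nat.card_congr ?_
  exact
  { toFun := fun s => ⟨s.1 ≫ F.isoSpec.hom, by
      rw [Category.assoc, ← hp]; exact s.2⟩
    invFun := fun s => ⟨s.1 ≫ F.isoSpec.inv, by
      rw [hp, Category.assoc, Iso.inv_hom_id_assoc]; exact s.2⟩
    left_inv := fun s => Subtype.ext (by simp)
    right_inv := fun s => Subtype.ext (by simp) }

/-- **(DEG-b)** The number of `K`-points in the fibre of a finite étale morphism over a `K`-point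
is the rank of the morphism there. -/
theorem natCard_fibre_eq_finrank {X Y : Scheme.{u}} (φ : X ⟶ Y) [IsFinite φ] [Etale φ]
    (y : Spec (CommRingCat.of K) ⟶ Y) (z : ↥(Spec (CommRingCat.of K))) :
    Nat.card {x : Spec (CommRingCat.of K) ⟶ X // x ≫ φ = y} = φ.finrank (y z) := by
  rw [← Scheme.Hom.finrank_pullback_snd φ y z,
    ← natCard_sections_of_finite_etale (pullback.snd φ y) z]
  refine Nat.card_congr ?_
  exact
  { toFun := fun x => ⟨pullback.lift x.1 (𝟙 _) (by rw [x.2, Category.id_comp]),
      pullback.lift_snd _ _ _⟩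
    invFun := fun s => ⟨s.1 ≫ pullback.fst φ y, by
      rw [Category.assoc, pullback.condition, ← Category.assoc, s.2, Category.id_comp]⟩
    left_inv := fun x => Subtype.ext (pullback.lift_fst _ _ _)
    right_inv := fun s => Subtype.ext (by
      apply pullback.hom_ext
      · exact pullback.lift_fst _ _ _
      · exact (pullback.lift_snd _ _ _).trans s.2.symm) }

/-- **(DEG-a)** The rank of a finite étale morphism onto a connected scheme is constant. -/
theorem finrank_eq_of_preconnected {X Y : Scheme.{u}} (φ : X ⟶ Y) [IsFinite φ] [Etale φ]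
    [PreconnectedSpace Y] (y y' : Y) : φ.finrank y = φ.finrank y' :=
  (Scheme.Hom.isLocallyConstant_finrank φ).apply_eq_of_preconnectedSpace y y'

end Scheme


section GenericDegree

open scoped nonZeroDivisors


variable (A B KA KB : Type*) [CommRing A] [IsDomain A] [CommRing B] [IsDomain B] [Algebra A B]
  [Module.Finite A B] [Field KA] [Field KB] [Algebra A KA] [IsFractionRing A KA]
  [Algebra B KB] [IsFractionRing B KB] [Algebra KA KB] [Algebra A KB] [IsScalarTower A KA KB]
  [IsScalarTower A B KB]

include B in
theorem finite_fractionRing_of_finite (hinj : Function.Injective (algebraMap A B)) :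
    Module.Finite KA KB := by
  have : FaithfulSMul A B := (faithfulSMul_iff_algebraMap_injective A B).mpr hinj
  have : Algebra.IsAlgebraic A B := Algebra.IsIntegral.isAlgebraic
  exact Module.Finite.of_isLocalization A B A⁰

include B in
/-- generic degree = rank at any prime, for a finite flat extension of domains -/
theorem finrank_fractionRing_eq_rankAtStalk [Module.Flat A B]
    (hinj : Function.Injective (algebraMap A B)) (p : PrimeSpectrum A) :
    Module.finrank KA KB = Module.rankAtStalk B p := by
  have : FaithfulSMul A B := (faithfulSMul_iff_algebraMap_injective A B).mpr hinj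
  have : Algebra.IsAlgebraic A B := Algebra.IsIntegral.isAlgebraic
  have hbc : IsBaseChange KA (IsScalarTower.toAlgHom A B KB).toLinearMap :=
    Algebra.IsAlgebraic.isBaseChange_of_isFractionRing A B KA KB
  have h1 := Module.rankAtStalk_isBaseChange hbc (⊥ : PrimeSpectrum KA)
  have h2 : Module.rankAtStalk (R := KA) KB = (Module.finrank KA KB : PrimeSpectrum KA → ℕ) :=
    Module.rankAtStalk_eq_finrank_of_free
  rw [h2] at h1
  have h3 : (PrimeSpectrum.comap (algebraMap A KA)) (⊥ : PrimeSpectrum KA) ≤ p := by
    rw [← PrimeSpectrum.asIdeal_le_asIdeal]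
    intro x hx
    have hx0 : algebraMap A KA x = 0 := by simpa using hx
    have hx1 : x = 0 := (IsFractionRing.injective A KA) (by rw [hx0, map_zero])
    rw [hx1]
    exact zero_mem _
  rw [← Module.rankAtStalk_eq_of_le_of_finite_of_flat B h3, ← h1]
  rfl

include B in
theorem isSeparable_fractionRing_of_etale [Algebra.Etale A B]
    (hinj : Function.Injective (algebraMap A B)) :
    Algebra.IsSeparable KA KB := by
  have hfin := finite_fractionRing_of_finite A B KA KB hinj
  have h1 : Algebra.FormallyEtale B KB := Algebra.FormallyEtale.of_isLocalization B⁰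
  have h2 : Algebra.FormallyEtale A KB := Algebra.FormallyEtale.comp A B KB
  have h3 : Algebra.FormallyEtale KA KB := Algebra.FormallyEtale.localization_base A⁰
  exact (Algebra.FormallyEtale.iff_isSeparable KA KB).mp h3

end GenericDegree


section SchemeGeneric

variable {X Y : Scheme.{u}} (φ : X ⟶ Y)

/-- A finite étale morphism from a nonempty scheme onto a connected scheme is surjective. -/
theorem surjective_of_finite_etale [IsFinite φ] [Etale φ] [PreconnectedSpace Y] [Nonempty X] :
    Surjective φ := by
  rw [← Scheme.Hom.one_le_finrank_iff_surjective]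
  intro y
  obtain ⟨x⟩ := ‹Nonempty X›
  rw [finrank_eq_of_preconnected φ y (φ x)]
  exact Scheme.Hom.one_le_finrank_map φ x

theorem app_finite [IsFinite φ] {V : Y.Opens} (hV : IsAffineOpen V) :
    (φ.app V).hom.Finite := Scheme.Hom.finite_app φ V hV

theorem app_etale [IsAffineHom φ] [Etale φ] {V : Y.Opens} (hV : IsAffineOpen V) :
    (φ.app V).hom.Etale := by
  rw [Scheme.Hom.app_eq_appLE]
  exact HasRingHomProperty.appLE @Etale φ inferInstance ⟨V, hV⟩ ⟨φ ⁻¹ᵁ V, hV.preimage φ⟩ le_rfl

/-- The rank of a finite étale morphism, read off on an affine open of the target. -/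
theorem finrank_fromSpec_eq [IsFinite φ] [Etale φ] {V : Y.Opens} (hV : IsAffineOpen V)
    (v : ↥(Spec Γ(Y, V))) :
    φ.finrank (hV.fromSpec v) = (φ.app V).hom.finrank v := by
  have hU : IsAffineOpen (φ ⁻¹ᵁ V) := hV.preimage φ
  have hsq : Spec.map (φ.appLE V (φ ⁻¹ᵁ V) le_rfl) ≫ hV.fromSpec = hU.fromSpec ≫ φ :=
    IsAffineOpen.SpecMap_appLE_fromSpec φ hV hU le_rfl
  have hpb : IsPullback (Spec.map (φ.appLE V (φ ⁻¹ᵁ V) le_rfl)) hU.fromSpec hV.fromSpec φ :=
    IsOpenImmersion.isPullback _ _ _ _ hsq.symm (by
      rw [IsAffineOpen.opensRange_fromSpec, IsAffineOpen.opensRange_fromSpec])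
  have h := Scheme.Hom.finrank_of_isPullback _ _ _ _ hpb.flip v
  rw [← h, ← Scheme.Hom.app_eq_appLE,
    Scheme.Hom.finrank_SpecMap_eq_finrank (app_finite φ hV)
      (RingHom.Etale.iff_flat_and_formallyUnramified.mp (app_etale φ hV)).1]

/-- **(DEG-c)** Generic degree of a finite étale morphism of integral schemes: for ANY ring map
`ι : K(Y) → K(X)` compatible with `φ` on one nonempty affine open `V` of `Y`, the extension
`K(X)/K(Y)` is finite separable of degree `φ.finrank y` (any `y`). -/
theorem functionField_finite_separable_finrank [IsFinite φ] [Etale φ] [IsIntegral X] [IsIntegral Y]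
    {V : Y.Opens} (hV : IsAffineOpen V) [Nonempty V] [Nonempty (φ ⁻¹ᵁ V)]
    (ι : Y.functionField →+* X.functionField)
    (hι : ∀ s : Γ(Y, V),
      ι (Y.germToFunctionField V s) = X.germToFunctionField (φ ⁻¹ᵁ V) (φ.app V s)) (y : Y) :
    letI := ι.toAlgebra
    Module.Finite Y.functionField X.functionField ∧
      Algebra.IsSeparable Y.functionField X.functionField ∧
      Module.finrank Y.functionField X.functionField = φ.finrank y := by
  let _ := ι.toAlgebra
  have hU : IsAffineOpen (φ ⁻¹ᵁ V) := hV.preimage φ
  let algAB : Algebra Γ(Y, V) Γ(X, φ ⁻¹ᵁ V) := (φ.app V).hom.toAlgebra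
  have : IsFractionRing Γ(Y, V) Y.functionField :=
    functionField_isFractionRing_of_isAffineOpen Y V hV
  have : IsFractionRing Γ(X, φ ⁻¹ᵁ V) X.functionField :=
    functionField_isFractionRing_of_isAffineOpen X (φ ⁻¹ᵁ V) hU
  let _ : Algebra Γ(Y, V) X.functionField :=
    ((algebraMap Γ(X, φ ⁻¹ᵁ V) X.functionField).comp (algebraMap Γ(Y, V) Γ(X, φ ⁻¹ᵁ V))).toAlgebra
  have : IsScalarTower Γ(Y, V) Γ(X, φ ⁻¹ᵁ V) X.functionField :=
    IsScalarTower.of_algebraMap_eq (fun _ => rfl)
  have : IsScalarTower Γ(Y, V) Y.functionField X.functionField :=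
    IsScalarTower.of_algebraMap_eq (fun s => (hι s).symm)
  have : Module.Finite Γ(Y, V) Γ(X, φ ⁻¹ᵁ V) := app_finite φ hV
  have : Algebra.Etale Γ(Y, V) Γ(X, φ ⁻¹ᵁ V) := RingHom.etale_algebraMap.mp (app_etale φ hV)
  have hinj : Function.Injective (algebraMap Γ(Y, V) Γ(X, φ ⁻¹ᵁ V)) := by
    rw [injective_iff_map_eq_zero]
    intro s hs
    have h1 : ι (Y.germToFunctionField V s) = 0 := by
      rw [hι s]
      have : (φ.app V) s = 0 := hs
      rw [this, map_zero]
    have h2 : Y.germToFunctionField V s = 0 := (map_eq_zero ι).mp h1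
    exact (Y.germToFunctionField_injective V) (by rw [h2, map_zero])
  refine ⟨finite_fractionRing_of_finite Γ(Y, V) Γ(X, φ ⁻¹ᵁ V) _ _ hinj,
    isSeparable_fractionRing_of_etale Γ(Y, V) Γ(X, φ ⁻¹ᵁ V) _ _ hinj, ?_⟩
  let v : ↥(Spec Γ(Y, V)) := (⊥ : PrimeSpectrum Γ(Y, V))
  rw [finrank_eq_of_preconnected φ y (hV.fromSpec v), finrank_fromSpec_eq φ hV v,
    finrank_fractionRing_eq_rankAtStalk Γ(Y, V) Γ(X, φ ⁻¹ᵁ V) _ _ hinj v]
  exact (congrFun RingHom.finrank_algebraMap v).symm

/-- A surjective morphism of irreducible schemes sends the generic point to the generic point. -/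
theorem map_genericPoint_of_surjective [IrreducibleSpace X] [IrreducibleSpace Y]
    [Surjective φ] : φ (genericPoint X) = genericPoint Y := by
  have h := (genericPoint_spec X).image φ.continuous
  rw [Set.image_univ, (φ.surjective).range_eq, closure_univ] at h
  exact h.eq (genericPoint_spec Y)

/-- The map on function fields induced by a morphism that sends the generic point to the
generic point (stalk map at the generic point). -/
noncomputable def functionFieldMap [IrreducibleSpace X] [IrreducibleSpace Y]
    (h : φ (genericPoint X) = genericPoint Y) : Y.functionField ⟶ X.functionField :=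
  Y.presheaf.stalkSpecializes (specializes_of_eq h) ≫ φ.stalkMap (genericPoint X)

theorem functionFieldMap_germ [IrreducibleSpace X] [IrreducibleSpace Y]
    (h : φ (genericPoint X) = genericPoint Y) (V : Y.Opens) [Nonempty V] [Nonempty (φ ⁻¹ᵁ V)]
    (s : Γ(Y, V)) :
    functionFieldMap φ h (Y.germToFunctionField V s) =
      X.germToFunctionField (φ ⁻¹ᵁ V) (φ.app V s) := by
  have hmem : genericPoint Y ∈ V :=
    ((genericPoint_spec Y).mem_open_set_iff V.isOpen).mpr (by simpa using ‹Nonempty V›)
  have hmem' : φ (genericPoint X) ∈ V := h ▸ hmem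
  have e1 : Y.presheaf.germ V (genericPoint Y) hmem ≫
      Y.presheaf.stalkSpecializes (specializes_of_eq h) =
      Y.presheaf.germ V (φ (genericPoint X)) hmem' :=
    TopCat.Presheaf.germ_stalkSpecializes _ _ _
  have e2 := Scheme.Hom.germ_stalkMap φ V (genericPoint X) hmem'
  have e3 : Y.germToFunctionField V ≫ functionFieldMap φ h =
      φ.app V ≫ X.germToFunctionField (φ ⁻¹ᵁ V) := by
    unfold functionFieldMap Scheme.germToFunctionField
    rw [← Category.assoc, e1, e2]
  exact congrArg (fun g => g.hom s) e3

/-- **(DEG-c), packaged**: for a finite étale morphism of integral schemes, the stalk map at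
the generic point makes `K(X)` a finite separable extension of `K(Y)` of degree `φ.finrank y`. -/
theorem functionFieldMap_finite_separable_finrank [IsFinite φ] [Etale φ] [IsIntegral X]
    [IsIntegral Y] (h : φ (genericPoint X) = genericPoint Y) (y : Y) :
    letI := (functionFieldMap φ h).hom.toAlgebra
    Module.Finite Y.functionField X.functionField ∧
      Algebra.IsSeparable Y.functionField X.functionField ∧
      Module.finrank Y.functionField X.functionField = φ.finrank y := by
  obtain ⟨V, hV, hyV, -⟩ := exists_isAffineOpen_mem_and_subset (x := φ (genericPoint X))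
    (U := ⊤) (by simp)
  have : Nonempty V := ⟨⟨_, hyV⟩⟩
  have : Nonempty (φ ⁻¹ᵁ V) := ⟨⟨genericPoint X, hyV⟩⟩
  exact functionField_finite_separable_finrank φ hV (functionFieldMap φ h).hom
    (fun s => functionFieldMap_germ φ h V s) y

end SchemeGeneric


section Frozen

variable {R : Type u} [CommRing R] {A : Scheme.{u}} {f : A ⟶ Spec (CommRingCat.of R)}

/-- On points over the base itself, `nsmul` is composition with the scheme map `[n]`. -/
theorem nsmul_id_coe (L : RelativeGroupLaw R f) (n : ℕ)
    (x : SchemeHomOver (𝟙 (Spec (CommRingCat.of R))) f) :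
    (L.nsmul (𝟙 _) n x).1 = x.1 ≫ L.schemeNsmul n := by
  have h := L.nsmul_natural f (𝟙 _) x.1 x.2 n RelativeGroupLaw.idPoint
  have hx : schemeHomOverComp x.1 x.2 (RelativeGroupLaw.idPoint (f := f)) = x :=
    Subtype.ext (Category.comp_id _)
  rw [hx] at h
  rw [← h]
  rfl

theorem isTorsionPoint_id_iff (L : RelativeGroupLaw R f) (n : ℕ)
    (x : SchemeHomOver (𝟙 (Spec (CommRingCat.of R))) f) :
    L.IsTorsionPoint (𝟙 _) n x ↔ x.1 ≫ L.schemeNsmul n = (L.one (𝟙 _)).1 := by
  rw [← nsmul_id_coe]
  exact ⟨fun h => congrArg Subtype.val h, fun h => Subtype.ext h⟩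

/-- The frozen torsion subtype is the set of base-points of the fibre of `[n]` over the unit. -/
def torsionEquivFibre (L : RelativeGroupLaw R f) (n : ℕ) :
    {x : SchemeHomOver (𝟙 (Spec (CommRingCat.of R))) f // L.IsTorsionPoint (𝟙 _) n x} ≃
      {x : Spec (CommRingCat.of R) ⟶ A // x ≫ L.schemeNsmul n = (L.one (𝟙 _)).1} where
  toFun x := ⟨x.1.1, (isTorsionPoint_id_iff L n x.1).mp x.2⟩
  invFun x := ⟨⟨x.1, by
      calc x.1 ≫ f = x.1 ≫ (L.schemeNsmul n ≫ f) := by rw [L.schemeNsmul_over]
        _ = (x.1 ≫ L.schemeNsmul n) ≫ f := (Category.assoc _ _ _).symm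
        _ = (L.one (𝟙 _)).1 ≫ f := by rw [x.2]
        _ = 𝟙 _ := (L.one (𝟙 _)).2⟩, (isTorsionPoint_id_iff L n _).mpr x.2⟩
  left_inv x := rfl
  right_inv x := rfl

end Frozen

section FrozenField

variable {K : Type u} [Field K] [IsSepClosed K] {A : Scheme.{u}} {f : A ⟶ Spec (CommRingCat.of K)}

/-- **(DEG-frozen)** -/
theorem natCard_torsion_eq_finrank_one (L : RelativeGroupLaw K f) (n : ℕ)
    [IsFinite (L.schemeNsmul n)] [Etale (L.schemeNsmul n)] (z : ↥(Spec (CommRingCat.of K))) :
    Nat.card {x : SchemeHomOver (𝟙 (Spec (CommRingCat.of K))) f //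
        L.IsTorsionPoint (𝟙 (Spec (CommRingCat.of K))) n x} =
      (L.schemeNsmul n).finrank ((L.one (𝟙 _)).1 z) := by
  rw [Nat.card_congr (torsionEquivFibre L n)]
  exact natCard_fibre_eq_finrank (L.schemeNsmul n) (L.one (𝟙 _)).1 z

omit [IsSepClosed K] in
theorem preconnectedSpace_of_bundle (hA : AbelianSchemePropertyBundle K f) :
    PreconnectedSpace A := by
  have z : ↥(Spec (CommRingCat.of K)) := (⊥ : PrimeSpectrum K)
  have h := hA.connectedFibres z
  have huniv : f.base ⁻¹' {z} = Set.univ := by
    ext a
    simp only [Set.mem_preimage, Set.mem_singleton_iff, Set.mem_univ, iff_true]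
    exact Subsingleton.elim (α := PrimeSpectrum K) _ _
  rw [huniv] at h
  exact ⟨h.isPreconnected⟩

theorem natCard_torsion_eq_finrank (L : RelativeGroupLaw K f) (hA : AbelianSchemePropertyBundle K f)
    (n : ℕ) [IsFinite (L.schemeNsmul n)] [Etale (L.schemeNsmul n)] (a : A) :
    Nat.card {x : SchemeHomOver (𝟙 (Spec (CommRingCat.of K))) f //
        L.IsTorsionPoint (𝟙 (Spec (CommRingCat.of K))) n x} =
      (L.schemeNsmul n).finrank a := by
  have := preconnectedSpace_of_bundle hA
  rw [natCard_torsion_eq_finrank_one L n (⊥ : PrimeSpectrum K)]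
  exact finrank_eq_of_preconnected _ _ _

omit [IsSepClosed K] in
theorem nonempty_of_bundle (hA : AbelianSchemePropertyBundle K f) : Nonempty A := by
  have z : ↥(Spec (CommRingCat.of K)) := (⊥ : PrimeSpectrum K)
  obtain ⟨a, -⟩ := (hA.connectedFibres z).nonempty
  exact ⟨a⟩

/-- **Divisibility of the group of `K`-points**: every `K`-point is `n` times a `K`-point
(as soon as `[n]` is finite étale). -/
theorem exists_nsmul_eq (L : RelativeGroupLaw K f) (hA : AbelianSchemePropertyBundle K f)
    (n : ℕ) [IsFinite (L.schemeNsmul n)] [Etale (L.schemeNsmul n)]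
    (y : SchemeHomOver (𝟙 (Spec (CommRingCat.of K))) f) :
    ∃ x : SchemeHomOver (𝟙 (Spec (CommRingCat.of K))) f, L.nsmul (𝟙 _) n x = y := by
  have := preconnectedSpace_of_bundle hA
  have := nonempty_of_bundle hA
  have hsurj : Surjective (L.schemeNsmul n) := surjective_of_finite_etale _
  let z : ↥(Spec (CommRingCat.of K)) := (⊥ : PrimeSpectrum K)
  have hcard := natCard_fibre_eq_finrank (L.schemeNsmul n) y.1 z
  have hpos : 1 ≤ (L.schemeNsmul n).finrank (y.1 z) :=
    (Scheme.Hom.one_le_finrank_iff_surjective (L.schemeNsmul n)).mpr hsurj (y.1 z)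
  have hne : Nat.card {x : Spec (CommRingCat.of K) ⟶ A // x ≫ L.schemeNsmul n = y.1} ≠ 0 := by
    omega
  obtain ⟨⟨x, hx⟩⟩ := (Nat.card_ne_zero.mp hne).1
  have hxf : x ≫ f = 𝟙 _ := by
    calc x ≫ f = x ≫ (L.schemeNsmul n ≫ f) := by rw [L.schemeNsmul_over]
      _ = (x ≫ L.schemeNsmul n) ≫ f := (Category.assoc _ _ _).symm
      _ = y.1 ≫ f := by rw [hx]
      _ = 𝟙 _ := y.2
  refine ⟨⟨x, hxf⟩, Subtype.ext ?_⟩
  rw [nsmul_id_coe]
  exact hx

/-- **deg [n] = #A[n](K), separably**: on the frozen data, the stalk map of `[n]` at the generic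
point makes `K(A)` a finite separable extension of itself of degree the number of `n`-torsion
`K`-points. (The algebra structure is written out explicitly because source and target
coincide.) -/
theorem natCard_torsion_eq_finrank_functionField (L : RelativeGroupLaw K f)
    (hA : AbelianSchemePropertyBundle K f) (n : ℕ) [IsFinite (L.schemeNsmul n)]
    [Etale (L.schemeNsmul n)] [IsIntegral A]
    (h : (L.schemeNsmul n) (genericPoint A) = genericPoint A) :
    @Module.Finite A.functionField A.functionField _ _
        (functionFieldMap (L.schemeNsmul n) h).hom.toAlgebra.toModule ∧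
      @Algebra.IsSeparable A.functionField A.functionField _ _
        (functionFieldMap (L.schemeNsmul n) h).hom.toAlgebra ∧
      @Module.finrank A.functionField A.functionField _ _
        (functionFieldMap (L.schemeNsmul n) h).hom.toAlgebra.toModule =
        Nat.card {x : SchemeHomOver (𝟙 (Spec (CommRingCat.of K))) f //
          L.IsTorsionPoint (𝟙 (Spec (CommRingCat.of K))) n x} := by
  have h1 := functionFieldMap_finite_separable_finrank (L.schemeNsmul n) h (genericPoint A)
  rw [natCard_torsion_eq_finrank L hA n (genericPoint A)]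
  exact h1

omit [IsSepClosed K] in
/-- `[n]` preserves the generic point (finite étale case). -/
theorem schemeNsmul_genericPoint (L : RelativeGroupLaw K f)
    (hA : AbelianSchemePropertyBundle K f) (n : ℕ) [IsFinite (L.schemeNsmul n)]
    [Etale (L.schemeNsmul n)] [IsIntegral A] :
    (L.schemeNsmul n) (genericPoint A) = genericPoint A := by
  have := preconnectedSpace_of_bundle hA
  have hsurj : Surjective (L.schemeNsmul n) := surjective_of_finite_etale _
  exact map_genericPoint_of_surjective _

end FrozenField

section Comp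

variable {X Y Z : Scheme.{u}} (φ : X ⟶ Y)

/-- `functionFieldMap` on germs (no `Nonempty` instances). -/
theorem germ_functionFieldMap [IrreducibleSpace X] [IrreducibleSpace Y]
    (h : φ (genericPoint X) = genericPoint Y) (W : Y.Opens) (hW : genericPoint Y ∈ W) :
    Y.presheaf.germ W (genericPoint Y) hW ≫ functionFieldMap φ h =
      φ.app W ≫ X.presheaf.germ (φ ⁻¹ᵁ W) (genericPoint X) (show φ (genericPoint X) ∈ W from h ▸ hW) := by
  have hmem' : φ (genericPoint X) ∈ W := h ▸ hW
  have e1 : Y.presheaf.germ W (genericPoint Y) hW ≫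
      Y.presheaf.stalkSpecializes (specializes_of_eq h) =
      Y.presheaf.germ W (φ (genericPoint X)) hmem' :=
    TopCat.Presheaf.germ_stalkSpecializes _ _ _
  have e2 := Scheme.Hom.germ_stalkMap φ W (genericPoint X) hmem'
  unfold functionFieldMap
  rw [← Category.assoc, e1, e2]

/-- Functoriality of `functionFieldMap`. -/
theorem functionFieldMap_comp [IrreducibleSpace X] [IrreducibleSpace Y] [IrreducibleSpace Z]
    (ψ : Y ⟶ Z) (h1 : φ (genericPoint X) = genericPoint Y)
    (h2 : ψ (genericPoint Y) = genericPoint Z)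
    (h3 : (φ ≫ ψ) (genericPoint X) = genericPoint Z) :
    functionFieldMap (φ ≫ ψ) h3 = functionFieldMap ψ h2 ≫ functionFieldMap φ h1 := by
  refine TopCat.Presheaf.stalk_hom_ext _ (fun W hW => ?_)
  rw [germ_functionFieldMap (φ ≫ ψ) h3 W hW, ← Category.assoc, germ_functionFieldMap ψ h2 W hW,
    Category.assoc, germ_functionFieldMap φ h1 (ψ ⁻¹ᵁ W) (show ψ (genericPoint Y) ∈ W from h2 ▸ hW)]
  rfl

end Comp

section Tower

variable {F E L : Type*} [Field F] [Field E] [Field L]

/-- Tower law for field maps given as ring homomorphisms (finite, separable, degree). -/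
theorem finite_separable_finrank_comp (ι₁ : F →+* E) (ι₂ : E →+* L) (d₁ d₂ : ℕ)
    (H₁ : letI := ι₁.toAlgebra
      Module.Finite F E ∧ Algebra.IsSeparable F E ∧ Module.finrank F E = d₁)
    (H₂ : letI := ι₂.toAlgebra
      Module.Finite E L ∧ Algebra.IsSeparable E L ∧ Module.finrank E L = d₂) :
    letI := (ι₂.comp ι₁).toAlgebra
    Module.Finite F L ∧ Algebra.IsSeparable F L ∧ Module.finrank F L = d₁ * d₂ := by
  let _ := ι₁.toAlgebra
  let _ := ι₂.toAlgebra
  let _ := (ι₂.comp ι₁).toAlgebra
  have : IsScalarTower F E L := IsScalarTower.of_algebraMap_eq (fun _ => rfl)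
  obtain ⟨f1, s1, r1⟩ := H₁
  obtain ⟨f2, s2, r2⟩ := H₂
  refine ⟨Module.Finite.trans E L, Algebra.IsSeparable.trans F E L, ?_⟩
  rw [← r1, ← r2, Module.finrank_mul_finrank]

end Tower

section FrozenComp

variable {K : Type u} [Field K] [IsSepClosed K] {A : Scheme.{u}} {f : A ⟶ Spec (CommRingCat.of K)}

/-- **deg([n] ∘ s) = #A[n](K) · deg(s), separably** — the input of the sandwich lemma (SW) for
`ψ = [n] ∘ s` (route #2746 D1): if `s : X ⟶ A` is generically finite separable of degree `dl`
(on function fields, via the stalk map at the generic point), then so is `s ≫ [n]`, of degree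
`#A[n](K) * dl`. -/
theorem finite_separable_finrank_comp_schemeNsmul (L : RelativeGroupLaw K f)
    (hA : AbelianSchemePropertyBundle K f) (n : ℕ) [IsFinite (L.schemeNsmul n)]
    [Etale (L.schemeNsmul n)] [IsIntegral A] {X : Scheme.{u}} [IsIntegral X] (s : X ⟶ A)
    (hs : s (genericPoint X) = genericPoint A) (dl : ℕ)
    (H : letI := (functionFieldMap s hs).hom.toAlgebra
      Module.Finite A.functionField X.functionField ∧
        Algebra.IsSeparable A.functionField X.functionField ∧
        Module.finrank A.functionField X.functionField = dl) :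
    ∃ h' : (s ≫ L.schemeNsmul n) (genericPoint X) = genericPoint A,
      letI := (functionFieldMap (s ≫ L.schemeNsmul n) h').hom.toAlgebra
      Module.Finite A.functionField X.functionField ∧
        Algebra.IsSeparable A.functionField X.functionField ∧
        Module.finrank A.functionField X.functionField =
          Nat.card {x : SchemeHomOver (𝟙 (Spec (CommRingCat.of K))) f //
            L.IsTorsionPoint (𝟙 (Spec (CommRingCat.of K))) n x} * dl := by
  have hn := schemeNsmul_genericPoint L hA n
  have h' : (s ≫ L.schemeNsmul n) (genericPoint X) = genericPoint A := by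
    rw [Scheme.Hom.comp_apply, hs, hn]
  refine ⟨h', ?_⟩
  have e : (functionFieldMap (s ≫ L.schemeNsmul n) h').hom =
      (functionFieldMap s hs).hom.comp (functionFieldMap (L.schemeNsmul n) hn).hom := by
    rw [functionFieldMap_comp s (L.schemeNsmul n) hs hn h']
    rfl
  rw [e]
  exact finite_separable_finrank_comp _ _ _ _
    (natCard_torsion_eq_finrank_functionField L hA n hn) H

end FrozenComp

end Fermat.Agent.S26.helper2550
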