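import Fermat.Agent.S26.helper154_Spec2

/-!
# S26, module M0-DEG (helper2569): degree = fibre count for finite étale morphisms

* `natCard_lifts_eq_finrank`: for `φ : X ⟶ Y` finite étale and a geometric point
  `y : Spec K ⟶ Y` (`K` separably closed), the number of lifts of `y` is `φ.finrank (y z)`.
* `isSeparable_and_finite_of_etale`, `finrank_fractionRing_eq_rankAtStalk`: algebra cores.
* `isDom_of_flat`, `funFieldHom_germ`: dominance and the function-field map in charts
  (vocabulary of `helper154_Spec`).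
* `exists_isSepDom_of_etale`: an étale morphism of integral schemes is `IsSepDom`.
* `isSepDom_finrank_of_finite_etale`: a finite étale morphism of integral schemes is
  `IsSepDom φ (φ.finrank x)` for every point `x`.
* `isSepDom_natCard_lifts`: ... of degree the number of lifts of any geometric point.
-/

set_option autoImplicit false
set_option linter.style.haveILetI false

open CategoryTheory CategoryTheory.Limits AlgebraicGeometry

universe u

noncomputable section

namespace Fermat.Agent.S26.helper2569

theorem natCard_algHom_eq_finrank_of_isFiniteSplit (K B : Type*) [Field K] [CommRing B] [Algebra K B]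
    [Algebra.IsFiniteSplit K B] :
    Nat.card (B →ₐ[K] K) = Module.finrank K B := by
  obtain ⟨n, ⟨e⟩⟩ := Algebra.IsFiniteSplit.nonempty_algEquiv_fun K B
  rw [e.toLinearEquiv.finrank_eq, Module.finrank_fin_fun]
  rw [Nat.card_congr (Algebra.IsFiniteSplit.algHomEquivPrimeSpectrum K B)]
  rw [Nat.card_congr (PrimeSpectrum.comapEquiv e.toRingEquiv).toEquiv]
  rw [← Nat.card_congr (Equiv.ofBijective _ (PrimeSpectrum.sigmaToPi_bijective (fun _ : Fin n => K)))]
  rw [Nat.card_sigma]
  simp

/-- Sections of `Spec B → Spec K` correspond to `K`-algebra maps `B → K`. -/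
noncomputable def sectionsSpecEquivAlgHom (K : Type u) [Field K] (B : CommRingCat.{u})
    (ψ : CommRingCat.of K ⟶ B) :
    letI : Algebra K B := ψ.hom.toAlgebra
    {s : Spec (CommRingCat.of K) ⟶ Spec B // s ≫ Spec.map ψ = 𝟙 _} ≃ (B →ₐ[K] K) :=
  letI : Algebra K B := ψ.hom.toAlgebra
  { toFun := fun s =>
      { toRingHom := (Spec.preimage s.1).hom
        commutes' := fun r => by
          have h : ψ ≫ Spec.preimage s.1 = 𝟙 _ := by
            apply Spec.map_injective
            rw [Spec.map_comp, Spec.map_preimage, s.2, Spec.map_id]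
          exact congrArg (fun (t : CommRingCat.of K ⟶ CommRingCat.of K) => t.hom r) h }
    invFun := fun σ => ⟨Spec.map (CommRingCat.ofHom σ.toRingHom), by
      rw [← Spec.map_comp, ← Spec.map_id]
      congr 1
      ext r
      exact σ.commutes r⟩
    left_inv := fun s => by
      apply Subtype.ext
      simp
    right_inv := fun σ => by
      ext b
      simp }

/-- Affine case: sections of a finite étale `Spec B → Spec K`, `K` separably closed, are counted
by the rank. -/
theorem natCard_sections_SpecMap (K : Type u) [Field K] [IsSepClosed K] (B : CommRingCat.{u})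
    (ψ : CommRingCat.of K ⟶ B) [IsFinite (Spec.map ψ)] [Etale (Spec.map ψ)]
    (z : Spec (CommRingCat.of K)) :
    Nat.card {s : Spec (CommRingCat.of K) ⟶ Spec B // s ≫ Spec.map ψ = 𝟙 _} =
      (Spec.map ψ).finrank z := by
  have hfin : ψ.hom.Finite := (IsFinite.SpecMap_iff ψ).mp inferInstance
  have het : ψ.hom.Etale := (HasRingHomProperty.Spec_iff (P := @Etale)).mp inferInstance
  have hflat : ψ.hom.Flat := Flat.SpecMap_iff.mp inferInstance
  rw [Scheme.Hom.finrank_SpecMap_eq_finrank hfin hflat]
  algebraize [ψ.hom]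
  rw [Nat.card_congr (sectionsSpecEquivAlgHom K B ψ)]
  rw [natCard_algHom_eq_finrank_of_isFiniteSplit K B]
  rw [← RingHom.algebraMap_toAlgebra ψ.hom, RingHom.finrank_algebraMap,
    Module.rankAtStalk_eq_finrank_of_free]
  rfl

/-- Sections of a finite étale `P → Spec K`, `K` separably closed, are counted by the rank. -/
theorem natCard_sections_eq_finrank (K : Type u) [Field K] [IsSepClosed K] {P : Scheme.{u}}
    (π : P ⟶ Spec (CommRingCat.of K)) [IsFinite π] [Etale π] (z : Spec (CommRingCat.of K)) :
    Nat.card {s : Spec (CommRingCat.of K) ⟶ P // s ≫ π = 𝟙 _} = π.finrank z := by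
  have : IsAffine P := isAffine_of_isAffineHom π
  obtain ⟨ψ, hψ⟩ := Spec.map_surjective (P.isoSpec.inv ≫ π)
  have h1 : IsFinite (Spec.map ψ) := hψ ▸ inferInstance
  have h2 : Etale (Spec.map ψ) := hψ ▸ inferInstance
  rw [← Scheme.Hom.finrank_comp_left_of_isIso P.isoSpec.inv π, ← hψ,
    ← natCard_sections_SpecMap K _ ψ z]
  apply Nat.card_congr
  exact
    { toFun := fun s => ⟨s.1 ≫ P.isoSpec.hom, by rw [hψ]; simp [s.2]⟩
      invFun := fun s => ⟨s.1 ≫ P.isoSpec.inv, by
        rw [Category.assoc, ← hψ]
        exact s.2⟩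
      left_inv := fun s => by simp
      right_inv := fun s => by simp }

/-- **Fibre count.** For a finite étale morphism `φ : X ⟶ Y` and a geometric point
`y : Spec K ⟶ Y` with `K` separably closed, the number of lifts of `y` to `X` is the rank of `φ`
at the image of `y`. -/
theorem natCard_lifts_eq_finrank (K : Type u) [Field K] [IsSepClosed K] {X Y : Scheme.{u}}
    (φ : X ⟶ Y) [IsFinite φ] [Etale φ] (y : Spec (CommRingCat.of K) ⟶ Y)
    (z : Spec (CommRingCat.of K)) :
    Nat.card {x : Spec (CommRingCat.of K) ⟶ X // x ≫ φ = y} = φ.finrank (y z) := by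
  rw [← Scheme.Hom.finrank_pullback_snd φ y z, ← natCard_sections_eq_finrank K (pullback.snd φ y) z]
  apply Nat.card_congr
  exact
    { toFun := fun x => ⟨pullback.lift x.1 (𝟙 _) (by rw [x.2, Category.id_comp]),
        pullback.lift_snd _ _ _⟩
      invFun := fun s => ⟨s.1 ≫ pullback.fst φ y, by
        rw [Category.assoc, pullback.condition, ← Category.assoc, s.2, Category.id_comp]⟩
      left_inv := fun x => Subtype.ext (pullback.lift_fst _ _ _)
      right_inv := fun s => by
        apply Subtype.ext
        apply pullback.hom_ext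
        · exact pullback.lift_fst _ _ _
        · exact (pullback.lift_snd _ _ _).trans s.2.symm }


/-! ### Algebra cores -/

/-- **Generic étaleness, algebra core.** If `B` is an étale `A`-algebra and both are domains,
then `Frac B` is a finite separable extension of `Frac A`. -/
theorem isSeparable_and_finite_of_etale
    (A B F E : Type*) [CommRing A] [IsDomain A] [CommRing B] [IsDomain B] [Algebra A B]
    [Algebra.Etale A B] [Field F] [Field E] [Algebra A F] [IsFractionRing A F]
    [Algebra B E] [IsFractionRing B E] [Algebra F E] [Algebra A E] [IsScalarTower A F E]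
    [IsScalarTower A B E] :
    Algebra.IsSeparable F E ∧ Module.Finite F E := by
  have h1 : Algebra.FormallyEtale B E := Algebra.FormallyEtale.of_isLocalization (nonZeroDivisors B)
  have h2 : Algebra.FormallyEtale A E := Algebra.FormallyEtale.comp A B E
  have h3 : Algebra.FormallyEtale F E := Algebra.FormallyEtale.localization_base (nonZeroDivisors A)
  have h4 : Algebra.EssFiniteType B E := Algebra.EssFiniteType.of_isLocalization E (nonZeroDivisors B)
  have h5 : Algebra.EssFiniteType A E := Algebra.EssFiniteType.comp A B E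
  have h6 : Algebra.EssFiniteType F E := Algebra.EssFiniteType.of_comp A F E
  exact ⟨(Algebra.FormallyEtale.iff_isSeparable F E).mp h3,
    Algebra.FormallyUnramified.finite_of_free F E⟩

/-- **Generic degree, algebra core.** If `B` is a finite flat `A`-algebra, `A` a domain, then the
degree of `Frac B` over `Frac A` is the rank of `B` at any prime of `A`. -/
theorem finrank_fractionRing_eq_rankAtStalk
    (A B F E : Type*) [CommRing A] [IsDomain A] [CommRing B] [Algebra A B]
    [Module.Finite A B] [Module.Flat A B] [CommRing F] [CommRing E] [Algebra A F] [IsFractionRing A F]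
    [Algebra B E] [IsFractionRing B E] [Algebra F E] [Algebra A E] [IsScalarTower A F E]
    [IsScalarTower A B E] (p : PrimeSpectrum A) :
    Module.finrank F E = Module.rankAtStalk (R := A) B p := by
  rw [IsFractionRing.finrank_eq A F B E]
  have := p.isPrime
  rw [← Ideal.finrank_fiber_eq_finrank (M := B) p.asIdeal, Ideal.finrank_fiber_eq_rankAtStalk]

/-! ### Dominance and the function-field map in charts -/

open Fermat.Agent.S26.helper154

section FunField

variable {Y X : Scheme.{u}} [IsIntegral Y] [IsIntegral X]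

/-- A flat morphism of integral schemes is dominant. -/
theorem isDom_of_flat (φ : Y ⟶ X) [Flat φ] : IsDom φ := by
  obtain ⟨y', hy', hφ⟩ := Flat.generalizingMap φ (a := genericPoint Y) (b := genericPoint X)
    ((genericPoint_spec X).specializes trivial)
  have h : y' = genericPoint Y :=
    (hy'.antisymm ((genericPoint_spec Y).specializes trivial)).eq
  rw [h] at hφ
  exact hφ

/-- The function-field map of a dominant morphism, computed on sections. -/
theorem funFieldHom_germ (φ : Y ⟶ X) (h : IsDom φ) (V : X.Opens) (U : Y.Opens)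
    [Nonempty V] [Nonempty U] (e : U ≤ φ ⁻¹ᵁ V) (a : Γ(X, V)) :
    funFieldHom φ h (X.germToFunctionField V a) = Y.germToFunctionField U (φ.appLE V U e a) := by
  have hV : genericPoint X ∈ V :=
    ((genericPoint_spec X).mem_open_set_iff V.isOpen).mpr (by simpa using ‹Nonempty V›)
  have hU : genericPoint Y ∈ U :=
    ((genericPoint_spec Y).mem_open_set_iff U.isOpen).mpr (by simpa using ‹Nonempty U›)
  have hφV : φ.base (genericPoint Y) ∈ V := e hU
  have h1 : (X.presheaf.stalkSpecializes (specializes_of_eq h)).hom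
      (X.presheaf.germ V (genericPoint X) hV a) =
      X.presheaf.germ V (φ.base (genericPoint Y)) hφV a :=
    TopCat.Presheaf.germ_stalkSpecializes_apply X.presheaf hV (specializes_of_eq h) a
  have h2 : (φ.stalkMap (genericPoint Y)).hom (X.presheaf.germ V (φ.base (genericPoint Y)) hφV a) =
      Y.presheaf.germ (φ ⁻¹ᵁ V) (genericPoint Y) hφV (φ.app V a) :=
    Scheme.Hom.germ_stalkMap_apply φ V (genericPoint Y) hφV a
  have h3 : Y.presheaf.germ U (genericPoint Y) hU (φ.appLE V U e a) =
      Y.presheaf.germ (φ ⁻¹ᵁ V) (genericPoint Y) hφV (φ.app V a) :=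
    TopCat.Presheaf.germ_res_apply Y.presheaf (homOfLE e) (genericPoint Y) hU (φ.app V a)
  show (φ.stalkMap (genericPoint Y)).hom ((X.presheaf.stalkSpecializes (specializes_of_eq h)).hom
      (X.presheaf.germ V (genericPoint X) hV a)) = Y.presheaf.germ U (genericPoint Y) hU (φ.appLE V U e a)
  rw [h1, h2, h3]

/-- One étale chart gives separability and finiteness of the function-field extension. -/
theorem isSeparable_and_finite_of_chart (φ : Y ⟶ X) (h : IsDom φ) (V : X.Opens) (U : Y.Opens)
    (hV : IsAffineOpen V) (hU : IsAffineOpen U) [Nonempty V] [Nonempty U] (e : U ≤ φ ⁻¹ᵁ V)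
    (het : (φ.appLE V U e).hom.Etale) :
    letI := (funFieldHom φ h).toAlgebra
    Algebra.IsSeparable X.functionField Y.functionField ∧
      Module.Finite X.functionField Y.functionField := by
  letI := (funFieldHom φ h).toAlgebra
  letI : Algebra Γ(X, V) Γ(Y, U) := (φ.appLE V U e).hom.toAlgebra
  haveI : Algebra.Etale Γ(X, V) Γ(Y, U) := het
  haveI := functionField_isFractionRing_of_isAffineOpen X V hV
  haveI := functionField_isFractionRing_of_isAffineOpen Y U hU
  letI : Algebra Γ(X, V) Y.functionField :=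
    ((algebraMap X.functionField Y.functionField).comp
      (algebraMap Γ(X, V) X.functionField)).toAlgebra
  haveI : IsScalarTower Γ(X, V) X.functionField Y.functionField :=
    IsScalarTower.of_algebraMap_eq (fun _ => rfl)
  haveI : IsScalarTower Γ(X, V) Γ(Y, U) Y.functionField :=
    IsScalarTower.of_algebraMap_eq (fun a => funFieldHom_germ φ h V U e a)
  exact isSeparable_and_finite_of_etale Γ(X, V) Γ(Y, U) X.functionField Y.functionField

/-- Affine opens around a point, inside a given open. -/
theorem exists_isAffineOpen_mem_le (Z : Scheme.{u}) (W : Z.Opens) (z : Z) (hz : z ∈ W) :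
    ∃ U : Z.Opens, IsAffineOpen U ∧ z ∈ U ∧ U ≤ W := by
  obtain ⟨U, hU, hzU, hUW⟩ := TopologicalSpace.Opens.isBasis_iff_nbhd.mp Z.isBasis_affineOpens hz
  exact ⟨U, hU, hzU, hUW⟩

/-- **An étale morphism of integral schemes is dominant, with finite separable function-field
extension.** -/
theorem exists_isSepDom_of_etale (φ : Y ⟶ X) [Etale φ] : ∃ δ : ℕ, 0 < δ ∧ IsSepDom φ δ := by
  have h := isDom_of_flat φ
  obtain ⟨V, hV, hxV, -⟩ := exists_isAffineOpen_mem_le X ⊤ (genericPoint X) trivial
  have hyV : genericPoint Y ∈ φ ⁻¹ᵁ V := by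
    show φ.base (genericPoint Y) ∈ V
    rw [h]; exact hxV
  obtain ⟨U, hU, hyU, hUV⟩ := exists_isAffineOpen_mem_le Y (φ ⁻¹ᵁ V) (genericPoint Y) hyV
  haveI : Nonempty V := ⟨⟨_, hxV⟩⟩
  haveI : Nonempty U := ⟨⟨_, hyU⟩⟩
  obtain ⟨hsep, hfin⟩ := isSeparable_and_finite_of_chart φ h V U hV hU hUV (φ.etale_appLE hV hU hUV)
  letI := (funFieldHom φ h).toAlgebra
  exact ⟨_, Module.finrank_pos (R := X.functionField) (M := Y.functionField), h, hsep, hfin, rfl⟩

/-- One finite flat chart computes the degree of the function-field extension as a rank. -/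
theorem finrank_eq_of_chart (φ : Y ⟶ X) (h : IsDom φ) (V : X.Opens) (U : Y.Opens)
    (hV : IsAffineOpen V) (hU : IsAffineOpen U) [Nonempty V] [Nonempty U] (e : U ≤ φ ⁻¹ᵁ V)
    (hfin : (φ.appLE V U e).hom.Finite) (hflat : (φ.appLE V U e).hom.Flat)
    (p : PrimeSpectrum Γ(X, V)) :
    letI := (funFieldHom φ h).toAlgebra
    Module.finrank X.functionField Y.functionField = (φ.appLE V U e).hom.finrank p := by
  letI := (funFieldHom φ h).toAlgebra
  letI : Algebra Γ(X, V) Γ(Y, U) := (φ.appLE V U e).hom.toAlgebra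
  haveI : Module.Finite Γ(X, V) Γ(Y, U) := hfin
  haveI : Module.Flat Γ(X, V) Γ(Y, U) := hflat
  haveI := functionField_isFractionRing_of_isAffineOpen X V hV
  haveI := functionField_isFractionRing_of_isAffineOpen Y U hU
  letI : Algebra Γ(X, V) Y.functionField :=
    ((algebraMap X.functionField Y.functionField).comp
      (algebraMap Γ(X, V) X.functionField)).toAlgebra
  haveI : IsScalarTower Γ(X, V) X.functionField Y.functionField :=
    IsScalarTower.of_algebraMap_eq (fun _ => rfl)
  haveI : IsScalarTower Γ(X, V) Γ(Y, U) Y.functionField :=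
    IsScalarTower.of_algebraMap_eq (fun a => funFieldHom_germ φ h V U e a)
  exact finrank_fractionRing_eq_rankAtStalk Γ(X, V) Γ(Y, U) X.functionField Y.functionField p

/-- The rank of a finite flat morphism at a point of an affine open, as the rank of the
corresponding ring map at some prime. -/
theorem exists_finrank_eq_ringHom_finrank {Y X : Scheme.{u}} (φ : Y ⟶ X) [Flat φ] [IsFinite φ]
    (V : X.Opens) (hV : IsAffineOpen V) (x : X) (hx : x ∈ V) :
    ∃ p : PrimeSpectrum Γ(X, V), φ.finrank x = (φ.appLE V (φ ⁻¹ᵁ V) le_rfl).hom.finrank p := by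
  have hU : IsAffineOpen (φ ⁻¹ᵁ V) := hV.preimage φ
  have hpb : IsPullback (Spec.map (φ.appLE V (φ ⁻¹ᵁ V) le_rfl)) hU.fromSpec hV.fromSpec φ :=
    IsOpenImmersion.isPullback _ _ _ _ (IsAffineOpen.SpecMap_appLE_fromSpec φ hV hU le_rfl).symm
      (by rw [hV.opensRange_fromSpec, hU.opensRange_fromSpec])
  obtain ⟨p, hp⟩ : ∃ p, hV.fromSpec p = x := by
    have : x ∈ Set.range hV.fromSpec := by rw [hV.range_fromSpec]; exact hx
    exact this
  have hfin : (φ.appLE V (φ ⁻¹ᵁ V) le_rfl).hom.Finite := by
    rw [Scheme.Hom.appLE_eq_app]; exact φ.finite_app V hV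
  have hflat : (φ.appLE V (φ ⁻¹ᵁ V) le_rfl).hom.Flat := φ.flat_appLE hV hU le_rfl
  refine ⟨p, ?_⟩
  rw [← hp, ← Scheme.Hom.finrank_of_isPullback _ _ _ _ hpb.flip p,
    Scheme.Hom.finrank_SpecMap_eq_finrank hfin hflat]

/-- **A finite étale morphism of integral schemes is dominant with finite separable
function-field extension of degree its rank (at any point).** -/
theorem isSepDom_finrank_of_finite_etale (φ : Y ⟶ X) [IsFinite φ] [Etale φ] (x : X) :
    IsSepDom φ (φ.finrank x) := by
  have h := isDom_of_flat φ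
  obtain ⟨V, hV, hxV, -⟩ := exists_isAffineOpen_mem_le X ⊤ x trivial
  have hU : IsAffineOpen (φ ⁻¹ᵁ V) := hV.preimage φ
  haveI : Nonempty V := ⟨⟨_, hxV⟩⟩
  have hgV : genericPoint X ∈ V :=
    ((genericPoint_spec X).mem_open_set_iff V.isOpen).mpr (by simpa using ‹Nonempty V›)
  have hyU : genericPoint Y ∈ φ ⁻¹ᵁ V := by
    show φ.base (genericPoint Y) ∈ V
    rw [h]; exact hgV
  haveI : Nonempty (φ ⁻¹ᵁ V : Y.Opens) := ⟨⟨_, hyU⟩⟩
  obtain ⟨hsep, hfin⟩ :=
    isSeparable_and_finite_of_chart φ h V _ hV hU le_rfl (φ.etale_appLE hV hU le_rfl)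
  obtain ⟨p, hp⟩ := exists_finrank_eq_ringHom_finrank φ V hV x hxV
  have hfin' : (φ.appLE V (φ ⁻¹ᵁ V) le_rfl).hom.Finite := by
    rw [Scheme.Hom.appLE_eq_app]; exact φ.finite_app V hV
  refine ⟨h, hsep, hfin, ?_⟩
  rw [hp]
  exact finrank_eq_of_chart φ h V _ hV hU le_rfl hfin' (φ.flat_appLE hV hU le_rfl) p

/-- **Degree = fibre count.** For a finite étale morphism `φ : Y ⟶ X` of integral schemes and a
geometric point `x : Spec K ⟶ X`, `K` separably closed, `φ` is `IsSepDom` of degree the number of
lifts of `x` to `Y`. -/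
theorem isSepDom_natCard_lifts (K : Type u) [Field K] [IsSepClosed K] (φ : Y ⟶ X) [IsFinite φ]
    [Etale φ] (x : Spec (CommRingCat.of K) ⟶ X) :
    IsSepDom φ (Nat.card {y : Spec (CommRingCat.of K) ⟶ Y // y ≫ φ = x}) := by
  rw [natCard_lifts_eq_finrank K φ x (IsLocalRing.closedPoint K)]
  exact isSepDom_finrank_of_finite_etale φ _

end FunField

/-! ### The frozen data: `[n]` on a group scheme -/

section Frozen

open GoodReductionJacobian NeronModelInfra

variable {K : Type u} [Field K] {A : Scheme.{u}} {f : A ⟶ Spec (CommRingCat.of K)}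

/-- A `K`-point `x` is `n`-torsion iff `x ≫ [n]` is the unit section. -/
theorem isTorsionPoint_iff_comp_schemeNsmul (L : RelativeGroupLaw K f) (n : ℕ)
    (x : SchemeHomOver (𝟙 (Spec (CommRingCat.of K))) f) :
    L.IsTorsionPoint (𝟙 _) n x ↔ x.1 ≫ L.schemeNsmul n = (L.one (𝟙 _)).1 := by
  have h1 : schemeHomOverComp x.1 x.2 (RelativeGroupLaw.idPoint (f := f)) = x :=
    Subtype.ext (Category.comp_id _)
  have h2 : L.nsmul (𝟙 _) n x = schemeHomOverComp x.1 x.2 (L.nsmul f n RelativeGroupLaw.idPoint) := by
    rw [L.nsmul_natural f (𝟙 _) x.1 x.2 n RelativeGroupLaw.idPoint, h1]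
  have h3 : (L.nsmul (𝟙 _) n x).1 = x.1 ≫ L.schemeNsmul n := by rw [h2]; rfl
  rw [← h3]
  exact ⟨fun h => congrArg Subtype.val h, fun h => Subtype.ext h⟩

/-- The frozen torsion subtype is the set of lifts of the unit section along `[n]`. -/
def torsionEquivLifts (L : RelativeGroupLaw K f) (n : ℕ) :
    {x : SchemeHomOver (𝟙 (Spec (CommRingCat.of K))) f // L.IsTorsionPoint (𝟙 _) n x} ≃
      {y : Spec (CommRingCat.of K) ⟶ A // y ≫ L.schemeNsmul n = (L.one (𝟙 _)).1} where
  toFun x := ⟨x.1.1, (isTorsionPoint_iff_comp_schemeNsmul L n x.1).mp x.2⟩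
  invFun y := ⟨⟨y.1, by
      calc y.1 ≫ f = y.1 ≫ (L.schemeNsmul n ≫ f) := by rw [L.schemeNsmul_over n]
        _ = (y.1 ≫ L.schemeNsmul n) ≫ f := (Category.assoc _ _ _).symm
        _ = (L.one (𝟙 _)).1 ≫ f := by rw [y.2]
        _ = 𝟙 _ := (L.one (𝟙 _)).2⟩,
    (isTorsionPoint_iff_comp_schemeNsmul L n _).mpr y.2⟩
  left_inv _ := rfl
  right_inv _ := rfl

/-- **M0-DEG on the frozen data.** If `A` is integral and `[n]` is finite étale, then `[n]` is
dominant and `K(A) / [n]^* K(A)` is finite separable of degree the number of `n`-torsion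
`K`-points (`K` separably closed, e.g. algebraically closed). -/
theorem isSepDom_schemeNsmul [IsSepClosed K] [IsIntegral A] (L : RelativeGroupLaw K f) (n : ℕ)
    [IsFinite (L.schemeNsmul n)] [Etale (L.schemeNsmul n)] :
    helper154.IsSepDom (L.schemeNsmul n)
      (Nat.card {x : SchemeHomOver (𝟙 (Spec (CommRingCat.of K))) f //
        L.IsTorsionPoint (𝟙 _) n x}) := by
  rw [Nat.card_congr (torsionEquivLifts L n)]
  exact isSepDom_natCard_lifts K (L.schemeNsmul n) _

/-- The number of `n`-torsion `K`-points is the rank of `[n]` at every point of `A`. -/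
theorem natCard_torsion_eq_finrank [IsSepClosed K] (L : RelativeGroupLaw K f) (n : ℕ)
    [IsFinite (L.schemeNsmul n)] [Etale (L.schemeNsmul n)] :
    Nat.card {x : SchemeHomOver (𝟙 (Spec (CommRingCat.of K))) f // L.IsTorsionPoint (𝟙 _) n x} =
      (L.schemeNsmul n).finrank ((L.one (𝟙 _)).1 (IsLocalRing.closedPoint K)) := by
  rw [Nat.card_congr (torsionEquivLifts L n)]
  exact natCard_lifts_eq_finrank K (L.schemeNsmul n) _ _

/-- An étale morphism is locally quasi-finite. -/
theorem locallyQuasiFinite_of_etale {Y X : Scheme.{u}} (φ : Y ⟶ X) [Etale φ] :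
    LocallyQuasiFinite φ where
  quasiFinite_appLE := fun {U} hU {V} hV e => by
    have h := φ.etale_appLE hU hV e
    letI : Algebra Γ(X, U) Γ(Y, V) := (φ.appLE U V e).hom.toAlgebra
    haveI : Algebra.Etale Γ(X, U) Γ(Y, V) := h
    show Algebra.QuasiFinite Γ(X, U) Γ(Y, V)
    infer_instance

/-- An étale endomorphism over a proper base is finite. -/
theorem isFinite_of_etale_of_isProper {A S : Scheme.{u}} (f : A ⟶ S) [IsProper f] (φ : A ⟶ A)
    (hφ : φ ≫ f = f) [Etale φ] : IsFinite φ := by
  haveI : IsProper (φ ≫ f) := by rw [hφ]; infer_instance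
  haveI : IsProper φ := IsProper.of_comp φ f
  haveI := locallyQuasiFinite_of_etale φ
  exact IsFinite.of_isProper_of_locallyQuasiFinite φ

/-- M0-ETALE as a `Prop` (the input of `stmt_NsmulDeg`): `[n]` is étale for `n` invertible. -/
def Stmt_NsmulEtale : Prop :=
  ∀ (K : Type u) [Field K] {A : Scheme.{u}} (f : A ⟶ Spec (CommRingCat.of K))
    (L : RelativeGroupLaw K f) (g : ℕ), helper154.IsAbVar K f L g →
    ∀ n : ℕ, (n : K) ≠ 0 → Etale (L.schemeNsmul n)

/-- **M0-DEG: `Stmt_NsmulDeg` of the Spec from étaleness of `[n]`.** -/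
theorem stmt_NsmulDeg (h : Stmt_NsmulEtale.{u}) : helper154.Stmt_NsmulDeg.{u} := by
  intro K _ A f L g _ hAb n hn
  haveI := hAb.algClosed
  haveI : Etale (L.schemeNsmul n) := h K f L g hAb n hn
  haveI : IsProper f := hAb.bundle.proper
  haveI : IsFinite (L.schemeNsmul n) :=
    isFinite_of_etale_of_isProper f (L.schemeNsmul n) (L.schemeNsmul_over n)
  exact isSepDom_schemeNsmul L n

end Frozen

end Fermat.Agent.S26.helper2569
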