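import Fermat.Agent.S26.helper154_Spec2
import Fermat.Agent.S26.helper2966_TorsionGroup
import Fermat.Agent.S26.helper2550_FibreCount
import Fermat.Agent.S26.helper2569_Degree

/-!
# S26, module M0-GRP: the Spec deliverable `Stmt_TorsPow` (helper2966)

`d(n ^ k) = d(n) ^ k` for the number `d(n)` of `n`-torsion `K`-points of an abelian variety,
`n` invertible in `K`.  Pure group theory (`helper2966_TorsionGroup`) once the group `A(K)` is
`n`-divisible; divisibility is a corollary of "`[n]` is finite étale" (module M0-ETALE) through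
`helper2550.exists_nsmul_eq`.  Everything is hypothesis-passing:

* `Stmt_NsmulFiniteEtale` : the output of M0-ETALE as a `Prop` on the Spec vocabulary;
* `Stmt_Divisible`        : `A(K)` is `n`-divisible for `n` invertible in `K`;
* `stmt_Divisible_of_finiteEtale : Stmt_NsmulFiniteEtale → Stmt_Divisible`;
* `stmt_TorsPow_of_divisible    : Stmt_Divisible → helper154.Stmt_TorsPow`;
* `stmt_TorsPow                 : Stmt_NsmulFiniteEtale → helper154.Stmt_TorsPow`;
* `torsCard_mul_of_divisible`, `torsCard_mul` : `d(m * n) = d(m) * d(n)` (not needed by the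
  count, exported for other consumers);
* `stmt_NsmulFiniteEtale_of_etale`, `stmt_Divisible_of_etale`, `stmt_TorsPow_of_etale` : the same
  from the ONE M0-ETALE `Prop` of the project, `helper2569.Stmt_NsmulEtale` (étale only; finiteness
  of `[n]` is `helper2569.isFinite_of_etale_of_isProper`).
-/

set_option autoImplicit false

noncomputable section

open CategoryTheory CategoryTheory.Limits AlgebraicGeometry NeronModelInfra GoodReductionJacobian

universe u

namespace Fermat.Agent.S26.helper2966

open Fermat.Agent.S26.helper154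

/-- The output of module M0-ETALE, as a `Prop` on the Spec vocabulary: for `n` invertible in
`K`, multiplication by `n` on an abelian variety is finite and étale. -/
def Stmt_NsmulFiniteEtale : Prop :=
  ∀ (K : Type u) [Field K] {A : Scheme.{u}} (f : A ⟶ Spec (CommRingCat.of K))
    (L : RelativeGroupLaw K f) (g : ℕ), IsAbVar K f L g →
    ∀ n : ℕ, (n : K) ≠ 0 → IsFinite (L.schemeNsmul n) ∧ Etale (L.schemeNsmul n)

/-- The group of `K`-points of an abelian variety is `n`-divisible for `n` invertible in `K`. -/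
def Stmt_Divisible : Prop :=
  ∀ (K : Type u) [Field K] {A : Scheme.{u}} (f : A ⟶ Spec (CommRingCat.of K))
    (L : RelativeGroupLaw K f) (g : ℕ), IsAbVar K f L g →
    ∀ n : ℕ, (n : K) ≠ 0 →
      ∀ y : SchemeHomOver (𝟙 (Spec (CommRingCat.of K))) f,
        ∃ x : SchemeHomOver (𝟙 (Spec (CommRingCat.of K))) f,
          L.nsmul (𝟙 (Spec (CommRingCat.of K))) n x = y

/-- Finite étale `[n]` gives divisibility of `A(K)` (`helper2550.exists_nsmul_eq`). -/
theorem stmt_Divisible_of_finiteEtale (h : Stmt_NsmulFiniteEtale.{u}) : Stmt_Divisible.{u} := by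
  intro K _ A f L g hAb n hn y
  have := hAb.algClosed
  obtain ⟨h1, h2⟩ := h K f L g hAb n hn
  have := h1
  have := h2
  exact Fermat.Agent.S26.helper2550.exists_nsmul_eq L hAb.bundle n y

/-- `d(n ^ k) = d(n) ^ k`, from divisibility. -/
theorem stmt_TorsPow_of_divisible (h : Stmt_Divisible.{u}) : Stmt_TorsPow.{u} := by
  intro K _ A f L g hAb n hn k
  exact natCard_torsion_pow L hAb.comm (𝟙 (Spec (CommRingCat.of K))) n k (h K f L g hAb n hn)

/-- **M0-GRP, Spec deliverable**: `d(n ^ k) = d(n) ^ k`, from "`[n]` is finite étale". -/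
theorem stmt_TorsPow (h : Stmt_NsmulFiniteEtale.{u}) : Stmt_TorsPow.{u} :=
  stmt_TorsPow_of_divisible (stmt_Divisible_of_finiteEtale h)

/-- `d(m * n) = d(m) * d(n)` as soon as `A(K)` is `m`-divisible. -/
theorem torsCard_mul_of_divisible {K : Type u} [Field K] {A : Scheme.{u}}
    {f : A ⟶ Spec (CommRingCat.of K)} (L : RelativeGroupLaw K f) (hc : L.IsCommutative)
    (m n : ℕ)
    (hm : ∀ y : SchemeHomOver (𝟙 (Spec (CommRingCat.of K))) f,
      ∃ x : SchemeHomOver (𝟙 (Spec (CommRingCat.of K))) f,
        L.nsmul (𝟙 (Spec (CommRingCat.of K))) m x = y) :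
    torsCard L (m * n) = torsCard L m * torsCard L n :=
  natCard_torsion_mul L hc (𝟙 (Spec (CommRingCat.of K))) m n hm

/-- `d(m * n) = d(m) * d(n)` on an abelian variety, `m` invertible in `K`. -/
theorem torsCard_mul (h : Stmt_Divisible.{u}) {K : Type u} [Field K] {A : Scheme.{u}}
    {f : A ⟶ Spec (CommRingCat.of K)} (L : RelativeGroupLaw K f) (g : ℕ)
    (hAb : IsAbVar K f L g) (m n : ℕ) (hm : (m : K) ≠ 0) :
    torsCard L (m * n) = torsCard L m * torsCard L n :=
  torsCard_mul_of_divisible L hAb.comm m n (h K f L g hAb m hm)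

/-- Étale `[n]` is finite (`A` is proper): the M0-ETALE `Prop` of `helper2569_Degree` gives
`Stmt_NsmulFiniteEtale`. -/
theorem stmt_NsmulFiniteEtale_of_etale (h : Fermat.Agent.S26.helper2569.Stmt_NsmulEtale.{u}) :
    Stmt_NsmulFiniteEtale.{u} := by
  intro K _ A f L g hAb n hn
  have het : Etale (L.schemeNsmul n) := h K f L g hAb n hn
  have : IsProper f := hAb.bundle.proper
  exact ⟨Fermat.Agent.S26.helper2569.isFinite_of_etale_of_isProper f (L.schemeNsmul n)
    (L.schemeNsmul_over n), het⟩

/-- Divisibility of `A(K)` from the M0-ETALE `Prop` `helper2569.Stmt_NsmulEtale`. -/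
theorem stmt_Divisible_of_etale (h : Fermat.Agent.S26.helper2569.Stmt_NsmulEtale.{u}) :
    Stmt_Divisible.{u} :=
  stmt_Divisible_of_finiteEtale (stmt_NsmulFiniteEtale_of_etale h)

/-- **M0-GRP, Spec deliverable, from the ONE M0-ETALE `Prop`** `helper2569.Stmt_NsmulEtale`:
`d(n ^ k) = d(n) ^ k`. -/
theorem stmt_TorsPow_of_etale (h : Fermat.Agent.S26.helper2569.Stmt_NsmulEtale.{u}) :
    Stmt_TorsPow.{u} :=
  stmt_TorsPow (stmt_NsmulFiniteEtale_of_etale h)

end Fermat.Agent.S26.helper2966

end
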