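/-
S26 / M0-ETALE (backup route, helper355): multiplication by `n` on a smooth commutative group
scheme over a field `K` is étale when `n` is invertible in `K`.

Route: direct infinitesimal lifting on affine charts; the kernel of reduction modulo a square-zero
ideal is handled by functoriality of trivial square-zero extensions (Eckmann–Hilton), with no
cotangent spaces.
-/
import Mathlib
import Fermat.Prelude.Def_JacJ1Iface
import Fermat.Prelude.Def_GoodReductionJacobian_RelativeGroupLawKernel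
import Fermat.Agent.S26.helper2966_TorsionGroup

set_option autoImplicit false
set_option linter.style.haveILetI false

open CategoryTheory AlgebraicGeometry NeronModelInfra GoodReductionJacobian

universe u

namespace Fermat.Agent.S26.helper355


/-- Formal étaleness from unique infinitesimal lifting, phrased with plain ring homomorphisms. -/
theorem formallyEtale_of_unique_lifting {R S : Type u} [CommRing R] [CommRing S] (φ : R →+* S)
    (H : ∀ (B : Type u) [CommRing B] (I : Ideal B), I ^ 2 = ⊥ →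
      ∀ (ρ : R →+* B) (g₀ : S →+* B ⧸ I), g₀.comp φ = (Ideal.Quotient.mk I).comp ρ →
      ∃! g : S →+* B, g.comp φ = ρ ∧ (Ideal.Quotient.mk I).comp g = g₀) :
    φ.FormallyEtale := by
  letI := φ.toAlgebra
  show Algebra.FormallyEtale R S
  rw [Algebra.FormallyEtale.iff_comp_bijective]
  intro B _ _ I hI
  have key : ∀ g : S →ₐ[R] B, g.toRingHom.comp φ = algebraMap R B := by
    intro g
    ext r
    exact g.commutes r
  constructor
  · intro g g' h
    obtain ⟨g1, -, huniq⟩ := H B I hI (algebraMap R B)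
      (((Ideal.Quotient.mkₐ R I).comp g).toRingHom) (by
        ext r
        exact ((Ideal.Quotient.mkₐ R I).comp g).commutes r)
    have e1 : g.toRingHom = g1 := huniq _ ⟨key g, rfl⟩
    have e2 : g'.toRingHom = g1 := huniq _ ⟨key g', by
      have := congrArg AlgHom.toRingHom h
      exact this.symm⟩
    apply AlgHom.coe_ringHom_injective
    exact e1.trans e2.symm
  · intro g₀
    obtain ⟨g, ⟨hg1, hg2⟩, -⟩ := H B I hI (algebraMap R B) g₀.toRingHom (by
      ext r
      exact g₀.commutes r)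
    refine ⟨⟨g, fun r => ?_⟩, ?_⟩
    · exact congrArg (fun h : R →+* B => h r) hg1
    · apply AlgHom.coe_ringHom_injective
      exact hg2

noncomputable section



section Chart

variable {A : Scheme.{u}} {W : A.Opens} (hW : IsAffineOpen W)

/-- The point of `A` with values in `B` attached to a ring homomorphism out of the coordinate
ring of an affine chart. -/
def chartPt {B : Type u} [CommRing B] (ξ : Γ(A, W) →+* B) : Spec (CommRingCat.of B) ⟶ A :=
  Spec.map (CommRingCat.ofHom ξ) ≫ hW.fromSpec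

theorem chartPt_injective {B : Type u} [CommRing B] {ξ ξ' : Γ(A, W) →+* B}
    (h : chartPt hW ξ = chartPt hW ξ') : ξ = ξ' := by
  unfold chartPt at h
  have h1 := (cancel_mono hW.fromSpec).mp h
  have h2 := Spec.map_injective h1
  exact congrArg CommRingCat.Hom.hom h2

theorem specMap_comp_chartPt {B B' : Type u} [CommRing B] [CommRing B'] (θ : B →+* B')
    (ξ : Γ(A, W) →+* B) :
    Spec.map (CommRingCat.ofHom θ) ≫ chartPt hW ξ = chartPt hW (θ.comp ξ) := by
  unfold chartPt
  rw [← Category.assoc, ← Spec.map_comp, ← CommRingCat.ofHom_comp]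

theorem exists_chartPt {B : Type u} [CommRing B] (x : Spec (CommRingCat.of B) ⟶ A)
    (hx : Set.range x ⊆ W) : ∃ ξ : Γ(A, W) →+* B, x = chartPt hW ξ := by
  have hx' : Set.range x ⊆ Set.range hW.fromSpec := by
    rw [hW.range_fromSpec]; exact hx
  refine ⟨(Spec.preimage (IsOpenImmersion.lift hW.fromSpec x hx')).hom, ?_⟩
  unfold chartPt
  rw [CommRingCat.ofHom_hom, Spec.map_preimage, IsOpenImmersion.lift_fac]

theorem range_chartPt_subset {B : Type u} [CommRing B] (ξ : Γ(A, W) →+* B) :
    Set.range (chartPt hW ξ) ⊆ W := by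
  rintro _ ⟨p, rfl⟩
  have : (chartPt hW ξ) p ∈ Set.range hW.fromSpec := ⟨Spec.map (CommRingCat.ofHom ξ) p, rfl⟩
  rwa [hW.range_fromSpec] at this

/-- Compatibility of charts with a morphism. -/
theorem chartPt_comp {A' : Scheme.{u}} (ψ : A ⟶ A') {U : A'.Opens} (hU : IsAffineOpen U)
    (e : W ≤ ψ ⁻¹ᵁ U) {B : Type u} [CommRing B] (ξ : Γ(A, W) →+* B) :
    chartPt hW ξ ≫ ψ = chartPt hU (ξ.comp (ψ.appLE U W e).hom) := by
  unfold chartPt
  rw [Category.assoc, ← hU.SpecMap_appLE_fromSpec ψ hW e, ← Category.assoc, ← Spec.map_comp]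
  rfl

/-- The spectrum of a square-zero quotient map is surjective on points. -/
theorem specMap_surjective_of_sq_zero {B B' : Type u} [CommRing B] [CommRing B'] (ψ : B →+* B')
    (hψ : Function.Surjective ψ) (hker : ∀ b, ψ b = 0 → b ^ 2 = 0)
    (p : Spec (CommRingCat.of B)) : ∃ q : Spec (CommRingCat.of B'),
      Spec.map (CommRingCat.ofHom ψ) q = p := by
  have hp : p ∈ Set.range (PrimeSpectrum.comap ψ) := by
    rw [range_comap_of_surjective _ ψ hψ]
    intro b hb
    have h2 : b ^ 2 ∈ p.asIdeal := by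
      rw [hker b hb]; exact zero_mem _
    exact p.isPrime.mem_of_pow_mem 2 h2
  obtain ⟨q, hq⟩ := hp
  exact ⟨q, hq⟩

end Chart



section SqZero

variable {K : Type u} [CommRing K]

/-- The right action of `K` on an ideal of a `K`-algebra (equal to the left action). -/
@[reducible] def idealOpModule {B : Type u} [CommRing B] [Algebra K B] (I : Ideal B) :
    Module Kᵐᵒᵖ I :=
  Module.compHom I ((RingHom.id K).fromOpposite fun _ _ => mul_comm _ _)

attribute [local instance] idealOpModule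

theorem idealCentral {B : Type u} [CommRing B] [Algebra K B] (I : Ideal B) :
    IsCentralScalar K I :=
  ⟨fun _ _ => rfl⟩

attribute [local instance] idealCentral

variable {B : Type u} [CommRing B] [Algebra K B] (I : Ideal B) (hI : I ^ 2 = ⊥)

theorem mul_eq_zero_of_sq_eq_bot {I : Ideal B} (hI : I ^ 2 = ⊥) (x y : I) :
    (x : B) * (y : B) = 0 := by
  have h : (x : B) * (y : B) ∈ I ^ 2 := by
    rw [pow_two]; exact Ideal.mul_mem_mul x.2 y.2
  rw [hI] at h
  exact h

/-- The canonical map from the trivial square-zero extension by a square-zero ideal. -/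
def thetaHom : TrivSqZeroExt K I →ₐ[K] B :=
  TrivSqZeroExt.lift (Algebra.ofId K B) ((Submodule.subtype I).restrictScalars K)
    (fun x y => mul_eq_zero_of_sq_eq_bot hI x y)
    (fun r x => by
      show ((r • x : I) : B) = algebraMap K B r * (x : B)
      rw [Submodule.coe_smul_of_tower, Algebra.smul_def])
    (fun r x => by
      show ((r • x : I) : B) = (x : B) * algebraMap K B r
      rw [Submodule.coe_smul_of_tower, Algebra.smul_def, mul_comm])

theorem thetaHom_apply (x : TrivSqZeroExt K I) :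
    thetaHom I hI x = algebraMap K B x.fst + (x.snd : B) := by
  rfl

theorem mk_comp_thetaHom :
    (Ideal.Quotient.mkₐ K I).comp (thetaHom I hI) =
      (Algebra.ofId K (B ⧸ I)).comp (TrivSqZeroExt.fstHom K K I) := by
  apply AlgHom.ext
  intro x
  show Ideal.Quotient.mk I (thetaHom I hI x) = algebraMap K (B ⧸ I) x.fst
  rw [thetaHom_apply, map_add, Ideal.Quotient.eq_zero_iff_mem.mpr x.snd.2, add_zero]
  rfl

theorem thetaHom_injective_aux {x x' : TrivSqZeroExt K I} (h1 : x.fst = x'.fst)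
    (h2 : thetaHom I hI x = thetaHom I hI x') : x = x' := by
  rw [thetaHom_apply, thetaHom_apply, h1] at h2
  exact TrivSqZeroExt.ext h1 (Subtype.ext (add_left_cancel h2))

/-- A ring homomorphism into `B` which is congruent modulo `I` to one through `K` lifts to the
trivial square-zero extension. -/
def sqZeroLift {S : Type u} [CommRing S] (ε : S →+* K) (ξ : S →+* B)
    (h : ∀ s, ξ s - algebraMap K B (ε s) ∈ I) : S →+* TrivSqZeroExt K I where
  toFun s := TrivSqZeroExt.inl (ε s) + TrivSqZeroExt.inr ⟨ξ s - algebraMap K B (ε s), h s⟩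
  map_one' := by
    apply TrivSqZeroExt.ext
    · simp
    · apply Subtype.ext
      simp
  map_mul' s s' := by
    apply TrivSqZeroExt.ext
    · simp
    · apply Subtype.ext
      have h0 := mul_eq_zero_of_sq_eq_bot hI ⟨_, h s⟩ ⟨_, h s'⟩
      simp only [TrivSqZeroExt.snd_add, TrivSqZeroExt.snd_inl, TrivSqZeroExt.snd_inr, zero_add,
        TrivSqZeroExt.snd_mul, TrivSqZeroExt.fst_add, TrivSqZeroExt.fst_inl,
        TrivSqZeroExt.fst_inr, add_zero, map_mul]
      show ξ s * ξ s' - algebraMap K B (ε s) * algebraMap K B (ε s') =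
        ((ε s • (⟨ξ s' - algebraMap K B (ε s'), h s'⟩ : I) : I) : B) +
          ((ε s' • (⟨ξ s - algebraMap K B (ε s), h s⟩ : I) : I) : B)
      rw [Submodule.coe_smul_of_tower, Submodule.coe_smul_of_tower, Algebra.smul_def,
        Algebra.smul_def]
      simp only at h0
      linear_combination h0
  map_zero' := by
    apply TrivSqZeroExt.ext
    · simp
    · apply Subtype.ext
      simp
  map_add' s s' := by
    apply TrivSqZeroExt.ext
    · simp
    · apply Subtype.ext
      simp only [TrivSqZeroExt.snd_add, TrivSqZeroExt.snd_inl, TrivSqZeroExt.snd_inr, zero_add,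
        map_add, Submodule.coe_add]
      ring

theorem fst_sqZeroLift {S : Type u} [CommRing S] (ε : S →+* K) (ξ : S →+* B)
    (h : ∀ s, ξ s - algebraMap K B (ε s) ∈ I) (s : S) :
    (sqZeroLift I hI ε ξ h s).fst = ε s := by
  simp [sqZeroLift]

theorem snd_sqZeroLift {S : Type u} [CommRing S] (ε : S →+* K) (ξ : S →+* B)
    (h : ∀ s, ξ s - algebraMap K B (ε s) ∈ I) (s : S) :
    ((sqZeroLift I hI ε ξ h s).snd : B) = ξ s - algebraMap K B (ε s) := by
  simp [sqZeroLift]

theorem thetaHom_sqZeroLift {S : Type u} [CommRing S] (ε : S →+* K) (ξ : S →+* B)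
    (h : ∀ s, ξ s - algebraMap K B (ε s) ∈ I) (s : S) :
    thetaHom I hI (sqZeroLift I hI ε ξ h s) = ξ s := by
  rw [thetaHom_apply]
  simp [sqZeroLift]

end SqZero

section Pair

variable {K : Type u} [CommRing K] {M₁ M₂ : Type u} [AddCommGroup M₁] [AddCommGroup M₂]
  [Module K M₁] [Module K M₂] [Module Kᵐᵒᵖ M₁] [Module Kᵐᵒᵖ M₂] [IsCentralScalar K M₁]
  [IsCentralScalar K M₂]

theorem tsze_pair_injective {x x' : TrivSqZeroExt K (M₁ × M₂)}
    (h1 : TrivSqZeroExt.map (LinearMap.fst K M₁ M₂) x = TrivSqZeroExt.map (LinearMap.fst K M₁ M₂) x')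
    (h2 : TrivSqZeroExt.map (LinearMap.snd K M₁ M₂) x =
      TrivSqZeroExt.map (LinearMap.snd K M₁ M₂) x') : x = x' := by
  have a1 := congrArg TrivSqZeroExt.fst h1
  have a2 := congrArg TrivSqZeroExt.snd h1
  have a3 := congrArg TrivSqZeroExt.snd h2
  rw [TrivSqZeroExt.fst_map, TrivSqZeroExt.fst_map] at a1
  rw [TrivSqZeroExt.snd_map, TrivSqZeroExt.snd_map] at a2 a3
  exact TrivSqZeroExt.ext a1 (Prod.ext a2 a3)

theorem tsze_map_zero {M M' : Type u} [AddCommGroup M] [AddCommGroup M']
    [Module K M] [Module K M'] [Module Kᵐᵒᵖ M] [Module Kᵐᵒᵖ M'] [IsCentralScalar K M]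
    [IsCentralScalar K M'] :
    TrivSqZeroExt.map (0 : M →ₗ[K] M') =
      (TrivSqZeroExt.inlAlgHom K K M').comp (TrivSqZeroExt.fstHom K K M) := by
  apply TrivSqZeroExt.algHom_ext
  intro m
  simp

end Pair



section Points

variable {K : Type u} [CommRing K] {A : Scheme.{u}} {f : A ⟶ Spec (CommRingCat.of K)}

/-- The structure morphism of `Spec B` for a `K`-algebra `B`. -/
abbrev str (K : Type u) [CommRing K] (B : Type u) [CommRing B] [Algebra K B] :
    Spec (CommRingCat.of B) ⟶ Spec (CommRingCat.of K) :=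
  Spec.map (CommRingCat.ofHom (algebraMap K B))

theorem specMap_str {B B' : Type u} [CommRing B] [CommRing B'] [Algebra K B] [Algebra K B']
    (θ : B →ₐ[K] B') :
    Spec.map (CommRingCat.ofHom θ.toRingHom) ≫ str K B = str K B' := by
  rw [str, str, ← Spec.map_comp, ← CommRingCat.ofHom_comp]
  congr 2
  exact θ.comp_algebraMap

/-- The group of `B`-valued points of a relative group law. -/
def GPt (_L : RelativeGroupLaw K f) (B : Type u) [CommRing B] [Algebra K B] : Type u :=
  SchemeHomOver (str K B) f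

variable (L : RelativeGroupLaw K f)

instance instGroupGPt (B : Type u) [CommRing B] [Algebra K B] : Group (GPt L B) :=
  L.pointGroup (str K B)

variable {L}

/-- The underlying morphism of a point. -/
def GPt.hom {B : Type u} [CommRing B] [Algebra K B] (x : GPt L B) :
    Spec (CommRingCat.of B) ⟶ A :=
  Subtype.val (p := fun φ : Spec (CommRingCat.of B) ⟶ A => φ ≫ f = str K B) x

theorem GPt.hom_comp {B : Type u} [CommRing B] [Algebra K B] (x : GPt L B) :
    x.hom ≫ f = str K B :=
  Subtype.property (p := fun φ : Spec (CommRingCat.of B) ⟶ A => φ ≫ f = str K B) x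

theorem GPt.ext {B : Type u} [CommRing B] [Algebra K B] {x y : GPt L B} (h : x.hom = y.hom) :
    x = y :=
  Subtype.ext h

variable (L) in
/-- A point from a morphism over the base. -/
def GPt.mk {B : Type u} [CommRing B] [Algebra K B] (φ : Spec (CommRingCat.of B) ⟶ A)
    (h : φ ≫ f = str K B) : GPt L B :=
  ⟨φ, h⟩

@[simp] theorem GPt.mk_hom {B : Type u} [CommRing B] [Algebra K B]
    (φ : Spec (CommRingCat.of B) ⟶ A) (h : φ ≫ f = str K B) : (GPt.mk L φ h).hom = φ :=
  rfl

variable (L) in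
/-- Functoriality of points in the algebra, as a group homomorphism. -/
def GPt.map {B B' : Type u} [CommRing B] [CommRing B'] [Algebra K B] [Algebra K B']
    (θ : B →ₐ[K] B') : GPt L B →* GPt L B' where
  toFun x := schemeHomOverComp (Spec.map (CommRingCat.ofHom θ.toRingHom)) (specMap_str θ) x
  map_one' := L.one_natural _ _ _ (specMap_str θ)
  map_mul' x y := L.mul_natural _ _ _ (specMap_str θ) x y

theorem GPt.map_hom {B B' : Type u} [CommRing B] [CommRing B'] [Algebra K B] [Algebra K B']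
    (θ : B →ₐ[K] B') (x : GPt L B) :
    (GPt.map L θ x).hom = Spec.map (CommRingCat.ofHom θ.toRingHom) ≫ x.hom :=
  rfl

theorem GPt.map_id {B : Type u} [CommRing B] [Algebra K B] (x : GPt L B) :
    GPt.map L (AlgHom.id K B) x = x := by
  apply GPt.ext
  rw [GPt.map_hom]
  have : CommRingCat.ofHom (AlgHom.id K B).toRingHom = 𝟙 (CommRingCat.of B) := rfl
  rw [this, Spec.map_id, Category.id_comp]

theorem GPt.map_map {B B' B'' : Type u} [CommRing B] [CommRing B'] [CommRing B'']
    [Algebra K B] [Algebra K B'] [Algebra K B''] (θ : B →ₐ[K] B') (θ' : B' →ₐ[K] B'')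
    (x : GPt L B) : GPt.map L θ' (GPt.map L θ x) = GPt.map L (θ'.comp θ) x := by
  apply GPt.ext
  rw [GPt.map_hom, GPt.map_hom, GPt.map_hom, ← Category.assoc, ← Spec.map_comp,
    ← CommRingCat.ofHom_comp]
  rfl

theorem GPt.pow_hom {B : Type u} [CommRing B] [Algebra K B] (x : GPt L B) (n : ℕ) :
    (x ^ n).hom = x.hom ≫ L.schemeNsmul n := by
  have h1 := helper2966.nsmul_eq_pow L (str K B) n x
  have h2 := helper2966.nsmul_val L (str K B) n x
  rw [h1] at h2
  exact h2

theorem GPt.one_hom {B : Type u} [CommRing B] [Algebra K B] :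
    (1 : GPt L B).hom = str K B ≫ (1 : GPt L K).hom := by
  have h := map_one (GPt.map L (Algebra.ofId K B))
  have h2 := congrArg GPt.hom h
  rw [GPt.map_hom] at h2
  exact h2.symm

end Points

/-! ## Charts containing the unit section -/

section UnitChart

variable {K : Type u} [CommRing K] {A : Scheme.{u}} {f : A ⟶ Spec (CommRingCat.of K)}
  {L : RelativeGroupLaw K f} {W : A.Opens} (hW : IsAffineOpen W)

variable (f) in
/-- The structure homomorphism of the coordinate ring of an affine chart. -/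
def chartStr : K →+* Γ(A, W) :=
  (Spec.preimage (hW.fromSpec ≫ f)).hom

theorem specMap_chartStr :
    Spec.map (CommRingCat.ofHom (chartStr f hW)) = hW.fromSpec ≫ f :=
  Spec.map_preimage _

theorem chartPt_comp_str {B : Type u} [CommRing B] (ξ : Γ(A, W) →+* B) :
    chartPt hW ξ ≫ f = Spec.map (CommRingCat.ofHom (ξ.comp (chartStr f hW))) := by
  unfold chartPt
  rw [Category.assoc, ← specMap_chartStr hW, ← Spec.map_comp, ← CommRingCat.ofHom_comp]

variable (L) in
/-- The point attached to a `K`-linear ring homomorphism out of a chart. -/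
def GPt.ofChart {B : Type u} [CommRing B] [Algebra K B] (ξ : Γ(A, W) →+* B)
    (hξ : ξ.comp (chartStr f hW) = algebraMap K B) : GPt L B :=
  GPt.mk L (chartPt hW ξ) (by rw [chartPt_comp_str, hξ])

theorem GPt.ofChart_hom {B : Type u} [CommRing B] [Algebra K B] (ξ : Γ(A, W) →+* B)
    (hξ : ξ.comp (chartStr f hW) = algebraMap K B) :
    (GPt.ofChart L hW ξ hξ).hom = chartPt hW ξ :=
  rfl

theorem GPt.chart_str {B : Type u} [CommRing B] [Algebra K B] (x : GPt L B)
    (ξ : Γ(A, W) →+* B) (h : x.hom = chartPt hW ξ) :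
    ξ.comp (chartStr f hW) = algebraMap K B := by
  have h1 := x.hom_comp
  rw [h, chartPt_comp_str] at h1
  have h2 := Spec.map_injective h1
  exact congrArg CommRingCat.Hom.hom h2

theorem GPt.map_hom_chart {B B' : Type u} [CommRing B] [CommRing B'] [Algebra K B]
    [Algebra K B'] (θ : B →ₐ[K] B') (x : GPt L B) (ξ : Γ(A, W) →+* B)
    (h : x.hom = chartPt hW ξ) :
    (GPt.map L θ x).hom = chartPt hW (θ.toRingHom.comp ξ) := by
  rw [GPt.map_hom, h, specMap_comp_chartPt]

/-- Points reducing to the unit along a square-zero surjection land in any chart containing the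
unit section. -/
theorem GPt.range_hom_subset_of_map_eq_one (h1 : Set.range (1 : GPt L K).hom ⊆ W)
    {B B' : Type u} [CommRing B] [CommRing B'] [Algebra K B] [Algebra K B'] (ψ : B →ₐ[K] B')
    (hψ : Function.Surjective ψ) (hker : ∀ b, ψ b = 0 → b ^ 2 = 0)
    (x : GPt L B) (hx : GPt.map L ψ x = 1) : Set.range x.hom ⊆ W := by
  rintro _ ⟨p, rfl⟩
  obtain ⟨q, rfl⟩ := specMap_surjective_of_sq_zero ψ.toRingHom hψ hker p
  have e : x.hom (Spec.map (CommRingCat.ofHom ψ.toRingHom) q) =
      (1 : GPt L K).hom (str K B' q) := by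
    rw [← Scheme.Hom.comp_apply, ← GPt.map_hom, hx, GPt.one_hom, Scheme.Hom.comp_apply]
  rw [e]
  exact h1 ⟨_, rfl⟩

theorem GPt.exists_chart_of_map_eq_one (h1 : Set.range (1 : GPt L K).hom ⊆ W)
    {B B' : Type u} [CommRing B] [CommRing B'] [Algebra K B] [Algebra K B'] (ψ : B →ₐ[K] B')
    (hψ : Function.Surjective ψ) (hker : ∀ b, ψ b = 0 → b ^ 2 = 0)
    (x : GPt L B) (hx : GPt.map L ψ x = 1) : ∃ ξ : Γ(A, W) →+* B, x.hom = chartPt hW ξ :=
  exists_chartPt hW x.hom (GPt.range_hom_subset_of_map_eq_one h1 ψ hψ hker x hx)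

theorem GPt.one_hom_chart (ε₀ : Γ(A, W) →+* K) (h0 : (1 : GPt L K).hom = chartPt hW ε₀)
    (B : Type u) [CommRing B] [Algebra K B] :
    (1 : GPt L B).hom = chartPt hW ((algebraMap K B).comp ε₀) := by
  rw [GPt.one_hom, h0, specMap_comp_chartPt]

end UnitChart

/-! ## The kernel of reduction for trivial square-zero extensions -/

section TszeKer

variable {K : Type u} [CommRing K] {A : Scheme.{u}} {f : A ⟶ Spec (CommRingCat.of K)}
  (L : RelativeGroupLaw K f)

/-- The kernel of reduction `A(K[M]) → A(K)`. -/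
def tszeKer (M : Type u) [AddCommGroup M] [Module K M] [Module Kᵐᵒᵖ M] [IsCentralScalar K M] :
    Subgroup (GPt L (TrivSqZeroExt K M)) :=
  (GPt.map L (TrivSqZeroExt.fstHom K K M)).ker

/-- Functoriality of `A(K[M])` in the module `M`. -/
def tszeMap {M M' : Type u} [AddCommGroup M] [Module K M] [Module Kᵐᵒᵖ M] [IsCentralScalar K M]
    [AddCommGroup M'] [Module K M'] [Module Kᵐᵒᵖ M'] [IsCentralScalar K M'] (a : M →ₗ[K] M') :
    GPt L (TrivSqZeroExt K M) →* GPt L (TrivSqZeroExt K M') :=
  GPt.map L (TrivSqZeroExt.map a)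

variable {L}
variable {M M' M'' : Type u} [AddCommGroup M] [Module K M] [Module Kᵐᵒᵖ M] [IsCentralScalar K M]
  [AddCommGroup M'] [Module K M'] [Module Kᵐᵒᵖ M'] [IsCentralScalar K M']
  [AddCommGroup M''] [Module K M''] [Module Kᵐᵒᵖ M''] [IsCentralScalar K M'']

theorem mem_tszeKer {x : GPt L (TrivSqZeroExt K M)} :
    x ∈ tszeKer L M ↔ GPt.map L (TrivSqZeroExt.fstHom K K M) x = 1 :=
  MonoidHom.mem_ker

theorem tszeMap_mem (a : M →ₗ[K] M') {x : GPt L (TrivSqZeroExt K M)} (hx : x ∈ tszeKer L M) :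
    tszeMap L a x ∈ tszeKer L M' := by
  rw [mem_tszeKer] at hx ⊢
  unfold tszeMap
  rw [GPt.map_map, TrivSqZeroExt.fstHom_comp_map, hx]

theorem tszeMap_zero {x : GPt L (TrivSqZeroExt K M)} (hx : x ∈ tszeKer L M) :
    tszeMap L (0 : M →ₗ[K] M') x = 1 := by
  rw [mem_tszeKer] at hx
  unfold tszeMap
  rw [tsze_map_zero, ← GPt.map_map, hx, map_one]

theorem tszeMap_id (x : GPt L (TrivSqZeroExt K M)) :
    tszeMap L (LinearMap.id : M →ₗ[K] M) x = x := by
  unfold tszeMap
  rw [TrivSqZeroExt.map_id, GPt.map_id]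

theorem tszeMap_comp (a : M →ₗ[K] M') (b : M' →ₗ[K] M'') (x : GPt L (TrivSqZeroExt K M)) :
    tszeMap L b (tszeMap L a x) = tszeMap L (b ∘ₗ a) x := by
  unfold tszeMap
  rw [GPt.map_map, TrivSqZeroExt.map_comp_map]

theorem tsze_fstHom_surjective :
    Function.Surjective (TrivSqZeroExt.fstHom K K M) :=
  fun k => ⟨TrivSqZeroExt.inl k, TrivSqZeroExt.fst_inl M k⟩

theorem tsze_sq_zero_of_fst (b : TrivSqZeroExt K M) (hb : TrivSqZeroExt.fstHom K K M b = 0) :
    b ^ 2 = 0 := by
  have hb' : b.fst = 0 := hb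
  apply TrivSqZeroExt.ext
  · simp [pow_two, hb']
  · simp [pow_two, hb']

variable {W : A.Opens} (hW : IsAffineOpen W) (h1 : Set.range (1 : GPt L K).hom ⊆ W)

include hW h1

theorem tszeKer_exists_chart {x : GPt L (TrivSqZeroExt K M)} (hx : x ∈ tszeKer L M) :
    ∃ ξ : Γ(A, W) →+* TrivSqZeroExt K M, x.hom = chartPt hW ξ :=
  GPt.exists_chart_of_map_eq_one hW h1 (TrivSqZeroExt.fstHom K K M) tsze_fstHom_surjective
    tsze_sq_zero_of_fst x (mem_tszeKer.mp hx)

/-- The two projections are jointly injective on the kernel of reduction. -/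
theorem tszeKer_pair_injective {x x' : GPt L (TrivSqZeroExt K (M × M'))}
    (hx : x ∈ tszeKer L (M × M')) (hx' : x' ∈ tszeKer L (M × M'))
    (e1 : tszeMap L (LinearMap.fst K M M') x = tszeMap L (LinearMap.fst K M M') x')
    (e2 : tszeMap L (LinearMap.snd K M M') x = tszeMap L (LinearMap.snd K M M') x') :
    x = x' := by
  obtain ⟨ξ, hξ⟩ := tszeKer_exists_chart hW h1 hx
  obtain ⟨ξ', hξ'⟩ := tszeKer_exists_chart hW h1 hx'
  have c1 := congrArg GPt.hom e1
  have c2 := congrArg GPt.hom e2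
  unfold tszeMap at c1 c2
  rw [GPt.map_hom_chart hW _ x ξ hξ, GPt.map_hom_chart hW _ x' ξ' hξ'] at c1 c2
  have d1 := chartPt_injective hW c1
  have d2 := chartPt_injective hW c2
  have : ξ = ξ' := by
    ext s : 1
    exact tsze_pair_injective (RingHom.congr_fun d1 s) (RingHom.congr_fun d2 s)
  apply GPt.ext
  rw [hξ, hξ', this]

/-- Eckmann–Hilton: on the kernel of reduction the group law is induced by addition in `M`. -/
theorem tszeMap_add (a b : M →ₗ[K] M') {x : GPt L (TrivSqZeroExt K M)} (hx : x ∈ tszeKer L M) :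
    tszeMap L a x * tszeMap L b x = tszeMap L (a + b) x := by
  have ha := tszeMap_mem a hx
  have hb := tszeMap_mem b hx
  have key : tszeMap L (a.prod b) x =
      tszeMap L (LinearMap.inl K M' M') (tszeMap L a x) *
        tszeMap L (LinearMap.inr K M' M') (tszeMap L b x) := by
    apply tszeKer_pair_injective hW h1 (tszeMap_mem _ hx)
      ((tszeKer L (M' × M')).mul_mem (tszeMap_mem _ ha) (tszeMap_mem _ hb))
    · rw [map_mul, tszeMap_comp (a.prod b) (LinearMap.fst K M' M'),
        tszeMap_comp (LinearMap.inl K M' M') (LinearMap.fst K M' M'),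
        tszeMap_comp (LinearMap.inr K M' M') (LinearMap.fst K M' M'), LinearMap.fst_prod,
        LinearMap.fst_comp_inl, LinearMap.fst_comp_inr, tszeMap_id, tszeMap_zero hb, mul_one]
    · rw [map_mul, tszeMap_comp (a.prod b) (LinearMap.snd K M' M'),
        tszeMap_comp (LinearMap.inl K M' M') (LinearMap.snd K M' M'),
        tszeMap_comp (LinearMap.inr K M' M') (LinearMap.snd K M' M'), LinearMap.snd_prod,
        LinearMap.snd_comp_inl, LinearMap.snd_comp_inr, tszeMap_id, tszeMap_zero ha, one_mul]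
  have key2 := congrArg (tszeMap L (LinearMap.coprod LinearMap.id LinearMap.id : M' × M' →ₗ[K] M'))
    key
  rw [map_mul, tszeMap_comp (a.prod b), tszeMap_comp (LinearMap.inl K M' M'),
    tszeMap_comp (LinearMap.inr K M' M'), LinearMap.coprod_inl,
    LinearMap.coprod_inr, tszeMap_id, tszeMap_id, LinearMap.coprod_comp_prod,
    LinearMap.id_comp, LinearMap.id_comp] at key2
  exact key2.symm

/-- On the kernel of reduction, the `n`-th power is induced by multiplication by `n` on `M`. -/
theorem tszeKer_pow {x : GPt L (TrivSqZeroExt K M)} (hx : x ∈ tszeKer L M) (n : ℕ) :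
    x ^ n = tszeMap L ((n : K) • (LinearMap.id : M →ₗ[K] M)) x := by
  induction n with
  | zero => rw [pow_zero, Nat.cast_zero, zero_smul, tszeMap_zero hx]
  | succ n ih =>
    rw [pow_succ, ih, Nat.cast_succ, add_smul, one_smul, ← tszeMap_add hW h1 _ _ hx, tszeMap_id]

theorem tszeKer_pow_surjective (n : ℕ) (hn : IsUnit (n : K)) {y : GPt L (TrivSqZeroExt K M)}
    (hy : y ∈ tszeKer L M) : ∃ x ∈ tszeKer L M, x ^ n = y := by
  obtain ⟨c, hc⟩ := hn.exists_right_inv
  refine ⟨tszeMap L (c • (LinearMap.id : M →ₗ[K] M)) y, tszeMap_mem _ hy, ?_⟩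
  rw [tszeKer_pow hW h1 (tszeMap_mem _ hy), tszeMap_comp]
  have : ((n : K) • (LinearMap.id : M →ₗ[K] M)) ∘ₗ (c • (LinearMap.id : M →ₗ[K] M)) =
      LinearMap.id := by
    ext m
    simp [smul_smul, hc]
  rw [this, tszeMap_id]

theorem tszeKer_pow_injective (n : ℕ) (hn : IsUnit (n : K)) {x x' : GPt L (TrivSqZeroExt K M)}
    (hx : x ∈ tszeKer L M) (hx' : x' ∈ tszeKer L M) (h : x ^ n = x' ^ n) : x = x' := by
  obtain ⟨c, hc⟩ := hn.exists_left_inv
  rw [tszeKer_pow hW h1 hx, tszeKer_pow hW h1 hx'] at h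
  have h2 := congrArg (tszeMap L (c • (LinearMap.id : M →ₗ[K] M))) h
  rw [tszeMap_comp, tszeMap_comp] at h2
  have : (c • (LinearMap.id : M →ₗ[K] M)) ∘ₗ ((n : K) • (LinearMap.id : M →ₗ[K] M)) =
      LinearMap.id := by
    ext m
    simp [smul_smul, hc]
  rw [this, tszeMap_id, tszeMap_id] at h2
  exact h2

end TszeKer

/-! ## The kernel of reduction modulo a square-zero ideal -/

section RedKer

variable {K : Type u} [CommRing K] {A : Scheme.{u}} {f : A ⟶ Spec (CommRingCat.of K)}
  {L : RelativeGroupLaw K f} {W : A.Opens} (hW : IsAffineOpen W)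
  (h1 : Set.range (1 : GPt L K).hom ⊆ W)
  {B : Type u} [CommRing B] [Algebra K B] (I : Ideal B) (hI : I ^ 2 = ⊥)

attribute [local instance] idealOpModule idealCentral

include hI in
theorem quot_sq_zero (b : B) (hb : Ideal.Quotient.mkₐ K I b = 0) : b ^ 2 = 0 := by
  have hb' : b ∈ I := Ideal.Quotient.eq_zero_iff_mem.mp hb
  have h := mul_eq_zero_of_sq_eq_bot hI ⟨b, hb'⟩ ⟨b, hb'⟩
  rw [pow_two]
  exact h

theorem thetaMap_red {x : GPt L (TrivSqZeroExt K I)} (hx : x ∈ tszeKer L I) :
    GPt.map L (Ideal.Quotient.mkₐ K I) (GPt.map L (thetaHom I hI) x) = 1 := by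
  rw [GPt.map_map, mk_comp_thetaHom, ← GPt.map_map, mem_tszeKer.mp hx, map_one]

include hW h1

theorem thetaMap_injective {x x' : GPt L (TrivSqZeroExt K I)} (hx : x ∈ tszeKer L I)
    (hx' : x' ∈ tszeKer L I)
    (h : GPt.map L (thetaHom I hI) x = GPt.map L (thetaHom I hI) x') : x = x' := by
  obtain ⟨ξ, hξ⟩ := tszeKer_exists_chart hW h1 hx
  obtain ⟨ξ', hξ'⟩ := tszeKer_exists_chart hW h1 hx'
  have c1 := congrArg GPt.hom h
  rw [GPt.map_hom_chart hW _ x ξ hξ, GPt.map_hom_chart hW _ x' ξ' hξ'] at c1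
  have d1 := chartPt_injective hW c1
  have c2 : (GPt.map L (TrivSqZeroExt.fstHom K K I) x).hom =
      (GPt.map L (TrivSqZeroExt.fstHom K K I) x').hom := by
    rw [mem_tszeKer.mp hx, mem_tszeKer.mp hx']
  rw [GPt.map_hom_chart hW _ x ξ hξ, GPt.map_hom_chart hW _ x' ξ' hξ'] at c2
  have d2 := chartPt_injective hW c2
  have : ξ = ξ' := by
    ext s : 1
    exact thetaHom_injective_aux I hI (RingHom.congr_fun d2 s) (RingHom.congr_fun d1 s)
  apply GPt.ext
  rw [hξ, hξ', this]

theorem thetaMap_surjective {x : GPt L B} (hx : GPt.map L (Ideal.Quotient.mkₐ K I) x = 1) :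
    ∃ x' ∈ tszeKer L I, GPt.map L (thetaHom I hI) x' = x := by
  obtain ⟨ε₀, h0⟩ := exists_chartPt hW (1 : GPt L K).hom h1
  obtain ⟨ξ, hξ⟩ := GPt.exists_chart_of_map_eq_one hW h1 (Ideal.Quotient.mkₐ K I)
    (Ideal.Quotient.mkₐ_surjective K I) (quot_sq_zero I hI) x hx
  have c := congrArg GPt.hom hx
  rw [GPt.map_hom_chart hW _ x ξ hξ, GPt.one_hom_chart hW ε₀ h0] at c
  have d := chartPt_injective hW c
  have hmem : ∀ s, ξ s - algebraMap K B (ε₀ s) ∈ I := by
    intro s
    have e := RingHom.congr_fun d s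
    rw [← Ideal.Quotient.eq]
    exact e
  have hε : ε₀.comp (chartStr f hW) = algebraMap K K := GPt.chart_str hW (1 : GPt L K) ε₀ h0
  have hξK : ξ.comp (chartStr f hW) = algebraMap K B := GPt.chart_str hW x ξ hξ
  have hstr : (sqZeroLift I hI ε₀ ξ hmem).comp (chartStr f hW) =
      algebraMap K (TrivSqZeroExt K I) := by
    ext k : 1
    have e1 : ε₀ (chartStr f hW k) = k := RingHom.congr_fun hε k
    have e2 : ξ (chartStr f hW k) = algebraMap K B k := RingHom.congr_fun hξK k
    apply TrivSqZeroExt.ext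
    · rw [RingHom.comp_apply, fst_sqZeroLift, e1]
      rfl
    · apply Subtype.ext
      rw [RingHom.comp_apply, snd_sqZeroLift, e1, e2, sub_self]
      rfl
  refine ⟨GPt.ofChart L hW (sqZeroLift I hI ε₀ ξ hmem) hstr, ?_, ?_⟩
  · rw [mem_tszeKer]
    apply GPt.ext
    rw [GPt.map_hom_chart hW _ _ _ (GPt.ofChart_hom hW _ _), h0]
    congr 1
    ext s : 1
    exact fst_sqZeroLift I hI ε₀ ξ hmem s
  · apply GPt.ext
    rw [GPt.map_hom_chart hW _ _ _ (GPt.ofChart_hom hW _ _), hξ]
    congr 1
    ext s : 1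
    exact thetaHom_sqZeroLift I hI ε₀ ξ hmem s

include hI

/-- Every point in the kernel of reduction modulo a square-zero ideal is an `n`-th power of a
point in the kernel, when `n` is invertible on the base. -/
theorem redKer_pow_surjective (n : ℕ) (hn : IsUnit (n : K)) {δ : GPt L B}
    (hδ : GPt.map L (Ideal.Quotient.mkₐ K I) δ = 1) :
    ∃ ε : GPt L B, GPt.map L (Ideal.Quotient.mkₐ K I) ε = 1 ∧ ε ^ n = δ := by
  obtain ⟨d, hd, rfl⟩ := thetaMap_surjective hW h1 I hI hδ
  obtain ⟨e, he, rfl⟩ := tszeKer_pow_surjective hW h1 n hn hd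
  exact ⟨GPt.map L (thetaHom I hI) e, thetaMap_red I hI he, (map_pow _ _ _).symm⟩

/-- The `n`-th power map is injective on the kernel of reduction modulo a square-zero ideal,
when `n` is invertible on the base. -/
theorem redKer_pow_injective (n : ℕ) (hn : IsUnit (n : K)) {ε ε' : GPt L B}
    (hε : GPt.map L (Ideal.Quotient.mkₐ K I) ε = 1)
    (hε' : GPt.map L (Ideal.Quotient.mkₐ K I) ε' = 1) (h : ε ^ n = ε' ^ n) : ε = ε' := by
  obtain ⟨e, he, rfl⟩ := thetaMap_surjective hW h1 I hI hε
  obtain ⟨e', he', rfl⟩ := thetaMap_surjective hW h1 I hI hε'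
  rw [← map_pow, ← map_pow] at h
  have h2 := thetaMap_injective hW h1 I hI ((tszeKer L I).pow_mem he n)
    ((tszeKer L I).pow_mem he' n) h
  rw [tszeKer_pow_injective hW h1 n hn he he' h2]

end RedKer

/-! ## Infinitesimal lifting for multiplication by `n` -/

/-- Infinitesimal lifting for a formally smooth ring homomorphism, with plain ring
homomorphisms. -/
theorem exists_lift_of_formallySmooth {R S : Type u} [CommRing R] [CommRing S] (κ : R →+* S)
    (hκ : κ.FormallySmooth) {B : Type u} [CommRing B] (I : Ideal B) (hI : I ^ 2 = ⊥)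
    (β : R →+* B) (g₀ : S →+* B ⧸ I) (h : g₀.comp κ = (Ideal.Quotient.mk I).comp β) :
    ∃ g : S →+* B, g.comp κ = β ∧ (Ideal.Quotient.mk I).comp g = g₀ := by
  letI := κ.toAlgebra
  letI := β.toAlgebra
  haveI : Algebra.FormallySmooth R S := hκ
  let g₀' : S →ₐ[R] B ⧸ I := ⟨g₀, fun r => RingHom.congr_fun h r⟩
  obtain ⟨g, hg⟩ := Algebra.FormallySmooth.comp_surjective R S I hI g₀'
  refine ⟨g.toRingHom, ?_, ?_⟩
  · ext r
    exact g.commutes r
  · exact congrArg AlgHom.toRingHom hg

section Final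

variable {K : Type u} [CommRing K] {A : Scheme.{u}} {f : A ⟶ Spec (CommRingCat.of K)}
  {L : RelativeGroupLaw K f}

theorem chartStr_comp_appLE (n : ℕ) {U V : A.Opens} (hU : IsAffineOpen U) (hV : IsAffineOpen V)
    (e : V ≤ (L.schemeNsmul n) ⁻¹ᵁ U) :
    ((L.schemeNsmul n).appLE U V e).hom.comp (chartStr f hU) = chartStr f hV := by
  have h : Spec.map (CommRingCat.ofHom
      (((L.schemeNsmul n).appLE U V e).hom.comp (chartStr f hU))) =
      Spec.map (CommRingCat.ofHom (chartStr f hV)) := by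
    rw [CommRingCat.ofHom_comp, Spec.map_comp, specMap_chartStr, specMap_chartStr,
      CommRingCat.ofHom_hom, ← Category.assoc, hU.SpecMap_appLE_fromSpec _ hV e, Category.assoc,
      L.schemeNsmul_over]
  exact congrArg CommRingCat.Hom.hom (Spec.map_injective h)

theorem chartStr_smooth [Smooth f] {V : A.Opens} (hV : IsAffineOpen V) :
    (chartStr f hV).Smooth := by
  have h : Smooth (hV.fromSpec ≫ f) := inferInstance
  rw [← specMap_chartStr hV, HasRingHomProperty.Spec_iff (P := @Smooth)] at h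
  exact h

/-- Unique infinitesimal lifting along `[n]` on affine charts. -/
theorem schemeNsmul_appLE_formallyEtale (hc : L.IsCommutative) [Smooth f] (n : ℕ)
    (hn : IsUnit (n : K)) {W : A.Opens} (hW : IsAffineOpen W)
    (h1 : Set.range (1 : GPt L K).hom ⊆ W)
    {U V : A.Opens} (hU : IsAffineOpen U) (hV : IsAffineOpen V)
    (e : V ≤ (L.schemeNsmul n) ⁻¹ᵁ U) :
    ((L.schemeNsmul n).appLE U V e).hom.FormallyEtale := by
  apply formallyEtale_of_unique_lifting
  intro B _ I hI ρ g₀ hg₀
  letI : Algebra K B := (ρ.comp (chartStr f hU)).toAlgebra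
  have hκ := chartStr_comp_appLE (L := L) n hU hV e
  have hsm : (chartStr f hV).FormallySmooth := (chartStr_smooth hV).formallySmooth
  -- step 1: lift `g₀` to some `g₁`, compatibly with the structure maps
  obtain ⟨g₁, hg₁a, hg₁b⟩ := exists_lift_of_formallySmooth (chartStr f hV) hsm I hI
    (algebraMap K B) g₀ (by
      rw [← hκ, ← RingHom.comp_assoc, hg₀, RingHom.comp_assoc]
      rfl)
  let y : GPt L B := GPt.ofChart L hU ρ rfl
  let x₁ : GPt L B := GPt.ofChart L hV g₁ hg₁a
  have hyh : y.hom = chartPt hU ρ := rfl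
  have hx₁h : x₁.hom = chartPt hV g₁ := rfl
  have hcomm : ∀ a b : GPt L B, a * b = b * a := fun a b => hc (str K B) a b
  have hy : GPt.map L (Ideal.Quotient.mkₐ K I) y =
      GPt.map L (Ideal.Quotient.mkₐ K I) x₁ ^ n := by
    apply GPt.ext
    rw [GPt.pow_hom, GPt.map_hom_chart hU _ y ρ hyh, GPt.map_hom_chart hV _ x₁ g₁ hx₁h,
      chartPt_comp hV (L.schemeNsmul n) hU e]
    congr 1
    show (Ideal.Quotient.mk I).comp ρ = ((Ideal.Quotient.mk I).comp g₁).comp _
    rw [hg₁b, hg₀]
  have hδ : GPt.map L (Ideal.Quotient.mkₐ K I) (y * (x₁ ^ n)⁻¹) = 1 := by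
    rw [map_mul, map_inv, map_pow, hy, mul_inv_cancel]
  obtain ⟨ε, hε1, hεn⟩ := redKer_pow_surjective hW h1 I hI n hn hδ
  have hxn : (x₁ * ε) ^ n = y := by
    rw [Commute.mul_pow (hcomm x₁ ε) n, hεn, hcomm y, mul_inv_cancel_left]
  have hxred : GPt.map L (Ideal.Quotient.mkₐ K I) (x₁ * ε) =
      GPt.map L (Ideal.Quotient.mkₐ K I) x₁ := by
    rw [map_mul, hε1, mul_one]
  have hrange : Set.range (x₁ * ε).hom ⊆ V := by
    rintro _ ⟨p, rfl⟩
    obtain ⟨q, rfl⟩ := specMap_surjective_of_sq_zero (Ideal.Quotient.mkₐ K I).toRingHom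
      (Ideal.Quotient.mkₐ_surjective K I) (quot_sq_zero I hI) p
    have e2 : (x₁ * ε).hom (Spec.map (CommRingCat.ofHom (Ideal.Quotient.mkₐ K I).toRingHom) q) =
        (GPt.map L (Ideal.Quotient.mkₐ K I) x₁).hom q := by
      rw [← Scheme.Hom.comp_apply, ← GPt.map_hom, hxred]
    rw [e2, GPt.map_hom_chart hV _ x₁ g₁ hx₁h]
    exact range_chartPt_subset hV _ ⟨q, rfl⟩
  obtain ⟨g, hg⟩ := exists_chartPt hV (x₁ * ε).hom hrange
  refine ⟨g, ⟨?_, ?_⟩, ?_⟩
  · have c := congrArg GPt.hom hxn
    rw [GPt.pow_hom, hg, chartPt_comp hV (L.schemeNsmul n) hU e, hyh] at c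
    exact chartPt_injective hU c
  · have c := congrArg GPt.hom hxred
    rw [GPt.map_hom_chart hV _ _ g hg, GPt.map_hom_chart hV _ x₁ g₁ hx₁h] at c
    exact (chartPt_injective hV c).trans hg₁b
  · rintro g' ⟨hg'a, hg'b⟩
    have hg'K : g'.comp (chartStr f hV) = algebraMap K B := by
      rw [← hκ, ← RingHom.comp_assoc, hg'a]
      rfl
    let x' : GPt L B := GPt.ofChart L hV g' hg'K
    have hx'h : x'.hom = chartPt hV g' := rfl
    have hx'n : x' ^ n = y := by
      apply GPt.ext
      rw [GPt.pow_hom, hx'h, hyh, chartPt_comp hV (L.schemeNsmul n) hU e, hg'a]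
    have hx'red : GPt.map L (Ideal.Quotient.mkₐ K I) x' =
        GPt.map L (Ideal.Quotient.mkₐ K I) x₁ := by
      apply GPt.ext
      rw [GPt.map_hom_chart hV _ x' g' hx'h, GPt.map_hom_chart hV _ x₁ g₁ hx₁h]
      congr 1
      exact hg'b.trans hg₁b.symm
    have hd1 : GPt.map L (Ideal.Quotient.mkₐ K I) (x' * (x₁ * ε)⁻¹) = 1 := by
      rw [map_mul, map_inv, hx'red, hxred, mul_inv_cancel]
    have hdn : (x' * (x₁ * ε)⁻¹) ^ n = (1 : GPt L B) ^ n := by
      rw [Commute.mul_pow (hcomm x' _) n, inv_pow, hx'n, hxn, mul_inv_cancel, one_pow]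
    have hx' : x' = x₁ * ε :=
      mul_inv_eq_one.mp (redKer_pow_injective hW h1 I hI n hn hd1 (map_one _) hdn)
    have c := congrArg GPt.hom hx'
    rw [hg, hx'h] at c
    exact chartPt_injective hV c

end Final

section Main

variable {K : Type u} [Field K] {A : Scheme.{u}} {f : A ⟶ Spec (CommRingCat.of K)}
  (L : RelativeGroupLaw K f)

/-- Over a field, the unit section lands in an affine chart. -/
theorem exists_unit_chart :
    ∃ W : A.Opens, IsAffineOpen W ∧ Set.range (1 : GPt L K).hom ⊆ W := by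
  haveI : Subsingleton (Spec (CommRingCat.of K)) :=
    inferInstanceAs (Subsingleton (PrimeSpectrum K))
  let p₀ : Spec (CommRingCat.of K) := (default : PrimeSpectrum K)
  obtain ⟨W, hW, hp, -⟩ := exists_isAffineOpen_mem_and_subset
    (x := (1 : GPt L K).hom p₀) (U := ⊤) trivial
  refine ⟨W, hW, ?_⟩
  rintro _ ⟨p, rfl⟩
  rw [Subsingleton.elim p p₀]
  exact hp

variable {L}

theorem schemeNsmul_appLE_etale (hc : L.IsCommutative) [Smooth f] (n : ℕ) (hn : (n : K) ≠ 0)
    {U V : A.Opens} (hU : IsAffineOpen U) (hV : IsAffineOpen V)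
    (e : V ≤ (L.schemeNsmul n) ⁻¹ᵁ U) :
    ((L.schemeNsmul n).appLE U V e).hom.Etale := by
  obtain ⟨W, hW, h1⟩ := exists_unit_chart L
  have hfe := schemeNsmul_appLE_formallyEtale hc n (isUnit_iff_ne_zero.mpr hn) hW h1 hU hV e
  have hκ := chartStr_comp_appLE (L := L) n hU hV e
  have hfp : ((L.schemeNsmul n).appLE U V e).hom.FinitePresentation := by
    apply RingHom.FinitePresentation.of_comp_finiteType (chartStr f hU)
    · rw [hκ]
      exact (chartStr_smooth hV).finitePresentation
    · exact RingHom.FiniteType.of_finitePresentation (chartStr_smooth hU).finitePresentation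
  letI := ((L.schemeNsmul n).appLE U V e).hom.toAlgebra
  exact ⟨hfe, hfp⟩

/-- **M0-ETALE.** Multiplication by `n` on a smooth commutative group scheme over a field is
étale when `n` is invertible in the field. -/
theorem etale_schemeNsmul (hc : L.IsCommutative) [Smooth f] (n : ℕ) (hn : (n : K) ≠ 0) :
    Etale (L.schemeNsmul n) :=
  ⟨fun hU _ hV e => schemeNsmul_appLE_etale hc n hn hU hV e⟩

/-- **M0-ETALE** on the frozen data of S26. -/
theorem etale_schemeNsmul_of_bundle (hc : L.IsCommutative)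
    (hA : AbelianSchemePropertyBundle K f) (n : ℕ) (hn : (n : K) ≠ 0) :
    Etale (L.schemeNsmul n) :=
  haveI := hA.smooth
  etale_schemeNsmul hc n hn

end Main

end

end Fermat.Agent.S26.helper355
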