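/-
S26 / M0-ETALE (helper355): the Spec-shaped statements.

* `stmt_NsmulEtale : helper2569.Stmt_NsmulEtale` — `[n]` is étale for `n` invertible in `K`
  (proved in `helper355_NsmulEtale.lean` by infinitesimal lifting).
* `stmt_NsmulDeg : helper154.Stmt_NsmulDeg` — the M0-ETALE + M0-DEG statement of the Spec, with no
  hypothesis left (via `helper2569.stmt_NsmulDeg`).
-/
import Fermat.Agent.S26.helper355_NsmulEtale
import Fermat.Agent.S26.helper2569_Degree

set_option autoImplicit false

open CategoryTheory AlgebraicGeometry NeronModelInfra GoodReductionJacobian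

universe u

namespace Fermat.Agent.S26.helper355

/-- **M0-ETALE**, in the shape consumed by `helper2569.stmt_NsmulDeg`. -/
theorem stmt_NsmulEtale : helper2569.Stmt_NsmulEtale.{u} := by
  intro K _ A f L g hAb n hn
  exact etale_schemeNsmul_of_bundle hAb.comm hAb.bundle n hn

/-- **M0-ETALE + M0-DEG**: `Stmt_NsmulDeg` of the Spec, unconditionally. -/
theorem stmt_NsmulDeg : helper154.Stmt_NsmulDeg.{u} :=
  helper2569.stmt_NsmulDeg stmt_NsmulEtale

end Fermat.Agent.S26.helper355
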