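/-
S26 / module M0 closed (helper355): the corollaries of M0-ETALE with no hypothesis left.

`helper355.stmt_NsmulEtale` (étaleness of `[n]`, proved in `helper355_NsmulEtale.lean`) is fed to
the hypothesis-passing theorems of `helper2966_TorsPow.lean`.
-/
import Fermat.Agent.S26.helper355_StmtNsmulEtale
import Fermat.Agent.S26.helper2966_TorsPow

set_option autoImplicit false

universe u

namespace Fermat.Agent.S26.helper355

/-- `[n]` is finite étale on an abelian variety, `n` invertible in `K`. -/
theorem stmt_NsmulFiniteEtale : helper2966.Stmt_NsmulFiniteEtale.{u} :=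
  helper2966.stmt_NsmulFiniteEtale_of_etale stmt_NsmulEtale

/-- `A(K)` is `n`-divisible, `n` invertible in `K`. -/
theorem stmt_Divisible : helper2966.Stmt_Divisible.{u} :=
  helper2966.stmt_Divisible_of_etale stmt_NsmulEtale

/-- **M0-GRP of the Spec, unconditionally**: `d(n ^ k) = d(n) ^ k`. -/
theorem stmt_TorsPow : helper154.Stmt_TorsPow.{u} :=
  helper2966.stmt_TorsPow_of_etale stmt_NsmulEtale

end Fermat.Agent.S26.helper355
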