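import Fermat.Agent.S26.helper154_Spec2
import Fermat.Agent.S26.helper2966_TorsionGroup

/-!
# S26, leaf M0-COMP (helper4841): composition of separable dominant maps, and
# the weighted sum with constant weights `n` is `s ≫ [n]`

* `isDom_comp`, `funFieldHom_comp`, `isSepDom_comp`: the Spec predicates `IsDom`, `IsSepDom`
  are stable under composition, with multiplicative degree; `stmt_SepDomComp` is the
  Spec statement `Stmt_SepDomComp`.
* `isSepDom_degree_unique`, `isSepDom_pos`, `isSepDom_id`: the degree is unique and positive,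
  the identity has degree one.
* `wsum_const_eq_nsmul`, `stmt_WsumNsmul`: the Spec statement `Stmt_WsumNsmul`.
-/

set_option autoImplicit false

universe u

noncomputable section

open CategoryTheory CategoryTheory.Limits AlgebraicGeometry NeronModelInfra GoodReductionJacobian

namespace Fermat.Agent.S26.helper4841

open Fermat.Agent.S26.helper154

/-! ### Part (A): composition of dominant maps -/

section Algebra

/-- Tower law for finite separable field extensions, with the algebra structures given by ring
homomorphisms (no instances in the statement). -/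
theorem sep_tower {F E L : Type*} [Field F] [Field E] [Field L] (i : F →+* E) (j : E →+* L)
    (k : F →+* L) (hk : k = j.comp i) {δ δ' : ℕ}
    (h1 : letI := j.toAlgebra
      Algebra.IsSeparable E L ∧ FiniteDimensional E L ∧ Module.finrank E L = δ)
    (h2 : letI := i.toAlgebra
      Algebra.IsSeparable F E ∧ FiniteDimensional F E ∧ Module.finrank F E = δ') :
    letI := k.toAlgebra
    Algebra.IsSeparable F L ∧ FiniteDimensional F L ∧ Module.finrank F L = δ * δ' := by
  let a1 : Algebra E L := j.toAlgebra
  let a2 : Algebra F E := i.toAlgebra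
  let a3 : Algebra F L := k.toAlgebra
  have : IsScalarTower F E L := IsScalarTower.of_algebraMap_eq' hk
  obtain ⟨s1, f1, r1⟩ := h1
  obtain ⟨s2, f2, r2⟩ := h2
  refine ⟨Algebra.IsSeparable.trans F E L, FiniteDimensional.trans F E L, ?_⟩
  rw [← r1, ← r2, mul_comm]
  exact (Module.finrank_mul_finrank F E L).symm

/-- A bijective ring homomorphism of fields is a finite separable extension of degree one. -/
theorem sep_of_bijective {F E : Type*} [Field F] [Field E] (i : F →+* E)
    (hi : Function.Bijective i) :
    letI := i.toAlgebra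
    Algebra.IsSeparable F E ∧ FiniteDimensional F E ∧ Module.finrank F E = 1 := by
  let a : Algebra F E := i.toAlgebra
  have hb : Function.Bijective (Algebra.linearMap F E) := hi
  let e : F ≃ₗ[F] E := LinearEquiv.ofBijective (Algebra.linearMap F E) hb
  refine ⟨⟨fun x => ?_⟩, Module.Finite.equiv e, ?_⟩
  · obtain ⟨y, rfl⟩ := hi.2 x
    exact isSeparable_algebraMap (K := E) y
  · rw [← e.finrank_eq]
    exact Module.finrank_self F

end Algebra

section Comp

variable {Z Y X : Scheme.{u}} [IsIntegral Z] [IsIntegral Y] [IsIntegral X]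

/-- Dominant maps compose. -/
theorem isDom_comp {φ : Z ⟶ Y} {ψ : Y ⟶ X} (hφ : IsDom φ) (hψ : IsDom ψ) : IsDom (φ ≫ ψ) := by
  unfold IsDom at *
  rw [Scheme.Hom.comp_apply, hφ, hψ]

theorem funFieldHom_comp_aux {φ : Z ⟶ Y} {ψ : Y ⟶ X} (hφ : IsDom φ) (hψ : IsDom ψ) :
    X.presheaf.stalkSpecializes (specializes_of_eq (isDom_comp hφ hψ)) ≫
        (φ ≫ ψ).stalkMap (genericPoint Z) =
      (X.presheaf.stalkSpecializes (specializes_of_eq hψ) ≫ ψ.stalkMap (genericPoint Y)) ≫
        Y.presheaf.stalkSpecializes (specializes_of_eq hφ) ≫ φ.stalkMap (genericPoint Z) := by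
  rw [Scheme.Hom.stalkMap_comp, Category.assoc,
    ← Scheme.Hom.stalkSpecializes_stalkMap_assoc ψ _ _ (specializes_of_eq hφ),
    TopCat.Presheaf.stalkSpecializes_comp_assoc]
  rfl

/-- The function field map of a composite is the composite of the function field maps. -/
theorem funFieldHom_comp {φ : Z ⟶ Y} {ψ : Y ⟶ X} (hφ : IsDom φ) (hψ : IsDom ψ) :
    funFieldHom (φ ≫ ψ) (isDom_comp hφ hψ) = (funFieldHom φ hφ).comp (funFieldHom ψ hψ) :=
  congrArg CommRingCat.Hom.hom (funFieldHom_comp_aux hφ hψ)

/-- **Degrees multiply**: the composite of two separable dominant maps of degrees `δ` and `δ'`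
is separable dominant of degree `δ * δ'`. -/
theorem isSepDom_comp (φ : Z ⟶ Y) (ψ : Y ⟶ X) {δ δ' : ℕ} (hφ : IsSepDom φ δ)
    (hψ : IsSepDom ψ δ') : IsSepDom (φ ≫ ψ) (δ * δ') := by
  obtain ⟨h1, H1⟩ := hφ
  obtain ⟨h2, H2⟩ := hψ
  exact ⟨isDom_comp h1 h2,
    sep_tower (funFieldHom ψ h2) (funFieldHom φ h1) _ (funFieldHom_comp h1 h2) H1 H2⟩

/-- The degree of a separable dominant map is unique. -/
theorem isSepDom_degree_unique {φ : Y ⟶ X} {δ δ' : ℕ} (h : IsSepDom φ δ) (h' : IsSepDom φ δ') :
    δ = δ' := by
  obtain ⟨h1, -, -, r1⟩ := h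
  obtain ⟨h2, -, -, r2⟩ := h'
  rw [← r1, ← r2]

/-- The degree of a separable dominant map is positive. -/
theorem isSepDom_pos {φ : Y ⟶ X} {δ : ℕ} (h : IsSepDom φ δ) : 0 < δ := by
  obtain ⟨h1, -, f1, r1⟩ := h
  let a : Algebra X.functionField Y.functionField := (funFieldHom φ h1).toAlgebra
  rw [← r1]
  exact Module.finrank_pos

/-- A dominant map inducing a bijection of function fields has degree one. -/
theorem isSepDom_one_of_bijective {φ : Y ⟶ X} (h : IsDom φ)
    (hb : Function.Bijective (funFieldHom φ h)) : IsSepDom φ 1 :=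
  ⟨h, sep_of_bijective _ hb⟩

theorem isDom_id : IsDom (𝟙 X) := rfl

theorem funFieldHom_id : funFieldHom (𝟙 X) isDom_id = RingHom.id _ := by
  have h : X.presheaf.stalkSpecializes (specializes_of_eq (isDom_id (X := X))) ≫
      (𝟙 X : X ⟶ X).stalkMap (genericPoint X) = 𝟙 _ := by
    rw [Scheme.Hom.stalkMap_id]
    exact (Category.comp_id _).trans (TopCat.Presheaf.stalkSpecializes_refl _ _)
  exact congrArg CommRingCat.Hom.hom h

/-- The identity is separable dominant of degree one. -/
theorem isSepDom_id : IsSepDom (𝟙 X) 1 :=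
  isSepDom_one_of_bijective isDom_id (by rw [funFieldHom_id]; exact Function.bijective_id)

end Comp

/-- **M0-COMP (1)**, the Spec statement. -/
theorem stmt_SepDomComp : Stmt_SepDomComp.{u} :=
  fun ψ φ _ _ hψ hφ => isSepDom_comp ψ φ hψ hφ

/-! ### Part (B): the weighted sum with constant weights -/

section Wsum

variable {K : Type u} [Field K] {A : Scheme.{u}} {f : A ⟶ Spec (CommRingCat.of K)}
  {L : RelativeGroupLaw K f}

/-- Natural-number powers in the point group are the frozen `nsmul`. -/
theorem zpowPt_natCast (L : RelativeGroupLaw K f) {T : Scheme.{u}}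
    (t : T ⟶ Spec (CommRingCat.of K)) (n : ℕ) (x : SchemeHomOver t f) :
    zpowPt L t (n : ℤ) x = L.nsmul t n x := by
  rw [helper2966.nsmul_eq_pow L t n x]
  let _ := L.pointGroup t
  exact zpow_natCast x n

theorem zpowPt_one (L : RelativeGroupLaw K f) {T : Scheme.{u}}
    (t : T ⟶ Spec (CommRingCat.of K)) (x : SchemeHomOver t f) :
    zpowPt L t 1 x = x := by
  let _ := L.pointGroup t
  exact zpow_one x

/-- The first coordinate map `X = C × X' ⟶ C ⟶ A` of a product of pointed curves. -/
def coordPt (P : PCurve K f L) (l : List (PCurve K f L)) :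
    SchemeHomOver (prodX (P :: l)).2 f :=
  ⟨pullback.fst P.c (prodX l).2 ≫ P.map.1, by
    show (pullback.fst P.c (prodX l).2 ≫ P.map.1) ≫ f =
      pullback.snd P.c (prodX l).2 ≫ (prodX l).2
    rw [Category.assoc, P.map.2, pullback.condition]⟩

theorem prodX_cons_str (P : PCurve K f L) (l : List (PCurve K f L)) :
    pullback.snd P.c (prodX l).2 ≫ (prodX l).2 = (prodX (P :: l)).2 :=
  rfl

/-- Unfolding of `wsum` on a cons, in terms of `schemeHomOverComp`. -/
theorem wsum_cons (L : RelativeGroupLaw K f) (P : PCurve K f L) (l : List (PCurve K f L))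
    (a : ℕ → ℤ) :
    wsum L (P :: l) a =
      L.mul (prodX (P :: l)).2 (zpowPt L (prodX (P :: l)).2 (a 0) (coordPt P l))
        (schemeHomOverComp (pullback.snd P.c (prodX l).2) (prodX_cons_str P l)
          (wsum L l (fun i => a (i + 1)))) :=
  rfl

/-- The weighted sum with all weights `n` is `n` times the sum map, as points. -/
theorem wsum_const_eq_nsmul (L : RelativeGroupLaw K f) (hc : L.IsCommutative)
    (l : List (PCurve K f L)) (n : ℕ) :
    wsum L l (fun _ => (n : ℤ)) = L.nsmul (prodX l).2 n (wsum L l (fun _ => 1)) := by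
  induction l with
  | nil =>
    show L.one (𝟙 _) = L.nsmul _ n (L.one (𝟙 _))
    exact (L.nsmul_unit _ n).symm
  | cons P l ih =>
    rw [wsum_cons, wsum_cons, ih, zpowPt_natCast, zpowPt_one, helper2966.nsmul_mul L hc,
      L.nsmul_natural]

/-- **M0-COMP (2)**, the Spec statement: the weighted sum with all weights `n` is `s ≫ [n]`. -/
theorem stmt_WsumNsmul : Stmt_WsumNsmul.{u} := by
  intro K _ A f L hc l n
  rw [wsum_const_eq_nsmul L hc l n, helper2966.nsmul_val]
  rfl

end Wsum

end Fermat.Agent.S26.helper4841
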