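import Fermat.Agent.S26.helper154_Spec

/-!
# S26-M8-PROD: the product-type bound (helper1301)

`ℓ_{C × Y}(p₁^*G₁ · p₂^*G₂) ≤ ℓ_C(G₁) · ℓ_Y(G₂)` on the vocabulary of `helper154_Spec`
(`CDiv`, `PullsTo`, `LSub`, `ell`), for integral schemes locally of finite type over an
algebraically closed field.

Proof by slices: choose `K`-points `c_1, …, c_N` (`N ≤ ℓ_C(G₁)`) of `C` outside `supp G₁` such
that a function of `L_C(G₁)` vanishing at all of them is zero; the restrictions to the slices
`{c_k} × Y` are then jointly injective on `L_X(E)`, with values in `L_Y(G₂)`.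
-/

set_option autoImplicit false

universe u

noncomputable section

open CategoryTheory CategoryTheory.Limits AlgebraicGeometry

namespace Fermat.Agent.S26.helper1301

open Fermat.Agent.S26.helper154

/-! ### Stalks inside the function field -/

section Basic

variable {X : Scheme.{u}} [IsIntegral X]

theorem algebraMap_stalk_injective (x : X) :
    Function.Injective (algebraMap (X.presheaf.stalk x) X.functionField) :=
  IsFractionRing.injective _ _

theorem algebraMap_stalkSpecializes {x x' : X} (h : x ⤳ x') (a : X.presheaf.stalk x') :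
    algebraMap (X.presheaf.stalk x) X.functionField ((X.presheaf.stalkSpecializes h).hom a) =
      algebraMap (X.presheaf.stalk x') X.functionField a := by
  change ((X.presheaf.stalkSpecializes h) ≫ X.presheaf.stalkSpecializes _).hom a = _
  rw [TopCat.Presheaf.stalkSpecializes_comp]
  rfl

theorem mem_localSubring_iff (x : X) (h : X.functionField) :
    h ∈ localSubring X x ↔ ∃ a : X.presheaf.stalk x, algebraMap _ X.functionField a = h :=
  Iff.rfl

theorem mem_unitsAt_iff (x : X) (f : (X.functionField)ˣ) :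
    f ∈ unitsAt X x ↔
      ∃ u : (X.presheaf.stalk x)ˣ, algebraMap _ X.functionField (u : X.presheaf.stalk x) = f := by
  constructor
  · rintro ⟨u, rfl⟩
    exact ⟨u, rfl⟩
  · rintro ⟨u, hu⟩
    exact ⟨u, Units.ext hu⟩

/-- Rational functions that are regular and vanish at `x` (image of the maximal ideal). -/
def vanishAt (X : Scheme.{u}) [IsIntegral X] (x : X) : Set X.functionField :=
  {h | ∃ a : X.presheaf.stalk x, ¬ IsUnit a ∧ algebraMap _ X.functionField a = h}

theorem vanishAt_subset_localSubring (x : X) {h : X.functionField} (hh : h ∈ vanishAt X x) :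
    h ∈ localSubring X x := by
  obtain ⟨a, -, ha⟩ := hh
  exact ⟨a, ha⟩

theorem zero_mem_vanishAt (x : X) : (0 : X.functionField) ∈ vanishAt X x :=
  ⟨0, not_isUnit_zero, map_zero _⟩

theorem add_mem_vanishAt (x : X) {h h' : X.functionField} (hh : h ∈ vanishAt X x)
    (hh' : h' ∈ vanishAt X x) : h + h' ∈ vanishAt X x := by
  obtain ⟨a, ha, rfl⟩ := hh
  obtain ⟨b, hb, rfl⟩ := hh'
  exact ⟨a + b, IsLocalRing.nonunits_add ha hb, map_add _ _ _⟩

theorem mul_mem_vanishAt (x : X) {h h' : X.functionField} (hh : h ∈ localSubring X x)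
    (hh' : h' ∈ vanishAt X x) : h * h' ∈ vanishAt X x := by
  obtain ⟨a, rfl⟩ := hh
  obtain ⟨b, hb, rfl⟩ := hh'
  exact ⟨a * b, fun hu => hb (isUnit_of_mul_isUnit_right hu), map_mul _ _ _⟩

/-- A unit of the local ring at `x` does not vanish at `x`. -/
theorem not_mem_vanishAt_of_mem_unitsAt (x : X) (f : (X.functionField)ˣ) (hf : f ∈ unitsAt X x) :
    (f : X.functionField) ∉ vanishAt X x := by
  rintro ⟨a, ha, hfa⟩
  obtain ⟨u, hu⟩ := (mem_unitsAt_iff x f).1 hf
  have : a = u := algebraMap_stalk_injective x (hfa.trans hu.symm)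
  exact ha (this ▸ u.isUnit)

end Basic

/-! ### Pulling rational functions back along an arbitrary morphism -/

section Pullback

variable {X Y : Scheme.{u}} [IsIntegral X] [IsIntegral Y]

theorem generic_specializes (y : Y) : genericPoint Y ⤳ y :=
  (genericPoint_spec Y).specializes trivial

omit [IsIntegral X] in
theorem map_generic_specializes (φ : Y ⟶ X) (y : Y) : φ (genericPoint Y) ⤳ φ y :=
  (generic_specializes y).map φ.continuous

omit [IsIntegral X] in
/-- Compatibility of the stalk maps at `y` and at the generic point. -/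
theorem stalkMap_generic (φ : Y ⟶ X) (y : Y) (b : X.presheaf.stalk (φ y)) :
    (φ.stalkMap (genericPoint Y)).hom
        ((X.presheaf.stalkSpecializes (map_generic_specializes φ y)).hom b) =
      algebraMap (Y.presheaf.stalk y) Y.functionField ((φ.stalkMap y).hom b) := by
  have h := Scheme.Hom.stalkSpecializes_stalkMap φ (genericPoint Y) y (generic_specializes y)
  exact ConcreteCategory.congr_hom h b

/-- The pull-back of a rational function `h` on `X` along `φ : Y ⟶ X`; it is meaningful when `h`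
is regular at the image of the generic point of `Y` (and is `0` otherwise). -/
def pb (φ : Y ⟶ X) (h : X.functionField) : Y.functionField :=
  open Classical in
  if hh : ∃ a : X.presheaf.stalk (φ (genericPoint Y)), algebraMap _ X.functionField a = h then
    (φ.stalkMap (genericPoint Y)).hom hh.choose
  else 0

theorem pb_algebraMap (φ : Y ⟶ X) (a : X.presheaf.stalk (φ (genericPoint Y))) :
    pb φ (algebraMap _ X.functionField a) = (φ.stalkMap (genericPoint Y)).hom a := by
  have hh : ∃ a' : X.presheaf.stalk (φ (genericPoint Y)),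
      algebraMap _ X.functionField a' = algebraMap _ X.functionField a := ⟨a, rfl⟩
  rw [pb, dif_pos hh]
  exact congrArg _ (algebraMap_stalk_injective _ hh.choose_spec)

/-- The pull-back of a function regular at `φ y` is computed by the stalk map at `y`. -/
theorem pb_algebraMap_stalk (φ : Y ⟶ X) (y : Y) (b : X.presheaf.stalk (φ y)) :
    pb φ (algebraMap _ X.functionField b) =
      algebraMap (Y.presheaf.stalk y) Y.functionField ((φ.stalkMap y).hom b) := by
  rw [← algebraMap_stalkSpecializes (map_generic_specializes φ y) b, pb_algebraMap,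
    stalkMap_generic]

theorem pb_zero (φ : Y ⟶ X) : pb φ (0 : X.functionField) = 0 := by
  have := pb_algebraMap φ (0 : X.presheaf.stalk (φ (genericPoint Y)))
  rwa [map_zero, map_zero] at this

theorem pb_add (φ : Y ⟶ X) {h h' : X.functionField}
    (hh : h ∈ localSubring X (φ (genericPoint Y))) (hh' : h' ∈ localSubring X (φ (genericPoint Y))) :
    pb φ (h + h') = pb φ h + pb φ h' := by
  obtain ⟨a, rfl⟩ := hh
  obtain ⟨b, rfl⟩ := hh'
  rw [← map_add, pb_algebraMap, pb_algebraMap, pb_algebraMap, map_add]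

theorem pb_mul (φ : Y ⟶ X) {h h' : X.functionField}
    (hh : h ∈ localSubring X (φ (genericPoint Y))) (hh' : h' ∈ localSubring X (φ (genericPoint Y))) :
    pb φ (h * h') = pb φ h * pb φ h' := by
  obtain ⟨a, rfl⟩ := hh
  obtain ⟨b, rfl⟩ := hh'
  rw [← map_mul, pb_algebraMap, pb_algebraMap, pb_algebraMap, map_mul]

theorem localSubring_le_of_specializes {x x' : X} (h : x ⤳ x') {f : X.functionField}
    (hf : f ∈ localSubring X x') : f ∈ localSubring X x := by
  obtain ⟨a, rfl⟩ := hf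
  exact ⟨_, algebraMap_stalkSpecializes h a⟩

/-- `h` regular at `φ y` ⟹ `φ^*h` regular at `y`. -/
theorem pb_mem_localSubring (φ : Y ⟶ X) (y : Y) {h : X.functionField}
    (hh : h ∈ localSubring X (φ y)) : pb φ h ∈ localSubring Y y := by
  obtain ⟨b, rfl⟩ := hh
  exact ⟨_, (pb_algebraMap_stalk φ y b).symm⟩

/-- `h` a unit at `φ y` ⟹ `φ^*h` is a unit at `y`. -/
theorem pb_mem_unitsAt (φ : Y ⟶ X) (y : Y) (f : (X.functionField)ˣ) (hf : f ∈ unitsAt X (φ y)) :
    ∃ g : (Y.functionField)ˣ, (g : Y.functionField) = pb φ f ∧ g ∈ unitsAt Y y := by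
  obtain ⟨u, hu⟩ := (mem_unitsAt_iff _ f).1 hf
  let v : (Y.presheaf.stalk y)ˣ :=
    Units.map ((φ.stalkMap y).hom : X.presheaf.stalk (φ y) →* Y.presheaf.stalk y) u
  refine ⟨Units.map (algebraMap (Y.presheaf.stalk y) Y.functionField :
    Y.presheaf.stalk y →* Y.functionField) v, ?_, ⟨v, rfl⟩⟩
  rw [← hu, pb_algebraMap_stalk]
  rfl

/-- `h` vanishing at `φ y` ⟹ `φ^*h` vanishes at `y`. -/
theorem pb_mem_vanishAt (φ : Y ⟶ X) (y : Y) {h : X.functionField} (hh : h ∈ vanishAt X (φ y)) :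
    pb φ h ∈ vanishAt Y y := by
  obtain ⟨b, hb, rfl⟩ := hh
  refine ⟨(φ.stalkMap y).hom b, fun hu => hb ?_, (pb_algebraMap_stalk φ y b).symm⟩
  exact (isUnit_map_iff (φ.stalkMap y).hom b).1 hu

/-- `h` regular at `φ y` with `φ^*h` vanishing at `y` ⟹ `h` vanishes at `φ y`. -/
theorem mem_vanishAt_of_pb (φ : Y ⟶ X) (y : Y) {h : X.functionField}
    (hh : h ∈ localSubring X (φ y)) (hv : pb φ h ∈ vanishAt Y y) : h ∈ vanishAt X (φ y) := by
  obtain ⟨b, rfl⟩ := hh
  obtain ⟨d, hd, hdb⟩ := hv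
  rw [pb_algebraMap_stalk] at hdb
  have : d = (φ.stalkMap y).hom b := algebraMap_stalk_injective y hdb
  exact ⟨b, fun hu => hd (this ▸ hu.map _), rfl⟩

end Pullback

/-! ### Local equations and `PullsTo` -/

section PullsToLemmas

variable {X Y : Scheme.{u}} [IsIntegral X] [IsIntegral Y]

theorem mk_eq_mk_iff (x : X) (f g : (X.functionField)ˣ) :
    (QuotientGroup.mk f : LocDiv X x) = QuotientGroup.mk g ↔
      ∃ u : (X.presheaf.stalk x)ˣ,
        (g : X.functionField) = f * algebraMap _ X.functionField (u : X.presheaf.stalk x) := by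
  rw [QuotientGroup.eq, mem_unitsAt_iff]
  constructor
  · rintro ⟨u, hu⟩
    refine ⟨u, ?_⟩
    rw [hu]
    simp
  · rintro ⟨u, hu⟩
    refine ⟨u, ?_⟩
    rw [Units.val_mul, hu]
    simp

theorem mk_eq_one_iff (x : X) (f : (X.functionField)ˣ) :
    (QuotientGroup.mk f : LocDiv X x) = 1 ↔ f ∈ unitsAt X x :=
  QuotientGroup.eq_one_iff f

theorem algebraMap_unit_mem_localSubring (x : X) (a : X.presheaf.stalk x) :
    algebraMap _ X.functionField a ∈ localSubring X x :=
  ⟨a, rfl⟩

/-- Changing the local equation does not change the condition defining `L(D)`. -/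
theorem mul_mem_localSubring_of_mk_eq (x : X) {f g : (X.functionField)ˣ}
    (hfg : (QuotientGroup.mk f : LocDiv X x) = QuotientGroup.mk g) {h : X.functionField}
    (hf : h * (f : X.functionField) ∈ localSubring X x) :
    h * (g : X.functionField) ∈ localSubring X x := by
  obtain ⟨u, hu⟩ := (mk_eq_mk_iff x f g).1 hfg
  rw [hu, ← mul_assoc]
  exact Subring.mul_mem _ hf ⟨_, rfl⟩

theorem mem_LSet_iff_of_mk_eq (D : CDiv X) (x : X) (g : (X.functionField)ˣ)
    (hg : D.1 x = QuotientGroup.mk g) (h : X.functionField) :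
    (∃ f : (X.functionField)ˣ, D.1 x = QuotientGroup.mk f ∧
      h * (f : X.functionField) ∈ localSubring X x) ↔
      h * (g : X.functionField) ∈ localSubring X x := by
  constructor
  · rintro ⟨f, hf, hhf⟩
    exact mul_mem_localSubring_of_mk_eq x (hf.symm.trans hg) hhf
  · intro hh
    exact ⟨g, hg, hh⟩

/-- Outside the support of `D`, the functions of `L(D)` are regular. -/
theorem mem_localSubring_of_mem_LSet (D : CDiv X) (x : X) (hx : D.1 x = 1) {h : X.functionField}
    (hh : h ∈ CDiv.LSet D) : h ∈ localSubring X x := by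
  have h1 := (mem_LSet_iff_of_mk_eq D x 1 (by rw [hx]; rfl) h).1 (hh x)
  simpa using h1

theorem coe_mul_apply (D D' : CDiv X) (x : X) : (D * D').1 x = D.1 x * D'.1 x := rfl

theorem coe_one_apply (x : X) : (1 : CDiv X).1 x = 1 := rfl

theorem pullsTo_mul {φ : Y ⟶ X} {D D' : CDiv X} {E E' : CDiv Y} (h : CDiv.PullsTo φ D E)
    (h' : CDiv.PullsTo φ D' E') : CDiv.PullsTo φ (D * D') (E * E') := by
  intro y
  obtain ⟨r, hr1, hr2⟩ := h y
  obtain ⟨r', hr1', hr2'⟩ := h' y
  refine ⟨r * r', ?_, ?_⟩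
  · rw [coe_mul_apply, hr1, hr1', map_mul]
    rfl
  · rw [coe_mul_apply, hr2, hr2', map_mul]
    rfl

theorem pullsTo_one_of_forall {φ : Y ⟶ X} {D : CDiv X} (hD : ∀ y : Y, D.1 (φ y) = 1) :
    CDiv.PullsTo φ D 1 := by
  intro y
  refine ⟨1, ?_, ?_⟩
  · rw [hD y, map_one]
    rfl
  · rw [map_one]
    rfl

theorem pullsTo_of_eq {φ φ' : Y ⟶ X} (h : φ = φ') {D : CDiv X} {E : CDiv Y}
    (hP : CDiv.PullsTo φ D E) : CDiv.PullsTo φ' D E := h ▸ hP

/-- The support of a pull-back lies in the preimage of the support. -/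
theorem pullsTo_apply_eq_one {φ : Y ⟶ X} {D : CDiv X} {E : CDiv Y} (hP : CDiv.PullsTo φ D E)
    (y : Y) (hy : D.1 (φ y) = 1) : E.1 y = 1 := by
  obtain ⟨r, hr1, hr2⟩ := hP y
  rw [hy] at hr1
  obtain ⟨u, hu⟩ := (mem_unitsAt_iff _ _).1 ((mk_eq_one_iff _ _).1 hr1.symm)
  have hur : (X.presheaf.stalkSpecializes (map_generic_specializes φ y)).hom
      (u : X.presheaf.stalk (φ y)) = (r : X.presheaf.stalk (φ (genericPoint Y))) := by
    apply algebraMap_stalk_injective
    rw [algebraMap_stalkSpecializes, hu]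
    rfl
  rw [hr2, mk_eq_one_iff, mem_unitsAt_iff]
  refine ⟨Units.map ((φ.stalkMap y).hom : X.presheaf.stalk (φ y) →* Y.presheaf.stalk y) u, ?_⟩
  rw [Units.coe_map, Units.coe_map]
  change _ = (φ.stalkMap (genericPoint Y)).hom (r : X.presheaf.stalk (φ (genericPoint Y)))
  rw [← hur, stalkMap_generic]
  rfl

/-- If `D` pulls back along `φ`, the functions of `L(D)` are regular at the image of the generic
point. -/
theorem mem_localSubring_generic_of_pullsTo {φ : Y ⟶ X} {D : CDiv X} {E : CDiv Y}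
    (hP : CDiv.PullsTo φ D E) {h : X.functionField} (hh : h ∈ CDiv.LSet D) :
    h ∈ localSubring X (φ (genericPoint Y)) := by
  obtain ⟨r, hr1, -⟩ := hP (genericPoint Y)
  have h1 := (mem_LSet_iff_of_mk_eq D _ _ hr1 h).1 (hh _)
  rw [Units.coe_map] at h1
  have h2 : h = h * (algebraMap (X.presheaf.stalk (φ (genericPoint Y))) X.functionField
      (r : X.presheaf.stalk (φ (genericPoint Y)))) *
      algebraMap (X.presheaf.stalk (φ (genericPoint Y))) X.functionField
        ((r⁻¹ : (X.presheaf.stalk (φ (genericPoint Y)))ˣ) : X.presheaf.stalk (φ (genericPoint Y))) := by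
    rw [mul_assoc, ← map_mul, Units.mul_inv, map_one, mul_one]
  rw [h2]
  exact Subring.mul_mem _ h1 ⟨_, rfl⟩

/-- `L`-compatibility of pull-backs (slice form: `φ` need not be dominant). -/
theorem pb_mem_LSet {φ : Y ⟶ X} {D : CDiv X} {E : CDiv Y} (hP : CDiv.PullsTo φ D E)
    {h : X.functionField} (hh : h ∈ CDiv.LSet D) : pb φ h ∈ CDiv.LSet E := by
  intro y
  obtain ⟨r, hr1, hr2⟩ := hP y
  refine ⟨_, hr2, ?_⟩
  have h1 : h * algebraMap (X.presheaf.stalk (φ (genericPoint Y))) X.functionField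
      (r : X.presheaf.stalk (φ (genericPoint Y))) ∈ localSubring X (φ y) :=
    (mem_LSet_iff_of_mk_eq D _ _ hr1 h).1 (hh _)
  have h2 := pb_mem_localSubring φ y h1
  rw [pb_mul φ (mem_localSubring_generic_of_pullsTo hP hh) ⟨_, rfl⟩, pb_algebraMap] at h2
  exact h2

end PullsToLemmas

/-! ### `PullsTo` for the identity and cancellation -/

section Cancel

variable {X Y Z : Scheme.{u}} [IsIntegral X] [IsIntegral Y] [IsIntegral Z]

theorem algebraMap_generic (a : X.functionField) :
    @algebraMap (X.presheaf.stalk (genericPoint X)) X.functionField _ _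
      (stalkFunctionFieldAlgebra X (genericPoint X)) a = a := by
  change (X.presheaf.stalkSpecializes ((genericPoint_spec X).specializes trivial)).hom a = a
  rw [TopCat.Presheaf.stalkSpecializes_refl]
  rfl

theorem pullsTo_id (D : CDiv X) : CDiv.PullsTo (𝟙 X) D D := by
  intro y
  obtain ⟨f, hf⟩ := QuotientGroup.mk_surjective (D.1 y)
  refine ⟨f, ?_, ?_⟩
  · change D.1 y = _
    rw [← hf]
    congr 1
    ext
    exact (algebraMap_generic (X := X) (f : X.functionField)).symm
  · rw [← hf]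
    congr 1
    ext
    change (f : X.functionField) =
      ((𝟙 X : X ⟶ X).stalkMap (genericPoint X)).hom (f : X.functionField)
    rw [Scheme.Hom.stalkMap_id]
    rfl

/-- Cancellation: if `E = ψ^*D` and `F = (φ ≫ ψ)^*D` then `F = φ^*E`. -/
theorem pullsTo_cancel {ψ : X ⟶ Z} {φ : Y ⟶ X} {D : CDiv Z} {E : CDiv X} {F : CDiv Y}
    (h1 : CDiv.PullsTo ψ D E) (h2 : CDiv.PullsTo (φ ≫ ψ) D F) : CDiv.PullsTo φ E F := by
  intro y
  obtain ⟨r, hr1, hr2⟩ := h1 (φ y)
  obtain ⟨r'', hs1, hs2⟩ := h2 y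
  -- `r''` is a unit of the stalk of `Z` at `ψ (φ η_Y)`
  let s : (Z.presheaf.stalk (ψ (φ (genericPoint Y))))ˣ := r''
  have hs1' : D.1 (ψ (φ y)) = QuotientGroup.mk (Units.map
      (algebraMap (Z.presheaf.stalk (ψ (φ (genericPoint Y)))) Z.functionField :
        Z.presheaf.stalk (ψ (φ (genericPoint Y))) →* Z.functionField) s) := hs1
  rw [hr1] at hs1'
  obtain ⟨u, hu⟩ := (mk_eq_mk_iff _ _ _).1 hs1'
  rw [Units.coe_map, Units.coe_map] at hu
  -- the relation in the stalk of `Z` at `ψ η_X`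
  have hrel : (Z.presheaf.stalkSpecializes (map_generic_specializes ψ (φ (genericPoint Y)))).hom
      (s : Z.presheaf.stalk (ψ (φ (genericPoint Y)))) =
      (r : Z.presheaf.stalk (ψ (genericPoint X))) *
        (Z.presheaf.stalkSpecializes (map_generic_specializes ψ (φ y))).hom
          (u : Z.presheaf.stalk (ψ (φ y))) := by
    apply algebraMap_stalk_injective
    rw [map_mul, algebraMap_stalkSpecializes, algebraMap_stalkSpecializes]
    exact hu
  have hrel2 := congrArg (ψ.stalkMap (genericPoint X)).hom hrel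
  rw [map_mul, stalkMap_generic, stalkMap_generic] at hrel2
  refine ⟨Units.map ((ψ.stalkMap (φ (genericPoint Y))).hom :
    Z.presheaf.stalk (ψ (φ (genericPoint Y))) →* X.presheaf.stalk (φ (genericPoint Y))) s, ?_, ?_⟩
  · rw [hr2, mk_eq_mk_iff]
    refine ⟨Units.map ((ψ.stalkMap (φ y)).hom :
      Z.presheaf.stalk (ψ (φ y)) →* X.presheaf.stalk (φ y)) u, ?_⟩
    exact hrel2
  · rw [hs2]
    congr 1
    ext
    rw [Units.coe_map, Units.coe_map, Units.coe_map]
    change ((φ ≫ ψ).stalkMap (genericPoint Y)).hom (s : Z.presheaf.stalk (ψ (φ (genericPoint Y)))) =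
      (φ.stalkMap (genericPoint Y)).hom ((ψ.stalkMap (φ (genericPoint Y))).hom
        (s : Z.presheaf.stalk (ψ (φ (genericPoint Y)))))
    rw [Scheme.Hom.stalkMap_comp]
    rfl

end Cancel

/-! ### Open loci -/

section Loci

variable {X : Scheme.{u}} [IsIntegral X]

theorem isOpen_setOf_mem_localSubring (f : X.functionField) :
    IsOpen {x : X | f ∈ localSubring X x} := by
  rw [isOpen_iff_forall_mem_open]
  rintro x ⟨a, rfl⟩
  obtain ⟨U, hxU, sec, rfl⟩ := TopCat.Presheaf.exists_germ_eq X.presheaf a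
  have : Nonempty U := ⟨⟨x, hxU⟩⟩
  refine ⟨U, fun x' hx' => ⟨X.presheaf.germ U x' hx' sec, ?_⟩, U.2, hxU⟩
  rw [Scheme.algebraMap_germ_eq_germToFunctionField, Scheme.algebraMap_germ_eq_germToFunctionField]

theorem mem_unitsAt_iff_inv (x : X) (f : (X.functionField)ˣ) :
    f ∈ unitsAt X x ↔ (f : X.functionField) ∈ localSubring X x ∧
      ((f⁻¹ : (X.functionField)ˣ) : X.functionField) ∈ localSubring X x := by
  constructor
  · intro hf
    obtain ⟨u, hu⟩ := (mem_unitsAt_iff x f).1 hf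
    refine ⟨⟨u, hu⟩, ⟨((u⁻¹ : (X.presheaf.stalk x)ˣ) : X.presheaf.stalk x), ?_⟩⟩
    have h1 : algebraMap (X.presheaf.stalk x) X.functionField (u : X.presheaf.stalk x) *
        algebraMap (X.presheaf.stalk x) X.functionField
          ((u⁻¹ : (X.presheaf.stalk x)ˣ) : X.presheaf.stalk x) = 1 := by
      rw [← map_mul, Units.mul_inv, map_one]
    rw [hu] at h1
    exact (Units.inv_eq_of_mul_eq_one_right h1).symm
  · rintro ⟨⟨a, ha⟩, ⟨b, hb⟩⟩
    have hab : a * b = 1 := by
      apply algebraMap_stalk_injective x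
      rw [map_mul, ha, hb, map_one, Units.mul_inv]
    exact (mem_unitsAt_iff x f).2 ⟨⟨a, b, hab, (mul_comm b a).trans hab⟩, ha⟩

theorem isOpen_setOf_mem_unitsAt (f : (X.functionField)ˣ) :
    IsOpen {x : X | f ∈ unitsAt X x} := by
  have : {x : X | f ∈ unitsAt X x} = {x : X | (f : X.functionField) ∈ localSubring X x} ∩
      {x : X | ((f⁻¹ : (X.functionField)ˣ) : X.functionField) ∈ localSubring X x} := by
    ext x
    exact mem_unitsAt_iff_inv x f
  rw [this]
  exact (isOpen_setOf_mem_localSubring _).inter (isOpen_setOf_mem_localSubring _)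

theorem isOpen_setOf_apply_eq_one (D : CDiv X) : IsOpen {x : X | D.1 x = 1} := by
  rw [isOpen_iff_forall_mem_open]
  intro x hx
  obtain ⟨U, hxU, f, hf⟩ := D.2 x
  refine ⟨(U : Set X) ∩ {x' : X | f ∈ unitsAt X x'}, ?_, U.2.inter (isOpen_setOf_mem_unitsAt f),
    hxU, ?_⟩
  · rintro x' ⟨hx'U, hx'⟩
    change D.1 x' = 1
    rw [hf x' hx'U]
    exact (mk_eq_one_iff x' f).2 hx'
  · change f ∈ unitsAt X x
    rw [← mk_eq_one_iff, ← hf x hxU]
    exact hx

theorem mem_unitsAt_generic (f : (X.functionField)ˣ) : f ∈ unitsAt X (genericPoint X) := by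
  rw [mem_unitsAt_iff]
  refine ⟨⟨(f : X.functionField), ((f⁻¹ : (X.functionField)ˣ) : X.functionField), f.mul_inv,
    f.inv_mul⟩, ?_⟩
  exact algebraMap_generic (X := X) (f : X.functionField)

theorem apply_generic_eq_one (D : CDiv X) : D.1 (genericPoint X) = 1 := by
  obtain ⟨f, hf⟩ := QuotientGroup.mk_surjective (D.1 (genericPoint X))
  rw [← hf]
  exact (mk_eq_one_iff _ f).2 (mem_unitsAt_generic f)

end Loci

/-! ### `K`-points in open sets -/

section Density

variable {K : Type u} [Field K] [IsAlgClosed K] {X : Scheme.{u}}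

/-- The distinguished point of `Spec K`. -/
abbrev spt (K : Type u) [Field K] : Spec (CommRingCat.of K) := IsLocalRing.closedPoint K

/-- Over an algebraically closed field, a nonempty open subset of a scheme locally of finite type
contains a `K`-point. -/
theorem exists_kpoint_mem (xs : X ⟶ Spec (CommRingCat.of K)) [LocallyOfFiniteType xs]
    (U : Set X) (hU : IsOpen U) (hne : U.Nonempty) :
    ∃ s : Spec (CommRingCat.of K) ⟶ X, s ≫ xs = 𝟙 _ ∧ ∀ p, s p ∈ U := by
  have : JacobsonSpace X := LocallyOfFiniteType.jacobsonSpace (Y := Spec _) xs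
  obtain ⟨x, hxU, hx'⟩ := nonempty_inter_closedPoints hne hU.isLocallyClosed
  have hx : IsClosed {x} := hx'
  refine ⟨pointOfClosedPoint xs x hx, pointOfClosedPoint_comp xs x hx, fun p => ?_⟩
  rw [pointOfClosedPoint_apply]
  exact hxU

end Density

/-! ### Linear algebra -/

section LinearAlgebra

variable {K F₁ F₂ : Type*} [Field K] [AddCommGroup F₁] [Module K F₁] [AddCommGroup F₂]
  [Module K F₂]

/-- `N` maps that are linear on `V`, take values in the finite-dimensional `W` and are jointly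
injective on `V` bound the dimension of `V` by `N * dim W`. -/
theorem finite_and_finrank_le_of_maps (V : Submodule K F₁) (W : Submodule K F₂)
    [Module.Finite K W] (N : ℕ) (ρ : Fin N → F₁ → F₂)
    (hadd : ∀ k, ∀ v ∈ V, ∀ v' ∈ V, ρ k (v + v') = ρ k v + ρ k v')
    (hsmul : ∀ k (a : K), ∀ v ∈ V, ρ k (a • v) = a • ρ k v)
    (hmem : ∀ k, ∀ v ∈ V, ρ k v ∈ W)
    (hinj : ∀ v ∈ V, (∀ k, ρ k v = 0) → v = 0) :
    Module.Finite K V ∧ Module.finrank K V ≤ N * Module.finrank K W := by
  let Φ : V →ₗ[K] (Fin N → W) :=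
    { toFun := fun v k => ⟨ρ k v.1, hmem k v.1 v.2⟩
      map_add' := fun v v' => by
        funext k
        exact Subtype.ext (hadd k v.1 v.2 v'.1 v'.2)
      map_smul' := fun a v => by
        funext k
        exact Subtype.ext (hsmul k a v.1 v.2) }
  have hΦ : Function.Injective Φ := by
    rw [← LinearMap.ker_eq_bot, LinearMap.ker_eq_bot']
    intro v hv
    apply Subtype.ext
    apply hinj v.1 v.2
    intro k
    exact congrArg Subtype.val (congrFun hv k)
  refine ⟨Module.Finite.of_injective Φ hΦ, ?_⟩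
  have h1 := LinearMap.finrank_le_finrank_of_injective hΦ
  rw [Module.finrank_pi_fintype] at h1
  simpa using h1

/-- In a finite-dimensional space, a family of subspaces with trivial intersection has a
subfamily of at most `dim V` members with trivial intersection. -/
theorem exists_fin_family_of_forall (V : Submodule K F₁) [Module.Finite K V] {I : Type*}
    (M : I → Submodule K F₁) (h : ∀ v ∈ V, (∀ i, v ∈ M i) → v = 0) :
    ∃ (N : ℕ) (idx : Fin N → I), N ≤ Module.finrank K V ∧
      ∀ v ∈ V, (∀ k, v ∈ M (idx k)) → v = 0 := by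
  have key : ∀ n : ℕ, ∀ P : Submodule K F₁, P ≤ V → Module.finrank K P ≤ n →
      ∃ l : List I, l.length ≤ n ∧ ∀ v ∈ P, (∀ i ∈ l, v ∈ M i) → v = 0 := by
    intro n
    induction n with
    | zero =>
      intro P hPV hP
      have : FiniteDimensional K P := Submodule.finiteDimensional_of_le hPV
      have hP0 : P = ⊥ := Submodule.finrank_eq_zero.1 (Nat.le_zero.1 hP)
      exact ⟨[], le_rfl, fun v hv _ => by rw [hP0] at hv; exact (Submodule.mem_bot K).1 hv⟩
    | succ n ih =>
      intro P hPV hP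
      have : FiniteDimensional K P := Submodule.finiteDimensional_of_le hPV
      by_cases hall : ∀ v ∈ P, v = 0
      · exact ⟨[], Nat.zero_le _, fun v hv _ => hall v hv⟩
      · simp only [not_forall] at hall
        obtain ⟨v, hvP, hv0⟩ := hall
        have hex : ∃ i, v ∉ M i := by
          by_contra hcon
          exact hv0 (h v (hPV hvP) fun i => by_contra fun hi => hcon ⟨i, hi⟩)
        obtain ⟨i, hi⟩ := hex
        have hlt : P ⊓ M i < P := by
          refine lt_of_le_of_ne inf_le_left fun heq => hi ?_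
          have : v ∈ P ⊓ M i := by rw [heq]; exact hvP
          exact this.2
        have hfr : Module.finrank K ↥(P ⊓ M i) ≤ n :=
          Nat.lt_succ_iff.1 (lt_of_lt_of_le (Submodule.finrank_lt_finrank_of_lt hlt) hP)
        obtain ⟨l, hl, hl'⟩ := ih (P ⊓ M i) (inf_le_left.trans hPV) hfr
        refine ⟨i :: l, by simpa using hl, fun w hw hwl => ?_⟩
        exact hl' w ⟨hw, hwl i (List.mem_cons_self)⟩
          (fun j hj => hwl j (List.mem_cons_of_mem _ hj))
  obtain ⟨l, hl, hl'⟩ := key (Module.finrank K V) V le_rfl le_rfl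
  refine ⟨l.length, fun k => l.get k, hl, fun v hv hvk => hl' v hv fun i hi => ?_⟩
  obtain ⟨k, rfl⟩ := List.get_of_mem hi
  exact hvk k

end LinearAlgebra

/-! ### The `K`-structure -/

section KStructure

variable {K : Type u} [Field K] {X Y : Scheme.{u}} [IsIntegral X] [IsIntegral Y]

theorem constHom_eq_algebraMap_germ (xs : X ⟶ Spec (CommRingCat.of K)) (a : K) (x : X) :
    constHom xs a = algebraMap (X.presheaf.stalk x) X.functionField
      (X.presheaf.germ ⊤ x (TopologicalSpace.Opens.mem_top x)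
        (xs.appTop ((Scheme.ΓSpecIso (CommRingCat.of K)).inv a))) := by
  rw [Scheme.algebraMap_germ_eq_germToFunctionField]
  rfl

/-- Pull-back is compatible with the constants. -/
theorem pb_constHom (φ : Y ⟶ X) (xs : X ⟶ Spec (CommRingCat.of K)) (a : K) :
    pb φ (constHom xs a) = constHom (φ ≫ xs) a := by
  rw [constHom_eq_algebraMap_germ xs a (φ (genericPoint Y)), pb_algebraMap]
  have h := Scheme.Hom.germ_stalkMap φ ⊤ (genericPoint Y) (TopologicalSpace.Opens.mem_top _)
  have h2 := ConcreteCategory.congr_hom h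
    (xs.appTop ((Scheme.ΓSpecIso (CommRingCat.of K)).inv a))
  refine h2.trans ?_
  rw [constHom, Scheme.Hom.comp_appTop]
  rfl

/-- The functions vanishing at `x`, as a `K`-subspace of the function field. -/
def vanishSub (xs : X ⟶ Spec (CommRingCat.of K)) (x : X) :
    letI := (constHom xs).toAlgebra
    Submodule K X.functionField :=
  letI := (constHom xs).toAlgebra
  { carrier := vanishAt X x
    zero_mem' := zero_mem_vanishAt x
    add_mem' := fun ha hb => add_mem_vanishAt x ha hb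
    smul_mem' := fun a h hh => by
      rw [Algebra.smul_def]
      exact mul_mem_vanishAt x (constHom_mem_localSubring xs a x) hh }

theorem pullsTo_generic_eq_one {φ : Y ⟶ X} {D : CDiv X} {E : CDiv Y} (hP : CDiv.PullsTo φ D E) :
    D.1 (φ (genericPoint Y)) = 1 := by
  obtain ⟨r, hr1, -⟩ := hP (genericPoint Y)
  rw [hr1, mk_eq_one_iff, mem_unitsAt_iff]
  exact ⟨r, rfl⟩

end KStructure

/-! ### Slices of a product -/

section Slices

variable {K : Type u} [Field K] {X C Y : Scheme.{u}} {c : C ⟶ Spec (CommRingCat.of K)}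
  {y : Y ⟶ Spec (CommRingCat.of K)} {p1 : X ⟶ C} {p2 : X ⟶ Y} (sq : IsPullback p1 p2 c y)

/-- The slice `{s} × Y ⟶ X` at a `K`-point `s` of `C`. -/
def sliceAt (s : Spec (CommRingCat.of K) ⟶ C) (hs : s ≫ c = 𝟙 _) : Y ⟶ X :=
  sq.lift (y ≫ s) (𝟙 Y) (by rw [Category.assoc, hs, Category.comp_id, Category.id_comp])

theorem sliceAt_fst (s : Spec (CommRingCat.of K) ⟶ C) (hs : s ≫ c = 𝟙 _) :
    sliceAt sq s hs ≫ p1 = y ≫ s :=
  sq.lift_fst _ _ _

theorem sliceAt_snd (s : Spec (CommRingCat.of K) ⟶ C) (hs : s ≫ c = 𝟙 _) :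
    sliceAt sq s hs ≫ p2 = 𝟙 Y :=
  sq.lift_snd _ _ _

/-- The fibre `C × {t} ⟶ X` at a `K`-point `t` of `Y`. -/
def fibreAt (t : Spec (CommRingCat.of K) ⟶ Y) (ht : t ≫ y = 𝟙 _) : C ⟶ X :=
  sq.lift (𝟙 C) (c ≫ t) (by rw [Category.assoc, ht, Category.comp_id, Category.id_comp])

theorem fibreAt_fst (t : Spec (CommRingCat.of K) ⟶ Y) (ht : t ≫ y = 𝟙 _) :
    fibreAt sq t ht ≫ p1 = 𝟙 C :=
  sq.lift_fst _ _ _

theorem fibreAt_snd (t : Spec (CommRingCat.of K) ⟶ Y) (ht : t ≫ y = 𝟙 _) :
    fibreAt sq t ht ≫ p2 = c ≫ t :=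
  sq.lift_snd _ _ _

theorem comp_sliceAt_eq (s : Spec (CommRingCat.of K) ⟶ C) (hs : s ≫ c = 𝟙 _)
    (t : Spec (CommRingCat.of K) ⟶ Y) (ht : t ≫ y = 𝟙 _) :
    t ≫ sliceAt sq s hs = s ≫ fibreAt sq t ht := by
  apply sq.hom_ext
  · rw [Category.assoc, sliceAt_fst, Category.assoc, fibreAt_fst, ← Category.assoc, ht,
      Category.id_comp, Category.comp_id]
  · rw [Category.assoc, sliceAt_snd, Category.assoc, fibreAt_snd, ← Category.assoc, hs,
      Category.id_comp, Category.comp_id]

variable [IsIntegral X] [IsIntegral C] [IsIntegral Y]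

/-- Along the slice `{s} × Y` with `s ∉ supp G₁`, the divisor `p₁^*G₁ · p₂^*G₂` pulls back to
`G₂`. -/
theorem pullsTo_sliceAt {G1 : CDiv C} {G2 : CDiv Y} {E1 E2 : CDiv X}
    (h1 : CDiv.PullsTo p1 G1 E1) (h2 : CDiv.PullsTo p2 G2 E2)
    (s : Spec (CommRingCat.of K) ⟶ C) (hs : s ≫ c = 𝟙 _) (hsG : ∀ p, G1.1 (s p) = 1) :
    CDiv.PullsTo (sliceAt sq s hs) (E1 * E2) G2 := by
  have a1 : CDiv.PullsTo (sliceAt sq s hs) E1 1 :=
    pullsTo_cancel h1 (pullsTo_of_eq (sliceAt_fst sq s hs).symm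
      (pullsTo_one_of_forall (φ := y ≫ s) fun y' => hsG (y y')))
  have a2 : CDiv.PullsTo (sliceAt sq s hs) E2 G2 :=
    pullsTo_cancel h2 (pullsTo_of_eq (sliceAt_snd sq s hs).symm (pullsTo_id G2))
  have h := pullsTo_mul a1 a2
  rwa [one_mul] at h

/-- Along the fibre `C × {t}` with `t ∉ supp G₂`, the divisor `p₁^*G₁ · p₂^*G₂` pulls back to
`G₁`. -/
theorem pullsTo_fibreAt {G1 : CDiv C} {G2 : CDiv Y} {E1 E2 : CDiv X}
    (h1 : CDiv.PullsTo p1 G1 E1) (h2 : CDiv.PullsTo p2 G2 E2)
    (t : Spec (CommRingCat.of K) ⟶ Y) (ht : t ≫ y = 𝟙 _) (htG : ∀ p, G2.1 (t p) = 1) :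
    CDiv.PullsTo (fibreAt sq t ht) (E1 * E2) G1 := by
  have a1 : CDiv.PullsTo (fibreAt sq t ht) E1 G1 :=
    pullsTo_cancel h1 (pullsTo_of_eq (fibreAt_fst sq t ht).symm (pullsTo_id G1))
  have a2 : CDiv.PullsTo (fibreAt sq t ht) E2 1 :=
    pullsTo_cancel h2 (pullsTo_of_eq (fibreAt_snd sq t ht).symm
      (pullsTo_one_of_forall (φ := c ≫ t) fun c' => htG (c c')))
  have h := pullsTo_mul a1 a2
  rwa [mul_one] at h

end Slices

/-! ### The product-type bound -/

section Main

variable {K : Type u} [Field K] [IsAlgClosed K] {X C Y : Scheme.{u}} [IsIntegral X]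
  [IsIntegral C] [IsIntegral Y] {c : C ⟶ Spec (CommRingCat.of K)}
  {y : Y ⟶ Spec (CommRingCat.of K)} {p1 : X ⟶ C} {p2 : X ⟶ Y}

/-- A function of `L(G)` vanishing at all `K`-points outside `supp G` is zero. -/
theorem eq_zero_of_forall_vanishAt [LocallyOfFiniteType c] (G1 : CDiv C) {f : C.functionField}
    (hv : ∀ s : Spec (CommRingCat.of K) ⟶ C, s ≫ c = 𝟙 _ → (∀ p, G1.1 (s p) = 1) →
      f ∈ vanishAt C (s (spt K))) : f = 0 := by
  by_contra hf0
  obtain ⟨s, hs, hsU⟩ := exists_kpoint_mem c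
    ({x | Units.mk0 f hf0 ∈ unitsAt C x} ∩ {x | G1.1 x = 1})
    ((isOpen_setOf_mem_unitsAt _).inter (isOpen_setOf_apply_eq_one G1))
    ⟨genericPoint C, mem_unitsAt_generic _, apply_generic_eq_one G1⟩
  exact not_mem_vanishAt_of_mem_unitsAt _ (Units.mk0 f hf0) (hsU (spt K)).1
    (hv s hs fun p => (hsU p).2)

/-- **Product-type bound.** For `X = C ×_K Y` (any pull-back square) and divisors `G₁` on `C`,
`G₂` on `Y` with pull-backs `E₁`, `E₂` to `X`:
`ℓ_X(E₁ · E₂) ≤ ℓ_C(G₁) · ℓ_Y(G₂)`, and `L_X(E₁ · E₂)` is finite-dimensional. -/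
theorem ell_prod_le (sq : IsPullback p1 p2 c y) [LocallyOfFiniteType c] [LocallyOfFiniteType y]
    (G1 : CDiv C) (G2 : CDiv Y) (E1 E2 : CDiv X)
    (h1 : CDiv.PullsTo p1 G1 E1) (h2 : CDiv.PullsTo p2 G2 E2)
    (hf1 : CDiv.LFinite c G1) (hf2 : CDiv.LFinite y G2) :
    CDiv.LFinite (p1 ≫ c) (E1 * E2) ∧
      CDiv.ell (p1 ≫ c) (E1 * E2) ≤ CDiv.ell c G1 * CDiv.ell y G2 := by
  classical
  let algC := (constHom c).toAlgebra
  let algY := (constHom y).toAlgebra
  let algX := (constHom (p1 ≫ c)).toAlgebra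
  have : Module.Finite K (CDiv.LSub c G1) := hf1
  have : Module.Finite K (CDiv.LSub y G2) := hf2
  have : LocallyOfFiniteType p1 :=
    MorphismProperty.of_isPullback (P := @LocallyOfFiniteType) sq.flip inferInstance
  -- choose the points of `C`
  let I := {s : Spec (CommRingCat.of K) ⟶ C // s ≫ c = 𝟙 _ ∧ ∀ p, G1.1 (s p) = 1}
  have hI : ∀ f ∈ CDiv.LSub c G1, (∀ s : I, f ∈ vanishSub c (s.1 (spt K))) → f = 0 :=
    fun f _ hv => eq_zero_of_forall_vanishAt G1 fun s hs hsG => hv ⟨s, hs, hsG⟩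
  obtain ⟨N, idx, hN, hidx⟩ := exists_fin_family_of_forall (CDiv.LSub c G1)
    (fun s : I => vanishSub c (s.1 (spt K))) hI
  have hPi : ∀ k, CDiv.PullsTo (sliceAt sq (idx k).1 (idx k).2.1) (E1 * E2) G2 :=
    fun k => pullsTo_sliceAt sq h1 h2 (idx k).1 (idx k).2.1 (idx k).2.2
  have key := finite_and_finrank_le_of_maps (CDiv.LSub (p1 ≫ c) (E1 * E2)) (CDiv.LSub y G2) N
    (fun k => pb (sliceAt sq (idx k).1 (idx k).2.1)) ?_ ?_ ?_ ?_
  · exact ⟨key.1, key.2.trans (Nat.mul_le_mul_right _ hN)⟩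
  · -- additivity
    intro k v hv v' hv'
    exact pb_add _ (mem_localSubring_generic_of_pullsTo (hPi k) hv)
      (mem_localSubring_generic_of_pullsTo (hPi k) hv')
  · -- `K`-linearity
    intro k a v hv
    rw [Algebra.smul_def, Algebra.smul_def]
    change pb _ (constHom (p1 ≫ c) a * v) = constHom y a * pb _ v
    rw [pb_mul _ (constHom_mem_localSubring _ a _)
      (mem_localSubring_generic_of_pullsTo (hPi k) hv), pb_constHom]
    congr 2
    rw [← Category.assoc, sliceAt_fst, Category.assoc, (idx k).2.1, Category.comp_id]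
  · -- values in `L(G₂)`
    intro k v hv
    exact pb_mem_LSet (hPi k) hv
  · -- joint injectivity
    intro h hh hz
    by_contra h0
    obtain ⟨x, hx, hxU⟩ := exists_kpoint_mem (p1 ≫ c)
      ({x | Units.mk0 h h0 ∈ unitsAt X x} ∩ {x | G2.1 (p2 x) = 1})
      ((isOpen_setOf_mem_unitsAt _).inter
        ((isOpen_setOf_apply_eq_one G2).preimage p2.continuous))
      ⟨genericPoint X, mem_unitsAt_generic _, pullsTo_generic_eq_one h2⟩
    have ht : (x ≫ p2) ≫ y = 𝟙 _ := by
      rw [Category.assoc, ← sq.w]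
      exact hx
    have hs0 : (x ≫ p1) ≫ c = 𝟙 _ := by
      rw [Category.assoc]
      exact hx
    have htG : ∀ p, G2.1 ((x ≫ p2) p) = 1 := fun p => (hxU p).2
    have hPj := pullsTo_fibreAt sq h1 h2 (x ≫ p2) ht htG
    have hσV : pb (fibreAt sq (x ≫ p2) ht) h ∈ CDiv.LSub c G1 := pb_mem_LSet hPj hh
    have hσ0 : pb (fibreAt sq (x ≫ p2) ht) h = 0 := by
      refine hidx _ hσV fun k => ?_
      have hpt2 : sliceAt sq (idx k).1 (idx k).2.1 ((x ≫ p2) (spt K)) =
          fibreAt sq (x ≫ p2) ht ((idx k).1 (spt K)) := by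
        rw [← Scheme.Hom.comp_apply, ← Scheme.Hom.comp_apply,
          comp_sliceAt_eq sq (idx k).1 (idx k).2.1 (x ≫ p2) ht]
      have hE1 : E1.1 (sliceAt sq (idx k).1 (idx k).2.1 ((x ≫ p2) (spt K))) = 1 := by
        refine pullsTo_apply_eq_one h1 _ ?_
        have : p1 (sliceAt sq (idx k).1 (idx k).2.1 ((x ≫ p2) (spt K))) =
            (idx k).1 (y ((x ≫ p2) (spt K))) := by
          rw [← Scheme.Hom.comp_apply, sliceAt_fst, Scheme.Hom.comp_apply]
        rw [this]
        exact (idx k).2.2 _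
      have hE2 : E2.1 (sliceAt sq (idx k).1 (idx k).2.1 ((x ≫ p2) (spt K))) = 1 := by
        refine pullsTo_apply_eq_one h2 _ ?_
        have : p2 (sliceAt sq (idx k).1 (idx k).2.1 ((x ≫ p2) (spt K))) =
            (x ≫ p2) (spt K) := by
          rw [← Scheme.Hom.comp_apply, sliceAt_snd]
          rfl
        rw [this]
        exact htG _
      have hE : (E1 * E2).1 (sliceAt sq (idx k).1 (idx k).2.1 ((x ≫ p2) (spt K))) = 1 := by
        rw [coe_mul_apply, hE1, hE2]
        exact mul_one (1 : LocDiv X _)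
      have hreg : h ∈ localSubring X (sliceAt sq (idx k).1 (idx k).2.1 ((x ≫ p2) (spt K))) :=
        mem_localSubring_of_mem_LSet _ _ hE hh
      have hv : h ∈ vanishAt X (sliceAt sq (idx k).1 (idx k).2.1 ((x ≫ p2) (spt K))) :=
        mem_vanishAt_of_pb _ _ hreg (by rw [hz k]; exact zero_mem_vanishAt _)
      rw [hpt2] at hv
      exact pb_mem_vanishAt _ _ hv
    have hxj : x = (x ≫ p1) ≫ fibreAt sq (x ≫ p2) ht := by
      apply sq.hom_ext
      · rw [Category.assoc, fibreAt_fst, Category.comp_id]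
      · rw [Category.assoc, fibreAt_snd, ← Category.assoc, hs0, Category.id_comp]
    have hpt : x (spt K) = fibreAt sq (x ≫ p2) ht ((x ≫ p1) (spt K)) := by
      rw [← Scheme.Hom.comp_apply, ← hxj]
    have hunit : Units.mk0 h h0 ∈ unitsAt X (fibreAt sq (x ≫ p2) ht ((x ≫ p1) (spt K))) := by
      rw [← hpt]
      exact (hxU (spt K)).1
    obtain ⟨g, hg, -⟩ := pb_mem_unitsAt (fibreAt sq (x ≫ p2) ht) _ _ hunit
    exact g.ne_zero (hg.trans hσ0)

/-- The product-type bound with an arbitrary name for the structure morphism of `X`. -/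
theorem ell_prod_le' (sq : IsPullback p1 p2 c y) [LocallyOfFiniteType c] [LocallyOfFiniteType y]
    (xs : X ⟶ Spec (CommRingCat.of K)) (hxs : p1 ≫ c = xs)
    (G1 : CDiv C) (G2 : CDiv Y) (E1 E2 : CDiv X)
    (h1 : CDiv.PullsTo p1 G1 E1) (h2 : CDiv.PullsTo p2 G2 E2)
    (hf1 : CDiv.LFinite c G1) (hf2 : CDiv.LFinite y G2) :
    CDiv.LFinite xs (E1 * E2) ∧ CDiv.ell xs (E1 * E2) ≤ CDiv.ell c G1 * CDiv.ell y G2 := by
  subst hxs
  exact ell_prod_le sq G1 G2 E1 E2 h1 h2 hf1 hf2

/-- The product-type bound on `pullback c y`. -/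
theorem ell_pullback_le (c : C ⟶ Spec (CommRingCat.of K)) (y : Y ⟶ Spec (CommRingCat.of K))
    [LocallyOfFiniteType c] [LocallyOfFiniteType y] [IsIntegral (pullback c y)]
    (G1 : CDiv C) (G2 : CDiv Y) (E1 E2 : CDiv (pullback c y))
    (h1 : CDiv.PullsTo (pullback.fst c y) G1 E1) (h2 : CDiv.PullsTo (pullback.snd c y) G2 E2)
    (hf1 : CDiv.LFinite c G1) (hf2 : CDiv.LFinite y G2) :
    CDiv.LFinite (pullback.fst c y ≫ c) (E1 * E2) ∧
      CDiv.ell (pullback.fst c y ≫ c) (E1 * E2) ≤ CDiv.ell c G1 * CDiv.ell y G2 :=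
  ell_prod_le (IsPullback.of_hasPullback c y) G1 G2 E1 E2 h1 h2 hf1 hf2

end Main

end Fermat.Agent.S26.helper1301
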