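/-
S26-M2-PULL, part 2 (helper2004, backup of helper218): composition, cancellation, restriction of
`L(D)` and constant maps for the pull-back relation `CDiv.PullsTo` of `helper154_Spec`.

Built on the kit of `helper218_PullsTo` (`RestrictsTo`, `unitK`, `unitPull`, `specUnit`).
`φ : Y ⟶ X`, `ψ : Z ⟶ Y` are ARBITRARY morphisms of integral schemes.

* (F1) `PullsTo.cancel` : `PullsTo φ D E → PullsTo (ψ ≫ φ) D F → PullsTo ψ E F`.
* (F2) `PullsTo.comp_of_isEffective`, (F2') `PullsTo.comp_of_eq_one` : composition.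
  WARNING: `PullsTo φ D E → PullsTo ψ E F → PullsTo (ψ ≫ φ) D F` is FALSE for non-effective `D`
  (`D = div((x₁+x₂)/x₁)` on the plane, `Y` the line `x₂ = 0`, `Z` the origin).
* `pullsTo_id`, `PullsTo.of_section`, `PullsTo.congr_hom`.
* (C) `pullsTo_one_of_forall`, `PullsTo.eq_one_of_isEffective`, `PullsTo.supp_eq_preimage`.
* (H4) `exists_pullsTo_of_notMem_supp`.
* (L) `PullsTo.exists_restrictsTo_mem_LSet`, `RestrictsTo.mem_LSet`, `restrictsTo_funFieldHom`,
  `PullsTo.funFieldHom_mem_LSet`.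
* (H2) `restrictsTo_constHom`, `funFieldHom_comp_constHom`.
-/
import Fermat.Agent.S26.helper218_PullsTo

set_option autoImplicit false

universe u

open AlgebraicGeometry CategoryTheory TopologicalSpace

namespace Fermat.Agent.S26.helper2004

open Fermat.Agent.S26.helper154 Fermat.Agent.S26.helper218

variable {X Y Z : Scheme.{u}} [IsIntegral X] [IsIntegral Y] [IsIntegral Z]

/-! ### Generisation -/

/-- A Cartier divisor which is trivial at `x` is trivial at every generisation of `x`. -/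
theorem CDiv.eq_one_of_specializes (D : CDiv X) {x x' : X} (h : x' ⤳ x) (hx : D.1 x = 1) :
    D.1 x' = 1 := by
  obtain ⟨U, hxU, f, hf⟩ := D.2 x
  have hx' : x' ∈ U := h.mem_open U.isOpen hxU
  rw [hf x hxU] at hx
  obtain ⟨u, rfl⟩ := mk_eq_one_iff.1 hx
  rw [hf x' hx']
  refine mk_eq_one_iff.2 ⟨Units.map ((X.presheaf.stalkSpecializes h).hom :
    X.presheaf.stalk x →* X.presheaf.stalk x') u, ?_⟩
  ext
  simp only [stalkUnit, Units.coe_map, MonoidHom.coe_coe]
  rw [helper218.algebraMap_stalk_eq, helper218.algebraMap_stalk_eq, ← ConcreteCategory.comp_apply,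
    TopCat.Presheaf.stalkSpecializes_comp]

/-- (H4) EXISTENCE for pointed maps: if some point of `Y` is mapped outside the support of `D`,
then `D` has a pull-back along `φ`. -/
theorem exists_pullsTo_of_notMem_supp (φ : Y ⟶ X) (D : CDiv X) (y₀ : Y)
    (h : φ.base y₀ ∉ CDiv.supp D) : ∃ E : CDiv Y, CDiv.PullsTo φ D E :=
  exists_pullsTo φ D (CDiv.eq_one_of_specializes D (map_genericPoint_specializes φ y₀)
    (not_not.1 h))

/-! ### Cancellation and composition -/

/-- (F1) CANCELLATION: if `D` pulls back to `E` along `φ` and to `F` along `ψ ≫ φ`, then `E`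
pulls back to `F` along `ψ`. No hypothesis on `D`. -/
theorem PullsTo.cancel {φ : Y ⟶ X} {ψ : Z ⟶ Y} {D : CDiv X} {E : CDiv Y} {F : CDiv Z}
    (h1 : CDiv.PullsTo φ D E) (h2 : CDiv.PullsTo (ψ ≫ φ) D F) : CDiv.PullsTo ψ E F := by
  intro z
  obtain ⟨r, hD, hF⟩ : ∃ r : (X.presheaf.stalk (φ.base (ψ.base (genericPoint Z))))ˣ,
      D.1 (φ.base (ψ.base z)) =
        QuotientGroup.mk (stalkUnit X (φ.base (ψ.base (genericPoint Z))) r) ∧
      F.1 z = QuotientGroup.mk (unitPull (ψ ≫ φ) r) := h2 z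
  obtain ⟨r₁, hD₁, hE⟩ := pullsTo_iff.1 h1 (ψ.base z)
  refine ⟨Units.map ((φ.stalkMap (ψ.base (genericPoint Z))).hom :
    X.presheaf.stalk (φ.base (ψ.base (genericPoint Z))) →* Y.presheaf.stalk _) r, ?_, ?_⟩
  · rw [hE]
    rw [← unitK_specUnit φ (ψ.base (genericPoint Z)) r] at hD
    have h3 := mk_unitPull_eq φ (ψ.base z) (hD₁.symm.trans hD)
    rw [unitPull_specUnit] at h3
    exact h3
  · rw [hF]
    congr 1
    ext
    simp only [unitPull, Units.coe_map, MonoidHom.coe_coe]
    rw [Scheme.Hom.stalkMap_comp]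
    rfl

/-- (F2') COMPOSITION when the composite pull-back is defined, i.e. the image of the generic
point of `Z` is not in the support of `D`. -/
theorem PullsTo.comp_of_eq_one {φ : Y ⟶ X} {ψ : Z ⟶ Y} {D : CDiv X} {E : CDiv Y} {F : CDiv Z}
    (h0 : D.1 (φ.base (ψ.base (genericPoint Z))) = 1)
    (h1 : CDiv.PullsTo φ D E) (h2 : CDiv.PullsTo ψ E F) : CDiv.PullsTo (ψ ≫ φ) D F := by
  obtain ⟨F', hF'⟩ := exists_pullsTo (ψ ≫ φ) D h0
  rwa [PullsTo.unique h2 (PullsTo.cancel h1 hF')]

/-- For an EFFECTIVE divisor, a point where the pull-back is trivial is mapped outside the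
support. -/
theorem PullsTo.eq_one_of_isEffective {φ : Y ⟶ X} {D : CDiv X} {E : CDiv Y}
    (hD : CDiv.IsEffective D) (h : CDiv.PullsTo φ D E) (y : Y) (hE : E.1 y = 1) :
    D.1 (φ.base y) = 1 := by
  obtain ⟨r, hr, hEr⟩ := pullsTo_iff.1 h y
  obtain ⟨f, hf, w, hw⟩ := hD (φ.base y)
  rw [hEr] at hE
  obtain ⟨v, hv⟩ := mk_eq_one_iff.1 hE
  obtain ⟨u, hu⟩ := mk_eq_mk_iff.1 (hf.symm.trans hr)
  -- `unitK r = algebraMap (w * u)` is regular at `φ y`
  have hreg : (unitK φ r : X.functionField) =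
      algebraMap (X.presheaf.stalk (φ.base y)) X.functionField
        (w * (u : X.presheaf.stalk (φ.base y))) := by
    rw [hu, Units.val_mul, coe_stalkUnit, map_mul, hw]
  have h1 := restrictsTo_of_stalk φ y (w * (u : X.presheaf.stalk (φ.base y)))
  rw [← hreg] at h1
  have h2 := (restrictsTo_unitK φ r).unique h1
  rw [hv, coe_stalkUnit] at h2
  have h3 : (φ.stalkMap y).hom (w * (u : X.presheaf.stalk (φ.base y))) = v :=
    (helper218.algebraMap_stalk_injective y h2).symm
  have hunit : IsUnit (w * (u : X.presheaf.stalk (φ.base y))) :=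
    isUnit_of_map_unit (φ.stalkMap y).hom _ (h3 ▸ v.isUnit)
  rw [hr]
  refine mk_eq_one_iff.2 ⟨hunit.unit, ?_⟩
  ext
  rw [coe_stalkUnit, hreg, IsUnit.unit_spec]

/-- A point mapped outside the support of `D` is outside the support of the pull-back. -/
theorem PullsTo.eq_one_of_eq_one {φ : Y ⟶ X} {D : CDiv X} {E : CDiv Y}
    (h : CDiv.PullsTo φ D E) (y : Y) (hD : D.1 (φ.base y) = 1) : E.1 y = 1 := by
  obtain ⟨r, hr, hEr⟩ := pullsTo_iff.1 h y
  rw [hEr]
  have h1 : (QuotientGroup.mk (unitK φ r) : LocDiv X (φ.base y)) = QuotientGroup.mk (unitK φ 1) := by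
    rw [← hr, hD, unitK_one]; rfl
  rw [mk_unitPull_eq φ y h1, unitPull_one]
  rfl

/-- (F2) COMPOSITION for EFFECTIVE `D`. -/
theorem PullsTo.comp_of_isEffective {φ : Y ⟶ X} {ψ : Z ⟶ Y} {D : CDiv X} {E : CDiv Y}
    {F : CDiv Z} (hD : CDiv.IsEffective D) (h1 : CDiv.PullsTo φ D E) (h2 : CDiv.PullsTo ψ E F) :
    CDiv.PullsTo (ψ ≫ φ) D F :=
  PullsTo.comp_of_eq_one
    (PullsTo.eq_one_of_isEffective hD h1 _ (PullsTo.apply_genericPoint h2)) h1 h2

/-- SUPPORT: the support of the pull-back is contained in the preimage of the support. -/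
theorem PullsTo.supp_subset_preimage {φ : Y ⟶ X} {D : CDiv X} {E : CDiv Y}
    (h : CDiv.PullsTo φ D E) : CDiv.supp E ⊆ φ.base ⁻¹' CDiv.supp D := fun y hy hD =>
  hy (PullsTo.eq_one_of_eq_one h y hD)

/-- SUPPORT: for an EFFECTIVE divisor the support of the pull-back is the preimage of the
support. -/
theorem PullsTo.supp_eq_preimage {φ : Y ⟶ X} {D : CDiv X} {E : CDiv Y}
    (hD : CDiv.IsEffective D) (h : CDiv.PullsTo φ D E) :
    CDiv.supp E = φ.base ⁻¹' CDiv.supp D :=
  Set.Subset.antisymm (PullsTo.supp_subset_preimage h) fun y hy hE =>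
    hy (PullsTo.eq_one_of_isEffective hD h y hE)

/-! ### Constant maps, identity, sections -/

/-- (C) A divisor which is trivial along the image of `φ` pulls back to `1`. -/
theorem pullsTo_one_of_forall {φ : Y ⟶ X} {D : CDiv X} (h : ∀ y : Y, D.1 (φ.base y) = 1) :
    CDiv.PullsTo φ D 1 := fun y =>
  ⟨1, by rw [h y, map_one]; rfl, by rw [map_one]; rfl⟩

/-- (C) For an effective divisor, the pull-back is `1` iff the image of `φ` misses the support. -/
theorem pullsTo_one_iff_of_isEffective {φ : Y ⟶ X} {D : CDiv X} (hD : CDiv.IsEffective D) :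
    CDiv.PullsTo φ D 1 ↔ ∀ y : Y, D.1 (φ.base y) = 1 :=
  ⟨fun h y => PullsTo.eq_one_of_isEffective hD h y rfl, pullsTo_one_of_forall⟩

theorem PullsTo.congr_hom {φ φ' : Y ⟶ X} {D : CDiv X} {E : CDiv Y} (h : CDiv.PullsTo φ D E)
    (e : φ = φ') : CDiv.PullsTo φ' D E := e ▸ h

/-- the structure map of the stalk at the generic point is the identity. -/
theorem algebraMap_stalk_genericPoint (X : Scheme.{u}) [IsIntegral X]
    (t : X.presheaf.stalk (genericPoint X)) :
    @algebraMap (X.presheaf.stalk (genericPoint X)) X.functionField _ _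
      (stalkFunctionFieldAlgebra X (genericPoint X)) t = t :=
  congrArg (fun k => (ConcreteCategory.hom k) t)
    (TopCat.Presheaf.stalkSpecializes_refl (F := X.presheaf) (genericPoint X))

/-- Every divisor pulls back to itself along the identity. -/
theorem pullsTo_id (D : CDiv X) : CDiv.PullsTo (𝟙 X) D D := by
  intro x
  obtain ⟨f, hf⟩ := QuotientGroup.mk_surjective (D.1 x)
  refine ⟨f, ?_, ?_⟩
  · change D.1 x = _
    rw [← hf]
    congr 1
    ext
    exact (algebraMap_stalk_genericPoint X _).symm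
  · rw [← hf]
    congr 1
    ext
    change (f : X.functionField) =
      ((𝟙 X : X ⟶ X).stalkMap (genericPoint X)).hom (f : X.presheaf.stalk (genericPoint X))
    rw [Scheme.Hom.stalkMap_id]
    rfl

/-- SECTIONS: if `ψ` is a section of `φ` and `φ^* D = E`, then `ψ^* E = D` (slices of a
projection). -/
theorem PullsTo.of_section {φ : Y ⟶ X} {ψ : X ⟶ Y} {D : CDiv X} {E : CDiv Y}
    (h : CDiv.PullsTo φ D E) (hs : ψ ≫ φ = 𝟙 X) : CDiv.PullsTo ψ E D :=
  PullsTo.cancel h (hs ▸ pullsTo_id D)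

/-! ### Restriction of `L(D)` -/

/-- (L1) REGULARITY: if `φ^* D` exists, every `h ∈ L(D)` is regular at `φ(η_Y)`, hence has a
restriction to `Y`. -/
theorem PullsTo.exists_restrictsTo {φ : Y ⟶ X} {D : CDiv X} {E : CDiv Y}
    (h : CDiv.PullsTo φ D E) {f : X.functionField} (hf : f ∈ CDiv.LSet D) :
    ∃ g : Y.functionField, RestrictsTo φ f g := by
  obtain ⟨e, he, w, hw⟩ := hf (φ.base (genericPoint Y))
  rw [PullsTo.apply_genericPoint h] at he
  obtain ⟨u, rfl⟩ := mk_eq_one_iff.1 he.symm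
  refine ⟨_, w * ((u⁻¹ : (X.presheaf.stalk (φ.base (genericPoint Y)))ˣ) :
    X.presheaf.stalk (φ.base (genericPoint Y))), ?_, rfl⟩
  have hinv : algebraMap (X.presheaf.stalk (φ.base (genericPoint Y))) X.functionField
      (u : X.presheaf.stalk (φ.base (genericPoint Y))) *
      algebraMap (X.presheaf.stalk (φ.base (genericPoint Y))) X.functionField
        ((u⁻¹ : (X.presheaf.stalk (φ.base (genericPoint Y)))ˣ) :
          X.presheaf.stalk (φ.base (genericPoint Y))) = 1 := by
    rw [← map_mul, ← Units.val_mul, mul_inv_cancel, Units.val_one, map_one]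
  rw [map_mul, hw, coe_stalkUnit, mul_assoc, hinv, mul_one]

/-- (L2) RESTRICTION (dominant or not): if `φ^* D = E`, `h ∈ L(D)` and `h` restricts to `g`,
then `g ∈ L(E)`. -/
theorem RestrictsTo.mem_LSet {φ : Y ⟶ X} {D : CDiv X} {E : CDiv Y} (h : CDiv.PullsTo φ D E)
    {f : X.functionField} {g : Y.functionField} (hfg : RestrictsTo φ f g)
    (hf : f ∈ CDiv.LSet D) : g ∈ CDiv.LSet E := by
  intro y
  obtain ⟨r, hr, hE⟩ := pullsTo_iff.1 h y
  refine ⟨unitPull φ r, hE, ?_⟩
  obtain ⟨e, he, hmem⟩ := hf (φ.base y)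
  obtain ⟨u, hu⟩ := mk_eq_mk_iff.1 (he.symm.trans hr)
  have hmem' : f * (unitK φ r : X.functionField) ∈ localSubring X (φ.base y) := by
    rw [hu, Units.val_mul, ← mul_assoc]
    exact Subring.mul_mem _ hmem ⟨_, rfl⟩
  exact (hfg.mul (restrictsTo_unitK φ r)).mem_localSubring y hmem'

/-- (L) both at once: the restriction of `L(D)` along `φ` lands in `L(φ^* D)`. -/
theorem PullsTo.exists_restrictsTo_mem_LSet {φ : Y ⟶ X} {D : CDiv X} {E : CDiv Y}
    (h : CDiv.PullsTo φ D E) {f : X.functionField} (hf : f ∈ CDiv.LSet D) :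
    ∃ g : Y.functionField, RestrictsTo φ f g ∧ g ∈ CDiv.LSet E := by
  obtain ⟨g, hg⟩ := PullsTo.exists_restrictsTo h hf
  exact ⟨g, hg, RestrictsTo.mem_LSet h hg hf⟩

/-- For a dominant morphism, every rational function restricts to its image under
`funFieldHom`. -/
theorem restrictsTo_funFieldHom (φ : Y ⟶ X) (hdom : IsDom φ) (f : X.functionField) :
    RestrictsTo φ f (funFieldHom φ hdom f) := by
  refine ⟨X.presheaf.stalkSpecializes (specializes_of_eq hdom) f, ?_, rfl⟩
  rw [helper218.algebraMap_stalk_eq, ← ConcreteCategory.comp_apply,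
    TopCat.Presheaf.stalkSpecializes_comp]
  exact congrArg (fun k => (ConcreteCategory.hom k) f)
    (TopCat.Presheaf.stalkSpecializes_refl (F := X.presheaf) (genericPoint X))

/-- (L), dominant form: `funFieldHom φ` maps `L(D)` into `L(φ^* D)`. -/
theorem PullsTo.funFieldHom_mem_LSet {φ : Y ⟶ X} {D : CDiv X} {E : CDiv Y}
    (h : CDiv.PullsTo φ D E) (hdom : IsDom φ) {f : X.functionField} (hf : f ∈ CDiv.LSet D) :
    funFieldHom φ hdom f ∈ CDiv.LSet E :=
  RestrictsTo.mem_LSet h (restrictsTo_funFieldHom φ hdom f) hf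

/-! ### The `K`-structure -/

/-- (H2), general form: constants restrict to constants along a morphism over `Spec K`. -/
theorem restrictsTo_constHom {K : Type u} [Field K] (φ : Y ⟶ X)
    (x : X ⟶ Spec (CommRingCat.of K)) (y : Y ⟶ Spec (CommRingCat.of K)) (hφ : φ ≫ x = y) (a : K) :
    RestrictsTo φ (constHom x a) (constHom y a) := by
  subst hφ
  refine ⟨X.presheaf.germ ⊤ (φ.base (genericPoint Y)) (Opens.mem_top _)
    (x.appTop ((Scheme.ΓSpecIso (CommRingCat.of K)).inv a)), ?_, ?_⟩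
  · rw [Scheme.algebraMap_germ_eq_germToFunctionField]
    rfl
  · rw [Scheme.Hom.germ_stalkMap_apply]
    simp only [constHom, Scheme.Hom.comp_appTop, CommRingCat.hom_comp, RingHom.coe_comp,
      Function.comp_apply]
    rfl

/-- (H2) THE TOWER `K ⊆ K(X) ⊆ K(Y)`: for a dominant morphism over `Spec K`, `funFieldHom`
is a `K`-algebra map. -/
theorem funFieldHom_comp_constHom {K : Type u} [Field K] (φ : Y ⟶ X) (hdom : IsDom φ)
    (x : X ⟶ Spec (CommRingCat.of K)) (y : Y ⟶ Spec (CommRingCat.of K)) (hφ : φ ≫ x = y) :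
    (funFieldHom φ hdom).comp (constHom x) = constHom y := by
  ext a
  exact (restrictsTo_funFieldHom φ hdom (constHom x a)).unique (restrictsTo_constHom φ x y hφ a)

end Fermat.Agent.S26.helper2004
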