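/-
S26-M2-PULL (helper2004): the two M2-PULL input Props of `helper4871.stmt_Upper_of`, closed.

* `stmt_PullExists : helper4871.Stmt_PullExists` — existence of the pull-back along a map sending
  some point outside the support (`helper2004.exists_pullsTo_of_notMem_supp`).
* `stmt_PullEff : helper4871.Stmt_PullEff` — pull-backs of effective divisors are effective
  (`helper218.PullsTo.isEffective`).
-/
import Fermat.Agent.S26.helper4871_Upper
import Fermat.Agent.S26.helper2004_PullsTo

set_option autoImplicit false

universe u

open AlgebraicGeometry CategoryTheory

namespace Fermat.Agent.S26.helper2004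

open Fermat.Agent.S26.helper154

/-- M2-PULL (H4): existence of the pull-back for pointed maps. -/
theorem stmt_PullExists : Fermat.Agent.S26.helper4871.Stmt_PullExists.{u} :=
  fun φ D y₀ h => exists_pullsTo_of_notMem_supp φ D y₀ h

/-- M2-PULL: the pull-back of an effective divisor is effective. -/
theorem stmt_PullEff : Fermat.Agent.S26.helper4871.Stmt_PullEff.{u} :=
  fun _ _ _ h hD => Fermat.Agent.S26.helper218.PullsTo.isEffective h hD

end Fermat.Agent.S26.helper2004
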