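import Fermat.Agent.S26.helper154_Spec
import Fermat.Agent.S25.helper9237_CurveLocal

/-!
# S26, leaf M8-CURVE-SCH (helper3880): the Riemann inequality on the Spec vocabulary

For a proper integral curve `C` over an algebraically closed field `K` whose non-generic points
have discrete valuation rings as stalks (in particular for a smooth proper integral curve), and
an effective Cartier divisor `G` on `C` (in the sense of `helper154.CDiv`), there is `δ` with
`ℓ(G ^ m) ≤ m * δ + 1` for all `m`.

Main statements: `exists_linear_bound` (DVR stalks off the generic point),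
`exists_linear_bound_of_closed` (DVR stalks at closed points),
`exists_linear_bound_of_smooth` (smooth of relative dimension one).
By-products: `complete`, `res`, `isClosed_supp`, `genericPoint_notMem_supp`, `main_bound`.
-/

set_option autoImplicit false

universe u

noncomputable section

open CategoryTheory CategoryTheory.Limits AlgebraicGeometry TopologicalSpace Opposite

namespace Fermat.Agent.S26.helper3880

open Fermat.Agent.S26.helper154

section Glue

variable {X : Scheme.{u}} [IsIntegral X]

theorem germToFunctionField_res {U V : X.Opens} [Nonempty U] [Nonempty V] (i : V ⟶ U)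
    (s : Γ(X, U)) :
    X.germToFunctionField V (X.presheaf.map i.op s) = X.germToFunctionField U s := by
  exact X.presheaf.germ_res_apply i (genericPoint X) _ s

/-- A rational function lying in every local ring is a global section. -/
theorem exists_section_of_forall_mem_localSubring (h : X.functionField)
    (hh : ∀ x : X, h ∈ localSubring X x) :
    ∃ s : Γ(X, ⊤), X.germToFunctionField ⊤ s = h := by
  have key : ∀ x : X, ∃ (U : X.Opens) (_ : x ∈ U) (_ : Nonempty U) (s : Γ(X, U)),
      X.germToFunctionField U s = h := by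
    intro x
    obtain ⟨g, hg⟩ := hh x
    obtain ⟨U, hxU, s, hs⟩ := X.presheaf.exists_germ_eq g
    have : Nonempty U := ⟨⟨x, hxU⟩⟩
    refine ⟨U, hxU, inferInstance, s, ?_⟩
    rw [← hg, ← hs, Scheme.algebraMap_germ_eq_germToFunctionField]
  choose U hxU hne s hs using key
  have hcompat : TopCat.Presheaf.IsCompatible X.presheaf U s := by
    intro x y
    have : Nonempty (U x ⊓ U y : X.Opens) :=
      ⟨⟨genericPoint X, ⟨((genericPoint_spec X).mem_open_set_iff (U x).isOpen).mpr
        (by simpa using hne x), ((genericPoint_spec X).mem_open_set_iff (U y).isOpen).mpr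
        (by simpa using hne y)⟩⟩⟩
    have := hne x
    have := hne y
    apply Scheme.germToFunctionField_injective X (U x ⊓ U y)
    rw [germToFunctionField_res, germToFunctionField_res, hs, hs]
  obtain ⟨t, ht, -⟩ := X.sheaf.existsUnique_gluing' U ⊤ (fun x => homOfLE le_top)
    (fun x _ => Opens.mem_iSup.mpr ⟨x, hxU x⟩) s hcompat
  refine ⟨t, ?_⟩
  have x0 : X := genericPoint X
  have := hne x0
  rw [← hs x0, ← ht x0]
  exact (germToFunctionField_res (homOfLE le_top) t).symm

end Glue

section Complete

variable {K : Type u} [Field K] [IsAlgClosed K] {C : Scheme.{u}} [IsIntegral C]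

/-- Global sections of an integral universally closed scheme over an algebraically closed
field are constants. -/
theorem exists_const_eq_section (c : C ⟶ Spec (CommRingCat.of K)) [UniversallyClosed c]
    (s : Γ(C, ⊤)) :
    ∃ a : K, c.appTop ((Scheme.ΓSpecIso (CommRingCat.of K)).inv a) = s := by
  let F := (Scheme.ΓSpecIso (CommRingCat.of K)).inv ≫ c.appTop
  have hF : F.hom.IsIntegral := by
    apply RingHom.isIntegral_respectsIso.2
      (e := (Scheme.ΓSpecIso (CommRingCat.of K)).symm.commRingCatIsoToRingEquiv)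
    exact isIntegral_appTop_of_universallyClosed c
  obtain ⟨a, ha⟩ := (IsAlgClosed.ringHom_bijective_of_isIntegral F.hom hF).2 s
  exact ⟨a, ha⟩

/-- (COMPLETE) A rational function on an integral universally closed `K`-scheme (`K`
algebraically closed) that lies in every local ring is a constant. -/
theorem complete (c : C ⟶ Spec (CommRingCat.of K)) [UniversallyClosed c] (h : C.functionField)
    (hh : ∀ x : C, h ∈ localSubring C x) : ∃ a : K, constHom c a = h := by
  obtain ⟨s, hs⟩ := exists_section_of_forall_mem_localSubring h hh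
  obtain ⟨a, ha⟩ := exists_const_eq_section c s
  refine ⟨a, ?_⟩
  rw [← hs, ← ha]
  rfl

end Complete

section Res

variable {K : Type u} [Field K] [IsAlgClosed K] {C : Scheme.{u}} [IsIntegral C]

/-- The maximal ideal of `O_{C,x}` as a subset of the function field. -/
def maxSet (C : Scheme.{u}) [IsIntegral C] (x : C) : Set C.functionField :=
  (algebraMap (C.presheaf.stalk x) C.functionField) '' (IsLocalRing.maximalIdeal (C.presheaf.stalk x))

omit [IsAlgClosed K] [IsIntegral C] in
theorem fromSpecResidueField_comp_eq (c : C ⟶ Spec (CommRingCat.of K)) (x : C) :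
    C.fromSpecResidueField x ≫ c =
      Spec.map ((Scheme.ΓSpecIso (CommRingCat.of K)).inv ≫ c.appTop ≫
        C.presheaf.germ ⊤ x (Opens.mem_top x) ≫ C.residue x) := by
  have h1 : c = C.toSpecΓ ≫ Spec.map c.appTop ≫ Spec.map (Scheme.ΓSpecIso (CommRingCat.of K)).inv := by
    rw [← Scheme.toSpecΓ_naturality_assoc, toSpecΓ_SpecMap_ΓSpecIso_inv, Category.comp_id]
  conv_lhs => rw [h1]
  rw [Scheme.fromSpecResidueField, Category.assoc, Scheme.fromSpecStalk_toSpecΓ_assoc]
  simp only [Spec.map_comp, Category.assoc]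

/-- (RES) The residue field at a closed point is `K`: every element of `O_{C,x}` is congruent
to a constant modulo the maximal ideal. -/
theorem res (c : C ⟶ Spec (CommRingCat.of K)) [LocallyOfFiniteType c] (x : C) (hx : IsClosed {x})
    (g : C.functionField) (hg : g ∈ localSubring C x) :
    ∃ a : K, g - constHom c a ∈ maxSet C x := by
  obtain ⟨s, rfl⟩ := hg
  let ψ := (Scheme.ΓSpecIso (CommRingCat.of K)).inv ≫ c.appTop ≫
        C.presheaf.germ ⊤ x (Opens.mem_top x) ≫ C.residue x
  have hψ : (residueFieldIsoBase c x hx).inv = ψ := by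
    apply Spec.map_injective
    rw [SpecMap_residueFieldIsoBase_inv, fromSpecResidueField_comp_eq]
  have hsurj : Function.Surjective ψ := by
    rw [← hψ]
    exact ((ConcreteCategory.isIso_iff_bijective (residueFieldIsoBase c x hx).inv).mp
      inferInstance).2
  obtain ⟨a, ha⟩ := hsurj (C.residue x s)
  refine ⟨a, s - C.presheaf.germ ⊤ x (Opens.mem_top x)
    (c.appTop ((Scheme.ΓSpecIso (CommRingCat.of K)).inv a)), ?_, ?_⟩
  · rw [SetLike.mem_coe, ← IsLocalRing.residue_eq_zero_iff]
    change C.residue x (s - _) = 0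
    rw [map_sub, ← ha, sub_eq_zero]
    rfl
  · rw [map_sub]
    congr 1
    exact (Scheme.algebraMap_germ_eq_germToFunctionField C (x := x) (Opens.mem_top x) _).trans rfl

end Res

section Curve

variable {C : Scheme.{u}} [IsIntegral C]

/-- The generizations of a point with DVR stalk are the point itself and the generic point. -/
theorem eq_or_eq_genericPoint_of_specializes {x y : C}
    [IsDiscreteValuationRing (C.presheaf.stalk x)] (h : y ⤳ x) :
    y = x ∨ y = genericPoint C := by
  have hy : y ∈ Set.range (C.fromSpecStalk x) := by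
    rw [Scheme.range_fromSpecStalk]; exact h
  obtain ⟨p, rfl⟩ := hy
  by_cases hp : p.asIdeal = ⊥
  · right
    have hη : genericPoint C ∈ Set.range (C.fromSpecStalk x) := by
      rw [Scheme.range_fromSpecStalk]; exact (genericPoint_spec C).specializes trivial
    obtain ⟨q, hq⟩ := hη
    have h1 : p ⤳ q :=
      (PrimeSpectrum.le_iff_specializes p q).mp (by
        change p.asIdeal ≤ q.asIdeal
        rw [hp]; exact bot_le)
    have h2 : C.fromSpecStalk x p ⤳ genericPoint C :=
      hq ▸ h1.map (C.fromSpecStalk x).continuous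
    exact (h2.antisymm ((genericPoint_spec C).specializes trivial)).eq
  · left
    have hmax : p.asIdeal.IsMaximal := p.2.isMaximal hp
    have hpc : p = IsLocalRing.closedPoint _ := PrimeSpectrum.ext (IsLocalRing.eq_maximalIdeal hmax)
    rw [hpc, Scheme.fromSpecStalk_closedPoint]

/-- On a quasi-compact integral scheme whose closed points have DVR stalks, every point other
than the generic point is closed. -/
theorem isClosed_singleton_of_ne_genericPoint_of_closed [CompactSpace C]
    (hDVR : ∀ x : C, IsClosed {x} → IsDiscreteValuationRing (C.presheaf.stalk x)) {y : C}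
    (hy : y ≠ genericPoint C) : IsClosed ({y} : Set C) := by
  obtain ⟨x, hx, hxc⟩ := (isClosed_closure (s := ({y} : Set C))).exists_closed_singleton
    (Set.singleton_nonempty y).closure
  have := hDVR x hxc
  have hyx : y ⤳ x := specializes_iff_mem_closure.mpr hx
  rcases eq_or_eq_genericPoint_of_specializes hyx with rfl | h
  · exact hxc
  · exact absurd h hy

/-- On a quasi-compact integral scheme whose non-generic points have DVR stalks, every point
other than the generic point is closed. -/
theorem isClosed_singleton_of_ne_genericPoint [CompactSpace C]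
    (hDVR : ∀ x : C, x ≠ genericPoint C → IsDiscreteValuationRing (C.presheaf.stalk x)) {y : C}
    (hy : y ≠ genericPoint C) : IsClosed ({y} : Set C) := by
  obtain ⟨x, hx, hxc⟩ := (isClosed_closure (s := ({y} : Set C))).exists_closed_singleton
    (Set.singleton_nonempty y).closure
  have hyx : y ⤳ x := specializes_iff_mem_closure.mpr hx
  have hxη : x ≠ genericPoint C := by
    rintro rfl
    exact hy (hyx.antisymm ((genericPoint_spec C).specializes trivial)).eq
  have := hDVR x hxη
  rcases eq_or_eq_genericPoint_of_specializes hyx with rfl | h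
  · exact hxc
  · exact absurd h hy

/-- On a noetherian integral scheme whose non-generic points have DVR stalks, a closed subset
not containing the generic point is finite. -/
theorem finite_of_isClosed_of_genericPoint_notMem [NoetherianSpace C]
    (hDVR : ∀ x : C, x ≠ genericPoint C → IsDiscreteValuationRing (C.presheaf.stalk x)) {Z : Set C}
    (hZ : IsClosed Z) (hη : genericPoint C ∉ Z) : Z.Finite := by
  have : CompactSpace C := NoetherianSpace.compactSpace C
  obtain ⟨S, hSf, hSc, hSi, rfl⟩ := NoetherianSpace.exists_finite_set_isClosed_irreducible hZ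
  refine Set.Finite.sUnion hSf (fun t ht => ?_)
  obtain ⟨z, hz⟩ := QuasiSober.sober (hSi t ht) (hSc t ht)
  have hzt : z ∈ t := hz.mem
  have hzne : z ≠ genericPoint C := fun h => hη (h ▸ ⟨t, ht, hzt⟩)
  have hzc := isClosed_singleton_of_ne_genericPoint hDVR hzne
  have htz : t = {z} := by rw [← hz.def, hzc.closure_eq]
  rw [htz]; exact Set.finite_singleton z

end Curve

section Supp

variable {C : Scheme.{u}} [IsIntegral C]

theorem mem_unitsAt_iff (x : C) (f : (C.functionField)ˣ) :
    f ∈ unitsAt C x ↔ (f : C.functionField) ∈ localSubring C x ∧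
      ((f⁻¹ : (C.functionField)ˣ) : C.functionField) ∈ localSubring C x := by
  constructor
  · rintro ⟨u, rfl⟩
    exact ⟨⟨(u : C.presheaf.stalk x), rfl⟩, ⟨((u⁻¹ : (C.presheaf.stalk x)ˣ) : C.presheaf.stalk x),
      by rw [← map_inv]; rfl⟩⟩
  · rintro ⟨⟨s, hs⟩, ⟨s', hs'⟩⟩
    have hinj := IsFractionRing.injective (C.presheaf.stalk x) C.functionField
    have h1 : s * s' = 1 := by
      apply hinj
      rw [map_mul, map_one, hs, hs', ← Units.val_mul, mul_inv_cancel, Units.val_one]
    refine ⟨Units.mkOfMulEqOne s s' h1, ?_⟩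
    ext
    exact hs

theorem mem_localSubring_of_mem_unitsAt {x : C} {f : (C.functionField)ˣ} (hf : f ∈ unitsAt C x) :
    (f : C.functionField) ∈ localSubring C x :=
  ((mem_unitsAt_iff x f).mp hf).1

/-- The generic point is never in the support of a Cartier divisor. -/
theorem genericPoint_notMem_supp (G : CDiv C) : genericPoint C ∉ CDiv.supp G := by
  intro h
  apply h
  obtain ⟨f, hf⟩ := QuotientGroup.mk_surjective (G.1 (genericPoint C))
  rw [← hf, QuotientGroup.eq_one_iff, mem_unitsAt_iff]
  have hsurj : ∀ g : C.functionField, g ∈ localSubring C (genericPoint C) := by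
    intro g
    refine ⟨g, ?_⟩
    change (C.presheaf.stalkSpecializes _).hom g = g
    rw [TopCat.Presheaf.stalkSpecializes_refl]
    rfl
  exact ⟨hsurj _, hsurj _⟩

/-- The support of a Cartier divisor is closed. -/
theorem isClosed_supp (G : CDiv C) : IsClosed (CDiv.supp G) := by
  rw [← isOpen_compl_iff, isOpen_iff_forall_mem_open]
  intro x hx
  have hx1 : G.1 x = 1 := not_not.mp hx
  obtain ⟨U, hxU, f, hf⟩ := G.2 x
  rw [hf x hxU, QuotientGroup.eq_one_iff] at hx1
  obtain ⟨u, hu⟩ := hx1
  obtain ⟨V1, hxV1, s, hs⟩ := C.presheaf.exists_germ_eq (u : C.presheaf.stalk x)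
  obtain ⟨V2, hxV2, s', hs'⟩ := C.presheaf.exists_germ_eq
    ((u⁻¹ : (C.presheaf.stalk x)ˣ) : C.presheaf.stalk x)
  let V : C.Opens := U ⊓ V1 ⊓ V2
  have hxV : x ∈ V := ⟨⟨hxU, hxV1⟩, hxV2⟩
  have : Nonempty V := ⟨⟨x, hxV⟩⟩
  let i1 : V ⟶ V1 := homOfLE (fun y hy => hy.1.2)
  let i2 : V ⟶ V2 := homOfLE (fun y hy => hy.2)
  let r := C.presheaf.map i1.op s
  let r' := C.presheaf.map i2.op s'
  have hr : C.presheaf.germ V x hxV r = u := by
    rw [← hs]; exact C.presheaf.germ_res_apply i1 x hxV s
  have hr' : C.presheaf.germ V x hxV r' = ((u⁻¹ : (C.presheaf.stalk x)ˣ) : C.presheaf.stalk x) := by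
    rw [← hs']; exact C.presheaf.germ_res_apply i2 x hxV s'
  have hrr' : r * r' = 1 := by
    apply germ_injective_of_isIntegral C x hxV
    rw [map_mul, map_one, hr, hr', Units.mul_inv]
  have hfr : C.germToFunctionField V r = f := by
    rw [← Scheme.algebraMap_germ_eq_germToFunctionField C hxV r, hr, ← hu]; rfl
  refine ⟨V.1, ?_, V.2, hxV⟩
  intro y hy
  have hyV : y ∈ V := hy
  change ¬ (G.1 y ≠ 1)
  rw [not_not, hf y hyV.1.1, QuotientGroup.eq_one_iff]
  refine ⟨Units.mkOfMulEqOne (C.presheaf.germ V y hyV r) (C.presheaf.germ V y hyV r')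
    (by rw [← map_mul, hrr', map_one]), ?_⟩
  ext
  change algebraMap (C.presheaf.stalk y) C.functionField (C.presheaf.germ V y hyV r) = f
  rw [Scheme.algebraMap_germ_eq_germToFunctionField C hyV r, hfr]

end Supp

section Unif

variable {C : Scheme.{u}} [IsIntegral C]

theorem maxSet_subset_localSubring (x : C) {g : C.functionField} (hg : g ∈ maxSet C x) :
    g ∈ localSubring C x := by
  obtain ⟨s, -, rfl⟩ := hg
  exact ⟨s, rfl⟩

theorem maxSet_sub (x : C) {g g' : C.functionField} (hg : g ∈ maxSet C x) (hg' : g' ∈ maxSet C x) :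
    g - g' ∈ maxSet C x := by
  obtain ⟨s, hs, rfl⟩ := hg
  obtain ⟨s', hs', rfl⟩ := hg'
  exact ⟨s - s', Ideal.sub_mem _ hs hs', map_sub _ _ _⟩

theorem maxSet_mul (x : C) {a g : C.functionField} (ha : a ∈ localSubring C x)
    (hg : g ∈ maxSet C x) : a * g ∈ maxSet C x := by
  obtain ⟨r, rfl⟩ := ha
  obtain ⟨s, hs, rfl⟩ := hg
  exact ⟨r * s, Ideal.mul_mem_left _ r hs, map_mul _ _ _⟩

/-- `t` is a uniformizer at `x`. -/
def IsUnif (x : C) (t : (C.functionField)ˣ) : Prop :=
  ∃ ϖ : C.presheaf.stalk x, Irreducible ϖ ∧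
    algebraMap (C.presheaf.stalk x) C.functionField ϖ = (t : C.functionField)

theorem exists_isUnif (x : C) [IsDiscreteValuationRing (C.presheaf.stalk x)] :
    ∃ t : (C.functionField)ˣ, IsUnif x t := by
  obtain ⟨ϖ, hϖ⟩ := IsDiscreteValuationRing.exists_irreducible (C.presheaf.stalk x)
  have hne : algebraMap (C.presheaf.stalk x) C.functionField ϖ ≠ 0 := by
    rw [Ne, IsFractionRing.to_map_eq_zero_iff]
    exact hϖ.ne_zero
  exact ⟨Units.mk0 _ hne, ϖ, hϖ, rfl⟩

theorem IsUnif.mem_localSubring {x : C} {t : (C.functionField)ˣ} (ht : IsUnif x t) :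
    (t : C.functionField) ∈ localSubring C x := by
  obtain ⟨ϖ, -, h⟩ := ht
  exact ⟨ϖ, h⟩

theorem IsUnif.mul_inv_mem {x : C} [IsDiscreteValuationRing (C.presheaf.stalk x)]
    {t : (C.functionField)ˣ} (ht : IsUnif x t) {g : C.functionField} (hg : g ∈ maxSet C x) :
    g * ((t⁻¹ : (C.functionField)ˣ) : C.functionField) ∈ localSubring C x := by
  obtain ⟨ϖ, hϖ, h⟩ := ht
  obtain ⟨s, hs, rfl⟩ := hg
  rw [SetLike.mem_coe, hϖ.maximalIdeal_eq, Ideal.mem_span_singleton'] at hs
  obtain ⟨a, rfl⟩ := hs
  refine ⟨a, ?_⟩
  rw [map_mul, h, mul_assoc, ← Units.val_mul, mul_inv_cancel, Units.val_one, mul_one]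

theorem IsUnif.exists_pow_mk_eq {x : C} [IsDiscreteValuationRing (C.presheaf.stalk x)]
    {t : (C.functionField)ˣ} (ht : IsUnif x t) (f : (C.functionField)ˣ)
    (hf : (f : C.functionField) ∈ localSubring C x) :
    ∃ k : ℕ, (QuotientGroup.mk f : LocDiv C x) = QuotientGroup.mk (t ^ k) := by
  obtain ⟨ϖ, hϖ, h⟩ := ht
  obtain ⟨s, hs⟩ := hf
  have hs0 : s ≠ 0 := by
    rintro rfl
    rw [map_zero] at hs
    exact f.ne_zero hs.symm
  obtain ⟨k, u, hu⟩ := IsDiscreteValuationRing.eq_unit_mul_pow_irreducible hs0 hϖ
  refine ⟨k, ?_⟩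
  rw [eq_comm, QuotientGroup.eq]
  refine ⟨u, ?_⟩
  ext
  change algebraMap (C.presheaf.stalk x) C.functionField (u : C.presheaf.stalk x) = _
  have h2 : (f : C.functionField) =
      algebraMap (C.presheaf.stalk x) C.functionField (u : C.presheaf.stalk x) * (t : C.functionField) ^ k := by
    rw [← hs, hu, map_mul, map_pow, h]
  rw [Units.val_mul, Units.val_inv_eq_inv_val, Units.val_pow_eq_pow_val, h2]
  field_simp

end Unif

section LinAlg

/-- If any two elements of `W` are linearly dependent modulo `W'`, then `dim W ≤ dim W' + 1`. -/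
theorem finrank_le_succ_of_pair {K V : Type*} [Field K] [AddCommGroup V] [Module K V]
    (W' W : Submodule K V) [Module.Finite K W']
    (hpair : ∀ h1 ∈ W, ∀ h2 ∈ W, ∃ a b : K, (a ≠ 0 ∨ b ≠ 0) ∧ a • h1 + b • h2 ∈ W') :
    Module.Finite K W ∧ Module.finrank K W ≤ Module.finrank K W' + 1 := by
  by_cases hW : W ≤ W'
  · exact ⟨Submodule.finiteDimensional_of_le hW, (Submodule.finrank_mono hW).trans (Nat.le_succ _)⟩
  · obtain ⟨h0, h0W, h0W'⟩ := SetLike.not_le_iff_exists.mp hW
    have h00 : h0 ≠ 0 := by
      rintro rfl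
      exact h0W' (Submodule.zero_mem _)
    have hle : W ≤ W' ⊔ Submodule.span K {h0} := by
      intro h hh
      obtain ⟨a, b, hab, hmem⟩ := hpair h hh h0 h0W
      have ha : a ≠ 0 := by
        rintro rfl
        rw [zero_smul, zero_add] at hmem
        have hb : b ≠ 0 := by simpa using hab
        exact h0W' ((Submodule.smul_mem_iff _ hb).mp hmem)
      have hdec : h = a⁻¹ • (a • h + b • h0) + (-(a⁻¹ * b)) • h0 := by
        rw [smul_add, smul_smul, inv_mul_cancel₀ ha, one_smul, smul_smul, neg_smul]
        abel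
      rw [hdec]
      exact Submodule.add_mem _ (Submodule.mem_sup_left (Submodule.smul_mem _ _ hmem))
        (Submodule.mem_sup_right (Submodule.smul_mem _ _ (Submodule.mem_span_singleton_self h0)))
    have hfin : Module.Finite K ↥(W' ⊔ Submodule.span K {h0}) := inferInstance
    refine ⟨Submodule.finiteDimensional_of_le hle, (Submodule.finrank_mono hle).trans ?_⟩
    calc Module.finrank K ↥(W' ⊔ Submodule.span K {h0})
        ≤ Module.finrank K W' + Module.finrank K (Submodule.span K {h0}) :=
          Submodule.finrank_add_le_finrank_add_finrank _ _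
      _ = Module.finrank K W' + 1 := by rw [finrank_span_singleton h00]

end LinAlg

section Families

variable {K : Type u} [Field K] {C : Scheme.{u}} [IsIntegral C]

/-- `L` of an arbitrary family of germs of divisors (not necessarily Cartier). -/
def LSetF (D : ∀ x : C, LocDiv C x) : Set C.functionField :=
  {h | ∀ x : C, ∃ f : (C.functionField)ˣ, D x = QuotientGroup.mk f ∧
    h * (f : C.functionField) ∈ localSubring C x}

theorem mul_mem_localSubring_of_mk_eq {x : C} {f f' : (C.functionField)ˣ}
    (hff' : (QuotientGroup.mk f : LocDiv C x) = QuotientGroup.mk f') {h : C.functionField}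
    (hh : h * (f : C.functionField) ∈ localSubring C x) :
    h * (f' : C.functionField) ∈ localSubring C x := by
  have h1 : f⁻¹ * f' ∈ unitsAt C x := QuotientGroup.eq.mp hff'
  have h2 := mem_localSubring_of_mem_unitsAt h1
  have h3 : h * (f' : C.functionField) =
      h * f * ((f⁻¹ * f' : (C.functionField)ˣ) : C.functionField) := by
    rw [Units.val_mul, Units.val_inv_eq_inv_val]
    field_simp
  rw [h3]
  exact Subring.mul_mem _ hh h2

theorem mem_LSetF_iff {D : ∀ x : C, LocDiv C x} {h : C.functionField} :
    h ∈ LSetF D ↔ ∀ x : C, ∀ f : (C.functionField)ˣ, D x = QuotientGroup.mk f →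
      h * (f : C.functionField) ∈ localSubring C x := by
  constructor
  · intro hh x f hf
    obtain ⟨f', hf', hh'⟩ := hh x
    exact mul_mem_localSubring_of_mk_eq (hf'.symm.trans hf) hh'
  · intro hh x
    obtain ⟨f, hf⟩ := QuotientGroup.mk_surjective (D x)
    exact ⟨f, hf.symm, hh x f hf.symm⟩

/-- `L(D)` of a family as a `K`-subspace. -/
def LSubF (c : C ⟶ Spec (CommRingCat.of K)) (D : ∀ x : C, LocDiv C x) :
    letI := (constHom c).toAlgebra
    Submodule K C.functionField :=
  letI := (constHom c).toAlgebra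
  { carrier := LSetF D
    zero_mem' := mem_LSetF_iff.mpr fun x f _ => by
      rw [zero_mul]; exact Subring.zero_mem _
    add_mem' := fun {a b} ha hb => mem_LSetF_iff.mpr fun x f hf => by
      rw [add_mul]
      exact Subring.add_mem _ (mem_LSetF_iff.mp ha x f hf) (mem_LSetF_iff.mp hb x f hf)
    smul_mem' := fun a h hh => mem_LSetF_iff.mpr fun x f hf => by
      rw [Algebra.smul_def, mul_assoc]
      exact Subring.mul_mem _ (constHom_mem_localSubring c a x) (mem_LSetF_iff.mp hh x f hf) }

theorem LSub_eq_LSubF (c : C ⟶ Spec (CommRingCat.of K)) (G : CDiv C) :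
    letI := (constHom c).toAlgebra
    CDiv.LSub c G = LSubF c G.1 := by
  let _ := (constHom c).toAlgebra
  exact Submodule.ext fun h => Iff.rfl

end Families

section Main

variable {K : Type u} [Field K] [IsAlgClosed K] {C : Scheme.{u}} [IsIntegral C]

/-- Base case: the trivial family has `L = K`. -/
theorem base_case (c : C ⟶ Spec (CommRingCat.of K)) [UniversallyClosed c]
    (D : ∀ x : C, LocDiv C x) (hD : ∀ x, D x = 1) :
    letI := (constHom c).toAlgebra
    Module.Finite K (LSubF c D) ∧ Module.finrank K (LSubF c D) ≤ 1 := by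
  let _ := (constHom c).toAlgebra
  have hle : LSubF c D ≤ Submodule.span K {(1 : C.functionField)} := by
    intro h hh
    have hh' : ∀ x : C, h ∈ localSubring C x := by
      intro x
      have h1 := mem_LSetF_iff.mp hh x 1 (by rw [hD x]; rfl)
      simpa using h1
    obtain ⟨a, rfl⟩ := complete c h hh'
    rw [Submodule.mem_span_singleton]
    exact ⟨a, by rw [Algebra.smul_def, mul_one]; rfl⟩
  exact ⟨Submodule.finiteDimensional_of_le hle,
    (Submodule.finrank_mono hle).trans (by rw [finrank_span_singleton one_ne_zero])⟩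

/-- Step: lowering the order at one closed point by one lowers `dim L` by at most one. -/
theorem step (c : C ⟶ Spec (CommRingCat.of K)) [LocallyOfFiniteType c] (x0 : C)
    (hx0 : IsClosed {x0}) [IsDiscreteValuationRing (C.presheaf.stalk x0)]
    (t0 : (C.functionField)ˣ) (ht0 : IsUnif x0 t0) (k : ℕ) (D D' : ∀ x : C, LocDiv C x)
    (hD : D x0 = QuotientGroup.mk (t0 ^ (k + 1))) (hD' : D' x0 = QuotientGroup.mk (t0 ^ k))
    (hDD' : ∀ x, x ≠ x0 → D' x = D x) :
    letI := (constHom c).toAlgebra
    Module.Finite K (LSubF c D') →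
      Module.Finite K (LSubF c D) ∧
        Module.finrank K (LSubF c D) ≤ Module.finrank K (LSubF c D') + 1 := by
  let _ := (constHom c).toAlgebra
  intro hfin
  apply finrank_le_succ_of_pair
  intro h1 hh1 h2 hh2
  have hg1 := mem_LSetF_iff.mp hh1 x0 _ hD
  have hg2 := mem_LSetF_iff.mp hh2 x0 _ hD
  obtain ⟨a1, ha1⟩ := res c x0 hx0 _ hg1
  obtain ⟨a2, ha2⟩ := res c x0 hx0 _ hg2
  have key : ∀ α β : K,
      constHom c α * (h1 * ((t0 ^ (k + 1) : (C.functionField)ˣ) : C.functionField)) +
        constHom c β * (h2 * ((t0 ^ (k + 1) : (C.functionField)ˣ) : C.functionField)) ∈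
          maxSet C x0 → α • h1 + β • h2 ∈ LSubF c D' := by
    intro α β hm
    have hmem : α • h1 + β • h2 ∈ LSubF c D :=
      Submodule.add_mem _ (Submodule.smul_mem _ _ hh1) (Submodule.smul_mem _ _ hh2)
    refine mem_LSetF_iff.mpr (fun x f hf => ?_)
    by_cases hx : x = x0
    · subst hx
      rw [hD'] at hf
      refine mul_mem_localSubring_of_mk_eq hf ?_
      have h3 := ht0.mul_inv_mem hm
      have h4 : (α • h1 + β • h2) * ((t0 ^ k : (C.functionField)ˣ) : C.functionField) =
          (constHom c α * (h1 * ((t0 ^ (k + 1) : (C.functionField)ˣ) : C.functionField)) +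
            constHom c β * (h2 * ((t0 ^ (k + 1) : (C.functionField)ˣ) : C.functionField))) *
              ((t0⁻¹ : (C.functionField)ˣ) : C.functionField) := by
        rw [Algebra.smul_def, Algebra.smul_def, RingHom.algebraMap_toAlgebra,
          Units.val_pow_eq_pow_val, Units.val_pow_eq_pow_val, Units.val_inv_eq_inv_val, pow_succ]
        have ht : (t0 : C.functionField) ≠ 0 := t0.ne_zero
        field_simp
      rw [h4]
      exact h3
    · exact mem_LSetF_iff.mp hmem x f ((hDD' x hx).symm.trans hf)
  by_cases h0 : a1 = 0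
  · refine ⟨1, 0, Or.inl one_ne_zero, key 1 0 ?_⟩
    rw [h0, map_zero, sub_zero] at ha1
    rw [map_one, map_zero, one_mul, zero_mul, add_zero]
    exact ha1
  · refine ⟨a2, -a1, Or.inr (neg_ne_zero.mpr h0), key a2 (-a1) ?_⟩
    have h5 := maxSet_sub x0 (maxSet_mul x0 (constHom_mem_localSubring c a2 x0) ha1)
      (maxSet_mul x0 (constHom_mem_localSubring c a1 x0) ha2)
    convert h5 using 1
    rw [map_neg]
    ring

open Classical in
/-- The family of germs `x ↦ (t x) ^ (n x)` on `S`, trivial outside `S`. -/
def famOf (S : Finset C) (t : C → (C.functionField)ˣ) (n : C → ℕ) : ∀ x : C, LocDiv C x :=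
  fun x => if x ∈ S then QuotientGroup.mk (t x ^ n x) else 1

/-- Riemann's inequality for families supported on finitely many closed DVR points. -/
theorem main_bound (c : C ⟶ Spec (CommRingCat.of K)) [IsProper c] (S : Finset C)
    (hSc : ∀ x ∈ S, IsClosed ({x} : Set C))
    (hSd : ∀ x ∈ S, IsDiscreteValuationRing (C.presheaf.stalk x))
    (t : C → (C.functionField)ˣ) (ht : ∀ x ∈ S, IsUnif x (t x)) :
    ∀ (N : ℕ) (n : C → ℕ), ∑ x ∈ S, n x = N →
      letI := (constHom c).toAlgebra
      Module.Finite K (LSubF c (famOf S t n)) ∧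
        Module.finrank K (LSubF c (famOf S t n)) ≤ N + 1 := by
  classical
  intro N
  induction N with
  | zero =>
    intro n hn
    apply base_case c
    intro x
    unfold famOf
    split_ifs with hx
    · have h0 : n x = 0 := (Finset.sum_eq_zero_iff.mp hn) x hx
      rw [h0, pow_zero]; rfl
    · rfl
  | succ N ih =>
    intro n hn
    have hex : ∃ x0 ∈ S, 0 < n x0 := by
      by_contra hcon
      have h0 : ∑ x ∈ S, n x = 0 := Finset.sum_eq_zero (fun x hx => by
        by_contra h
        exact hcon ⟨x, hx, Nat.pos_of_ne_zero h⟩)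
      omega
    obtain ⟨x0, hx0S, hx0n⟩ := hex
    obtain ⟨k, hk⟩ : ∃ k, n x0 = k + 1 := ⟨n x0 - 1, by omega⟩
    have hn' : ∑ x ∈ S, Function.update n x0 k x = N := by
      have h1 := Finset.sum_update_of_mem hx0S n k
      have h2 := Finset.add_sum_erase S n hx0S
      rw [Finset.sdiff_singleton_eq_erase] at h1
      omega
    have := hSd x0 hx0S
    obtain ⟨hfin, hrank⟩ := ih (Function.update n x0 k) hn'
    have hstep := step c x0 (hSc x0 hx0S) (t x0) (ht x0 hx0S) k (famOf S t n)
      (famOf S t (Function.update n x0 k)) (by unfold famOf; rw [if_pos hx0S, hk])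
      (by unfold famOf; rw [if_pos hx0S, Function.update_self])
      (by intro x hx; unfold famOf; rw [Function.update_of_ne hx]) hfin
    exact ⟨hstep.1, hstep.2.trans (by omega)⟩

/-- **Riemann's inequality on the Spec vocabulary.** On a proper integral curve `C` over an
algebraically closed field whose non-generic points have DVR stalks, an effective Cartier
divisor `G` has `ℓ(G ^ m) ≤ m * δ + 1` for a constant `δ` (its degree). -/
theorem exists_linear_bound (c : C ⟶ Spec (CommRingCat.of K)) [IsProper c]
    (hDVR : ∀ x : C, x ≠ genericPoint C → IsDiscreteValuationRing (C.presheaf.stalk x))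
    (G : CDiv C) (hG : CDiv.IsEffective G) :
    ∃ δ : ℕ, ∀ m : ℕ, CDiv.LFinite c (G ^ m) ∧ CDiv.ell c (G ^ m) ≤ m * δ + 1 := by
  classical
  have : IsLocallyNoetherian C := LocallyOfFiniteType.isLocallyNoetherian c
  have : CompactSpace C := (quasiCompact_iff_compactSpace c).mp inferInstance
  have : IsNoetherian C := {}
  have hfin : (CDiv.supp G).Finite :=
    finite_of_isClosed_of_genericPoint_notMem hDVR (isClosed_supp G) (genericPoint_notMem_supp G)
  let S : Finset C := hfin.toFinset
  have hSη : ∀ x ∈ S, x ≠ genericPoint C := fun x hx h =>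
    genericPoint_notMem_supp G (h ▸ (hfin.mem_toFinset.mp hx))
  have hSc : ∀ x ∈ S, IsClosed ({x} : Set C) := fun x hx =>
    isClosed_singleton_of_ne_genericPoint hDVR (hSη x hx)
  have hSd : ∀ x ∈ S, IsDiscreteValuationRing (C.presheaf.stalk x) := fun x hx =>
    hDVR x (hSη x hx)
  have ht : ∀ x : C, ∃ t : (C.functionField)ˣ, x ∈ S → IsUnif x t := by
    intro x
    by_cases hx : x ∈ S
    · have := hSd x hx
      obtain ⟨t, ht⟩ := exists_isUnif x
      exact ⟨t, fun _ => ht⟩
    · exact ⟨1, fun h => absurd h hx⟩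
  choose t ht using ht
  have hn : ∀ x : C, ∃ k : ℕ, x ∈ S → G.1 x = QuotientGroup.mk (t x ^ k) := by
    intro x
    by_cases hx : x ∈ S
    · have := hSd x hx
      obtain ⟨f, hf, hfO⟩ := hG x
      obtain ⟨k, hk⟩ := (ht x hx).exists_pow_mk_eq f hfO
      exact ⟨k, fun _ => hf.trans hk⟩
    · exact ⟨0, fun h => absurd h hx⟩
  choose n hn using hn
  refine ⟨∑ x ∈ S, n x, fun m => ?_⟩
  have hfam : (G ^ m).1 = famOf S t (fun x => m * n x) := by
    funext x
    unfold famOf
    split_ifs with hx
    · change (G.1 x) ^ m = _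
      rw [hn x hx, ← QuotientGroup.mk_pow, ← pow_mul, mul_comm]
    · have h1 : G.1 x = 1 := by
        by_contra h
        exact hx (hfin.mem_toFinset.mpr h)
      change (G.1 x) ^ m = 1
      rw [h1, one_pow]
  have hsum : ∑ x ∈ S, m * n x = m * ∑ x ∈ S, n x := (Finset.mul_sum _ _ _).symm
  have hmain := main_bound c S hSc hSd t (fun x hx => ht x hx) (m * ∑ x ∈ S, n x)
    (fun x => m * n x) hsum
  unfold CDiv.LFinite CDiv.ell
  rw [LSub_eq_LSubF, hfam]
  exact hmain

/-- Riemann's inequality, with DVR stalks assumed at the closed points. -/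
theorem exists_linear_bound_of_closed (c : C ⟶ Spec (CommRingCat.of K)) [IsProper c]
    (hDVR : ∀ x : C, IsClosed ({x} : Set C) → IsDiscreteValuationRing (C.presheaf.stalk x))
    (G : CDiv C) (hG : CDiv.IsEffective G) :
    ∃ δ : ℕ, ∀ m : ℕ, CDiv.LFinite c (G ^ m) ∧ CDiv.ell c (G ^ m) ≤ m * δ + 1 := by
  have : CompactSpace C := (quasiCompact_iff_compactSpace c).mp inferInstance
  exact exists_linear_bound c
    (fun x hx => hDVR x (isClosed_singleton_of_ne_genericPoint_of_closed hDVR hx)) G hG

/-- Riemann's inequality for a smooth proper integral curve over an algebraically closed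
field, in the shape consumed by the product bound: `ℓ(G ^ m) ≤ m * δ + 1`. -/
theorem exists_linear_bound_of_smooth (c : C ⟶ Spec (CommRingCat.of K)) [IsProper c]
    [SmoothOfRelativeDimension 1 c] (G : CDiv C) (hG : CDiv.IsEffective G) :
    ∃ δ : ℕ, ∀ m : ℕ, CDiv.LFinite c (G ^ m) ∧ CDiv.ell c (G ^ m) ≤ m * δ + 1 :=
  exists_linear_bound c
    (fun x hx => Fermat.Agent.S25.helper9237.isDiscreteValuationRing_stalk K c x hx) G hG

end Main

end Fermat.Agent.S26.helper3880
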