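/-
S26-M8 (helper4871): `helper154.Stmt_Upper` from the sign-sum identity ALONE.

All other inputs of `helper4871.stmt_Upper_of'` are closed here from files on main:
* `Stmt_BinBound`   ⇐ `helper1301.ell_prod_le'` (product-type bound, slices proof);
* `Stmt_CurveBound` ⇐ `helper3880.exists_linear_bound_of_smooth` (Riemann's inequality);
* `Stmt_PullExists` ⇐ `helper2004.exists_pullsTo_of_notMem_supp`;
* `Stmt_PullCancel` ⇐ `helper2004.PullsTo.cancel`.

Exports: `stmt_BinBound`, `stmt_CurveBound`, `stmt_PullCancel`, `stmt_ProdBound`
(`Stmt_ProdBound`, outright) and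

  `stmt_Upper : Stmt_SignSum → helper154.Stmt_Upper`.
-/
import Fermat.Agent.S26.helper4871_Upper
import Fermat.Agent.S26.helper2004_PullStmts
import Fermat.Agent.S26.helper1301_ProductBound
import Fermat.Agent.S26.helper3880_CurveRI

set_option autoImplicit false

universe u

noncomputable section

open CategoryTheory CategoryTheory.Limits AlgebraicGeometry AlgebraicGeometry.RelPicard
  NeronModelInfra GoodReductionJacobian

namespace Fermat.Agent.S26.helper4871

open Fermat.Agent.S26.helper154

/-- The binary product-type bound (M8-PROD, `helper1301.ell_prod_le'`). -/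
theorem stmt_BinBound : Stmt_BinBound.{u} := by
  intro K _ _ C Y c y _ _ _ _ _ G1 G2 E1 E2 h1 h2 hf1 hf2
  exact Fermat.Agent.S26.helper1301.ell_prod_le' (IsPullback.of_hasPullback c y)
    (pullback.snd c y ≫ y) pullback.condition G1 G2 E1 E2 h1 h2 hf1 hf2

/-- Riemann's inequality on a smooth proper curve (M8-CURVE-SCH,
`helper3880.exists_linear_bound_of_smooth`). -/
theorem stmt_CurveBound : Stmt_CurveBound.{u} := by
  intro K _ _ C c _ _ _ G hG
  exact Fermat.Agent.S26.helper3880.exists_linear_bound_of_smooth c G hG

/-- Cancellation for pull-backs (M2-PULL (F1), `helper2004.PullsTo.cancel`). -/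
theorem stmt_PullCancel : Stmt_PullCancel.{u} := by
  intro Z Y X _ _ _ ψ φ D E F h1 h2
  exact Fermat.Agent.S26.helper2004.PullsTo.cancel h1 h2

/-- M8-PROD, final form: the product-type bound on the product of curves. -/
theorem stmt_ProdBound : Stmt_ProdBound.{u} :=
  stmt_ProdBound_of stmt_BinBound stmt_CurveBound Fermat.Agent.S26.helper2004.stmt_PullExists
    stmt_PullCancel

/-- M8-UP: upper growth on the product of curves, from the sign-sum identity (Q2) of the
quadratic calculus alone. -/
theorem stmt_Upper (hS : Stmt_SignSum.{u}) : Stmt_Upper.{u} :=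
  stmt_Upper_of' hS stmt_BinBound stmt_CurveBound Fermat.Agent.S26.helper2004.stmt_PullExists
    stmt_PullCancel

end Fermat.Agent.S26.helper4871
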