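/-
S26-M4-RIG (helper664): the rigidity lemma over an algebraically closed field.
Pattern: Mathlib `AlgebraicGeometry/Group/Abelian.lean` (closed points + Zariski's main theorem).
-/
import Mathlib.AlgebraicGeometry.Group.Abelian

set_option autoImplicit false

universe u

open CategoryTheory CategoryTheory.Limits AlgebraicGeometry

namespace Fermat.Agent.S26.helper664

variable {K : Type u} [Field K] {Y Z W : Scheme.{u}}

/-- The section `Y ⟶ Y ×ₖ Z` attached to a `K`-point `z` of `Z`. -/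
noncomputable def sliceY (fY : Y ⟶ Spec (CommRingCat.of K)) (fZ : Z ⟶ Spec (CommRingCat.of K))
    (z : Spec (CommRingCat.of K) ⟶ Z) (hz : z ≫ fZ = 𝟙 _) : Y ⟶ pullback fY fZ :=
  pullback.lift (𝟙 Y) (fY ≫ z) (by simp [hz])

/-- The section `Z ⟶ Y ×ₖ Z` attached to a `K`-point `y` of `Y`. -/
noncomputable def sliceZ (fY : Y ⟶ Spec (CommRingCat.of K)) (fZ : Z ⟶ Spec (CommRingCat.of K))
    (y : Spec (CommRingCat.of K) ⟶ Y) (hy : y ≫ fY = 𝟙 _) : Z ⟶ pullback fY fZ :=
  pullback.lift (fZ ≫ y) (𝟙 Z) (by simp [hy])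

section

variable (fY : Y ⟶ Spec (CommRingCat.of K)) (fZ : Z ⟶ Spec (CommRingCat.of K))

@[reassoc (attr := simp)]
lemma sliceY_fst (z : Spec (CommRingCat.of K) ⟶ Z) (hz : z ≫ fZ = 𝟙 _) :
    sliceY fY fZ z hz ≫ pullback.fst fY fZ = 𝟙 Y := pullback.lift_fst _ _ _

@[reassoc (attr := simp)]
lemma sliceY_snd (z : Spec (CommRingCat.of K) ⟶ Z) (hz : z ≫ fZ = 𝟙 _) :
    sliceY fY fZ z hz ≫ pullback.snd fY fZ = fY ≫ z := pullback.lift_snd _ _ _

@[reassoc (attr := simp)]
lemma sliceZ_fst (y : Spec (CommRingCat.of K) ⟶ Y) (hy : y ≫ fY = 𝟙 _) :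
    sliceZ fY fZ y hy ≫ pullback.fst fY fZ = fZ ≫ y := pullback.lift_fst _ _ _

@[reassoc (attr := simp)]
lemma sliceZ_snd (y : Spec (CommRingCat.of K) ⟶ Y) (hy : y ≫ fY = 𝟙 _) :
    sliceZ fY fZ y hy ≫ pullback.snd fY fZ = 𝟙 Z := pullback.lift_snd _ _ _

/-- A `K`-point of `Y ×ₖ Z` lying over the `K`-point `z` of `Z` lies on the slice `Y × {z}`. -/
lemma kpoint_eq_comp_sliceY (z : Spec (CommRingCat.of K) ⟶ Z) (hz : z ≫ fZ = 𝟙 _)
    (c : Spec (CommRingCat.of K) ⟶ pullback fY fZ)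
    (hc : c ≫ pullback.fst fY fZ ≫ fY = 𝟙 _) (hcz : c ≫ pullback.snd fY fZ = z) :
    c = (c ≫ pullback.fst fY fZ) ≫ sliceY fY fZ z hz := by
  apply pullback.hom_ext
  · simp
  · simp only [Category.assoc, sliceY_snd]
    rw [reassoc_of% hc, hcz]

end

set_option backward.defeqAttrib.useBackward true in
set_option backward.isDefEq.respectTransparency false in
/-- **Rigidity lemma**, core form on `pullback fY fZ`. -/
theorem rigidity_pullback [IsAlgClosed K]
    (fY : Y ⟶ Spec (CommRingCat.of K)) (fZ : Z ⟶ Spec (CommRingCat.of K))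
    (fW : W ⟶ Spec (CommRingCat.of K))
    [IsProper fY] [LocallyOfFiniteType fZ] [IsSeparated fW] [LocallyOfFiniteType fW]
    [IsIntegral (pullback fY fZ)]
    (g : pullback fY fZ ⟶ W) (hg : g ≫ fW = pullback.fst fY fZ ≫ fY)
    (y0 : Spec (CommRingCat.of K) ⟶ Y) (hy0 : y0 ≫ fY = 𝟙 _)
    (z0 : Spec (CommRingCat.of K) ⟶ Z) (hz0 : z0 ≫ fZ = 𝟙 _)
    (w : Spec (CommRingCat.of K) ⟶ W)
    (h : sliceY fY fZ z0 hz0 ≫ g = fY ≫ w) :
    g = pullback.snd fY fZ ≫ sliceZ fY fZ y0 hy0 ≫ g := by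
  let S := Spec (CommRingCat.of K)
  let T := pullback fY fZ
  let pY : T ⟶ Y := pullback.fst fY fZ
  let pZ : T ⟶ Z := pullback.snd fY fZ
  let fT : T ⟶ S := pY ≫ fY
  let point : S := IsLocalRing.closedPoint K
  have hpoint : IsClosed {point} := isClosed_discrete _
  have hw : w ≫ fW = 𝟙 _ := by
    have h1 := congr(y0 ≫ $h ≫ fW)
    simp only [Category.assoc, hg, sliceY_fst_assoc] at h1
    rw [hy0, reassoc_of% hy0] at h1
    exact h1.symm
  -- the map `γ = (pZ, g) : T ⟶ Z ×ₖ W`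
  let γ : T ⟶ pullback fZ fW := pullback.lift pZ g (by rw [hg]; exact pullback.condition.symm)
  have hγ1 : γ ≫ pullback.fst fZ fW = pZ := pullback.lift_fst _ _ _
  have hγ2 : γ ≫ pullback.snd fZ fW = g := pullback.lift_snd _ _ _
  have : IsProper pZ := inferInstance
  have : IsProper (γ ≫ pullback.fst fZ fW) := by rw [hγ1]; infer_instance
  have : IsProper γ := .of_comp _ (pullback.fst fZ fW)
  have : LocallyOfFiniteType fT := inferInstance
  have : JacobsonSpace T := LocallyOfFiniteType.jacobsonSpace (Y := Spec _) fT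
  -- the `K`-point `(z0, w)` of `Z ×ₖ W`
  let zw : S ⟶ pullback fZ fW := pullback.lift z0 w (by rw [hz0, hw])
  have hzw1 : zw ≫ pullback.fst fZ fW = z0 := pullback.lift_fst _ _ _
  have hzw2 : zw ≫ pullback.snd fZ fW = w := pullback.lift_snd _ _ _
  have hz0cl : IsClosed {z0 point} := by
    have := isClosedImmersion_of_comp_eq_id fZ z0 hz0
    simpa using z0.isClosedMap _ hpoint
  have hzwcl : IsClosed {zw point} := by
    have := isClosedImmersion_of_comp_eq_id (pullback.fst fZ fW ≫ fZ) zw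
      (by rw [reassoc_of% hzw1, hz0])
    simpa using zw.isClosedMap _ hpoint
  have Hsl : sliceY fY fZ z0 hz0 ≫ γ = fY ≫ zw := by
    apply pullback.hom_ext
    · simp only [Category.assoc, hγ1, hzw1]
      exact sliceY_snd fY fZ z0 hz0
    · simp only [Category.assoc, hγ2, hzw2]
      exact h
  -- Step A: `γ` contracts the fibre `Y × {z0}` to the point `(z0, w)`.
  have H : γ '' (pZ ⁻¹' {z0 point}) ⊆ {zw point} := by
    rw [Set.image_subset_iff, ← Set.sdiff_eq_empty, ← Set.not_nonempty_iff_eq_empty]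
    intro H
    obtain ⟨c₀, ⟨hc₁, hc₂⟩, hc₃⟩ := nonempty_inter_closedPoints H <| by
      rw [Set.sdiff_eq_compl_inter]
      refine (IsOpen.isLocallyClosed ?_).inter (IsClosed.isLocallyClosed ?_)
      · exact (hzwcl.preimage γ.continuous).isOpen_compl
      · exact hz0cl.preimage pZ.continuous
    obtain ⟨⟨c, hc⟩, e⟩ := (pointEquivClosedPoint fT).surjective ⟨c₀, hc₃⟩
    obtain rfl : c point = c₀ := congr(($e).1)
    have hcz : c ≫ pZ = z0 :=
      ext_of_apply_closedPoint_eq fZ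
        (by rw [Category.assoc, ← pullback.condition]; exact hc) hz0
        (show (c ≫ pZ) point = z0 point from (Scheme.Hom.comp_apply c pZ point).trans hc₁)
    have hc' : c ≫ pullback.fst fY fZ ≫ fY = 𝟙 _ := hc
    have H₁ := kpoint_eq_comp_sliceY fY fZ z0 hz0 c hc' hcz
    apply hc₂
    show γ (c point) = zw point
    rw [H₁]
    simp only [← Scheme.Hom.comp_apply, Category.assoc, Hsl]
    rw [reassoc_of% hc']
  -- Step B: by Zariski's main theorem the image of `γ` is finite over a neighbourhood of `z0`.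
  obtain ⟨U, hz0U, HU⟩ := exists_finite_imageι_comp_morphismRestrict_of_finite_image_preimage
    γ (pullback.fst fZ fW) (z0 point) (by
      rw [hγ1]
      exact (Set.finite_singleton _).subset H)
  have HU' (x : U) : ((pullback.fst fZ fW) ⁻¹' {x.1} ∩ Set.range γ).Finite := by
    refine ((((γ.imageι ≫ pullback.fst fZ fW) ∣_ U).finite_preimage_singleton x).image
      (Scheme.Opens.ι _ ≫ γ.imageι)).subset ?_
    have : U.ι ⁻¹' {x.1} = {x} := by ext; simp
    rw [← this, ← Set.preimage_comp, ← TopCat.coe_comp, ← Scheme.Hom.comp_base,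
      morphismRestrict_ι, ← Category.assoc, Scheme.Hom.comp_base (_ ≫ _) (pullback.fst fZ fW),
      TopCat.coe_comp, Set.preimage_comp, Set.image_preimage_eq_inter_range]
    simp only [Scheme.Hom.comp_base, TopCat.coe_comp, Set.range_comp, Scheme.Opens.range_ι]
    dsimp
    rw [Set.image_preimage_eq_inter_range, Scheme.IdealSheafData.range_subschemeι,
      Scheme.Hom.support_ker, ← Set.inter_assoc, ← Set.preimage_inter,
      Set.singleton_inter_of_mem x.2, IsClosed.closure_eq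
      (by exact γ.isClosedMap.isClosed_range)]
  -- Step C: compare `g` and `g ∘ (y0, pr₂)` on the closed points of the dense open `pZ ⁻¹ U`.
  have hfZsurj : Function.Surjective fZ := fun s ↦
    ⟨z0 s, by rw [← Scheme.Hom.comp_apply, hz0]; rfl⟩
  have hsl2 : sliceZ fY fZ y0 hy0 ≫ pZ = 𝟙 Z := sliceZ_snd fY fZ y0 hy0
  have : LocallyOfFiniteType (g ≫ fW) := by rw [hg]; infer_instance
  refine ext_of_apply_eq fW (pZ ⁻¹ᵁ U) (pZ ⁻¹ᵁ U).isOpen.isLocallyClosed
    ((pZ ⁻¹ᵁ U).isOpen.dense ?_) ?_ ?_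
  · refine ⟨sliceZ fY fZ y0 hy0 (z0 point), ?_⟩
    show pZ (sliceZ fY fZ y0 hy0 (z0 point)) ∈ U
    rw [← Scheme.Hom.comp_apply, hsl2]
    exact hz0U
  · intro t htU ht
    have hz : IsClosed {pZ t} := by simpa using pZ.isClosedMap _ ht
    let zK : S ⟶ Z := pointOfClosedPoint fZ _ hz
    have hzK : zK ≫ fZ = 𝟙 _ := pointOfClosedPoint_comp fZ _ hz
    have hzKpt : ∀ a, zK a = pZ t := pointOfClosedPoint_apply fZ _ hz
    let t' : T := (pZ ≫ sliceZ fY fZ y0 hy0) t
    have ht' : pZ t' = pZ t := by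
      show pZ ((pZ ≫ sliceZ fY fZ y0 hy0) t) = pZ t
      rw [← Scheme.Hom.comp_apply, Category.assoc, hsl2, Category.comp_id]
    have key : γ t = γ t' := by
      refine subsingleton_image_closure_of_finite_of_isPreirreducible (S := pZ ⁻¹' {pZ t})
        (hz.preimage pZ.continuous).isLocallyClosed ?_ γ.continuous γ.isClosedMap
        ((HU' ⟨_, htU⟩).subset (Set.image_subset_iff.mpr fun a ha ↦ ?_)) ?_ ?_
      · let α : T ⟶ T := pullback.map fY fZ fY fZ (𝟙 Y) (fZ ≫ zK) (𝟙 S)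
          ((Category.comp_id _).trans (Category.id_comp _).symm)
          (by rw [Category.assoc, hzK, Category.comp_id])
        have hα : Set.range α = pZ ⁻¹' {pZ t} := by
          rw [Scheme.Pullback.range_map]
          have : Set.range (fZ ≫ zK) = {pZ t} := by
            ext a
            simp only [Set.mem_range, Set.mem_singleton_iff]
            constructor
            · rintro ⟨b, rfl⟩
              rw [Scheme.Hom.comp_apply]; exact hzKpt _
            · rintro rfl
              exact ⟨z0 point, by rw [Scheme.Hom.comp_apply]; exact hzKpt _⟩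
          rw [this]
          simp
          rfl
        rw [← hα, ← Set.image_univ]
        exact ((IrreducibleSpace.isIrreducible_univ _).image α
          α.continuous.continuousOn).isPreirreducible
      · refine ⟨?_, ⟨a, rfl⟩⟩
        show pullback.fst fZ fW (γ a) = pZ t
        rw [← Scheme.Hom.comp_apply, hγ1]
        exact ha
      · exact ⟨t, subset_closure rfl, rfl⟩
      · exact ⟨t', subset_closure ht', rfl⟩
    have key2 := congr((pullback.snd fZ fW) $key)
    rw [← Scheme.Hom.comp_apply, ← Scheme.Hom.comp_apply, hγ2] at key2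
    rw [key2, ← Category.assoc, Scheme.Hom.comp_apply]
  · rw [hg]
    simp only [Category.assoc, hg]
    rw [sliceZ_fst_assoc, hy0, Category.comp_id]
    exact pullback.condition

/-- **Rigidity lemma**, constant form on `pullback fY fZ`: a `K`-morphism `g : Y ×ₖ Z ⟶ W`
(`Y` proper, `Y ×ₖ Z` integral, `W` separated and locally of finite type) which is constant,
with the same value `w`, on the two axes `Y × {z0}` and `{y0} × Z`, is constant. -/
theorem rigidity_pullback_const [IsAlgClosed K]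
    (fY : Y ⟶ Spec (CommRingCat.of K)) (fZ : Z ⟶ Spec (CommRingCat.of K))
    (fW : W ⟶ Spec (CommRingCat.of K))
    [IsProper fY] [LocallyOfFiniteType fZ] [IsSeparated fW] [LocallyOfFiniteType fW]
    [IsIntegral (pullback fY fZ)]
    (g : pullback fY fZ ⟶ W) (hg : g ≫ fW = pullback.fst fY fZ ≫ fY)
    (y0 : Spec (CommRingCat.of K) ⟶ Y) (hy0 : y0 ≫ fY = 𝟙 _)
    (z0 : Spec (CommRingCat.of K) ⟶ Z) (hz0 : z0 ≫ fZ = 𝟙 _)
    (w : Spec (CommRingCat.of K) ⟶ W)
    (h1 : sliceY fY fZ z0 hz0 ≫ g = fY ≫ w) (h2 : sliceZ fY fZ y0 hy0 ≫ g = fZ ≫ w) :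
    g = (pullback.fst fY fZ ≫ fY) ≫ w := by
  have key := rigidity_pullback fY fZ fW g hg y0 hy0 z0 hz0 w h1
  rw [h2] at key
  rw [key, Category.assoc, pullback.condition_assoc]

/-- **Rigidity lemma**, constant form for an arbitrary pullback square `T = Y ×ₖ Z`. -/
theorem rigidity_of_isPullback [IsAlgClosed K] {T : Scheme.{u}}
    (fY : Y ⟶ Spec (CommRingCat.of K)) (fZ : Z ⟶ Spec (CommRingCat.of K))
    (fW : W ⟶ Spec (CommRingCat.of K))
    (pY : T ⟶ Y) (pZ : T ⟶ Z) (sq : IsPullback pY pZ fY fZ)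
    [IsProper fY] [LocallyOfFiniteType fZ] [IsSeparated fW] [LocallyOfFiniteType fW]
    [IsIntegral T]
    (g : T ⟶ W) (hg : g ≫ fW = pY ≫ fY)
    (y0 : Spec (CommRingCat.of K) ⟶ Y) (hy0 : y0 ≫ fY = 𝟙 _)
    (z0 : Spec (CommRingCat.of K) ⟶ Z) (hz0 : z0 ≫ fZ = 𝟙 _)
    (w : Spec (CommRingCat.of K) ⟶ W)
    (h1 : ∀ i : Y ⟶ T, i ≫ pY = 𝟙 Y → i ≫ pZ = fY ≫ z0 → i ≫ g = fY ≫ w)
    (h2 : ∀ j : Z ⟶ T, j ≫ pY = fZ ≫ y0 → j ≫ pZ = 𝟙 Z → j ≫ g = fZ ≫ w) :
    g = (pY ≫ fY) ≫ w := by
  let e : T ≅ pullback fY fZ := sq.isoPullback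
  have he1 : e.hom ≫ pullback.fst fY fZ = pY := sq.isoPullback_hom_fst
  have he2 : e.hom ≫ pullback.snd fY fZ = pZ := sq.isoPullback_hom_snd
  have he1' : e.inv ≫ pY = pullback.fst fY fZ := sq.isoPullback_inv_fst
  have he2' : e.inv ≫ pZ = pullback.snd fY fZ := sq.isoPullback_inv_snd
  have : Nonempty ↥(pullback fY fZ) := ⟨e.hom (Nonempty.some inferInstance)⟩
  have : IsIntegral (pullback fY fZ) := isIntegral_of_isOpenImmersion e.inv
  have key := rigidity_pullback_const fY fZ fW (e.inv ≫ g)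
    (by rw [Category.assoc, hg, reassoc_of% he1']) y0 hy0 z0 hz0 w
    (by
      rw [← Category.assoc]
      refine h1 _ ?_ ?_
      · rw [Category.assoc, he1', sliceY_fst]
      · rw [Category.assoc, he2', sliceY_snd])
    (by
      rw [← Category.assoc]
      refine h2 _ ?_ ?_
      · rw [Category.assoc, he1', sliceZ_fst]
      · rw [Category.assoc, he2', sliceZ_snd])
  calc g = e.hom ≫ e.inv ≫ g := by rw [Iso.hom_inv_id_assoc]
    _ = e.hom ≫ (pullback.fst fY fZ ≫ fY) ≫ w := by rw [key]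
    _ = (pY ≫ fY) ≫ w := by rw [← he1]; simp only [Category.assoc]

end Fermat.Agent.S26.helper664
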