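import Mathlib
import Fermat.Prelude.Def_AlgebraicGeometry_NeronModelPropertyBundleCarrier
import Fermat.Prelude.Def_JacJ1Iface
import Fermat.Prelude.Def_AlgebraicGeometry_RelativePicardFunctor
import Fermat.Prelude.Def_AlgebraicGeometry_RepresentsRelSubPic
import Fermat.Prelude.Def_AlgebraicGeometry_RelPicardAlgEquivZeroCut
import Fermat.Agent.S25.helper1705_Spec
import Fermat.Agent.S26.helper664_Rigidity

/-!
# S26 / M4-CUBE (helper907): the cube theorem with a curve factor, in `Scheme.Modules` form

Frozen vocabulary only (`RigidifiedLineBundle`, `SubPicCondition`, `RepresentsRelSubPic`,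
`algEquivZeroCut`).  Layers:

* (C2) calculus of the classifying map of a representing object: `classify_pullbackAlong`,
  `classify_congr`, `poincare_pullbackAlong_zeroMap`, `classify_eq_zeroMap_iff`;
* (C1) `fibrewiseAlgEquivZero_of_trivial_at_point`: a rigidified line bundle on `C × T`, with
  `T` geometrically integral and locally of finite type over the base, which is trivial at one
  rational point of `T`, is fibrewise algebraically equivalent to zero;
* (C3) `cube_of_mem`, `cube_of_represents`: trivial on both axes of `T = Y ×_K Z` implies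
  trivial, given a representing object and rigidity for maps `Y ×_K Z ⟶ J` (`AxisRigidity`);
* `cube`: the final statement (plan (D-d) of the S26 captain), whose only hypothesis is the
  frozen S25 statement as the proposition `Stmt_S25`; rigidity is discharged by the landed
  lemma of helper664.
-/

set_option autoImplicit false

universe u

open CategoryTheory CategoryTheory.Limits AlgebraicGeometry AlgebraicGeometry.RelPicard
  NeronModelInfra GoodReductionJacobian

noncomputable section

namespace Fermat.Agent.S26.helper907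

section Calculus

variable {R : Type u} [CommRing R] {C : Scheme.{u}}
  {c : C ⟶ Spec (CommRingCat.of R)} {ε : SchemeHomOver (𝟙 (Spec (CommRingCat.of R))) c}

/-- Pullback along a composite is the iterated pullback (frozen `pullbackAlong`). -/
theorem pullbackAlong_postComp {X X' T' : Scheme.{u}} {x : X ⟶ Spec (CommRingCat.of R)}
    {x' : X' ⟶ Spec (CommRingCat.of R)} {t' : T' ⟶ Spec (CommRingCat.of R)}
    (M : RigidifiedLineBundle c ε x') (φ : SchemeHomOver x x') (ψ : SchemeHomOver t' x) :
    Nonempty ((M.pullbackAlong (postComp φ ψ)).L ≅ ((M.pullbackAlong φ).pullbackAlong ψ).L) :=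
  ⟨(Scheme.Modules.pullbackCongr (baseChangeSnd_comp c φ ψ).symm).app M.L ≪≫
    ((Scheme.Modules.pullbackComp _ _).app M.L).symm⟩

/-- Pullback of the unit bundle is the unit bundle. -/
theorem pullbackAlong_unit {T T' : Scheme.{u}} {t : T ⟶ Spec (CommRingCat.of R)}
    {t' : T' ⟶ Spec (CommRingCat.of R)} (ψ : SchemeHomOver t' t) :
    Nonempty (((RigidifiedLineBundle.unit (c := c) (ε := ε) t).pullbackAlong ψ).L ≅
      (RigidifiedLineBundle.unit (c := c) (ε := ε) t').L) :=
  ⟨Scheme.Modules.pullbackUnitIso _⟩


variable {P : SubPicCondition c ε} {D : RelativePic0Designation R c}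

/-- The structure map of the base, as a morphism over the base to the identity. -/
def toBaseOver {T : Scheme.{u}} (t : T ⟶ Spec (CommRingCat.of R)) :
    SchemeHomOver t (𝟙 (Spec (CommRingCat.of R))) :=
  ⟨t, Category.comp_id t⟩

/-- The zero section of a designation, as a morphism over the base. -/
def zeroOver (D : RelativePic0Designation R c) :
    SchemeHomOver (𝟙 (Spec (CommRingCat.of R))) D.toBase :=
  ⟨D.zeroSection, D.zeroSection_toBase⟩

/-- The constant map `T ⟶ J` with value the zero section. -/
def zeroMap (D : RelativePic0Designation R c) {T : Scheme.{u}} (t : T ⟶ Spec (CommRingCat.of R)) :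
    SchemeHomOver t D.toBase :=
  postComp (zeroOver D) (toBaseOver t)

@[simp]
theorem zeroMap_coe (D : RelativePic0Designation R c) {T : Scheme.{u}}
    (t : T ⟶ Spec (CommRingCat.of R)) : (zeroMap D t).1 = t ≫ D.zeroSection := rfl

theorem postComp_zeroMap (D : RelativePic0Designation R c) {T T' : Scheme.{u}}
    {t : T ⟶ Spec (CommRingCat.of R)} {t' : T' ⟶ Spec (CommRingCat.of R)}
    (ψ : SchemeHomOver t' t) : postComp (zeroMap D t) ψ = zeroMap D t' := by
  apply Subtype.ext
  change ψ.1 ≫ t ≫ D.zeroSection = t' ≫ D.zeroSection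
  rw [← Category.assoc, ψ.2]

/-- The Poincaré bundle pulled back along the constant zero map is trivial. -/
theorem poincare_pullbackAlong_zeroMap (h : RepresentsRelSubPic c ε P D) {T : Scheme.{u}}
    (t : T ⟶ Spec (CommRingCat.of R)) :
    Nonempty ((h.poincare.pullbackAlong (zeroMap D t)).L ≅
      (RigidifiedLineBundle.unit (c := c) (ε := ε) t).L) := by
  obtain ⟨e₁⟩ := pullbackAlong_postComp h.poincare (zeroOver D) (toBaseOver t)
  obtain ⟨e₂⟩ := RigidifiedLineBundle.pullbackAlong_congr (c := c) (ε := ε) (toBaseOver t) h.zero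
  obtain ⟨e₃⟩ := pullbackAlong_unit (c := c) (ε := ε) (toBaseOver t)
  exact ⟨e₁ ≪≫ e₂ ≪≫ e₃⟩

/-- Naturality of the classifying map. -/
theorem classify_pullbackAlong (h : RepresentsRelSubPic c ε P D) {T T' : Scheme.{u}}
    {t : T ⟶ Spec (CommRingCat.of R)} {t' : T' ⟶ Spec (CommRingCat.of R)}
    (M : RigidifiedLineBundle c ε t) (hM : P.P t M) (ψ : SchemeHomOver t' t)
    (hM' : P.P t' (M.pullbackAlong ψ)) :
    h.classify t' (M.pullbackAlong ψ) hM' = postComp (h.classify t M hM) ψ := by
  symm
  apply h.classify_unique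
  obtain ⟨e₁⟩ := pullbackAlong_postComp h.poincare (h.classify t M hM) ψ
  obtain ⟨e₂⟩ := RigidifiedLineBundle.pullbackAlong_congr (c := c) (ε := ε) ψ
    (h.classify_spec t M hM)
  exact ⟨e₁ ≪≫ e₂⟩

/-- The classifying map only depends on the isomorphism class. -/
theorem classify_congr (h : RepresentsRelSubPic c ε P D) {T : Scheme.{u}}
    {t : T ⟶ Spec (CommRingCat.of R)} (M M' : RigidifiedLineBundle c ε t)
    (hM : P.P t M) (hM' : P.P t M') (e : Nonempty (M.L ≅ M'.L)) :
    h.classify t M hM = h.classify t M' hM' := by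
  apply h.classify_unique
  obtain ⟨e₁⟩ := h.classify_spec t M hM
  obtain ⟨e₂⟩ := e
  exact ⟨e₁ ≪≫ e₂⟩

/-- A bundle in the sub-functor is trivial iff its classifying map is the constant zero map. -/
theorem classify_eq_zeroMap_iff (h : RepresentsRelSubPic c ε P D) {T : Scheme.{u}}
    {t : T ⟶ Spec (CommRingCat.of R)} (M : RigidifiedLineBundle c ε t) (hM : P.P t M) :
    h.classify t M hM = zeroMap D t ↔
      Nonempty (M.L ≅ (RigidifiedLineBundle.unit (c := c) (ε := ε) t).L) := by
  constructor
  · intro hg
    obtain ⟨e₁⟩ := h.classify_spec t M hM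
    rw [hg] at e₁
    obtain ⟨e₂⟩ := poincare_pullbackAlong_zeroMap h t
    exact ⟨e₁.symm ≪≫ e₂⟩
  · rintro ⟨e⟩
    symm
    apply h.classify_unique
    obtain ⟨e₂⟩ := poincare_pullbackAlong_zeroMap h t
    exact ⟨e₂ ≪≫ e.symm⟩

end Calculus

section Faez

variable {R : Type u} [CommRing R] {C : Scheme.{u}}
  {c : C ⟶ Spec (CommRingCat.of R)} {ε : SchemeHomOver (𝟙 (Spec (CommRingCat.of R))) c}

/-- (C1) A rigidified line bundle on `C × T`, with `T` geometrically integral and locally of
finite type over the base, which is trivial at one rational point `t₀` of `T`, is fibrewise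
algebraically equivalent to zero: for a geometric point `s : Spec k ⟶ T` the connecting family
is `T_k` itself, with the two points `t₀` and (the graph of) `s`. -/
theorem fibrewiseAlgEquivZero_of_trivial_at_point {T : Scheme.{u}}
    (t : T ⟶ Spec (CommRingCat.of R)) [LocallyOfFiniteType t] [GeometricallyIntegral t]
    (t₀ : SchemeHomOver (𝟙 (Spec (CommRingCat.of R))) t) (M : RigidifiedLineBundle c ε t)
    (h₀ : Nonempty ((M.pullbackAlong t₀).L ≅
      (RigidifiedLineBundle.unit (c := c) (ε := ε) (𝟙 (Spec (CommRingCat.of R)))).L)) :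
    FibrewiseAlgEquivZero M := by
  intro k _ _ s
  obtain ⟨e₀⟩ := h₀
  -- notation
  let σ : Spec (CommRingCat.of k) ⟶ Spec (CommRingCat.of R) := s ≫ t
  let a := fibreAt c t s
  let h : pullback t σ ⟶ Spec (CommRingCat.of k) := pullback.snd t σ
  have ha : pullback.fst (pullback.snd c t) s ≫ pullback.fst c t ≫ c = a ≫ σ := by
    simp only [a, σ, fibreAt]
    rw [pullback.condition, ← Category.assoc, pullback.condition, Category.assoc]
  have hφ : (pullback.fst a h ≫ pullback.fst (pullback.snd c t) s ≫ pullback.fst c t) ≫ c =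
      (pullback.snd a h ≫ pullback.fst t σ) ≫ t := by
    rw [Category.assoc, Category.assoc, ha, ← Category.assoc, pullback.condition, Category.assoc,
      Category.assoc, pullback.condition]
  let φ : pullback a h ⟶ pullback c t :=
    pullback.lift (pullback.fst a h ≫ pullback.fst (pullback.snd c t) s ≫ pullback.fst c t)
      (pullback.snd a h ≫ pullback.fst t σ) hφ
  let t₁ : SchemeHomOver (𝟙 (Spec (CommRingCat.of k))) h :=
    ⟨pullback.lift s (𝟙 _) (by rw [Category.id_comp]), pullback.lift_snd _ _ _⟩
  let t₀' : SchemeHomOver (𝟙 (Spec (CommRingCat.of k))) h :=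
    ⟨pullback.lift (σ ≫ t₀.1) (𝟙 _) (by rw [Category.assoc, t₀.2, Category.comp_id,
      Category.id_comp]), pullback.lift_snd _ _ _⟩
  have hψ : (pullback.fst a (𝟙 (Spec (CommRingCat.of k))) ≫
        pullback.fst (pullback.snd c t) s ≫ pullback.fst c t) ≫ c =
      (pullback.snd a (𝟙 (Spec (CommRingCat.of k))) ≫ σ) ≫ 𝟙 (Spec (CommRingCat.of R)) := by
    rw [Category.assoc, Category.assoc, ha, ← Category.assoc, pullback.condition, Category.assoc,
      Category.id_comp, Category.comp_id]
  let ψ : pullback a (𝟙 (Spec (CommRingCat.of k))) ⟶ pullback c (𝟙 (Spec (CommRingCat.of R))) :=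
    pullback.lift (pullback.fst a (𝟙 _) ≫ pullback.fst (pullback.snd c t) s ≫ pullback.fst c t)
      (pullback.snd a (𝟙 _) ≫ σ) hψ
  have hsq₀ : baseChangeSnd a t₀' ≫ φ = ψ ≫ baseChangeSnd c t₀ := by
    apply pullback.hom_ext
    · simp only [φ, ψ, t₀', baseChangeSnd, Category.assoc, pullback.lift_fst,
        pullback.lift_fst_assoc, Category.comp_id]
    · simp only [φ, ψ, t₀', baseChangeSnd, Category.assoc, pullback.lift_snd,
        pullback.lift_snd_assoc, pullback.lift_fst]
  have hsq₁ : baseChangeSnd a t₁ ≫ φ =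
      pullback.fst a (𝟙 (Spec (CommRingCat.of k))) ≫ pullback.fst (pullback.snd c t) s := by
    apply pullback.hom_ext
    · simp only [φ, t₁, baseChangeSnd, Category.assoc, pullback.lift_fst,
        pullback.lift_fst_assoc, Category.comp_id]
    · simp only [φ, t₁, baseChangeSnd, Category.assoc, pullback.lift_snd,
        pullback.lift_snd_assoc, pullback.lift_fst]
      have h1 : pullback.fst a (𝟙 (Spec (CommRingCat.of k))) ≫ a =
          pullback.snd a (𝟙 (Spec (CommRingCat.of k))) := by
        rw [pullback.condition, Category.comp_id]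
      rw [pullback.condition, ← h1, Category.assoc]
      rfl
  refine ⟨pullback t σ, h, inferInstance, inferInstance, (Scheme.Modules.pullback φ).obj M.L,
    M.isInvertible.pullback φ, t₀', t₁, ⟨?_⟩, ⟨?_⟩⟩
  · exact (Scheme.Modules.pullbackComp _ _).app M.L ≪≫
      (Scheme.Modules.pullbackCongr hsq₀).app M.L ≪≫
      ((Scheme.Modules.pullbackComp _ _).app M.L).symm ≪≫
      (Scheme.Modules.pullback ψ).mapIso e₀ ≪≫
      Scheme.Modules.pullbackUnitIso ψ
  · exact (Scheme.Modules.pullbackComp _ _).app M.L ≪≫
      (Scheme.Modules.pullbackCongr hsq₁).app M.L ≪≫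
      ((Scheme.Modules.pullbackComp _ _).app M.L).symm

end Faez

section Cube

variable {K : Type u} [Field K] {C : Scheme.{u}} {c : C ⟶ Spec (CommRingCat.of K)}
  {ε : SchemeHomOver (𝟙 (Spec (CommRingCat.of K))) c}
  {Y Z : Scheme.{u}} (y : Y ⟶ Spec (CommRingCat.of K)) (z : Z ⟶ Spec (CommRingCat.of K))

/-- The structure map of `Y ×_K Z`. -/
abbrev prodBase : pullback y z ⟶ Spec (CommRingCat.of K) := pullback.fst y z ≫ y

/-- The axis `Y × {z₀} ⟶ Y ×_K Z`. -/
def sliceY (z₀ : SchemeHomOver (𝟙 (Spec (CommRingCat.of K))) z) :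
    SchemeHomOver y (prodBase y z) :=
  ⟨pullback.lift (𝟙 Y) (y ≫ z₀.1)
      (by rw [Category.id_comp, Category.assoc, z₀.2, Category.comp_id]),
    by rw [prodBase, pullback.lift_fst_assoc, Category.id_comp]⟩

/-- The axis `{y₀} × Z ⟶ Y ×_K Z`. -/
def sliceZ (y₀ : SchemeHomOver (𝟙 (Spec (CommRingCat.of K))) y) :
    SchemeHomOver z (prodBase y z) :=
  ⟨pullback.lift (z ≫ y₀.1) (𝟙 Z)
      (by rw [Category.id_comp, Category.assoc, y₀.2, Category.comp_id]),
    by rw [prodBase, pullback.lift_fst_assoc, Category.assoc, y₀.2, Category.comp_id]⟩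

/-- Rigidity for maps `Y ×_K Z ⟶ J` (plain-scheme form): a `K`-map which is the constant zero
map on both axes is the constant zero map. -/
def AxisRigidity (D : RelativePic0Designation K c)
    (y₀ : SchemeHomOver (𝟙 (Spec (CommRingCat.of K))) y)
    (z₀ : SchemeHomOver (𝟙 (Spec (CommRingCat.of K))) z) : Prop :=
  ∀ g : pullback y z ⟶ D.P, g ≫ D.toBase = prodBase y z →
    (sliceY y z z₀).1 ≫ g = y ≫ D.zeroSection →
    (sliceZ y z y₀).1 ≫ g = z ≫ D.zeroSection →
    g = prodBase y z ≫ D.zeroSection

/-- The product of two geometrically integral schemes over a field (one of them locally of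
finite type) is geometrically integral. -/
theorem geometricallyIntegral_prodBase [GeometricallyIntegral y] [LocallyOfFiniteType y]
    [GeometricallyIntegral z] : GeometricallyIntegral (prodBase y z) := by
  refine ⟨fun Ω _ x W fst snd hpb ↦ ?_⟩
  have h1 : IsIntegral (pullback y x) :=
    GeometricallyIntegral.geometrically_isIntegral _ _ _ (.of_hasPullback _ _)
  have h2 : IsLocallyNoetherian (pullback y x) :=
    LocallyOfFiniteType.isLocallyNoetherian (pullback.snd y x)
  have h3 : IsIntegral (pullback (pullback.fst y z) (pullback.fst y x)) := inferInstance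
  have h4 : IsIntegral (pullback (pullback.fst y z ≫ y) x) :=
    IsIntegral.of_isIso (pullbackRightPullbackFstIso y x (pullback.fst y z)).hom
  exact IsIntegral.of_isIso hpb.isoPullback.inv

/-- The product of two geometrically integral schemes over a field (one of them locally of
finite type) is integral. -/
theorem isIntegral_pullback_of_geometricallyIntegral [GeometricallyIntegral y]
    [LocallyOfFiniteType y] [GeometricallyIntegral z] : IsIntegral (pullback y z) := by
  have := geometricallyIntegral_prodBase y z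
  exact GeometricallyIntegral.isIntegral_of_subsingleton (prodBase y z)

/-- Rigidity (helper664, M4-RIG) in the shape consumed here. -/
theorem axisRigidity_of_isProper [IsAlgClosed K] [IsProper y] [LocallyOfFiniteType z]
    [IsIntegral (pullback y z)] (D : RelativePic0Designation K c) [IsSeparated D.toBase]
    [LocallyOfFiniteType D.toBase]
    (y₀ : SchemeHomOver (𝟙 (Spec (CommRingCat.of K))) y)
    (z₀ : SchemeHomOver (𝟙 (Spec (CommRingCat.of K))) z) : AxisRigidity y z D y₀ z₀ := by
  intro g hg h1 h2
  exact Fermat.Agent.S26.helper664.rigidity_pullback_const y z D.toBase g hg y₀.1 y₀.2 z₀.1 z₀.2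
    D.zeroSection h1 h2

variable {y z}

/-- (C3), core form: the cube statement from representability and rigidity, for a bundle which
is already known to lie in the sub-functor. -/
theorem cube_of_mem {P : SubPicCondition c ε} {D : RelativePic0Designation K c}
    (h : RepresentsRelSubPic c ε P D)
    (y₀ : SchemeHomOver (𝟙 (Spec (CommRingCat.of K))) y)
    (z₀ : SchemeHomOver (𝟙 (Spec (CommRingCat.of K))) z)
    (hrig : AxisRigidity y z D y₀ z₀)
    (M : RigidifiedLineBundle c ε (prodBase y z)) (hM : P.P (prodBase y z) M)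
    (hY : Nonempty ((M.pullbackAlong (sliceY y z z₀)).L ≅
      (RigidifiedLineBundle.unit (c := c) (ε := ε) y).L))
    (hZ : Nonempty ((M.pullbackAlong (sliceZ y z y₀)).L ≅
      (RigidifiedLineBundle.unit (c := c) (ε := ε) z).L)) :
    Nonempty (M.L ≅ (RigidifiedLineBundle.unit (c := c) (ε := ε) (prodBase y z)).L) := by
  rw [← classify_eq_zeroMap_iff h M hM]
  have hMY : P.P y (M.pullbackAlong (sliceY y z z₀)) := P.pullback_mem _ _ _ _ hM
  have hMZ : P.P z (M.pullbackAlong (sliceZ y z y₀)) := P.pullback_mem _ _ _ _ hM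
  have h1 : postComp (h.classify _ M hM) (sliceY y z z₀) = zeroMap D y := by
    rw [← classify_pullbackAlong h M hM (sliceY y z z₀) hMY]
    exact (classify_eq_zeroMap_iff h _ hMY).2 hY
  have h2 : postComp (h.classify _ M hM) (sliceZ y z y₀) = zeroMap D z := by
    rw [← classify_pullbackAlong h M hM (sliceZ y z y₀) hMZ]
    exact (classify_eq_zeroMap_iff h _ hMZ).2 hZ
  apply Subtype.ext
  exact hrig (h.classify _ M hM).1 (h.classify _ M hM).2 (congrArg Subtype.val h1)
    (congrArg Subtype.val h2)

/-- (C1)+(C2)+(C3): the cube statement for a rigidified line bundle on `C × (Y ×_K Z)` from a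
representing object of the `algEquivZeroCut` sub-functor and rigidity for maps `Y ×_K Z ⟶ J`. -/
theorem cube_of_represents {D : RelativePic0Designation K c}
    (h : RepresentsRelSubPic c ε (algEquivZeroCut c ε) D)
    [LocallyOfFiniteType (prodBase y z)] [GeometricallyIntegral (prodBase y z)]
    (y₀ : SchemeHomOver (𝟙 (Spec (CommRingCat.of K))) y)
    (z₀ : SchemeHomOver (𝟙 (Spec (CommRingCat.of K))) z)
    (hrig : AxisRigidity y z D y₀ z₀)
    (M : RigidifiedLineBundle c ε (prodBase y z))
    (hY : Nonempty ((M.pullbackAlong (sliceY y z z₀)).L ≅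
      (RigidifiedLineBundle.unit (c := c) (ε := ε) y).L))
    (hZ : Nonempty ((M.pullbackAlong (sliceZ y z y₀)).L ≅
      (RigidifiedLineBundle.unit (c := c) (ε := ε) z).L)) :
    Nonempty (M.L ≅ (RigidifiedLineBundle.unit (c := c) (ε := ε) (prodBase y z)).L) := by
  have hM : FibrewiseAlgEquivZero M := by
    apply fibrewiseAlgEquivZero_of_trivial_at_point (prodBase y z)
      (postComp (sliceY y z z₀) y₀) M
    obtain ⟨e₁⟩ := pullbackAlong_postComp M (sliceY y z z₀) y₀
    obtain ⟨e₂⟩ := RigidifiedLineBundle.pullbackAlong_congr (c := c) (ε := ε) y₀ hY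
    obtain ⟨e₃⟩ := pullbackAlong_unit (c := c) (ε := ε) y₀
    exact ⟨e₁ ≪≫ e₂ ≪≫ e₃⟩
  exact cube_of_mem h y₀ z₀ hrig M hM hY hZ

/-- **CUBE-C, `Scheme.Modules` form** (S26 plan (D-d)).  `K` algebraically closed, `c : C ⟶ Spec K`
a smooth proper integral curve with a `K`-point `ε`; `y`, `z` proper geometrically integral with
`K`-points `y₀`, `z₀`; `t := pullback.fst y z ≫ y`.  A rigidified line bundle `M` on
`C ×_K (Y ×_K Z)` whose pullbacks to `C × (Y × {z₀})` and `C × ({y₀} × Z)` are trivial is trivial.
The only hypothesis is the frozen S25 statement (as the `Prop` `Stmt_S25`). -/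
theorem cube (hS25 : Fermat.Agent.S25.helper1705.Stmt_S25.{u}) [IsAlgClosed K]
    (c : C ⟶ Spec (CommRingCat.of K)) [IsProper c] [SmoothOfRelativeDimension 1 c] [IsIntegral C]
    (ε : SchemeHomOver (𝟙 (Spec (CommRingCat.of K))) c)
    (y : Y ⟶ Spec (CommRingCat.of K)) (z : Z ⟶ Spec (CommRingCat.of K))
    [IsProper y] [GeometricallyIntegral y] [IsProper z] [GeometricallyIntegral z]
    (y₀ : SchemeHomOver (𝟙 (Spec (CommRingCat.of K))) y)
    (z₀ : SchemeHomOver (𝟙 (Spec (CommRingCat.of K))) z)
    (M : RigidifiedLineBundle c ε (pullback.fst y z ≫ y))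
    (hY : Nonempty ((M.pullbackAlong (sliceY y z z₀)).L ≅
      (RigidifiedLineBundle.unit (c := c) (ε := ε) y).L))
    (hZ : Nonempty ((M.pullbackAlong (sliceZ y z y₀)).L ≅
      (RigidifiedLineBundle.unit (c := c) (ε := ε) z).L)) :
    Nonempty (M.L ≅ (RigidifiedLineBundle.unit (c := c) (ε := ε) (pullback.fst y z ≫ y)).L) := by
  obtain ⟨D, ⟨h⟩, -, hprop, -⟩ := hS25 K c ε
  have := hprop
  have := geometricallyIntegral_prodBase y z
  have := isIntegral_pullback_of_geometricallyIntegral y z
  exact cube_of_represents h y₀ z₀ (axisRigidity_of_isProper y z D y₀ z₀) M hY hZ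

end Cube

end Fermat.Agent.S26.helper907
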