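import Fermat.Agent.S26.helper154_Spec2
import Fermat.Agent.S26.helper907_CubeModules

/-!
# S26 / M4-DIV (helper4944): the cube theorem with a curve factor, in DIVISOR form

Pure glue between

* the bridge `O(E)` (Cartier divisors `CDiv` of `helper154_Spec` ↔ invertible `Scheme.Modules`),
* the cube theorem in `Scheme.Modules` form for rigidified line bundles on `C ×_K T`.

Statement: a Cartier divisor `E` on `C ×_K T` which pulls back to the zero divisor along the
rigidifying section `T ⟶ C ×_K T` and along the base changes of the two axes `Y ⟶ T`, `Z ⟶ T`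
is principal.

Everything is hypothesis-passing: the bridge is the structure `IsBridge O` (the four clauses of
plan v1 (D-e)), the cube theorem is a hypothesis on rigidified line bundles over `t`.

Main results:

* `cubeDiv`: the abstract two-axes form (any base `t`, any two axes `iY`, `iZ`);
* `exists_isBridge`: `Stmt_Bridge → ∃ O, IsBridge O`;
* `stmt_CubeDiv : Stmt_Bridge → Stmt_CubeMod → Stmt_CubeDiv` (the Spec statement, verbatim);
* `cubeDiv_linEquiv_one`: same hypotheses as `Stmt_CubeDiv`, conclusion `CDiv.LinEquiv E 1`;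
* `stmt_CubeMod : Stmt_S25 → Stmt_CubeMod` (wrapper of `helper907.cube` in the Spec vocabulary);
* `stmt_CubeDiv_of_S25 : Stmt_Bridge → Stmt_S25 → Stmt_CubeDiv` (the whole M4 layer).
-/

set_option autoImplicit false

universe u

noncomputable section

open CategoryTheory CategoryTheory.Limits AlgebraicGeometry AlgebraicGeometry.RelPicard
  NeronModelInfra GoodReductionJacobian

namespace Fermat.Agent.S26.helper4944

open Fermat.Agent.S26.helper154

/-- The four clauses of the bridge (plan v1 (D-e)) for an assignment `O` of a sheaf of modules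
to every Cartier divisor on every integral scheme. -/
structure IsBridge (O : ∀ (V : Scheme.{u}) [IsIntegral V], CDiv V → V.Modules) : Prop where
  /-- (B1) `O(D)` is invertible. -/
  invertible : ∀ (V : Scheme.{u}) [IsIntegral V] (D : CDiv V),
    Scheme.Modules.IsInvertible (O V D)
  /-- (B2) `O(0)` is the structure sheaf. -/
  one : ∀ (V : Scheme.{u}) [IsIntegral V],
    Nonempty (O V 1 ≅ SheafOfModules.unit V.ringCatSheaf)
  /-- (B3) `O(D)` trivial implies `D` principal. -/
  principal_of_iso : ∀ (V : Scheme.{u}) [IsIntegral V] (D : CDiv V),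
    Nonempty (O V D ≅ SheafOfModules.unit V.ringCatSheaf) →
      D ∈ (CDiv.principal (X := V)).range
  /-- (B4) compatibility with pull-back. -/
  pullback : ∀ (V W : Scheme.{u}) [IsIntegral V] [IsIntegral W] (φ : W ⟶ V) (D : CDiv V)
    (E : CDiv W), CDiv.PullsTo φ D E →
      Nonempty ((Scheme.Modules.pullback φ).obj (O V D) ≅ O W E)

section Glue

variable {K : Type u} [Field K] {C T : Scheme.{u}} {c : C ⟶ Spec (CommRingCat.of K)}
  {ε : SchemeHomOver (𝟙 (Spec (CommRingCat.of K))) c} {t : T ⟶ Spec (CommRingCat.of K)}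
  {O : ∀ (V : Scheme.{u}) [IsIntegral V], CDiv V → V.Modules}

/-- A Cartier divisor on `C ×_K T` whose pull-back along the rigidifying section is the zero
divisor defines a rigidified line bundle. -/
def rigidifiedOfDiv [IsIntegral T] [IsIntegral (pullback c t)] (hO : IsBridge O)
    (E : CDiv (pullback c t)) (h0 : CDiv.PullsTo (rigSection c t ε) E 1) :
    RigidifiedLineBundle c ε t where
  L := O (pullback c t) E
  isInvertible := hO.invertible _ E
  rigidified := by
    obtain ⟨e₁⟩ := hO.pullback _ _ (rigSection c t ε) E 1 h0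
    obtain ⟨e₂⟩ := hO.one T
    exact ⟨e₁ ≪≫ e₂⟩

@[simp]
theorem rigidifiedOfDiv_L [IsIntegral T] [IsIntegral (pullback c t)] (hO : IsBridge O)
    (E : CDiv (pullback c t)) (h0 : CDiv.PullsTo (rigSection c t ε) E 1) :
    (rigidifiedOfDiv hO E h0).L = O (pullback c t) E := rfl

/-- The pull-back of `rigidifiedOfDiv` along `ψ : T' ⟶ T` is the bundle of the pulled back
divisor. -/
theorem rigidifiedOfDiv_pullbackAlong [IsIntegral T] [IsIntegral (pullback c t)]
    (hO : IsBridge O) (E : CDiv (pullback c t)) (h0 : CDiv.PullsTo (rigSection c t ε) E 1)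
    {T' : Scheme.{u}} {t' : T' ⟶ Spec (CommRingCat.of K)} [IsIntegral (pullback c t')]
    (ψ : SchemeHomOver t' t) (E' : CDiv (pullback c t'))
    (hψ : CDiv.PullsTo (baseChangeSnd c ψ) E E') :
    Nonempty (((rigidifiedOfDiv hO E h0).pullbackAlong ψ).L ≅ O (pullback c t') E') :=
  hO.pullback _ _ (baseChangeSnd c ψ) E E' hψ

/-- If the divisor pulls back to the zero divisor along the base change of `ψ`, the pulled back
rigidified bundle is trivial. -/
theorem rigidifiedOfDiv_pullbackAlong_unit [IsIntegral T] [IsIntegral (pullback c t)]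
    (hO : IsBridge O) (E : CDiv (pullback c t)) (h0 : CDiv.PullsTo (rigSection c t ε) E 1)
    {T' : Scheme.{u}} {t' : T' ⟶ Spec (CommRingCat.of K)} [IsIntegral (pullback c t')]
    (ψ : SchemeHomOver t' t) (hψ : CDiv.PullsTo (baseChangeSnd c ψ) E 1) :
    Nonempty (((rigidifiedOfDiv hO E h0).pullbackAlong ψ).L ≅
      (RigidifiedLineBundle.unit (c := c) (ε := ε) t').L) := by
  obtain ⟨e₁⟩ := rigidifiedOfDiv_pullbackAlong hO E h0 ψ 1 hψ
  obtain ⟨e₂⟩ := hO.one (pullback c t')
  exact ⟨e₁ ≪≫ e₂⟩

/-- A divisor whose rigidified bundle is trivial is principal. -/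
theorem principal_of_rigidifiedOfDiv_iso [IsIntegral T] [IsIntegral (pullback c t)]
    (hO : IsBridge O) (E : CDiv (pullback c t)) (h0 : CDiv.PullsTo (rigSection c t ε) E 1)
    (h : Nonempty ((rigidifiedOfDiv hO E h0).L ≅
      (RigidifiedLineBundle.unit (c := c) (ε := ε) t).L)) :
    E ∈ (CDiv.principal (X := pullback c t)).range :=
  hO.principal_of_iso _ E h

/-- **CUBE-C in divisor form** (abstract two-axes form).  `iY : Y ⟶ T`, `iZ : Z ⟶ T` are two
morphisms over `K` ("axes"); the cube theorem in `Scheme.Modules` form is the hypothesis `hcube`.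
A Cartier divisor on `C ×_K T` which pulls back to the zero divisor along the rigidifying section
and along the base changes of the two axes is principal. -/
theorem cubeDiv [IsIntegral T] [IsIntegral (pullback c t)] (hO : IsBridge O)
    {Y Z : Scheme.{u}} {y : Y ⟶ Spec (CommRingCat.of K)} {z : Z ⟶ Spec (CommRingCat.of K)}
    [IsIntegral (pullback c y)] [IsIntegral (pullback c z)]
    (iY : SchemeHomOver y t) (iZ : SchemeHomOver z t)
    (hcube : ∀ M : RigidifiedLineBundle c ε t,
      Nonempty ((M.pullbackAlong iY).L ≅ (RigidifiedLineBundle.unit (c := c) (ε := ε) y).L) →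
      Nonempty ((M.pullbackAlong iZ).L ≅ (RigidifiedLineBundle.unit (c := c) (ε := ε) z).L) →
      Nonempty (M.L ≅ (RigidifiedLineBundle.unit (c := c) (ε := ε) t).L))
    (E : CDiv (pullback c t))
    (h0 : CDiv.PullsTo (rigSection c t ε) E 1)
    (hY : CDiv.PullsTo (baseChangeSnd c iY) E 1)
    (hZ : CDiv.PullsTo (baseChangeSnd c iZ) E 1) :
    E ∈ (CDiv.principal (X := pullback c t)).range :=
  principal_of_rigidifiedOfDiv_iso hO E h0
    (hcube (rigidifiedOfDiv hO E h0)
      (rigidifiedOfDiv_pullbackAlong_unit hO E h0 iY hY)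
      (rigidifiedOfDiv_pullbackAlong_unit hO E h0 iZ hZ))

end Glue

/-- The bridge statement of the Spec, as an `IsBridge` structure. -/
theorem exists_isBridge (hB : Stmt_Bridge.{u}) :
    ∃ O : ∀ (V : Scheme.{u}) [IsIntegral V], CDiv V → V.Modules, IsBridge O := by
  obtain ⟨O, h1, h2, h3, h4⟩ := hB
  refine ⟨O, ⟨h1, h2, ?_, h4⟩⟩
  intro V _ D hD
  obtain ⟨h, rfl⟩ := h3 V D hD
  exact ⟨h, rfl⟩

/-- **M4-DIV**: the divisor form of the cube theorem with a curve factor, from the bridge and
the `Scheme.Modules` form (statements of `helper154_Spec2`, verbatim). -/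
theorem stmt_CubeDiv (hB : Stmt_Bridge.{u}) (hC : Stmt_CubeMod.{u}) : Stmt_CubeDiv.{u} := by
  intro K _ _ C c _ _ _ ε Y Z y z _ _ _ _ y₀ z₀ _ _ _ _ E h0 hY hZ
  obtain ⟨O, hO⟩ := exists_isBridge hB
  obtain ⟨h, rfl⟩ := cubeDiv (ε := ε) hO (sliceY y z z₀) (sliceZ y z y₀)
    (fun M => hC K c ε y z y₀ z₀ M) E h0 hY hZ
  exact ⟨h, rfl⟩

/-- `Stmt_CubeDiv` with the conclusion in the `LinEquiv` vocabulary of the Spec. -/
theorem cubeDiv_linEquiv_one (hD : Stmt_CubeDiv.{u}) (K : Type u) [Field K] [IsAlgClosed K]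
    {C : Scheme.{u}} (c : C ⟶ Spec (CommRingCat.of K))
    [IsProper c] [SmoothOfRelativeDimension 1 c] [IsIntegral C]
    (ε : SchemeHomOver (𝟙 (Spec (CommRingCat.of K))) c)
    {Y Z : Scheme.{u}} (y : Y ⟶ Spec (CommRingCat.of K)) (z : Z ⟶ Spec (CommRingCat.of K))
    [IsProper y] [IsProper z] [GeometricallyIntegral y] [GeometricallyIntegral z]
    (y₀ : SchemeHomOver (𝟙 (Spec (CommRingCat.of K))) y)
    (z₀ : SchemeHomOver (𝟙 (Spec (CommRingCat.of K))) z)
    [IsIntegral (pullback c (pullback.fst y z ≫ y))] [IsIntegral (pullback c y)]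
    [IsIntegral (pullback c z)] [IsIntegral (pullback y z)]
    (E : CDiv (pullback c (pullback.fst y z ≫ y)))
    (h0 : CDiv.PullsTo (rigSection c (pullback.fst y z ≫ y) ε) E 1)
    (hY : CDiv.PullsTo (baseChangeSnd c (sliceY y z z₀)) E 1)
    (hZ : CDiv.PullsTo (baseChangeSnd c (sliceZ y z y₀)) E 1) :
    CDiv.LinEquiv E 1 := by
  obtain ⟨h, rfl⟩ := hD K c ε y z y₀ z₀ E h0 hY hZ
  exact ⟨h, (one_mul _).symm⟩

/-- **M4-CUBE in the Spec vocabulary**: the `Scheme.Modules` form of the cube theorem with a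
curve factor, from the frozen S25 statement (`helper907.cube`, restated as `Stmt_CubeMod`). -/
theorem stmt_CubeMod (hS25 : Fermat.Agent.S25.helper1705.Stmt_S25.{u}) : Stmt_CubeMod.{u} :=
  fun _ _ _ _ c _ _ _ ε _ _ y z _ _ _ _ y₀ z₀ M hY hZ =>
    Fermat.Agent.S26.helper907.cube hS25 c ε y z y₀ z₀ M hY hZ

/-- **The M4 layer**: the divisor form of the cube theorem from the bridge and the frozen S25
statement. -/
theorem stmt_CubeDiv_of_S25 (hB : Stmt_Bridge.{u})
    (hS25 : Fermat.Agent.S25.helper1705.Stmt_S25.{u}) : Stmt_CubeDiv.{u} :=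
  stmt_CubeDiv hB (stmt_CubeMod hS25)

end Fermat.Agent.S26.helper4944
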