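import Mathlib

/-!
# S26-M1d: every stalk of a smooth scheme over an algebraically closed field is a UFD

Scheme adapter of module M1 of the S26 route (#2694 / #2746).  The algebraic input
(M1a + M1b + M1c: a noetherian local `K`-algebra that is formally smooth over `K` with residue
field `K` is a domain and a UFD) is taken as the hypothesis `LocalUFDInput K`.
-/

set_option autoImplicit false

universe u

namespace Fermat.Agent.S26.helper1351

open IsLocalRing

/-- The algebraic input of M1 (output of M1a + M1b + M1c): every noetherian local `K`-algebra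
which is formally smooth over `K` and has residue field `K` is a factorial domain. -/
def LocalUFDInput (K : Type u) [Field K] : Prop :=
  ∀ (O : Type u) [CommRing O] [Algebra K O] [IsLocalRing O] [IsNoetherianRing O]
    [Algebra.FormallySmooth K O],
    Function.Surjective (algebraMap K (IsLocalRing.ResidueField O)) →
      IsDomain O ∧ UniqueFactorizationMonoid O

section Algebra

variable (K : Type u) [Field K] (B : Type u) [CommRing B] [Algebra K B]

/-- Nullstellensatz form: the residue field of a finite type algebra over an algebraically closed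
field at a maximal ideal is the base field. -/
theorem algebraMap_quotient_surjective_of_isMaximal [IsAlgClosed K] [Algebra.FiniteType K B]
    (m : Ideal B) [m.IsMaximal] : Function.Surjective (algebraMap K (B ⧸ m)) := by
  let := Ideal.Quotient.field m
  have : Algebra.FiniteType K (B ⧸ m) :=
    Algebra.FiniteType.of_surjective (Ideal.Quotient.mkₐ K m) (Ideal.Quotient.mkₐ_surjective K m)
  have : Module.Finite K (B ⧸ m) := finite_of_finite_type_of_isJacobsonRing K (B ⧸ m)
  exact (IsAlgClosed.algebraMap_bijective_of_isIntegral (k := K) (K := B ⧸ m)).2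

/-- (D1a) the residue field of `B_m` is `K`. -/
theorem algebraMap_residueField_localization_surjective [IsAlgClosed K] [Algebra.FiniteType K B]
    (m : Ideal B) [m.IsMaximal] :
    Function.Surjective (algebraMap K (IsLocalRing.ResidueField (Localization.AtPrime m))) := by
  have h1 := algebraMap_quotient_surjective_of_isMaximal K B m
  have h2 : Function.Surjective (algebraMap (B ⧸ m) m.ResidueField) :=
    m.bijective_algebraMap_quotient_residueField.surjective
  have h3 : algebraMap K m.ResidueField =
      (algebraMap (B ⧸ m) m.ResidueField).comp (algebraMap K (B ⧸ m)) :=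
    IsScalarTower.algebraMap_eq K (B ⧸ m) m.ResidueField
  intro x
  obtain ⟨y, hy⟩ := h2 x
  obtain ⟨z, hz⟩ := h1 y
  refine ⟨z, ?_⟩
  have := congrArg (fun φ => φ z) h3
  simp only [RingHom.comp_apply] at this
  rw [← hy, ← hz]
  exact this

/-- (D1b) `B_m` is formally smooth over `K`. -/
theorem formallySmooth_localization [Algebra.FormallySmooth K B] (p : Ideal B) [p.IsPrime] :
    Algebra.FormallySmooth K (Localization.AtPrime p) := by
  have : Algebra.FormallySmooth B (Localization.AtPrime p) :=
    Algebra.FormallySmooth.of_isLocalization p.primeCompl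
  exact Algebra.FormallySmooth.comp K B (Localization.AtPrime p)

/-- (D1c) `B_m` is noetherian. -/
theorem isNoetherianRing_localization [Algebra.FiniteType K B] (p : Ideal B) [p.IsPrime] :
    IsNoetherianRing (Localization.AtPrime p) := by
  have : IsNoetherianRing B := Algebra.FiniteType.isNoetherianRing K B
  exact IsLocalization.isNoetherianRing p.primeCompl _ inferInstance

/-- (D1) the local ring of a formally smooth finite type algebra over an algebraically closed
field at a maximal ideal is a factorial domain. -/
theorem localization_atMaximal_ufd [IsAlgClosed K] [Algebra.FiniteType K B]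
    [Algebra.FormallySmooth K B] (H : LocalUFDInput K) (m : Ideal B) [m.IsMaximal] :
    IsDomain (Localization.AtPrime m) ∧ UniqueFactorizationMonoid (Localization.AtPrime m) := by
  have := formallySmooth_localization K B m
  have := isNoetherianRing_localization K B m
  exact H (Localization.AtPrime m) (algebraMap_residueField_localization_surjective K B m)

/-- (D2) the local ring of a formally smooth finite type algebra over an algebraically closed
field at ANY prime ideal is a factorial domain (it is a localisation of the local ring at a
maximal ideal). -/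
theorem localization_atPrime_ufd [IsAlgClosed K] [Algebra.FiniteType K B]
    [Algebra.FormallySmooth K B] (H : LocalUFDInput K) (p : Ideal B) [hp : p.IsPrime] :
    IsDomain (Localization.AtPrime p) ∧ UniqueFactorizationMonoid (Localization.AtPrime p) := by
  obtain ⟨m, hm, hpm⟩ := Ideal.exists_le_maximal p hp.ne_top
  have := hm
  obtain ⟨hdom, hufd⟩ := localization_atMaximal_ufd K B H m
  have hle : m.primeCompl ≤ p.primeCompl := fun x hx hxp => hx (hpm hxp)
  let _ : Algebra (Localization.AtPrime m) (Localization.AtPrime p) :=
    IsLocalization.localizationAlgebraOfSubmonoidLe _ _ m.primeCompl p.primeCompl hle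
  have : IsScalarTower B (Localization.AtPrime m) (Localization.AtPrime p) :=
    IsLocalization.localization_isScalarTower_of_submonoid_le _ _ _ _ hle
  have : IsLocalization (p.primeCompl.map (algebraMap B (Localization.AtPrime m)))
      (Localization.AtPrime p) :=
    IsLocalization.isLocalization_of_submonoid_le _ _ m.primeCompl p.primeCompl hle
  have hufd' : UniqueFactorizationMonoid (Localization.AtPrime p) :=
    UniqueFactorizationMonoid.of_isLocalization
      (p.primeCompl.map (algebraMap B (Localization.AtPrime m))) _
  exact ⟨@IsDomain.mk _ _ hufd'.toIsCancelMulZero inferInstance, hufd'⟩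

/-- (D2') the same for any model of the localisation at a prime. -/
theorem isLocalization_atPrime_ufd [IsAlgClosed K] [Algebra.FiniteType K B]
    [Algebra.FormallySmooth K B] (H : LocalUFDInput K) (p : Ideal B) [p.IsPrime]
    (S : Type*) [CommRing S] [Algebra B S] [IsLocalization.AtPrime S p] :
    IsDomain S ∧ UniqueFactorizationMonoid S := by
  obtain ⟨hdom, hufd⟩ := localization_atPrime_ufd K B H p
  let e : Localization.AtPrime p ≃ₐ[B] S :=
    IsLocalization.algEquiv p.primeCompl (Localization.AtPrime p) S
  exact ⟨e.symm.toRingEquiv.toMulEquiv.isDomain (Localization.AtPrime p),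
    e.toRingEquiv.toMulEquiv.uniqueFactorizationMonoid hufd⟩

end Algebra

section UFD

variable {R : Type*} [CommRing R] [UniqueFactorizationMonoid R]

/-- (D4b) In a factorial domain, a prime ideal containing a nonzero element `a` contains a prime
factor of `a`. -/
theorem exists_prime_dvd_mem_of_mem {a : R} (ha : a ≠ 0) {P : Ideal R} [hP : P.IsPrime]
    (haP : a ∈ P) : ∃ π : R, Prime π ∧ π ∣ a ∧ π ∈ P := by
  obtain ⟨u, hu⟩ := UniqueFactorizationMonoid.factors_prod ha
  have h1 : (UniqueFactorizationMonoid.factors a).prod ∈ P := by
    rwa [← hu, Ideal.mul_unit_mem_iff_mem _ u.isUnit] at haP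
  obtain ⟨π, hπ1, hπ2⟩ := (hP.multiset_prod_mem_iff_exists_mem _).1 h1
  exact ⟨π, UniqueFactorizationMonoid.prime_of_factor π hπ1,
    UniqueFactorizationMonoid.dvd_of_mem_factors hπ1, hπ2⟩

/-- (D4b) In a factorial domain, a prime ideal minimal over a nonzero principal ideal `(a)` is
generated by a prime factor of `a` (local equation of a prime divisor). -/
theorem exists_prime_span_eq_of_mem_minimalPrimes {a : R} (ha : a ≠ 0) {P : Ideal R}
    (hP : P ∈ (Ideal.span {a}).minimalPrimes) :
    ∃ π : R, Prime π ∧ π ∣ a ∧ P = Ideal.span {π} := by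
  have hPprime : P.IsPrime := hP.1.1
  have haP : a ∈ P := hP.1.2 (Ideal.mem_span_singleton_self a)
  obtain ⟨π, hπprime, hπa, hπP⟩ := exists_prime_dvd_mem_of_mem ha haP
  have hle : Ideal.span {π} ≤ P := (Ideal.span_singleton_le_iff_mem _).mpr hπP
  have hprime : (Ideal.span {π}).IsPrime :=
    (Ideal.span_singleton_prime hπprime.ne_zero).mpr hπprime
  exact ⟨π, hπprime, hπa,
    le_antisymm (hP.2 ⟨hprime, Ideal.span_singleton_le_span_singleton.mpr hπa⟩ hle) hle⟩

variable [IsDomain R]

/-- (D4c) In a factorial domain every prime ideal of height one is generated by a prime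
element (Weil ⟹ Cartier at a factorial stalk). -/
theorem exists_prime_span_eq_of_height_eq_one {P : Ideal R} [hP : P.IsPrime]
    (hht : P.height = 1) : ∃ π : R, Prime π ∧ P = Ideal.span {π} := by
  have hne : P ≠ ⊥ := by
    rintro rfl
    rw [Ideal.height_bot] at hht
    exact zero_ne_one hht
  obtain ⟨π, hπP, hπprime⟩ := hP.exists_mem_prime_of_ne_bot hne
  have hle : Ideal.span {π} ≤ P := (Ideal.span_singleton_le_iff_mem _).mpr hπP
  have hprime : (Ideal.span {π}).IsPrime :=
    (Ideal.span_singleton_prime hπprime.ne_zero).mpr hπprime
  refine ⟨π, hπprime, ?_⟩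
  by_contra hne'
  have hlt : Ideal.span {π} < P := lt_of_le_of_ne hle (Ne.symm hne')
  have hfin : P.FiniteHeight := ⟨Or.inr (by rw [hht]; exact ENat.one_ne_top)⟩
  have hfin' : (Ideal.span {π}).FiniteHeight := Ideal.finiteHeight_of_le hle hP.ne_top
  have h1 : (Ideal.span {π}).height < P.height := Ideal.height_strict_mono_of_isPrime hlt
  rw [hht, Order.lt_one_iff, Ideal.height_eq_zero_iff_eq_bot] at h1
  exact hπprime.ne_zero (Ideal.span_singleton_eq_bot.mp h1)

end UFD

section Scheme

open AlgebraicGeometry CategoryTheory

variable {K : Type u} [Field K] [IsAlgClosed K] {A : Scheme.{u}}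
  (f : A ⟶ Spec (CommRingCat.of K))

/-- (D3a) affine form: for a smooth `K`-scheme `A` and an affine open `V`, every localisation of
`Γ(A, V)` at a prime ideal is a factorial domain. -/
theorem isLocalization_atPrime_section_ufd [Smooth f] (H : LocalUFDInput K) {V : A.Opens}
    (hV : IsAffineOpen V) (p : Ideal Γ(A, V)) [p.IsPrime]
    (S : Type*) [CommRing S] [Algebra Γ(A, V) S] [IsLocalization.AtPrime S p] :
    IsDomain S ∧ UniqueFactorizationMonoid S := by
  have h1 : (f.appLE ⊤ V le_top).hom.Smooth :=
    f.smooth_appLE (isAffineOpen_top (Spec (CommRingCat.of K))) hV le_top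
  have h2 : ((Scheme.ΓSpecIso (CommRingCat.of K)).inv.hom).Smooth :=
    RingHom.Smooth.of_bijective
      (ConcreteCategory.bijective_of_isIso (Scheme.ΓSpecIso (CommRingCat.of K)).inv)
  have h3 := h2.comp h1
  algebraize [(f.appLE ⊤ V le_top).hom.comp (Scheme.ΓSpecIso (CommRingCat.of K)).inv.hom]
  have : Algebra.FiniteType K Γ(A, V) := inferInstance
  exact isLocalization_atPrime_ufd K Γ(A, V) H p S

/-- (D3) every stalk of a smooth scheme over an algebraically closed field is a factorial
domain. -/
theorem stalk_ufd [Smooth f] (H : LocalUFDInput K) (x : A) :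
    IsDomain (A.presheaf.stalk x) ∧ UniqueFactorizationMonoid (A.presheaf.stalk x) := by
  obtain ⟨_, ⟨V, hV, rfl⟩, hxV, -⟩ :=
    A.isBasis_affineOpens.exists_subset_of_mem_open (Set.mem_univ x) isOpen_univ
  let _ : Algebra Γ(A, V) (A.presheaf.stalk x) :=
    TopCat.Presheaf.algebra_section_stalk A.presheaf ⟨x, hxV⟩
  have : IsLocalization.AtPrime (A.presheaf.stalk x) (hV.primeIdealOf ⟨x, hxV⟩).asIdeal :=
    hV.isLocalization_stalk ⟨x, hxV⟩
  exact isLocalization_atPrime_section_ufd f H hV (hV.primeIdealOf ⟨x, hxV⟩).asIdeal _

/-- (D3') the same under the hypothesis of the frozen S26 statement. -/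
theorem stalk_ufd_of_smoothOfRelativeDimension (g : ℕ) [SmoothOfRelativeDimension g f]
    (H : LocalUFDInput K) (x : A) :
    IsDomain (A.presheaf.stalk x) ∧ UniqueFactorizationMonoid (A.presheaf.stalk x) := by
  have : Smooth f := SmoothOfRelativeDimension.smooth g f
  exact stalk_ufd f H x

/-- (D4a) every stalk of a smooth scheme over an algebraically closed field is integrally closed
(so the scheme is normal). -/
theorem stalk_isIntegrallyClosed [Smooth f] (H : LocalUFDInput K) (x : A) :
    IsIntegrallyClosed (A.presheaf.stalk x) := by
  obtain ⟨hdom, hufd⟩ := stalk_ufd f H x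
  infer_instance

/-- (D4b) local equations of prime divisors: in a stalk of a smooth scheme over an algebraically
closed field, a prime ideal minimal over a nonzero principal ideal `(a)` is generated by a prime
factor of `a`. -/
theorem stalk_exists_prime_span_eq_of_mem_minimalPrimes [Smooth f] (H : LocalUFDInput K) (x : A)
    {a : A.presheaf.stalk x} (ha : a ≠ 0) {P : Ideal (A.presheaf.stalk x)}
    (hP : P ∈ (Ideal.span {a}).minimalPrimes) :
    ∃ π : A.presheaf.stalk x, Prime π ∧ π ∣ a ∧ P = Ideal.span {π} := by
  obtain ⟨hdom, hufd⟩ := stalk_ufd f H x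
  exact exists_prime_span_eq_of_mem_minimalPrimes ha hP

/-- (D4c) Weil ⟹ Cartier: in a stalk of a smooth scheme over an algebraically closed field,
every prime ideal of height one is principal, generated by a prime element. -/
theorem stalk_exists_prime_span_eq_of_height_eq_one [Smooth f] (H : LocalUFDInput K) (x : A)
    {P : Ideal (A.presheaf.stalk x)} [P.IsPrime] (hht : P.height = 1) :
    ∃ π : A.presheaf.stalk x, Prime π ∧ P = Ideal.span {π} := by
  obtain ⟨hdom, hufd⟩ := stalk_ufd f H x
  exact exists_prime_span_eq_of_height_eq_one hht

end Scheme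

end Fermat.Agent.S26.helper1351
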