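/-
S26-M1b (helper218): descent of unique factorization along a faithfully flat extension of a
LOCAL domain.  Mathlib-only, Spec-independent.

Main results (namespace `Fermat.Agent.S26.helper218`):

* `exists_colon_generator` : `R` local domain, `S` a faithfully flat `R`-algebra which is a domain
  in which every "colon set" `{s | a ∣ s * b}` (`a ≠ 0`) is the set of multiples of one element;
  then the same holds in `R`.
* `ufd_of_faithfullyFlat` : `R` local domain, `S` a faithfully flat `R`-algebra, `S` a UFD
  ⟹ `R` is a UFD.
* `ufd_of_adicCompletion` / `ufd_of_adicCompletion_equiv` : the case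
  `S = AdicCompletion (maximalIdeal R) R` for a Noetherian local domain `R` (resp. any ring
  isomorphic to the completion, e.g. a power series ring).
-/
import Mathlib

namespace Fermat.Agent.S26.helper218

open IsLocalRing

section Core

variable {R S : Type*} [CommRing R] [CommRing S] [Algebra R S]

/-- Equational criterion of flatness for a relation with two terms. -/
theorem exists_of_flat_rel [Module.Flat R S] {f g : R} {s t : S}
    (h : f • s + g • t = 0) :
    ∃ (k : ℕ) (a b : Fin k → R) (y : Fin k → S),
      s = ∑ j, a j • y j ∧ t = ∑ j, b j • y j ∧ ∀ j, f * a j + g * b j = 0 := by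
  obtain ⟨k, a, y, hx, hf⟩ := Module.Flat.isTrivialRelation_of_sum_smul_eq_zero
    (R := R) (M := S) (ι := Fin 2) (f := ![f, g]) (x := ![s, t])
    (by simpa [Fin.sum_univ_two] using h)
  refine ⟨k, a 0, a 1, y, ?_, ?_, ?_⟩
  · simpa using hx 0
  · simpa using hx 1
  · intro j
    simpa [Fin.sum_univ_two] using hf j

/-- In a faithfully flat algebra over a local ring the extension of the maximal ideal is proper. -/
theorem map_maximalIdeal_ne_top [IsLocalRing R] [Module.FaithfullyFlat R S] :
    Ideal.map (algebraMap R S) (maximalIdeal R) ≠ ⊤ := by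
  intro h
  have h1 := Ideal.comap_map_eq_self_of_faithfullyFlat (B := S) (maximalIdeal R)
  rw [h, Ideal.comap_top] at h1
  exact (IsLocalRing.maximalIdeal.isMaximal R).ne_top h1.symm

/-- A non-unit of a local ring stays a non-unit in a faithfully flat algebra. -/
theorem not_isUnit_algebraMap [IsLocalRing R] [Module.FaithfullyFlat R S] {x : R}
    (hx : ¬ IsUnit x) : ¬ IsUnit (algebraMap R S x) := by
  intro hu
  apply map_maximalIdeal_ne_top (R := R) (S := S)
  refine Ideal.eq_top_of_isUnit_mem _ (Ideal.mem_map_of_mem _ ?_) hu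
  exact (IsLocalRing.mem_maximalIdeal x).2 hx

/-- A finite sum `∑ a j • y j` with all `a j` in the maximal ideal lies in the extended ideal. -/
theorem sum_smul_mem_map [IsLocalRing R] {k : ℕ} (a : Fin k → R) (y : Fin k → S)
    (ha : ∀ j, a j ∈ maximalIdeal R) :
    ∑ j, a j • y j ∈ Ideal.map (algebraMap R S) (maximalIdeal R) := by
  refine Ideal.sum_mem _ fun j _ => ?_
  rw [Algebra.smul_def]
  exact Ideal.mul_mem_right _ _ (Ideal.mem_map_of_mem _ (ha j))

/-- **Descent of principal colon ideals.**  Let `R` be a local domain and `S` a faithfully flat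
`R`-algebra which is a domain.  If in `S` every colon set `{s | a ∣ s * b}` with `a ≠ 0` consists
of the multiples of a single element, then the same is true in `R`. -/
theorem exists_colon_generator [IsLocalRing R] [IsDomain S] [Module.FaithfullyFlat R S]
    (hS : ∀ a b : S, a ≠ 0 → ∃ c : S, ∀ s : S, a ∣ s * b ↔ c ∣ s)
    (a b : R) (ha : a ≠ 0) :
    ∃ c : R, ∀ r : R, a ∣ r * b ↔ c ∣ r := by
  have hinj : Function.Injective (algebraMap R S) := FaithfulSMul.algebraMap_injective R S
  have ha' : algebraMap R S a ≠ 0 := fun h => ha (hinj (by rw [h, map_zero]))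
  obtain ⟨c', hc'⟩ := hS (algebraMap R S a) (algebraMap R S b) ha'
  -- `c'` divides the image of `a`, hence is nonzero
  have hc'a : c' ∣ algebraMap R S a := (hc' _).1 (Dvd.intro _ rfl)
  have hc'0 : c' ≠ 0 := fun h => ha' (by rw [h] at hc'a; exact zero_dvd_iff.1 hc'a)
  -- key: every element of the colon ideal of `R` maps to a multiple of `c'`
  have key : ∀ r : R, a ∣ r * b → c' ∣ algebraMap R S r := fun r hr => by
    refine (hc' _).1 ?_
    rw [← map_mul]
    exact map_dvd (algebraMap R S) hr
  -- step 1: write `c'` as an `S`-combination of elements of the colon ideal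
  obtain ⟨t, ht⟩ : algebraMap R S a ∣ c' * algebraMap R S b := (hc' c').2 dvd_rfl
  have hrel : b • c' + a • (-t) = 0 := by
    rw [Algebra.smul_def, Algebra.smul_def, mul_comm (algebraMap R S b) c', ht]
    ring
  obtain ⟨k, α, β, y, hα, -, hαβ⟩ := exists_of_flat_rel hrel
  have hαcolon : ∀ j, a ∣ α j * b := fun j => by
    refine ⟨-β j, ?_⟩
    have := hαβ j
    linear_combination this
  choose σ hσ using fun j => key (α j) (hαcolon j)
  have hone : ∑ j, σ j * y j = 1 := by
    have h1 : c' * ∑ j, σ j * y j = c' * 1 := by
      rw [mul_one, Finset.mul_sum]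
      conv_rhs => rw [hα]
      refine Finset.sum_congr rfl fun j _ => ?_
      rw [Algebra.smul_def, hσ j, mul_assoc]
    exact mul_left_cancel₀ hc'0 h1
  -- some `σ j` is outside the extended maximal ideal
  obtain ⟨j₀, hj₀⟩ : ∃ j, σ j ∉ Ideal.map (algebraMap R S) (maximalIdeal R) := by
    by_contra hcon
    simp only [not_exists, not_not] at hcon
    apply map_maximalIdeal_ne_top (R := R) (S := S)
    rw [Ideal.eq_top_iff_one, ← hone]
    exact Ideal.sum_mem _ fun j _ => Ideal.mul_mem_right _ _ (hcon j)
  -- step 2: `α j₀` generates the colon ideal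
  refine ⟨α j₀, fun r => ⟨fun hr => ?_, fun hr => ?_⟩⟩
  · obtain ⟨s, hs⟩ := key r hr
    have hrel2 : r • σ j₀ + α j₀ • (-s) = 0 := by
      rw [Algebra.smul_def, Algebra.smul_def, hs, hσ j₀]
      ring
    obtain ⟨l, γ, δ, z, hγ, -, hγδ⟩ := exists_of_flat_rel hrel2
    obtain ⟨i, hi⟩ : ∃ i, γ i ∉ maximalIdeal R := by
      by_contra hcon
      simp only [not_exists, not_not] at hcon
      exact hj₀ (hγ ▸ sum_smul_mem_map γ z hcon)
    have hu : IsUnit (γ i) := by
      by_contra hnu
      exact hi ((IsLocalRing.mem_maximalIdeal _).2 hnu)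
    obtain ⟨u, hu⟩ := hu
    refine ⟨-(δ i) * (u⁻¹ : Rˣ), ?_⟩
    have h3 := hγδ i
    rw [← hu] at h3
    have h4 : r = r * (u : R) * ((u⁻¹ : Rˣ) : R) := by
      rw [mul_assoc, Units.mul_inv, mul_one]
    rw [h4]
    have h5 : r * (u : R) = -(α j₀ * δ i) := by linear_combination h3
    rw [h5]
    ring
  · obtain ⟨x, rfl⟩ := hr
    obtain ⟨w, hw⟩ := hαcolon j₀
    exact ⟨w * x, by rw [mul_right_comm, hw]; ring⟩

/-- In a UFD (more generally a domain with lcm's) every colon set `{s | a ∣ s * b}` is the set of
multiples of one element. -/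
theorem colon_generator_of_ufd [IsDomain S] [UniqueFactorizationMonoid S] (a b : S) (_ha : a ≠ 0) :
    ∃ c : S, ∀ s : S, a ∣ s * b ↔ c ∣ s := by
  classical
  let _ : GCDMonoid S := UniqueFactorizationMonoid.toGCDMonoid S
  by_cases hb : b = 0
  · exact ⟨1, fun s => by simp [hb]⟩
  · obtain ⟨c, hc⟩ : b ∣ lcm a b := dvd_lcm_right a b
    refine ⟨c, fun s => ?_⟩
    have h1 : a ∣ s * b ↔ lcm a b ∣ s * b :=
      ⟨fun h => lcm_dvd_iff.2 ⟨h, Dvd.intro_left _ rfl⟩, fun h => (lcm_dvd_iff.1 h).1⟩
    rw [h1, hc, mul_comm s b]
    exact mul_dvd_mul_iff_left hb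

/-- `DvdNotUnit` is preserved by a faithfully flat extension of a local ring. -/
theorem dvdNotUnit_algebraMap [IsLocalRing R] [IsDomain S] [Module.FaithfullyFlat R S] {a b : R}
    (h : DvdNotUnit a b) : DvdNotUnit (algebraMap R S a) (algebraMap R S b) := by
  have hinj : Function.Injective (algebraMap R S) := FaithfulSMul.algebraMap_injective R S
  obtain ⟨ha, x, hx, rfl⟩ := h
  exact ⟨fun h0 => ha (hinj (by rw [h0, map_zero])), algebraMap R S x,
    not_isUnit_algebraMap hx, map_mul _ _ _⟩

/-- A local domain with a faithfully flat extension which has well-founded divisibility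
(e.g. a Noetherian domain or a UFD) has well-founded divisibility. -/
theorem wfDvdMonoid_of_faithfullyFlat [IsLocalRing R] [IsDomain S] [Module.FaithfullyFlat R S]
    [WfDvdMonoid S] : WfDvdMonoid R :=
  ⟨Subrelation.wf (r := InvImage DvdNotUnit (algebraMap R S))
    (fun h => dvdNotUnit_algebraMap h) (InvImage.wf _ wellFounded_dvdNotUnit)⟩

/-- Irreducible elements are prime as soon as colon sets are principal. -/
theorem prime_of_irreducible_of_colon [IsDomain R]
    (hR : ∀ a b : R, a ≠ 0 → ∃ c : R, ∀ r : R, a ∣ r * b ↔ c ∣ r)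
    {p : R} (hp : Irreducible p) : Prime p := by
  refine ⟨hp.ne_zero, hp.not_isUnit, fun x y hxy => ?_⟩
  obtain ⟨c, hc⟩ := hR p y hp.ne_zero
  obtain ⟨u, hu⟩ : c ∣ p := (hc p).1 (Dvd.intro _ rfl)
  rcases hp.isUnit_or_isUnit hu with h | h
  · right
    have : p ∣ 1 * y := (hc 1).2 h.dvd
    simpa using this
  · left
    have hpc : p ∣ c := by
      obtain ⟨v, hv⟩ := h
      exact ⟨(v⁻¹ : Rˣ), by rw [hu, ← hv, mul_assoc, Units.mul_inv, mul_one]⟩
    exact hpc.trans ((hc x).1 hxy)

/-- **UFD descent, general form.**  A local domain `R` admitting a faithfully flat algebra `S`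
which is a domain with well-founded divisibility and principal colon sets is a UFD. -/
theorem ufd_of_faithfullyFlat_of_colon [IsLocalRing R] [IsDomain R] [IsDomain S]
    [Module.FaithfullyFlat R S] [WfDvdMonoid S]
    (hS : ∀ a b : S, a ≠ 0 → ∃ c : S, ∀ s : S, a ∣ s * b ↔ c ∣ s) :
    UniqueFactorizationMonoid R :=
  { toIsCancelMulZero := inferInstance
    toIsWellFounded := wfDvdMonoid_of_faithfullyFlat (S := S)
    irreducible_iff_prime := fun {_} =>
      ⟨fun hp => prime_of_irreducible_of_colon (exists_colon_generator hS) hp, Prime.irreducible⟩ }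

/-- **UFD descent.**  A local domain `R` admitting a faithfully flat algebra `S` which is a UFD
is itself a UFD.  (Locality of `R` is essential.) -/
theorem ufd_of_faithfullyFlat (R S : Type*) [CommRing R] [CommRing S] [Algebra R S]
    [IsLocalRing R] [IsDomain R] [IsDomain S]
    [UniqueFactorizationMonoid S] [Module.FaithfullyFlat R S] :
    UniqueFactorizationMonoid R :=
  ufd_of_faithfullyFlat_of_colon (S := S) colon_generator_of_ufd

end Core

section Completion

variable (R : Type*) [CommRing R] [IsLocalRing R] [IsNoetherianRing R]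

/-- The maximal-adic completion of a Noetherian local ring is faithfully flat. -/
theorem faithfullyFlat_adicCompletion :
    Module.FaithfullyFlat R (AdicCompletion (maximalIdeal R) R) :=
  Module.FaithfullyFlat.of_flat_of_isLocalHom

/-- A Noetherian local ring embeds into its maximal-adic completion. -/
theorem algebraMap_adicCompletion_injective :
    Function.Injective (algebraMap R (AdicCompletion (maximalIdeal R) R)) := by
  have := faithfullyFlat_adicCompletion R
  exact FaithfulSMul.algebraMap_injective R _

/-- A Noetherian local ring whose completion is a domain is a domain. -/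
theorem isDomain_of_adicCompletion [IsDomain (AdicCompletion (maximalIdeal R) R)] : IsDomain R :=
  (algebraMap_adicCompletion_injective R).isDomain _

/-- **UFD descent from the completion.**  A Noetherian local domain whose maximal-adic completion
is a UFD is a UFD. -/
theorem ufd_of_adicCompletion [IsDomain R] [IsDomain (AdicCompletion (maximalIdeal R) R)]
    [UniqueFactorizationMonoid (AdicCompletion (maximalIdeal R) R)] :
    UniqueFactorizationMonoid R :=
  have := faithfullyFlat_adicCompletion R
  ufd_of_faithfullyFlat R (AdicCompletion (maximalIdeal R) R)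

/-- Version of `ufd_of_adicCompletion` for a ring `T` isomorphic to the completion (for instance
`T = MvPowerSeries (Fin n) K`): the Noetherian local ring `R` is then a domain and a UFD. -/
theorem isDomain_and_ufd_of_adicCompletion_equiv {T : Type*} [CommRing T] [IsDomain T]
    [UniqueFactorizationMonoid T] (e : AdicCompletion (maximalIdeal R) R ≃+* T) :
    IsDomain R ∧ UniqueFactorizationMonoid R := by
  have : IsDomain (AdicCompletion (maximalIdeal R) R) := e.toMulEquiv.isDomain T
  have : UniqueFactorizationMonoid (AdicCompletion (maximalIdeal R) R) :=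
    e.symm.toMulEquiv.uniqueFactorizationMonoid inferInstance
  have := isDomain_of_adicCompletion R
  exact ⟨inferInstance, ufd_of_adicCompletion R⟩

/-- Under the hypotheses of `isDomain_and_ufd_of_adicCompletion_equiv`, `R` is integrally closed
(normal). -/
theorem isIntegrallyClosed_of_adicCompletion_equiv {T : Type*} [CommRing T] [IsDomain T]
    [UniqueFactorizationMonoid T] (e : AdicCompletion (maximalIdeal R) R ≃+* T) :
    IsIntegrallyClosed R := by
  obtain ⟨h1, h2⟩ := isDomain_and_ufd_of_adicCompletion_equiv R e
  infer_instance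

/-- Under the hypotheses of `isDomain_and_ufd_of_adicCompletion_equiv`, every prime ideal of
height one of `R` is principal. -/
theorem isPrincipal_of_height_eq_one_of_adicCompletion_equiv {T : Type*} [CommRing T] [IsDomain T]
    [UniqueFactorizationMonoid T] (e : AdicCompletion (maximalIdeal R) R ≃+* T)
    (p : Ideal R) [p.IsPrime] (hp : p.height = 1) : p.IsPrincipal := by
  obtain ⟨h1, h2⟩ := isDomain_and_ufd_of_adicCompletion_equiv R e
  exact UniqueFactorizationMonoid.isPrincipal_of_height_eq_one hp

end Completion

end Fermat.Agent.S26.helper218
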