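import Mathlib

/-!
# S26, module M1c: the completion of a formally smooth local `K`-algebra with residue field `K`
is a power series ring (helper802)

Let `K` be a field and `O` a Noetherian local `K`-algebra which is formally smooth over `K` and
whose residue field is `K`. Then the completion of `O` at its maximal ideal is isomorphic to
`K[[T_1, ..., T_r]]`, with `r` the dimension of the cotangent space.

No dimension theory and no regularity is used: for a minimal system of generators `t` of the
maximal ideal, the comparison maps `K[T]/(T)^n → O/𝔪^n`, `T i ↦ t i`, are surjective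
(generation modulo powers) and injective (formal smoothness gives a lift
`σ : O → K[T]/(T)^n` of the projection, and `σ` is onto by generation modulo powers again).

Main statements:
* `exists_mem_sub_mem_pow` : generation modulo powers.
* `nonempty_ringEquiv_adicCompletion` : compatible isomorphisms of the truncations induce an
  isomorphism of adic completions.
* `phiQ_bijective` : the comparison maps are bijective.
* `exists_ringEquiv_adicCompletion_mvPowerSeries` : the completion is a power series ring.
-/

set_option autoImplicit false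

namespace Fermat.Agent.S26.helper802

section Generation

variable {K R : Type*} [CommRing K] [CommRing R] [Algebra K R]

/-- Generation modulo powers, step 1: an element of `I` is congruent modulo `I ^ 2` to an
element of the subalgebra `B`. -/
theorem exists_mem_sub_mem_sq (I : Ideal R) (B : Subalgebra K R) {ι : Type*} (v b : ι → R)
    (hI : Ideal.span (Set.range v) = I) (hb : ∀ i, b i ∈ B) (hbv : ∀ i, b i - v i ∈ I ^ 2)
    (hK : ∀ x : R, ∃ c : K, x - algebraMap K R c ∈ I) :
    ∀ x ∈ I, ∃ y ∈ B, x - y ∈ I ^ 2 := by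
  intro x hx
  rw [← hI] at hx
  induction hx using Submodule.span_induction with
  | mem x hx =>
    obtain ⟨i, rfl⟩ := hx
    exact ⟨b i, hb i, by simpa using (I ^ 2).neg_mem (hbv i)⟩
  | zero => exact ⟨0, B.zero_mem, by simp⟩
  | add x y _ _ hx hy =>
    obtain ⟨x', hx', hxx⟩ := hx
    obtain ⟨y', hy', hyy⟩ := hy
    exact ⟨x' + y', B.add_mem hx' hy', by
      have := (I ^ 2).add_mem hxx hyy
      convert this using 1; ring⟩
  | smul a x hx h =>
    obtain ⟨y, hy, hxy⟩ := h
    obtain ⟨c, hc⟩ := hK a
    refine ⟨algebraMap K R c * y, B.mul_mem (B.algebraMap_mem c) hy, ?_⟩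
    have hxI : x ∈ I := hI ▸ hx
    have h1 : algebraMap K R c * (x - y) ∈ I ^ 2 := Ideal.mul_mem_left _ _ hxy
    have h2 : (a - algebraMap K R c) * x ∈ I ^ 2 := by
      rw [pow_two]; exact Ideal.mul_mem_mul hc hxI
    have := (I ^ 2).add_mem h1 h2
    convert this using 1
    simp only [smul_eq_mul]; ring

/-- Generation modulo powers, step 2. -/
theorem exists_mem_sub_mem_pow_succ (I : Ideal R) (B : Subalgebra K R) {ι : Type*} (v b : ι → R)
    (hI : Ideal.span (Set.range v) = I) (hb : ∀ i, b i ∈ B) (hbv : ∀ i, b i - v i ∈ I ^ 2)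
    (hK : ∀ x : R, ∃ c : K, x - algebraMap K R c ∈ I) (n : ℕ) :
    ∀ x ∈ I ^ n, ∃ y ∈ B, x - y ∈ I ^ (n + 1) := by
  induction n with
  | zero =>
    intro x _
    obtain ⟨c, hc⟩ := hK x
    exact ⟨algebraMap K R c, B.algebraMap_mem c, by simpa using hc⟩
  | succ n ih =>
    intro x hx
    rw [pow_succ] at hx
    refine Submodule.mul_induction_on hx ?_ ?_
    · intro a ha b' hb'
      obtain ⟨ya, hya, haya⟩ := ih a ha
      obtain ⟨yb, hyb, hbyb⟩ := exists_mem_sub_mem_sq I B v b hI hb hbv hK b' hb'
      refine ⟨ya * yb, B.mul_mem hya hyb, ?_⟩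
      have hybI : yb ∈ I := by
        have h := I.sub_mem hb' (Ideal.pow_le_self (by norm_num) hbyb)
        simpa using h
      have h1 : a * (b' - yb) ∈ I ^ (n + 1 + 1) := by
        have : a * (b' - yb) ∈ I ^ n * I ^ 2 := Ideal.mul_mem_mul ha hbyb
        rwa [← pow_add] at this
      have h2 : (a - ya) * yb ∈ I ^ (n + 1 + 1) := by
        rw [pow_succ I (n + 1)]
        exact Ideal.mul_mem_mul haya hybI
      have := (I ^ (n + 1 + 1)).add_mem h1 h2
      convert this using 1; ring
    · intro x y hx hy
      obtain ⟨x', hx', hxx⟩ := hx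
      obtain ⟨y', hy', hyy⟩ := hy
      exact ⟨x' + y', B.add_mem hx' hy', by
        have := (I ^ (n + 1 + 1)).add_mem hxx hyy
        convert this using 1; ring⟩

/-- **Generation modulo powers.** If `I` is generated by a family `v`, the subalgebra `B`
contains elements `b i` congruent to `v i` modulo `I ^ 2`, and `K` surjects onto `R ⧸ I`, then
`B` surjects onto `R ⧸ I ^ n` for all `n`. -/
theorem exists_mem_sub_mem_pow (I : Ideal R) (B : Subalgebra K R) {ι : Type*} (v b : ι → R)
    (hI : Ideal.span (Set.range v) = I) (hb : ∀ i, b i ∈ B) (hbv : ∀ i, b i - v i ∈ I ^ 2)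
    (hK : ∀ x : R, ∃ c : K, x - algebraMap K R c ∈ I) (n : ℕ) (x : R) :
    ∃ y ∈ B, x - y ∈ I ^ n := by
  induction n with
  | zero => exact ⟨0, B.zero_mem, by simp⟩
  | succ n ih =>
    obtain ⟨y, hy, hxy⟩ := ih
    obtain ⟨y', hy', hxy'⟩ := exists_mem_sub_mem_pow_succ I B v b hI hb hbv hK n _ hxy
    exact ⟨y + y', B.add_mem hy hy', by convert hxy' using 1; ring⟩

end Generation

section Congr

variable {R R' : Type*} [CommRing R] [CommRing R'] (I : Ideal R) (I' : Ideal R')

/-- The transition maps of the adic completion, in `evalₐ` form. -/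
theorem factorPow_evalₐ {m n : ℕ} (h : m ≤ n) (x : AdicCompletion I R) :
    Ideal.Quotient.factorPow I h (AdicCompletion.evalₐ I n x) = AdicCompletion.evalₐ I m x := by
  obtain ⟨c, rfl⟩ := AdicCompletion.mk_surjective I R x
  simp only [AdicCompletion.evalₐ_mk]
  rw [Ideal.Quotient.factorPow, Ideal.Quotient.factor_mk, Ideal.Quotient.mk_eq_mk_iff_sub_mem]
  have := c.property h
  rw [SModEq.sub_mem] at this
  have h2 := (I ^ m).neg_mem (by simpa using this : c.val m - c.val n ∈ I ^ m)
  simpa using h2

/-- A compatible system of isomorphisms `R ⧸ I ^ n ≃+* R' ⧸ I' ^ n` induces an isomorphism of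
the adic completions. -/
theorem nonempty_ringEquiv_adicCompletion (e : ∀ n, R ⧸ I ^ n ≃+* R' ⧸ I' ^ n)
    (he : ∀ {m n : ℕ} (h : m ≤ n) (x : R ⧸ I ^ n),
      Ideal.Quotient.factorPow I' h (e n x) = e m (Ideal.Quotient.factorPow I h x)) :
    Nonempty (AdicCompletion I R ≃+* AdicCompletion I' R') := by
  have he' : ∀ {m n : ℕ} (h : m ≤ n) (y : R' ⧸ I' ^ n),
      Ideal.Quotient.factorPow I h ((e n).symm y) = (e m).symm (Ideal.Quotient.factorPow I' h y) := by
    intro m n h y
    apply (e m).injective
    rw [RingEquiv.apply_symm_apply, ← he h, RingEquiv.apply_symm_apply]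
  let F : AdicCompletion I R →+* AdicCompletion I' R' :=
    AdicCompletion.liftRingHom I'
      (fun n => (e n : R ⧸ I ^ n →+* R' ⧸ I' ^ n).comp (AdicCompletion.evalₐ I n : _ →+* _))
      (fun {m n} hle => by
        ext x
        simp only [RingHom.coe_comp, RingHom.coe_coe, Function.comp_apply]
        rw [he hle, factorPow_evalₐ])
  let G : AdicCompletion I' R' →+* AdicCompletion I R :=
    AdicCompletion.liftRingHom I
      (fun n => ((e n).symm : R' ⧸ I' ^ n →+* R ⧸ I ^ n).comp
        (AdicCompletion.evalₐ I' n : _ →+* _))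
      (fun {m n} hle => by
        ext x
        simp only [RingHom.coe_comp, RingHom.coe_coe, Function.comp_apply]
        rw [he' hle, factorPow_evalₐ])
  refine ⟨RingEquiv.ofRingHom F G (RingHom.ext fun x => ?_) (RingHom.ext fun x => ?_)⟩
  · refine AdicCompletion.ext_evalₐ fun n => ?_
    simp [F, G]
  · refine AdicCompletion.ext_evalₐ fun n => ?_
    simp [F, G]

end Congr

section Local

open IsLocalRing MvPolynomial

variable {K O : Type*} [Field K] [CommRing O] [Algebra K O] [IsLocalRing O]

/-- If `K` surjects onto the residue field of the local `K`-algebra `O`, every element of `O`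
is a constant modulo the maximal ideal. -/
theorem exists_sub_algebraMap_mem_maximalIdeal
    (hres : Function.Surjective (algebraMap K (ResidueField O))) (x : O) :
    ∃ c : K, x - algebraMap K O c ∈ maximalIdeal O := by
  obtain ⟨c, hc⟩ := hres (residue O x)
  refine ⟨c, ?_⟩
  rw [← residue_eq_zero_iff, map_sub, ← hc, sub_eq_zero]
  rfl

/-- A local Noetherian `K`-algebra with residue field `K` has a system of generators of its
maximal ideal which is `K`-linearly independent modulo the square of the maximal ideal. -/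
theorem exists_minimal_generators [IsNoetherianRing O] :
    ∃ (r : ℕ) (t : Fin r → O), Ideal.span (Set.range t) = maximalIdeal O ∧
      ∀ c : Fin r → K, ∑ i, algebraMap K O (c i) * t i ∈ maximalIdeal O ^ 2 → c = 0 := by
  classical
  let b := Module.finBasis (ResidueField O) (CotangentSpace O)
  have hsurj := (maximalIdeal O).toCotangent_surjective
  choose t' ht' using fun i => hsurj (b i)
  refine ⟨_, fun i => (t' i : O), ?_, ?_⟩
  · have h1 : Submodule.span O (Set.range t') = ⊤ := by
      rw [← CotangentSpace.span_image_eq_top_iff, ← Set.range_comp]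
      have : (⇑(maximalIdeal O).toCotangent ∘ t') = b := funext ht'
      rw [this]
      exact b.span_eq
    have h2 := congrArg (Submodule.map (maximalIdeal O).subtype) h1
    rw [Submodule.map_span, Submodule.map_subtype_top, ← Set.range_comp] at h2
    exact h2
  · intro c hc
    have h3 : (maximalIdeal O).toCotangent (∑ i, algebraMap K O (c i) • t' i) = 0 := by
      rw [Ideal.toCotangent_eq_zero]
      simpa [Algebra.smul_def] using hc
    rw [map_sum] at h3
    have h4 : ∑ i, algebraMap K (ResidueField O) (c i) • b i = 0 := by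
      rw [← h3]
      refine Finset.sum_congr rfl fun i _ => ?_
      rw [map_smul, ht', IsScalarTower.algebraMap_apply K O (ResidueField O), algebraMap_smul]
    have h5 := Fintype.linearIndependent_iff.mp b.linearIndependent _ h4
    funext i
    exact (algebraMap K (ResidueField O)).injective (by simpa using h5 i)

end Local

section Main

open IsLocalRing MvPolynomial

variable (K : Type*) {O : Type*} [Field K] [CommRing O] [Algebra K O] [IsLocalRing O]
  {r : ℕ} (t : Fin r → O)

/-- The comparison map from the polynomial ring: `T i ↦ t i`. -/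
noncomputable abbrev phi : MvPolynomial (Fin r) K →ₐ[K] O := aeval t

variable (hspan : Ideal.span (Set.range t) = maximalIdeal O)
include hspan

theorem map_phi_idealOfVars :
    (idealOfVars (Fin r) K).map (phi K t) = maximalIdeal O := by
  rw [idealOfVars, Ideal.map_span, ← Set.range_comp, ← hspan]
  congr 2
  ext i
  simp [phi]

theorem idealOfVars_pow_le_comap (n : ℕ) :
    idealOfVars (Fin r) K ^ n ≤ (maximalIdeal O ^ n).comap (phi K t) := by
  rw [← Ideal.map_le_iff_le_comap, Ideal.map_pow, map_phi_idealOfVars K t hspan]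

theorem phi_mem_pow {n : ℕ} {p : MvPolynomial (Fin r) K} (hp : p ∈ idealOfVars (Fin r) K ^ n) :
    phi K t p ∈ maximalIdeal O ^ n :=
  idealOfVars_pow_le_comap K t hspan n hp

theorem phi_mem {p : MvPolynomial (Fin r) K} (hp : p ∈ idealOfVars (Fin r) K) :
    phi K t p ∈ maximalIdeal O := by
  have := phi_mem_pow K t hspan (n := 1) (by simpa using hp)
  simpa using this

omit hspan [Algebra K O] [IsLocalRing O] t in
theorem sub_C_constantCoeff_mem (p : MvPolynomial (Fin r) K) :
    p - C (constantCoeff p) ∈ idealOfVars (Fin r) K := by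
  have : p - C (constantCoeff p) ∈ idealOfVars (Fin r) K ^ 1 := by
    rw [mem_pow_idealOfVars_iff']
    intro x hx
    have hx0 : x = 0 := by
      rw [← Finsupp.degree_eq_zero_iff]; omega
    subst hx0
    simp [constantCoeff_eq]
  simpa using this

/-- A polynomial whose value lies in the maximal ideal has no constant term. -/
theorem mem_idealOfVars_of_phi_mem {p : MvPolynomial (Fin r) K}
    (hp : phi K t p ∈ maximalIdeal O) : p ∈ idealOfVars (Fin r) K := by
  have h1 := sub_C_constantCoeff_mem K p
  have h2 := phi_mem K t hspan h1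
  have h3 : algebraMap K O (constantCoeff p) ∈ maximalIdeal O := by
    have := (maximalIdeal O).sub_mem hp h2
    simpa [phi] using this
  have h4 : constantCoeff p = 0 := by
    by_contra hne
    have hu : IsUnit (algebraMap K O (constantCoeff p)) := (IsUnit.mk0 _ hne).map _
    exact (IsLocalRing.mem_maximalIdeal _).mp h3 hu
  simpa [h4] using h1

/-- The comparison maps on the truncations. -/
noncomputable def phiQ (n : ℕ) :
    MvPolynomial (Fin r) K ⧸ idealOfVars (Fin r) K ^ n →ₐ[K] O ⧸ maximalIdeal O ^ n :=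
  Ideal.quotientMapₐ _ (phi K t) (idealOfVars_pow_le_comap K t hspan n)

theorem phiQ_mk (n : ℕ) (p : MvPolynomial (Fin r) K) :
    phiQ K t hspan n (Ideal.Quotient.mk _ p) = Ideal.Quotient.mk _ (phi K t p) := by
  simp [phiQ]

omit hspan in
theorem map_mk_idealOfVars_pow (n : ℕ) :
    ((idealOfVars (Fin r) K).map (Ideal.Quotient.mk (idealOfVars (Fin r) K ^ n))) ^ n = ⊥ := by
  rw [← Ideal.map_pow, Ideal.map_quotient_self]

/-- An element of the truncated polynomial ring whose image lies in the maximal ideal lies in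
the ideal of the variables. -/
theorem mem_map_idealOfVars_of_phiQ_eq (n : ℕ)
    (z : MvPolynomial (Fin r) K ⧸ idealOfVars (Fin r) K ^ n) (x : O)
    (hx : x ∈ maximalIdeal O) (hz : phiQ K t hspan n z = Ideal.Quotient.mk _ x) :
    z ∈ (idealOfVars (Fin r) K).map (Ideal.Quotient.mk (idealOfVars (Fin r) K ^ n)) := by
  obtain ⟨p, rfl⟩ := Ideal.Quotient.mk_surjective z
  rw [phiQ_mk, Ideal.Quotient.mk_eq_mk_iff_sub_mem] at hz
  rcases Nat.eq_zero_or_pos n with rfl | hn
  · have : Ideal.Quotient.mk (idealOfVars (Fin r) K ^ 0) p = 0 := by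
      rw [Ideal.Quotient.eq_zero_iff_mem]; simp
    rw [this]; exact Ideal.zero_mem _
  · have h1 : phi K t p - x ∈ maximalIdeal O := Ideal.pow_le_self hn.ne' hz
    have h2 : phi K t p ∈ maximalIdeal O := by
      simpa using (maximalIdeal O).add_mem h1 hx
    exact Ideal.mem_map_of_mem _ (mem_idealOfVars_of_phi_mem K t hspan h2)

theorem isNilpotent_ker_phiQ (n : ℕ) :
    IsNilpotent (RingHom.ker (phiQ K t hspan n :
      (MvPolynomial (Fin r) K ⧸ idealOfVars (Fin r) K ^ n) →+* (O ⧸ maximalIdeal O ^ n))) := by
  refine ⟨n, ?_⟩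
  rw [Ideal.zero_eq_bot, eq_bot_iff, ← map_mk_idealOfVars_pow K (r := r) n]
  refine Ideal.pow_right_mono (fun z hz => ?_) n
  exact mem_map_idealOfVars_of_phiQ_eq K t hspan n z 0 (Ideal.zero_mem _) (by simpa using hz)

theorem phiQ_surjective (hres : Function.Surjective (algebraMap K (ResidueField O))) (n : ℕ) :
    Function.Surjective (phiQ K t hspan n) := by
  intro y
  obtain ⟨x, rfl⟩ := Ideal.Quotient.mk_surjective y
  obtain ⟨y', hy', hxy⟩ := exists_mem_sub_mem_pow (maximalIdeal O) (phi K t).range t t hspan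
    (fun i => ⟨X i, by simp [phi]⟩) (fun i => by simp)
    (exists_sub_algebraMap_mem_maximalIdeal hres) n x
  obtain ⟨p, rfl⟩ := hy'
  refine ⟨Ideal.Quotient.mk _ p, ?_⟩
  rw [phiQ_mk, eq_comm, Ideal.Quotient.mk_eq_mk_iff_sub_mem]
  exact hxy

/-- An element of the ideal of the variables of the truncated polynomial ring that is killed by
the comparison map lies in the square of that ideal (linear independence modulo `𝔪 ^ 2`). -/
theorem mem_sq_of_phiQ_eq_zero
    (hind : ∀ c : Fin r → K, ∑ i, algebraMap K O (c i) * t i ∈ maximalIdeal O ^ 2 → c = 0)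
    (n : ℕ) (z : MvPolynomial (Fin r) K ⧸ idealOfVars (Fin r) K ^ n)
    (hzJ : z ∈ (idealOfVars (Fin r) K).map (Ideal.Quotient.mk (idealOfVars (Fin r) K ^ n)))
    (hz : phiQ K t hspan n z = 0) :
    z ∈ ((idealOfVars (Fin r) K).map (Ideal.Quotient.mk (idealOfVars (Fin r) K ^ n))) ^ 2 := by
  rcases Nat.lt_or_ge n 2 with hn | hn
  · have hle : idealOfVars (Fin r) K ≤ idealOfVars (Fin r) K ^ n := by
      interval_cases n <;> simp
    have hbot : (idealOfVars (Fin r) K).map (Ideal.Quotient.mk (idealOfVars (Fin r) K ^ n)) = ⊥ :=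
      Ideal.map_mk_eq_bot_of_le hle
    rw [hbot] at hzJ
    rw [Ideal.mem_bot.mp hzJ]
    exact Ideal.zero_mem _
  · obtain ⟨p, hpJ, rfl⟩ := (Ideal.mem_map_iff_of_surjective _ Ideal.Quotient.mk_surjective).mp hzJ
    rw [phiQ_mk, Ideal.Quotient.eq_zero_iff_mem] at hz
    obtain ⟨a, rfl⟩ := (Ideal.mem_span_range_iff_exists_fun).mp hpJ
    set c : Fin r → K := fun i => constantCoeff (a i) with hc_def
    set q : MvPolynomial (Fin r) K := ∑ i, (a i - C (c i)) * X i with hq_def
    have hq : q ∈ idealOfVars (Fin r) K ^ 2 := by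
      refine Ideal.sum_mem _ fun i _ => ?_
      rw [pow_two]
      exact Ideal.mul_mem_mul (sub_C_constantCoeff_mem K (a i)) (Ideal.subset_span ⟨i, rfl⟩)
    have hp : ∑ i, a i * X i = ∑ i, C (c i) * X i + q := by
      simp [hq_def, sub_mul, Finset.sum_sub_distrib]
    have h1 : phi K t (∑ i, C (c i) * X i) = ∑ i, algebraMap K O (c i) * t i := by
      simp [phi]
    have h2 : phi K t q ∈ maximalIdeal O ^ 2 := phi_mem_pow K t hspan hq
    have h3 : ∑ i, algebraMap K O (c i) * t i ∈ maximalIdeal O ^ 2 := by
      have h4 : phi K t (∑ i, a i * X i) ∈ maximalIdeal O ^ 2 :=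
        Ideal.pow_le_pow_right hn hz
      rw [hp, map_add, h1] at h4
      simpa using (maximalIdeal O ^ 2).sub_mem h4 h2
    have hc := hind c h3
    have hpq : ∑ i, a i * X i = q := by
      rw [hp, hc]; simp
    rw [hpq, ← Ideal.map_pow]
    exact Ideal.mem_map_of_mem _ hq

/-- **Key step.** For a formally smooth local `K`-algebra with residue field `K` and a minimal
system of generators `t` of the maximal ideal, the comparison maps
`K[T]/(T)^n → O/𝔪^n` are injective. -/
theorem phiQ_injective [Algebra.FormallySmooth K O]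
    (hres : Function.Surjective (algebraMap K (ResidueField O)))
    (hind : ∀ c : Fin r → K, ∑ i, algebraMap K O (c i) * t i ∈ maximalIdeal O ^ 2 → c = 0)
    (n : ℕ) : Function.Injective (phiQ K t hspan n) := by
  set σ := Algebra.FormallySmooth.liftOfSurjective (Ideal.Quotient.mkₐ K (maximalIdeal O ^ n))
    (phiQ K t hspan n) (phiQ_surjective K t hspan hres n) (isNilpotent_ker_phiQ K t hspan n) with hσ
  have hσ_spec : ∀ x, phiQ K t hspan n (σ x) = Ideal.Quotient.mk _ x := fun x =>
    Algebra.FormallySmooth.liftOfSurjective_apply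
      (Ideal.Quotient.mkₐ K (maximalIdeal O ^ n)) (phiQ K t hspan n)
      (phiQ_surjective K t hspan hres n) (isNilpotent_ker_phiQ K t hspan n) x
  have hσ_mem : ∀ x ∈ maximalIdeal O, σ x ∈
      (idealOfVars (Fin r) K).map (Ideal.Quotient.mk (idealOfVars (Fin r) K ^ n)) :=
    fun x hx => mem_map_idealOfVars_of_phiQ_eq K t hspan n (σ x) x hx (hσ_spec x)
  have hσ_pow : ∀ a ∈ maximalIdeal O ^ n, σ a = 0 := by
    intro a ha
    have h1 : (maximalIdeal O).map σ ≤
        (idealOfVars (Fin r) K).map (Ideal.Quotient.mk (idealOfVars (Fin r) K ^ n)) :=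
      Ideal.map_le_iff_le_comap.mpr hσ_mem
    have h2 : σ a ∈ ((maximalIdeal O).map σ) ^ n := by
      rw [← Ideal.map_pow]; exact Ideal.mem_map_of_mem _ ha
    have h3 := Ideal.pow_right_mono h1 n h2
    rw [map_mk_idealOfVars_pow K] at h3
    simpa using h3
  have hσ_t : ∀ i, σ (t i) - Ideal.Quotient.mk _ (X i) ∈
      ((idealOfVars (Fin r) K).map (Ideal.Quotient.mk (idealOfVars (Fin r) K ^ n))) ^ 2 := by
    intro i
    apply mem_sq_of_phiQ_eq_zero K t hspan hind n
    · exact sub_mem (hσ_mem _ (hspan ▸ Ideal.subset_span ⟨i, rfl⟩))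
        (Ideal.mem_map_of_mem _ (Ideal.subset_span ⟨i, rfl⟩))
    · rw [map_sub, hσ_spec, phiQ_mk]; simp [phi]
  have hσ_surj : Function.Surjective σ := by
    intro x
    obtain ⟨y, hy, hxy⟩ := exists_mem_sub_mem_pow
      ((idealOfVars (Fin r) K).map (Ideal.Quotient.mk (idealOfVars (Fin r) K ^ n))) σ.range
      (fun i => Ideal.Quotient.mk _ (X i)) (fun i => σ (t i))
      (by rw [idealOfVars, Ideal.map_span, ← Set.range_comp]; rfl)
      (fun i => ⟨t i, rfl⟩) hσ_t
      (fun x => by
        obtain ⟨p, rfl⟩ := Ideal.Quotient.mk_surjective x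
        exact ⟨constantCoeff p, Ideal.mem_map_of_mem _ (sub_C_constantCoeff_mem K p)⟩) n x
    rw [map_mk_idealOfVars_pow K] at hxy
    obtain ⟨a, rfl⟩ := hy
    exact ⟨a, (sub_eq_zero.mp (by simpa using hxy)).symm⟩
  refine (injective_iff_map_eq_zero _).mpr fun z hz => ?_
  obtain ⟨a, rfl⟩ := hσ_surj z
  rw [hσ_spec, Ideal.Quotient.eq_zero_iff_mem] at hz
  exact hσ_pow a hz

theorem phiQ_bijective [Algebra.FormallySmooth K O]
    (hres : Function.Surjective (algebraMap K (ResidueField O)))
    (hind : ∀ c : Fin r → K, ∑ i, algebraMap K O (c i) * t i ∈ maximalIdeal O ^ 2 → c = 0)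
    (n : ℕ) : Function.Bijective (phiQ K t hspan n) :=
  ⟨phiQ_injective K t hspan hres hind n, phiQ_surjective K t hspan hres n⟩

end Main

section Final

open IsLocalRing MvPolynomial

/-- **M1c.** The completion of a Noetherian local `K`-algebra which is formally smooth over `K`
and has residue field `K` is a ring of formal power series over `K`. -/
theorem exists_ringEquiv_adicCompletion_mvPowerSeries (K O : Type*) [Field K] [CommRing O]
    [Algebra K O] [IsLocalRing O] [IsNoetherianRing O] [Algebra.FormallySmooth K O]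
    (hres : Function.Surjective (algebraMap K (IsLocalRing.ResidueField O))) :
    ∃ r : ℕ, Nonempty (AdicCompletion (IsLocalRing.maximalIdeal O) O ≃+*
      MvPowerSeries (Fin r) K) := by
  obtain ⟨r, t, hspan, hind⟩ := exists_minimal_generators (K := K) (O := O)
  refine ⟨r, ?_⟩
  let e : ∀ n, MvPolynomial (Fin r) K ⧸ idealOfVars (Fin r) K ^ n ≃+* O ⧸ maximalIdeal O ^ n :=
    fun n => RingEquiv.ofBijective (phiQ K t hspan n) (phiQ_bijective K t hspan hres hind n)
  obtain ⟨E⟩ := nonempty_ringEquiv_adicCompletion (idealOfVars (Fin r) K) (maximalIdeal O) e (by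
    intro m n h x
    obtain ⟨p, rfl⟩ := Ideal.Quotient.mk_surjective x
    simp only [e, RingEquiv.ofBijective_apply, phiQ_mk, Ideal.Quotient.factorPow,
      Ideal.Quotient.factor_mk])
  exact ⟨E.symm.trans (MvPowerSeries.toAdicCompletionAlgEquiv (Fin r) K).symm.toRingEquiv⟩

end Final

section Congr'

variable {R R' : Type*} [CommRing R] [CommRing R'] (I : Ideal R) (I' : Ideal R')

/-- A compatible system of isomorphisms `R ⧸ I ^ n ≃+* R' ⧸ I' ^ n` induces an isomorphism of
the adic completions, compatible with the evaluation maps. -/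
theorem exists_ringEquiv_adicCompletion (e : ∀ n, R ⧸ I ^ n ≃+* R' ⧸ I' ^ n)
    (he : ∀ {m n : ℕ} (h : m ≤ n) (x : R ⧸ I ^ n),
      Ideal.Quotient.factorPow I' h (e n x) = e m (Ideal.Quotient.factorPow I h x)) :
    ∃ E : AdicCompletion I R ≃+* AdicCompletion I' R',
      ∀ (n : ℕ) (x : AdicCompletion I R),
        AdicCompletion.evalₐ I' n (E x) = e n (AdicCompletion.evalₐ I n x) := by
  have he' : ∀ {m n : ℕ} (h : m ≤ n) (y : R' ⧸ I' ^ n),
      Ideal.Quotient.factorPow I h ((e n).symm y) =
        (e m).symm (Ideal.Quotient.factorPow I' h y) := by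
    intro m n h y
    apply (e m).injective
    rw [RingEquiv.apply_symm_apply, ← he h, RingEquiv.apply_symm_apply]
  let F : AdicCompletion I R →+* AdicCompletion I' R' :=
    AdicCompletion.liftRingHom I'
      (fun n => (e n : R ⧸ I ^ n →+* R' ⧸ I' ^ n).comp (AdicCompletion.evalₐ I n : _ →+* _))
      (fun {m n} hle => by
        ext x
        simp only [RingHom.coe_comp, RingHom.coe_coe, Function.comp_apply]
        rw [he hle, factorPow_evalₐ])
  let G : AdicCompletion I' R' →+* AdicCompletion I R :=
    AdicCompletion.liftRingHom I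
      (fun n => ((e n).symm : R' ⧸ I' ^ n →+* R ⧸ I ^ n).comp
        (AdicCompletion.evalₐ I' n : _ →+* _))
      (fun {m n} hle => by
        ext x
        simp only [RingHom.coe_comp, RingHom.coe_coe, Function.comp_apply]
        rw [he' hle, factorPow_evalₐ])
  refine ⟨RingEquiv.ofRingHom F G (RingHom.ext fun x => ?_) (RingHom.ext fun x => ?_), ?_⟩
  · refine AdicCompletion.ext_evalₐ fun n => ?_
    simp [F, G]
  · refine AdicCompletion.ext_evalₐ fun n => ?_
    simp [F, G]
  · intro n x
    simp [F]

end Congr'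

section Taylor

open IsLocalRing MvPolynomial

/-- The truncations of a power series, seen in the adic completion of the polynomial ring. -/
theorem evalₐ_toAdicCompletion {σ R : Type*} [Finite σ] [CommRing R] (n : ℕ)
    (p : MvPowerSeries σ R) :
    AdicCompletion.evalₐ (idealOfVars σ R) n (MvPowerSeries.toAdicCompletion σ R p) =
      Ideal.Quotient.mk (idealOfVars σ R ^ n) (MvPowerSeries.truncTotal n p) := by
  simp only [MvPowerSeries.toAdicCompletion]
  rfl

/-- **The Taylor map.** A Noetherian local `K`-algebra `O`, formally smooth over `K` and with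
residue field `K`, has a system of generators `t` of its maximal ideal, linearly independent
modulo the square of the maximal ideal, a `K`-algebra map `τ : O → K[[T_1, ..., T_r]]` with
`τ (t i) = T i` which identifies the `𝔪`-adic filtration of `O` with the order filtration of
power series, and which is the completion map: it extends to an isomorphism of the completion
of `O` with the power series ring. -/
theorem exists_taylor (K O : Type*) [Field K] [CommRing O] [Algebra K O] [IsLocalRing O]
    [IsNoetherianRing O] [Algebra.FormallySmooth K O]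
    (hres : Function.Surjective (algebraMap K (IsLocalRing.ResidueField O))) :
    ∃ (r : ℕ) (t : Fin r → O) (τ : O →ₐ[K] MvPowerSeries (Fin r) K)
      (E : AdicCompletion (maximalIdeal O) O ≃+* MvPowerSeries (Fin r) K),
      Ideal.span (Set.range t) = maximalIdeal O ∧
      (∀ c : Fin r → K, ∑ i, algebraMap K O (c i) * t i ∈ maximalIdeal O ^ 2 → c = 0) ∧
      (∀ i, τ (t i) = MvPowerSeries.X i) ∧
      (∀ (n : ℕ) (x : O),
        (∀ d : Fin r →₀ ℕ, d.degree < n → MvPowerSeries.coeff d (τ x) = 0) ↔
          x ∈ maximalIdeal O ^ n) ∧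
      (∀ x : O, E (algebraMap O (AdicCompletion (maximalIdeal O) O) x) = τ x) := by
  obtain ⟨r, t, hspan, hind⟩ := exists_minimal_generators (K := K) (O := O)
  let e : ∀ n, MvPolynomial (Fin r) K ⧸ idealOfVars (Fin r) K ^ n ≃+* O ⧸ maximalIdeal O ^ n :=
    fun n => RingEquiv.ofBijective (phiQ K t hspan n) (phiQ_bijective K t hspan hres hind n)
  have he_mk : ∀ n p, e n (Ideal.Quotient.mk _ p) = Ideal.Quotient.mk _ (phi K t p) :=
    fun n p => phiQ_mk K t hspan n p
  obtain ⟨E₀, hE₀⟩ := exists_ringEquiv_adicCompletion (idealOfVars (Fin r) K) (maximalIdeal O) e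
    (by
      intro m n h x
      obtain ⟨p, rfl⟩ := Ideal.Quotient.mk_surjective x
      simp only [e, RingEquiv.ofBijective_apply, phiQ_mk, Ideal.Quotient.factorPow,
        Ideal.Quotient.factor_mk])
  let A := MvPowerSeries.toAdicCompletionAlgEquiv (Fin r) K
  let E : AdicCompletion (maximalIdeal O) O ≃+* MvPowerSeries (Fin r) K :=
    E₀.symm.trans A.symm.toRingEquiv
  let τ₀ : O →+* MvPowerSeries (Fin r) K :=
    (E : _ →+* _).comp (algebraMap O (AdicCompletion (maximalIdeal O) O))
  -- the key formula: the truncations of `τ₀ x`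
  have hAτ : ∀ x, A (τ₀ x) = E₀.symm (algebraMap O (AdicCompletion (maximalIdeal O) O) x) := by
    intro x
    exact A.apply_symm_apply _
  have key : ∀ n x, AdicCompletion.evalₐ (idealOfVars (Fin r) K) n (A (τ₀ x)) =
      (e n).symm (Ideal.Quotient.mk _ x) := by
    intro n x
    rw [hAτ, RingEquiv.eq_symm_apply, ← hE₀, RingEquiv.apply_symm_apply,
      AdicCompletion.algebraMap_apply, AdicCompletion.evalₐ_of]
    simp
  have key' : ∀ n x, (Ideal.Quotient.mk (idealOfVars (Fin r) K ^ n))
      (MvPowerSeries.truncTotal n (τ₀ x)) = (e n).symm (Ideal.Quotient.mk _ x) := by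
    intro n x
    rw [← key]
    exact (evalₐ_toAdicCompletion n (τ₀ x)).symm
  have hA_coe : ∀ p : MvPolynomial (Fin r) K, A (p : MvPowerSeries (Fin r) K) =
      AdicCompletion.of (idealOfVars (Fin r) K) (MvPolynomial (Fin r) K) p := fun p => by
    simp [A, MvPowerSeries.toAdicCompletion_coe]
  have hτ_of : ∀ (x : O) (p : MvPolynomial (Fin r) K),
      (∀ n, Ideal.Quotient.mk (maximalIdeal O ^ n) (phi K t p) = Ideal.Quotient.mk _ x) →
      τ₀ x = (p : MvPowerSeries (Fin r) K) := by
    intro x p hp
    apply A.injective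
    rw [hA_coe]
    refine AdicCompletion.ext_evalₐ fun n => ?_
    rw [key, AdicCompletion.evalₐ_of, RingEquiv.symm_apply_eq, he_mk, hp]
  have hτX : ∀ i, τ₀ (t i) = MvPowerSeries.X i := by
    intro i
    rw [← MvPolynomial.coe_X]
    exact hτ_of _ _ fun n => by simp [phi]
  have hτC : ∀ c : K, τ₀ (algebraMap K O c) = algebraMap K (MvPowerSeries (Fin r) K) c := by
    intro c
    have : algebraMap K (MvPowerSeries (Fin r) K) c =
        ((MvPolynomial.C c : MvPolynomial (Fin r) K) : MvPowerSeries (Fin r) K) := by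
      rw [MvPolynomial.coe_C]; rfl
    rw [this]
    exact hτ_of _ _ fun n => by simp [phi]
  let τ : O →ₐ[K] MvPowerSeries (Fin r) K := { τ₀ with commutes' := hτC }
  refine ⟨r, t, τ, E, hspan, hind, hτX, ?_, fun x => rfl⟩
  intro n x
  change (∀ d : Fin r →₀ ℕ, d.degree < n → MvPowerSeries.coeff d (τ₀ x) = 0) ↔ _
  rw [← Ideal.Quotient.eq_zero_iff_mem, ← (e n).symm.map_eq_zero_iff, ← key',
    Ideal.Quotient.eq_zero_iff_mem, mem_pow_idealOfVars_iff']
  refine forall₂_congr fun d hd => ?_
  rw [MvPowerSeries.coeff_truncTotal _ hd]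

end Taylor

end Fermat.Agent.S26.helper802
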