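/-
S26 / module M1a (helper906): the formal power series ring `K⟦X₁, …, Xₙ⟧` over a field is a
unique factorisation domain.

Main results (namespace `Fermat.Agent.S26.helper906`):
* `ufd_mvPowerSeries_fin K n : UniqueFactorizationMonoid (MvPowerSeries (Fin n) K)`
* `ufd_mvPowerSeries K σ [Finite σ] : UniqueFactorizationMonoid (MvPowerSeries σ K)`
* `maximalIdeal_eq_span_range_X`, `isAdicComplete_maximalIdeal_mvPowerSeries_fin`,
  `isDomain_mvPowerSeries` (by-products)
* `prime_of_irreducible_of_map_residue_ne_zero` : the one-variable Weierstrass step over a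
  complete local UFD.
* `shiftEquiv`, `exists_shift_axisHom_ne_zero` : every nonzero series becomes regular in `X₀`
  after the automorphism `X_s ↦ X_s + X₀ ^ m s`.

Proof: induction on `n` through `MvPowerSeries.finSuccEquiv`; an irreducible series is made
`X₀`-regular by `shiftEquiv`, Weierstrass preparation (Mathlib) replaces it by a distinguished
polynomial, which is irreducible hence prime in the polynomial ring over the smaller power
series ring, and `IsWeierstrassFactorizationAt.algEquivQuotient` carries primality back.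
Only Mathlib is used.
-/
import Mathlib

set_option autoImplicit false

namespace Fermat.Agent.S26.helper906

section MaximalIdeal

open MvPowerSeries

variable {K : Type*} [Field K]

theorem isDomain_mvPowerSeries (σ : Type*) : IsDomain (MvPowerSeries σ K) :=
  NoZeroDivisors.to_isDomain _

/-- membership in the maximal ideal of `K⟦σ⟧` = vanishing constant coefficient. -/
theorem mem_maximalIdeal_iff {σ : Type*} (f : MvPowerSeries σ K) :
    f ∈ IsLocalRing.maximalIdeal (MvPowerSeries σ K) ↔ constantCoeff f = 0 := by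
  rw [IsLocalRing.mem_maximalIdeal, mem_nonunits_iff, MvPowerSeries.isUnit_iff_constantCoeff,
    isUnit_iff_ne_zero, not_not]

/-- a power series in `Fin n` variables with zero constant coefficient lies in the ideal
generated by the variables. -/
theorem mem_span_range_X_of_constantCoeff_eq_zero :
    ∀ (n : ℕ) (f : MvPowerSeries (Fin n) K), constantCoeff f = 0 →
      f ∈ Ideal.span (Set.range (X : Fin n → MvPowerSeries (Fin n) K)) := by
  intro n
  induction n with
  | zero =>
    intro f hf
    have : f = 0 := by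
      ext d
      have hd : d = 0 := Subsingleton.elim _ _
      subst hd
      simpa using hf
    rw [this]
    exact Ideal.zero_mem _
  | succ n ih =>
    intro f hf
    set e := MvPowerSeries.finSuccEquiv K n with he
    set F := e f with hF
    have h0 : constantCoeff (PowerSeries.constantCoeff F) = 0 := by
      have := MvPowerSeries.coeff_coeff_finSuccEquiv (R := K) f (k := 0) (x := 0)
      rw [Finsupp.cons_zero_zero] at this
      simpa [hF, he] using this.trans (by simpa using hf)
    have hmem := ih _ h0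
    have hf' : f = e.symm F := by simp [hF]
    rw [hf', PowerSeries.eq_shift_mul_X_add_const F, map_add, map_mul]
    refine Ideal.add_mem _ (Ideal.mul_mem_left _ _ ?_) ?_
    · have : e.symm PowerSeries.X = X 0 := by
        rw [AlgEquiv.symm_apply_eq]; simp [he]
      rw [this]
      exact Ideal.subset_span ⟨0, rfl⟩
    · -- the constant term
      have key : ∀ c ∈ Ideal.span (Set.range (X : Fin n → MvPowerSeries (Fin n) K)),
          e.symm (PowerSeries.C c) ∈
            Ideal.span (Set.range (X : Fin (n+1) → MvPowerSeries (Fin (n+1)) K)) := by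
        intro c hc
        induction hc using Submodule.span_induction with
        | mem x hx =>
          obtain ⟨j, rfl⟩ := hx
          have : e.symm (PowerSeries.C (X j)) = X j.succ := by
            rw [AlgEquiv.symm_apply_eq]; simp [he]
          rw [this]
          exact Ideal.subset_span ⟨j.succ, rfl⟩
        | zero => simp
        | add x y _ _ hx hy => rw [map_add, map_add]; exact Ideal.add_mem _ hx hy
        | smul a x _ hx =>
          rw [smul_eq_mul, map_mul, map_mul]
          exact Ideal.mul_mem_left _ _ hx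
      exact key _ hmem

theorem maximalIdeal_eq_span_range_X (n : ℕ) :
    IsLocalRing.maximalIdeal (MvPowerSeries (Fin n) K) =
      Ideal.span (Set.range (X : Fin n → MvPowerSeries (Fin n) K)) := by
  apply le_antisymm
  · intro f hf
    exact mem_span_range_X_of_constantCoeff_eq_zero n f ((mem_maximalIdeal_iff f).1 hf)
  · rw [Ideal.span_le]
    rintro _ ⟨i, rfl⟩
    exact (mem_maximalIdeal_iff _).2 (by simp)

theorem isAdicComplete_maximalIdeal_mvPowerSeries_fin (n : ℕ) :
    IsAdicComplete (IsLocalRing.maximalIdeal (MvPowerSeries (Fin n) K))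
      (MvPowerSeries (Fin n) K) := by
  rw [maximalIdeal_eq_span_range_X]
  infer_instance

end MaximalIdeal

open scoped Polynomial

section OneVariable

variable {A : Type*} [CommRing A] [IsDomain A] [IsLocalRing A]

/-- A polynomial factor of a distinguished polynomial which is a unit as a power series
is a unit as a polynomial. -/
theorem isUnit_of_isUnit_coe_of_mul_eq_distinguished {f c c' : A[X]}
    (hf : f.IsDistinguishedAt (IsLocalRing.maximalIdeal A)) (hfc : f = c * c')
    (hc : IsUnit (c : PowerSeries A)) : IsUnit c := by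
  classical
  set I := IsLocalRing.maximalIdeal A with hI
  let _ : Field (A ⧸ I) := Ideal.Quotient.field I
  set π := Ideal.Quotient.mk I with hπ
  have hc0 : IsUnit (c.coeff 0) := by
    have := (PowerSeries.isUnit_iff_constantCoeff).1 hc
    simpa using this
  have hlead : IsUnit c.leadingCoeff := by
    have h1 : c.leadingCoeff * c'.leadingCoeff = 1 := by
      rw [← Polynomial.leadingCoeff_mul, ← hfc]
      exact hf.monic
    exact IsUnit.of_mul_eq_one _ h1
  have hπunit : ∀ a : A, IsUnit a → π a ≠ 0 := by
    intro a ha h0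
    rw [hπ, Ideal.Quotient.eq_zero_iff_mem] at h0
    exact (IsLocalRing.mem_maximalIdeal a).1 h0 ha
  have hmap : c.map π * c'.map π = Polynomial.X ^ f.natDegree := by
    rw [← Polynomial.map_mul, ← hfc]
    exact hf.map_eq_X_pow
  have hdvd : c.map π ∣ Polynomial.X ^ f.natDegree := Dvd.intro _ hmap
  obtain ⟨i, -, hi⟩ := (dvd_prime_pow Polynomial.prime_X f.natDegree).1 hdvd
  have hi0 : i = 0 := by
    by_contra hne
    obtain ⟨u, hu⟩ := hi
    have hX : (Polynomial.X : (A ⧸ I)[X]) ∣ c.map π * (u : (A ⧸ I)[X]) := by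
      rw [hu]
      exact dvd_pow_self _ hne
    have hX' : (Polynomial.X : (A ⧸ I)[X]) ∣ c.map π :=
      (IsUnit.dvd_mul_right u.isUnit).1 hX
    rw [Polynomial.X_dvd_iff, Polynomial.coeff_map] at hX'
    exact hπunit _ hc0 hX'
  rw [hi0, pow_zero] at hi
  have hunit : IsUnit (c.map π) := (associated_one_iff_isUnit).1 hi
  have hdeg : (c.map π).natDegree = 0 := Polynomial.natDegree_eq_zero_of_isUnit hunit
  rw [Polynomial.natDegree_map_of_leadingCoeff_ne_zero π (hπunit _ hlead)] at hdeg
  rw [Polynomial.eq_C_of_natDegree_eq_zero hdeg]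
  exact Polynomial.isUnit_C.2 hc0

/-- The distinguished polynomial of an irreducible power series is irreducible. -/
theorem irreducible_of_isWeierstrassFactorization {g : PowerSeries A} {f : A[X]}
    {h : PowerSeries A} (hg : Irreducible g) (H : g.IsWeierstrassFactorization f h) :
    Irreducible f := by
  refine ⟨fun hu => hg.not_isUnit ?_, fun a b hab => ?_⟩
  · rw [H.eq_mul]
    exact (hu.map (Polynomial.coeToPowerSeries.ringHom (R := A))).mul H.isUnit
  · have hg' : g = (a : PowerSeries A) * ((b : PowerSeries A) * h) := by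
      rw [H.eq_mul, hab, Polynomial.coe_mul, mul_assoc]
    rcases hg.isUnit_or_isUnit hg' with ha | hb
    · exact Or.inl (isUnit_of_isUnit_coe_of_mul_eq_distinguished H.isDistinguishedAt hab ha)
    · have hb' : IsUnit (b : PowerSeries A) := isUnit_of_mul_isUnit_left hb
      exact Or.inr (isUnit_of_isUnit_coe_of_mul_eq_distinguished H.isDistinguishedAt
        (by rw [hab, mul_comm]) hb')

/-- **One-variable step.** Over a complete local UFD `A`, an irreducible power series whose
reduction modulo the maximal ideal is nonzero is prime. -/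
theorem prime_of_irreducible_of_map_residue_ne_zero
    [IsAdicComplete (IsLocalRing.maximalIdeal A) A] [UniqueFactorizationMonoid A]
    {g : PowerSeries A} (hg : Irreducible g) (hres : g.map (IsLocalRing.residue A) ≠ 0) :
    Prime g := by
  obtain ⟨f, h, H⟩ := g.exists_isWeierstrassFactorization hres
  have hfirr : Irreducible f := irreducible_of_isWeierstrassFactorization hg H
  have hfprime : Prime f := UniqueFactorizationMonoid.irreducible_iff_prime.1 hfirr
  have hIf : (Ideal.span {f}).IsPrime := (Ideal.span_singleton_prime hfprime.ne_zero).2 hfprime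
  have hdom : IsDomain (A[X] ⧸ Ideal.span {f}) := (Ideal.Quotient.isDomain_iff_prime _).2 hIf
  have hdom' : IsDomain (PowerSeries A ⧸ Ideal.span {g}) :=
    MulEquiv.isDomain _ H.algEquivQuotient.symm.toMulEquiv
  have hIg : (Ideal.span {g}).IsPrime := (Ideal.Quotient.isDomain_iff_prime _).1 hdom'
  exact (Ideal.span_singleton_prime hg.ne_zero).1 hIg

end OneVariable

/-- Combinatorial lemma: a nonempty set of exponent vectors has an element which is the unique
minimiser of a suitable positive integer weight with `m 0 = 1`. -/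
theorem exists_weight_unique_min :
    ∀ (n : ℕ) (T : Set (Fin (n + 1) → ℕ)), T.Nonempty →
      ∃ α ∈ T, ∃ m : Fin (n + 1) → ℕ, m 0 = 1 ∧ (∀ s, m s ≠ 0) ∧
        ∀ d ∈ T, d ≠ α → ∑ s, m s * α s < ∑ s, m s * d s := by
  intro n
  induction n with
  | zero =>
    intro T hT
    -- minimise the single coordinate
    have hwf : WellFounded (InvImage (· < ·) (fun d : Fin (0 + 1) → ℕ => d 0)) :=
      InvImage.wf _ Nat.lt_wfRel.wf
    obtain ⟨α, hαT, hαmin⟩ := hwf.has_min T hT
    refine ⟨α, hαT, fun _ => 1, rfl, fun _ => one_ne_zero, fun d hd hne => ?_⟩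
    have hle : α 0 ≤ d 0 := not_lt.1 (hαmin d hd)
    have hne' : d 0 ≠ α 0 := by
      intro h
      apply hne
      funext s
      have hs : s = 0 := Fin.ext (by have := s.isLt; simp at this ⊢)
      rw [hs, h]
    have hsum : ∀ f : Fin (0 + 1) → ℕ, ∑ s, 1 * f s = f 0 := by
      intro f
      rw [Fin.sum_univ_succ]
      simp
    rw [hsum, hsum]
    omega
  | succ n ih =>
    intro T hT
    have hwf : WellFounded (InvImage (· < ·) (fun d : Fin (n + 2) → ℕ => d (Fin.last (n + 1)))) :=
      InvImage.wf _ Nat.lt_wfRel.wf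
    obtain ⟨β, hβT, hβmin⟩ := hwf.has_min T hT
    set c := β (Fin.last (n + 1)) with hc
    let T' : Set (Fin (n + 1) → ℕ) := {d' | (Fin.snoc d' c : Fin (n + 2) → ℕ) ∈ T}
    have hT' : T'.Nonempty := by
      refine ⟨Fin.init β, ?_⟩
      show (Fin.snoc (Fin.init β) c : Fin (n + 2) → ℕ) ∈ T
      rw [hc, Fin.snoc_init_self]
      exact hβT
    obtain ⟨α', hα'T, m', hm'0, hm'pos, hmin'⟩ := ih T' hT'
    set M := ∑ s, m' s * α' s + 1 with hM
    have hsum : ∀ d : Fin (n + 2) → ℕ,
        ∑ s, (Fin.snoc m' M : Fin (n + 2) → ℕ) s * d s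
          = ∑ s : Fin (n + 1), m' s * Fin.init d s + M * d (Fin.last (n + 1)) := by
      intro d
      rw [Fin.sum_univ_castSucc]
      simp only [Fin.snoc_castSucc, Fin.snoc_last]
      rfl
    refine ⟨(Fin.snoc α' c : Fin (n + 2) → ℕ), hα'T, (Fin.snoc m' M : Fin (n + 2) → ℕ), ?_, ?_, ?_⟩
    · have : (0 : Fin (n + 2)) = Fin.castSucc (0 : Fin (n + 1)) := rfl
      rw [this, Fin.snoc_castSucc]
      exact hm'0
    · intro s
      refine Fin.lastCases ?_ (fun j => ?_) s
      · rw [Fin.snoc_last]; omega
      · rw [Fin.snoc_castSucc]; exact hm'pos j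
    · intro d hd hne
      rw [hsum, hsum, Fin.init_snoc, Fin.snoc_last]
      have hcd : c ≤ d (Fin.last (n + 1)) := not_lt.1 (hβmin d hd)
      rcases eq_or_lt_of_le hcd with heq | hlt
      · -- same last coordinate: use the induction hypothesis
        have hdsnoc : (Fin.snoc (Fin.init d) c : Fin (n + 2) → ℕ) = d := by
          rw [heq, Fin.snoc_init_self]
        have hinit : Fin.init d ∈ T' := by
          show (Fin.snoc (Fin.init d) c : Fin (n + 2) → ℕ) ∈ T
          rw [hdsnoc]; exact hd
        have hne' : Fin.init d ≠ α' := by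
          intro h
          apply hne
          rw [← hdsnoc, h]
        have := hmin' _ hinit hne'
        rw [← heq]
        omega
      · have h1 : M * (c + 1) ≤ M * d (Fin.last (n + 1)) := Nat.mul_le_mul_left _ hlt
        have h3 : M * (c + 1) = M * c + M := by ring
        omega

section Regular

open MvPowerSeries

variable {K : Type*} [Field K] {n : ℕ}

/-- The substitution family `X₀ ↦ X₀`, `X_s ↦ X_s + ε X₀ ^ m s` (`s ≠ 0`). -/
noncomputable def shiftFam (ε : K) (m : Fin (n + 1) → ℕ) :
    Fin (n + 1) → MvPowerSeries (Fin (n + 1)) K :=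
  fun s => if s = 0 then X 0 else X s + C ε * X 0 ^ m s

theorem shiftFam_zero (ε : K) (m : Fin (n + 1) → ℕ) : shiftFam ε m 0 = X 0 := by
  simp [shiftFam]

theorem shiftFam_of_ne (ε : K) (m : Fin (n + 1) → ℕ) {s : Fin (n + 1)} (hs : s ≠ 0) :
    shiftFam ε m s = X s + C ε * X 0 ^ m s := by
  simp [shiftFam, hs]

theorem hasSubst_shiftFam (ε : K) {m : Fin (n + 1) → ℕ} (hm : ∀ s, m s ≠ 0) :
    HasSubst (shiftFam ε m) := by
  apply hasSubst_of_constantCoeff_zero
  intro s
  by_cases hs : s = 0
  · subst hs
    rw [shiftFam_zero]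
    simp
  · rw [shiftFam_of_ne ε m hs]
    simp [zero_pow (hm s)]

theorem subst_shiftFam_shiftFam (ε δ : K) {m : Fin (n + 1) → ℕ} (hm : ∀ s, m s ≠ 0)
    (s : Fin (n + 1)) :
    subst (shiftFam ε m) (shiftFam δ m s) = shiftFam (ε + δ) m s := by
  have ha := hasSubst_shiftFam ε hm
  by_cases hs : s = 0
  · subst hs
    rw [shiftFam_zero, shiftFam_zero, subst_X ha, shiftFam_zero]
  · rw [shiftFam_of_ne δ m hs, shiftFam_of_ne (ε + δ) m hs, subst_add ha, subst_mul ha,
      subst_pow ha, subst_X ha, subst_X ha, subst_C, shiftFam_zero, shiftFam_of_ne ε m hs,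
      map_add]
    ring

theorem shiftFam_zero_eq_X (m : Fin (n + 1) → ℕ) :
    shiftFam (0 : K) m = (X : Fin (n + 1) → MvPowerSeries (Fin (n + 1)) K) := by
  funext s
  by_cases hs : s = 0
  · subst hs; rw [shiftFam_zero]
  · rw [shiftFam_of_ne _ m hs]; simp

theorem subst_shiftFam_subst_shiftFam (ε δ : K) {m : Fin (n + 1) → ℕ} (hm : ∀ s, m s ≠ 0)
    (f : MvPowerSeries (Fin (n + 1)) K) :
    subst (shiftFam ε m) (subst (shiftFam δ m) f) = subst (shiftFam (ε + δ) m) f := by
  rw [subst_comp_subst_apply (hasSubst_shiftFam δ hm) (hasSubst_shiftFam ε hm)]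
  congr 1
  funext s
  exact subst_shiftFam_shiftFam ε δ hm s

/-- The automorphism `X₀ ↦ X₀`, `X_s ↦ X_s + X₀ ^ m s` of `K⟦X₀, …, Xₙ⟧`. -/
noncomputable def shiftEquiv {m : Fin (n + 1) → ℕ} (hm : ∀ s, m s ≠ 0) :
    MvPowerSeries (Fin (n + 1)) K ≃ₐ[K] MvPowerSeries (Fin (n + 1)) K :=
  AlgEquiv.ofAlgHom (substAlgHom (hasSubst_shiftFam (1 : K) hm))
    (substAlgHom (hasSubst_shiftFam (-1 : K) hm))
    (by
      ext1 f
      simp only [AlgHom.comp_apply, substAlgHom_apply, AlgHom.id_apply]
      rw [subst_shiftFam_subst_shiftFam _ _ hm, add_neg_cancel, shiftFam_zero_eq_X, subst_self]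
      rfl)
    (by
      ext1 f
      simp only [AlgHom.comp_apply, substAlgHom_apply, AlgHom.id_apply]
      rw [subst_shiftFam_subst_shiftFam _ _ hm, neg_add_cancel, shiftFam_zero_eq_X, subst_self]
      rfl)

theorem shiftEquiv_apply {m : Fin (n + 1) → ℕ} (hm : ∀ s, m s ≠ 0)
    (f : MvPowerSeries (Fin (n + 1)) K) :
    shiftEquiv hm f = subst (shiftFam (1 : K) m) f := by
  simp [shiftEquiv]

variable (K n) in
/-- Restriction to the `X₀`-axis: kill `X₁, …, Xₙ`. -/
noncomputable def axisHom : MvPowerSeries (Fin (n + 1)) K →+* PowerSeries K :=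
  (PowerSeries.map (constantCoeff (σ := Fin n) (R := K))).comp
    (MvPowerSeries.finSuccEquiv K n : MvPowerSeries (Fin (n + 1)) K →+* _)

theorem axisHom_apply (G : MvPowerSeries (Fin (n + 1)) K) :
    axisHom K n G = PowerSeries.map (constantCoeff (σ := Fin n) (R := K))
      (MvPowerSeries.finSuccEquiv K n G) := rfl

theorem coeff_axisHom (k : ℕ) (G : MvPowerSeries (Fin (n + 1)) K) :
    PowerSeries.coeff k (axisHom K n G) = coeff (Finsupp.single 0 k) G := by
  rw [axisHom_apply, PowerSeries.coeff_map, ← coeff_zero_eq_constantCoeff_apply,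
    MvPowerSeries.coeff_coeff_finSuccEquiv]
  congr 2
  ext s
  refine Fin.cases ?_ (fun j => ?_) s
  · simp
  · simp

theorem axisHom_X_zero : axisHom K n (X 0) = PowerSeries.X := by
  rw [axisHom_apply, MvPowerSeries.finSuccEquiv_X_zero, PowerSeries.map_X]

theorem axisHom_X_of_ne {s : Fin (n + 1)} (hs : s ≠ 0) : axisHom K n (X s) = 0 := by
  obtain ⟨j, rfl⟩ := Fin.exists_succ_eq.2 hs
  rw [axisHom_apply, MvPowerSeries.finSuccEquiv_X_succ, PowerSeries.map_C]
  simp

theorem axisHom_C (r : K) : axisHom K n (C r) = PowerSeries.C r := by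
  rw [axisHom_apply, MvPowerSeries.finSuccEquiv_C, PowerSeries.map_C]
  simp

theorem axisHom_shiftFam {m : Fin (n + 1) → ℕ} (hm0 : m 0 = 1) (s : Fin (n + 1)) :
    axisHom K n (shiftFam (1 : K) m s) = PowerSeries.X ^ m s := by
  by_cases hs : s = 0
  · subst hs
    rw [shiftFam_zero, axisHom_X_zero, hm0, pow_one]
  · rw [shiftFam_of_ne _ m hs, map_add, map_mul, map_pow, axisHom_X_of_ne hs, axisHom_X_zero,
      axisHom_C]
    simp

theorem coeff_single_prod_shiftFam {m : Fin (n + 1) → ℕ} (hm0 : m 0 = 1)
    (d : Fin (n + 1) →₀ ℕ) (k : ℕ) :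
    coeff (Finsupp.single 0 k) (d.prod fun s e => shiftFam (1 : K) m s ^ e)
      = if k = ∑ s, m s * d s then 1 else 0 := by
  rw [← coeff_axisHom, map_finsuppProd]
  simp only [map_pow, axisHom_shiftFam hm0]
  rw [Finsupp.prod_fintype _ _ (fun i => pow_zero _)]
  simp only [← pow_mul, Finset.prod_pow_eq_pow_sum]
  rw [PowerSeries.coeff_X_pow]

/-- **Regularisation.** Every nonzero power series becomes `X₀`-regular after a suitable
automorphism `X_s ↦ X_s + X₀ ^ m s`. -/
theorem exists_shift_axisHom_ne_zero {F : MvPowerSeries (Fin (n + 1)) K} (hF : F ≠ 0) :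
    ∃ (m : Fin (n + 1) → ℕ) (hm : ∀ s, m s ≠ 0), axisHom K n (shiftEquiv hm F) ≠ 0 := by
  classical
  let T : Set (Fin (n + 1) → ℕ) :=
    (fun d : Fin (n + 1) →₀ ℕ => (d : Fin (n + 1) → ℕ)) '' {d | coeff d F ≠ 0}
  have hT : T.Nonempty := by
    obtain ⟨d, hd⟩ : ∃ d, coeff d F ≠ 0 := by
      by_contra h
      simp only [not_exists, not_not] at h
      exact hF (MvPowerSeries.ext h)
    exact ⟨_, d, hd, rfl⟩
  obtain ⟨_, ⟨α, hα, rfl⟩, m, hm0, hmpos, hmin⟩ := exists_weight_unique_min n T hT
  refine ⟨m, hmpos, fun h0 => hα ?_⟩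
  have ha := hasSubst_shiftFam (1 : K) hmpos
  have key : PowerSeries.coeff (∑ s, m s * α s) (axisHom K n (shiftEquiv hmpos F))
      = coeff α F := by
    rw [coeff_axisHom, shiftEquiv_apply, coeff_subst ha, finsum_eq_single _ α]
    · rw [coeff_single_prod_shiftFam hm0]
      simp
    · intro d hd
      rw [coeff_single_prod_shiftFam hm0]
      by_cases hdF : coeff d F = 0
      · simp [hdF]
      · have hlt := hmin d ⟨d, hdF, rfl⟩ (fun h => hd (DFunLike.coe_injective h))
        rw [if_neg (ne_of_lt hlt)]
        simp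
  rw [h0] at key
  simpa using key.symm

end Regular

section Main

open MvPowerSeries

variable (K : Type*) [Field K]

/-- **`K⟦X₁, …, Xₙ⟧` is a UFD.** -/
theorem ufd_mvPowerSeries_fin : ∀ n : ℕ, UniqueFactorizationMonoid (MvPowerSeries (Fin n) K) := by
  intro n
  induction n with
  | zero =>
    exact MulEquiv.uniqueFactorizationMonoid
      (MvPowerSeries.isEmptyEquiv (Fin 0) K).symm.toMulEquiv inferInstance
  | succ n ih =>
    have := ih
    have : IsDomain (MvPowerSeries (Fin n) K) := isDomain_mvPowerSeries _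
    have : IsDomain (MvPowerSeries (Fin (n + 1)) K) := isDomain_mvPowerSeries _
    have := isAdicComplete_maximalIdeal_mvPowerSeries_fin (K := K) n
    have : WfDvdMonoid (MvPowerSeries (Fin (n + 1)) K) := IsNoetherianRing.wfDvdMonoid
    refine { irreducible_iff_prime := fun {F} => ⟨fun hF => ?_, Prime.irreducible⟩ }
    obtain ⟨m, hm, hreg⟩ := exists_shift_axisHom_ne_zero hF.ne_zero
    set e := MvPowerSeries.finSuccEquiv K n with he
    set G := e (shiftEquiv hm F) with hG
    have hGirr : Irreducible G :=
      (MulEquiv.irreducible_iff e).2 ((MulEquiv.irreducible_iff (shiftEquiv hm)).2 hF)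
    have hres : G.map (IsLocalRing.residue (MvPowerSeries (Fin n) K)) ≠ 0 := by
      intro h
      apply hreg
      rw [axisHom_apply]
      ext k
      have hk := congrArg (PowerSeries.coeff k) h
      rw [PowerSeries.coeff_map, map_zero, IsLocalRing.residue_eq_zero_iff,
        mem_maximalIdeal_iff] at hk
      rw [PowerSeries.coeff_map, map_zero]
      exact hk
    have hGprime : Prime G := prime_of_irreducible_of_map_residue_ne_zero hGirr hres
    have h1 : Prime (shiftEquiv hm F) := (MulEquiv.prime_iff e).1 (hG ▸ hGprime)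
    exact (MulEquiv.prime_iff (shiftEquiv (K := K) hm)).1 h1

/-- `K⟦σ⟧` is a UFD for every finite index type `σ`. -/
theorem ufd_mvPowerSeries (σ : Type*) [Finite σ] :
    UniqueFactorizationMonoid (MvPowerSeries σ K) := by
  cases nonempty_fintype σ
  exact MulEquiv.uniqueFactorizationMonoid
    (MvPowerSeries.renameEquiv K (Fintype.equivFin σ)).symm.toMulEquiv
    (ufd_mvPowerSeries_fin K (Fintype.card σ))

end Main

end Fermat.Agent.S26.helper906
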