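import Fermat.Agent.S26.helper154_Spec2
import Fermat.Agent.S26.helper1351_SmoothStalkUFD
import Fermat.Agent.S26.helper802_SmoothCompletion
import Fermat.Agent.S26.helper906_MvPowerSeriesUFD
import Fermat.Agent.S26.helper218_UFDDescent

/-!
# S26-M1: the closed M1 chain (M1a + M1b + M1c + M1d), unconditional, in the Spec shapes

* `localUFDInput K : helper1351.LocalUFDInput K` (a noetherian local `K`-algebra that is formally
  smooth over `K` with residue field `K` is a factorial domain): M1c (`helper802`) + M1a
  (`helper906`) + M1b (`helper218`);
* `stmt_UFD : helper154.Stmt_UFD` and `stmt_Normal : helper154.Stmt_Normal`, verbatim Spec part II;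
* hypothesis-free forms of the scheme adapter of `helper1351`.
-/

set_option autoImplicit false

universe u

namespace Fermat.Agent.S26.helper715

open CategoryTheory AlgebraicGeometry

/-- **M1a + M1b + M1c.** The algebraic input of `helper1351` holds for every field. -/
theorem localUFDInput (K : Type u) [Field K] : helper1351.LocalUFDInput K := by
  intro O _ _ _ _ _ hres
  obtain ⟨r, ⟨e⟩⟩ := helper802.exists_ringEquiv_adicCompletion_mvPowerSeries K O hres
  have : IsDomain (MvPowerSeries (Fin r) K) := helper906.isDomain_mvPowerSeries _
  have := helper906.ufd_mvPowerSeries_fin K r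
  exact helper218.isDomain_and_ufd_of_adicCompletion_equiv O e

section Scheme

variable {K : Type u} [Field K] [IsAlgClosed K] {A : Scheme.{u}}
  (f : A ⟶ Spec (CommRingCat.of K))

/-- Every stalk of a smooth scheme over an algebraically closed field is a factorial domain. -/
theorem stalk_ufd [Smooth f] (x : A) :
    IsDomain (A.presheaf.stalk x) ∧ UniqueFactorizationMonoid (A.presheaf.stalk x) :=
  helper1351.stalk_ufd f (localUFDInput K) x

/-- Every stalk of a smooth scheme over an algebraically closed field is integrally closed. -/
theorem stalk_isIntegrallyClosed [Smooth f] (x : A) : IsIntegrallyClosed (A.presheaf.stalk x) :=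
  helper1351.stalk_isIntegrallyClosed f (localUFDInput K) x

/-- Weil ⟹ Cartier: in a stalk of a smooth scheme over an algebraically closed field every prime
ideal of height one is generated by a prime element. -/
theorem stalk_exists_prime_span_eq_of_height_eq_one [Smooth f] (x : A)
    {P : Ideal (A.presheaf.stalk x)} [P.IsPrime] (hht : P.height = 1) :
    ∃ π : A.presheaf.stalk x, Prime π ∧ P = Ideal.span {π} :=
  helper1351.stalk_exists_prime_span_eq_of_height_eq_one f (localUFDInput K) x hht

/-- For a smooth scheme over an algebraically closed field and an affine open `V`, every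
localisation of `Γ(A, V)` at a prime ideal is a factorial domain. -/
theorem isLocalization_atPrime_section_ufd [Smooth f] {V : A.Opens} (hV : IsAffineOpen V)
    (p : Ideal Γ(A, V)) [p.IsPrime] (S : Type*) [CommRing S] [Algebra Γ(A, V) S]
    [IsLocalization.AtPrime S p] : IsDomain S ∧ UniqueFactorizationMonoid S :=
  helper1351.isLocalization_atPrime_section_ufd f (localUFDInput K) hV p S

/-- The ring of sections of a smooth integral scheme over an algebraically closed field on an
affine open is integrally closed. -/
theorem isIntegrallyClosed_section [Smooth f] [IsIntegral A] {U : A.Opens} (hU : IsAffineOpen U) :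
    IsIntegrallyClosed Γ(A, U) := by
  by_cases hne : (U : Set A).Nonempty
  · have : Nonempty U := hne.to_subtype
    have : IsDomain Γ(A, U) := inferInstance
    refine IsIntegrallyClosed.of_localization_maximal fun p _ _ => ?_
    obtain ⟨hdom, hufd⟩ := isLocalization_atPrime_section_ufd f hU p (Localization.AtPrime p)
    infer_instance
  · have hU' : U = ⊥ := by
      ext x
      simp only [TopologicalSpace.Opens.coe_bot, Set.mem_empty_iff_false, iff_false]
      exact fun hx => hne ⟨x, hx⟩
    subst hU'
    have hsub : Subsingleton Γ(A, ⊥) := inferInstance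
    have hsub' : Subsingleton (FractionRing Γ(A, ⊥)) :=
      (algebraMap Γ(A, ⊥) (FractionRing Γ(A, ⊥))).codomain_trivial
    refine (isIntegrallyClosed_iff (FractionRing Γ(A, ⊥))).mpr fun {x} _ => ⟨0, ?_⟩
    exact Subsingleton.elim _ _

end Scheme

/-- **M1 (`Stmt_UFD` of Spec part II, verbatim).** -/
theorem stmt_UFD : helper154.Stmt_UFD.{u} := by
  intro K _ _ A f _ _ x
  exact (stalk_ufd f x).2

/-- **M1 (`Stmt_Normal` of Spec part II, verbatim).** -/
theorem stmt_Normal : helper154.Stmt_Normal.{u} := by
  intro K _ _ A f _ _ U hU
  exact isIntegrallyClosed_section f hU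

end Fermat.Agent.S26.helper715
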