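import Mathlib

/-!
# S26, module M0-ETALE, algebra half (helper1321)

Mathlib-only.  Ring-level criterion used to prove that multiplication by `n` on a smooth
commutative group scheme over an algebraically closed field is étale:

* `formallyEtale_of_bijective_mapBaseChange`: Jacobi–Zariski.  If `T` is formally smooth over `R`
  and `T ⊗[S] Ω[S⁄R] → Ω[T⁄R]` is bijective, then `T` is formally étale over `S`.
* `bijective_of_existsUnique_comp`: a linear map `u : M → N` of finite modules over a local ring
  (`N` projective) is bijective as soon as every linear map `M → K` into the residue field factors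
  uniquely through `u`.
* `isEtaleAt_of_tangent`: the tangent criterion.  `K` a field, `B → C` a map of `K`-algebras,
  `C` smooth over `K`, `χ : C → K` a `K`-point.  If composition with `B → C` is a bijection from
  the dual-number points of `C` over `χ` onto the dual-number points of `B` over `χ ∘ (B → C)`,
  then `B → C` is étale at `ker χ`.
-/

set_option autoImplicit false

namespace Fermat.Agent.S26.helper1321

open scoped TensorProduct
open KaehlerDifferential

section JacobiZariski

variable (R S T : Type*) [CommRing R] [CommRing S] [CommRing T] [Algebra R S] [Algebra R T]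
  [Algebra S T] [IsScalarTower R S T]

/-- **Jacobi–Zariski criterion.**  If `T` is formally smooth over `R` and the canonical map
`T ⊗[S] Ω[S⁄R] → Ω[T⁄R]` is bijective, then `T` is formally étale over `S`. -/
theorem formallyEtale_of_bijective_mapBaseChange [Algebra.FormallySmooth R T]
    (h : Function.Bijective (KaehlerDifferential.mapBaseChange R S T)) :
    Algebra.FormallyEtale S T := by
  rw [Algebra.formallyEtale_iff]
  constructor
  · -- `Ω[T⁄S]` is the cokernel of `mapBaseChange`
    refine ⟨fun a b => ?_⟩
    obtain ⟨a', rfl⟩ := KaehlerDifferential.map_surjective R S T a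
    obtain ⟨b', rfl⟩ := KaehlerDifferential.map_surjective R S T b
    have ha : KaehlerDifferential.map R S T T a' = 0 :=
      (KaehlerDifferential.exact_mapBaseChange_map R S T a').mpr (h.2 a')
    have hb : KaehlerDifferential.map R S T T b' = 0 :=
      (KaehlerDifferential.exact_mapBaseChange_map R S T b').mpr (h.2 b')
    rw [ha, hb]
  · -- `H¹(L_{T/S})` injects into the kernel of `mapBaseChange`
    have hRT : Subsingleton (Algebra.H1Cotangent R T) :=
      ((Algebra.formallySmooth_iff R T).mp inferInstance).2
    refine ⟨fun a b => ?_⟩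
    have key : ∀ x : Algebra.H1Cotangent S T, x = 0 := by
      intro x
      have h1 : KaehlerDifferential.mapBaseChange R S T (Algebra.H1Cotangent.δ R S T x) = 0 :=
        (Algebra.H1Cotangent.exact_δ_mapBaseChange R S T _).mpr ⟨x, rfl⟩
      have h2 : Algebra.H1Cotangent.δ R S T x = 0 := h.1 (by rw [h1, map_zero])
      obtain ⟨y, rfl⟩ := (Algebra.H1Cotangent.exact_map_δ R S T x).mp h2
      rw [Subsingleton.elim y 0, map_zero]
    rw [key a, key b]

end JacobiZariski

section LocalLemma

variable {T : Type*} [CommRing T] [IsLocalRing T] {K : Type*} [Field K] [Algebra T K]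

/-- A nontrivial finite module over a local ring has a nonzero linear map to (any copy of) the
residue field. -/
theorem exists_linearMap_ne_zero [IsLocalHom (algebraMap T K)] (Q : Type*) [AddCommGroup Q]
    [Module T Q] [Module.Finite T Q] [Nontrivial Q] : ∃ g : Q →ₗ[T] K, g ≠ 0 := by
  classical
  let k := IsLocalRing.ResidueField T
  have hW : Nontrivial (k ⊗[T] Q) := by
    rw [← not_subsingleton_iff_nontrivial, IsLocalRing.subsingleton_tensorProduct]
    exact not_subsingleton Q
  obtain ⟨w, hw⟩ := exists_ne (0 : k ⊗[T] Q)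
  obtain ⟨φ, hφ⟩ : ∃ φ : Module.Dual k (k ⊗[T] Q), φ w ≠ 0 := by
    by_contra hcon
    push Not at hcon
    exact hw ((Module.forall_dual_apply_eq_zero_iff k w).mp hcon)
  obtain ⟨q, hq⟩ : ∃ q : Q, φ ((1 : k) ⊗ₜ[T] q) ≠ 0 := by
    by_contra hcon
    push Not at hcon
    have hall : ∀ v : k ⊗[T] Q, φ v = 0 := by
      intro v
      induction v using TensorProduct.induction_on with
      | zero => simp
      | tmul a q =>
        have : a ⊗ₜ[T] q = a • ((1 : k) ⊗ₜ[T] q) := by
          rw [TensorProduct.smul_tmul', smul_eq_mul, mul_one]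
        rw [this, map_smul, hcon q, smul_zero]
      | add x y hx hy => rw [map_add, hx, hy, add_zero]
    exact hφ (hall w)
  -- the `T`-linear embedding of the residue field into `K`
  let ι : k →ₗ[T] K :=
    { toFun := IsLocalRing.ResidueField.lift (algebraMap T K)
      map_add' := map_add _
      map_smul' := by
        intro t x
        obtain ⟨x, rfl⟩ := IsLocalRing.residue_surjective x
        rw [RingHom.id_apply, Algebra.smul_def, Algebra.smul_def, map_mul]
        rfl }
  have hι : Function.Injective ι := (IsLocalRing.ResidueField.lift (algebraMap T K)).injective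
  refine ⟨ι ∘ₗ (φ.restrictScalars T) ∘ₗ (TensorProduct.mk T k Q 1), fun h0 => hq ?_⟩
  have := LinearMap.congr_fun h0 q
  simp only [LinearMap.coe_comp, Function.comp_apply, LinearMap.coe_restrictScalars,
    TensorProduct.mk_apply, LinearMap.zero_apply] at this
  exact hι (by rw [this, map_zero])

/-- **Bijectivity criterion over a local ring.**  A linear map `u : M → N` of finite modules over
a local ring, with `N` projective, is bijective as soon as every linear map from `M` to the
residue field `K` factors uniquely through `u`. -/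
theorem bijective_of_existsUnique_comp [IsLocalHom (algebraMap T K)] {M N : Type*}
    [AddCommGroup M] [AddCommGroup N] [Module T M] [Module T N] [Module.Finite T M]
    [Module.Finite T N] [Module.Projective T N] (u : M →ₗ[T] N)
    (H : ∀ g : M →ₗ[T] K, ∃! h : N →ₗ[T] K, h ∘ₗ u = g) : Function.Bijective u := by
  have hsurj : Function.Surjective u := by
    rw [← LinearMap.range_eq_top]
    by_contra hne
    have : Nontrivial (N ⧸ LinearMap.range u) := Submodule.Quotient.nontrivial_iff.mpr hne
    obtain ⟨g, hg⟩ := exists_linearMap_ne_zero (T := T) (K := K) (N ⧸ LinearMap.range u)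
    obtain ⟨h0, -, huniq⟩ := H 0
    have h1 : g ∘ₗ (LinearMap.range u).mkQ = h0 := by
      apply huniq
      ext m
      simp only [LinearMap.coe_comp, Function.comp_apply, Submodule.mkQ_apply,
        LinearMap.zero_apply]
      rw [(Submodule.Quotient.mk_eq_zero _).mpr (LinearMap.mem_range_self u m), map_zero]
    have h2 : (0 : N →ₗ[T] K) = h0 := huniq 0 (by simp)
    apply hg
    refine LinearMap.ext fun x => ?_
    obtain ⟨n, rfl⟩ := Submodule.mkQ_surjective _ x
    have := LinearMap.congr_fun (h1.trans h2.symm) n
    simpa using this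
  refine ⟨?_, hsurj⟩
  obtain ⟨s, hs⟩ := Module.projective_lifting_property u LinearMap.id hsurj
  -- the projection onto the kernel
  let π : M →ₗ[T] LinearMap.ker u :=
    LinearMap.codRestrict (LinearMap.ker u) (LinearMap.id - s ∘ₗ u) (by
      intro m
      rw [LinearMap.mem_ker, LinearMap.sub_apply, map_sub, LinearMap.id_apply,
        LinearMap.comp_apply]
      have := LinearMap.congr_fun hs (u m)
      simp only [LinearMap.coe_comp, Function.comp_apply, LinearMap.id_coe, id_eq] at this
      rw [this, sub_self])
  have hπ : ∀ p : LinearMap.ker u, π p = p := by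
    intro p
    apply Subtype.ext
    simp only [π, LinearMap.codRestrict_apply, LinearMap.sub_apply, LinearMap.id_coe, id_eq,
      LinearMap.coe_comp, Function.comp_apply]
    rw [LinearMap.mem_ker.mp p.2, map_zero, sub_zero]
  have hfin : Module.Finite T (LinearMap.ker u) :=
    Module.Finite.of_surjective π (fun p => ⟨p, hπ p⟩)
  rw [← LinearMap.ker_eq_bot]
  by_contra hne
  have : Nontrivial (LinearMap.ker u) := Submodule.nontrivial_iff_ne_bot.mpr hne
  obtain ⟨g₀, hg₀⟩ := exists_linearMap_ne_zero (T := T) (K := K) (LinearMap.ker u)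
  obtain ⟨h, hh, -⟩ := H (g₀ ∘ₗ π)
  apply hg₀
  refine LinearMap.ext fun p => ?_
  have := LinearMap.congr_fun hh p
  simp only [LinearMap.coe_comp, Function.comp_apply] at this
  rw [hπ p, LinearMap.mem_ker.mp p.2, map_zero] at this
  rw [← this, LinearMap.zero_apply]

end LocalLemma

section Tangent

variable {K : Type*} [Field K]

/-- The dual-number point `x ↦ ψ x + d x ε` attached to a point `ψ` and a `ψ`-derivation `d`. -/
def dualPoint {R : Type*} [CommRing R] [Algebra K R] (ψ : R →ₐ[K] K) (d : R →ₗ[K] K)
    (hd : ∀ x y, d (x * y) = ψ x * d y + ψ y * d x) : R →ₐ[K] TrivSqZeroExt K K :=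
  AlgHom.ofLinearMap
    ((TrivSqZeroExt.inlAlgHom K K K).toLinearMap ∘ₗ ψ.toLinearMap +
      (TrivSqZeroExt.inrHom K K) ∘ₗ d)
    (by
      have h1 : d 1 = 0 := by
        have := hd 1 1
        simp only [mul_one, map_one, one_mul] at this
        linear_combination -this
      apply TrivSqZeroExt.ext <;> simp [h1])
    (by
      intro x y
      apply TrivSqZeroExt.ext
      · simp
      · simp [hd, mul_comm])

@[simp] theorem fst_dualPoint {R : Type*} [CommRing R] [Algebra K R] (ψ : R →ₐ[K] K)
    (d : R →ₗ[K] K) (hd : ∀ x y, d (x * y) = ψ x * d y + ψ y * d x) (x : R) :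
    (dualPoint ψ d hd x).fst = ψ x := by
  simp [dualPoint]

@[simp] theorem snd_dualPoint {R : Type*} [CommRing R] [Algebra K R] (ψ : R →ₐ[K] K)
    (d : R →ₗ[K] K) (hd : ∀ x y, d (x * y) = ψ x * d y + ψ y * d x) (x : R) :
    (dualPoint ψ d hd x).snd = d x := by
  simp [dualPoint]

theorem fstHom_comp_dualPoint {R : Type*} [CommRing R] [Algebra K R] (ψ : R →ₐ[K] K)
    (d : R →ₗ[K] K) (hd : ∀ x y, d (x * y) = ψ x * d y + ψ y * d x) :
    (TrivSqZeroExt.fstHom K K K).comp (dualPoint ψ d hd) = ψ :=
  AlgHom.ext fun x => fst_dualPoint ψ d hd x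

/-- Leibniz rule for the `ε`-coefficient of a dual-number point. -/
theorem snd_dual_mul {R : Type*} [CommRing R] [Algebra K R] (α : R →ₐ[K] TrivSqZeroExt K K)
    (x y : R) : (α (x * y)).snd = (α x).fst * (α y).snd + (α y).fst * (α x).snd := by
  rw [map_mul, TrivSqZeroExt.snd_mul]
  simp [mul_comm]

end Tangent

section Criterion

variable {K : Type*} [Field K] {B C : Type*} [CommRing B] [CommRing C] [Algebra K B]
  [Algebra K C] [Algebra B C] [IsScalarTower K B C]

/-- Two linear maps out of `T ⊗[B] Ω[B⁄K]` agree if they agree on the elements `1 ⊗ d b`. -/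
theorem ext_tmul_D {T : Type*} [CommRing T] [Algebra B T] {P : Type*} [AddCommGroup P] [Module T P]
    {g g' : T ⊗[B] Ω[B⁄K] →ₗ[T] P}
    (h : ∀ b : B, g ((1 : T) ⊗ₜ[B] D K B b) = g' ((1 : T) ⊗ₜ[B] D K B b)) : g = g' := by
  have key : ∀ m : Ω[B⁄K], g ((1 : T) ⊗ₜ[B] m) = g' ((1 : T) ⊗ₜ[B] m) := by
    intro m
    have hm : m ∈ Submodule.span B (Set.range (D K B)) := by
      rw [KaehlerDifferential.span_range_derivation]; trivial
    induction hm using Submodule.span_induction with
    | mem x hx => obtain ⟨b, rfl⟩ := hx; exact h b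
    | zero => simp
    | add x y _ _ hx hy => rw [TensorProduct.tmul_add, map_add, map_add, hx, hy]
    | smul b x _ hx =>
      have e : (1 : T) ⊗ₜ[B] (b • x) = (algebraMap B T b) • ((1 : T) ⊗ₜ[B] x) := by
        rw [TensorProduct.smul_tmul', ← TensorProduct.smul_tmul, Algebra.smul_def, mul_one,
          smul_eq_mul, mul_one]
      rw [e, map_smul, map_smul, hx]
  refine LinearMap.ext fun z => ?_
  induction z using TensorProduct.induction_on with
  | zero => simp
  | tmul t m =>
    have e : t ⊗ₜ[B] m = t • ((1 : T) ⊗ₜ[B] m) := by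
      rw [TensorProduct.smul_tmul', smul_eq_mul, mul_one]
    rw [e, map_smul, map_smul, key m]
  | add x y hx hy => rw [map_add, map_add, hx, hy]

/-- **Tangent criterion for étaleness at a rational point.**  Let `B → C` be a map of
`K`-algebras essentially of finite type with `C` formally smooth over `K`, and let `χ : C → K`
be a `K`-point.  If composition with `B → C` is a bijection from the dual-number points of `C`
above `χ` onto the dual-number points of `B` above `χ ∘ (B → C)`, then `B → C` is étale at the
prime `ker χ`. -/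
theorem isEtaleAt_of_tangent [Algebra.EssFiniteType K B] [Algebra.EssFiniteType K C]
    [Algebra.FormallySmooth K C] (χ : C →ₐ[K] K)
    (hinj : ∀ α α' : C →ₐ[K] TrivSqZeroExt K K,
      (TrivSqZeroExt.fstHom K K K).comp α = χ → (TrivSqZeroExt.fstHom K K K).comp α' = χ →
      α.comp (IsScalarTower.toAlgHom K B C) = α'.comp (IsScalarTower.toAlgHom K B C) → α = α')
    (hsurj : ∀ β : B →ₐ[K] TrivSqZeroExt K K,
      (TrivSqZeroExt.fstHom K K K).comp β = χ.comp (IsScalarTower.toAlgHom K B C) →
      ∃ α : C →ₐ[K] TrivSqZeroExt K K, (TrivSqZeroExt.fstHom K K K).comp α = χ ∧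
        α.comp (IsScalarTower.toAlgHom K B C) = β)
    (q : Ideal C) [q.IsPrime] (hq : q = RingHom.ker χ) :
    Algebra.FormallyEtale B (Localization.AtPrime q) := by
  classical
  have hunit : ∀ y : q.primeCompl, IsUnit (χ y) := by
    intro y
    refine IsUnit.mk0 _ fun h => y.2 ?_
    have hle : RingHom.ker χ ≤ q := hq.ge
    exact hle h
  let χT : Localization.AtPrime q →ₐ[K] K :=
    IsLocalization.liftAlgHom (M := q.primeCompl) (f := χ) hunit
  have hχT : ∀ c : C, χT (algebraMap C (Localization.AtPrime q) c) = χ c := fun c =>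
    IsLocalization.lift_eq _ c
  let algTK : Algebra (Localization.AtPrime q) K := χT.toRingHom.toAlgebra
  have halg : ∀ t : Localization.AtPrime q, algebraMap (Localization.AtPrime q) K t = χT t :=
    fun t => rfl
  have hsmul : ∀ (t : Localization.AtPrime q) (a : K), t • a = χT t * a := fun t a => rfl
  have : IsScalarTower K (Localization.AtPrime q) K := IsScalarTower.of_algebraMap_eq fun x => by
    rw [halg, AlgHom.commutes]
  have hsurjχ : Function.Surjective (algebraMap (Localization.AtPrime q) K) := fun a =>
    ⟨algebraMap K _ a, by rw [halg, AlgHom.commutes]; rfl⟩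
  have : IsLocalHom (algebraMap (Localization.AtPrime q) K) := .of_surjective _ hsurjχ
  have : IsScalarTower K B (Localization.AtPrime q) := IsScalarTower.of_algebraMap_eq fun x => by
    rw [IsScalarTower.algebraMap_apply B C (Localization.AtPrime q),
      IsScalarTower.algebraMap_apply K C (Localization.AtPrime q),
      IsScalarTower.algebraMap_apply K B C]
  have : Algebra.FormallySmooth C (Localization.AtPrime q) := .of_isLocalization q.primeCompl
  have : Algebra.FormallySmooth K (Localization.AtPrime q) := .comp K C _
  have : Module.Projective (Localization.AtPrime q) Ω[Localization.AtPrime q⁄K] :=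
    ((Algebra.formallySmooth_iff K _).mp inferInstance).1
  apply formallyEtale_of_bijective_mapBaseChange K B (Localization.AtPrime q)
  apply bijective_of_existsUnique_comp (K := K)
  -- the point of `C` attached to a linear form on `Ω[T⁄K]`
  have hleib : ∀ (h : Ω[Localization.AtPrime q⁄K] →ₗ[Localization.AtPrime q] K) (x y : C),
      h (D K _ (algebraMap C (Localization.AtPrime q) (x * y))) =
        χ x * h (D K _ (algebraMap C (Localization.AtPrime q) y)) +
          χ y * h (D K _ (algebraMap C (Localization.AtPrime q) x)) := by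
    intro h x y
    rw [map_mul, Derivation.leibniz, map_add, map_smul, map_smul, hsmul, hsmul, hχT, hχT]
  let dOf : (Ω[Localization.AtPrime q⁄K] →ₗ[Localization.AtPrime q] K) → (C →ₗ[K] K) := fun h =>
    (h.restrictScalars K) ∘ₗ (D K (Localization.AtPrime q)).toLinearMap ∘ₗ
      (IsScalarTower.toAlgHom K C (Localization.AtPrime q)).toLinearMap
  have hdOf : ∀ h c, dOf h c = h (D K _ (algebraMap C (Localization.AtPrime q) c)) :=
    fun h c => rfl
  let ptOf : (Ω[Localization.AtPrime q⁄K] →ₗ[Localization.AtPrime q] K) →
      (C →ₐ[K] TrivSqZeroExt K K) := fun h =>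
    dualPoint χ (dOf h) (fun x y => by rw [hdOf, hdOf, hdOf]; exact hleib h x y)
  have hu : ∀ b : B, KaehlerDifferential.mapBaseChange K B (Localization.AtPrime q)
      ((1 : Localization.AtPrime q) ⊗ₜ[B] D K B b) =
        D K _ (algebraMap C (Localization.AtPrime q) (algebraMap B C b)) := by
    intro b
    rw [KaehlerDifferential.mapBaseChange_tmul, one_smul, KaehlerDifferential.map_D,
      ← IsScalarTower.algebraMap_apply]
  intro g
  -- the derivation of `B` attached to `g`
  have hgleib : ∀ x y : B, g ((1 : Localization.AtPrime q) ⊗ₜ[B] D K B (x * y)) =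
      χ (algebraMap B C x) * g ((1 : Localization.AtPrime q) ⊗ₜ[B] D K B y) +
        χ (algebraMap B C y) * g ((1 : Localization.AtPrime q) ⊗ₜ[B] D K B x) := by
    intro x y
    have e : ∀ (b : B) (m : Ω[B⁄K]), (1 : Localization.AtPrime q) ⊗ₜ[B] (b • m) =
        (algebraMap B (Localization.AtPrime q) b) • ((1 : Localization.AtPrime q) ⊗ₜ[B] m) := by
      intro b m
      rw [TensorProduct.smul_tmul', ← TensorProduct.smul_tmul, Algebra.smul_def, mul_one,
        smul_eq_mul, mul_one]
    rw [Derivation.leibniz, TensorProduct.tmul_add, map_add, e, e, map_smul, map_smul, hsmul,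
      hsmul]
    simp only [IsScalarTower.algebraMap_apply B C (Localization.AtPrime q), hχT]
  let dg : B →ₗ[K] K :=
    { toFun := fun b => g ((1 : Localization.AtPrime q) ⊗ₜ[B] D K B b)
      map_add' := fun x y => by rw [map_add, TensorProduct.tmul_add, map_add]
      map_smul' := fun a x => by
        rw [Algebra.smul_def, hgleib, Derivation.map_algebraMap, TensorProduct.tmul_zero, map_zero,
          mul_zero, add_zero, ← IsScalarTower.algebraMap_apply, AlgHom.commutes]
        rfl }
  have hdg : ∀ b, dg b = g ((1 : Localization.AtPrime q) ⊗ₜ[B] D K B b) := fun b => rfl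
  let β : B →ₐ[K] TrivSqZeroExt K K :=
    dualPoint (χ.comp (IsScalarTower.toAlgHom K B C)) dg (fun x y => by
      rw [hdg, hdg, hdg]; exact hgleib x y)
  obtain ⟨α, hα1, hα2⟩ := hsurj β (fstHom_comp_dualPoint _ _ _)
  have hαfst : ∀ c : C, (α c).fst = χ c := fun c => congrArg (fun φ => φ c) hα1
  -- extend `α` to the localisation
  have hunitα : ∀ y : q.primeCompl, IsUnit (α y) := by
    intro y
    rw [TrivSqZeroExt.isUnit_iff_isUnit_fst, hαfst]
    exact hunit y
  let αT : Localization.AtPrime q →ₐ[K] TrivSqZeroExt K K :=
    IsLocalization.liftAlgHom (M := q.primeCompl) (f := α) hunitα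
  have hαT : ∀ c : C, αT (algebraMap C (Localization.AtPrime q) c) = α c := fun c =>
    IsLocalization.lift_eq _ c
  have hαTfst : ∀ t : Localization.AtPrime q, (αT t).fst = χT t := by
    intro t
    have : ((TrivSqZeroExt.fstHom K K K).comp αT).toRingHom = χT.toRingHom := by
      apply IsLocalization.ringHom_ext q.primeCompl
      ext c
      simp only [AlgHom.toRingHom_eq_coe, RingHom.coe_comp, RingHom.coe_coe, AlgHom.coe_comp,
        Function.comp_apply, hαT, hχT]
      exact hαfst c
    exact congrArg (fun φ : Localization.AtPrime q →+* K => φ t) this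
  let d' : Derivation K (Localization.AtPrime q) K :=
    { toLinearMap := (TrivSqZeroExt.sndHom K K) ∘ₗ αT.toLinearMap
      map_one_eq_zero' := by simp
      leibniz' := fun a b => by
        simp only [LinearMap.coe_comp, Function.comp_apply, AlgHom.toLinearMap_apply,
          TrivSqZeroExt.sndHom_apply]
        rw [snd_dual_mul, hαTfst, hαTfst, hsmul, hsmul] }
  have hd' : ∀ t, d' t = (αT t).snd := fun t => rfl
  have hex : d'.liftKaehlerDifferential ∘ₗ
      KaehlerDifferential.mapBaseChange K B (Localization.AtPrime q) = g := by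
    apply ext_tmul_D
    intro b
    rw [LinearMap.comp_apply, hu, Derivation.liftKaehlerDifferential_comp_D, hd', hαT]
    have := congrArg (fun φ : B →ₐ[K] TrivSqZeroExt K K => (φ b).snd) hα2
    simp only [AlgHom.coe_comp, Function.comp_apply, IsScalarTower.coe_toAlgHom'] at this
    rw [this]
    exact snd_dualPoint _ _ _ b
  refine ⟨d'.liftKaehlerDifferential, hex, ?_⟩
  intro h' hh'
  -- uniqueness
  have hcomp : ∀ (h₁ h₂ : Ω[Localization.AtPrime q⁄K] →ₗ[Localization.AtPrime q] K),
      h₁ ∘ₗ KaehlerDifferential.mapBaseChange K B (Localization.AtPrime q) =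
        h₂ ∘ₗ KaehlerDifferential.mapBaseChange K B (Localization.AtPrime q) → h₁ = h₂ := by
    intro h₁ h₂ h12
    have hpt : ptOf h₁ = ptOf h₂ := by
      apply hinj _ _ (fstHom_comp_dualPoint _ _ _) (fstHom_comp_dualPoint _ _ _)
      refine AlgHom.ext fun b => ?_
      apply TrivSqZeroExt.ext
      · simp only [AlgHom.coe_comp, Function.comp_apply, IsScalarTower.coe_toAlgHom']
        rw [fst_dualPoint, fst_dualPoint]
      · simp only [AlgHom.coe_comp, Function.comp_apply, IsScalarTower.coe_toAlgHom']
        rw [snd_dualPoint, snd_dualPoint, hdOf, hdOf, ← hu]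
        exact LinearMap.congr_fun h12 _
    apply LinearMap.ext_on
      (KaehlerDifferential.span_range_map_derivation_of_isLocalization K C
        (Localization.AtPrime q) q.primeCompl)
    rintro _ ⟨c, rfl⟩
    have := congrArg (fun φ : C →ₐ[K] TrivSqZeroExt K K => (φ c).snd) hpt
    simp only [ptOf, snd_dualPoint, hdOf] at this
    simpa [KaehlerDifferential.map_D] using this
  exact hcomp _ _ (hh'.trans hex.symm)

end Criterion

end Fermat.Agent.S26.helper1321
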