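import Mathlib
import Fermat.Agent.S26.helper1321_TangentAlg

/-!
# S26, leaf M6-TAN, piece (TAN-C) (helper2320): the tangent criterion for étaleness, scheme form

Scheme adapter around `helper1321.isEtaleAt_of_tangent`: a morphism `φ : X ⟶ Y` of `K`-schemes
with `X` smooth over `K` and `Y` locally of finite type over `K`, which is bijective on
dual-number points over a rational point `x₀` of `X`, is étale on an open neighbourhood of `x₀`.
-/

set_option autoImplicit false

universe u

noncomputable section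

open CategoryTheory CategoryTheory.Limits AlgebraicGeometry TopologicalSpace

namespace Fermat.Agent.S26.helper2320

section Dual

variable (K : Type u) [Field K]

/-- The spectrum of the dual numbers `K[ε]`. -/
abbrev dualSpec : Scheme.{u} := Spec (CommRingCat.of (TrivSqZeroExt K K))

/-- The structure morphism `Spec K[ε] ⟶ Spec K`. -/
abbrev dualToBase : dualSpec K ⟶ Spec (CommRingCat.of K) :=
  Spec.map (CommRingCat.ofHom (algebraMap K (TrivSqZeroExt K K)))

/-- The closed point `Spec K ⟶ Spec K[ε]` (given by `ε ↦ 0`). -/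
abbrev baseToDual : Spec (CommRingCat.of K) ⟶ dualSpec K :=
  Spec.map (CommRingCat.ofHom (TrivSqZeroExt.fstHom K K K).toRingHom)

theorem baseToDual_dualToBase : baseToDual K ≫ dualToBase K = 𝟙 _ := by
  rw [← Spec.map_comp, ← Spec.map_id]
  congr 1

/-- The closed point of `Spec K[ε]` is its only point. -/
theorem baseToDual_surjective : Function.Surjective (baseToDual K).base := by
  intro p
  have hp : p ∈ Set.range (PrimeSpectrum.comap (TrivSqZeroExt.fstHom K K K).toRingHom) := by
    rw [range_comap_of_surjective _ _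
      (fun a => ⟨TrivSqZeroExt.inl a, by simp⟩)]
    intro z hz
    have hz' : z.fst = 0 := hz
    have h2 : z * z = 0 := by
      apply TrivSqZeroExt.ext <;> simp [hz']
    have : z * z ∈ p.asIdeal := by rw [h2]; exact zero_mem _
    exact (p.2.mem_or_mem this).elim id id
  obtain ⟨q, hq⟩ := hp
  exact ⟨q, hq⟩

end Dual

section Chart

variable {X : Scheme.{u}} {U : X.Opens}

/-- A morphism from an affine scheme whose image lies in the affine open `U` factors through
`Spec Γ(X, U)`. -/
theorem exists_eq_specMap_comp_fromSpec (hU : IsAffineOpen U) {R : CommRingCat.{u}}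
    (v : Spec R ⟶ X) (hv : Set.range v.base ⊆ (U : Set X)) :
    ∃ a : Γ(X, U) ⟶ R, v = Spec.map a ≫ hU.fromSpec := by
  have hr : Set.range v.base ⊆ Set.range hU.fromSpec.base := by
    rw [hU.range_fromSpec]; exact hv
  refine ⟨Spec.preimage (IsOpenImmersion.lift hU.fromSpec v hr), ?_⟩
  rw [Spec.map_preimage, IsOpenImmersion.lift_fac]

/-- The factorisation through `Spec Γ(X, U)` is unique. -/
theorem eq_of_specMap_comp_fromSpec_eq (hU : IsAffineOpen U) {R : CommRingCat.{u}}
    {a a' : Γ(X, U) ⟶ R} (h : Spec.map a ≫ hU.fromSpec = Spec.map a' ≫ hU.fromSpec) : a = a' :=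
  Spec.map_injective ((cancel_mono hU.fromSpec).mp h)

end Chart

section Main

variable {K : Type u} [Field K] {X Y : Scheme.{u}}

/-- A dual-number point of `X` over the rational point `x₀` has the same image as `x₀`. -/
theorem range_dualPoint_eq (x₀ : Spec (CommRingCat.of K) ⟶ X) (v : dualSpec K ⟶ X)
    (hv : baseToDual K ≫ v = x₀) : Set.range v.base = Set.range x₀.base := by
  rw [← hv]
  ext z
  constructor
  · rintro ⟨a, rfl⟩
    obtain ⟨b, rfl⟩ := baseToDual_surjective K a
    exact ⟨b, by simp⟩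
  · rintro ⟨b, rfl⟩
    exact ⟨(baseToDual K).base b, by simp⟩

/-- **(TAN-C), the tangent criterion for étaleness at a rational point.**  Let `x : X ⟶ Spec K`
be smooth, `y : Y ⟶ Spec K` locally of finite type, `φ : X ⟶ Y` a `K`-morphism and `x₀` a
`K`-point of `X`.  If composition with `φ` is a bijection from the dual-number points of `X` over
`x₀` onto the dual-number points of `Y` over `x₀ ≫ φ`, then `φ` is étale on an open neighbourhood
of `x₀`. -/
theorem exists_etale_open_of_tangent_bijective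
    (x : X ⟶ Spec (CommRingCat.of K)) (y : Y ⟶ Spec (CommRingCat.of K))
    [Smooth x] [LocallyOfFiniteType y] (φ : X ⟶ Y) (hφ : φ ≫ y = x)
    (x₀ : Spec (CommRingCat.of K) ⟶ X) (hx₀ : x₀ ≫ x = 𝟙 _)
    (hinj : ∀ v w : dualSpec K ⟶ X, v ≫ x = dualToBase K → w ≫ x = dualToBase K →
      baseToDual K ≫ v = x₀ → baseToDual K ≫ w = x₀ → v ≫ φ = w ≫ φ → v = w)
    (hsurj : ∀ w : dualSpec K ⟶ Y, w ≫ y = dualToBase K → baseToDual K ≫ w = x₀ ≫ φ →
      ∃ v : dualSpec K ⟶ X, v ≫ x = dualToBase K ∧ baseToDual K ≫ v = x₀ ∧ v ≫ φ = w) :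
    ∃ U : X.Opens, Set.range x₀.base ⊆ (U : Set X) ∧ Etale (U.ι ≫ φ) := by
  classical
  obtain ⟨s⟩ : Nonempty ↥(Spec (CommRingCat.of K)) := inferInstance
  have hs : ∀ s' : ↥(Spec (CommRingCat.of K)), s' = s := fun s' => Subsingleton.elim _ _
  -- affine charts
  obtain ⟨_, ⟨V, hV, rfl⟩, hpV, -⟩ :=
    Y.isBasis_affineOpens.exists_subset_of_mem_open (Set.mem_univ (φ.base (x₀.base s))) isOpen_univ
  replace hV : IsAffineOpen V := hV
  obtain ⟨_, ⟨U, hU, rfl⟩, hpU, hUV⟩ :=
    X.isBasis_affineOpens.exists_subset_of_mem_open hpV (V.2.preimage φ.continuous)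
  replace hU : IsAffineOpen U := hU
  have hrange : Set.range x₀.base ⊆ (U : Set X) := by
    rintro _ ⟨s', rfl⟩
    rw [hs s']; exact hpU
  -- the ring maps
  let ψC : CommRingCat.of K ⟶ Γ(X, U) := Spec.preimage (hU.fromSpec ≫ x)
  have hψC : Spec.map ψC = hU.fromSpec ≫ x := Spec.map_preimage _
  let ψB : CommRingCat.of K ⟶ Γ(Y, V) := Spec.preimage (hV.fromSpec ≫ y)
  have hψB : Spec.map ψB = hV.fromSpec ≫ y := Spec.map_preimage _
  let φa : Γ(Y, V) ⟶ Γ(X, U) := φ.appLE V U hUV
  have hφa : Spec.map φa ≫ hV.fromSpec = hU.fromSpec ≫ φ :=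
    IsAffineOpen.SpecMap_appLE_fromSpec φ hV hU hUV
  have hcomp : ψB ≫ φa = ψC := by
    apply Spec.map_injective
    rw [Spec.map_comp, hψB, ← Category.assoc, hφa, Category.assoc, hφ, hψC]
  -- the rational point
  obtain ⟨χr, hχr⟩ := exists_eq_specMap_comp_fromSpec hU x₀ hrange
  have hχψ : ψC ≫ χr = 𝟙 _ := by
    apply Spec.map_injective
    rw [Spec.map_comp, hψC, ← Category.assoc, ← hχr, hx₀, Spec.map_id]
  -- algebra structures
  let algC : Algebra K Γ(X, U) := ψC.hom.toAlgebra
  let algB : Algebra K Γ(Y, V) := ψB.hom.toAlgebra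
  let algBC : Algebra Γ(Y, V) Γ(X, U) := φa.hom.toAlgebra
  have : IsScalarTower K Γ(Y, V) Γ(X, U) := IsScalarTower.of_algebraMap_eq' (by
    show ψC.hom = φa.hom.comp ψB.hom
    rw [← hcomp]; rfl)
  have smC : Algebra.Smooth K Γ(X, U) := by
    have h1 : Smooth (Spec.map ψC) := by rw [hψC]; infer_instance
    exact (HasRingHomProperty.Spec_iff (P := @Smooth)).mp h1
  have ftB : Algebra.FiniteType K Γ(Y, V) := by
    have h1 : LocallyOfFiniteType (Spec.map ψB) := by rw [hψB]; infer_instance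
    exact (HasRingHomProperty.Spec_iff (P := @LocallyOfFiniteType)).mp h1
  have fpBC : Algebra.FinitePresentation Γ(Y, V) Γ(X, U) :=
    Algebra.FinitePresentation.of_restrict_scalars_finitePresentation K _ _
  let χ : Γ(X, U) →ₐ[K] K :=
    { χr.hom with
      commutes' := fun a => by
        have h := congrArg (fun f => f.hom a) hχψ
        exact h }
  have hχ : ∀ c, χ c = χr.hom c := fun c => rfl
  -- dictionary between ring maps to the dual numbers and dual-number points
  have hbase : ∀ a : Γ(X, U) ⟶ CommRingCat.of (TrivSqZeroExt K K),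
      ψC ≫ a = CommRingCat.ofHom (algebraMap K (TrivSqZeroExt K K)) →
      (Spec.map a ≫ hU.fromSpec) ≫ x = dualToBase K := by
    intro a ha
    rw [Category.assoc, ← hψC, ← Spec.map_comp, ha]
  have hbase' : ∀ a : Γ(X, U) ⟶ CommRingCat.of (TrivSqZeroExt K K),
      (Spec.map a ≫ hU.fromSpec) ≫ x = dualToBase K →
      ψC ≫ a = CommRingCat.ofHom (algebraMap K (TrivSqZeroExt K K)) := by
    intro a ha
    apply Spec.map_injective
    rw [Spec.map_comp, hψC, ← Category.assoc]
    exact ha
  have hpt : ∀ a : Γ(X, U) ⟶ CommRingCat.of (TrivSqZeroExt K K),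
      baseToDual K ≫ Spec.map a ≫ hU.fromSpec = x₀ ↔
        a ≫ CommRingCat.ofHom (TrivSqZeroExt.fstHom K K K).toRingHom = χr := by
    intro a
    rw [hχr, ← Category.assoc, ← Spec.map_comp]
    constructor
    · exact fun h => eq_of_specMap_comp_fromSpec_eq hU h
    · intro h; rw [h]
  have hmap : ∀ a : Γ(X, U) ⟶ CommRingCat.of (TrivSqZeroExt K K),
      (Spec.map a ≫ hU.fromSpec) ≫ φ = Spec.map (φa ≫ a) ≫ hV.fromSpec := by
    intro a
    rw [Category.assoc, ← hφa, ← Category.assoc, ← Spec.map_comp]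
  have hinj' : ∀ α α' : Γ(X, U) →ₐ[K] TrivSqZeroExt K K,
      (TrivSqZeroExt.fstHom K K K).comp α = χ → (TrivSqZeroExt.fstHom K K K).comp α' = χ →
      α.comp (IsScalarTower.toAlgHom K Γ(Y, V) Γ(X, U)) =
        α'.comp (IsScalarTower.toAlgHom K Γ(Y, V) Γ(X, U)) → α = α' := by
    intro α α' h1 h2 h3
    have e := hinj (Spec.map (CommRingCat.ofHom α.toRingHom) ≫ hU.fromSpec)
      (Spec.map (CommRingCat.ofHom α'.toRingHom) ≫ hU.fromSpec)
      (hbase _ (CommRingCat.hom_ext (RingHom.ext fun a => α.commutes a)))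
      (hbase _ (CommRingCat.hom_ext (RingHom.ext fun a => α'.commutes a)))
      ((hpt _).mpr (CommRingCat.hom_ext (RingHom.ext fun c => congrArg (fun f => f c) h1)))
      ((hpt _).mpr (CommRingCat.hom_ext (RingHom.ext fun c => congrArg (fun f => f c) h2)))
      (by
        rw [hmap, hmap]
        congr 2
        exact CommRingCat.hom_ext (RingHom.ext fun b => congrArg (fun f => f b) h3))
    have e' := eq_of_specMap_comp_fromSpec_eq hU e
    exact AlgHom.ext fun c => congrArg (fun f => f.hom c) e'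
  have hsurj' : ∀ β : Γ(Y, V) →ₐ[K] TrivSqZeroExt K K,
      (TrivSqZeroExt.fstHom K K K).comp β = χ.comp (IsScalarTower.toAlgHom K Γ(Y, V) Γ(X, U)) →
      ∃ α : Γ(X, U) →ₐ[K] TrivSqZeroExt K K, (TrivSqZeroExt.fstHom K K K).comp α = χ ∧
        α.comp (IsScalarTower.toAlgHom K Γ(Y, V) Γ(X, U)) = β := by
    intro β hβ
    have hw1 : (Spec.map (CommRingCat.ofHom β.toRingHom) ≫ hV.fromSpec) ≫ y = dualToBase K := by
      rw [Category.assoc, ← hψB, ← Spec.map_comp]
      congr 1
      exact CommRingCat.hom_ext (RingHom.ext fun r => β.commutes r)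
    have hw2 : baseToDual K ≫ Spec.map (CommRingCat.ofHom β.toRingHom) ≫ hV.fromSpec =
        x₀ ≫ φ := by
      rw [hχr, Category.assoc, ← hφa, ← Category.assoc, ← Category.assoc, ← Spec.map_comp,
        ← Spec.map_comp]
      congr 2
      exact CommRingCat.hom_ext (RingHom.ext fun b => congrArg (fun f => f b) hβ)
    obtain ⟨v, hv1, hv2, hv3⟩ := hsurj _ hw1 hw2
    obtain ⟨a, rfl⟩ := exists_eq_specMap_comp_fromSpec hU v
      (by rw [range_dualPoint_eq x₀ v hv2]; exact hrange)
    have ha1 := hbase' a hv1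
    have ha2 := (hpt a).mp hv2
    have ha3 : φa ≫ a = CommRingCat.ofHom β.toRingHom := by
      apply eq_of_specMap_comp_fromSpec_eq hV
      rw [← hmap]; exact hv3
    refine ⟨{ a.hom with commutes' := fun r => congrArg (fun f => f.hom r) ha1 }, ?_, ?_⟩
    · exact AlgHom.ext fun c => congrArg (fun f => f.hom c) ha2
    · exact AlgHom.ext fun b => congrArg (fun f => f.hom b) ha3
  let q : Ideal Γ(X, U) := RingHom.ker χ
  have hqp : q.IsPrime := RingHom.ker_isPrime χ
  have hEt : Algebra.IsEtaleAt Γ(Y, V) q :=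
    helper1321.isEtaleAt_of_tangent χ hinj' hsurj' q rfl
  obtain ⟨f, hfq, hf⟩ := Algebra.exists_etale_of_isEtaleAt (R := Γ(Y, V)) q
  refine ⟨X.basicOpen f, ?_, ?_⟩
  · rintro _ ⟨s', rfl⟩
    have hmem : (Spec.map χr).base s' ∈ hU.fromSpec ⁻¹ᵁ X.basicOpen f := by
      rw [hU.fromSpec_preimage_basicOpen]
      intro hfs
      apply hfq
      have : s'.asIdeal.IsPrime := s'.2
      have hbot : s'.asIdeal = ⊥ := Ideal.eq_bot_of_prime _
      have h0 : χr.hom f ∈ s'.asIdeal := hfs
      rw [hbot, Ideal.mem_bot] at h0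
      exact h0
    rw [hχr]
    exact hmem
  · have hU' : IsAffineOpen (X.basicOpen f) := hU.basicOpen f
    have hle : X.basicOpen f ≤ φ ⁻¹ᵁ V := (X.basicOpen_le f).trans hUV
    have key : (φ.appLE V (X.basicOpen f) hle).hom.Etale := by
      have := hU.isLocalization_basicOpen f
      rw [← RingHom.etale_algebraMap] at hf
      convert!
        RingHom.Etale.propertyIsLocal.respectsIso.1 _
          (IsLocalization.algEquiv (.powers f) _ Γ(X, X.basicOpen f)).toRingEquiv hf
      ext b
      dsimp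
      simp only [IsScalarTower.algebraMap_apply Γ(Y, V) Γ(X, U) (Localization _)]
      rw [AlgEquiv.commutes]
      exact (congrArg (fun g => g.hom b)
        (φ.appLE_map hUV (homOfLE (X.basicOpen_le f)).op)).symm
    have h1 : Etale (Spec.map (φ.appLE V (X.basicOpen f) hle)) :=
      (HasRingHomProperty.Spec_iff (P := @Etale)).mpr key
    have h2 : (X.basicOpen f).ι ≫ φ =
        hU'.isoSpec.hom ≫ Spec.map (φ.appLE V (X.basicOpen f) hle) ≫ hV.fromSpec := by
      rw [IsAffineOpen.SpecMap_appLE_fromSpec φ hV hU' hle, ← Category.assoc, ← hU'.isoSpec_inv_ι,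
        Iso.hom_inv_id_assoc]
    rw [h2]
    infer_instance

/-- Variant of `exists_etale_open_of_tangent_bijective` recording only that the open set is
nonempty (the form consumed by "étale on a nonempty open ⟹ dominant and separable"). -/
theorem exists_etale_nonempty_open_of_tangent_bijective
    (x : X ⟶ Spec (CommRingCat.of K)) (y : Y ⟶ Spec (CommRingCat.of K))
    [Smooth x] [LocallyOfFiniteType y] (φ : X ⟶ Y) (hφ : φ ≫ y = x)
    (x₀ : Spec (CommRingCat.of K) ⟶ X) (hx₀ : x₀ ≫ x = 𝟙 _)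
    (hinj : ∀ v w : dualSpec K ⟶ X, v ≫ x = dualToBase K → w ≫ x = dualToBase K →
      baseToDual K ≫ v = x₀ → baseToDual K ≫ w = x₀ → v ≫ φ = w ≫ φ → v = w)
    (hsurj : ∀ w : dualSpec K ⟶ Y, w ≫ y = dualToBase K → baseToDual K ≫ w = x₀ ≫ φ →
      ∃ v : dualSpec K ⟶ X, v ≫ x = dualToBase K ∧ baseToDual K ≫ v = x₀ ∧ v ≫ φ = w) :
    ∃ U : X.Opens, (U : Set X).Nonempty ∧ Etale (U.ι ≫ φ) := by
  obtain ⟨U, hU, hE⟩ := exists_etale_open_of_tangent_bijective x y φ hφ x₀ hx₀ hinj hsurj
  obtain ⟨s⟩ : Nonempty ↥(Spec (CommRingCat.of K)) := inferInstance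
  exact ⟨U, ⟨x₀.base s, hU ⟨s, rfl⟩⟩, hE⟩

end Main

end Fermat.Agent.S26.helper2320
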