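import Fermat.Agent.S26.helper752_Tangent
import Fermat.Agent.S26.helper2320_EtaleAtPoint

/-!
# S26, leaf M6-TAN: `Stmt_TanCrit` (helper2320)

The scheme-level tangent criterion `helper2320.exists_etale_open_of_tangent_bijective`, in the
`Prop` shape `helper752.Stmt_TanCrit` consumed by the M6-TAN assembly of helper752.
-/

set_option autoImplicit false

universe u

open CategoryTheory AlgebraicGeometry

namespace Fermat.Agent.S26.helper2320

/-- **(TAN-C)** in the shape of `helper752.Stmt_TanCrit`. -/
theorem stmt_TanCrit : helper752.Stmt_TanCrit.{u} := by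
  intro K _ X Y x y _ _ φ hφ x₀ hx₀ hinj hsurj
  exact exists_etale_open_of_tangent_bijective x y φ hφ x₀ hx₀ hinj hsurj

end Fermat.Agent.S26.helper2320
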