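import Fermat.Agent.S26.helper752_Tangent
import Fermat.Agent.S26.helper4836_ProdX
import Fermat.Agent.S26.helper2320_TanCrit

/-!
# S26, root `Stmt_FramePos` (integrator helper752): the frame of curves

Hypothesis-passing wiring of the M6 chain:

* `Stmt_TanCrit` (file `helper752_Tangent.lean`; leaf (TAN-C), owner helper2320, algebra core
  `helper1321.isEtaleAt_of_tangent`): a `K`-morphism from a smooth `K`-scheme which is bijective
  on tangent vectors (`K[ε]`-points) at a `K`-point is étale on an open neighbourhood.
* `Stmt_TanFrame` (this file; leaf M6-ASM = M6c-CHART + M6c-COMPACT + additivity (T2)): on an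
  abelian variety of dimension `g > 0` there is a list of `g` pointed curves which is a tangent
  frame (`IsFrame`, file `helper752_Tangent.lean`).

`stmt_FramePos : Stmt_TanCrit → Stmt_TanFrame → helper154.Stmt_FramePos`, and the weighted
version `stmt_FrameK` for the D5 track. `Stmt_TanCrit` is proved in `helper2320_TanCrit.lean`, so
`stmt_FramePos_of_tanFrame : Stmt_TanFrame → helper154.Stmt_FramePos`.
-/

set_option autoImplicit false

universe u

noncomputable section

open CategoryTheory CategoryTheory.Limits AlgebraicGeometry NeronModelInfra GoodReductionJacobian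

namespace Fermat.Agent.S26.helper752

open Fermat.Agent.S26.helper154

/-- M6-ASM: on an abelian variety of dimension `g > 0` there is a tangent frame of `g` pointed
smooth proper curves through the origin. -/
def Stmt_TanFrame : Prop :=
  ∀ (K : Type u) [Field K] {A : Scheme.{u}} (f : A ⟶ Spec (CommRingCat.of K))
    (L : RelativeGroupLaw K f) (g : ℕ) [IsIntegral A], IsAbVar K f L g → 0 < g →
    ∃ l : List (PCurve K f L), l.length = g ∧ IsFrame L l

/-- The weighted version of `Stmt_FramePos` (for the D5 track): every weighted sum map with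
weights invertible in `K` is dominant and generically finite separable. -/
def Stmt_FrameK : Prop :=
  ∀ (K : Type u) [Field K] {A : Scheme.{u}} (f : A ⟶ Spec (CommRingCat.of K))
    (L : RelativeGroupLaw K f) (g : ℕ) [IsIntegral A], IsAbVar K f L g → 0 < g →
    ∃ l : List (PCurve K f L), l.length = g ∧ ∃ (_ : IsIntegral (prodX l).1),
      ∀ a : ℕ → ℤ, (∀ i, i < g → ((a i : ℤ) : K) ≠ 0) →
        ∃ δ : ℕ, 0 < δ ∧ IsSepDom (wsum L l a).1 δ

theorem stmt_FrameK (hcrit : Stmt_TanCrit.{u}) (hframe : Stmt_TanFrame.{u}) :
    Stmt_FrameK.{u} := by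
  intro K _ A f L g _ hA hg
  obtain ⟨l, hl, hF⟩ := hframe K f L g hA hg
  haveI := hA.algClosed
  haveI : IsIntegral (prodX l).1 := helper4836.isIntegral_prodX l
  haveI : LocallyOfFiniteType f := by
    haveI := hA.smooth
    haveI : Smooth f := SmoothOfRelativeDimension.smooth g f
    infer_instance
  refine ⟨l, hl, ‹_›, fun a ha => ?_⟩
  exact exists_isSepDom_wsum hcrit l hF a (fun i hi => ha i (hl ▸ hi))

/-- **Root `Stmt_FramePos`**, from the tangent criterion and the tangent frame. -/
theorem stmt_FramePos (hcrit : Stmt_TanCrit.{u}) (hframe : Stmt_TanFrame.{u}) :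
    helper154.Stmt_FramePos.{u} := by
  intro K _ A f L g _ hA hg
  obtain ⟨l, hl, hI, h⟩ := stmt_FrameK hcrit hframe K f L g hA hg
  obtain ⟨δ, -, hδ⟩ := h (fun _ => 1) (fun _ _ => by simp)
  exact ⟨l, hl, hI, δ, hδ⟩

/-- `Stmt_FrameK` from the tangent frame alone (`Stmt_TanCrit` is `helper2320.stmt_TanCrit`). -/
theorem stmt_FrameK_of_tanFrame (hframe : Stmt_TanFrame.{u}) : Stmt_FrameK.{u} :=
  stmt_FrameK helper2320.stmt_TanCrit hframe

/-- **Root `Stmt_FramePos`** from the tangent frame alone (`Stmt_TanCrit` is
`helper2320.stmt_TanCrit`). -/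
theorem stmt_FramePos_of_tanFrame (hframe : Stmt_TanFrame.{u}) : helper154.Stmt_FramePos.{u} :=
  stmt_FramePos helper2320.stmt_TanCrit hframe

end Fermat.Agent.S26.helper752
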