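import Mathlib

/-!
# S26 / M8a : lower growth bound, algebra core  (helper601)

* `algebraicIndependent_of_linearParts` (ALGIND): power series `F i ∈ K[[T_σ]]` (`σ` finite) with
  zero constant term and `K`-linearly independent linear parts are algebraically independent
  over `K`.
* `algebraicIndependent_of_algHom`, `algebraicIndependent_of_cotangent` (ALGIND-O): adapters for
  elements of a `K`-algebra `O` with a `K`-algebra map `O → K[[T_σ]]` (the Taylor map).
* `choose_le_finrank`, `pow_le_finrank_box` (MONO): for a multiplicative filtration `V` of a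
  `K`-algebra by `K`-subspaces and algebraically independent `t_1..t_g ∈ V a`, the monomials give
  `choose (k + g) g ≤ finrank (V (k * a))` and `(j + 1) ^ g ≤ finrank (V (g * j * a))`.
-/

set_option autoImplicit false

namespace Fermat.Agent.S26.helper601

open MvPowerSeries

section AlgInd

variable {K : Type*} [Field K] {σ ι : Type*}

theorem homogeneousComponent_zero_C (c : K) :
    homogeneousComponent 0 (MvPowerSeries.C (σ := σ) c) = MvPowerSeries.C c := by
  classical
  ext d
  rw [coeff_homogeneousComponent, coeff_C]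
  by_cases hd : d = 0
  · subst hd; simp
  · rw [if_neg hd]
    split_ifs <;> rfl

theorem homogeneousComponent_pow_of_constantCoeff_eq_zero (f : MvPowerSeries σ K)
    (hf : constantCoeff f = 0) (b : ℕ) :
    homogeneousComponent b (f ^ b) = (homogeneousComponent 1 f) ^ b := by
  induction b with
  | zero =>
    rw [pow_zero, pow_zero]
    have := homogeneousComponent_zero_C (σ := σ) (1 : K)
    simpa using this
  | succ b ih =>
    rw [pow_succ, pow_succ, ← ih]
    exact homogeneousComponent_mul_of_le_order (le_order_pow_of_constantCoeff_eq_zero b hf)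
      (by exact_mod_cast one_le_order_iff_constCoeff_eq_zero.mpr hf)

/-- Monomial case: the image of a monomial of degree `e` under `Y_i ↦ F_i` has order `≥ e`, and
its degree-`e` component is the monomial evaluated at the linear parts. -/
theorem aeval_monomial_order_and_component (F : ι → MvPowerSeries σ K)
    (h0 : ∀ i, constantCoeff (F i) = 0) (α : ι →₀ ℕ) (c : K) :
    ((Finsupp.degree α : ℕ) : ℕ∞) ≤ order (MvPolynomial.aeval F (MvPolynomial.monomial α c)) ∧
      homogeneousComponent (Finsupp.degree α) (MvPolynomial.aeval F (MvPolynomial.monomial α c)) =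
        MvPolynomial.aeval (fun i => homogeneousComponent 1 (F i)) (MvPolynomial.monomial α c) := by
  classical
  induction α using Finsupp.induction with
  | zero =>
    have h1 : MvPolynomial.monomial (0 : ι →₀ ℕ) c = MvPolynomial.C c := rfl
    rw [h1, MvPolynomial.aeval_C, MvPolynomial.aeval_C]
    refine ⟨by simp, ?_⟩
    have h2 : algebraMap K (MvPowerSeries σ K) c = MvPowerSeries.C c := rfl
    rw [h2]
    simpa using homogeneousComponent_zero_C (σ := σ) c
  | single_add i b β hi hb ih =>
    obtain ⟨ih1, ih2⟩ := ih
    have e1 : MvPolynomial.aeval F (MvPolynomial.monomial (Finsupp.single i b + β) c) =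
        F i ^ b * MvPolynomial.aeval F (MvPolynomial.monomial β c) := by
      rw [MvPolynomial.monomial_single_add, map_mul, map_pow, MvPolynomial.aeval_X]
    have e2 : MvPolynomial.aeval (fun i => homogeneousComponent 1 (F i))
        (MvPolynomial.monomial (Finsupp.single i b + β) c) =
        (homogeneousComponent 1 (F i)) ^ b *
          MvPolynomial.aeval (fun i => homogeneousComponent 1 (F i)) (MvPolynomial.monomial β c) := by
      rw [MvPolynomial.monomial_single_add, map_mul, map_pow, MvPolynomial.aeval_X]
    have e3 : Finsupp.degree (Finsupp.single i b + β) = b + Finsupp.degree β := by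
      rw [map_add, Finsupp.degree_single]
    rw [e1, e2, e3]
    have hb' : (b : ℕ∞) ≤ order (F i ^ b) := le_order_pow_of_constantCoeff_eq_zero b (h0 i)
    refine ⟨?_, ?_⟩
    · calc ((b + Finsupp.degree β : ℕ) : ℕ∞) = (b : ℕ∞) + (Finsupp.degree β : ℕ) := by push_cast; rfl
        _ ≤ order (F i ^ b) + order (MvPolynomial.aeval F (MvPolynomial.monomial β c)) :=
          add_le_add hb' ih1
        _ ≤ _ := le_order_mul
    · rw [homogeneousComponent_mul_of_le_order hb' ih1, ih2,
        homogeneousComponent_pow_of_constantCoeff_eq_zero _ (h0 i)]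

/-- An exponent of degree one is a unit vector. -/
theorem exists_eq_single_of_degree_eq_one (d : σ →₀ ℕ) (hd : Finsupp.degree d = 1) :
    ∃ s, d = Finsupp.single s 1 := by
  classical
  have hne : d ≠ 0 := by
    rintro rfl
    simp at hd
  obtain ⟨s, hs⟩ := Finsupp.ne_iff.mp hne
  refine ⟨s, ?_⟩
  have hs1 : 1 ≤ d s := Nat.one_le_iff_ne_zero.mpr (by simpa using hs)
  have hle : Finsupp.single s 1 ≤ d := by
    intro x
    by_cases hx : x = s
    · subst hx; simpa using hs1
    · simp [Ne.symm hx]
  have hsplit : d = Finsupp.single s 1 + (d - Finsupp.single s 1) := (add_tsub_cancel_of_le hle).symm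
  have hdeg : Finsupp.degree (d - Finsupp.single s 1) = 0 := by
    have := congrArg Finsupp.degree hsplit
    rw [map_add, Finsupp.degree_single, hd] at this
    omega
  have hz : d - Finsupp.single s 1 = 0 := (Finsupp.degree_eq_zero_iff _).mp hdeg
  rw [hz, add_zero] at hsplit
  exact hsplit

/-- The linear part of a power series in finitely many variables, as a coerced polynomial. -/
theorem coe_linearForm_eq_homogeneousComponent_one [Fintype σ] (f : MvPowerSeries σ K) :
    ((∑ s, coeff (Finsupp.single s 1) f • (MvPolynomial.X s : MvPolynomial σ K) :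
        MvPolynomial σ K) : MvPowerSeries σ K) = homogeneousComponent 1 f := by
  classical
  ext d
  rw [MvPolynomial.coeff_coe, coeff_homogeneousComponent, MvPolynomial.coeff_sum]
  simp only [MvPolynomial.coeff_smul, MvPolynomial.coeff_X, smul_eq_mul, mul_ite, mul_one,
    mul_zero]
  by_cases hd : Finsupp.degree d = 1
  · obtain ⟨s0, rfl⟩ := exists_eq_single_of_degree_eq_one d hd
    rw [if_pos hd, Finset.sum_eq_single s0]
    · simp
    · intro s _ hs
      rw [if_neg]
      intro h
      exact hs (Finsupp.single_left_injective one_ne_zero h)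
    · intro h; exact absurd (Finset.mem_univ s0) h
  · rw [if_neg hd]
    apply Finset.sum_eq_zero
    intro s _
    rw [if_neg]
    rintro rfl
    exact hd (Finsupp.degree_single s 1)

/-- Linearly independent linear forms are algebraically independent. -/
theorem algebraicIndependent_linearForms [Fintype σ] (a : ι → σ → K)
    (ha : LinearIndependent K a) :
    AlgebraicIndependent K
      (fun i => ∑ s, a i s • (MvPolynomial.X s : MvPolynomial σ K)) := by
  classical
  have hAinj : Function.Injective (Finsupp.linearCombination K a) := ha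
  obtain ⟨r, hr⟩ := (Finsupp.linearCombination K a).exists_leftInverse_of_injective
    (LinearMap.ker_eq_bot.mpr hAinj)
  let lam : (ι →₀ K) →ₗ[K] MvPolynomial ι K :=
    Finsupp.linearCombination K (MvPolynomial.X : ι → MvPolynomial ι K)
  let ρ : MvPolynomial σ K →ₐ[K] MvPolynomial ι K :=
    MvPolynomial.aeval (fun s => lam (r (Pi.single s 1)))
  rw [algebraicIndependent_iff_injective_aeval]
  have hcomp : ρ.comp (MvPolynomial.aeval
      (fun i => ∑ s, a i s • (MvPolynomial.X s : MvPolynomial σ K))) = AlgHom.id K _ := by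
    apply MvPolynomial.algHom_ext
    intro i
    have h1 : ρ (∑ s, a i s • (MvPolynomial.X s : MvPolynomial σ K)) =
        lam (r (∑ s, a i s • (Pi.single s 1 : σ → K))) := by
      rw [map_sum, map_sum, map_sum]
      refine Finset.sum_congr rfl fun s _ => ?_
      rw [map_smul, map_smul, map_smul]
      congr 1
      exact MvPolynomial.aeval_X _ s
    have h2 : (∑ s, a i s • (Pi.single s 1 : σ → K)) = a i := by
      funext x
      simp [Finset.sum_apply, Pi.single_apply]
    have h3 : r (a i) = Finsupp.single i 1 := by
      have := congrArg (fun f => f (Finsupp.single i 1)) hr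
      simpa using this
    simp only [AlgHom.comp_apply, MvPolynomial.aeval_X, AlgHom.id_apply]
    rw [h1, h2, h3]
    simp [lam]
  intro P Q hPQ
  have := congrArg ρ hPQ
  have e : ∀ P, ρ (MvPolynomial.aeval
      (fun i => ∑ s, a i s • (MvPolynomial.X s : MvPolynomial σ K)) P) = P := fun P => by
    have := congrArg (fun f => f P) hcomp
    simpa using this
  rwa [e, e] at this

/-- **(ALGIND)** Power series in finitely many variables with zero constant term and
`K`-linearly independent linear parts are algebraically independent over `K`. -/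
theorem algebraicIndependent_of_linearParts [Finite σ] (F : ι → MvPowerSeries σ K)
    (h0 : ∀ i, constantCoeff (F i) = 0)
    (hlin : LinearIndependent K (fun i (s : σ) => coeff (Finsupp.single s 1) (F i))) :
    AlgebraicIndependent K F := by
  classical
  cases nonempty_fintype σ
  have hL : AlgebraicIndependent K (fun i => homogeneousComponent 1 (F i)) := by
    have h := (algebraicIndependent_linearForms _ hlin).map'
      (f := MvPolynomial.coeToMvPowerSeries.algHom (R := K) (σ := σ) K)
      (MvPolynomial.coe_injective (σ := σ) (R := K))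
    have e : (fun i => homogeneousComponent 1 (F i)) =
        (MvPolynomial.coeToMvPowerSeries.algHom (R := K) (σ := σ) K) ∘
          (fun i => ∑ s, coeff (Finsupp.single s 1) (F i) • (MvPolynomial.X s : MvPolynomial σ K)) := by
      funext i
      exact (coe_linearForm_eq_homogeneousComponent_one (F i)).symm
    rw [e]
    exact h
  rw [algebraicIndependent_iff_injective_aeval, injective_iff_map_eq_zero]
  intro P hP
  by_contra hne
  obtain ⟨α0, hα0, hmin⟩ := Finset.exists_min_image P.support (fun α => Finsupp.degree α)
    (MvPolynomial.support_nonempty.mpr hne)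
  set d := Finsupp.degree α0 with hd
  set Pd : MvPolynomial ι K :=
    ∑ α ∈ P.support.filter (fun α => Finsupp.degree α = d), MvPolynomial.monomial α (P.coeff α)
    with hPd_def
  have key : MvPolynomial.aeval (fun i => homogeneousComponent 1 (F i)) Pd = 0 := by
    have hsum : homogeneousComponent d (MvPolynomial.aeval F P) =
        ∑ α ∈ P.support, homogeneousComponent d
          (MvPolynomial.aeval F (MvPolynomial.monomial α (P.coeff α))) := by
      conv_lhs => rw [← MvPolynomial.support_sum_monomial_coeff P]
      rw [map_sum, map_sum]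
    rw [hP, map_zero] at hsum
    rw [hPd_def, map_sum, Finset.sum_filter]
    refine (Finset.sum_congr rfl fun α hα => ?_).trans hsum.symm
    obtain ⟨ho, hc⟩ := aeval_monomial_order_and_component F h0 α (P.coeff α)
    split_ifs with hdeg
    · rw [← hdeg]; exact hc.symm
    · have hlt : d < Finsupp.degree α := lt_of_le_of_ne (hmin α hα) (Ne.symm hdeg)
      exact (homogeneousComponent_of_lt_order_eq_zero
        (lt_of_lt_of_le (by exact_mod_cast hlt) ho)).symm
  have hPd : Pd = 0 := by
    have hinj := hL
    rw [algebraicIndependent_iff_injective_aeval, injective_iff_map_eq_zero] at hinj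
    exact hinj Pd key
  have hcoeff : MvPolynomial.coeff α0 Pd = P.coeff α0 := by
    rw [hPd_def, MvPolynomial.coeff_sum, Finset.sum_eq_single α0]
    · simp
    · intro β _ hβ
      rw [MvPolynomial.coeff_monomial, if_neg hβ]
    · intro h
      exact absurd (Finset.mem_filter.mpr ⟨hα0, rfl⟩ :
        α0 ∈ P.support.filter (fun α => Finsupp.degree α = d)) h
  rw [hPd, MvPolynomial.coeff_zero] at hcoeff
  exact (MvPolynomial.mem_support_iff.mp hα0) hcoeff.symm

/-- **(ALGIND-O)** Adapter: elements of a `K`-algebra `O` whose images under a `K`-algebra map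
`φ : O → K[[T_σ]]` have zero constant term and linearly independent linear parts are
algebraically independent over `K`. -/
theorem algebraicIndependent_of_algHom [Finite σ] {O : Type*} [CommRing O] [Algebra K O]
    (φ : O →ₐ[K] MvPowerSeries σ K) (t : ι → O)
    (h0 : ∀ i, constantCoeff (φ (t i)) = 0)
    (hlin : LinearIndependent K (fun i (s : σ) => coeff (Finsupp.single s 1) (φ (t i)))) :
    AlgebraicIndependent K t :=
  AlgebraicIndependent.of_comp φ (algebraicIndependent_of_linearParts (fun i => φ (t i)) h0 hlin)

/-- **(ALGIND-O), cotangent form.** `m` an ideal of the `K`-algebra `O` (the maximal ideal of a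
local ring in the application), `φ : O → K[[T_σ]]` a `K`-algebra map sending `m` into the series
without constant term and injective on `m / m ^ 2` (an element of `m` whose image has no linear
part lies in `m ^ 2`).  Then elements `t i ∈ m` which are `K`-linearly independent modulo `m ^ 2`
are algebraically independent over `K`. -/
theorem algebraicIndependent_of_cotangent [Finite σ] {O : Type*} [CommRing O] [Algebra K O]
    (m : Ideal O) (φ : O →ₐ[K] MvPowerSeries σ K)
    (hφ0 : ∀ x ∈ m, constantCoeff (φ x) = 0)
    (hφ2 : ∀ x ∈ m, (∀ s, coeff (Finsupp.single s 1) (φ x) = 0) → x ∈ m ^ 2)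
    (t : ι → O) (htm : ∀ i, t i ∈ m)
    (hind : ∀ c : ι →₀ K, (c.sum fun i a => a • t i) ∈ m ^ 2 → c = 0) :
    AlgebraicIndependent K t := by
  classical
  refine algebraicIndependent_of_algHom φ t (fun i => hφ0 _ (htm i)) ?_
  rw [linearIndependent_iff]
  intro c hc
  apply hind c
  have hmem : (c.sum fun i a => a • t i) ∈ m := by
    refine Ideal.sum_mem _ fun i _ => ?_
    show c i • t i ∈ m
    rw [Algebra.smul_def]
    exact Ideal.mul_mem_left _ _ (htm i)
  refine hφ2 _ hmem fun s => ?_
  have := congrFun hc s
  rw [Finsupp.linearCombination_apply] at this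
  rw [Finsupp.sum, map_sum, map_sum]
  simp only [map_smul]
  rw [Finsupp.sum, Finset.sum_apply] at this
  simpa using this

end AlgInd

section Mono

variable {K E : Type*} [Field K] [CommRing E] [Algebra K E]

/-- Powers of an element of `V a` lie in `V (b * a)`. -/
theorem pow_mem_filtration (V : ℕ → Submodule K E) (h1 : (1 : E) ∈ V 0)
    (hmul : ∀ a b, ∀ x ∈ V a, ∀ y ∈ V b, x * y ∈ V (a + b)) {x : E} {a : ℕ} (hx : x ∈ V a)
    (b : ℕ) : x ^ b ∈ V (b * a) := by
  induction b with
  | zero => simpa using h1
  | succ b ih =>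
    rw [pow_succ, Nat.succ_mul]
    exact hmul _ _ _ ih _ hx

/-- Monomials of degree `e` in elements of `V a` lie in `V (e * a)`. -/
theorem aeval_monomial_mem_filtration (V : ℕ → Submodule K E) (h1 : (1 : E) ∈ V 0)
    (hmul : ∀ a b, ∀ x ∈ V a, ∀ y ∈ V b, x * y ∈ V (a + b)) {ι : Type*} (t : ι → E) (a : ℕ)
    (hta : ∀ i, t i ∈ V a) (α : ι →₀ ℕ) :
    MvPolynomial.aeval t (MvPolynomial.monomial α (1 : K)) ∈ V (Finsupp.degree α * a) := by
  classical
  induction α using Finsupp.induction with
  | zero =>
    have h : MvPolynomial.monomial (0 : ι →₀ ℕ) (1 : K) = 1 := rfl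
    rw [h, map_one]
    simpa using h1
  | single_add i b β hi hb ih =>
    have e1 : MvPolynomial.aeval t (MvPolynomial.monomial (Finsupp.single i b + β) (1 : K)) =
        t i ^ b * MvPolynomial.aeval t (MvPolynomial.monomial β (1 : K)) := by
      rw [MvPolynomial.monomial_single_add, map_mul, map_pow, MvPolynomial.aeval_X]
    have e3 : Finsupp.degree (Finsupp.single i b + β) = b + Finsupp.degree β := by
      rw [map_add, Finsupp.degree_single]
    rw [e1, e3, Nat.add_mul]
    exact hmul _ _ _ (pow_mem_filtration V h1 hmul (hta i) b) _ ih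

/-- **(MONO), general form.** If `t i ∈ V a` are algebraically independent and `emb` is an
injective family of exponent vectors of degree `≤ k`, then `V (k * a)` has dimension at least
the number of these exponents. -/
theorem card_le_finrank_of_monomials (V : ℕ → Submodule K E) (h1 : (1 : E) ∈ V 0)
    (hmul : ∀ a b, ∀ x ∈ V a, ∀ y ∈ V b, x * y ∈ V (a + b)) (hmono : Monotone V)
    {ι : Type*} (t : ι → E) (ht : AlgebraicIndependent K t) (a : ℕ) (hta : ∀ i, t i ∈ V a)
    (k : ℕ) [Module.Finite K (V (k * a))] {I : Type*} [Fintype I] (emb : I → (ι →₀ ℕ))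
    (hemb : Function.Injective emb) (hdeg : ∀ x, Finsupp.degree (emb x) ≤ k) :
    Fintype.card I ≤ Module.finrank K (V (k * a)) := by
  classical
  have hmem : ∀ x, MvPolynomial.aeval t (MvPolynomial.monomial (emb x) (1 : K)) ∈ V (k * a) :=
    fun x => hmono (Nat.mul_le_mul_right a (hdeg x))
      (aeval_monomial_mem_filtration V h1 hmul t a hta (emb x))
  let v : I → V (k * a) := fun x => ⟨_, hmem x⟩
  have hv : LinearIndependent K v := by
    apply LinearIndependent.of_comp (V (k * a)).subtype
    have hb : LinearIndependent K (fun x => MvPolynomial.basisMonomials ι K (emb x)) :=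
      (MvPolynomial.basisMonomials ι K).linearIndependent.comp emb hemb
    have hinj : Function.Injective (MvPolynomial.aeval t : MvPolynomial ι K →ₐ[K] E) :=
      algebraicIndependent_iff_injective_aeval.mp ht
    have h2 := hb.map' (MvPolynomial.aeval t : MvPolynomial ι K →ₐ[K] E).toLinearMap
      (LinearMap.ker_eq_bot.mpr hinj)
    exact h2
  exact hv.fintype_card_le_finrank

/-- Hockey stick: `∑_{j ≤ k} C(g + j - 1, j) = C(k + g, g)`. -/
theorem sum_choose_eq (g k : ℕ) :
    ∑ j ∈ Finset.range (k + 1), (g + j - 1).choose j = (k + g).choose g := by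
  induction k with
  | zero => simp
  | succ k ih =>
    rw [Finset.sum_range_succ, ih]
    have h1 : (k + g).choose g = (k + g).choose k := (Nat.choose_symm_add).symm
    have h2 : (k + 1 + g).choose g = (k + 1 + g).choose (k + 1) := (Nat.choose_symm_add).symm
    have h3 : g + (k + 1) - 1 = k + g := by omega
    have h4 : k + 1 + g = (k + g) + 1 := by omega
    rw [h1, h2, h3, h4, Nat.choose_succ_succ]

/-- The exponent vectors in `g` variables of degree `≤ k`. -/
noncomputable def simplexExponents (g k : ℕ) : Finset (Fin g →₀ ℕ) :=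
  (Finset.range (k + 1)).biUnion fun j => (Finset.univ : Finset (Fin g)).finsuppAntidiag j

theorem degree_le_of_mem_simplexExponents {g k : ℕ} {α : Fin g →₀ ℕ}
    (hα : α ∈ simplexExponents g k) : Finsupp.degree α ≤ k := by
  classical
  rw [simplexExponents, Finset.mem_biUnion] at hα
  obtain ⟨j, hj, hαj⟩ := hα
  rw [Finset.mem_finsuppAntidiag] at hαj
  rw [Finsupp.degree_eq_sum, hαj.1]
  exact Nat.lt_succ_iff.mp (Finset.mem_range.mp hj)

theorem card_simplexExponents (g k : ℕ) : (simplexExponents g k).card = (k + g).choose g := by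
  classical
  rw [simplexExponents, Finset.card_biUnion]
  · simp only [Finset.card_finsuppAntidiag_nat_eq_choose, Finset.card_univ, Fintype.card_fin]
    exact sum_choose_eq g k
  · intro i _ j _ hij
    rw [Function.onFun, Finset.disjoint_left]
    intro α hi hj
    rw [Finset.mem_finsuppAntidiag] at hi hj
    exact hij (hi.1.symm.trans hj.1)

/-- **(MONO)** `V` a multiplicative monotone filtration of the `K`-algebra `E` by subspaces with
`1 ∈ V 0`, and `t_1, …, t_g ∈ V a` algebraically independent over `K`.  Then
`choose (k + g) g ≤ dim V (k * a)`. -/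
theorem choose_le_finrank (V : ℕ → Submodule K E) (h1 : (1 : E) ∈ V 0)
    (hmul : ∀ a b, ∀ x ∈ V a, ∀ y ∈ V b, x * y ∈ V (a + b)) (hmono : Monotone V)
    {g : ℕ} (t : Fin g → E) (ht : AlgebraicIndependent K t) (a : ℕ) (hta : ∀ i, t i ∈ V a)
    (k : ℕ) [Module.Finite K (V (k * a))] :
    Nat.choose (k + g) g ≤ Module.finrank K (V (k * a)) := by
  classical
  have h := card_le_finrank_of_monomials V h1 hmul hmono t ht a hta k
    (I := simplexExponents g k) (fun x => x.1) Subtype.val_injective
    (fun x => degree_le_of_mem_simplexExponents x.2)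
  rwa [Fintype.card_coe, card_simplexExponents] at h

/-- Numeric form: `(k + 1) ^ g ≤ g! * dim V (k * a)`. -/
theorem succ_pow_le_factorial_mul_finrank (V : ℕ → Submodule K E) (h1 : (1 : E) ∈ V 0)
    (hmul : ∀ a b, ∀ x ∈ V a, ∀ y ∈ V b, x * y ∈ V (a + b)) (hmono : Monotone V)
    {g : ℕ} (t : Fin g → E) (ht : AlgebraicIndependent K t) (a : ℕ) (hta : ∀ i, t i ∈ V a)
    (k : ℕ) [Module.Finite K (V (k * a))] :
    (k + 1) ^ g ≤ g.factorial * Module.finrank K (V (k * a)) := by
  have h := choose_le_finrank V h1 hmul hmono t ht a hta k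
  have h2 : (k + g + 1 - g) ^ g ≤ (k + g).descFactorial g := Nat.pow_sub_le_descFactorial _ _
  rw [Nat.descFactorial_eq_factorial_mul_choose] at h2
  have h3 : k + g + 1 - g = k + 1 := by omega
  rw [h3] at h2
  exact h2.trans (Nat.mul_le_mul_left _ h)

/-- **Lower growth bound** in the shape `m ^ g ≤ C * η(m)` with `C = a ^ g * g!`:
for every `m` (with `V m` finite-dimensional) and `0 < a`. -/
theorem pow_le_const_mul_finrank (V : ℕ → Submodule K E) (h1 : (1 : E) ∈ V 0)
    (hmul : ∀ a b, ∀ x ∈ V a, ∀ y ∈ V b, x * y ∈ V (a + b)) (hmono : Monotone V)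
    {g : ℕ} (t : Fin g → E) (ht : AlgebraicIndependent K t) (a : ℕ) (ha : 0 < a)
    (hta : ∀ i, t i ∈ V a) (m : ℕ) [Module.Finite K (V m)] :
    m ^ g ≤ a ^ g * g.factorial * Module.finrank K (V m) := by
  have hle : m / a * a ≤ m := Nat.div_mul_le_self m a
  have hsub : V (m / a * a) ≤ V m := hmono hle
  have : Module.Finite K (V (m / a * a)) := by
    have : Module.Finite K (Submodule.comap (V m).subtype (V (m / a * a))) := inferInstance
    exact Module.Finite.equiv (Submodule.comapSubtypeEquivOfLe hsub)
  have h := succ_pow_le_factorial_mul_finrank V h1 hmul hmono t ht a hta (m / a)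
  have hfr : Module.finrank K (V (m / a * a)) ≤ Module.finrank K (V m) :=
    Submodule.finrank_mono hsub
  have hm : m ≤ a * (m / a + 1) := by
    have := Nat.lt_succ_iff.mp (Nat.lt_succ_of_lt (Nat.lt_mul_div_succ m ha))
    exact this
  calc m ^ g ≤ (a * (m / a + 1)) ^ g := Nat.pow_le_pow_left hm g
    _ = a ^ g * (m / a + 1) ^ g := mul_pow _ _ _
    _ ≤ a ^ g * (g.factorial * Module.finrank K (V (m / a * a))) := Nat.mul_le_mul_left _ h
    _ ≤ a ^ g * (g.factorial * Module.finrank K (V m)) :=
      Nat.mul_le_mul_left _ (Nat.mul_le_mul_left _ hfr)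
    _ = a ^ g * g.factorial * Module.finrank K (V m) := (mul_assoc _ _ _).symm

/-- A filtration with `1 ∈ V m` for all `m` and `V a * V b ≤ V (a + b)` is monotone. -/
theorem monotone_of_one_mem (V : ℕ → Submodule K E) (h1 : ∀ m, (1 : E) ∈ V m)
    (hmul : ∀ a b, ∀ x ∈ V a, ∀ y ∈ V b, x * y ∈ V (a + b)) : Monotone V := by
  intro m n hmn x hx
  have h := hmul m (n - m) x hx 1 (h1 (n - m))
  rwa [mul_one, Nat.add_sub_cancel' hmn] at h

/-- **(MONO)**, variant with `1 ∈ V m` for all `m` instead of monotonicity. -/
theorem choose_le_finrank_of_one_mem (V : ℕ → Submodule K E) (h1 : ∀ m, (1 : E) ∈ V m)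
    (hmul : ∀ a b, ∀ x ∈ V a, ∀ y ∈ V b, x * y ∈ V (a + b))
    {g : ℕ} (t : Fin g → E) (ht : AlgebraicIndependent K t) (a : ℕ) (hta : ∀ i, t i ∈ V a)
    (k : ℕ) [Module.Finite K (V (k * a))] :
    Nat.choose (k + g) g ≤ Module.finrank K (V (k * a)) :=
  choose_le_finrank V (h1 0) hmul (monotone_of_one_mem V h1 hmul) t ht a hta k

/-- Lower growth bound `m ^ g ≤ a ^ g * g! * dim V m`, variant with `1 ∈ V m` for all `m`. -/
theorem pow_le_const_mul_finrank_of_one_mem (V : ℕ → Submodule K E) (h1 : ∀ m, (1 : E) ∈ V m)
    (hmul : ∀ a b, ∀ x ∈ V a, ∀ y ∈ V b, x * y ∈ V (a + b))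
    {g : ℕ} (t : Fin g → E) (ht : AlgebraicIndependent K t) (a : ℕ) (ha : 0 < a)
    (hta : ∀ i, t i ∈ V a) (m : ℕ) [Module.Finite K (V m)] :
    m ^ g ≤ a ^ g * g.factorial * Module.finrank K (V m) :=
  pow_le_const_mul_finrank V (h1 0) hmul (monotone_of_one_mem V h1 hmul) t ht a ha hta m

end Mono

end Fermat.Agent.S26.helper601
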