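import Mathlib
import Fermat.Agent.S26.helper154_Spec

/-!
# S26, leaf M8-LOWER-GEO, backup half (helper6179): transcendence degree inputs

Split agreed with the leaf owner helper3890 (team_s26_chat #72): this file provides

* **(TRDEG)** for a nonempty affine open `U` of an integral `K`-scheme `a : A ⟶ Spec K`:
  germs of sections over `U` lie in `localSubring A p` for `p ∈ U`
  (`germToFunctionField_mem_localSubring`), `trdeg_K Γ(A,U) = trdeg_K K(A)` for the `constHom`
  `K`-structure (`trdeg_sections_eq`), and `g ≤ trdeg_K K(A)` gives `g` algebraically independent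
  rational functions regular on `U` (`exists_algebraicIndependent_regular`);
* **Adapter (i)**: `SmoothOfRelativeDimension g a`, `A` integral `⟹ g ≤ trdeg_K K(A)`
  (`natCast_le_trdeg_of_smoothOfRelativeDimension`), via a standard smooth chart at the generic
  point and Mathlib's factorisation `K[X₁..X_g] → Γ(A,V)` étale (étale ⟹ flat ⟹ injective into
  a domain);
* the combination `exists_algebraicIndependent_regular_of_smooth`.

Vocabulary: `Fermat.Agent.S26.helper154` (`constHom`, `localSubring`).
-/

set_option autoImplicit false
set_option linter.style.haveILetI false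

universe u

noncomputable section

open CategoryTheory AlgebraicGeometry Fermat.Agent.S26.helper154

namespace Fermat.Agent.S26.helper6179

/-- A flat algebra over a domain which is a nontrivial ring has injective structure map. -/
theorem algebraMap_injective_of_flat {P S : Type*} [CommRing P] [IsDomain P] [CommRing S]
    [Nontrivial S] [Algebra P S] [Module.Flat P S] : Function.Injective (algebraMap P S) := by
  rw [injective_iff_map_eq_zero]
  intro r hr
  by_contra hr0
  have htf : Module.IsTorsionFree P S := inferInstance
  have h1 : r • (1 : S) = r • (0 : S) := by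
    rw [smul_zero, Algebra.smul_def, mul_one, hr]
  have hreg : IsRegular r := IsRegular.of_ne_zero hr0
  have := htf.isSMulRegular hreg
  exact one_ne_zero (this h1)

/-- An étale ring homomorphism from a domain to a nontrivial ring is injective. -/
theorem injective_of_etale {P S : Type*} [CommRing P] [IsDomain P] [CommRing S]
    [Nontrivial S] (ψ : P →+* S) (hψ : ψ.Etale) : Function.Injective ψ := by
  algebraize [ψ]
  have : Algebra.Etale P S := RingHom.etale_algebraMap.mp hψ
  exact algebraMap_injective_of_flat (P := P) (S := S)

section Scheme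

variable {K : Type u} [Field K] {A : Scheme.{u}} [IsIntegral A]
  (a : A ⟶ Spec (CommRingCat.of K))

/-- The `K`-structure map `K → Γ(A, U)` of a `K`-scheme `a : A ⟶ Spec K`. -/
def sectionsHom (U : A.Opens) : K →+* Γ(A, U) :=
  ((Scheme.ΓSpecIso (CommRingCat.of K)).inv ≫ a.appLE ⊤ U (fun _ _ => trivial)).hom

theorem germToFunctionField_sectionsHom (U : A.Opens) [Nonempty U] (c : K) :
    (A.germToFunctionField U).hom (sectionsHom a U c) = constHom a c := by
  unfold sectionsHom constHom
  have h : a.appLE ⊤ U (fun _ _ => trivial) ≫ A.germToFunctionField U =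
      a.appTop ≫ A.germToFunctionField ⊤ := by
    dsimp only [Scheme.Hom.appLE]
    rw [Category.assoc]
    congr 1
    exact A.presheaf.germ_res _ _ _
  simp only [CommRingCat.hom_comp, RingHom.comp_apply]
  have := congrArg (fun φ => φ.hom ((Scheme.ΓSpecIso (CommRingCat.of K)).inv.hom c)) h
  simpa using this

theorem germToFunctionField_mem_localSubring (U : A.Opens) [Nonempty U] (s : Γ(A, U)) {p : A}
    (hp : p ∈ U) : (A.germToFunctionField U).hom s ∈ localSubring A p := by
  refine ⟨A.presheaf.germ U p hp s, ?_⟩
  exact Scheme.algebraMap_germ_eq_germToFunctionField A hp s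

/-- Transcendence degree of the sections over a nonempty affine open = transcendence degree
of the function field. -/
theorem trdeg_sections_eq (U : A.Opens) (hU : IsAffineOpen U) [Nonempty U] :
    letI := (sectionsHom a U).toAlgebra
    letI := (constHom a).toAlgebra
    Algebra.trdeg K Γ(A, U) = Algebra.trdeg K A.functionField := by
  letI := (sectionsHom a U).toAlgebra
  letI := (constHom a).toAlgebra
  haveI : IsFractionRing Γ(A, U) A.functionField :=
    functionField_isFractionRing_of_isAffineOpen A U hU
  haveI : IsScalarTower K Γ(A, U) A.functionField :=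
    IsScalarTower.of_algebraMap_eq (fun c => (germToFunctionField_sectionsHom a U c).symm)
  haveI : FaithfulSMul K Γ(A, U) :=
    (faithfulSMul_iff_algebraMap_injective _ _).mpr (RingHom.injective _)
  haveI : FaithfulSMul Γ(A, U) A.functionField :=
    (faithfulSMul_iff_algebraMap_injective _ _).mpr (IsFractionRing.injective _ _)
  haveI : Algebra.IsAlgebraic Γ(A, U) A.functionField :=
    IsLocalization.isAlgebraic _ (nonZeroDivisors _)
  rw [← trdeg_add_eq K Γ(A, U) (A := A.functionField),
    trdeg_eq_zero (R := Γ(A, U)) (A := A.functionField), add_zero]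

/-- If `g ≤ trdeg_K K(A)` there are `g` algebraically independent sections over any nonempty
affine open. -/
theorem exists_algebraicIndependent_sections (U : A.Opens) (hU : IsAffineOpen U) [Nonempty U]
    (g : ℕ)
    (hg : (g : Cardinal.{u}) ≤
      (letI := (constHom a).toAlgebra; Algebra.trdeg K A.functionField)) :
    letI := (sectionsHom a U).toAlgebra
    ∃ t : Fin g → Γ(A, U), AlgebraicIndependent K t := by
  letI := (sectionsHom a U).toAlgebra
  rw [← trdeg_sections_eq a U hU] at hg
  haveI : FaithfulSMul K Γ(A, U) :=
    (faithfulSMul_iff_algebraMap_injective _ _).mpr (RingHom.injective _)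
  obtain ⟨s, hs⟩ := exists_isTranscendenceBasis K Γ(A, U)
  rw [← hs.cardinalMk_eq_trdeg] at hg
  have h2 : Cardinal.lift.{u} (Cardinal.mk (Fin g)) ≤ Cardinal.lift.{0} (Cardinal.mk s) := by
    simpa using hg
  obtain ⟨f⟩ := Cardinal.lift_mk_le'.mp h2
  exact ⟨fun i => (f i : Γ(A, U)), hs.1.comp f f.injective⟩

/-- **(TRDEG)** If `g ≤ trdeg_K K(A)`, there are `g` algebraically independent rational functions
which are regular on a given nonempty affine open `U`. -/
theorem exists_algebraicIndependent_regular (U : A.Opens) (hU : IsAffineOpen U) [Nonempty U]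
    (g : ℕ)
    (hg : (g : Cardinal.{u}) ≤
      (letI := (constHom a).toAlgebra; Algebra.trdeg K A.functionField)) :
    letI := (constHom a).toAlgebra
    ∃ t : Fin g → A.functionField, AlgebraicIndependent K t ∧
      (∀ i, ∃ s : Γ(A, U), (A.germToFunctionField U).hom s = t i) ∧
      ∀ i, ∀ p ∈ U, t i ∈ localSubring A p := by
  letI := (sectionsHom a U).toAlgebra
  letI := (constHom a).toAlgebra
  haveI : IsScalarTower K Γ(A, U) A.functionField :=
    IsScalarTower.of_algebraMap_eq (fun c => (germToFunctionField_sectionsHom a U c).symm)
  obtain ⟨t, ht⟩ := exists_algebraicIndependent_sections a U hU g hg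
  refine ⟨fun i => (A.germToFunctionField U).hom (t i), ?_, fun i => ⟨t i, rfl⟩, fun i p hp =>
    germToFunctionField_mem_localSubring U (t i) hp⟩
  exact ht.map' (f := IsScalarTower.toAlgHom K Γ(A, U) A.functionField)
    (Scheme.germToFunctionField_injective A U)

/-- **Adapter (i)**: a smooth integral `K`-scheme of relative dimension `g` has function field of
transcendence degree at least `g` over `K`. -/
theorem natCast_le_trdeg_of_smoothOfRelativeDimension (g : ℕ) [SmoothOfRelativeDimension g a] :
    (g : Cardinal.{u}) ≤ (letI := (constHom a).toAlgebra; Algebra.trdeg K A.functionField) := by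
  letI := (constHom a).toAlgebra
  obtain ⟨U, hU, V, hV, hxV, e, hstd⟩ :=
    SmoothOfRelativeDimension.exists_isStandardSmoothOfRelativeDimension (n := g) (f := a)
      (genericPoint A)
  haveI : Nonempty V := ⟨⟨_, hxV⟩⟩
  haveI : Nonempty U := ⟨⟨a.base (genericPoint A), e hxV⟩⟩
  obtain ⟨ψ, hψC, hψ⟩ := hstd.exists_etale_mvPolynomial
  have hψinj : Function.Injective ψ := injective_of_etale ψ hψ
  -- the structure map `K → Γ(Spec K, U)`
  let ρ : K →+* Γ(Spec (CommRingCat.of K), U) :=
    ((Scheme.ΓSpecIso (CommRingCat.of K)).inv ≫
      (Spec (CommRingCat.of K)).presheaf.map (homOfLE le_top).op).hom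
  let Φ : MvPolynomial (Fin g) K →+* A.functionField :=
    (A.germToFunctionField V).hom.comp (ψ.comp (MvPolynomial.map ρ))
  have hΦinj : Function.Injective Φ :=
    (Scheme.germToFunctionField_injective A V).comp
      (hψinj.comp (MvPolynomial.map_injective ρ ρ.injective))
  have hρ : ∀ c : K, (a.appLE U V e).hom (ρ c) = sectionsHom a V c := by
    intro c
    have h := Scheme.Hom.map_appLE a e (homOfLE (le_top : U ≤ ⊤)).op
    simp only [ρ, sectionsHom, CommRingCat.hom_comp, RingHom.comp_apply]
    exact congrArg (fun φ => φ.hom ((Scheme.ΓSpecIso (CommRingCat.of K)).inv.hom c)) h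
  let t : Fin g → A.functionField := fun i => (A.germToFunctionField V).hom (ψ (MvPolynomial.X i))
  have hΦ : Φ = (MvPolynomial.aeval t : MvPolynomial (Fin g) K →ₐ[K] A.functionField) := by
    apply MvPolynomial.ringHom_ext
    · intro c
      have h1 : ψ (MvPolynomial.C (ρ c)) = (a.appLE U V e).hom (ρ c) := by
        rw [← hψC]; rfl
      simp only [Φ, RingHom.comp_apply, MvPolynomial.map_C, h1, hρ,
        germToFunctionField_sectionsHom]
      simp [RingHom.algebraMap_toAlgebra]
    · intro i
      simp [Φ, t]
  have hind : AlgebraicIndependent K t := by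
    rw [algebraicIndependent_iff_injective_aeval]
    have : (⇑(MvPolynomial.aeval t : MvPolynomial (Fin g) K →ₐ[K] A.functionField)) = ⇑Φ := by
      rw [hΦ]; rfl
    rw [this]
    exact hΦinj
  have := hind.lift_cardinalMk_le_trdeg
  simpa using this

/-- **(TRDEG) + Adapter (i)**: on a smooth integral `K`-scheme of relative dimension `g` there are
`g` algebraically independent rational functions regular on any given nonempty affine open. -/
theorem exists_algebraicIndependent_regular_of_smooth (g : ℕ) [SmoothOfRelativeDimension g a]
    (U : A.Opens) (hU : IsAffineOpen U) [Nonempty U] :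
    letI := (constHom a).toAlgebra
    ∃ t : Fin g → A.functionField, AlgebraicIndependent K t ∧
      (∀ i, ∃ s : Γ(A, U), (A.germToFunctionField U).hom s = t i) ∧
      ∀ i, ∀ p ∈ U, t i ∈ localSubring A p :=
  exists_algebraicIndependent_regular a U hU g (natCast_le_trdeg_of_smoothOfRelativeDimension a g)

end Scheme

end Fermat.Agent.S26.helper6179
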