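import Fermat.Agent.S26.helper154_Spec2
import Fermat.Agent.S26.helper601_LowerGrowth
import Fermat.Agent.S26.helper6179_Trdeg

/-!
# S26-M8-LOWER-GEO (helper3890): lower growth of `ℓ(mD)` in the Spec vocabulary

Vocabulary: `Fermat.Agent.S26.helper154` (`CDiv`, `CDiv.IsEffective`, `CDiv.supp`, `CDiv.LSet`,
`CDiv.LSub`, `CDiv.ell`, `CDiv.LFinite`, `localSubring`).

* `mem_range_germToFunctionField`: on an affine open `U` of an integral scheme, a rational
  function lying in the local rings of all points of `U` is a section over `U`.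
* `exists_forall_mem_LSet_pow` (**POLE**): on a quasi-compact integral scheme, a rational function
  regular off the support of an effective Cartier divisor `D` lies in `L(D ^ m)` for all large
  `m`. No affineness of the complement, no normality.
* `isEffective_one/mul/pow`, `one_mem_LSet_of_isEffective`, `mul_mem_LSet_mul`, `LSet_pow_mono`,
  `LSub_pow_mono`, `LFinite_pow_of_le`, `ell_pow_mono` (**FILT**): `m ↦ L(D ^ m)` is a
  multiplicative monotone filtration for effective `D`.
* `choose_le_ell_pow_of_regular`, `exists_choose_le_ell_pow` (**LOWER**): for `A` integral,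
  quasi-compact, smooth of relative dimension `g` over `K` and `D` effective with affine
  complement: `choose (k + g) g ≤ ℓ(k a0 D)` for some `a0 > 0` and all `k` (whenever finite).
  This is the last conjunct of `helper154.Stmt_DivisorPos`.
* `exists_pow_le_mul_ell`: the numeric form `m ^ g ≤ c * ℓ(m D)` for all `m`.
* `stmt_DivisorPos`: `Stmt_DExistPos → helper154.Stmt_DivisorPos`.

Inputs: (MONO) `helper601.choose_le_finrank`; `helper6179.exists_algebraicIndependent_regular_of_smooth`
(`g` algebraically independent rational functions regular on an affine open of a smooth scheme).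
-/

set_option autoImplicit false

universe u

noncomputable section

open CategoryTheory CategoryTheory.Limits AlgebraicGeometry TopologicalSpace

namespace Fermat.Agent.S26.helper3890

open Fermat.Agent.S26.helper154

section Sections

variable {X : Scheme.{u}} [IsIntegral X]

/-- A section over `U` lies in the local ring of every point of `U`. -/
theorem germToFunctionField_mem_localSubring {U : X.Opens} [Nonempty U] (s : Γ(X, U))
    {y : X} (hy : y ∈ U) : X.germToFunctionField U s ∈ localSubring X y :=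
  ⟨X.presheaf.germ U y hy s, Scheme.algebraMap_germ_eq_germToFunctionField X hy s⟩

/-- On an affine open `U` of an integral scheme, a rational function that lies in the local ring
of every point of `U` is (the germ of) a section over `U`. -/
theorem mem_range_germToFunctionField {U : X.Opens} (hU : IsAffineOpen U) [Nonempty U]
    (h : X.functionField) (hh : ∀ y ∈ U, h ∈ localSubring X y) :
    ∃ s : Γ(X, U), X.germToFunctionField U s = h := by
  -- the ideal of denominators
  let denom : Ideal Γ(X, U) :=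
    { carrier := {r | ∃ s : Γ(X, U), X.germToFunctionField U s = X.germToFunctionField U r * h}
      add_mem' := by
        rintro a b ⟨s, hs⟩ ⟨t, ht⟩
        exact ⟨s + t, by rw [map_add, map_add, add_mul, hs, ht]⟩
      zero_mem' := ⟨0, by simp⟩
      smul_mem' := by
        rintro c a ⟨s, hs⟩
        exact ⟨c * s, by rw [smul_eq_mul, map_mul, map_mul, hs, mul_assoc]⟩ }
  by_cases h1 : (1 : Γ(X, U)) ∈ denom
  · obtain ⟨s, hs⟩ := h1
    exact ⟨s, by rw [hs, map_one, one_mul]⟩
  exfalso
  obtain ⟨m, hm, hle⟩ := denom.exists_le_maximal ((Ideal.ne_top_iff_one _).mpr h1)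
  let p : PrimeSpectrum Γ(X, U) := ⟨m, hm.isPrime⟩
  have hpU : hU.fromSpec p ∈ U := by
    rw [← SetLike.mem_coe, ← hU.range_fromSpec]
    exact Set.mem_range_self p
  obtain ⟨σ, hσ⟩ := hh _ hpU
  have hloc := hU.isLocalization_stalk' p hpU
  obtain ⟨⟨a, d⟩, had⟩ := @IsLocalization.surj _ _ p.asIdeal.primeCompl _ _
    (TopCat.Presheaf.algebra_section_stalk X.presheaf ⟨hU.fromSpec p, hpU⟩) hloc σ
  apply d.2
  apply hle
  refine ⟨a, ?_⟩
  have h2 := congrArg (algebraMap (X.presheaf.stalk (hU.fromSpec p)) X.functionField) had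
  rw [map_mul, hσ] at h2
  have h3 : ∀ r : Γ(X, U), algebraMap (X.presheaf.stalk (hU.fromSpec p)) X.functionField
      (X.presheaf.germ U (hU.fromSpec p) hpU r) = X.germToFunctionField U r :=
    fun r => Scheme.algebraMap_germ_eq_germToFunctionField X hpU r
  erw [h3, h3] at h2
  rw [← h2, mul_comm]

end Sections

section Pole

variable {X : Scheme.{u}} [IsIntegral X]

theorem germToFunctionField_res {V W : X.Opens} [Nonempty V] [Nonempty W] (hWV : W ≤ V)
    (s : Γ(X, V)) :
    X.germToFunctionField W (X.presheaf.map (homOfLE hWV).op s) = X.germToFunctionField V s :=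
  X.presheaf.germ_res_apply (homOfLE hWV) (genericPoint X) _ s

/-- Changing the local equation by a unit of the local ring. -/
theorem mul_mem_localSubring_of_mk_eq {y : X} {f f' : (X.functionField)ˣ}
    (e : (QuotientGroup.mk f : LocDiv X y) = QuotientGroup.mk f') {a : X.functionField}
    (ha : a * (f : X.functionField) ∈ localSubring X y) :
    a * (f' : X.functionField) ∈ localSubring X y := by
  have h1 : f⁻¹ * f' ∈ unitsAt X y := QuotientGroup.eq.mp e
  obtain ⟨u, hu⟩ := h1
  have h2 : (f' : X.functionField) =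
      f * algebraMap (X.presheaf.stalk y) X.functionField u := by
    have h3 := congrArg (fun t : (X.functionField)ˣ => (t : X.functionField)) hu
    have h4 : algebraMap (X.presheaf.stalk y) X.functionField u =
        (f : X.functionField)⁻¹ * f' := by
      simpa using h3
    rw [h4]
    field_simp
  rw [h2, ← mul_assoc]
  exact Subring.mul_mem _ ha ⟨_, rfl⟩

/-- If the local equation is (the image of) a unit of the local ring, the germ of the divisor is
trivial. -/
theorem mk_eq_one_of_isUnit {y : X} (f : (X.functionField)ˣ) (σ : X.presheaf.stalk y)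
    (hσ : IsUnit σ) (e : algebraMap (X.presheaf.stalk y) X.functionField σ = f) :
    (QuotientGroup.mk f : LocDiv X y) = 1 := by
  rw [QuotientGroup.eq_one_iff]
  exact ⟨hσ.unit, Units.ext (by simpa using e)⟩

/-- Local form of the pole bound. -/
theorem exists_nhd_pole_bound (D : CDiv X) (hD : CDiv.IsEffective D) (h : X.functionField)
    (hreg : ∀ p, p ∉ CDiv.supp D → h ∈ localSubring X p) (x : X) :
    ∃ V : X.Opens, x ∈ V ∧ ∃ n : ℕ, ∀ m, n ≤ m → ∀ y ∈ V,
      ∃ f : (X.functionField)ˣ, (D ^ m).1 y = QuotientGroup.mk f ∧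
        h * (f : X.functionField) ∈ localSubring X y := by
  obtain ⟨U, hxU, f, hf⟩ := D.2 x
  obtain ⟨_, ⟨V, hV, rfl⟩, hxV, hVU⟩ :=
    X.isBasis_affineOpens.exists_subset_of_mem_open hxU U.isOpen
  have : Nonempty V := ⟨⟨x, hxV⟩⟩
  -- `f` is regular on `V`
  have hfreg : ∀ y ∈ V, (f : X.functionField) ∈ localSubring X y := by
    intro y hy
    obtain ⟨f', hf', hf'mem⟩ := hD y
    have e : (QuotientGroup.mk f' : LocDiv X y) = QuotientGroup.mk f := by
      rw [← hf', hf y (hVU hy)]
    have h1 := mul_mem_localSubring_of_mk_eq e (a := 1) (by simpa using hf'mem)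
    simpa using h1
  obtain ⟨F, hF⟩ := mem_range_germToFunctionField hV (f : X.functionField) hfreg
  have hgV : genericPoint X ∈ V :=
    ((genericPoint_spec X).mem_open_set_iff V.isOpen).mpr ⟨x, trivial, hxV⟩
  have hgen : genericPoint X ∈ X.basicOpen F := by
    rw [Scheme.mem_basicOpen X F (genericPoint X) hgV]
    have h1 : X.presheaf.germ V (genericPoint X) hgV F = (f : X.functionField) := hF
    rw [h1]
    exact f.isUnit
  have : Nonempty (X.basicOpen F) := ⟨⟨_, hgen⟩⟩
  have hW : IsAffineOpen (X.basicOpen F) := hV.basicOpen F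
  have hhreg : ∀ y ∈ X.basicOpen F, h ∈ localSubring X y := by
    intro y hy
    apply hreg
    have hyV : y ∈ V := X.basicOpen_le F hy
    have hu : IsUnit (X.presheaf.germ V y hyV F) := (Scheme.mem_basicOpen X F y hyV).mp hy
    change ¬ (D.1 y ≠ 1)
    rw [not_not, hf y (hVU hyV)]
    exact mk_eq_one_of_isUnit f _ hu
      (by rw [Scheme.algebraMap_germ_eq_germToFunctionField X hyV F, hF])
  obtain ⟨H, hH⟩ := mem_range_germToFunctionField hW h hhreg
  have := hV.isLocalization_basicOpen F
  obtain ⟨n, G, hG⟩ := IsLocalization.Away.surj F H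
  have key : h * (f : X.functionField) ^ n = X.germToFunctionField V G := by
    have h1 := congrArg (X.germToFunctionField (X.basicOpen F)) hG
    rw [map_mul, map_pow, hH] at h1
    have h2 : ∀ r : Γ(X, V), X.germToFunctionField (X.basicOpen F)
        (algebraMap Γ(X, V) Γ(X, X.basicOpen F) r) = X.germToFunctionField V r :=
      fun r => germToFunctionField_res (X.basicOpen_le F) r
    rw [h2, h2, hF] at h1
    exact h1
  refine ⟨V, hxV, n, fun m hm y hy => ⟨f ^ m, ?_, ?_⟩⟩
  · change (D.1 y) ^ m = _
    rw [hf y (hVU hy)]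
    rfl
  · have h1 : h * ((f ^ m : (X.functionField)ˣ) : X.functionField) =
        X.germToFunctionField V G * (f : X.functionField) ^ (m - n) := by
      rw [Units.val_pow_eq_pow_val, ← key, mul_assoc, ← pow_add, Nat.add_sub_cancel' hm]
    rw [h1]
    exact Subring.mul_mem _ (germToFunctionField_mem_localSubring G hy)
      (Subring.pow_mem _ (hfreg y hy) _)

/-- **Pole bound.** On a quasi-compact integral scheme, a rational function that is regular off
the support of an effective Cartier divisor `D` lies in `L(D ^ m)` for all large `m`. -/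
theorem exists_forall_mem_LSet_pow [CompactSpace X] (D : CDiv X) (hD : CDiv.IsEffective D)
    (h : X.functionField) (hreg : ∀ p, p ∉ CDiv.supp D → h ∈ localSubring X p) :
    ∃ n : ℕ, ∀ m, n ≤ m → h ∈ CDiv.LSet (D ^ m) := by
  choose V hxV n hn using exists_nhd_pole_bound D hD h hreg
  obtain ⟨t, ht⟩ := isCompact_univ.elim_finite_subcover (fun x => (V x : Set X))
    (fun x => (V x).isOpen) (fun x _ => Set.mem_iUnion.mpr ⟨x, hxV x⟩)
  refine ⟨t.sup n, fun m hm y => ?_⟩
  have hy := ht (Set.mem_univ y)
  simp only [Set.mem_iUnion] at hy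
  obtain ⟨x, hxt, hyx⟩ := hy
  exact hn x m (le_trans (Finset.le_sup hxt) hm) y hyx

end Pole

section Filtration

variable {X : Scheme.{u}} [IsIntegral X]

theorem isEffective_one : CDiv.IsEffective (1 : CDiv X) :=
  fun x => ⟨1, rfl, by simp⟩

theorem isEffective_mul {D E : CDiv X} (hD : CDiv.IsEffective D) (hE : CDiv.IsEffective E) :
    CDiv.IsEffective (D * E) := by
  intro x
  obtain ⟨f, hf, hfm⟩ := hD x
  obtain ⟨f', hf', hfm'⟩ := hE x
  refine ⟨f * f', ?_, ?_⟩
  · change D.1 x * E.1 x = _
    rw [hf, hf']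
    rfl
  · simpa using Subring.mul_mem _ hfm hfm'

theorem isEffective_pow {D : CDiv X} (hD : CDiv.IsEffective D) (m : ℕ) :
    CDiv.IsEffective (D ^ m) := by
  induction m with
  | zero => simpa using isEffective_one
  | succ m ih => rw [pow_succ]; exact isEffective_mul ih hD

theorem one_mem_LSet_of_isEffective {D : CDiv X} (hD : CDiv.IsEffective D) :
    (1 : X.functionField) ∈ CDiv.LSet D := by
  intro x
  obtain ⟨f, hf, hfm⟩ := hD x
  exact ⟨f, hf, by rwa [one_mul]⟩

theorem mul_mem_LSet_mul {D E : CDiv X} {h h' : X.functionField} (hh : h ∈ CDiv.LSet D)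
    (hh' : h' ∈ CDiv.LSet E) : h * h' ∈ CDiv.LSet (D * E) := by
  intro x
  obtain ⟨f, hf, hfm⟩ := hh x
  obtain ⟨f', hf', hfm'⟩ := hh' x
  refine ⟨f * f', ?_, ?_⟩
  · change D.1 x * E.1 x = _
    rw [hf, hf']
    rfl
  · have h1 : h * h' * ((f * f' : (X.functionField)ˣ) : X.functionField) =
        (h * f) * (h' * f') := by
      push_cast
      ring
    rw [h1]
    exact Subring.mul_mem _ hfm hfm'

theorem LSet_pow_mono {D : CDiv X} (hD : CDiv.IsEffective D) {m n : ℕ} (hmn : m ≤ n) :
    CDiv.LSet (D ^ m) ⊆ CDiv.LSet (D ^ n) := by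
  intro h hh
  have h1 := mul_mem_LSet_mul hh (one_mem_LSet_of_isEffective (isEffective_pow hD (n - m)))
  rwa [mul_one, ← pow_add, Nat.add_sub_cancel' hmn] at h1

end Filtration


section Lower

variable {A : Scheme.{u}} [IsIntegral A] {K : Type u} [Field K]
  (a : A ⟶ Spec (CommRingCat.of K))

/-- The germ of a Cartier divisor at the generic point is trivial. -/
theorem apply_genericPoint (D : CDiv A) : D.1 (genericPoint A) = 1 := by
  obtain ⟨f, hf⟩ := QuotientGroup.mk_surjective (D.1 (genericPoint A))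
  rw [← hf, QuotientGroup.eq_one_iff]
  refine ⟨f, Units.ext ?_⟩
  simp [RingHom.algebraMap_toAlgebra]

theorem genericPoint_notMem_supp (D : CDiv A) : genericPoint A ∉ CDiv.supp D :=
  fun h => h (apply_genericPoint D)

/-- Monotonicity of `L(D ^ m)` in `m` for an effective divisor, as submodules. -/
theorem LSub_pow_mono {D : CDiv A} (hD : CDiv.IsEffective D) {m n : ℕ} (hmn : m ≤ n) :
    letI := (constHom a).toAlgebra
    CDiv.LSub a (D ^ m) ≤ CDiv.LSub a (D ^ n) :=
  fun _ hh => LSet_pow_mono hD hmn hh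

theorem LFinite_pow_of_le {D : CDiv A} (hD : CDiv.IsEffective D) {m n : ℕ} (hmn : m ≤ n)
    (hfin : CDiv.LFinite a (D ^ n)) : CDiv.LFinite a (D ^ m) := by
  let _ := (constHom a).toAlgebra
  have : FiniteDimensional K (CDiv.LSub a (D ^ n)) := hfin
  exact Submodule.finiteDimensional_of_le (LSub_pow_mono a hD hmn)

theorem ell_pow_mono {D : CDiv A} (hD : CDiv.IsEffective D) {m n : ℕ} (hmn : m ≤ n)
    (hfin : CDiv.LFinite a (D ^ n)) : CDiv.ell a (D ^ m) ≤ CDiv.ell a (D ^ n) := by
  let _ := (constHom a).toAlgebra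
  have : Module.Finite K (CDiv.LSub a (D ^ n)) := hfin
  exact Submodule.finrank_mono (LSub_pow_mono a hD hmn)

/-- **Lower growth** from `g` algebraically independent rational functions that are regular off
the support of the effective divisor `D`. -/
theorem choose_le_ell_pow_of_regular [CompactSpace A] (D : CDiv A)
    (hD : CDiv.IsEffective D) (g : ℕ) (t : Fin g → A.functionField)
    (ht : letI := (constHom a).toAlgebra
      AlgebraicIndependent K t)
    (hreg : ∀ i, ∀ p, p ∉ CDiv.supp D → t i ∈ localSubring A p) :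
    ∃ a0 : ℕ, 0 < a0 ∧ ∀ k, CDiv.LFinite a (D ^ (k * a0)) →
      Nat.choose (k + g) g ≤ CDiv.ell a (D ^ (k * a0)) := by
  let _ := (constHom a).toAlgebra
  choose n hn using fun i => exists_forall_mem_LSet_pow D hD (t i) (hreg i)
  refine ⟨Finset.univ.sup n + 1, Nat.succ_pos _, fun k hfin => ?_⟩
  have hta : ∀ i, t i ∈ CDiv.LSub a (D ^ (Finset.univ.sup n + 1)) := fun i =>
    hn i _ (le_trans (Finset.le_sup (Finset.mem_univ i)) (Nat.le_succ _))
  have : Module.Finite K (CDiv.LSub a (D ^ (k * (Finset.univ.sup n + 1)))) := hfin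
  exact helper601.choose_le_finrank (fun m => CDiv.LSub a (D ^ m))
    (one_mem_LSet_of_isEffective (isEffective_pow hD 0))
    (fun m m' x hx y hy => by
      change x * y ∈ CDiv.LSet (D ^ (m + m'))
      rw [pow_add]
      exact mul_mem_LSet_mul hx hy)
    (fun _ _ hmn => LSub_pow_mono a hD hmn) t ht _ hta k

/-- **Lower growth on `A`** (the last conjunct of `helper154.Stmt_DivisorPos`): for `A` integral,
quasi-compact and smooth of relative dimension `g` over `K`, and `D` effective such that the
complement of its support is an affine open, `choose (k + g) g ≤ ℓ(k a0 D)` for a suitable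
`a0 > 0` and all `k` for which `L(k a0 D)` is finite-dimensional. -/
theorem exists_choose_le_ell_pow [CompactSpace A] (g : ℕ) [SmoothOfRelativeDimension g a]
    (D : CDiv A) (hD : CDiv.IsEffective D)
    (hU : ∃ U : A.Opens, IsAffineOpen U ∧ (U : Set A) = (CDiv.supp D)ᶜ) :
    ∃ a0 : ℕ, 0 < a0 ∧ ∀ k, CDiv.LFinite a (D ^ (k * a0)) →
      Nat.choose (k + g) g ≤ CDiv.ell a (D ^ (k * a0)) := by
  obtain ⟨U, hU, hUD⟩ := hU
  have hgenU : genericPoint A ∈ U := by
    rw [← SetLike.mem_coe, hUD]
    exact genericPoint_notMem_supp D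
  have : Nonempty U := ⟨⟨_, hgenU⟩⟩
  obtain ⟨t, ht, -, hreg⟩ := helper6179.exists_algebraicIndependent_regular_of_smooth a g U hU
  refine choose_le_ell_pow_of_regular a D hD g t ht (fun i p hp => hreg i p ?_)
  rw [← SetLike.mem_coe, hUD]
  exact hp

/-- Numeric form: from `choose (k + g) g ≤ ℓ(k a0 D)` to `m ^ g ≤ c * ℓ(m D)` for all `m`. -/
theorem exists_pow_le_mul_ell_of_choose {D : CDiv A} (hD : CDiv.IsEffective D) (g a0 : ℕ)
    (ha0 : 0 < a0)
    (h : ∀ k, CDiv.LFinite a (D ^ (k * a0)) → Nat.choose (k + g) g ≤ CDiv.ell a (D ^ (k * a0))) :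
    ∃ c : ℕ, 0 < c ∧ ∀ m, CDiv.LFinite a (D ^ m) → m ^ g ≤ c * CDiv.ell a (D ^ m) := by
  refine ⟨a0 ^ g * g.factorial, Nat.mul_pos (pow_pos ha0 g) g.factorial_pos, fun m hfin => ?_⟩
  have hle : m / a0 * a0 ≤ m := Nat.div_mul_le_self m a0
  have h1 := h (m / a0) (LFinite_pow_of_le a hD hle hfin)
  have h2 := ell_pow_mono a hD hle hfin
  have h3 : m ≤ a0 * (m / a0 + 1) := (Nat.lt_mul_div_succ m ha0).le
  have h4 : (m / a0 + 1) ^ g ≤ g.factorial * (m / a0 + g).choose g := by
    rw [← Nat.ascFactorial_eq_factorial_mul_choose]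
    exact Nat.pow_succ_le_ascFactorial _ _
  calc m ^ g ≤ (a0 * (m / a0 + 1)) ^ g := Nat.pow_le_pow_left h3 g
    _ = a0 ^ g * (m / a0 + 1) ^ g := mul_pow _ _ _
    _ ≤ a0 ^ g * (g.factorial * (m / a0 + g).choose g) := Nat.mul_le_mul_left _ h4
    _ ≤ a0 ^ g * (g.factorial * CDiv.ell a (D ^ m)) :=
        Nat.mul_le_mul_left _ (Nat.mul_le_mul_left _ (h1.trans h2))
    _ = a0 ^ g * g.factorial * CDiv.ell a (D ^ m) := (mul_assoc _ _ _).symm

/-- **Lower growth on `A`, numeric form**: `m ^ g ≤ c * ℓ(m D)` for all `m` with `L(m D)`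
finite-dimensional. -/
theorem exists_pow_le_mul_ell [CompactSpace A] (g : ℕ) [SmoothOfRelativeDimension g a]
    (D : CDiv A) (hD : CDiv.IsEffective D)
    (hU : ∃ U : A.Opens, IsAffineOpen U ∧ (U : Set A) = (CDiv.supp D)ᶜ) :
    ∃ c : ℕ, 0 < c ∧ ∀ m, CDiv.LFinite a (D ^ m) → m ^ g ≤ c * CDiv.ell a (D ^ m) := by
  obtain ⟨a0, ha0, h⟩ := exists_choose_le_ell_pow a g D hD hU
  exact exists_pow_le_mul_ell_of_choose a hD g a0 ha0 h

end Lower

section Statement

open GoodReductionJacobian NeronModelInfra

/-- What remains of `helper154.Stmt_DivisorPos` once lower growth is known (the M8-DEXIST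
deliverable): an effective symmetric Cartier divisor not through the origin whose support has
affine complement. -/
def Stmt_DExistPos : Prop :=
  ∀ (K : Type u) [Field K] {A : Scheme.{u}} (f : A ⟶ Spec (CommRingCat.of K))
    (L : RelativeGroupLaw K f) (g : ℕ) [IsIntegral A], IsAbVar K f L g → 0 < g →
    ∃ D : CDiv A, CDiv.IsEffective D ∧ CDiv.PullsTo (invMap L) D D ∧
      (∀ p, IsOrigin L p → p ∉ CDiv.supp D) ∧
      (∃ U : A.Opens, IsAffineOpen U ∧ (U : Set A) = (CDiv.supp D)ᶜ)

/-- M8-DEXIST + M8-LOWER deliver `Stmt_DivisorPos`. -/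
theorem stmt_DivisorPos (h : Stmt_DExistPos.{u}) : Stmt_DivisorPos.{u} := by
  intro K _ A f L g _ hA hg
  obtain ⟨D, hD, hsym, h0, hU⟩ := h K f L g hA hg
  have := hA.smooth
  have := hA.bundle.proper
  have : CompactSpace A := QuasiCompact.compactSpace_of_compactSpace f
  exact ⟨D, hD, hsym, h0, hU, exists_choose_le_ell_pow f g D hD hU⟩

end Statement

end Fermat.Agent.S26.helper3890
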