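/-
S26-M2-DEXIST (helper891).  Mathlib-only.

1. `mem_of_forall_germ_mem_stalk`: on an integral separated scheme, a point at which all
   coordinate functions of an affine open `U` are regular lies in `U`.
2. Denominators of rational functions at points with factorial local rings (`IsDenom`),
   and their spreading out on locally noetherian schemes (`IsDenom.exists_open`).
3. `exists_divisor_support_compl_affine`: an effective Cartier divisor (stalkwise local
   equations `d x`) whose support is exactly the complement of a given affine open, and along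
   which every regular function on the affine open has poles of bounded order.
   No Hartogs lemma, no purity theorem, no Krull domains.
-/
import Mathlib

set_option autoImplicit false

universe u

open CategoryTheory AlgebraicGeometry

namespace Fermat.Agent.S26.helper891

/-! ### The core lemma -/

section Core

variable {X : Scheme.{u}}

/-- `Spec` of an injective ring homomorphism is dominant. -/
theorem isDominant_specMap_of_injective {R S : CommRingCat.{u}} (f : R ⟶ S)
    (hf : Function.Injective f.hom) : IsDominant (Spec.map f) := by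
  constructor
  have : DenseRange (PrimeSpectrum.comap f.hom) := by
    rw [PrimeSpectrum.denseRange_comap_iff_ker_le_nilRadical,
      (RingHom.injective_iff_ker_eq_bot _).mp hf]
    exact bot_le
  exact this

/-- The morphism `Spec K(X) ⟶ Spec 𝒪_{X,x}` is dominant. -/
theorem isDominant_specMap_stalk_functionField [IsIntegral X] (x : X) :
    IsDominant (Spec.map (CommRingCat.ofHom
      (algebraMap (X.presheaf.stalk x) X.functionField))) :=
  isDominant_specMap_of_injective _ (IsFractionRing.injective _ _)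

/-- **Core lemma.** Let `X` be an integral separated scheme, `U` an affine open and `x` a point.
If every section over `U` is (as an element of the function field) in the local ring at `x`,
then `x ∈ U`. -/
theorem mem_of_forall_germ_mem_stalk [IsIntegral X] [X.IsSeparated] {U : X.Opens}
    (hU : IsAffineOpen U) [Nonempty U] (x : X)
    (h : ∀ s : Γ(X, U), X.germToFunctionField U s ∈
      (algebraMap (X.presheaf.stalk x) X.functionField).range) : x ∈ U := by
  classical
  -- the ring homomorphism `Γ(X,U) → 𝒪_x`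
  have hinj : Function.Injective (algebraMap (X.presheaf.stalk x) X.functionField) :=
    IsFractionRing.injective _ _
  choose φ₀ hφ₀ using h
  let φ : Γ(X, U) →+* X.presheaf.stalk x :=
    { toFun := φ₀
      map_one' := hinj (by rw [hφ₀]; simp)
      map_mul' := fun a b => hinj (by rw [hφ₀, map_mul, map_mul, hφ₀, hφ₀])
      map_zero' := hinj (by rw [hφ₀]; simp)
      map_add' := fun a b => hinj (by rw [hφ₀, map_add, map_add, hφ₀, hφ₀]) }
  have hφ : (algebraMap (X.presheaf.stalk x) X.functionField).comp φ =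
      (X.germToFunctionField U).hom := RingHom.ext hφ₀
  have hgen : genericPoint X ∈ U :=
    ((genericPoint_spec X).mem_open_set_iff U.isOpen).mpr (by simpa using ‹Nonempty U›)
  -- the two morphisms `Spec 𝒪_x ⟶ X`
  let j : Spec (X.presheaf.stalk x) ⟶ X := X.fromSpecStalk x
  let j' : Spec (X.presheaf.stalk x) ⟶ X := Spec.map (CommRingCat.ofHom φ) ≫ hU.fromSpec
  let ι : Spec X.functionField ⟶ Spec (X.presheaf.stalk x) :=
    Spec.map (CommRingCat.ofHom (algebraMap (X.presheaf.stalk x) X.functionField))
  have hι : IsDominant ι := isDominant_specMap_stalk_functionField x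
  have h1 : ι ≫ j = X.fromSpecStalk (genericPoint X) :=
    Scheme.SpecMap_stalkSpecializes_fromSpecStalk (X := X)
      ((genericPoint_spec X).specializes (y := x) trivial)
  have h2 : ι ≫ j' = X.fromSpecStalk (genericPoint X) := by
    rw [← hU.fromSpecStalk_eq_fromSpecStalk hgen, IsAffineOpen.fromSpecStalk]
    show (Spec.map _ ≫ Spec.map _) ≫ hU.fromSpec = _
    congr 1
    refine (Spec.map_comp _ _).symm.trans (congrArg Spec.map ?_)
    ext s
    exact hφ₀ s
  have hjj' : j = j' := ext_of_isDominant ι (h1.trans h2.symm)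
  have hx : j (IsLocalRing.closedPoint (X.presheaf.stalk x)) = x :=
    Scheme.fromSpecStalk_closedPoint
  rw [← hx, hjj']
  have : j' (IsLocalRing.closedPoint (X.presheaf.stalk x)) ∈ Set.range hU.fromSpec :=
    ⟨_, rfl⟩
  rw [hU.range_fromSpec] at this
  exact this

end Core

/-! ### Algebra: denominators -/

section Algebra

variable {R K : Type*} [CommRing R] [IsDomain R] [Field K] [Algebra R K] [IsFractionRing R K]

/-- In a UFD the denominator ideal of an element of the fraction field is principal. -/
theorem exists_denominator [UniqueFactorizationMonoid R] (c : K) :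
    ∃ b : R, b ≠ 0 ∧ ∀ r : R, (∃ r' : R, algebraMap R K r' = algebraMap R K r * c) ↔ b ∣ r := by
  obtain ⟨a, ⟨b, hb⟩, hab, rfl⟩ := IsFractionRing.exists_reduced_fraction (A := R) c
  have hb0 : b ≠ 0 := nonZeroDivisors.ne_zero hb
  have hbK : algebraMap R K b ≠ 0 := by
    simpa using (IsFractionRing.injective R K).ne hb0
  refine ⟨b, hb0, fun r => ⟨?_, ?_⟩⟩
  · rintro ⟨r', hr'⟩
    have h1 : r' * b = r * a := by
      apply IsFractionRing.injective R K
      rw [map_mul, map_mul, hr', IsFractionRing.mk'_eq_div]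
      field_simp
    exact hab.symm.dvd_of_dvd_mul_right ⟨r', by rw [← h1]; ring⟩
  · rintro ⟨s, rfl⟩
    refine ⟨s * a, ?_⟩
    rw [IsFractionRing.mk'_eq_div, map_mul, map_mul]
    field_simp

end Algebra

section AlgebraLoc

variable {B K : Type*} [CommRing B] [IsDomain B] [Field K] [Algebra B K] [IsFractionRing B K]

/-- `z : K` lies in the localisation of `B` at the prime `q` (viewed inside `K`). -/
def InLoc (q : Ideal B) (z : K) : Prop :=
  ∃ s : B, s ∉ q ∧ ∃ a : B, algebraMap B K s * z = algebraMap B K a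

/-- `b` generates the denominator ideal of `c` in the localisation of `B` at `q`. -/
def DenomAt (q : Ideal B) (c b : K) : Prop :=
  ∀ r : K, (InLoc q r ∧ InLoc q (r * c)) ↔ ∃ u : K, InLoc q u ∧ r = b * u

omit [IsDomain B] [IsFractionRing B K] in
theorem inLoc_algebraMap (q : Ideal B) [q.IsPrime] (a : B) : InLoc q (algebraMap B K a) :=
  ⟨1, fun h => (Ideal.ne_top_iff_one q).mp (Ideal.IsPrime.ne_top ‹_›) h, a, by simp⟩

omit [IsDomain B] [IsFractionRing B K] in
theorem inLoc_one (q : Ideal B) [q.IsPrime] : InLoc q (1 : K) := by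
  simpa using inLoc_algebraMap (K := K) q (1 : B)

/-- The denominator ideal of `c` in `B`. -/
def denomIdeal (B : Type*) {K : Type*} [CommRing B] [Field K] [Algebra B K] (c : K) : Ideal B where
  carrier := {r | ∃ r' : B, algebraMap B K r' = algebraMap B K r * c}
  add_mem' := by
    rintro x y ⟨x', hx⟩ ⟨y', hy⟩
    exact ⟨x' + y', by rw [map_add, map_add, hx, hy]; ring⟩
  zero_mem' := ⟨0, by simp⟩
  smul_mem' := by
    rintro a x ⟨x', hx⟩
    exact ⟨a * x', by rw [smul_eq_mul, map_mul, map_mul, hx]; ring⟩

omit [IsDomain B] [IsFractionRing B K] in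
theorem mem_denomIdeal {c : K} {r : B} :
    r ∈ denomIdeal B c ↔ ∃ r' : B, algebraMap B K r' = algebraMap B K r * c := Iff.rfl

omit [IsDomain B] in
/-- **Spreading out a local denominator.** If `b` generates the denominator ideal of `c` at the
prime `p` of the noetherian domain `B`, it does so at all primes of a basic open neighbourhood. -/
theorem exists_basicOpen_denomAt [IsNoetherianRing B] (p : Ideal B) [p.IsPrime] (c b : K)
    (h : DenomAt p c b) :
    ∃ g : B, g ∉ p ∧ ∀ q : Ideal B, q.IsPrime → g ∉ q → DenomAt q c b := by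
  classical
  -- `b` and `b * c` are in the localisation at `p`
  obtain ⟨⟨s0, hs0, a0, h0⟩, ⟨s1, hs1, a1, h1⟩⟩ := (h b).mpr ⟨1, inLoc_one p, by simp⟩
  -- every element of the denominator ideal is `b * (something in the localisation at p)`
  have hJ : ∀ j : B, j ∈ denomIdeal B c →
      ∃ t : B, t ∉ p ∧ ∃ A : B, algebraMap B K (t * j) = b * algebraMap B K A := by
    intro j hj
    obtain ⟨j', hj'⟩ := hj
    obtain ⟨u, ⟨t, ht, A, hA⟩, hu⟩ := (h (algebraMap B K j)).mp
      ⟨inLoc_algebraMap p j, by rw [← hj']; exact inLoc_algebraMap p j'⟩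
    exact ⟨t, ht, A, by rw [map_mul, hu, ← hA]; ring⟩
  obtain ⟨gens, hgens⟩ := (isNoetherianRing_iff_ideal_fg B).mp ‹_› (denomIdeal B c)
  have hgens_mem : ∀ j ∈ gens, j ∈ denomIdeal B c := fun j hj =>
    hgens ▸ Ideal.subset_span hj
  choose! t ht A hA using hJ
  refine ⟨s0 * s1 * ∏ j ∈ gens, t j, ?_, ?_⟩
  · intro hmem
    rcases (Ideal.IsPrime.mem_or_mem ‹p.IsPrime› hmem) with h' | h'
    · rcases (Ideal.IsPrime.mem_or_mem ‹p.IsPrime› h') with h'' | h''
      · exact hs0 h''
      · exact hs1 h''
    · obtain ⟨j, hj, hjm⟩ := Ideal.IsPrime.prod_mem_iff.mp h'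
      exact ht j (hgens_mem j hj) hjm
  · intro q hq hg
    have hs0q : s0 ∉ q := fun hmem => hg (Ideal.mul_mem_right _ _ (Ideal.mul_mem_right _ _ hmem))
    have hs1q : s1 ∉ q := fun hmem => hg (Ideal.mul_mem_right _ _ (Ideal.mul_mem_left _ _ hmem))
    have htq : ∀ j ∈ gens, t j ∉ q := fun j hj hmem =>
      hg (Ideal.mul_mem_left _ _ (Ideal.mem_of_dvd _ (Finset.dvd_prod_of_mem t hj) hmem))
    -- every element of the denominator ideal is `b * (something in the localisation at q)`
    have hJq : ∀ j : B, j ∈ denomIdeal B c →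
        ∃ t : B, t ∉ q ∧ ∃ A : B, algebraMap B K (t * j) = b * algebraMap B K A := by
      intro j hj
      rw [← hgens] at hj
      induction hj using Submodule.span_induction with
      | mem j hj => exact ⟨t j, htq j hj, A j, hA j (hgens_mem j hj)⟩
      | zero => exact ⟨1, fun h1 => (Ideal.ne_top_iff_one q).mp hq.ne_top h1, 0, by simp⟩
      | add x y _ _ hx hy =>
        obtain ⟨tx, htx, Ax, hAx⟩ := hx
        obtain ⟨ty, hty, Ay, hAy⟩ := hy
        refine ⟨tx * ty, fun hmem => (hq.mem_or_mem hmem).elim htx hty, ty * Ax + tx * Ay, ?_⟩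
        have e1 : algebraMap B K (tx * ty * (x + y)) =
            algebraMap B K ty * algebraMap B K (tx * x) +
              algebraMap B K tx * algebraMap B K (ty * y) := by
          simp only [map_mul, map_add]; ring
        rw [e1, hAx, hAy]
        simp only [map_mul, map_add]; ring
      | smul a x _ hx =>
        obtain ⟨tx, htx, Ax, hAx⟩ := hx
        refine ⟨tx, htx, a * Ax, ?_⟩
        have e1 : algebraMap B K (tx * a • x) = algebraMap B K a * algebraMap B K (tx * x) := by
          simp only [smul_eq_mul, map_mul]; ring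
        rw [e1, hAx]
        simp only [map_mul]; ring
    have hne : ∀ s : B, s ∉ q → algebraMap B K s ≠ 0 := by
      intro s hs h0'
      have : s = 0 := (IsFractionRing.injective B K) (by rw [h0', map_zero])
      exact hs (this ▸ q.zero_mem)
    intro r
    constructor
    · rintro ⟨⟨s, hs, a, ha⟩, ⟨s', hs', a', ha'⟩⟩
      -- `s' * a` is in the denominator ideal
      have hmem : s' * a ∈ denomIdeal B c := by
        refine ⟨s * a', ?_⟩
        rw [map_mul, map_mul, ← ha, ← ha']; ring
      obtain ⟨T, hT, A', hA'⟩ := hJq _ hmem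
      have hTs : T * s' * s ∉ q := fun hmem' =>
        (hq.mem_or_mem hmem').elim (fun h' => (hq.mem_or_mem h').elim hT hs') hs
      refine ⟨algebraMap B K A' / algebraMap B K (T * s' * s), ⟨T * s' * s, hTs, A', ?_⟩, ?_⟩
      · exact mul_div_cancel₀ _ (hne _ hTs)
      · have e2 : algebraMap B K (T * s' * s) * r = b * algebraMap B K A' := by
          rw [← hA']; simp only [map_mul]; rw [← ha]; ring
        rw [mul_div_assoc', ← e2, mul_div_cancel_left₀ _ (hne _ hTs)]
    · rintro ⟨u, ⟨s, hs, a, ha⟩, rfl⟩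
      refine ⟨⟨s0 * s, fun hmem => (hq.mem_or_mem hmem).elim hs0q hs, a0 * a, ?_⟩,
        ⟨s1 * s, fun hmem => (hq.mem_or_mem hmem).elim hs1q hs, a1 * a, ?_⟩⟩
      · simp only [map_mul]; rw [← h0, ← ha]; ring
      · simp only [map_mul]; rw [← h1, ← ha]; ring

end AlgebraLoc

/-! ### Schemes: local rings inside the function field -/

section Scheme

variable {X : Scheme.{u}}

/-- The local ring at `x`, as a subring of the function field. -/
noncomputable def stalkRing (X : Scheme.{u}) [IsIntegral X] (x : X) : Subring X.functionField :=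
  (algebraMap (X.presheaf.stalk x) X.functionField).range

theorem mem_stalkRing_iff [IsIntegral X] {x : X} {z : X.functionField} :
    z ∈ stalkRing X x ↔ ∃ w : X.presheaf.stalk x,
      algebraMap (X.presheaf.stalk x) X.functionField w = z := Iff.rfl

/-- Germs of sections defined at `x` lie in the local ring at `x`. -/
theorem germToFunctionField_mem_stalkRing [IsIntegral X] {U : X.Opens} [Nonempty U] {x : X}
    (hx : x ∈ U) (s : Γ(X, U)) : X.germToFunctionField U s ∈ stalkRing X x :=
  ⟨X.presheaf.germ U x hx s, Scheme.algebraMap_germ_eq_germToFunctionField X hx s⟩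

/-- On an affine open `V`, the local ring at `y ∈ V` is the localisation of `Γ(X, V)` at the
prime ideal of `y`, inside the function field. -/
theorem mem_stalkRing_iff_inLoc [IsIntegral X] {V : X.Opens} (hV : IsAffineOpen V) [Nonempty V]
    {y : X} (hy : y ∈ V) (z : X.functionField) :
    z ∈ stalkRing X y ↔ InLoc (B := Γ(X, V)) (hV.primeIdealOf ⟨y, hy⟩).asIdeal z := by
  let _ : Algebra Γ(X, V) (X.presheaf.stalk y) := X.presheaf.algebra_section_stalk ⟨y, hy⟩
  have hloc : IsLocalization.AtPrime (X.presheaf.stalk y) (hV.primeIdealOf ⟨y, hy⟩).asIdeal :=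
    hV.isLocalization_stalk ⟨y, hy⟩
  have htower : IsScalarTower Γ(X, V) (X.presheaf.stalk y) X.functionField :=
    functionField_isScalarTower X V ⟨y, hy⟩
  constructor
  · rintro ⟨w, rfl⟩
    obtain ⟨a, s, rfl⟩ := IsLocalization.exists_mk'_eq
      (hV.primeIdealOf ⟨y, hy⟩).asIdeal.primeCompl w
    refine ⟨s.1, fun h => s.2 h, a, ?_⟩
    rw [IsScalarTower.algebraMap_apply Γ(X, V) (X.presheaf.stalk y) X.functionField,
      IsScalarTower.algebraMap_apply Γ(X, V) (X.presheaf.stalk y) X.functionField a,
      ← map_mul, mul_comm, IsLocalization.mk'_spec]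
  · rintro ⟨s, hs, a, hsa⟩
    have hs0 : algebraMap Γ(X, V) X.functionField s ≠ 0 := by
      intro h0
      have : s = 0 := X.germToFunctionField_injective V (by
        rw [map_zero]; exact h0)
      exact hs (this ▸ Ideal.zero_mem _)
    refine ⟨IsLocalization.mk' (X.presheaf.stalk y) a
      (⟨s, hs⟩ : (hV.primeIdealOf ⟨y, hy⟩).asIdeal.primeCompl), ?_⟩
    apply mul_left_cancel₀ hs0
    rw [hsa, IsScalarTower.algebraMap_apply Γ(X, V) (X.presheaf.stalk y) X.functionField,
      IsScalarTower.algebraMap_apply Γ(X, V) (X.presheaf.stalk y) X.functionField a,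
      ← map_mul, mul_comm]
    congr 1
    exact IsLocalization.mk'_spec _ a (⟨s, hs⟩ : (hV.primeIdealOf ⟨y, hy⟩).asIdeal.primeCompl)

/-- `b` generates the denominator ideal `{r ∈ 𝒪_x | r * c ∈ 𝒪_x}` of `c` at `x`. -/
def IsDenom (X : Scheme.{u}) [IsIntegral X] (x : X) (c b : X.functionField) : Prop :=
  ∀ r : X.functionField, (r ∈ stalkRing X x ∧ r * c ∈ stalkRing X x) ↔
    ∃ u ∈ stalkRing X x, r = b * u

variable [IsIntegral X] {x : X} {c b b' : X.functionField}

theorem IsDenom.mem (h : IsDenom X x c b) : b ∈ stalkRing X x :=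
  ((h b).mpr ⟨1, one_mem _, by simp⟩).1

theorem IsDenom.mul_mem (h : IsDenom X x c b) : b * c ∈ stalkRing X x :=
  ((h b).mpr ⟨1, one_mem _, by simp⟩).2

theorem IsDenom.ne_zero (h : IsDenom X x c b) : b ≠ 0 := by
  rintro rfl
  obtain ⟨a, s, hs, rfl⟩ := IsFractionRing.div_surjective (A := X.presheaf.stalk x) c
  have hs0 : algebraMap (X.presheaf.stalk x) X.functionField s ≠ 0 := by
    intro h0
    exact (nonZeroDivisors.ne_zero hs)
      ((IsFractionRing.injective (X.presheaf.stalk x) X.functionField) (by rw [h0, map_zero]))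
  obtain ⟨u, -, hu⟩ := (h (algebraMap _ _ s)).mp ⟨⟨s, rfl⟩, ⟨a, by field_simp⟩⟩
  rw [zero_mul] at hu
  exact hs0 hu

theorem IsDenom.div_mem (h : IsDenom X x c b) (h' : IsDenom X x c b') :
    b' / b ∈ stalkRing X x := by
  obtain ⟨u, hu, hb'⟩ := (h b').mp ⟨h'.mem, h'.mul_mem⟩
  have : b' / b = u := by rw [hb', mul_div_cancel_left₀ _ h.ne_zero]
  rw [this]; exact hu

theorem IsDenom.mem_iff (h : IsDenom X x c b) : c ∈ stalkRing X x ↔ b⁻¹ ∈ stalkRing X x := by
  constructor
  · intro hc
    obtain ⟨u, hu, h1⟩ := (h 1).mp ⟨one_mem _, by simpa using hc⟩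
    have : b⁻¹ = u := inv_eq_of_mul_eq_one_right h1.symm
    rw [this]; exact hu
  · intro hb
    have := ((h 1).mpr ⟨b⁻¹, hb, by rw [mul_inv_cancel₀ h.ne_zero]⟩).2
    simpa using this

/-- At a point whose local ring is a UFD every rational function has a denominator. -/
theorem exists_isDenom (x : X) [UniqueFactorizationMonoid (X.presheaf.stalk x)]
    (c : X.functionField) : ∃ b : X.functionField, IsDenom X x c b := by
  obtain ⟨b0, -, hb0⟩ := exists_denominator (R := X.presheaf.stalk x) (K := X.functionField) c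
  refine ⟨algebraMap _ _ b0, fun r => ⟨?_, ?_⟩⟩
  · rintro ⟨⟨r0, rfl⟩, ⟨r', hr'⟩⟩
    obtain ⟨u0, rfl⟩ := (hb0 r0).mp ⟨r', hr'⟩
    exact ⟨algebraMap _ _ u0, ⟨u0, rfl⟩, by rw [map_mul]⟩
  · rintro ⟨_, ⟨u0, rfl⟩, rfl⟩
    obtain ⟨r', hr'⟩ := (hb0 (b0 * u0)).mpr (dvd_mul_right _ _)
    exact ⟨⟨b0 * u0, by rw [map_mul]⟩, ⟨r', by rw [hr', map_mul]⟩⟩

theorem isDenom_iff_denomAt {V : X.Opens} (hV : IsAffineOpen V) [Nonempty V]
    {y : X} (hy : y ∈ V) (c b : X.functionField) :
    IsDenom X y c b ↔ DenomAt (B := Γ(X, V)) (hV.primeIdealOf ⟨y, hy⟩).asIdeal c b := by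
  unfold IsDenom DenomAt
  simp only [mem_stalkRing_iff_inLoc hV hy]

omit [IsIntegral X] in
theorem mem_basicOpen_iff_notMem_primeIdealOf {V : X.Opens} (hV : IsAffineOpen V)
    {y : X} (hy : y ∈ V) (g : Γ(X, V)) :
    y ∈ X.basicOpen g ↔ g ∉ (hV.primeIdealOf ⟨y, hy⟩).asIdeal := by
  let _ : Algebra Γ(X, V) (X.presheaf.stalk y) := X.presheaf.algebra_section_stalk ⟨y, hy⟩
  have hloc : IsLocalization.AtPrime (X.presheaf.stalk y) (hV.primeIdealOf ⟨y, hy⟩).asIdeal :=
    hV.isLocalization_stalk ⟨y, hy⟩
  rw [Scheme.mem_basicOpen X g y hy]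
  exact IsLocalization.AtPrime.isUnit_to_map_iff (X.presheaf.stalk y)
    (hV.primeIdealOf ⟨y, hy⟩).asIdeal g

/-- **Denominators spread out**: if `b` is a denominator of `c` at `x`, then it is a denominator
of `c` at all points of a neighbourhood of `x` (locally noetherian integral schemes). -/
theorem IsDenom.exists_open [IsLocallyNoetherian X] (h : IsDenom X x c b) :
    ∃ W : X.Opens, x ∈ W ∧ ∀ y ∈ W, IsDenom X y c b := by
  obtain ⟨_, ⟨V, hV, rfl⟩, hxV, -⟩ :=
    X.isBasis_affineOpens.exists_subset_of_mem_open (Set.mem_univ x) isOpen_univ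
  have : Nonempty V := ⟨⟨x, hxV⟩⟩
  have : IsNoetherianRing Γ(X, V) := IsLocallyNoetherian.component_noetherian ⟨V, hV⟩
  have : IsFractionRing Γ(X, V) X.functionField :=
    functionField_isFractionRing_of_isAffineOpen X V hV
  obtain ⟨g, hg, hq⟩ := exists_basicOpen_denomAt (hV.primeIdealOf ⟨x, hxV⟩).asIdeal c b
    ((isDenom_iff_denomAt hV hxV c b).mp h)
  refine ⟨X.basicOpen g, (mem_basicOpen_iff_notMem_primeIdealOf hV hxV g).mpr hg, fun y hy => ?_⟩
  have hyV : y ∈ V := X.basicOpen_le g hy
  exact (isDenom_iff_denomAt hV hyV c b).mpr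
    (hq _ inferInstance ((mem_basicOpen_iff_notMem_primeIdealOf hV hyV g).mp hy))

/-- The characterisation of the points of an affine open by finitely many coordinate functions:
if `T` together with the restrictions of global sections generates `Γ(X, U)` as a ring, then
`x ∈ U` iff all elements of `T` are regular at `x`. -/
theorem mem_iff_forall_germ_mem_stalkRing [X.IsSeparated] {U : X.Opens}
    (hU : IsAffineOpen U) [Nonempty U] (T : Set Γ(X, U))
    (hT : Subring.closure (T ∪ Set.range (X.presheaf.map (homOfLE (le_top : U ≤ ⊤)).op).hom) = ⊤)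
    (x : X) : x ∈ U ↔ ∀ s ∈ T, X.germToFunctionField U s ∈ stalkRing X x := by
  refine ⟨fun hx s _ => germToFunctionField_mem_stalkRing hx s, fun h => ?_⟩
  apply mem_of_forall_germ_mem_stalk hU x
  have hle : Subring.closure
      (T ∪ Set.range (X.presheaf.map (homOfLE (le_top : U ≤ ⊤)).op).hom) ≤
      (stalkRing X x).comap (X.germToFunctionField U).hom := by
    rw [Subring.closure_le]
    rintro s (hs | ⟨σ, rfl⟩)
    · exact h s hs
    · have : Nonempty (⊤ : X.Opens) := ⟨⟨x, trivial⟩⟩
      have h1 : X.germToFunctionField U (X.presheaf.map (homOfLE (le_top : U ≤ ⊤)).op σ) =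
          X.germToFunctionField ⊤ σ :=
        X.presheaf.germ_res_apply (homOfLE (le_top : U ≤ ⊤)) _ _ σ
      show X.germToFunctionField U (X.presheaf.map (homOfLE (le_top : U ≤ ⊤)).op σ) ∈ stalkRing X x
      rw [h1]
      exact germToFunctionField_mem_stalkRing (U := ⊤) trivial σ
  intro s
  exact hle (hT ▸ Subring.mem_top s)

/-- **Existence of an effective Cartier divisor whose support is the complement of an affine
open** (stalkwise form).  `X` integral, separated, locally noetherian with factorial local rings;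
`U` an affine open whose coordinate ring is generated by the finite set `T` together with the
restrictions of global sections.  Then there is a family of local equations `d x ∈ K(X)` with
* `d x` a nonzero element of `𝒪_x`  (effective);
* `d` is locally represented by one function: `d y / d x` is a unit of `𝒪_y` for `y` near `x`
  (Cartier);
* `x ∈ U ↔ d x` is a unit of `𝒪_x`  (the support is exactly `X \ U`);
* every regular function on `U` has poles of bounded order along `d`. -/
theorem exists_divisor_support_compl_affine [X.IsSeparated] [IsLocallyNoetherian X]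
    (hufd : ∀ x : X, UniqueFactorizationMonoid (X.presheaf.stalk x))
    {U : X.Opens} (hU : IsAffineOpen U) [Nonempty U] (T : Finset Γ(X, U))
    (hT : Subring.closure ((T : Set Γ(X, U)) ∪
      Set.range (X.presheaf.map (homOfLE (le_top : U ≤ ⊤)).op).hom) = ⊤) :
    ∃ d : X → X.functionField,
      (∀ x, d x ≠ 0 ∧ d x ∈ stalkRing X x) ∧
      (∀ x, ∃ W : X.Opens, x ∈ W ∧
        ∀ y ∈ W, d y / d x ∈ stalkRing X y ∧ d x / d y ∈ stalkRing X y) ∧
      (∀ x, x ∈ U ↔ (d x)⁻¹ ∈ stalkRing X x) ∧
      (∀ s : Γ(X, U), ∃ a : ℕ, ∀ x, d x ^ a * X.germToFunctionField U s ∈ stalkRing X x) := by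
  classical
  have hex : ∀ (x : X) (s : Γ(X, U)), ∃ b : X.functionField,
      IsDenom X x (X.germToFunctionField U s) b := fun x s =>
    haveI := hufd x
    exists_isDenom x _
  choose β hβ using hex
  have hd_mem : ∀ x, ∏ s ∈ T, β x s ∈ stalkRing X x := fun x =>
    Subring.prod_mem _ fun s _ => (hβ x s).mem
  have hd_ne : ∀ x, ∏ s ∈ T, β x s ≠ 0 := fun x =>
    Finset.prod_ne_zero_iff.mpr fun s _ => (hβ x s).ne_zero
  refine ⟨fun x => ∏ s ∈ T, β x s, fun x => ⟨hd_ne x, hd_mem x⟩, fun x => ?_, fun x => ?_,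
    fun s => ?_⟩
  · -- local representability
    have key : ∀ T' : Finset Γ(X, U), ∃ W : X.Opens, x ∈ W ∧
        ∀ y ∈ W, ∀ s ∈ T', IsDenom X y (X.germToFunctionField U s) (β x s) := by
      intro T'
      induction T' using Finset.induction_on with
      | empty => exact ⟨⊤, trivial, by simp⟩
      | insert s T' _ ih =>
        obtain ⟨W, hxW, hW⟩ := ih
        obtain ⟨W', hxW', hW'⟩ := (hβ x s).exists_open
        refine ⟨W ⊓ W', ⟨hxW, hxW'⟩, fun y hy s' hs' => ?_⟩
        rcases Finset.mem_insert.mp hs' with rfl | h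
        · exact hW' y hy.2
        · exact hW y hy.1 s' h
    obtain ⟨W, hxW, hW⟩ := key T
    refine ⟨W, hxW, fun y hy => ⟨?_, ?_⟩⟩
    · show (∏ s ∈ T, β y s) / (∏ s ∈ T, β x s) ∈ stalkRing X y
      rw [← Finset.prod_div_distrib]
      exact Subring.prod_mem _ fun s hs => (hW y hy s hs).div_mem (hβ y s)
    · show (∏ s ∈ T, β x s) / (∏ s ∈ T, β y s) ∈ stalkRing X y
      rw [← Finset.prod_div_distrib]
      exact Subring.prod_mem _ fun s hs => (hβ y s).div_mem (hW y hy s hs)
  · -- support
    show x ∈ U ↔ (∏ s ∈ T, β x s)⁻¹ ∈ stalkRing X x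
    constructor
    · intro hx
      rw [← Finset.prod_inv_distrib]
      exact Subring.prod_mem _ fun s _ =>
        (hβ x s).mem_iff.mp (germToFunctionField_mem_stalkRing hx s)
    · intro hinv
      refine (mem_iff_forall_germ_mem_stalkRing hU (T : Set Γ(X, U)) hT x).mpr fun s hs => ?_
      have hs' : s ∈ T := hs
      refine (hβ x s).mem_iff.mpr ?_
      have e : (β x s)⁻¹ = (∏ s ∈ T, β x s)⁻¹ * ∏ s' ∈ T.erase s, β x s' := by
        rw [← Finset.mul_prod_erase T (β x) hs', mul_inv, mul_assoc,
          inv_mul_cancel₀ (Finset.prod_ne_zero_iff.mpr fun s' _ => (hβ x s').ne_zero), mul_one]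
      rw [e]
      exact Subring.mul_mem _ hinv (Subring.prod_mem _ fun s' _ => (hβ x s').mem)
  · -- bounded poles
    have hs : s ∈ Subring.closure ((T : Set Γ(X, U)) ∪
        Set.range (X.presheaf.map (homOfLE (le_top : U ≤ ⊤)).op).hom) := hT ▸ Subring.mem_top s
    induction hs using Subring.closure_induction with
    | mem s hs =>
      rcases hs with hs | ⟨σ, rfl⟩
      · have hs' : s ∈ T := hs
        refine ⟨1, fun x => ?_⟩
        show (∏ s ∈ T, β x s) ^ 1 * X.germToFunctionField U s ∈ stalkRing X x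
        rw [pow_one, ← Finset.mul_prod_erase T (β x) hs', mul_right_comm]
        exact Subring.mul_mem _ (hβ x s).mul_mem (Subring.prod_mem _ fun s' _ => (hβ x s').mem)
      · refine ⟨0, fun x => ?_⟩
        have : Nonempty (⊤ : X.Opens) := ⟨⟨x, trivial⟩⟩
        have h1 : X.germToFunctionField U (X.presheaf.map (homOfLE (le_top : U ≤ ⊤)).op σ) =
            X.germToFunctionField ⊤ σ :=
          X.presheaf.germ_res_apply (homOfLE (le_top : U ≤ ⊤)) _ _ σ
        rw [pow_zero, one_mul]
        show X.germToFunctionField U (X.presheaf.map (homOfLE (le_top : U ≤ ⊤)).op σ) ∈ _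
        rw [h1]
        exact germToFunctionField_mem_stalkRing (U := ⊤) trivial σ
    | zero => exact ⟨0, fun x => by simp⟩
    | one => exact ⟨0, fun x => by simp⟩
    | add s t _ _ hs ht =>
      obtain ⟨a, ha⟩ := hs
      obtain ⟨a', ha'⟩ := ht
      refine ⟨a + a', fun x => ?_⟩
      have e : (∏ s ∈ T, β x s) ^ (a + a') * X.germToFunctionField U (s + t) =
          (∏ s ∈ T, β x s) ^ a' * ((∏ s ∈ T, β x s) ^ a * X.germToFunctionField U s) +
            (∏ s ∈ T, β x s) ^ a * ((∏ s ∈ T, β x s) ^ a' * X.germToFunctionField U t) := by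
        rw [map_add, pow_add]; ring
      show (∏ s ∈ T, β x s) ^ (a + a') * X.germToFunctionField U (s + t) ∈ stalkRing X x
      rw [e]
      exact Subring.add_mem _ (Subring.mul_mem _ (Subring.pow_mem _ (hd_mem x) _) (ha x))
        (Subring.mul_mem _ (Subring.pow_mem _ (hd_mem x) _) (ha' x))
    | neg s _ hs =>
      obtain ⟨a, ha⟩ := hs
      refine ⟨a, fun x => ?_⟩
      show (∏ s ∈ T, β x s) ^ a * X.germToFunctionField U (-s) ∈ stalkRing X x
      rw [map_neg, mul_neg]
      exact Subring.neg_mem _ (ha x)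
    | mul s t _ _ hs ht =>
      obtain ⟨a, ha⟩ := hs
      obtain ⟨a', ha'⟩ := ht
      refine ⟨a + a', fun x => ?_⟩
      have e : (∏ s ∈ T, β x s) ^ (a + a') * X.germToFunctionField U (s * t) =
          ((∏ s ∈ T, β x s) ^ a * X.germToFunctionField U s) *
            ((∏ s ∈ T, β x s) ^ a' * X.germToFunctionField U t) := by
        rw [map_mul, pow_add]; ring
      show (∏ s ∈ T, β x s) ^ (a + a') * X.germToFunctionField U (s * t) ∈ stalkRing X x
      rw [e]
      exact Subring.mul_mem _ (ha x) (ha' x)

end Scheme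

end Fermat.Agent.S26.helper891
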