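/-
S26-M2-DEXIST (helper891), part II: the symmetric effective Cartier divisor with affine
complement, in the vocabulary of `helper154_Spec`.
-/
import Fermat.Agent.S26.helper154_Spec2
import Fermat.Agent.S26.helper891_AffineComplement

set_option autoImplicit false
set_option linter.style.haveILetI false

universe u

open CategoryTheory CategoryTheory.Limits AlgebraicGeometry NeronModelInfra GoodReductionJacobian

namespace Fermat.Agent.S26.helper891

open Fermat.Agent.S26.helper154

/-! ### Units of the local rings -/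

section Units

variable {X : Scheme.{u}} [IsIntegral X]

theorem stalkRing_eq_localSubring (x : X) : stalkRing X x = localSubring X x := rfl

/-- `u ∈ 𝒪_xˣ` iff `u` and `u⁻¹` are in `𝒪_x`. -/
theorem mem_unitsAt_iff_mem_mem (x : X) (u : (X.functionField)ˣ) :
    u ∈ unitsAt X x ↔ (u : X.functionField) ∈ localSubring X x ∧
      ((u⁻¹ : (X.functionField)ˣ) : X.functionField) ∈ localSubring X x := by
  constructor
  · rintro ⟨w, rfl⟩
    exact ⟨⟨w, rfl⟩, ⟨(w⁻¹ : (X.presheaf.stalk x)ˣ), by simp⟩⟩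
  · rintro ⟨⟨a, ha⟩, ⟨b, hb⟩⟩
    have hab : a * b = 1 := by
      apply IsFractionRing.injective (X.presheaf.stalk x) X.functionField
      rw [map_mul, ha, hb, map_one]
      simp
    refine ⟨Units.mkOfMulEqOne a b hab, Units.ext ?_⟩
    simpa using ha

theorem mk_eq_mk_iff_div (x : X) (u v : (X.functionField)ˣ) :
    (QuotientGroup.mk u : LocDiv X x) = QuotientGroup.mk v ↔
      (v : X.functionField) / u ∈ localSubring X x ∧
        (u : X.functionField) / v ∈ localSubring X x := by
  rw [QuotientGroup.eq, mem_unitsAt_iff_mem_mem]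
  have e1 : ((u⁻¹ * v : (X.functionField)ˣ) : X.functionField) = (v : X.functionField) / u := by
    simp [div_eq_inv_mul]
  have e2 : (((u⁻¹ * v)⁻¹ : (X.functionField)ˣ) : X.functionField) =
      (u : X.functionField) / v := by
    simp [div_eq_mul_inv, mul_comm]
  rw [e1, e2]

theorem mk_eq_one_iff_mem (x : X) (u : (X.functionField)ˣ) :
    (QuotientGroup.mk u : LocDiv X x) = 1 ↔
      (u : X.functionField) ∈ localSubring X x ∧
        (u : X.functionField)⁻¹ ∈ localSubring X x := by
  rw [QuotientGroup.eq_one_iff, mem_unitsAt_iff_mem_mem]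
  simp

end Units

/-! ### The map of function fields of a dominant morphism -/

section FunField

variable {Y X : Scheme.{u}} [IsIntegral Y] [IsIntegral X]

theorem algebraMap_stalk_functionField_apply (x : X) (w : X.presheaf.stalk x) :
    algebraMap (X.presheaf.stalk x) X.functionField w =
      X.presheaf.stalkSpecializes ((genericPoint_spec X).specializes trivial) w := rfl

/-- A dominant morphism maps the local ring at `φ y` into the local ring at `y`. -/
theorem funFieldHom_mem_localSubring (φ : Y ⟶ X) (h : IsDom φ) (y : Y) {z : X.functionField}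
    (hz : z ∈ localSubring X (φ.base y)) : funFieldHom φ h z ∈ localSubring Y y := by
  obtain ⟨w, rfl⟩ := hz
  refine ⟨φ.stalkMap y w, ?_⟩
  have hy : genericPoint Y ⤳ y := (genericPoint_spec Y).specializes trivial
  rw [algebraMap_stalk_functionField_apply, algebraMap_stalk_functionField_apply]
  show _ = φ.stalkMap (genericPoint Y) (X.presheaf.stalkSpecializes (specializes_of_eq h)
    (X.presheaf.stalkSpecializes ((genericPoint_spec X).specializes trivial) w))
  rw [← Scheme.Hom.stalkSpecializes_stalkMap_apply φ (genericPoint Y) y hy w]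
  congr 1
  rw [← ConcreteCategory.comp_apply, TopCat.Presheaf.stalkSpecializes_comp]

/-- `funFieldHom` on germs. -/
theorem funFieldHom_germ (φ : Y ⟶ X) (h : IsDom φ) (U : X.Opens) (hU : genericPoint X ∈ U)
    (hU' : genericPoint Y ∈ φ ⁻¹ᵁ U) (s : Γ(X, U)) :
    funFieldHom φ h (X.presheaf.germ U (genericPoint X) hU s) =
      Y.presheaf.germ (φ ⁻¹ᵁ U) (genericPoint Y) hU' (φ.app U s) := by
  show φ.stalkMap (genericPoint Y) (X.presheaf.stalkSpecializes (specializes_of_eq h)
    (X.presheaf.germ U (genericPoint X) hU s)) = _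
  rw [TopCat.Presheaf.germ_stalkSpecializes_apply, Scheme.Hom.germ_stalkMap_apply]

end FunField

/-! ### Involutions -/

section Involution

variable {X : Scheme.{u}} [IsIntegral X]

theorem isDom_of_isIso (ν : X ⟶ X) [IsIso ν] : IsDom ν :=
  genericPoint_eq_of_isOpenImmersion ν

/-- The map of function fields of an involution is an involution. -/
theorem funFieldHom_involutive (ν : X ⟶ X) (hν : ν ≫ ν = 𝟙 X) (h : IsDom ν)
    (z : X.functionField) : funFieldHom ν h (funFieldHom ν h z) = z := by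
  obtain ⟨U, hU, s, rfl⟩ := X.presheaf.exists_germ_eq z
  have hU' : genericPoint X ∈ ν ⁻¹ᵁ U := by
    show ν.base (genericPoint X) ∈ U
    rw [h]; exact hU
  have hU'' : genericPoint X ∈ ν ⁻¹ᵁ (ν ⁻¹ᵁ U) := by
    show ν.base (genericPoint X) ∈ ν ⁻¹ᵁ U
    rw [h]; exact hU'
  rw [funFieldHom_germ ν h U hU hU', funFieldHom_germ ν h _ hU' hU'']
  have key : ∀ (φ : X ⟶ X) (_ : φ = 𝟙 X) (hx : genericPoint X ∈ φ ⁻¹ᵁ U),
      X.presheaf.germ (φ ⁻¹ᵁ U) (genericPoint X) hx (φ.app U s) =
        X.presheaf.germ U (genericPoint X) hU s := by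
    intro φ hφ
    subst hφ
    intro hx
    rfl
  exact key (ν ≫ ν) hν hU''

end Involution

/-! ### Cartier divisors from families of local equations -/

section Family

variable {X : Scheme.{u}} [IsIntegral X]

/-- A family of local equations, locally constant up to units, is a Cartier divisor. -/
noncomputable def cdivOfFamily (d : X → (X.functionField)ˣ)
    (hloc : ∀ x, ∃ W : X.Opens, x ∈ W ∧ ∀ y ∈ W,
      (d y : X.functionField) / d x ∈ localSubring X y ∧
        (d x : X.functionField) / d y ∈ localSubring X y) : CDiv X :=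
  ⟨fun x => QuotientGroup.mk (d x), fun x => by
    obtain ⟨W, hxW, hW⟩ := hloc x
    exact ⟨W, hxW, d x, fun y hy =>
      (mk_eq_mk_iff_div y (d y) (d x)).mpr ⟨(hW y hy).2, (hW y hy).1⟩⟩⟩

theorem cdivOfFamily_apply (d : X → (X.functionField)ˣ)
    (hloc : ∀ x, ∃ W : X.Opens, x ∈ W ∧ ∀ y ∈ W,
      (d y : X.functionField) / d x ∈ localSubring X y ∧
        (d x : X.functionField) / d y ∈ localSubring X y) (x : X) :
    (cdivOfFamily d hloc).1 x = QuotientGroup.mk (d x) := rfl

/-- A criterion for `PullsTo` along a dominant morphism, at the level of function fields. -/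
theorem pullsTo_of_funFieldHom {Y : Scheme.{u}} [IsIntegral Y] (φ : Y ⟶ X) (h : IsDom φ)
    (D : CDiv X) (E : CDiv Y)
    (H : ∀ y : Y, ∃ w : (X.functionField)ˣ, D.1 (φ.base y) = QuotientGroup.mk w ∧
      E.1 y = QuotientGroup.mk
        (Units.map (funFieldHom φ h : X.functionField →* Y.functionField) w)) :
    CDiv.PullsTo φ D E := by
  intro y
  obtain ⟨w, hw1, hw2⟩ := H y
  refine ⟨Units.map ((X.presheaf.stalkSpecializes (specializes_of_eq h)).hom :
    X.functionField →* X.presheaf.stalk (φ.base (genericPoint Y))) w, ?_, ?_⟩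
  · rw [hw1]
    congr 1
    apply Units.ext
    show w.1 = algebraMap _ _ (X.presheaf.stalkSpecializes (specializes_of_eq h) w.1)
    rw [algebraMap_stalk_functionField_apply, ← ConcreteCategory.comp_apply,
      TopCat.Presheaf.stalkSpecializes_comp]
    exact (congrFun (congrArg (fun f => (f : X.functionField → X.functionField))
      (congrArg (fun f => f.hom) (TopCat.Presheaf.stalkSpecializes_refl X.presheaf
        (genericPoint X)))) w.1).symm
  · rw [hw2]
    rfl

end Family

/-! ### The symmetric divisor -/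

section Symmetric

variable {X : Scheme.{u}} [IsIntegral X]

/-- **Symmetrisation.**  Let `ν` be an involution of the integral scheme `X`, `U` a `ν`-stable
open, and `d` a family of local equations of an effective Cartier divisor with support `X \ U`
(stalkwise form, as produced by `exists_divisor_support_compl_affine`).  Then
`y ↦ d y * ν^*(d (ν y))` is an effective Cartier divisor `D` with `ν^* D = D` and support
`X \ U`. -/
theorem exists_symmetric_cdiv (ν : X ⟶ X) (hν : ν ≫ ν = 𝟙 X) (U : X.Opens)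
    (hUν : ∀ x, ν.base x ∈ U ↔ x ∈ U) (d : X → X.functionField)
    (hd : ∀ x, d x ≠ 0 ∧ d x ∈ localSubring X x)
    (hloc : ∀ x, ∃ W : X.Opens, x ∈ W ∧
      ∀ y ∈ W, d y / d x ∈ localSubring X y ∧ d x / d y ∈ localSubring X y)
    (hsupp : ∀ x, x ∈ U ↔ (d x)⁻¹ ∈ localSubring X x) :
    ∃ D : CDiv X, CDiv.IsEffective D ∧ CDiv.PullsTo ν D D ∧ (U : Set X) = (CDiv.supp D)ᶜ := by
  have : IsIso ν := ⟨⟨ν, hν, hν⟩⟩
  have hdom : IsDom ν := isDom_of_isIso ν
  have hνν : ∀ x, ν.base (ν.base x) = x := fun x => by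
    have h1 : (ν ≫ ν).base x = x := by rw [hν]; rfl
    exact h1
  -- the symmetrised family
  let e : X → (X.functionField)ˣ := fun y =>
    Units.mk0 (d y) (hd y).1 *
      Units.map (funFieldHom ν hdom : X.functionField →* X.functionField)
        (Units.mk0 (d (ν.base y)) (hd (ν.base y)).1)
  have he : ∀ y, (e y : X.functionField) = d y * funFieldHom ν hdom (d (ν.base y)) :=
    fun y => rfl
  have hσmem : ∀ y, funFieldHom ν hdom (d (ν.base y)) ∈ localSubring X y := fun y =>
    funFieldHom_mem_localSubring ν hdom y (hd (ν.base y)).2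
  have he_mem : ∀ y, (e y : X.functionField) ∈ localSubring X y := fun y => by
    rw [he]
    exact Subring.mul_mem _ (hd y).2 (hσmem y)
  have hσne : ∀ y, funFieldHom ν hdom (d (ν.base y)) ≠ 0 := fun y =>
    (map_ne_zero (funFieldHom ν hdom)).mpr (hd (ν.base y)).1
  have hloc' : ∀ x, ∃ W : X.Opens, x ∈ W ∧ ∀ y ∈ W,
      (e y : X.functionField) / e x ∈ localSubring X y ∧
        (e x : X.functionField) / e y ∈ localSubring X y := by
    intro x
    obtain ⟨W1, hx1, h1⟩ := hloc x
    obtain ⟨W2, hx2, h2⟩ := hloc (ν.base x)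
    refine ⟨W1 ⊓ ν ⁻¹ᵁ W2, ⟨hx1, hx2⟩, fun y hy => ?_⟩
    have hy2 : ν.base y ∈ W2 := hy.2
    have e1 : (e y : X.functionField) / e x =
        (d y / d x) * funFieldHom ν hdom (d (ν.base y) / d (ν.base x)) := by
      rw [he, he, map_div₀, mul_div_mul_comm]
    have e2 : (e x : X.functionField) / e y =
        (d x / d y) * funFieldHom ν hdom (d (ν.base x) / d (ν.base y)) := by
      rw [he, he, map_div₀, mul_div_mul_comm]
    rw [e1, e2]
    exact ⟨Subring.mul_mem _ (h1 y hy.1).1
        (funFieldHom_mem_localSubring ν hdom y (h2 _ hy2).1),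
      Subring.mul_mem _ (h1 y hy.1).2
        (funFieldHom_mem_localSubring ν hdom y (h2 _ hy2).2)⟩
  refine ⟨cdivOfFamily e hloc', fun x => ⟨e x, rfl, he_mem x⟩, ?_, ?_⟩
  · -- symmetry
    refine pullsTo_of_funFieldHom ν hdom _ _ fun y => ⟨e (ν.base y), rfl, ?_⟩
    rw [cdivOfFamily_apply]
    congr 1
    apply Units.ext
    show (e y : X.functionField) = funFieldHom ν hdom (e (ν.base y) : X.functionField)
    rw [he, he, map_mul, funFieldHom_involutive ν hν hdom, hνν y, mul_comm]
  · -- support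
    ext x
    have hiff : x ∈ (CDiv.supp (cdivOfFamily e hloc'))ᶜ ↔
        (e x : X.functionField) ∈ localSubring X x ∧
          (e x : X.functionField)⁻¹ ∈ localSubring X x := by
      rw [Set.mem_compl_iff, CDiv.supp, Set.mem_ofPred_eq, not_not, cdivOfFamily_apply,
        mk_eq_one_iff_mem]
    rw [hiff]
    constructor
    · intro hx
      refine ⟨he_mem x, ?_⟩
      rw [he, mul_inv]
      refine Subring.mul_mem _ ((hsupp x).mp hx) ?_
      rw [← map_inv₀]
      exact funFieldHom_mem_localSubring ν hdom x ((hsupp _).mp ((hUν x).mpr hx))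
    · rintro ⟨-, hinv⟩
      refine (hsupp x).mpr ?_
      have e3 : (d x)⁻¹ = (e x : X.functionField)⁻¹ * funFieldHom ν hdom (d (ν.base x)) := by
        rw [he, mul_inv, mul_assoc, inv_mul_cancel₀ (hσne x), mul_one]
      rw [e3]
      exact Subring.mul_mem _ hinv (hσmem x)

end Symmetric

/-! ### The frozen data -/

section Frozen

variable {K : Type u} [Field K] {A : Scheme.{u}} {f : A ⟶ Spec (CommRingCat.of K)}

/-- The inverse of a relative group law is natural in the test scheme. -/
theorem relGroupLaw_inv_natural (L : RelativeGroupLaw K f) {T T' : Scheme.{u}}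
    (t : T ⟶ Spec (CommRingCat.of K)) (t' : T' ⟶ Spec (CommRingCat.of K)) (ψ : T' ⟶ T)
    (hψ : ψ ≫ t = t') (x : SchemeHomOver t f) :
    schemeHomOverComp ψ hψ (L.inv t x) = L.inv t' (schemeHomOverComp ψ hψ x) := by
  letI := L.pointGroup t'
  have h : L.mul t' (schemeHomOverComp ψ hψ (L.inv t x)) (schemeHomOverComp ψ hψ x) =
      L.one t' := by
    rw [← L.mul_natural t t' ψ hψ, L.inv_mul_cancel, L.one_natural]
  exact eq_inv_of_mul_eq_one_left h

/-- The inverse of a `T`-point is its composition with `[-1]`. -/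
theorem relGroupLaw_inv_eq_comp_invMap (L : RelativeGroupLaw K f) {T : Scheme.{u}}
    (t : T ⟶ Spec (CommRingCat.of K)) (h : SchemeHomOver t f) :
    (L.inv t h).1 = h.1 ≫ invMap L := by
  have h1 := relGroupLaw_inv_natural L f t h.1 h.2 RelativeGroupLaw.idPoint
  have h2 : schemeHomOverComp h.1 h.2 (RelativeGroupLaw.idPoint (f := f)) = h :=
    Subtype.ext (Category.comp_id _)
  rw [h2] at h1
  exact (congrArg Subtype.val h1).symm

/-- `[-1]` is an involution. -/
theorem invMap_comp_invMap (L : RelativeGroupLaw K f) : invMap L ≫ invMap L = 𝟙 A := by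
  have h1 := relGroupLaw_inv_eq_comp_invMap L f (L.inv f RelativeGroupLaw.idPoint)
  letI := L.pointGroup f
  have h2 : L.inv f (L.inv f RelativeGroupLaw.idPoint) = RelativeGroupLaw.idPoint :=
    inv_inv (RelativeGroupLaw.idPoint (f := f))
  rw [h2] at h1
  exact h1.symm

/-- `[-1]` fixes the unit section. -/
theorem one_comp_invMap (L : RelativeGroupLaw K f) :
    (L.one (𝟙 (Spec (CommRingCat.of K)))).1 ≫ invMap L =
      (L.one (𝟙 (Spec (CommRingCat.of K)))).1 := by
  have h1 := relGroupLaw_inv_eq_comp_invMap L (𝟙 (Spec (CommRingCat.of K)))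
    (L.one (𝟙 (Spec (CommRingCat.of K))))
  letI := L.pointGroup (𝟙 (Spec (CommRingCat.of K)))
  have h2 : L.inv (𝟙 (Spec (CommRingCat.of K))) (L.one (𝟙 (Spec (CommRingCat.of K)))) =
      L.one (𝟙 (Spec (CommRingCat.of K))) :=
    inv_one
  rw [h2] at h1
  exact h1.symm

/-- **M2-DEXIST.**  On an abelian variety there is an effective Cartier divisor `D`, symmetric
(`[-1]^* D = D`), not through the origin, whose support is the complement of an affine open.
(`hUFD` = M1: the local rings are factorial.) -/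
theorem exists_symmetric_divisor (hUFD : Stmt_UFD.{u}) (L : RelativeGroupLaw K f) (g : ℕ)
    [IsIntegral A] (hA : IsAbVar K f L g) :
    ∃ D : CDiv A, CDiv.IsEffective D ∧ CDiv.PullsTo (invMap L) D D ∧
      (∀ p, IsOrigin L p → p ∉ CDiv.supp D) ∧
      ∃ U : A.Opens, IsAffineOpen U ∧ (U : Set A) = (CDiv.supp D)ᶜ := by
  classical
  haveI := hA.algClosed
  haveI : Smooth f := hA.bundle.smooth
  haveI : IsProper f := hA.bundle.proper
  haveI : A.IsSeparated := ⟨by rw [← terminal.comp_from f]; infer_instance⟩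
  haveI : IsLocallyNoetherian A := LocallyOfFiniteType.isLocallyNoetherian f
  have hν : invMap L ≫ invMap L = 𝟙 A := invMap_comp_invMap L
  haveI : IsIso (invMap L) := ⟨⟨invMap L, hν, hν⟩⟩
  have hνν : ∀ x : A, (invMap L).base ((invMap L).base x) = x := fun x => by
    have h1 : (invMap L ≫ invMap L).base x = x := by rw [hν]; rfl
    exact h1
  have hεν := one_comp_invMap L
  -- the origin
  haveI hsub : Subsingleton (Spec (CommRingCat.of K)) :=
    inferInstanceAs (Subsingleton (PrimeSpectrum K))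
  obtain ⟨x0⟩ : Nonempty (Spec (CommRingCat.of K)) :=
    inferInstanceAs (Nonempty (PrimeSpectrum K))
  have hεν0 : (invMap L).base ((L.one (𝟙 (Spec (CommRingCat.of K)))).1.base x0) =
      (L.one (𝟙 (Spec (CommRingCat.of K)))).1.base x0 := by
    have h1 : ((L.one (𝟙 (Spec (CommRingCat.of K)))).1 ≫ invMap L).base x0 =
        (L.one (𝟙 (Spec (CommRingCat.of K)))).1.base x0 := by rw [hεν]
    exact h1
  -- a symmetric affine open neighbourhood of the origin
  obtain ⟨_, ⟨U0, hU0, rfl⟩, he0, -⟩ := A.isBasis_affineOpens.exists_subset_of_mem_open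
    (Set.mem_univ ((L.one (𝟙 (Spec (CommRingCat.of K)))).1.base x0)) isOpen_univ
  have hU1 : IsAffineOpen (U0 ⊓ invMap L ⁻¹ᵁ U0) := hU0.inf (hU0.preimage_of_isIso (invMap L))
  have he1 : (L.one (𝟙 (Spec (CommRingCat.of K)))).1.base x0 ∈ U0 ⊓ invMap L ⁻¹ᵁ U0 :=
    ⟨he0, by show (invMap L).base _ ∈ U0; rw [hεν0]; exact he0⟩
  haveI : Nonempty (U0 ⊓ invMap L ⁻¹ᵁ U0 : A.Opens) := ⟨⟨_, he1⟩⟩
  have hUν : ∀ x : A, (invMap L).base x ∈ U0 ⊓ invMap L ⁻¹ᵁ U0 ↔ x ∈ U0 ⊓ invMap L ⁻¹ᵁ U0 := by
    intro x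
    constructor
    · rintro ⟨h1, h2⟩
      have h2' : (invMap L).base ((invMap L).base x) ∈ U0 := h2
      rw [hνν] at h2'
      exact ⟨h2', h1⟩
    · rintro ⟨h1, h2⟩
      refine ⟨h2, ?_⟩
      show (invMap L).base ((invMap L).base x) ∈ U0
      rw [hνν]; exact h1
  -- finite generation of the coordinate ring
  have hft := f.finiteType_appLE (isAffineOpen_top (Spec (CommRingCat.of K))) hU1
    (le_top : U0 ⊓ invMap L ⁻¹ᵁ U0 ≤ f ⁻¹ᵁ ⊤)
  obtain ⟨T, hT⟩ : ∃ T : Finset Γ(A, U0 ⊓ invMap L ⁻¹ᵁ U0),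
      Subring.closure ((T : Set Γ(A, U0 ⊓ invMap L ⁻¹ᵁ U0)) ∪
        Set.range (A.presheaf.map (homOfLE (le_top : U0 ⊓ invMap L ⁻¹ᵁ U0 ≤ ⊤)).op).hom) = ⊤ := by
    letI := (f.appLE ⊤ (U0 ⊓ invMap L ⁻¹ᵁ U0) le_top).hom.toAlgebra
    obtain ⟨T, hT⟩ := (hft : Algebra.FiniteType _ _).out
    refine ⟨T, top_unique ?_⟩
    have h1 : (⊤ : Subring Γ(A, U0 ⊓ invMap L ⁻¹ᵁ U0)) =
        Subring.closure (Set.range (algebraMap Γ(Spec (CommRingCat.of K), ⊤)
          Γ(A, U0 ⊓ invMap L ⁻¹ᵁ U0)) ∪ (T : Set Γ(A, U0 ⊓ invMap L ⁻¹ᵁ U0))) := by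
      rw [← Algebra.adjoin_eq_ring_closure, hT]; rfl
    rw [h1]
    apply Subring.closure_mono
    rintro s (⟨c, rfl⟩ | hs)
    · exact Or.inr ⟨f.app ⊤ c, rfl⟩
    · exact Or.inl hs
  -- the stalkwise divisor and its symmetrisation
  obtain ⟨d, hd, hloc, hsupp, -⟩ := exists_divisor_support_compl_affine
    (fun x => hUFD K f x) hU1 T hT
  obtain ⟨D, hDeff, hDsym, hDsupp⟩ := exists_symmetric_cdiv (invMap L) hν
    (U0 ⊓ invMap L ⁻¹ᵁ U0) hUν d hd hloc hsupp
  refine ⟨D, hDeff, hDsym, ?_, U0 ⊓ invMap L ⁻¹ᵁ U0, hU1, hDsupp⟩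
  rintro p ⟨x, rfl⟩ hp
  have h2 : (L.one (𝟙 (Spec (CommRingCat.of K)))).1.base x ∈
      ((U0 ⊓ invMap L ⁻¹ᵁ U0 : A.Opens) : Set A) := by
    rw [Subsingleton.elim x x0]; exact he1
  rw [hDsupp] at h2
  exact h2 hp

end Frozen

end Fermat.Agent.S26.helper891
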