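/-
S26-M2-DEXIST (helper891), part III: the Spec-shaped deliverables.
`Stmt_DExistPos` (stated in `helper3890_LowerGeo`) and hence `helper154.Stmt_DivisorPos`.
-/
import Fermat.Agent.S26.helper891_DivisorExists
import Fermat.Agent.S26.helper3890_LowerGeo
import Fermat.Agent.S26.helper715_StalkUFD

set_option autoImplicit false

universe u

open CategoryTheory AlgebraicGeometry

namespace Fermat.Agent.S26.helper891

open Fermat.Agent.S26.helper154

/-- M2-DEXIST in the shape consumed by `helper3890.stmt_DivisorPos`, from factoriality of the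
local rings (M1). -/
theorem stmt_DExistPos (hUFD : Stmt_UFD.{u}) : helper3890.Stmt_DExistPos.{u} :=
  fun _ _ _ _ L g _ hA _ => exists_symmetric_divisor hUFD L g hA

/-- `Stmt_DivisorPos` from M1. -/
theorem stmt_DivisorPos_of_UFD (hUFD : Stmt_UFD.{u}) : Stmt_DivisorPos.{u} :=
  helper3890.stmt_DivisorPos (stmt_DExistPos hUFD)

/-- `Stmt_DivisorPos`, unconditionally. -/
theorem stmt_DivisorPos : Stmt_DivisorPos.{u} :=
  stmt_DivisorPos_of_UFD helper715.stmt_UFD

end Fermat.Agent.S26.helper891
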