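import Fermat.Agent.S26.helper154_Spec2
import Fermat.Agent.S26.helper907_CubeModules

/-!
# S26 / M4: `Stmt_CubeMod` of the S26 specification (helper907)

The module statement `Stmt_CubeMod` of `helper154_Spec2` (cube theorem with a curve factor, in
`Scheme.Modules` form) from the frozen S25 statement `Stmt_S25`.  Pure wiring on top of
`helper907_CubeModules.cube`.
-/

set_option autoImplicit false

universe u

open CategoryTheory CategoryTheory.Limits AlgebraicGeometry AlgebraicGeometry.RelPicard
  NeronModelInfra GoodReductionJacobian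

namespace Fermat.Agent.S26.helper907

/-- M4 of the S26 plan: `Stmt_S25 → Stmt_CubeMod`. -/
theorem stmt_CubeMod (hS25 : Fermat.Agent.S25.helper1705.Stmt_S25.{u}) :
    Fermat.Agent.S26.helper154.Stmt_CubeMod.{u} := by
  intro K _ _ C c _ _ _ ε Y Z y z _ _ _ _ y₀ z₀ M hY hZ
  exact cube hS25 c ε y z y₀ z₀ M hY hZ

end Fermat.Agent.S26.helper907
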