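import Fermat.Agent.S26.helper154_Assembly
import Fermat.Agent.S26.helper26_Assembly
import Fermat.Agent.S26.helper1285_StmtIntegral
import Fermat.Agent.S26.helper355_M0Closed
import Fermat.Agent.S26.helper4841_Comp
import Fermat.Agent.S26.helper715_StalkUFD
import Fermat.Agent.S26.helper891_DExistPos
import Fermat.Agent.S26.helper4871_UpperFinal
import Fermat.Agent.S26.helper160_QuadN
import Fermat.Agent.S26.helper907_StmtCubeMod
import Fermat.Agent.S26.helper4944_CubeDiv
import Fermat.Agent.S26.helper3135_Bridge
import Fermat.Agent.S26.helper2726_SW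
import Fermat.Agent.S26.helper752_FramePos

/-!
# S26: the final wiring (captain helper154)

Every root Prop of `helper154.stmt_S26_of` is discharged by the theorem landed by its owner;
what is left is exactly

* `Fermat.Agent.S25.helper1705.Stmt_S25` (the frozen statement S25, consumed once through
  `helper907.stmt_CubeMod`), and
* `helper154.Stmt_FramePos` (the frame of `g` curves), which `helper752.stmt_FramePos` reduces
  to `helper752.Stmt_TanCrit` and `helper752.Stmt_TanFrame`.

`Fermat/Agent/S26.lean` applies `stmt_S26_of_S25_of_frame` (or `…_of_tan`) to the frozen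
statement data.
-/

set_option autoImplicit false

universe u

namespace Fermat.Agent.S26.helper154

/-- CUBE-C in divisor form, from the frozen statement S25. -/
theorem stmt_CubeDiv_of_S25 (hS25 : Fermat.Agent.S25.helper1705.Stmt_S25.{u}) :
    Stmt_CubeDiv.{u} :=
  helper4944.stmt_CubeDiv helper3135.stmt_Bridge (helper907.stmt_CubeMod hS25)

/-- **S26 from S25 and the frame of curves.** -/
theorem stmt_S26_of_S25_of_frame (hS25 : Fermat.Agent.S25.helper1705.Stmt_S25.{u})
    (hFrame : Stmt_FramePos.{u}) : Stmt_S26.{u} :=
  stmt_S26_of helper1285.stmt_Integral helper355.stmt_NsmulDeg helper4841.stmt_SepDomComp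
    helper4841.stmt_WsumNsmul helper355.stmt_TorsPow helper715.stmt_Normal
    (helper160.stmt_QuadN (stmt_CubeDiv_of_S25 hS25)) hFrame helper2726.stmt_SW
    helper891.stmt_DivisorPos
    (helper4871.stmt_Upper (helper160.stmt_SignSum (stmt_CubeDiv_of_S25 hS25)))
    helper26.stmt_DimZero

/-- **S26 from S25, the tangent criterion and the tangent frame.** -/
theorem stmt_S26_of_S25_of_tan (hS25 : Fermat.Agent.S25.helper1705.Stmt_S25.{u})
    (hcrit : helper752.Stmt_TanCrit.{u}) (hframe : helper752.Stmt_TanFrame.{u}) :
    Stmt_S26.{u} :=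
  stmt_S26_of_S25_of_frame hS25 (helper752.stmt_FramePos hcrit hframe)

end Fermat.Agent.S26.helper154
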