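/-
S26-M6b (helper2279): FINITENESS OF NORMALISATION for finitely generated domains over a
perfect field (any characteristic, any dimension).  Mathlib-only.

Main results (namespace `Fermat.Agent.S26.helper2279`):
* `fg_of_semilinear_injective`   : abstract transfer lemma along a finite ring hom.
* `iterateFrobenius_finite`      : the iterated Frobenius of a finitely generated algebra over a
                                   perfect field is a finite ring hom.
* `finite_integralClosure_of_isIntegrallyClosed` : `A` normal f.g. domain over a perfect field,
                                   `L` finite over `Frac A`  ⟹  `integralClosure A L` is `A`-finite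
                                   (no separability assumption).
* `finite_integralClosure_of_finiteType` : the same for every f.g. domain `R` (not nec. normal).
* `finite_normalization` and corollaries : the case `L = Frac R`.
-/
import Mathlib

set_option autoImplicit false

namespace Fermat.Agent.S26.helper2279

open scoped nonZeroDivisors

/-- Abstract transfer lemma.  `f : A₁ →+* A₂` a finite ring hom, `A₁` noetherian,
`ψ : L₁ →+* L₂` an injective ring hom lying over `f`.  If an `A₁`-submodule `C` of `L₁` is mapped
by `ψ` into a finitely generated `A₂`-submodule `T` of `L₂`, then `C` is finitely generated. -/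
theorem fg_of_semilinear_injective {A₁ A₂ L₁ L₂ : Type*} [CommRing A₁] [CommRing A₂]
    [CommRing L₁] [CommRing L₂] [Algebra A₁ L₁] [Algebra A₂ L₂] [IsNoetherianRing A₁]
    (f : A₁ →+* A₂) (hf : f.Finite) (ψ : L₁ →+* L₂) (hψ : Function.Injective ψ)
    (hcomm : ∀ a, ψ (algebraMap A₁ L₁ a) = algebraMap A₂ L₂ (f a))
    (T : Submodule A₂ L₂) (hT : T.FG) (C : Submodule A₁ L₁) (hC : ∀ y ∈ C, ψ y ∈ T) :
    C.FG := by
  let _ : Algebra A₁ A₂ := f.toAlgebra
  let _ : Algebra A₁ L₂ := ((algebraMap A₂ L₂).comp f).toAlgebra
  have : IsScalarTower A₁ A₂ L₂ := IsScalarTower.of_algebraMap_eq (fun a => rfl)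
  have : Module.Finite A₁ A₂ := hf
  have hT' : (T.restrictScalars A₁).FG := hT.restrictScalars
  let ψl : L₁ →ₗ[A₁] L₂ :=
    { toFun := ψ
      map_add' := map_add ψ
      map_smul' := fun a y => by
        simp only [Algebra.smul_def, map_mul, hcomm, RingHom.id_apply]
        rfl }
  have : IsNoetherian A₁ ↥(T.restrictScalars A₁) := isNoetherian_of_fg_of_noetherian _ hT'
  have hmap : C.map ψl ≤ T.restrictScalars A₁ := by
    rintro _ ⟨y, hy, rfl⟩
    exact hC y hy
  have : IsNoetherian A₁ ↥(C.map ψl) := isNoetherian_of_le hmap
  have hfg : (C.map ψl).FG := Module.Finite.iff_fg.mp inferInstance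
  exact Submodule.fg_of_fg_map_injective ψl hψ hfg

/-- The iterated Frobenius endomorphism of a finitely generated algebra over a perfect field
is a finite ring homomorphism. -/
theorem iterateFrobenius_finite (K A : Type*) [Field K] [PerfectField K] [CommRing A]
    [Algebra K A] [Algebra.FiniteType K A] (p : ℕ) [ExpChar K p] [ExpChar A p] (e : ℕ) :
    (iterateFrobenius A p e).Finite := by
  refine RingHom.IsIntegral.to_finite ?_ ?_
  · intro x
    refine ⟨Polynomial.X ^ (p ^ e) - Polynomial.C x,
      Polynomial.monic_X_pow_sub_C x (pow_ne_zero _ (expChar_ne_zero K p)), ?_⟩
    simp [iterateFrobenius_def]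
  · let _ : Algebra A A := (iterateFrobenius A p e).toAlgebra
    show Algebra.FiniteType A A
    obtain ⟨s, hs⟩ := (Algebra.FiniteType.out : (⊤ : Subalgebra K A).FG)
    refine ⟨⟨s, ?_⟩⟩
    rw [eq_top_iff]
    rintro x -
    have hx : x ∈ Algebra.adjoin K (s : Set A) := by rw [hs]; trivial
    induction hx using Algebra.adjoin_induction with
    | mem y hy => exact Algebra.subset_adjoin hy
    | algebraMap c =>
      have : PerfectRing K p := PerfectField.toPerfectRing p
      have h1 : ((iterateFrobeniusEquiv K p e).symm c) ^ p ^ e = c := by
        have h := (iterateFrobeniusEquiv K p e).apply_symm_apply c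
        rwa [iterateFrobeniusEquiv_apply, iterateFrobenius_def] at h
      have hc : algebraMap K A c
          = iterateFrobenius A p e (algebraMap K A ((iterateFrobeniusEquiv K p e).symm c)) := by
        rw [iterateFrobenius_def, ← map_pow, h1]
      rw [hc]
      exact Subalgebra.algebraMap_mem _ _
    | add y z _ _ hy hz => exact Subalgebra.add_mem _ hy hz
    | mul y z _ _ hy hz => exact Subalgebra.mul_mem _ hy hz

/-- **Finiteness of integral closure, normal base, no separability assumption.**
`A` an integrally closed finitely generated domain over a perfect field `K`, `E = Frac A`,
`L` a finite extension of `E`.  Then the integral closure of `A` in `L` is a finite `A`-module. -/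
theorem finite_integralClosure_of_isIntegrallyClosed (K A E L : Type*) [Field K] [PerfectField K]
    [CommRing A] [IsDomain A] [Algebra K A] [Algebra.FiniteType K A] [IsIntegrallyClosed A]
    [Field E] [Algebra A E] [IsFractionRing A E] [Field L] [Algebra E L] [Algebra A L]
    [IsScalarTower A E L] [FiniteDimensional E L] :
    Module.Finite A (integralClosure A L) := by
  obtain ⟨p, hp⟩ := ExpChar.exists K
  have hA : IsNoetherianRing A := Algebra.FiniteType.isNoetherianRing K A
  have hKA : Function.Injective (algebraMap K A) := (algebraMap K A).injective
  have hAE : Function.Injective (algebraMap A E) := IsFractionRing.injective A E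
  have hEL : Function.Injective (algebraMap E L) := (algebraMap E L).injective
  have hpA : ExpChar A p := expChar_of_injective_algebraMap hKA p
  have hpE : ExpChar E p := expChar_of_injective_algebraMap hAE p
  have hpL : ExpChar L p := expChar_of_injective_algebraMap hEL p
  -- the separable closure of `E` in `L`
  let S : IntermediateField E L := separableClosure E L
  have hpS : ExpChar S p := expChar_of_injective_algebraMap (algebraMap E S).injective p
  have hSL : Function.Injective (algebraMap S L) := (algebraMap S L).injective
  have hASL : IsScalarTower A S L := IsScalarTower.of_algebraMap_eq (fun a => rfl)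
  have hfinS : Module.Finite A (integralClosure A S) :=
    IsIntegralClosure.finite A E S (integralClosure A S)
  -- exponent of the purely inseparable part
  let e : ℕ := IsPurelyInseparable.exponent S L
  have he : ∀ y : L, y ^ p ^ e ∈ (algebraMap S L).range :=
    fun y => IsPurelyInseparable.exponent_def' S p y
  -- the finitely generated target module
  let T : Submodule A L :=
    (Subalgebra.toSubmodule (integralClosure A S)).map (IsScalarTower.toAlgHom A S L).toLinearMap
  have hT : T.FG := Submodule.FG.map _ (Module.Finite.iff_fg.mp hfinS)
  have hfg : (Subalgebra.toSubmodule (integralClosure A L)).FG := by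
    refine fg_of_semilinear_injective (iterateFrobenius A p e) (iterateFrobenius_finite K A p e)
      (iterateFrobenius L p e) (iterateFrobenius_inj L p e) ?_ T hT _ ?_
    · intro a
      simp [iterateFrobenius_def]
    · intro y hy
      obtain ⟨z, hz⟩ := he y
      have hyint : IsIntegral A (y ^ p ^ e) := IsIntegral.pow hy _
      rw [← hz] at hyint
      have hzint : IsIntegral A z := (isIntegral_algebraMap_iff hSL).mp hyint
      rw [iterateFrobenius_def]
      exact ⟨z, hzint, hz⟩
  exact Module.Finite.iff_fg.mpr hfg

/-- Transfer along a finite injective map from a normal finitely generated domain `A`: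
if `R` is a domain, finite over `A` through `g`, and `L` is a finite extension of `Frac R`,
then the integral closure of `R` in `L` is a finite `R`-module. -/
theorem finite_integralClosure_of_finite_injective (K A R F L : Type*) [Field K] [PerfectField K]
    [CommRing A] [IsDomain A] [Algebra K A] [Algebra.FiniteType K A] [IsIntegrallyClosed A]
    [CommRing R] [IsDomain R] [Algebra K R]
    [Field F] [Algebra R F] [IsFractionRing R F] [Field L] [Algebra F L] [Algebra R L]
    [IsScalarTower R F L] [FiniteDimensional F L]
    (g : A →ₐ[K] R) (hinj : Function.Injective g) (hfin : g.Finite) :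
    Module.Finite R (integralClosure R L) := by
  let _ : Algebra A R := g.toRingHom.toAlgebra
  have hfinAR : Module.Finite A R := hfin
  have hRF : Function.Injective (algebraMap R F) := IsFractionRing.injective R F
  let _ : Algebra A F := ((algebraMap R F).comp g.toRingHom).toAlgebra
  have hARF : IsScalarTower A R F := IsScalarTower.of_algebraMap_eq (fun a => rfl)
  let _ : Algebra A L := ((algebraMap R L).comp g.toRingHom).toAlgebra
  have hARL : IsScalarTower A R L := IsScalarTower.of_algebraMap_eq (fun a => rfl)
  have hAFL : IsScalarTower A F L := IsScalarTower.of_algebraMap_eq (fun a => by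
    show algebraMap R L (g a) = algebraMap F L (algebraMap R F (g a))
    exact IsScalarTower.algebraMap_apply R F L _)
  have hAR_inj : Function.Injective (algebraMap A R) := hinj
  have hAF_inj : Function.Injective (algebraMap A F) := hRF.comp hinj
  have hfAF : FaithfulSMul A F := (faithfulSMul_iff_algebraMap_injective A F).mpr hAF_inj
  have hfAR : FaithfulSMul A R := (faithfulSMul_iff_algebraMap_injective A R).mpr hAR_inj
  let _ : Algebra (FractionRing A) F := FractionRing.liftAlgebra A F
  have hAEF : IsScalarTower A (FractionRing A) F := FractionRing.isScalarTower_liftAlgebra A F
  have hintAR : Algebra.IsIntegral A R := Algebra.IsIntegral.of_finite A R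
  have hfinEF : Module.Finite (FractionRing A) F := Module.Finite.of_isLocalization A R A⁰
  let _ : Algebra (FractionRing A) L :=
    ((algebraMap F L).comp (algebraMap (FractionRing A) F)).toAlgebra
  have hEFL : IsScalarTower (FractionRing A) F L := IsScalarTower.of_algebraMap_eq (fun a => rfl)
  have hAEL : IsScalarTower A (FractionRing A) L := IsScalarTower.of_algebraMap_eq (fun a => by
    show algebraMap A L a = algebraMap F L (algebraMap (FractionRing A) F
      (algebraMap A (FractionRing A) a))
    rw [← IsScalarTower.algebraMap_apply A (FractionRing A) F,
      ← IsScalarTower.algebraMap_apply A F L])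
  have hfinEL : FiniteDimensional (FractionRing A) L := Module.Finite.trans F L
  have hmain : Module.Finite A (integralClosure A L) :=
    finite_integralClosure_of_isIntegrallyClosed K A (FractionRing A) L
  have hfgA : (Subalgebra.toSubmodule (integralClosure A L)).FG := Module.Finite.iff_fg.mp hmain
  have heq : (Subalgebra.toSubmodule (integralClosure R L)).restrictScalars A
      = Subalgebra.toSubmodule (integralClosure A L) := by
    ext y
    simp only [Submodule.restrictScalars_mem, Subalgebra.mem_toSubmodule, mem_integralClosure_iff]
    exact ⟨fun h => isIntegral_trans y h, fun h => h.tower_top⟩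
  have hfgR : (Subalgebra.toSubmodule (integralClosure R L)).FG :=
    Submodule.FG.of_restrictScalars A (heq ▸ hfgA)
  exact Module.Finite.iff_fg.mpr hfgR

/-- **(F1) Finiteness of integral closure for finitely generated domains over a perfect field.**
`R` a finitely generated domain over a perfect field `K` (any characteristic, any dimension),
`F = Frac R`, `L` a finite extension of `F` (not assumed separable).  Then the integral closure
of `R` in `L` is a finite `R`-module. -/
theorem finite_integralClosure_of_finiteType (K R F L : Type*) [Field K] [PerfectField K]
    [CommRing R] [IsDomain R] [Algebra K R] [Algebra.FiniteType K R]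
    [Field F] [Algebra R F] [IsFractionRing R F] [Field L] [Algebra F L] [Algebra R L]
    [IsScalarTower R F L] [FiniteDimensional F L] :
    Module.Finite R (integralClosure R L) := by
  obtain ⟨s, g, hinj, hfin⟩ := exists_finite_inj_algHom_of_fg K R
  exact finite_integralClosure_of_finite_injective K (MvPolynomial (Fin s) K) R F L g hinj hfin

/-- **(F2) Finiteness of normalisation.**  For a finitely generated domain `R` over a perfect
field `K` with fraction field `F`, the normalisation `integralClosure R F` is a finite
`R`-module. -/
theorem finite_normalization (K R F : Type*) [Field K] [PerfectField K]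
    [CommRing R] [IsDomain R] [Algebra K R] [Algebra.FiniteType K R]
    [Field F] [Algebra R F] [IsFractionRing R F] :
    Module.Finite R (integralClosure R F) :=
  finite_integralClosure_of_finiteType K R F F

/-- The normalisation of a finitely generated domain over a perfect field is noetherian. -/
theorem isNoetherianRing_normalization (K R F : Type*) [Field K] [PerfectField K]
    [CommRing R] [IsDomain R] [Algebra K R] [Algebra.FiniteType K R]
    [Field F] [Algebra R F] [IsFractionRing R F] :
    IsNoetherianRing (integralClosure R F) := by
  have h1 : Module.Finite R (integralClosure R F) := finite_normalization K R F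
  have h2 : IsNoetherianRing R := Algebra.FiniteType.isNoetherianRing K R
  have h3 : IsNoetherian R (integralClosure R F) :=
    isNoetherian_of_isNoetherianRing_of_finite R _
  exact isNoetherianRing_iff.mpr (isNoetherian_of_tower R h3)

/-- The normalisation is integrally closed (Mathlib instance, restated for convenience). -/
theorem isIntegrallyClosed_normalization (R F : Type*) [CommRing R] [IsDomain R]
    [Field F] [Algebra R F] [IsFractionRing R F] :
    IsIntegrallyClosed (integralClosure R F) :=
  integralClosure.isIntegrallyClosedOfFiniteExtension F

/-- The normalisation has the same fraction field. -/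
theorem isFractionRing_normalization (R F : Type*) [CommRing R] [IsDomain R]
    [Field F] [Algebra R F] [IsFractionRing R F] :
    IsFractionRing (integralClosure R F) F :=
  integralClosure.isFractionRing_of_finite_extension F F

/-- The normalisation of a finitely generated domain over a perfect field is again a finitely
generated algebra over the field. -/
theorem finiteType_normalization (K R F : Type*) [Field K] [PerfectField K]
    [CommRing R] [IsDomain R] [Algebra K R] [Algebra.FiniteType K R]
    [Field F] [Algebra R F] [IsFractionRing R F] [Algebra K F] [IsScalarTower K R F] :
    Algebra.FiniteType K (integralClosure R F) := by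
  have h1 : Module.Finite R (integralClosure R F) := finite_normalization K R F
  have h2 : Algebra.FiniteType R (integralClosure R F) := Module.Finite.finiteType _
  exact Algebra.FiniteType.trans (S := R) inferInstance h2

/-- Normalisation does not raise the dimension above one: if every nonzero prime of `R` is
maximal, the same holds for the integral closure of `R` in any domain. -/
theorem krullDimLE_one_integralClosure (R F : Type*) [CommRing R] [IsDomain R]
    [CommRing F] [IsDomain F] [Algebra R F] [Ring.KrullDimLE 1 R] :
    Ring.KrullDimLE 1 (integralClosure R F) := by
  have h1 : Ring.DimensionLEOne R :=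
    ⟨fun {p} hp hpp => Ring.krullDimLE_one_iff_of_noZeroDivisors.mp inferInstance p hp hpp⟩
  have h2 : Ring.DimensionLEOne (integralClosure R F) := Ring.DimensionLEOne.integralClosure R F
  exact Ring.krullDimLE_one_iff_of_noZeroDivisors.mpr
    (fun I hI hIp => Ring.DimensionLEOne.maximalOfPrime hI hIp)

/-- Consumer form for Mathlib's `IsIntegralClosure`: any model `C` of the integral closure of a
finitely generated domain `R` over a perfect field in a finite extension `L` of `Frac R` is a
finite `R`-module. -/
theorem finite_of_isIntegralClosure (K R F L C : Type*) [Field K] [PerfectField K]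
    [CommRing R] [IsDomain R] [Algebra K R] [Algebra.FiniteType K R]
    [Field F] [Algebra R F] [IsFractionRing R F] [Field L] [Algebra F L] [Algebra R L]
    [IsScalarTower R F L] [FiniteDimensional F L]
    [CommRing C] [Algebra R C] [Algebra C L] [IsScalarTower R C L] [IsIntegralClosure C R L] :
    Module.Finite R C := by
  have h1 : Module.Finite R (integralClosure R L) := finite_integralClosure_of_finiteType K R F L
  exact Module.Finite.equiv
    (IsIntegralClosure.equiv R (integralClosure R L) L C).toLinearEquiv

/-- Consumer form for rings of sections: if `B` is any `R`-algebra admitting an injective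
`R`-algebra map into a finite extension `L` of `Frac R` (e.g. `B` a ring of regular functions
inside the function field), then the integral closure of `R` in `B` is a finite `R`-module. -/
theorem finite_integralClosure_of_injective (K R F L B : Type*) [Field K] [PerfectField K]
    [CommRing R] [IsDomain R] [Algebra K R] [Algebra.FiniteType K R]
    [Field F] [Algebra R F] [IsFractionRing R F] [Field L] [Algebra F L] [Algebra R L]
    [IsScalarTower R F L] [FiniteDimensional F L]
    [CommRing B] [Algebra R B] (φ : B →ₐ[R] L) (hφ : Function.Injective φ) :
    Module.Finite R (integralClosure R B) := by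
  have h1 : Module.Finite R (integralClosure R L) := finite_integralClosure_of_finiteType K R F L
  have h2 : IsNoetherianRing R := Algebra.FiniteType.isNoetherianRing K R
  have h3 : IsNoetherian R (integralClosure R L) :=
    isNoetherian_of_isNoetherianRing_of_finite R _
  -- the restriction of `φ` to the integral closures
  let ψ : integralClosure R B →ₗ[R] integralClosure R L :=
    { toFun := fun b => ⟨φ b.1, b.2.map φ⟩
      map_add' := fun a b => Subtype.ext (map_add φ a.1 b.1)
      map_smul' := fun r b => Subtype.ext (map_smul φ r b.1) }
  have hψ : Function.Injective ψ := fun a b h =>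
    Subtype.ext (hφ (congrArg Subtype.val h))
  have h4 : IsNoetherian R (integralClosure R B) := isNoetherian_of_injective ψ hψ
  exact Module.IsNoetherian.finite R _

end Fermat.Agent.S26.helper2279
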