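import Mathlib
import Fermat.Agent.S25.helper893_Dedekind
import Fermat.Agent.S26.helper2279_NormalizationFinite
import Fermat.Agent.S26.helper1879_CurveNormal

/-!
# S26-M6c-COMPACT (helper1632): the proper smooth model of an affine smooth curve

Let `K` be an algebraically closed field, `a : A ⟶ Spec K` proper and `j : C0 ⟶ A` an immersion of
an affine integral scheme `C0` which is smooth of relative dimension one over `K`. Then the
relative normalisation `C := j.normalization` of `A` in `C0` (Mathlib) is an integral scheme,
proper and smooth of relative dimension one over `K`, containing `C0` as a dense open subscheme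
(Zariski's main theorem, Mathlib), and mapping to `A` compatibly with `j`.

* `isFinite_fromNormalization` (N1): finiteness of `f.fromNormalization` from module-finiteness of
  the integral closures on affine opens.
* `finite_integralClosure_of_generic_surjective` (N2): the integral closure of a finitely
  generated algebra `R` over a perfect field in a domain `B` whose fraction field is generated by
  the image of `R` is module-finite over `R`.
* `isIntegrallyClosed_integralClosure` (N3): the integral closure of a ring in an integrally
  closed domain is an integrally closed domain.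
* `exists_proper_smooth_curve` (N4): the statement above.
-/

set_option autoImplicit false
set_option linter.style.haveILetI false

universe u

namespace Fermat.Agent.S26.helper1632

open AlgebraicGeometry CategoryTheory

section N1

variable {X Y : Scheme.{u}} (f : X ⟶ Y) [QuasiCompact f] [QuasiSeparated f]

/-- (N1) If all integral closures `Γ(Y, U)` in `Γ(X, f⁻¹U)` (`U` affine) are module-finite, the
relative normalisation is finite over `Y`. -/
theorem isFinite_fromNormalization
    (h : ∀ (U : Y.Opens) (_ : IsAffineOpen U),
      letI := (f.app U).hom.toAlgebra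
      Module.Finite Γ(Y, U) (integralClosure Γ(Y, U) Γ(X, f ⁻¹ᵁ U))) :
    IsFinite f.fromNormalization := by
  have : IsAffineHom f.fromNormalization := inferInstance
  refine ⟨fun U hU => ?_⟩
  rw [f.fromNormalization_app hU]
  letI := (f.app U).hom.toAlgebra
  have h1 : (algebraMap Γ(Y, U) (integralClosure Γ(Y, U) Γ(X, f ⁻¹ᵁ U))).Finite :=
    RingHom.finite_algebraMap.mpr (h U hU)
  rw [CommRingCat.hom_comp]
  exact RingHom.Finite.comp
    (RingHom.Finite.of_surjective _
      (f.normalizationObjIso hU).symm.commRingCatIsoToRingEquiv.surjective) h1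

end N1

section N2

/-- (N2) Let `R` be a finitely generated algebra over a perfect field `K` and `B` a domain which is
an `R`-algebra such that every element of `B` is a quotient of two elements of the image of `R`
(e.g. `Spec B ⟶ Spec R` is an immersion). Then the integral closure of `R` in `B` is a finite
`R`-module. -/
theorem finite_integralClosure_of_generic_surjective
    (K : Type*) {R B : Type*} [Field K] [PerfectField K] [CommRing R] [Algebra K R]
    [Algebra.FiniteType K R] [CommRing B] [IsDomain B] [Algebra R B]
    (H : ∀ b : B, ∃ r s : R, algebraMap R B s ≠ 0 ∧ algebraMap R B s * b = algebraMap R B r) :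
    Module.Finite R (integralClosure R B) := by
  classical
  let ψ : R →+* B := algebraMap R B
  let I : Ideal R := RingHom.ker ψ
  have hIp : I.IsPrime := RingHom.ker_isPrime ψ
  letI : Algebra (R ⧸ I) B := (RingHom.kerLift ψ).toAlgebra
  have hinj : Function.Injective (algebraMap (R ⧸ I) B) := RingHom.kerLift_injective ψ
  have htow : IsScalarTower R (R ⧸ I) B := IsScalarTower.of_algebraMap_eq (fun r => rfl)
  have hft : Algebra.FiniteType K (R ⧸ I) :=
    Algebra.FiniteType.of_surjective (Ideal.Quotient.mkₐ K I) Ideal.Quotient.mk_surjective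
  have htow2 : IsScalarTower (R ⧸ I) B (FractionRing B) := inferInstance
  have hinjF : Function.Injective (algebraMap (R ⧸ I) (FractionRing B)) := by
    rw [IsScalarTower.algebraMap_eq (R ⧸ I) B (FractionRing B)]
    exact (IsFractionRing.injective B (FractionRing B)).comp hinj
  have : FaithfulSMul (R ⧸ I) (FractionRing B) :=
    (faithfulSMul_iff_algebraMap_injective (R ⧸ I) (FractionRing B)).mpr hinjF
  have hfr : IsFractionRing (R ⧸ I) (FractionRing B) := by
    refine IsFractionRing.of_field (R := R ⧸ I) (K := FractionRing B) (fun z => ?_)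
    obtain ⟨b1, b2, hb2, rfl⟩ := IsFractionRing.div_surjective (A := B) z
    obtain ⟨r1, s1, hs1, h1⟩ := H b1
    obtain ⟨r2, s2, hs2, h2⟩ := H b2
    have hb2' : b2 ≠ 0 := nonZeroDivisors.ne_zero hb2
    refine ⟨Ideal.Quotient.mk I (r1 * s2), Ideal.Quotient.mk I (s1 * r2), ?_⟩
    have e : ∀ r : R, algebraMap (R ⧸ I) (FractionRing B) (Ideal.Quotient.mk I r) =
        algebraMap B (FractionRing B) (algebraMap R B r) := fun r => by
      rw [IsScalarTower.algebraMap_apply (R ⧸ I) B (FractionRing B)]; rfl
    rw [e, e, map_mul (algebraMap R B), map_mul (algebraMap R B), ← h1, ← h2]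
    have i0 : ∀ b : B, b ≠ 0 → algebraMap B (FractionRing B) b ≠ 0 := fun b hb =>
      (map_ne_zero_iff _ (IsFractionRing.injective B (FractionRing B))).mpr hb
    have := i0 _ hs1
    have := i0 _ hs2
    have := i0 _ hb2'
    simp only [map_mul]
    field_simp
  have h1 : Module.Finite (R ⧸ I) (integralClosure (R ⧸ I) B) :=
    helper2279.finite_integralClosure_of_injective K (R ⧸ I) (FractionRing B) (FractionRing B) B
      (IsScalarTower.toAlgHom (R ⧸ I) B (FractionRing B)) (IsFractionRing.injective B _)
  have h2 : Module.Finite R (integralClosure (R ⧸ I) B) := Module.Finite.trans (R ⧸ I) _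
  have hN : IsNoetherianRing R := Algebra.FiniteType.isNoetherianRing K R
  let g : integralClosure R B →ₗ[R] integralClosure (R ⧸ I) B :=
    { toFun := fun x => ⟨x.1, IsIntegral.tower_top x.2⟩
      map_add' := fun _ _ => rfl
      map_smul' := fun _ _ => rfl }
  refine Module.Finite.of_injective g (fun x y h => Subtype.ext ?_)
  exact congrArg (fun t : integralClosure (R ⧸ I) B => (t : B)) h

end N2

section N3

/-- (N3) The integral closure of a ring in an integrally closed domain is integrally closed. -/
theorem isIntegrallyClosed_integralClosure (R B : Type*) [CommRing R] [CommRing B] [IsDomain B]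
    [Algebra R B] [IsIntegrallyClosed B] : IsIntegrallyClosed (integralClosure R B) := by
  have hinj : Function.Injective (Algebra.ofId (integralClosure R B) (FractionRing B)) := by
    intro x y h
    have h' : algebraMap B (FractionRing B) (x : B) = algebraMap B (FractionRing B) (y : B) := h
    exact Subtype.ext (IsFractionRing.injective B (FractionRing B) h')
  let θ : FractionRing (integralClosure R B) →ₐ[integralClosure R B] FractionRing B :=
    IsFractionRing.liftAlgHom (g := Algebra.ofId (integralClosure R B) (FractionRing B)) hinj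
  refine (isIntegrallyClosed_iff (FractionRing (integralClosure R B))).mpr (fun {x} hx => ?_)
  have h1 : IsIntegral (integralClosure R B) (θ x) := hx.map θ
  have h2 : IsIntegral R (θ x) := isIntegral_trans _ h1
  have h3 : IsIntegral B (θ x) := h2.tower_top
  obtain ⟨b, hb⟩ := IsIntegrallyClosed.isIntegral_iff.mp h3
  have h4 : IsIntegral R b := by
    rw [← isIntegral_algebraMap_iff (IsFractionRing.injective B (FractionRing B)), hb]
    exact h2
  refine ⟨⟨b, h4⟩, ?_⟩
  apply θ.toRingHom.injective
  change θ (algebraMap _ _ _) = θ x
  rw [θ.commutes, ← hb]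
  rfl

/-- A trivial commutative ring is integrally closed. -/
theorem isIntegrallyClosed_of_subsingleton (R : Type*) [CommRing R] [Subsingleton R] :
    IsIntegrallyClosed R := by
  have : Subsingleton (FractionRing R) := by
    refine subsingleton_of_zero_eq_one ?_
    rw [← map_one (algebraMap R (FractionRing R)), ← map_zero (algebraMap R (FractionRing R))]
    exact congrArg _ (Subsingleton.elim _ _)
  exact (isIntegrallyClosed_iff (FractionRing R)).mpr (fun {x} _ => ⟨0, Subsingleton.elim _ _⟩)

end N3

section N4

variable {K : Type u} [Field K] [IsAlgClosed K] {A C0 : Scheme.{u}}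

/-- The hypothesis of (N2) for the sections of an immersion over an affine open. -/
theorem exists_mul_eq_of_isImmersion (j : C0 ⟶ A) [IsIntegral C0] [IsPreimmersion j]
    {U : A.Opens} (hU : IsAffineOpen U) (hV : IsAffineOpen (j ⁻¹ᵁ U)) [Nonempty (j ⁻¹ᵁ U)]
    (b : Γ(C0, j ⁻¹ᵁ U)) :
    ∃ r s : Γ(A, U), (j.app U).hom s ≠ 0 ∧ (j.app U).hom s * b = (j.app U).hom r := by
  have h1 : (j.appLE U (j ⁻¹ᵁ U) le_rfl).hom.SurjectiveOnStalks :=
    HasRingHomProperty.appLE (P := @SurjectiveOnStalks) j inferInstance ⟨U, hU⟩ ⟨j ⁻¹ᵁ U, hV⟩ le_rfl
  rw [← Scheme.Hom.app_eq_appLE] at h1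
  obtain ⟨x, r, c, hc, hr, e⟩ := (RingHom.surjective_localRingHom_iff ⊥).mp (h1 ⊥ Ideal.isPrime_bot) b
  have hc' : c ≠ 0 := fun h => hc (by simp [h])
  have hr' : (j.app U).hom r ≠ 0 := fun h => hr (by simp [h])
  refine ⟨x, r, hr', ?_⟩
  rw [mul_assoc] at e
  exact mul_left_cancel₀ hc' e

/-- (N4) **The proper smooth model of an affine smooth curve in a proper `K`-scheme.** -/
theorem exists_proper_smooth_curve (a : A ⟶ Spec (CommRingCat.of K)) [IsProper a] (j : C0 ⟶ A)
    [IsAffine C0] [IsIntegral C0] [IsImmersion j] [SmoothOfRelativeDimension 1 (j ≫ a)] :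
    ∃ (C : Scheme.{u}) (ι : C0 ⟶ C) (φ : C ⟶ A), IsOpenImmersion ι ∧ ι ≫ φ = j ∧ IsIntegral C ∧
      IsProper (φ ≫ a) ∧ SmoothOfRelativeDimension 1 (φ ≫ a) := by
  haveI : IsAffineHom (j ≫ a) := inferInstance
  haveI : IsAffineHom j := IsAffineHom.of_comp j a
  haveI : QuasiCompact j := inferInstance
  haveI : QuasiSeparated j := inferInstance
  haveI : LocallyOfFiniteType j := inferInstance
  haveI : LocallyQuasiFinite j := inferInstance
  haveI : IsSeparated j := inferInstance
  haveI : IsOpenImmersion j.toNormalization := inferInstance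
  haveI : IsIntegral j.normalization := inferInstance
  -- sections of `C0` over preimages of affine opens
  have key : ∀ (U : A.Opens) (hU : IsAffineOpen U), Nonempty (j ⁻¹ᵁ U) →
      letI := (j.app U).hom.toAlgebra
      Module.Finite Γ(A, U) (integralClosure Γ(A, U) Γ(C0, j ⁻¹ᵁ U)) ∧
        IsIntegrallyClosed (integralClosure Γ(A, U) Γ(C0, j ⁻¹ᵁ U)) := by
    intro U hU hne
    letI := (j.app U).hom.toAlgebra
    have hV : IsAffineOpen (j ⁻¹ᵁ U) := hU.preimage j
    haveI : IsDedekindDomain Γ(C0, j ⁻¹ᵁ U) :=
      Fermat.Agent.S25.helper893.isDedekindDomain_of_isAffineOpen (j ≫ a) hV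
    letI : Algebra K Γ(A, U) := (helper1879.secHom a U).toAlgebra
    haveI : Algebra.FiniteType K Γ(A, U) := helper1879.finiteType_secHom a U hU
    exact ⟨finite_integralClosure_of_generic_surjective K
      (fun b => exists_mul_eq_of_isImmersion j hU hV b),
      isIntegrallyClosed_integralClosure _ _⟩
  have key0 : ∀ (U : A.Opens), ¬ Nonempty (j ⁻¹ᵁ U) →
      letI := (j.app U).hom.toAlgebra
      Subsingleton (integralClosure Γ(A, U) Γ(C0, j ⁻¹ᵁ U)) := by
    intro U hne
    letI := (j.app U).hom.toAlgebra
    have hbot : j ⁻¹ᵁ U = ⊥ := by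
      ext x
      simp only [TopologicalSpace.Opens.coe_bot, Set.mem_empty_iff_false, iff_false]
      exact fun hx => hne ⟨⟨x, hx⟩⟩
    have : Subsingleton Γ(C0, j ⁻¹ᵁ U) := by
      rw [hbot]; infer_instance
    exact Subtype.val_injective.subsingleton
  have hfin : IsFinite j.fromNormalization := by
    refine isFinite_fromNormalization j (fun U hU => ?_)
    by_cases hne : Nonempty (j ⁻¹ᵁ U)
    · exact (key U hU hne).1
    · letI := (j.app U).hom.toAlgebra
      haveI := key0 U hne
      infer_instance
  refine ⟨j.normalization, j.toNormalization, j.fromNormalization, inferInstance,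
    j.toNormalization_fromNormalization, inferInstance, inferInstance, ?_⟩
  haveI : SmoothOfRelativeDimension 1 (j.toNormalization ≫ j.fromNormalization ≫ a) := by
    rw [Scheme.Hom.toNormalization_fromNormalization_assoc]; infer_instance
  refine helper1879.smoothOfRelativeDimension_one_of_normal_of_open_smooth
    (j.fromNormalization ≫ a) j.toNormalization
    (fun V : A.affineOpens => ⟨j.fromNormalization ⁻¹ᵁ V.1, V.2.preimage j.fromNormalization⟩)
    ?_ (fun V => ?_)
  · change ⨆ V : A.affineOpens, j.fromNormalization ⁻¹ᵁ V.1 = ⊤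
    rw [← Scheme.Hom.preimage_iSup, iSup_affineOpens_eq_top, Scheme.Hom.preimage_top]
  · change IsIntegrallyClosed Γ(j.normalization, j.fromNormalization ⁻¹ᵁ V.1)
    letI := (j.app V.1).hom.toAlgebra
    have e := (j.normalizationObjIso V.2).commRingCatIsoToRingEquiv
    by_cases hne : Nonempty (j ⁻¹ᵁ V.1)
    · haveI := (key V.1 V.2 hne).2
      exact IsIntegrallyClosed.of_equiv e.symm
    · haveI := key0 V.1 hne
      haveI : Subsingleton Γ(j.normalization, j.fromNormalization ⁻¹ᵁ V.1) :=
        e.injective.subsingleton
      exact isIntegrallyClosed_of_subsingleton _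

end N4

end Fermat.Agent.S26.helper1632
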