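/-
S26 / M6c-CHART (backup, algebra core).  Mathlib only.

(T)  Tangent vectors (dual-number points) along a formally etale map, in coordinates:
     for `τ : MvPolynomial ι R →ₐ[R] B` formally etale and an `R`-point `e : B →ₐ[R] R`,
     the `R`-algebra maps `v : B → R[M]` lifting `e` correspond bijectively to `ι → M`
     through `v ↦ (snd (v (τ (X j))))_j`; such a `v` kills `τ (X j) - e (τ (X j))`
     iff its `j`-th coordinate vanishes; the coordinate curve
     `B ⧸ (τ (X j) - e (τ (X j)) : j ≠ i)` has tangent space `M` through the `i`-th coordinate.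
-/
import Mathlib

namespace Fermat.Agent.S26.helper2066

open TrivSqZeroExt

section Lift

/-- Unique lifting along a formally etale ring map through a square-zero surjection,
stated for plain ring homomorphisms (no algebra instances needed by the caller). -/
theorem formallyEtale_lift_existsUnique {P B C D : Type*} [CommRing P] [CommRing B] [CommRing C]
    [CommRing D] (τ : P →+* B) (hτ : τ.FormallyEtale) (π : C →+* D)
    (hπ : Function.Surjective π) (hker : RingHom.ker π ^ 2 = ⊥) (φ : P →+* C) (ψ' : B →+* D)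
    (h : ψ'.comp τ = π.comp φ) :
    ∃! ψ : B →+* C, ψ.comp τ = φ ∧ π.comp ψ = ψ' := by
  let _ : Algebra P B := τ.toAlgebra
  let _ : Algebra P C := φ.toAlgebra
  let _ : Algebra P D := (π.comp φ).toAlgebra
  have hE : Algebra.FormallyEtale P B := hτ
  have hnil : IsNilpotent (RingHom.ker π) := ⟨2, hker⟩
  let g : C →ₐ[P] D := { π with commutes' := fun _ => rfl }
  let f : B →ₐ[P] D := { ψ' with commutes' := fun p => RingHom.congr_fun h p }
  have hg : Function.Surjective g := hπ
  have hg' : IsNilpotent (RingHom.ker (g : C →+* D)) := hnil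
  let ψ : B →ₐ[P] C := Algebra.FormallySmooth.liftOfSurjective f g hg hg'
  have hψ : ∀ b, π (ψ b) = ψ' b := fun b =>
    Algebra.FormallySmooth.liftOfSurjective_apply f g hg hg' b
  refine ⟨ψ.toRingHom, ⟨?_, ?_⟩, ?_⟩
  · ext p
    exact ψ.commutes p
  · ext b
    exact hψ b
  · rintro ψ₂ ⟨h1, h2⟩
    let ψ₂' : B →ₐ[P] C := { ψ₂ with commutes' := fun p => RingHom.congr_fun h1 p }
    have : ψ₂' = ψ := by
      refine Algebra.FormallyUnramified.lift_unique_of_ringHom π hnil ψ₂' ψ ?_
      ext b
      change π (ψ₂ b) = π (ψ b)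
      rw [hψ b]
      exact RingHom.congr_fun h2 b
    ext b
    exact AlgHom.congr_fun this b

end Lift

section Tangent

variable {R : Type*} [CommRing R] {P B : Type*} [CommRing P] [CommRing B] [Algebra R P]
  [Algebra R B] (M : Type*) [AddCommGroup M] [Module R M] [Module Rᵐᵒᵖ M] [IsCentralScalar R M]

/-- Tangent vectors with values in `M` at the `R`-point `e` of `Spec B`: the `R`-algebra maps
`B → R[M]` (trivial square-zero extension; `M = R` gives the dual numbers) lifting `e`. -/
abbrev TangentAt (e : B →ₐ[R] R) : Type _ :=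
  { v : B →ₐ[R] TrivSqZeroExt R M // (fstHom R R M).comp v = e }

variable {M}

theorem TangentAt.fst_apply {e : B →ₐ[R] R} (v : TangentAt M e) (b : B) :
    (v.1 b).fst = e b :=
  AlgHom.congr_fun v.2 b

theorem TangentAt.ext {e : B →ₐ[R] R} {v w : TangentAt M e}
    (h : ∀ b, (v.1 b).snd = (w.1 b).snd) : v = w := by
  apply Subtype.ext
  ext b
  · rw [v.fst_apply, w.fst_apply]
  · exact h b

/-- A tangent vector at `e` sends `b - e b` to the pure infinitesimal `inr (snd (v b))`. -/
theorem TangentAt.map_sub_algebraMap {e : B →ₐ[R] R} (v : TangentAt M e) (b : B) :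
    v.1 (b - algebraMap R B (e b)) = inr (v.1 b).snd := by
  refine TrivSqZeroExt.ext ?_ ?_
  · simp [v.fst_apply, TrivSqZeroExt.algebraMap_eq_inl]
  · simp [TrivSqZeroExt.algebraMap_eq_inl]

/-- `(b)` of the chart statement: a tangent vector at `e` kills `b - e b` iff the
infinitesimal part of `v b` vanishes. -/
theorem TangentAt.map_sub_algebraMap_eq_zero_iff {e : B →ₐ[R] R} (v : TangentAt M e) (b : B) :
    v.1 (b - algebraMap R B (e b)) = 0 ↔ (v.1 b).snd = 0 := by
  rw [v.map_sub_algebraMap]
  constructor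
  · intro h
    simpa using congrArg TrivSqZeroExt.snd h
  · intro h
    rw [h, inr_zero]

variable (M)

/-- Restriction of tangent vectors along an algebra map. -/
def TangentAt.comp (τ : P →ₐ[R] B) (e : B →ₐ[R] R) (v : TangentAt M e) :
    TangentAt M (e.comp τ) :=
  ⟨v.1.comp τ, by rw [← AlgHom.comp_assoc, v.2]⟩

/-- Unique lifting of tangent vectors along a formally etale algebra map. -/
theorem tangent_lift_existsUnique (τ : P →ₐ[R] B) (hτ : (τ : P →+* B).FormallyEtale)
    (e : B →ₐ[R] R) (u : P →ₐ[R] TrivSqZeroExt R M)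
    (hu : (fstHom R R M).comp u = e.comp τ) :
    ∃! v : B →ₐ[R] TrivSqZeroExt R M, (fstHom R R M).comp v = e ∧ v.comp τ = u := by
  have hker : RingHom.ker (fstHom R R M : TrivSqZeroExt R M →+* R) ^ 2 = ⊥ :=
    TrivSqZeroExt.kerIdeal_sq R M
  have hsurj : Function.Surjective (fstHom R R M : TrivSqZeroExt R M →+* R) :=
    fun r => ⟨inl r, rfl⟩
  obtain ⟨ψ, ⟨h1, h2⟩, huniq⟩ := formallyEtale_lift_existsUnique (τ : P →+* B) hτ
    (fstHom R R M : TrivSqZeroExt R M →+* R) hsurj hker (u : P →+* TrivSqZeroExt R M)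
    (e : B →+* R) (by
      ext p
      exact (AlgHom.congr_fun hu p).symm)
  have hcomm : ∀ r : R, ψ (algebraMap R B r) = algebraMap R (TrivSqZeroExt R M) r := by
    intro r
    have := RingHom.congr_fun h1 (algebraMap R P r)
    simp only [RingHom.comp_apply, RingHom.coe_coe, AlgHom.commutes] at this
    exact this
  refine ⟨{ ψ with commutes' := hcomm }, ⟨?_, ?_⟩, ?_⟩
  · exact AlgHom.ext fun b => RingHom.congr_fun h2 b
  · exact AlgHom.ext fun p => RingHom.congr_fun h1 p
  · rintro v' ⟨hv1, hv2⟩
    have : (v' : B →+* TrivSqZeroExt R M) = ψ := by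
      apply huniq
      refine ⟨?_, ?_⟩
      · exact RingHom.ext fun p => AlgHom.congr_fun hv2 p
      · exact RingHom.ext fun b => AlgHom.congr_fun hv1 b
    exact AlgHom.ext fun b => RingHom.congr_fun this b

/-- Tangent vectors restrict bijectively along a formally etale algebra map
(e.g. a localisation, an etale chart). -/
theorem TangentAt.comp_bijective (τ : P →ₐ[R] B) (hτ : (τ : P →+* B).FormallyEtale)
    (e : B →ₐ[R] R) : Function.Bijective (TangentAt.comp M τ e) := by
  constructor
  · intro v w hvw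
    obtain ⟨v₀, -, huniq⟩ := tangent_lift_existsUnique M τ hτ e (v.1.comp τ)
      (by rw [← AlgHom.comp_assoc, v.2])
    apply Subtype.ext
    rw [huniq v.1 ⟨v.2, rfl⟩, huniq w.1 ⟨w.2, (congrArg Subtype.val hvw).symm⟩]
  · intro u
    obtain ⟨v, ⟨hv1, hv2⟩, -⟩ := tangent_lift_existsUnique M τ hτ e u.1 u.2
    exact ⟨⟨v, hv1⟩, Subtype.ext hv2⟩

section Coordinates

variable {ι : Type*}

/-- Coordinates of a tangent vector with respect to functions `t j = τ (X j)`. -/
noncomputable def TangentAt.coord (τ : MvPolynomial ι R →ₐ[R] B) (e : B →ₐ[R] R) (v : TangentAt M e) :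
    ι → M :=
  fun j => (v.1 (τ (MvPolynomial.X j))).snd

/-- `(a)` in `∃!` form: for an etale chart `τ` and a point `e`, every coordinate vector
`w : ι → M` is realised by exactly one tangent vector at `e`. -/
theorem tangent_coord_existsUnique (τ : MvPolynomial ι R →ₐ[R] B)
    (hτ : (τ : MvPolynomial ι R →+* B).FormallyEtale) (e : B →ₐ[R] R) (w : ι → M) :
    ∃! v : B →ₐ[R] TrivSqZeroExt R M,
      (fstHom R R M).comp v = e ∧ ∀ j, (v (τ (MvPolynomial.X j))).snd = w j := by
  let u : MvPolynomial ι R →ₐ[R] TrivSqZeroExt R M :=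
    MvPolynomial.aeval fun j => inl (e (τ (MvPolynomial.X j))) + inr (w j)
  have hu : (fstHom R R M).comp u = e.comp τ := by
    apply MvPolynomial.algHom_ext
    intro j
    simp [u]
  obtain ⟨v, ⟨hv1, hv2⟩, huniq⟩ := tangent_lift_existsUnique M τ hτ e u hu
  refine ⟨v, ⟨hv1, fun j => ?_⟩, ?_⟩
  · have := AlgHom.congr_fun hv2 (MvPolynomial.X j)
    simp only [AlgHom.comp_apply] at this
    rw [this]
    simp [u]
  · rintro v' ⟨hv1', hv2'⟩
    apply huniq
    refine ⟨hv1', ?_⟩
    apply MvPolynomial.algHom_ext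
    intro j
    ext
    · have := AlgHom.congr_fun hv1' (τ (MvPolynomial.X j))
      simp only [AlgHom.comp_apply, fstHom_apply] at this
      simp [u, this]
    · simp [u, hv2' j]

/-- `(a)` of the chart statement: for an etale chart `τ : R[X_j : j ∈ ι] → B` and an
`R`-point `e`, taking coordinates is a bijection from tangent vectors at `e` to `ι → M`. -/
theorem TangentAt.coord_bijective (τ : MvPolynomial ι R →ₐ[R] B)
    (hτ : (τ : MvPolynomial ι R →+* B).FormallyEtale) (e : B →ₐ[R] R) :
    Function.Bijective (TangentAt.coord M τ e) := by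
  constructor
  · intro v w hvw
    obtain ⟨v₀, -, huniq⟩ := tangent_coord_existsUnique M τ hτ e (TangentAt.coord M τ e v)
    apply Subtype.ext
    rw [huniq v.1 ⟨v.2, fun _ => rfl⟩, huniq w.1 ⟨w.2, fun j => (congrFun hvw j).symm⟩]
  · intro w
    obtain ⟨v, ⟨hv1, hv2⟩, -⟩ := tangent_coord_existsUnique M τ hτ e w
    exact ⟨⟨v, hv1⟩, funext hv2⟩

end Coordinates

section Curve

variable {M}
variable {ι : Type*} (τ : MvPolynomial ι R →ₐ[R] B) (e : B →ₐ[R] R)

/-- The ideal of the `i`-th coordinate curve through the point `e` of an etale chart `τ`: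
generated by the `t j - t j (e)` for `j ≠ i`, where `t j = τ (X j)`. -/
def coordCurveIdeal (i : ι) : Ideal B :=
  Ideal.span (Set.range fun j : { j : ι // j ≠ i } =>
    τ (MvPolynomial.X j.1) - algebraMap R B (e (τ (MvPolynomial.X j.1))))

theorem coordCurveIdeal_le_ker (i : ι) : coordCurveIdeal τ e i ≤ RingHom.ker (e : B →+* R) := by
  rw [coordCurveIdeal, Ideal.span_le]
  rintro _ ⟨j, rfl⟩
  simp [RingHom.mem_ker]

/-- `(b)` of the chart statement: a tangent vector at `e` is tangent to the `i`-th coordinate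
curve (kills its ideal) iff all its coordinates `j ≠ i` vanish. -/
theorem TangentAt.vanishes_on_coordCurveIdeal_iff (v : TangentAt M e) (i : ι) :
    (∀ x ∈ coordCurveIdeal τ e i, v.1 x = 0) ↔ ∀ j, j ≠ i → TangentAt.coord M τ e v j = 0 := by
  constructor
  · intro h j hj
    have h1 := h _ (Ideal.subset_span ⟨⟨j, hj⟩, rfl⟩)
    exact (v.map_sub_algebraMap_eq_zero_iff _).1 h1
  · intro h x hx
    have hle : coordCurveIdeal τ e i ≤ RingHom.ker (v.1 : B →+* TrivSqZeroExt R M) := by
      rw [coordCurveIdeal, Ideal.span_le]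
      rintro _ ⟨j, rfl⟩
      exact (v.map_sub_algebraMap_eq_zero_iff _).2 (h j.1 j.2)
    exact hle hx

/-- The `R`-point of the `i`-th coordinate curve `B ⧸ coordCurveIdeal τ e i` induced by `e`. -/
def coordCurvePoint (i : ι) : (B ⧸ coordCurveIdeal τ e i) →ₐ[R] R :=
  Ideal.Quotient.liftₐ (coordCurveIdeal τ e i) e fun _ ha => coordCurveIdeal_le_ker τ e i ha

@[simp]
theorem coordCurvePoint_mk (i : ι) (b : B) :
    coordCurvePoint τ e i (Ideal.Quotient.mk _ b) = e b :=
  rfl

/-- On the `i`-th coordinate curve the coordinates `t j`, `j ≠ i`, are constant. -/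
theorem coordCurve_mk_eq (i j : ι) (hj : j ≠ i) :
    (Ideal.Quotient.mk (coordCurveIdeal τ e i) (τ (MvPolynomial.X j))) =
      algebraMap R (B ⧸ coordCurveIdeal τ e i) (e (τ (MvPolynomial.X j))) := by
  have h : τ (MvPolynomial.X j) - algebraMap R B (e (τ (MvPolynomial.X j))) ∈
      coordCurveIdeal τ e i := Ideal.subset_span ⟨⟨j, hj⟩, rfl⟩
  have h2 := (Ideal.Quotient.eq (I := coordCurveIdeal τ e i)).2 h
  rw [h2]
  rfl

/-- `(c)` of the chart statement: the tangent space at `e` of the `i`-th coordinate curve of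
an etale chart is `M`, through the `i`-th coordinate `t i = τ (X i)`: for every `m : M` there
is exactly one tangent vector `v` of the curve at `e` with `snd (v (t i)) = m`. -/
theorem coordCurve_tangent_existsUnique (hτ : (τ : MvPolynomial ι R →+* B).FormallyEtale)
    (i : ι) (m : M) :
    ∃! v : (B ⧸ coordCurveIdeal τ e i) →ₐ[R] TrivSqZeroExt R M,
      (fstHom R R M).comp v = coordCurvePoint τ e i ∧
        (v (Ideal.Quotient.mk _ (τ (MvPolynomial.X i)))).snd = m := by
  classical
  obtain ⟨v₀, ⟨hv1, hv2⟩, huniq⟩ :=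
    tangent_coord_existsUnique M τ hτ e (fun j => if j = i then m else 0)
  have hkill : ∀ x ∈ coordCurveIdeal τ e i, v₀ x = 0 :=
    (TangentAt.vanishes_on_coordCurveIdeal_iff τ e ⟨v₀, hv1⟩ i).2 fun j hj => by
      change (v₀ (τ (MvPolynomial.X j))).snd = 0
      rw [hv2 j, if_neg hj]
  refine ⟨Ideal.Quotient.liftₐ (coordCurveIdeal τ e i) v₀ hkill, ⟨?_, ?_⟩, ?_⟩
  · apply Ideal.Quotient.algHom_ext
    exact AlgHom.ext fun b => AlgHom.congr_fun hv1 b
  · change (v₀ (τ (MvPolynomial.X i))).snd = m
    rw [hv2 i, if_pos rfl]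
  · rintro v' ⟨hv1', hv2'⟩
    have hv' : v'.comp (Ideal.Quotient.mkₐ R (coordCurveIdeal τ e i)) = v₀ := by
      apply huniq
      refine ⟨?_, fun j => ?_⟩
      · rw [← AlgHom.comp_assoc, hv1']
        exact AlgHom.ext fun b => rfl
      · by_cases hj : j = i
        · subst hj
          rw [if_pos rfl]
          exact hv2'
        · rw [if_neg hj]
          change (v' (Ideal.Quotient.mk _ (τ (MvPolynomial.X j)))).snd = 0
          rw [coordCurve_mk_eq τ e i j hj, AlgHom.commutes, TrivSqZeroExt.algebraMap_eq_inl,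
            TrivSqZeroExt.snd_inl]
    apply Ideal.Quotient.algHom_ext
    exact AlgHom.ext fun b => AlgHom.congr_fun hv' b

end Curve

section Axis

variable {M}

/-- An etale ring map is formally etale (adapter for hypotheses of the form `τ.toRingHom.Etale`). -/
theorem formallyEtale_of_etale {P' B' : Type*} [CommRing P'] [CommRing B'] {f : P' →+* B'}
    (hf : f.Etale) : f.FormallyEtale :=
  hf.toAlgebra.formallyEtale

variable (M) in
/-- `(a)` for coordinates given as a family `t : ι → B` (chart `MvPolynomial.aeval t`). -/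
theorem tangent_coord_existsUnique_aeval {ι : Type*} (t : ι → B)
    (ht : (MvPolynomial.aeval t : MvPolynomial ι R →ₐ[R] B).toRingHom.FormallyEtale)
    (e : B →ₐ[R] R) (w : ι → M) :
    ∃! v : B →ₐ[R] TrivSqZeroExt R M,
      (fstHom R R M).comp v = e ∧ ∀ j, (v (t j)).snd = w j := by
  have h := tangent_coord_existsUnique M (MvPolynomial.aeval t : MvPolynomial ι R →ₐ[R] B) ht e w
  simpa only [MvPolynomial.aeval_X] using h

variable (M) in
/-- Tangent vectors of a curve etale over the line `R[X]`: for every `m : M` there is exactly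
one tangent vector `v` at the point `e` with `snd (v (τ X)) = m`. -/
theorem tangent_polynomial_existsUnique {S : Type*} [CommRing S] [Algebra R S]
    (τ : Polynomial R →ₐ[R] S) (hτ : (τ : Polynomial R →+* S).FormallyEtale) (e : S →ₐ[R] R)
    (m : M) :
    ∃! v : S →ₐ[R] TrivSqZeroExt R M,
      (fstHom R R M).comp v = e ∧ (v (τ Polynomial.X)).snd = m := by
  let u : Polynomial R →ₐ[R] TrivSqZeroExt R M :=
    Polynomial.aeval (inl (e (τ Polynomial.X)) + inr m)
  have hu : (fstHom R R M).comp u = e.comp τ := by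
    apply Polynomial.algHom_ext
    simp [u]
  obtain ⟨v, ⟨hv1, hv2⟩, huniq⟩ := tangent_lift_existsUnique M τ hτ e u hu
  refine ⟨v, ⟨hv1, ?_⟩, ?_⟩
  · have := AlgHom.congr_fun hv2 Polynomial.X
    simp only [AlgHom.comp_apply] at this
    rw [this]
    simp [u]
  · rintro v' ⟨hv1', hv2'⟩
    apply huniq
    refine ⟨hv1', ?_⟩
    apply Polynomial.algHom_ext
    refine TrivSqZeroExt.ext ?_ ?_
    · have := AlgHom.congr_fun hv1' (τ Polynomial.X)
      simp only [AlgHom.comp_apply, fstHom_apply] at this
      simp [u, this]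
    · simp [u, hv2']

variable (M) in
/-- **The coordinate curve is tangent to the `i`-th axis.**  Let `S` be a curve etale over
`R[X]` through `τ`, `e'` an `R`-point of it, and `x : ι → S` functions on the curve (the
restrictions `π (t k)` of the chart coordinates) with `x i = τ X` and `x k` constant for
`k ≠ i`.  Then for every `m : M` there is exactly one tangent vector of the curve at `e'`
whose coordinates are `m` in the slot `i` and `0` elsewhere.  (So the tangent space of the
curve maps bijectively onto the `i`-th coordinate axis of the tangent space of the chart.) -/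
theorem tangent_axis_existsUnique {S : Type*} [CommRing S] [Algebra R S]
    (τ : Polynomial R →ₐ[R] S) (hτ : (τ : Polynomial R →+* S).FormallyEtale) (e' : S →ₐ[R] R)
    {ι : Type*} [DecidableEq ι] (x : ι → S) (i : ι) (hi : x i = τ Polynomial.X) (c : ι → R)
    (hk : ∀ k, k ≠ i → x k = algebraMap R S (c k)) (m : M) :
    ∃! v : S →ₐ[R] TrivSqZeroExt R M,
      (fstHom R R M).comp v = e' ∧ ∀ k, (v (x k)).snd = if k = i then m else 0 := by
  obtain ⟨v, ⟨hv1, hv2⟩, huniq⟩ := tangent_polynomial_existsUnique M τ hτ e' m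
  refine ⟨v, ⟨hv1, fun k => ?_⟩, ?_⟩
  · by_cases hki : k = i
    · subst hki
      rw [if_pos rfl, hi, hv2]
    · rw [if_neg hki, hk k hki, AlgHom.commutes, TrivSqZeroExt.algebraMap_eq_inl,
        TrivSqZeroExt.snd_inl]
  · rintro v' ⟨hv1', hv2'⟩
    apply huniq
    refine ⟨hv1', ?_⟩
    have := hv2' i
    rwa [if_pos rfl, hi] at this

/-- Coordinates of the push-forward of a tangent vector of a curve that is constant in the
coordinates `k ≠ i`: they vanish for `k ≠ i`. -/
theorem tangent_snd_eq_zero_of_const {S : Type*} [CommRing S] [Algebra R S]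
    (v : S →ₐ[R] TrivSqZeroExt R M) {s : S} {c : R} (hs : s = algebraMap R S c) :
    (v s).snd = 0 := by
  rw [hs, AlgHom.commutes, TrivSqZeroExt.algebraMap_eq_inl, TrivSqZeroExt.snd_inl]

end Axis

end Tangent


end Fermat.Agent.S26.helper2066
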