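/-
S26 / (T2) (helper355): on tangent vectors at the unit section, the group law of a relative group
law is ADDITION OF COORDINATES in every affine chart.

Points with values in the trivial square-zero extension `K[M] = TrivSqZeroExt K M` which reduce to
the unit section are described, in an affine chart `W` containing the unit section, by ring
homomorphisms `ξ : Γ(A, W) →+* K[M]`; the `M`-component of `ξ` of a product is the sum of the
`M`-components (Eckmann–Hilton, from `helper355_NsmulEtale.lean`).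

Everything is stated twice: with the group `GPt L B` of `helper355_NsmulEtale.lean`, and in the
plain frozen vocabulary (`SchemeHomOver`, `L.mul`, `L.one (𝟙 _)`), `M` any `K`-module (`M := K`
gives the dual numbers).
-/
import Fermat.Agent.S26.helper355_NsmulEtale

set_option autoImplicit false
set_option linter.style.haveILetI false

open CategoryTheory AlgebraicGeometry NeronModelInfra GoodReductionJacobian

universe u

namespace Fermat.Agent.S26.helper355

noncomputable section

section TangentAdd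

variable {K : Type u} [CommRing K] {A : Scheme.{u}} {f : A ⟶ Spec (CommRingCat.of K)}
  {L : RelativeGroupLaw K f}

theorem str_self : str K K = 𝟙 (Spec (CommRingCat.of K)) :=
  Spec.map_id _

/-- The unit of `A(K)` is the unit section of the frozen vocabulary. -/
theorem GPt.one_hom_self :
    (1 : GPt L K).hom = (L.one (𝟙 (Spec (CommRingCat.of K)))).1 := by
  calc (1 : GPt L K).hom = str K K ≫ (L.one (𝟙 (Spec (CommRingCat.of K)))).1 :=
        helper2966.one_val L (str K K)
    _ = 𝟙 _ ≫ (L.one (𝟙 (Spec (CommRingCat.of K)))).1 := by rw [str_self]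
    _ = _ := Category.id_comp _

variable {M : Type u} [AddCommGroup M] [Module K M] [Module Kᵐᵒᵖ M] [IsCentralScalar K M]

/-- Membership in the kernel of reduction, in the frozen vocabulary. -/
theorem mem_tszeKer_iff_comp {x : GPt L (TrivSqZeroExt K M)} :
    x ∈ tszeKer L M ↔
      Spec.map (CommRingCat.ofHom (TrivSqZeroExt.fstHom K K M).toRingHom) ≫ x.hom =
        (L.one (𝟙 (Spec (CommRingCat.of K)))).1 := by
  rw [mem_tszeKer, ← GPt.one_hom_self, ← GPt.map_hom]
  exact ⟨fun h => congrArg GPt.hom h, fun h => GPt.ext h⟩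

variable {W : A.Opens} (hW : IsAffineOpen W)

theorem tszeMap_hom_chart {M' : Type u} [AddCommGroup M'] [Module K M'] [Module Kᵐᵒᵖ M']
    [IsCentralScalar K M'] (a : M →ₗ[K] M') (x : GPt L (TrivSqZeroExt K M))
    (ξ : Γ(A, W) →+* TrivSqZeroExt K M) (h : x.hom = chartPt hW ξ) :
    (tszeMap L a x).hom = chartPt hW ((TrivSqZeroExt.map a).toRingHom.comp ξ) :=
  GPt.map_hom_chart hW _ x ξ h

/-- The `K`-component of the chart homomorphism of a tangent vector is the chart homomorphism of
the unit section. -/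
theorem tszeKer_chart_fst {x : GPt L (TrivSqZeroExt K M)} (hx : x ∈ tszeKer L M)
    (ξ : Γ(A, W) →+* TrivSqZeroExt K M) (ex : x.hom = chartPt hW ξ)
    (ε₀ : Γ(A, W) →+* K) (h0 : (1 : GPt L K).hom = chartPt hW ε₀) (s : Γ(A, W)) :
    (ξ s).fst = ε₀ s := by
  have c := congrArg GPt.hom (mem_tszeKer.mp hx)
  rw [GPt.map_hom_chart hW _ x ξ ex, h0] at c
  exact RingHom.congr_fun (chartPt_injective hW c) s

/-- Every ring homomorphism out of the chart which is `K`-linear and reduces to the unit section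
is the chart homomorphism of a tangent vector. -/
theorem tszeKer_exists_of_chart (ε₀ : Γ(A, W) →+* K) (h0 : (1 : GPt L K).hom = chartPt hW ε₀)
    (ξ : Γ(A, W) →+* TrivSqZeroExt K M)
    (hstr : ξ.comp (chartStr f hW) = algebraMap K (TrivSqZeroExt K M))
    (hfst : ∀ s, (ξ s).fst = ε₀ s) :
    ∃ x ∈ tszeKer L M, x.hom = chartPt hW ξ := by
  refine ⟨GPt.ofChart L hW ξ hstr, ?_, rfl⟩
  rw [mem_tszeKer]
  apply GPt.ext
  rw [GPt.map_hom_chart hW _ _ ξ (GPt.ofChart_hom hW ξ hstr), h0]
  congr 1
  ext s : 1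
  exact hfst s

section WithGPt

variable (h1 : Set.range (1 : GPt L K).hom ⊆ W)

include h1

/-- **(T2), chart form.** In a chart containing the unit section, the `M`-component of the chart
homomorphism of a product of two tangent vectors is the sum of the `M`-components. -/
theorem tszeKer_chart_mul {x y : GPt L (TrivSqZeroExt K M)} (hx : x ∈ tszeKer L M)
    (hy : y ∈ tszeKer L M) (ξx ξy ξxy : Γ(A, W) →+* TrivSqZeroExt K M)
    (ex : x.hom = chartPt hW ξx) (ey : y.hom = chartPt hW ξy)
    (exy : (x * y).hom = chartPt hW ξxy) (s : Γ(A, W)) :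
    (ξxy s).snd = (ξx s).snd + (ξy s).snd := by
  have hzmem : tszeMap L (LinearMap.inl K M M) x * tszeMap L (LinearMap.inr K M M) y ∈
      tszeKer L (M × M) :=
    (tszeKer L (M × M)).mul_mem (tszeMap_mem _ hx) (tszeMap_mem _ hy)
  obtain ⟨ζ, eζ⟩ := tszeKer_exists_chart hW h1 hzmem
  have p1 : tszeMap L (LinearMap.fst K M M)
      (tszeMap L (LinearMap.inl K M M) x * tszeMap L (LinearMap.inr K M M) y) = x := by
    rw [map_mul, tszeMap_comp (LinearMap.inl K M M) (LinearMap.fst K M M),
      tszeMap_comp (LinearMap.inr K M M) (LinearMap.fst K M M), LinearMap.fst_comp_inl,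
      LinearMap.fst_comp_inr, tszeMap_id, tszeMap_zero hy, mul_one]
  have p2 : tszeMap L (LinearMap.snd K M M)
      (tszeMap L (LinearMap.inl K M M) x * tszeMap L (LinearMap.inr K M M) y) = y := by
    rw [map_mul, tszeMap_comp (LinearMap.inl K M M) (LinearMap.snd K M M),
      tszeMap_comp (LinearMap.inr K M M) (LinearMap.snd K M M), LinearMap.snd_comp_inl,
      LinearMap.snd_comp_inr, tszeMap_id, tszeMap_zero hx, one_mul]
  have p3 : tszeMap L (LinearMap.coprod LinearMap.id LinearMap.id : M × M →ₗ[K] M)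
      (tszeMap L (LinearMap.inl K M M) x * tszeMap L (LinearMap.inr K M M) y) = x * y := by
    rw [map_mul, tszeMap_comp (LinearMap.inl K M M), tszeMap_comp (LinearMap.inr K M M),
      LinearMap.coprod_inl, LinearMap.coprod_inr, tszeMap_id, tszeMap_id]
  have c1 := congrArg GPt.hom p1
  have c2 := congrArg GPt.hom p2
  have c3 := congrArg GPt.hom p3
  rw [tszeMap_hom_chart hW _ _ ζ eζ, ex] at c1
  rw [tszeMap_hom_chart hW _ _ ζ eζ, ey] at c2
  rw [tszeMap_hom_chart hW _ _ ζ eζ, exy] at c3
  have e1 : (TrivSqZeroExt.map (LinearMap.fst K M M) (ζ s)).snd = (ξx s).snd :=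
    congrArg TrivSqZeroExt.snd (RingHom.congr_fun (chartPt_injective hW c1) s)
  have e2 : (TrivSqZeroExt.map (LinearMap.snd K M M) (ζ s)).snd = (ξy s).snd :=
    congrArg TrivSqZeroExt.snd (RingHom.congr_fun (chartPt_injective hW c2) s)
  have e3 : (TrivSqZeroExt.map (LinearMap.coprod LinearMap.id LinearMap.id : M × M →ₗ[K] M)
      (ζ s)).snd = (ξxy s).snd :=
    congrArg TrivSqZeroExt.snd (RingHom.congr_fun (chartPt_injective hW c3) s)
  rw [TrivSqZeroExt.snd_map] at e1 e2 e3
  rw [← e1, ← e2, ← e3]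
  simp [LinearMap.coprod_apply]

/-- The chart homomorphism of the unit has zero `M`-component. -/
theorem tszeKer_chart_one (ξ : Γ(A, W) →+* TrivSqZeroExt K M)
    (e : (1 : GPt L (TrivSqZeroExt K M)).hom = chartPt hW ξ) (s : Γ(A, W)) :
    (ξ s).snd = 0 := by
  obtain ⟨ε₀, h0⟩ := exists_chartPt hW (1 : GPt L K).hom h1
  rw [GPt.one_hom_chart hW ε₀ h0] at e
  have := RingHom.congr_fun (chartPt_injective hW e) s
  rw [← this]
  rfl

/-- Tangent vectors are determined by the `M`-components of their chart homomorphisms. -/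
theorem tszeKer_ext_chart {x y : GPt L (TrivSqZeroExt K M)} (hx : x ∈ tszeKer L M)
    (hy : y ∈ tszeKer L M) (ξx ξy : Γ(A, W) →+* TrivSqZeroExt K M)
    (ex : x.hom = chartPt hW ξx) (ey : y.hom = chartPt hW ξy)
    (h : ∀ s, (ξx s).snd = (ξy s).snd) : x = y := by
  obtain ⟨ε₀, h0⟩ := exists_chartPt hW (1 : GPt L K).hom h1
  have : ξx = ξy := by
    ext s : 1
    exact TrivSqZeroExt.ext
      ((tszeKer_chart_fst hW hx ξx ex ε₀ h0 s).trans
        (tszeKer_chart_fst hW hy ξy ey ε₀ h0 s).symm) (h s)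
  apply GPt.ext
  rw [ex, ey, this]

end WithGPt

/-! ### The same statements in the plain frozen vocabulary -/

section Plain

variable (L)
variable (hW1 : Set.range (L.one (𝟙 (Spec (CommRingCat.of K)))).1 ⊆ W)

include hW1

/-- A `K[M]`-point of `A` reducing to the unit section factors through every affine chart
containing the unit section. -/
theorem tangent_exists_chart (v : SchemeHomOver (str K (TrivSqZeroExt K M)) f)
    (hv : Spec.map (CommRingCat.ofHom (TrivSqZeroExt.fstHom K K M).toRingHom) ≫ v.1 =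
      (L.one (𝟙 (Spec (CommRingCat.of K)))).1) :
    ∃ ξ : Γ(A, W) →+* TrivSqZeroExt K M,
      v.1 = Spec.map (CommRingCat.ofHom ξ) ≫ hW.fromSpec := by
  have h1 : Set.range (1 : GPt L K).hom ⊆ W := by rw [GPt.one_hom_self]; exact hW1
  exact tszeKer_exists_chart (L := L) (x := v) hW h1 (mem_tszeKer_iff_comp.mpr hv)

/-- **(T2), plain form.** `M`-components of chart homomorphisms add under the group law. -/
theorem tangent_chart_mul (v w : SchemeHomOver (str K (TrivSqZeroExt K M)) f)
    (hv : Spec.map (CommRingCat.ofHom (TrivSqZeroExt.fstHom K K M).toRingHom) ≫ v.1 =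
      (L.one (𝟙 (Spec (CommRingCat.of K)))).1)
    (hw : Spec.map (CommRingCat.ofHom (TrivSqZeroExt.fstHom K K M).toRingHom) ≫ w.1 =
      (L.one (𝟙 (Spec (CommRingCat.of K)))).1)
    (ξv ξw ξvw : Γ(A, W) →+* TrivSqZeroExt K M)
    (ev : v.1 = Spec.map (CommRingCat.ofHom ξv) ≫ hW.fromSpec)
    (ew : w.1 = Spec.map (CommRingCat.ofHom ξw) ≫ hW.fromSpec)
    (evw : (L.mul (str K (TrivSqZeroExt K M)) v w).1 =
      Spec.map (CommRingCat.ofHom ξvw) ≫ hW.fromSpec) (s : Γ(A, W)) :
    (ξvw s).snd = (ξv s).snd + (ξw s).snd := by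
  have h1 : Set.range (1 : GPt L K).hom ⊆ W := by rw [GPt.one_hom_self]; exact hW1
  exact tszeKer_chart_mul (L := L) (x := v) (y := w) hW h1 (mem_tszeKer_iff_comp.mpr hv)
    (mem_tszeKer_iff_comp.mpr hw) ξv ξw ξvw ev ew evw s

omit hW1 in
/-- The product of two points reducing to the unit section reduces to the unit section. -/
theorem tangent_mul_pointed (v w : SchemeHomOver (str K (TrivSqZeroExt K M)) f)
    (hv : Spec.map (CommRingCat.ofHom (TrivSqZeroExt.fstHom K K M).toRingHom) ≫ v.1 =
      (L.one (𝟙 (Spec (CommRingCat.of K)))).1)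
    (hw : Spec.map (CommRingCat.ofHom (TrivSqZeroExt.fstHom K K M).toRingHom) ≫ w.1 =
      (L.one (𝟙 (Spec (CommRingCat.of K)))).1) :
    Spec.map (CommRingCat.ofHom (TrivSqZeroExt.fstHom K K M).toRingHom) ≫
        (L.mul (str K (TrivSqZeroExt K M)) v w).1 =
      (L.one (𝟙 (Spec (CommRingCat.of K)))).1 :=
  (mem_tszeKer_iff_comp (L := L) (x := L.mul (str K (TrivSqZeroExt K M)) v w)).mp
    ((tszeKer L M).mul_mem (x := v) (y := w) (mem_tszeKer_iff_comp.mpr hv)
      (mem_tszeKer_iff_comp.mpr hw))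

omit hW1 in
/-- The `K`-component of the chart homomorphism of a tangent vector is the chart homomorphism of
the unit section. -/
theorem tangent_chart_fst (v : SchemeHomOver (str K (TrivSqZeroExt K M)) f)
    (hv : Spec.map (CommRingCat.ofHom (TrivSqZeroExt.fstHom K K M).toRingHom) ≫ v.1 =
      (L.one (𝟙 (Spec (CommRingCat.of K)))).1)
    (ξ : Γ(A, W) →+* TrivSqZeroExt K M)
    (ev : v.1 = Spec.map (CommRingCat.ofHom ξ) ≫ hW.fromSpec)
    (ε₀ : Γ(A, W) →+* K)
    (h0 : (L.one (𝟙 (Spec (CommRingCat.of K)))).1 =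
      Spec.map (CommRingCat.ofHom ε₀) ≫ hW.fromSpec) (s : Γ(A, W)) :
    (ξ s).fst = ε₀ s := by
  exact tszeKer_chart_fst (L := L) (x := v) hW (mem_tszeKer_iff_comp.mpr hv) ξ ev ε₀
    (GPt.one_hom_self.trans h0) s

/-- Two points reducing to the unit section with the same `M`-components in a chart are equal. -/
theorem tangent_ext_chart (v w : SchemeHomOver (str K (TrivSqZeroExt K M)) f)
    (hv : Spec.map (CommRingCat.ofHom (TrivSqZeroExt.fstHom K K M).toRingHom) ≫ v.1 =
      (L.one (𝟙 (Spec (CommRingCat.of K)))).1)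
    (hw : Spec.map (CommRingCat.ofHom (TrivSqZeroExt.fstHom K K M).toRingHom) ≫ w.1 =
      (L.one (𝟙 (Spec (CommRingCat.of K)))).1)
    (ξv ξw : Γ(A, W) →+* TrivSqZeroExt K M)
    (ev : v.1 = Spec.map (CommRingCat.ofHom ξv) ≫ hW.fromSpec)
    (ew : w.1 = Spec.map (CommRingCat.ofHom ξw) ≫ hW.fromSpec)
    (h : ∀ s, (ξv s).snd = (ξw s).snd) : v = w := by
  have h1 : Set.range (1 : GPt L K).hom ⊆ W := by rw [GPt.one_hom_self]; exact hW1
  exact tszeKer_ext_chart (L := L) (x := v) (y := w) hW h1 (mem_tszeKer_iff_comp.mpr hv)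
    (mem_tszeKer_iff_comp.mpr hw) ξv ξw ev ew h

omit hW1 in
/-- Every `K`-linear ring homomorphism out of the chart reducing to the unit section comes from
a point reducing to the unit section. -/
theorem tangent_exists_of_chart (ε₀ : Γ(A, W) →+* K)
    (h0 : (L.one (𝟙 (Spec (CommRingCat.of K)))).1 =
      Spec.map (CommRingCat.ofHom ε₀) ≫ hW.fromSpec)
    (ξ : Γ(A, W) →+* TrivSqZeroExt K M)
    (hstr : Spec.map (CommRingCat.ofHom ξ) ≫ hW.fromSpec ≫ f = str K (TrivSqZeroExt K M))
    (hfst : ∀ s, (ξ s).fst = ε₀ s) :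
    ∃ v : SchemeHomOver (str K (TrivSqZeroExt K M)) f,
      Spec.map (CommRingCat.ofHom (TrivSqZeroExt.fstHom K K M).toRingHom) ≫ v.1 =
        (L.one (𝟙 (Spec (CommRingCat.of K)))).1 ∧
      v.1 = Spec.map (CommRingCat.ofHom ξ) ≫ hW.fromSpec := by
  have hstr' : ξ.comp (chartStr f hW) = algebraMap K (TrivSqZeroExt K M) := by
    have e : Spec.map (CommRingCat.ofHom (ξ.comp (chartStr f hW))) =
        Spec.map (CommRingCat.ofHom (algebraMap K (TrivSqZeroExt K M))) := by
      rw [← chartPt_comp_str hW ξ]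
      unfold chartPt
      rw [Category.assoc]
      exact hstr
    exact congrArg CommRingCat.Hom.hom (Spec.map_injective e)
  obtain ⟨x, hx, ex⟩ := tszeKer_exists_of_chart (L := L) hW ε₀ (GPt.one_hom_self.trans h0) ξ
    hstr' hfst
  exact ⟨x, mem_tszeKer_iff_comp.mp hx, ex⟩

end Plain

end TangentAdd

end

end Fermat.Agent.S26.helper355
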