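import Fermat.Agent.S26.helper3190_CoordCurves
import Fermat.Agent.S26.helper752_FramePos
import Fermat.Agent.S26.helper355_TangentAdd
import Fermat.Agent.S26.helper2066_ChartAlg
import Fermat.Agent.S26.helper1632_NormCurve

/-!
# S26-M6-FRAME: existence of a tangent frame of curves on an abelian variety

(helper3190; route #2746 M6 / D4.)  From the coordinate curves of `helper3190_CoordCurves`
(M6c-CHART), their compactifications (M6c-COMPACT, hypothesis `Stmt_Compact`) and the additivity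
of the group law on the tangent space (hypothesis `Stmt_TanAdd`), we produce a list of `g`
pointed smooth proper curves through the origin of `A` which is a tangent frame in the sense of
`helper752.IsFrame`.
-/

set_option autoImplicit false

universe u

noncomputable section

open CategoryTheory CategoryTheory.Limits AlgebraicGeometry TopologicalSpace NeronModelInfra
  GoodReductionJacobian

namespace Fermat.Agent.S26.helper3190

open Fermat.Agent.S26.helper154 (PCurve prodX prodPt wsum zpowPt sumMap IsAbVar)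
open Fermat.Agent.S26.helper752 (Sε tε ιε ιε_tε Tan TanGrp tanMap IsFrame)
open Fermat.Agent.S26.helper355 (chartPt chartPt_injective exists_chartPt)

section TanDict

variable {K : Type u} [Field K]

/-- The closed point of `Spec K[ε]` is its only point: every point is in the image of `ιε`. -/
theorem exists_ιε_eq (p : Sε K) : ∃ q : Spec (CommRingCat.of K), (ιε K).base q = p :=
  helper355.specMap_surjective_of_sq_zero (TrivSqZeroExt.fstHom K K K).toRingHom
    helper355.tsze_fstHom_surjective helper355.tsze_sq_zero_of_fst p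

/-- The image of a `K[ε]`-point is the image of its underlying `K`-point. -/
theorem range_Sε_subset {Y : Scheme.{u}} (v : Sε K ⟶ Y) :
    Set.range v.base ⊆ Set.range (ιε K ≫ v).base := by
  rintro _ ⟨p, rfl⟩
  obtain ⟨q, rfl⟩ := exists_ιε_eq p
  exact ⟨q, rfl⟩

/-- Tangent vectors lift uniquely through open immersions. -/
theorem tanMap_bijective_of_isOpenImmersion {U Y : Scheme.{u}} {u : U ⟶ Spec (CommRingCat.of K)}
    {y : Y ⟶ Spec (CommRingCat.of K)} {u₀ : Spec (CommRingCat.of K) ⟶ U}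
    {y₀ : Spec (CommRingCat.of K) ⟶ Y} (o : U ⟶ Y) [IsOpenImmersion o] (ho : o ≫ y = u)
    (h₀ : u₀ ≫ o = y₀) : Function.Bijective (Tan.map o ho h₀) := by
  constructor
  · intro v w hvw
    apply Tan.ext
    have h : v.1.1 ≫ o = w.1.1 ≫ o := congrArg (fun t : Tan y y₀ => t.1.1) hvw
    exact (cancel_mono o).mp h
  · intro w
    have hrange : Set.range w.1.1.base ⊆ Set.range o.base := by
      refine (range_Sε_subset w.1.1).trans ?_
      rw [w.2, ← h₀]
      rintro _ ⟨q, rfl⟩
      exact ⟨u₀.base q, rfl⟩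
    let v' : Sε K ⟶ U := IsOpenImmersion.lift o w.1.1 hrange
    have hv' : v' ≫ o = w.1.1 := IsOpenImmersion.lift_fac o w.1.1 hrange
    refine ⟨⟨⟨v', ?_⟩, ?_⟩, ?_⟩
    · rw [← ho, ← Category.assoc, hv', w.1.2]
    · apply (cancel_mono o).mp
      rw [Category.assoc, hv', w.2, h₀]
    · apply Tan.ext
      exact hv'

/-- The tangent vector of `Spec S` attached to an algebra map `S → K[ε]`. -/
def tanOfAlg {S : Type u} [CommRing S] [Algebra K S] {e' : S →ₐ[K] K}
    (ξ : helper2066.TangentAt K e') :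
    Tan (Spec.map (CommRingCat.ofHom (algebraMap K S))) (Spec.map (CommRingCat.ofHom e'.toRingHom)) :=
  ⟨⟨Spec.map (CommRingCat.ofHom ξ.1.toRingHom), by
      show Spec.map (CommRingCat.ofHom ξ.1.toRingHom) ≫
        Spec.map (CommRingCat.ofHom (algebraMap K S)) =
          Spec.map (CommRingCat.ofHom (algebraMap K (TrivSqZeroExt K K)))
      rw [← Spec.map_comp, ← CommRingCat.ofHom_comp]
      congr 2
      exact ξ.1.comp_algebraMap⟩, by
    show Spec.map (CommRingCat.ofHom (TrivSqZeroExt.fstHom K K K).toRingHom) ≫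
      Spec.map (CommRingCat.ofHom ξ.1.toRingHom) = _
    rw [← Spec.map_comp, ← CommRingCat.ofHom_comp]
    congr 2
    exact congrArg AlgHom.toRingHom ξ.2⟩

theorem tanOfAlg_val {S : Type u} [CommRing S] [Algebra K S] {e' : S →ₐ[K] K}
    (ξ : helper2066.TangentAt K e') :
    (tanOfAlg ξ).1.1 = Spec.map (CommRingCat.ofHom ξ.1.toRingHom) :=
  rfl

/-- Affine dictionary: tangent vectors of `Spec S` at a `K`-point are the algebra maps
`S → K[ε]` lifting the point. -/
theorem tanOfAlg_bijective {S : Type u} [CommRing S] [Algebra K S] (e' : S →ₐ[K] K) :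
    Function.Bijective (tanOfAlg (e' := e')) := by
  constructor
  · intro ξ ξ' h
    have h1 : Spec.map (CommRingCat.ofHom ξ.1.toRingHom) =
        Spec.map (CommRingCat.ofHom ξ'.1.toRingHom) :=
      congrArg (fun t : Tan (Spec.map (CommRingCat.ofHom (algebraMap K S)))
        (Spec.map (CommRingCat.ofHom e'.toRingHom)) => t.1.1) h
    have h2 := congrArg CommRingCat.Hom.hom (Spec.map_injective h1)
    apply Subtype.ext
    ext b : 1
    exact RingHom.congr_fun h2 b
  · intro w
    let ξ₀ : S →+* TrivSqZeroExt K K := (Spec.preimage w.1.1).hom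
    have hξ₀ : Spec.map (CommRingCat.ofHom ξ₀) = w.1.1 := by
      show Spec.map (CommRingCat.ofHom (Spec.preimage w.1.1).hom) = _
      rw [CommRingCat.ofHom_hom, Spec.map_preimage]
    have h1 : ξ₀.comp (algebraMap K S) = algebraMap K (TrivSqZeroExt K K) := by
      have : Spec.map (CommRingCat.ofHom ξ₀) ≫ Spec.map (CommRingCat.ofHom (algebraMap K S)) =
          Spec.map (CommRingCat.ofHom (algebraMap K (TrivSqZeroExt K K))) := by
        rw [hξ₀]; exact w.1.2
      rw [← Spec.map_comp, ← CommRingCat.ofHom_comp] at this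
      exact congrArg CommRingCat.Hom.hom (Spec.map_injective this)
    have h2 : (TrivSqZeroExt.fstHom K K K).toRingHom.comp ξ₀ = e'.toRingHom := by
      have : Spec.map (CommRingCat.ofHom (TrivSqZeroExt.fstHom K K K).toRingHom) ≫
          Spec.map (CommRingCat.ofHom ξ₀) = Spec.map (CommRingCat.ofHom e'.toRingHom) := by
        rw [hξ₀]; exact w.2
      rw [← Spec.map_comp, ← CommRingCat.ofHom_comp] at this
      exact congrArg CommRingCat.Hom.hom (Spec.map_injective this)
    let ξ : S →ₐ[K] TrivSqZeroExt K K :=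
      { toRingHom := ξ₀
        commutes' := fun c => RingHom.congr_fun h1 c }
    refine ⟨⟨ξ, ?_⟩, ?_⟩
    · ext b
      exact RingHom.congr_fun h2 b
    · apply Tan.ext
      exact hξ₀

end TanDict

section Chart

variable {K : Type u} [Field K] {A : Scheme.{u}} {f : A ⟶ Spec (CommRingCat.of K)}
  {L : RelativeGroupLaw K f} {V : A.Opens} (hV : IsAffineOpen V) [Algebra K Γ(A, V)]
  (hstr : hV.fromSpec ≫ f = Spec.map (CommRingCat.ofHom (algebraMap K Γ(A, V))))
  (ev : Γ(A, V) →ₐ[K] K)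
  (hpt : Spec.map (CommRingCat.ofHom ev.toRingHom) ≫ hV.fromSpec =
    (L.one (𝟙 (Spec (CommRingCat.of K)))).1)

/-- The tangent vector at the origin attached to an algebra map `Γ(A, V) → K[ε]` lifting the
origin, for an affine chart `V` containing the origin. -/
def tanOfChart (ξ : helper2066.TangentAt K ev) : TanGrp L :=
  Tan.map hV.fromSpec hstr hpt (tanOfAlg ξ)

theorem tanOfChart_val (ξ : helper2066.TangentAt K ev) :
    (tanOfChart hV hstr ev hpt ξ).1.1 = chartPt hV ξ.1.toRingHom :=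
  rfl

theorem tanOfChart_bijective : Function.Bijective (tanOfChart (L := L) hV hstr ev hpt) :=
  (tanMap_bijective_of_isOpenImmersion hV.fromSpec hstr hpt).comp (tanOfAlg_bijective ev)

/-- The coordinates of a tangent vector at the origin in the chart `(V, t)`: the
`ε`-coefficients of the functions `t j`; zero for `j ≥ g`. -/
def chartCoord {g : ℕ} (t : Fin g → Γ(A, V)) (v : TanGrp L) (j : ℕ) : K :=
  if h : j < g then
    (((Equiv.ofBijective _ (tanOfChart_bijective (L := L) hV hstr ev hpt)).symm v).1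
      (t ⟨j, h⟩)).snd
  else 0

theorem chartCoord_tanOfChart {g : ℕ} (t : Fin g → Γ(A, V)) (ξ : helper2066.TangentAt K ev)
    (j : ℕ) (h : j < g) :
    chartCoord hV hstr ev hpt t (tanOfChart hV hstr ev hpt ξ) j = (ξ.1 (t ⟨j, h⟩)).snd := by
  unfold chartCoord
  rw [dif_pos h]
  have : (Equiv.ofBijective _ (tanOfChart_bijective (L := L) hV hstr ev hpt)).symm
      (tanOfChart hV hstr ev hpt ξ) = ξ :=
    (Equiv.ofBijective _ (tanOfChart_bijective (L := L) hV hstr ev hpt)).symm_apply_apply ξ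
  rw [this]

theorem chartCoord_of_ge {g : ℕ} (t : Fin g → Γ(A, V)) (v : TanGrp L) (j : ℕ) (h : ¬ j < g) :
    chartCoord hV hstr ev hpt t v j = 0 := by
  unfold chartCoord
  rw [dif_neg h]

end Chart

/-- **(T2) in a chart**, as a `Prop`: in an affine chart containing the origin, the group law on
the tangent space at the origin is the addition of derivations. -/
def Stmt_TanAdd : Prop :=
  ∀ (K : Type u) [Field K] {A : Scheme.{u}} (f : A ⟶ Spec (CommRingCat.of K))
    (L : RelativeGroupLaw K f) {V : A.Opens} (hV : IsAffineOpen V)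
    (v w : TanGrp L) (ξ₁ ξ₂ ξ₃ : Γ(A, V) →+* TrivSqZeroExt K K),
    v.1.1 = chartPt hV ξ₁ → w.1.1 = chartPt hV ξ₂ → (v * w).1.1 = chartPt hV ξ₃ →
    ∀ b, (ξ₃ b).snd = (ξ₁ b).snd + (ξ₂ b).snd

/-- `Stmt_TanAdd` holds (Eckmann–Hilton, `helper355.tangent_chart_mul`). -/
theorem stmt_TanAdd : Stmt_TanAdd.{u} := by
  intro K _ A f L V hV v w ξ₁ ξ₂ ξ₃ h1 h2 h3 b
  have hW1 : Set.range (L.one (𝟙 (Spec (CommRingCat.of K)))).1 ⊆ V := by
    rw [← v.2]
    rintro _ ⟨q, rfl⟩
    have hq : (ιε K ≫ v.1.1) q = (chartPt hV ξ₁) ((ιε K) q) := by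
      rw [← h1]; rfl
    rw [hq]
    exact helper355.range_chartPt_subset hV ξ₁ ⟨_, rfl⟩
  exact helper355.tangent_chart_mul L hV hW1 v.1 w.1 v.2 w.2 ξ₁ ξ₂ ξ₃ h1 h2 h3 b

section Chart2

variable {K : Type u} [Field K] {A : Scheme.{u}} {f : A ⟶ Spec (CommRingCat.of K)}
  {L : RelativeGroupLaw K f} {V : A.Opens} (hV : IsAffineOpen V) [Algebra K Γ(A, V)]
  (hstr : hV.fromSpec ≫ f = Spec.map (CommRingCat.ofHom (algebraMap K Γ(A, V))))
  (ev : Γ(A, V) →ₐ[K] K)
  (hpt : Spec.map (CommRingCat.ofHom ev.toRingHom) ≫ hV.fromSpec =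
    (L.one (𝟙 (Spec (CommRingCat.of K)))).1)

theorem chartCoord_mul (hAdd : Stmt_TanAdd.{u}) {g : ℕ} (t : Fin g → Γ(A, V)) (v w : TanGrp L) :
    chartCoord hV hstr ev hpt t (v * w) =
      chartCoord hV hstr ev hpt t v + chartCoord hV hstr ev hpt t w := by
  have hΦ := tanOfChart_bijective (L := L) hV hstr ev hpt
  obtain ⟨ξ₁, rfl⟩ := hΦ.2 v
  obtain ⟨ξ₂, rfl⟩ := hΦ.2 w
  obtain ⟨ξ₃, h₃⟩ := hΦ.2 (tanOfChart hV hstr ev hpt ξ₁ * tanOfChart hV hstr ev hpt ξ₂)
  funext j
  by_cases h : j < g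
  · rw [← h₃, Pi.add_apply, chartCoord_tanOfChart hV hstr ev hpt t ξ₃ j h,
      chartCoord_tanOfChart hV hstr ev hpt t ξ₁ j h, chartCoord_tanOfChart hV hstr ev hpt t ξ₂ j h]
    exact hAdd K f L hV (tanOfChart hV hstr ev hpt ξ₁) (tanOfChart hV hstr ev hpt ξ₂)
      ξ₁.1.toRingHom ξ₂.1.toRingHom ξ₃.1.toRingHom rfl rfl (by rw [← h₃]; rfl) _
  · rw [Pi.add_apply, chartCoord_of_ge hV hstr ev hpt t _ j h,
      chartCoord_of_ge hV hstr ev hpt t _ j h, chartCoord_of_ge hV hstr ev hpt t _ j h, add_zero]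

theorem chartCoord_bijective {g : ℕ} (t : Fin g → Γ(A, V))
    (ht : (MvPolynomial.aeval t : MvPolynomial (Fin g) K →ₐ[K] Γ(A, V)).toRingHom.FormallyEtale)
    (n : ℕ) (hn : n = g) :
    Function.Bijective (fun (v : TanGrp L) (j : Fin n) => chartCoord hV hstr ev hpt t v j) := by
  subst hn
  have hΦ := tanOfChart_bijective (L := L) hV hstr ev hpt
  constructor
  · intro v w hvw
    obtain ⟨ξ₁, rfl⟩ := hΦ.2 v
    obtain ⟨ξ₂, rfl⟩ := hΦ.2 w
    obtain ⟨ξ₀, -, huniq⟩ :=
      helper2066.tangent_coord_existsUnique_aeval K t ht ev (fun j => (ξ₁.1 (t j)).snd)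
    have e1 : ξ₁.1 = ξ₀ := huniq ξ₁.1 ⟨ξ₁.2, fun j => rfl⟩
    have e2 : ξ₂.1 = ξ₀ := huniq ξ₂.1 ⟨ξ₂.2, fun j => by
      have hj : chartCoord hV hstr ev hpt t (tanOfChart hV hstr ev hpt ξ₁) j =
          chartCoord hV hstr ev hpt t (tanOfChart hV hstr ev hpt ξ₂) j := congrFun hvw j
      rw [chartCoord_tanOfChart hV hstr ev hpt t _ j j.2,
        chartCoord_tanOfChart hV hstr ev hpt t _ j j.2] at hj
      exact hj.symm⟩
    have : ξ₁ = ξ₂ := Subtype.ext (e1.trans e2.symm)
    rw [this]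
  · intro w
    obtain ⟨ξ₀, ⟨h1, h2⟩, -⟩ := helper2066.tangent_coord_existsUnique_aeval K t ht ev w
    obtain ⟨ξ', hξ'⟩ : ∃ ξ' : helper2066.TangentAt K ev, ξ'.1 = ξ₀ := ⟨Subtype.mk ξ₀ h1, rfl⟩
    refine ⟨tanOfChart hV hstr ev hpt ξ', ?_⟩
    funext j
    show chartCoord hV hstr ev hpt t (tanOfChart hV hstr ev hpt ξ') j = w j
    rw [chartCoord_tanOfChart hV hstr ev hpt t ξ' j j.2, hξ']
    exact h2 j

/-- **The coordinate curve is tangent to the `i`-th axis**, scheme form: a pointed curve `P`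
containing `Spec S` as an open subscheme, where `S` is étale over `K[X]` through `τ`, the
chart coordinate `t i` restricts to `τ X` and the other coordinates restrict to constants. -/
theorem axis_of_curve {g : ℕ} (t : Fin g → Γ(A, V)) {S : Type u} [CommRing S] [Algebra K S]
    (π : Γ(A, V) →ₐ[K] S) (τ : Polynomial K →ₐ[K] S) (e' : S →ₐ[K] K) (he' : e'.comp π = ev)
    (hτ : τ.toRingHom.FormallyEtale) (i : Fin g) (hi : π (t i) = τ Polynomial.X)
    (hk : ∀ k, k ≠ i → π (t k) = algebraMap K S (ev (t k)))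
    (P : PCurve K f L) (ι : Spec (CommRingCat.of S) ⟶ P.C) [IsOpenImmersion ι]
    (hι : ι ≫ P.map.1 = Spec.map (CommRingCat.ofHom π.toRingHom) ≫ hV.fromSpec)
    (hP : Spec.map (CommRingCat.ofHom e'.toRingHom) ≫ ι = P.pt.1) :
    (∀ (u : Tan P.c P.pt.1) (j : ℕ), j < g → j ≠ i →
      chartCoord hV hstr ev hpt t (tanMap L P.map P.map_pt u) j = 0) ∧
    Function.Bijective (fun u : Tan P.c P.pt.1 =>
      chartCoord hV hstr ev hpt t (tanMap L P.map P.map_pt u) i) := by
  have ho : ι ≫ P.c = Spec.map (CommRingCat.ofHom (algebraMap K S)) := by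
    rw [← P.map.2, ← Category.assoc, hι, Category.assoc, hstr, ← Spec.map_comp,
      ← CommRingCat.ofHom_comp]
    congr 2
    exact π.comp_algebraMap
  let Ψ : helper2066.TangentAt K e' → Tan P.c P.pt.1 := fun ξ => Tan.map ι ho hP (tanOfAlg ξ)
  have hΨ : Function.Bijective Ψ :=
    (tanMap_bijective_of_isOpenImmersion ι ho hP).comp (tanOfAlg_bijective e')
  have hpush : ∀ ξ : helper2066.TangentAt K e', ∃ ξ' : helper2066.TangentAt K ev,
      ξ'.1 = ξ.1.comp π := fun ξ =>
    ⟨Subtype.mk (ξ.1.comp π) (by rw [← AlgHom.comp_assoc, ξ.2, he']), rfl⟩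
  choose push hpush using hpush
  have key : ∀ ξ, tanMap L P.map P.map_pt (Ψ ξ) = tanOfChart hV hstr ev hpt (push ξ) := by
    intro ξ
    apply Tan.ext
    show (Spec.map (CommRingCat.ofHom ξ.1.toRingHom) ≫ ι) ≫ P.map.1 =
      Spec.map (CommRingCat.ofHom (push ξ).1.toRingHom) ≫ hV.fromSpec
    rw [hpush ξ, Category.assoc, hι, ← Category.assoc, ← Spec.map_comp, ← CommRingCat.ofHom_comp]
    rfl
  constructor
  · intro u j hj hji
    obtain ⟨ξ, rfl⟩ := hΨ.2 u
    rw [key, chartCoord_tanOfChart hV hstr ev hpt t (push ξ) j hj, hpush ξ]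
    show (ξ.1 (π (t ⟨j, hj⟩))).snd = 0
    exact helper2066.tangent_snd_eq_zero_of_const ξ.1
      (hk ⟨j, hj⟩ (fun h => hji (congrArg Fin.val h)))
  · have hcomp : (fun u : Tan P.c P.pt.1 =>
        chartCoord hV hstr ev hpt t (tanMap L P.map P.map_pt u) i) ∘ Ψ =
        fun ξ => (ξ.1 (τ Polynomial.X)).snd := by
      funext ξ
      show chartCoord hV hstr ev hpt t (tanMap L P.map P.map_pt (Ψ ξ)) i = _
      rw [key, chartCoord_tanOfChart hV hstr ev hpt t (push ξ) i i.2, hpush ξ]
      show (ξ.1 (π (t ⟨i, i.2⟩))).snd = _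
      rw [Fin.eta, hi]
    rw [← Function.Bijective.of_comp_iff _ hΨ, hcomp]
    constructor
    · intro ξ₁ ξ₂ h
      obtain ⟨ξ₀, -, huniq⟩ :=
        helper2066.tangent_polynomial_existsUnique K τ hτ e' ((ξ₁.1 (τ Polynomial.X)).snd)
      exact Subtype.ext ((huniq ξ₁.1 ⟨ξ₁.2, rfl⟩).trans (huniq ξ₂.1 ⟨ξ₂.2, h.symm⟩).symm)
    · intro m
      obtain ⟨ξ₀, ⟨h1, h2⟩, -⟩ := helper2066.tangent_polynomial_existsUnique K τ hτ e' m
      exact ⟨(Subtype.mk ξ₀ h1 : helper2066.TangentAt K e'), h2⟩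

end Chart2

/-- **M6-FRAME.** An abelian variety of dimension `g` has a tangent frame of `g` pointed
smooth proper curves. -/
theorem exists_isFrame (hC : Stmt_Compact.{u}) (hAdd : Stmt_TanAdd.{u}) {K : Type u} [Field K]
    {A : Scheme.{u}} {f : A ⟶ Spec (CommRingCat.of K)} {L : RelativeGroupLaw K f} {g : ℕ}
    (hAb : IsAbVar K f L g) : ∃ l : List (PCurve K f L), l.length = g ∧ IsFrame L l := by
  have := hAb.algClosed
  have := hAb.smooth
  have := hAb.bundle.proper
  have he : (L.one (𝟙 (Spec (CommRingCat.of K)))).1 ≫ f = 𝟙 _ := (L.one (𝟙 _)).2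
  obtain ⟨V, hV, hVe, hrest⟩ := exists_coordCurve_chart f g (L.one (𝟙 _)).1 he
  let algV : Algebra K Γ(A, V) := (strHom f V).hom.toAlgebra
  obtain ⟨ev, t, hev, ht, hcurves⟩ := hrest
  have hstr : hV.fromSpec ≫ f = Spec.map (CommRingCat.ofHom (algebraMap K Γ(A, V))) :=
    fromSpec_comp_eq f hV
  have hpt : Spec.map (CommRingCat.ofHom ev.toRingHom) ≫ hV.fromSpec =
      (L.one (𝟙 (Spec (CommRingCat.of K)))).1 := by
    rw [hev]
    exact SpecMap_evalHom_fromSpec _ hV hVe
  have hP : ∀ i : Fin g, ∃ P : PCurve K f L,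
      (∀ (u : Tan P.c P.pt.1) (j : ℕ), j < g → j ≠ i →
        chartCoord hV hstr ev hpt t (tanMap L P.map P.map_pt u) j = 0) ∧
      Function.Bijective (fun u : Tan P.c P.pt.1 =>
        chartCoord hV hstr ev hpt t (tanMap L P.map P.map_pt u) i) := by
    intro i
    obtain ⟨S, _, _, _, π, τ, e', he', hτ, hS, hi, hk, himm, hfac, hsm, hz⟩ := hcurves i
    have := himm
    have : SmoothOfRelativeDimension 1
        ((Spec.map (CommRingCat.ofHom π.toRingHom) ≫ hV.fromSpec) ≫ f) := by
      rw [hfac]; exact hsm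
    obtain ⟨C, ι, φ, hι, hιφ, hint, hprop, hsmC⟩ :=
      hC K f (Spec.map (CommRingCat.ofHom π.toRingHom) ≫ hV.fromSpec)
    let P : PCurve K f L :=
      { C := C
        c := φ ≫ f
        proper := hprop
        smooth := hsmC
        integral := hint
        pt := ⟨Spec.map (CommRingCat.ofHom e'.toRingHom) ≫ ι, by
          rw [Category.assoc, ← Category.assoc ι, hιφ, ← Category.assoc, hz, he]⟩
        map := ⟨φ, rfl⟩
        map_pt := by
          show (Spec.map (CommRingCat.ofHom e'.toRingHom) ≫ ι) ≫ φ = _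
          rw [Category.assoc, hιφ, hz] }
    refine ⟨P, ?_⟩
    have := hι
    exact axis_of_curve hV hstr ev hpt t π τ e' he' (helper2066.formallyEtale_of_etale hτ) i hi hk
      P ι hιφ rfl
  choose P hP0 hPb using hP
  have hlen : (List.ofFn P).length = g := List.length_ofFn
  have hQ : ∀ (R : PCurve K f L → Prop) (i : ℕ) (hi : i < (List.ofFn P).length),
      R (P ⟨i, hlen ▸ hi⟩) → R ((List.ofFn P)[i]) := by
    intro R i hi h
    rwa [List.getElem_ofFn]
  refine ⟨List.ofFn P, hlen, chartCoord hV hstr ev hpt t, chartCoord_mul hV hstr ev hpt hAdd t,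
    chartCoord_bijective hV hstr ev hpt t (helper2066.formallyEtale_of_etale ht) _ hlen, ?_, ?_⟩
  · intro i hi u j hj hji
    exact hQ (fun P' => ∀ (u : Tan P'.c P'.pt.1) (j : ℕ), j < g → j ≠ i →
      chartCoord hV hstr ev hpt t (tanMap L P'.map P'.map_pt u) j = 0) i hi
      (hP0 ⟨i, hlen ▸ hi⟩) u j (hlen ▸ hj) hji
  · intro i hi
    exact hQ (fun P' => Function.Bijective (fun u : Tan P'.c P'.pt.1 =>
      chartCoord hV hstr ev hpt t (tanMap L P'.map P'.map_pt u) i)) i hi (hPb ⟨i, hlen ▸ hi⟩)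

/-- **Root `helper752.Stmt_TanFrame`** from the compactification of curves. -/
theorem stmt_TanFrame (hC : Stmt_Compact.{u}) : helper752.Stmt_TanFrame.{u} := by
  intro K _ A f L g _ hA _
  exact exists_isFrame hC stmt_TanAdd hA

/-- **Root `helper154.Stmt_FramePos`** from the compactification of curves. -/
theorem stmt_FramePos (hC : Stmt_Compact.{u}) : helper154.Stmt_FramePos.{u} :=
  helper752.stmt_FramePos_of_tanFrame (stmt_TanFrame hC)

/-- **M6c-COMPACT** (`helper1632.exists_proper_smooth_curve`; a second proof is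
`helper1463.exists_proper_smooth_curve`). -/
theorem stmt_Compact : Stmt_Compact.{u} :=
  fun _ _ _ _ _ a _ j _ _ _ _ => helper1632.exists_proper_smooth_curve a j

/-- **Root `helper752.Stmt_TanFrame`, unconditional.** -/
theorem stmt_TanFrame_closed : helper752.Stmt_TanFrame.{u} :=
  stmt_TanFrame stmt_Compact

/-- **Root `helper154.Stmt_FramePos`, unconditional.** -/
theorem stmt_FramePos_closed : helper154.Stmt_FramePos.{u} :=
  stmt_FramePos stmt_Compact

end Fermat.Agent.S26.helper3190
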