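/-
helper1157 — S26, leaf M8-CURVE (board 1636).

The product formula `∑_P ord_P(f) = 0` for a *complete separated family of normalised degree-one
places* of a field `F` over a field `K`, in abstract function-field form (no schemes).  This is
the only input about curves that the product-type bound of the S26 route needs:
"a function on a complete curve with more zeros than poles is zero".

Main declarations (namespace `Fermat.Agent.S26.helper1157`):
* `PlaceCore K F ι`              : five axioms (mul, add, const, residue, complete);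
* `PlaceCore.L`                  : the Riemann–Roch space of a divisor `D : ι → ℤ`;
* `PlaceCore.finrank_L_le`       : `dim L(G) ≤ deg G + 1` for effective `G` (Riemann inequality);
* `PlaceFamily K F ι`            : `PlaceCore` + (finite_support, separated, uniformizer);
* `PlaceFamily.exists_approx`    : weak approximation;
* `PlaceFamily.sum_ord_eq_zero`  : the product formula `∑ᶠ P, ord P f = 0`;
* `PlaceFamily.degree_poleDiv_eq`, `PlaceFamily.degree_zeroDiv_le_of_mem_L`,
  `PlaceFamily.eq_zero_of_mem_L_of_vge`, `PlaceFamily.eq_zero_of_mem_L_of_degree_neg`.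
-/
import Mathlib

set_option autoImplicit false

namespace Fermat.Agent.S26.helper1157

open Module

/-- A family of discrete valuations `ord P : F → ℤ` (values at `0` are junk) on a field `F`
over `K`, all trivial on `K`, which is
* of degree one (`residue`: the residue field of every place is `K`),
* complete (`complete`: a function without poles is constant).
This is all that the Riemann inequality `dim L(G) ≤ deg G + 1` needs. -/
structure PlaceCore (K F ι : Type*) [Field K] [Field F] [Algebra K F] where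
  /-- the order of vanishing at a place (junk value at `0`) -/
  ord : ι → F → ℤ
  ord_mul : ∀ (P : ι) (f g : F), f ≠ 0 → g ≠ 0 → ord P (f * g) = ord P f + ord P g
  ord_add : ∀ (P : ι) (f g : F), f ≠ 0 → g ≠ 0 → f + g ≠ 0 →
    min (ord P f) (ord P g) ≤ ord P (f + g)
  ord_const : ∀ (P : ι) (c : K), c ≠ 0 → ord P (algebraMap K F c) = 0
  residue : ∀ (P : ι) (f : F), f ≠ 0 → 0 ≤ ord P f →
    ∃ c : K, f = algebraMap K F c ∨ 0 < ord P (f - algebraMap K F c)
  complete : ∀ f : F, f ≠ 0 → (∀ P, 0 ≤ ord P f) → f ∈ Set.range (algebraMap K F)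

/-- A `PlaceCore` which is moreover
* locally finite (`finite_support`),
* separated (`separated`: distinct places have incomparable valuation rings),
* normalised (`uniformizer`).
This is what the product formula `∑_P ord_P(f) = 0` needs. -/
structure PlaceFamily (K F ι : Type*) [Field K] [Field F] [Algebra K F]
    extends PlaceCore K F ι where
  finite_support : ∀ f : F, f ≠ 0 → {P | ord P f ≠ 0}.Finite
  separated : ∀ P Q : ι, P ≠ Q → ∃ u : F, u ≠ 0 ∧ 0 ≤ ord P u ∧ ord Q u < 0
  uniformizer : ∀ P : ι, ∃ t : F, t ≠ 0 ∧ ord P t = 1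

namespace PlaceCore

variable {K F ι : Type*} [Field K] [Field F] [Algebra K F] (S : PlaceCore K F ι)

/-! ### Basic properties of `ord` -/

theorem ord_one (P : ι) : S.ord P 1 = 0 := by
  have h := S.ord_const P 1 one_ne_zero
  simpa using h

theorem ord_neg_one (P : ι) : S.ord P (-1) = 0 := by
  have h := S.ord_const P (-1) (neg_ne_zero.mpr one_ne_zero)
  simpa using h

theorem ord_neg (P : ι) (f : F) (hf : f ≠ 0) : S.ord P (-f) = S.ord P f := by
  have h := S.ord_mul P (-1) f (neg_ne_zero.mpr one_ne_zero) hf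
  rw [S.ord_neg_one, zero_add] at h
  simpa using h

theorem ord_inv (P : ι) (f : F) (hf : f ≠ 0) : S.ord P f⁻¹ = -S.ord P f := by
  have h := S.ord_mul P f f⁻¹ hf (inv_ne_zero hf)
  rw [mul_inv_cancel₀ hf, S.ord_one] at h
  omega

theorem ord_div (P : ι) (f g : F) (hf : f ≠ 0) (hg : g ≠ 0) :
    S.ord P (f / g) = S.ord P f - S.ord P g := by
  rw [div_eq_mul_inv, S.ord_mul P f g⁻¹ hf (inv_ne_zero hg), S.ord_inv P g hg]
  ring

theorem ord_pow (P : ι) (f : F) (hf : f ≠ 0) (n : ℕ) : S.ord P (f ^ n) = n * S.ord P f := by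
  induction n with
  | zero => simp [S.ord_one]
  | succ n ih =>
    rw [pow_succ, S.ord_mul P _ _ (pow_ne_zero n hf) hf, ih]
    push_cast
    ring

theorem ord_smul (P : ι) (c : K) (hc : c ≠ 0) (f : F) (hf : f ≠ 0) :
    S.ord P (c • f) = S.ord P f := by
  have hc' : algebraMap K F c ≠ 0 := by
    simpa using hc
  rw [Algebra.smul_def, S.ord_mul P _ _ hc' hf, S.ord_const P c hc, zero_add]

/-- If `ord f < ord g` then `ord (f + g) = ord f`. -/
theorem ord_add_of_lt (P : ι) (f g : F) (hf : f ≠ 0) (hg : g ≠ 0)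
    (h : S.ord P f < S.ord P g) : f + g ≠ 0 ∧ S.ord P (f + g) = S.ord P f := by
  have hne : f + g ≠ 0 := by
    intro h0
    have hg' : g = -f := by
      rw [eq_neg_iff_add_eq_zero, add_comm]; exact h0
    rw [hg', S.ord_neg P f hf] at h
    exact lt_irrefl _ h
  refine ⟨hne, le_antisymm ?_ ?_⟩
  · by_contra hlt
    have hlt := not_le.mp hlt
    have h1 := S.ord_add P (f + g) (-g) hne (neg_ne_zero.mpr hg) (by simpa using hf)
    rw [S.ord_neg P g hg] at h1
    have h2 : f + g + -g = f := by ring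
    rw [h2] at h1
    have h3 : S.ord P f < min (S.ord P (f + g)) (S.ord P g) := lt_min hlt h
    exact absurd h1 (not_le.mpr h3)
  · have h1 := S.ord_add P f g hf hg hne
    rwa [min_eq_left h.le] at h1

/-! ### The predicate `v_P(f) ≥ n` -/

/-- `S.vge P n f` means `v_P(f) ≥ n`, with `v_P(0) = ∞`. -/
def vge (P : ι) (n : ℤ) (f : F) : Prop := f = 0 ∨ n ≤ S.ord P f

theorem vge_zero (P : ι) (n : ℤ) : S.vge P n 0 := Or.inl rfl

theorem vge_of_ne (P : ι) (n : ℤ) (f : F) (hf : f ≠ 0) : S.vge P n f ↔ n ≤ S.ord P f := by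
  simp [vge, hf]

theorem vge_mono (P : ι) {m n : ℤ} (h : m ≤ n) {f : F} (hf : S.vge P n f) : S.vge P m f := by
  rcases hf with hf | hf
  · exact Or.inl hf
  · exact Or.inr (h.trans hf)

theorem vge_add (P : ι) (n : ℤ) {f g : F} (hf : S.vge P n f) (hg : S.vge P n g) :
    S.vge P n (f + g) := by
  by_cases hf0 : f = 0
  · simpa [hf0] using hg
  by_cases hg0 : g = 0
  · simpa [hg0] using hf
  by_cases hfg : f + g = 0
  · exact Or.inl hfg
  right
  have h1 := S.ord_add P f g hf0 hg0 hfg
  have h2 := (S.vge_of_ne P n f hf0).mp hf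
  have h3 := (S.vge_of_ne P n g hg0).mp hg
  exact (le_min h2 h3).trans h1

theorem vge_neg (P : ι) (n : ℤ) {f : F} (hf : S.vge P n f) : S.vge P n (-f) := by
  rcases hf with hf | hf
  · exact Or.inl (by simp [hf])
  · by_cases hf0 : f = 0
    · exact Or.inl (by simp [hf0])
    · exact Or.inr (by rwa [S.ord_neg P f hf0])

theorem vge_sub (P : ι) (n : ℤ) {f g : F} (hf : S.vge P n f) (hg : S.vge P n g) :
    S.vge P n (f - g) := by
  rw [sub_eq_add_neg]
  exact S.vge_add P n hf (S.vge_neg P n hg)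

theorem vge_mul (P : ι) {m n : ℤ} {f g : F} (hf : S.vge P m f) (hg : S.vge P n g) :
    S.vge P (m + n) (f * g) := by
  by_cases hf0 : f = 0
  · exact Or.inl (by simp [hf0])
  by_cases hg0 : g = 0
  · exact Or.inl (by simp [hg0])
  right
  rw [S.ord_mul P f g hf0 hg0]
  have h2 := (S.vge_of_ne P m f hf0).mp hf
  have h3 := (S.vge_of_ne P n g hg0).mp hg
  omega

theorem vge_smul (P : ι) (n : ℤ) (c : K) {f : F} (hf : S.vge P n f) : S.vge P n (c • f) := by
  by_cases hc : c = 0
  · exact Or.inl (by simp [hc])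
  by_cases hf0 : f = 0
  · exact Or.inl (by simp [hf0])
  right
  rw [S.ord_smul P c hc f hf0]
  exact (S.vge_of_ne P n f hf0).mp hf

theorem vge_sum (P : ι) (n : ℤ) {α : Type*} (s : Finset α) (f : α → F)
    (h : ∀ a ∈ s, S.vge P n (f a)) : S.vge P n (∑ a ∈ s, f a) := by
  classical
  induction s using Finset.induction_on with
  | empty => simpa using S.vge_zero P n
  | insert a s ha ih =>
    rw [Finset.sum_insert ha]
    exact S.vge_add P n (h a (Finset.mem_insert_self a s))
      (ih fun b hb => h b (Finset.mem_insert_of_mem hb))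

theorem vge_algebraMap (P : ι) (c : K) : S.vge P 0 (algebraMap K F c) := by
  by_cases hc : c = 0
  · exact Or.inl (by simp [hc])
  · exact Or.inr (S.ord_const P c hc).ge

theorem vge_pow (P : ι) {m : ℤ} {f : F} (hf : S.vge P m f) (n : ℕ) :
    S.vge P (n * m) (f ^ n) := by
  induction n with
  | zero =>
    simp only [Nat.cast_zero, zero_mul, pow_zero]
    exact Or.inr (S.ord_one P).ge
  | succ n ih =>
    rw [pow_succ]
    have := S.vge_mul P ih hf
    convert this using 1
    push_cast
    ring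

/-- The dominant-term principle: if `ord f = a` and `v(g) ≥ a + 1` then `ord (f + g) = a`. -/
theorem ord_add_of_vge (P : ι) (f g : F) (hf : f ≠ 0) (hg : S.vge P (S.ord P f + 1) g) :
    f + g ≠ 0 ∧ S.ord P (f + g) = S.ord P f := by
  by_cases hg0 : g = 0
  · simp [hg0, hf]
  · have h := (S.vge_of_ne P _ g hg0).mp hg
    exact S.ord_add_of_lt P f g hf hg0 (by omega)


/-! ### Riemann–Roch spaces -/

/-- The Riemann–Roch space `L(D) = {f | v_P(f) ≥ -D(P) for all P}` of a divisor `D : ι → ℤ`. -/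
def L (D : ι → ℤ) : Submodule K F where
  carrier := {f | ∀ P, S.vge P (-D P) f}
  add_mem' := fun hf hg P => S.vge_add P _ (hf P) (hg P)
  zero_mem' := fun P => S.vge_zero P _
  smul_mem' := fun c _ hf P => S.vge_smul P _ c (hf P)

theorem mem_L {D : ι → ℤ} {f : F} : f ∈ S.L D ↔ ∀ P, S.vge P (-D P) f := Iff.rfl

theorem mem_L_of_ne {D : ι → ℤ} {f : F} (hf : f ≠ 0) : f ∈ S.L D ↔ ∀ P, -D P ≤ S.ord P f := by
  rw [mem_L]
  exact forall_congr' fun P => S.vge_of_ne P _ f hf

theorem L_mono {D E : ι → ℤ} (h : ∀ P, D P ≤ E P) : S.L D ≤ S.L E := fun _ hf P =>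
  S.vge_mono P (by have := h P; omega) (hf P)

theorem L_zero_le : S.L (fun _ => (0 : ℤ)) ≤ K ∙ (1 : F) := by
  intro f hf
  by_cases hf0 : f = 0
  · rw [hf0]; exact Submodule.zero_mem _
  · have h : ∀ P, 0 ≤ S.ord P f := fun P => by
      have := (S.mem_L_of_ne hf0).mp hf P
      simpa using this
    obtain ⟨c, rfl⟩ := S.complete f hf0 h
    rw [Algebra.algebraMap_eq_smul_one]
    exact Submodule.smul_mem _ _ (Submodule.mem_span_singleton_self _)

theorem finiteDimensional_L_zero : FiniteDimensional K (S.L (fun _ => (0 : ℤ))) :=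
  Submodule.finiteDimensional_of_le S.L_zero_le

theorem finrank_L_zero_le : finrank K (S.L (fun _ => (0 : ℤ))) ≤ 1 := by
  have h := Submodule.finrank_mono S.L_zero_le
  rwa [finrank_span_singleton (one_ne_zero)] at h

/-- Adding a point to a divisor enlarges `L` by at most one dimension. -/
theorem L_step (D D' : ι → ℤ) (P : ι) (hP : D' P = D P + 1) (hQ : ∀ Q, Q ≠ P → D' Q = D Q) :
    ∃ g : F, S.L D' ≤ S.L D ⊔ K ∙ g := by
  by_cases hle : S.L D' ≤ S.L D
  · exact ⟨0, hle.trans le_sup_left⟩
  obtain ⟨g, hg, hgD⟩ := Set.not_subset.mp hle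
  have hg0 : g ≠ 0 := fun h => hgD (h ▸ Submodule.zero_mem _)
  have hg' := (S.mem_L_of_ne hg0).mp hg
  -- the order of `g` at `P` is exactly `-D P - 1`
  have hgP : S.ord P g = -D P - 1 := by
    have h1 := hg' P
    rw [hP] at h1
    by_contra hne
    apply hgD
    rw [SetLike.mem_coe, S.mem_L_of_ne hg0]
    intro Q
    by_cases hQP : Q = P
    · subst hQP; omega
    · have := hg' Q
      rwa [hQ Q hQP] at this
  refine ⟨g, fun f hf => ?_⟩
  by_cases hf0 : f = 0
  · rw [hf0]; exact Submodule.zero_mem _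
  have hf' := (S.mem_L_of_ne hf0).mp hf
  by_cases hfP : -D P ≤ S.ord P f
  · refine Submodule.mem_sup_left ?_
    rw [S.mem_L_of_ne hf0]
    intro Q
    by_cases hQP : Q = P
    · subst hQP; exact hfP
    · have := hf' Q
      rwa [hQ Q hQP] at this
  have hfP' : S.ord P f = -D P - 1 := by
    have h1 := hf' P
    rw [hP] at h1
    omega
  have hfg : f / g ≠ 0 := div_ne_zero hf0 hg0
  have hord : S.ord P (f / g) = 0 := by
    rw [S.ord_div P f g hf0 hg0]; omega
  obtain ⟨c, hc | hc⟩ := S.residue P (f / g) hfg hord.ge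
  · refine Submodule.mem_sup_right ?_
    have : f = c • g := by
      rw [Algebra.smul_def, ← hc, div_mul_cancel₀ f hg0]
    rw [this]
    exact Submodule.smul_mem _ _ (Submodule.mem_span_singleton_self _)
  · have hdecomp : f = (f - c • g) + c • g := by ring
    rw [hdecomp]
    refine Submodule.add_mem _ (Submodule.mem_sup_left ?_)
      (Submodule.mem_sup_right (Submodule.smul_mem _ _ (Submodule.mem_span_singleton_self _)))
    intro Q
    by_cases hQP : Q = P
    · subst hQP
      by_cases hz : f / g - algebraMap K F c = 0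
      · left
        have : f = c • g := by
          rw [Algebra.smul_def, ← sub_eq_zero.mp hz, div_mul_cancel₀ f hg0]
        rw [this, sub_self]
      · right
        have heq : f - c • g = g * (f / g - algebraMap K F c) := by
          rw [Algebra.smul_def, mul_sub, mul_div_cancel₀ f hg0, mul_comm g]
        rw [heq, S.ord_mul Q g _ hg0 hz]
        omega
    · have h1 : S.vge Q (-D Q) f := by
        have := hf Q
        rwa [hQ Q hQP] at this
      have h2 : S.vge Q (-D Q) g := by
        have := hg Q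
        rwa [hQ Q hQP] at this
      exact S.vge_sub Q _ h1 (S.vge_smul Q _ c h2)

theorem finrank_L_step (D D' : ι → ℤ) (P : ι) (hP : D' P = D P + 1)
    (hQ : ∀ Q, Q ≠ P → D' Q = D Q) (hD : FiniteDimensional K (S.L D)) :
    FiniteDimensional K (S.L D') ∧ finrank K (S.L D') ≤ finrank K (S.L D) + 1 := by
  obtain ⟨g, hg⟩ := S.L_step D D' P hP hQ
  have hfd : FiniteDimensional K (S.L D ⊔ K ∙ g : Submodule K F) := inferInstance
  refine ⟨Submodule.finiteDimensional_of_le hg, ?_⟩
  calc finrank K (S.L D') ≤ finrank K (S.L D ⊔ K ∙ g : Submodule K F) := Submodule.finrank_mono hg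
    _ ≤ finrank K (S.L D) + finrank K (K ∙ g) := Submodule.finrank_add_le_finrank_add_finrank _ _
    _ ≤ finrank K (S.L D) + 1 := by
        have : finrank K (K ∙ g) ≤ 1 := by
          have h := finrank_span_finset_le_card (R := K) ({g} : Finset F)
          simp only [Finset.coe_singleton, Finset.card_singleton] at h
          exact h
        omega

theorem finrank_L_list [DecidableEq ι] (D : ι → ℤ) (hD : FiniteDimensional K (S.L D))
    (l : List ι) :
    FiniteDimensional K (S.L (fun P => D P + (l.count P : ℤ))) ∧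
      finrank K (S.L (fun P => D P + (l.count P : ℤ))) ≤ finrank K (S.L D) + l.length := by
  induction l with
  | nil =>
    have h : (fun P => D P + ((([] : List ι).count P : ℕ) : ℤ)) = D := by
      funext P; simp
    rw [h]
    exact ⟨hD, by simp⟩
  | cons Q l ih =>
    obtain ⟨ih1, ih2⟩ := ih
    have hstep := S.finrank_L_step (fun P => D P + (l.count P : ℤ))
      (fun P => D P + ((Q :: l).count P : ℤ)) Q
      (by simp [List.count_cons_self]; ring)
      (fun R hR => by
        have : (Q :: l).count R = l.count R := List.count_cons_of_ne (Ne.symm hR)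
        simp [this]) ih1
    refine ⟨hstep.1, hstep.2.trans ?_⟩
    simp only [List.length_cons]
    omega

/-- `dim L(D + E) ≤ dim L(D) + deg E` for an effective divisor `E`. -/
theorem finrank_L_add_le (D : ι → ℤ) (hD : FiniteDimensional K (S.L D)) (E : ι →₀ ℕ) :
    FiniteDimensional K (S.L (fun P => D P + (E P : ℤ))) ∧
      finrank K (S.L (fun P => D P + (E P : ℤ))) ≤ finrank K (S.L D) + E.degree := by
  classical
  have h := S.finrank_L_list D hD E.toMultiset.toList
  have hcount : ∀ P, E.toMultiset.toList.count P = E P := fun P => by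
    rw [← Multiset.coe_count, Multiset.coe_toList, Finsupp.count_toMultiset]
  have hlen : E.toMultiset.toList.length = E.degree := by
    rw [Multiset.length_toList, Finsupp.card_toMultiset, Finsupp.degree_apply]
    rfl
  have hfun : (fun P => D P + ((E.toMultiset.toList.count P : ℕ) : ℤ)) =
      fun P => D P + (E P : ℤ) := by
    funext P; rw [hcount]
  rw [hfun, hlen] at h
  exact h

/-- **Riemann's inequality, trivial half**: `dim L(G) ≤ deg G + 1` for an effective divisor. -/
theorem finrank_L_le (G : ι →₀ ℕ) :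
    FiniteDimensional K (S.L (fun P => (G P : ℤ))) ∧
      finrank K (S.L (fun P => (G P : ℤ))) ≤ G.degree + 1 := by
  have h := S.finrank_L_add_le (fun _ => 0) S.finiteDimensional_L_zero G
  have hfun : (fun P => (fun _ : ι => (0 : ℤ)) P + (G P : ℤ)) = fun P => (G P : ℤ) := by
    funext P; simp
  rw [hfun] at h
  refine ⟨h.1, h.2.trans ?_⟩
  have := S.finrank_L_zero_le
  omega


/-- `L(D)` is finite-dimensional of dimension `≤ deg G + 1` whenever `D ≤ G`, `G` effective. -/
theorem finrank_L_le_of_le (D : ι → ℤ) (G : ι →₀ ℕ) (h : ∀ P, D P ≤ (G P : ℤ)) :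
    FiniteDimensional K (S.L D) ∧ finrank K (S.L D) ≤ G.degree + 1 := by
  obtain ⟨hfd, hle⟩ := S.finrank_L_le G
  have hmono : S.L D ≤ S.L (fun P => (G P : ℤ)) := S.L_mono h
  exact ⟨Submodule.finiteDimensional_of_le hmono, (Submodule.finrank_mono hmono).trans hle⟩

end PlaceCore

namespace PlaceFamily

variable {K F ι : Type*} [Field K] [Field F] [Algebra K F] (S : PlaceFamily K F ι)

/-! ### Weak approximation -/

theorem exists_pos_neg (P Q : ι) (h : P ≠ Q) :
    ∃ z : F, z ≠ 0 ∧ 0 < S.ord P z ∧ S.ord Q z < 0 := by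
  obtain ⟨y1, hy1, h1P, h1Q⟩ := S.separated P Q h
  obtain ⟨y2, hy2, h2Q, h2P⟩ := S.separated Q P (Ne.symm h)
  refine ⟨y1 / y2, div_ne_zero hy1 hy2, ?_, ?_⟩
  · rw [S.ord_div P _ _ hy1 hy2]; omega
  · rw [S.ord_div Q _ _ hy1 hy2]; omega

/-- A function with a zero at `P` and poles at all places of a finite set `T ∌ P`. -/
theorem exists_pos_neg_finset (P : ι) (T : Finset ι) (hP : P ∉ T) :
    ∃ u : F, u ≠ 0 ∧ 0 < S.ord P u ∧ ∀ Q ∈ T, S.ord Q u < 0 := by
  classical
  induction T using Finset.induction_on with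
  | empty =>
    obtain ⟨t, ht, ht1⟩ := S.uniformizer P
    exact ⟨t, ht, by omega, by simp⟩
  | insert Q T hQ ih =>
    have hPQ : P ≠ Q := fun h => hP (h ▸ Finset.mem_insert_self _ _)
    have hPT : P ∉ T := fun h => hP (Finset.mem_insert_of_mem h)
    obtain ⟨u, hu, huP, huT⟩ := ih hPT
    by_cases hQu : S.ord Q u < 0
    · refine ⟨u, hu, huP, fun R hR => ?_⟩
      rcases Finset.mem_insert.mp hR with rfl | hR
      · exact hQu
      · exact huT R hR
    · obtain ⟨z, hz, hzP, hzQ⟩ := S.exists_pos_neg P Q hPQ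
      set s : ℕ := 1 + ∑ R ∈ T, (S.ord R u).natAbs with hs
      have hzs : z ^ s ≠ 0 := pow_ne_zero s hz
      have hs1 : (1 : ℤ) ≤ (s : ℤ) := by
        have : 1 ≤ s := by omega
        exact_mod_cast this
      -- at `Q`
      have hQ1 : S.ord Q (z ^ s) < S.ord Q u := by
        rw [S.ord_pow Q z hz s]
        have : (s : ℤ) * S.ord Q z ≤ -1 := by nlinarith
        omega
      obtain ⟨hne', hQ2⟩ := S.ord_add_of_lt Q (z ^ s) u hzs hu hQ1
      have hne : u + z ^ s ≠ 0 := by rwa [add_comm]
      refine ⟨u + z ^ s, hne, ?_, ?_⟩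
      · have h1 := S.ord_add P u (z ^ s) hu hzs hne
        rw [S.ord_pow P z hz s] at h1
        have h2 : 0 < (s : ℤ) * S.ord P z := by positivity
        exact lt_of_lt_of_le (lt_min huP h2) h1
      · intro R hR
        rcases Finset.mem_insert.mp hR with rfl | hR
        · rw [add_comm, hQ2, S.ord_pow R z hz s]
          nlinarith
        · have huR := huT R hR
          have hsR : (S.ord R u).natAbs < s := by
            have := Finset.single_le_sum (f := fun R => (S.ord R u).natAbs)
              (fun _ _ => Nat.zero_le _) hR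
            omega
          rcases lt_trichotomy ((s : ℤ) * S.ord R z) (S.ord R u) with hlt | heq | hgt
          · have h3 := (S.ord_add_of_lt R (z ^ s) u hzs hu (by rwa [S.ord_pow R z hz s])).2
            rw [add_comm, h3, S.ord_pow R z hz s]
            omega
          · exfalso
            have hz0 : S.ord R z ≠ 0 := by
              intro h0
              rw [h0, mul_zero] at heq
              omega
            have h4 : (S.ord R u).natAbs = s * (S.ord R z).natAbs := by
              rw [← heq, Int.natAbs_mul, Int.natAbs_natCast]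
            have h5 : 1 ≤ (S.ord R z).natAbs := Int.natAbs_pos.mpr hz0
            have h6 : s ≤ s * (S.ord R z).natAbs := Nat.le_mul_of_pos_right s h5
            omega
          · have h3 := (S.ord_add_of_lt R u (z ^ s) hu hzs (by rwa [S.ord_pow R z hz s])).2
            rw [h3]
            exact huR

/-- **Weak approximation**: a function which is `≡ 1` to order `m` at `P` and vanishes to order
`≥ m` at all places of a finite set `T ∌ P`. -/
theorem exists_approx (P : ι) (T : Finset ι) (hP : P ∉ T) (m : ℕ) :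
    ∃ z : F, z ≠ 0 ∧ S.ord P z = 0 ∧ S.vge P m (z - 1) ∧ ∀ Q ∈ T, (m : ℤ) ≤ S.ord Q z := by
  obtain ⟨u, hu, huP, huT⟩ := S.exists_pos_neg_finset P T hP
  have hus : u ^ (m + 1) ≠ 0 := pow_ne_zero _ hu
  have hpowP : S.ord P (u ^ (m + 1)) = ((m + 1 : ℕ) : ℤ) * S.ord P u := S.ord_pow P u hu (m + 1)
  have hm1 : ((m + 1 : ℕ) : ℤ) = (m : ℤ) + 1 := by push_cast; ring
  have h1 : S.vge P (S.ord P 1 + 1) (u ^ (m + 1)) := by
    right
    rw [S.ord_one, hpowP, hm1]
    nlinarith
  obtain ⟨hne, hordP⟩ := S.ord_add_of_vge P 1 (u ^ (m + 1)) one_ne_zero h1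
  rw [S.ord_one] at hordP
  refine ⟨(1 + u ^ (m + 1))⁻¹, inv_ne_zero hne, ?_, ?_, ?_⟩
  · rw [S.ord_inv P _ hne, hordP, neg_zero]
  · right
    have h2 : (1 + u ^ (m + 1))⁻¹ - 1 = -(u ^ (m + 1)) * (1 + u ^ (m + 1))⁻¹ := by
      field_simp
      ring
    rw [h2, S.ord_mul P _ _ (neg_ne_zero.mpr hus) (inv_ne_zero hne), S.ord_neg P _ hus,
      S.ord_inv P _ hne, hordP, hpowP, hm1]
    nlinarith
  · intro Q hQ
    have hQu := huT Q hQ
    have hpowQ : S.ord Q (u ^ (m + 1)) = ((m + 1 : ℕ) : ℤ) * S.ord Q u := S.ord_pow Q u hu (m + 1)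
    have hlt : S.ord Q (u ^ (m + 1)) < S.ord Q 1 := by
      rw [S.ord_one, hpowQ, hm1]
      nlinarith
    have h3 := (S.ord_add_of_lt Q (u ^ (m + 1)) 1 hus one_ne_zero hlt).2
    rw [S.ord_inv Q _ hne, add_comm, h3, hpowQ, hm1]
    nlinarith

/-- Local "bases" at the places of a finite set `T`: for `P ∈ T` functions `w a` with
`ord_P (w a) = a` which vanish to order `≥ e Q` at the other places `Q ∈ T` (for `a < e P`). -/
theorem exists_local_basis (T : Finset ι) (e : ι → ℕ) (P : ι) :
    ∃ w : ℕ → F, ∀ a, w a ≠ 0 ∧ S.ord P (w a) = a ∧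
      (a < e P → ∀ Q ∈ T, Q ≠ P → (e Q : ℤ) ≤ S.ord Q (w a)) := by
  classical
  obtain ⟨t, ht, htP⟩ := S.uniformizer P
  set m : ℕ := ∑ Q ∈ T, (e Q + e P * (S.ord Q t).natAbs) with hm
  obtain ⟨z, hz, hzP, -, hzT⟩ := S.exists_approx P (T.erase P) (Finset.notMem_erase P T) m
  refine ⟨fun a => t ^ a * z, fun a => ⟨mul_ne_zero (pow_ne_zero a ht) hz, ?_, ?_⟩⟩
  · rw [S.ord_mul P _ _ (pow_ne_zero a ht) hz, S.ord_pow P t ht a, htP, hzP]
    ring
  · intro ha Q hQ hQP
    rw [S.ord_mul Q _ _ (pow_ne_zero a ht) hz, S.ord_pow Q t ht a]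
    have h1 := hzT Q (Finset.mem_erase.mpr ⟨hQP, hQ⟩)
    have h2 : e Q + e P * (S.ord Q t).natAbs ≤ m :=
      Finset.single_le_sum (f := fun Q => e Q + e P * (S.ord Q t).natAbs)
        (fun _ _ => Nat.zero_le _) hQ
    have h5 : -((S.ord Q t).natAbs : ℤ) ≤ S.ord Q t := by omega
    generalize (S.ord Q t).natAbs = nb at h2 h5
    have h3 : a * nb ≤ e P * nb := Nat.mul_le_mul_right _ ha.le
    have h6 : (0 : ℤ) ≤ (a : ℤ) := Int.natCast_nonneg a
    have h4 : -((a : ℤ) * (nb : ℤ)) ≤ (a : ℤ) * S.ord Q t := by nlinarith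
    have h7 : ((e Q + a * nb : ℕ) : ℤ) ≤ (m : ℤ) := by
      exact_mod_cast (by omega : e Q + a * nb ≤ m)
    push_cast at h7
    linarith


/-! ### Polynomials in a function with a zero at `P` -/

open Polynomial in
theorem vge_aeval (P : ι) (y : F) (hy0 : y ≠ 0) (hy : 0 ≤ S.ord P y) (q : K[X]) :
    S.vge P 0 (aeval y q) := by
  rw [aeval_eq_sum_range]
  refine S.vge_sum P 0 _ _ fun i _ => S.vge_smul P 0 _ ?_
  right
  rw [S.ord_pow P y hy0 i]
  positivity

open Polynomial in
theorem vge_aeval_of_coeff_zero (P : ι) (y : F) (hy0 : y ≠ 0) (e : ℤ) (he : 0 ≤ e)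
    (hy : e ≤ S.ord P y) (q : K[X]) (hq : q.coeff 0 = 0) : S.vge P e (aeval y q) := by
  have h1 : q = divX q * X := by
    have := divX_mul_X_add q
    rw [hq, map_zero, add_zero] at this
    exact this.symm
  rw [h1, map_mul, aeval_X]
  have h2 := S.vge_mul P (S.vge_aeval P y hy0 (he.trans hy) (divX q))
    ((S.vge_of_ne P e y hy0).mpr hy)
  rwa [zero_add] at h2

open Polynomial in
theorem ord_aeval_of_coeff_ne_zero (P : ι) (y : F) (hy0 : y ≠ 0) (hy : 1 ≤ S.ord P y)
    (q : K[X]) (hq : q.coeff 0 ≠ 0) : aeval y q ≠ 0 ∧ S.ord P (aeval y q) = 0 := by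
  have h1 : aeval y q = algebraMap K F (q.coeff 0) + aeval y (divX q) * y := by
    conv_lhs => rw [← divX_mul_X_add q]
    rw [map_add, map_mul, aeval_X, aeval_C, add_comm]
  have hc : algebraMap K F (q.coeff 0) ≠ 0 := by simpa using hq
  have hc' : S.ord P (algebraMap K F (q.coeff 0)) = 0 := S.ord_const P _ hq
  have h2 : S.vge P (S.ord P (algebraMap K F (q.coeff 0)) + 1) (aeval y (divX q) * y) := by
    rw [hc']
    have h3 := S.vge_mul P (S.vge_aeval P y hy0 (by omega) (divX q))
      ((S.vge_of_ne P 1 y hy0).mpr hy)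
    simpa using h3
  have h4 := S.ord_add_of_vge P _ _ hc h2
  rw [← h1, hc'] at h4
  exact h4

/-! ### Independence of the local bases over `K[y]` -/

open Polynomial in
/-- The valuation core of the independence statement: all constant coefficients vanish. -/
theorem coeff_zero_eq_zero_of_sum_eq_zero {κ : Type*} [Fintype κ] (pt : κ → ι) (a : κ → ℕ)
    (e : ι → ℕ) (w : κ → F) (y : F) (hy0 : y ≠ 0)
    (hinj : ∀ k k', pt k = pt k' → a k = a k' → k = k')
    (hy : ∀ k, (e (pt k) : ℤ) ≤ S.ord (pt k) y)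
    (ha : ∀ k, a k < e (pt k))
    (hw0 : ∀ k, w k ≠ 0)
    (hw1 : ∀ k, S.ord (pt k) (w k) = a k)
    (hw2 : ∀ k k', pt k' ≠ pt k → (e (pt k) : ℤ) ≤ S.ord (pt k) (w k'))
    (p : κ → K[X]) (H : ∑ k, aeval y (p k) * w k = 0) : ∀ k, (p k).coeff 0 = 0 := by
  classical
  by_contra hcon
  push Not at hcon
  obtain ⟨k0, hk0⟩ := hcon
  obtain ⟨k1, hk1, hmin⟩ := Finset.exists_min_image
    (Finset.univ.filter fun k => pt k = pt k0 ∧ (p k).coeff 0 ≠ 0) a
    ⟨k0, by simp [hk0]⟩
  simp only [Finset.mem_filter, Finset.mem_univ, true_and] at hk1 hmin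
  obtain ⟨hk1pt, hk1c⟩ := hk1
  set P := pt k1 with hPdef
  have hyP : (e P : ℤ) ≤ S.ord P y := hy k1
  have haP : a k1 < e P := ha k1
  have hy1 : 1 ≤ S.ord P y := by
    have : (1 : ℤ) ≤ (e P : ℤ) := by exact_mod_cast (by omega : 1 ≤ e P)
    omega
  obtain ⟨hne1, hord1⟩ := S.ord_aeval_of_coeff_ne_zero P y hy0 hy1 (p k1) hk1c
  have hT0 : aeval y (p k1) * w k1 ≠ 0 := mul_ne_zero hne1 (hw0 k1)
  have hT0ord : S.ord P (aeval y (p k1) * w k1) = a k1 := by
    rw [S.ord_mul P _ _ hne1 (hw0 k1), hord1, hw1 k1, zero_add]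
  have hrest : S.vge P (S.ord P (aeval y (p k1) * w k1) + 1)
      (∑ k ∈ Finset.univ.erase k1, aeval y (p k) * w k) := by
    rw [hT0ord]
    refine S.vge_sum P _ _ _ fun k hk => ?_
    have hkne : k ≠ k1 := (Finset.mem_erase.mp hk).1
    by_cases hpt : pt k = P
    · -- same place, different index
      have hak : a k ≠ a k1 := fun h => hkne (hinj k k1 hpt h)
      have hwk : S.ord P (w k) = a k := by rw [← hpt]; exact hw1 k
      by_cases hc : (p k).coeff 0 = 0
      · have h1 := S.vge_aeval_of_coeff_zero P y hy0 (e P) (Int.natCast_nonneg _) hyP (p k) hc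
        have h2 : S.vge P (a k) (w k) := Or.inr hwk.ge
        refine S.vge_mono P ?_ (S.vge_mul P h1 h2)
        have : (a k1 : ℤ) + 1 ≤ (e P : ℤ) := by exact_mod_cast haP
        have : (0 : ℤ) ≤ (a k : ℤ) := Int.natCast_nonneg _
        omega
      · have hle : a k1 ≤ a k := hmin k ⟨hpt.trans hk1pt, hc⟩
        have h1 := S.vge_aeval P y hy0 (by omega) (p k)
        have h2 : S.vge P (a k) (w k) := Or.inr hwk.ge
        refine S.vge_mono P ?_ (S.vge_mul P h1 h2)
        have : a k1 + 1 ≤ a k := by omega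
        have : ((a k1 + 1 : ℕ) : ℤ) ≤ (a k : ℤ) := by exact_mod_cast this
        push_cast at this
        omega
    · -- a different place: `w k` vanishes to order `≥ e P` at `P`
      have h1 := S.vge_aeval P y hy0 (by omega) (p k)
      have h2 : S.vge P (e P) (w k) := Or.inr (hw2 k1 k hpt)
      refine S.vge_mono P ?_ (S.vge_mul P h1 h2)
      have : (a k1 : ℤ) + 1 ≤ (e P : ℤ) := by exact_mod_cast haP
      omega
  have hsum := S.ord_add_of_vge P _ _ hT0 hrest
  have hsplit : aeval y (p k1) * w k1 + ∑ k ∈ Finset.univ.erase k1, aeval y (p k) * w k =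
      ∑ k, aeval y (p k) * w k :=
    Finset.add_sum_erase Finset.univ (fun k => aeval y (p k) * w k) (Finset.mem_univ k1)
  exact hsum.1 (hsplit.trans H)

open Polynomial in
/-- The local bases are linearly independent over `K[y]`. -/
theorem eq_zero_of_sum_eq_zero {κ : Type*} [Fintype κ] (pt : κ → ι) (a : κ → ℕ)
    (e : ι → ℕ) (w : κ → F) (y : F) (hy0 : y ≠ 0)
    (hinj : ∀ k k', pt k = pt k' → a k = a k' → k = k')
    (hy : ∀ k, (e (pt k) : ℤ) ≤ S.ord (pt k) y)
    (ha : ∀ k, a k < e (pt k))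
    (hw0 : ∀ k, w k ≠ 0)
    (hw1 : ∀ k, S.ord (pt k) (w k) = a k)
    (hw2 : ∀ k k', pt k' ≠ pt k → (e (pt k) : ℤ) ≤ S.ord (pt k) (w k'))
    (p : κ → K[X]) (H : ∑ k, aeval y (p k) * w k = 0) : ∀ k, p k = 0 := by
  suffices h : ∀ (d : ℕ) (p : κ → K[X]), (∀ k, (p k).natDegree ≤ d) →
      ∑ k, aeval y (p k) * w k = 0 → ∀ k, p k = 0 by
    exact h (∑ k, (p k).natDegree) p
      (fun k => Finset.single_le_sum (f := fun k => (p k).natDegree) (fun _ _ => Nat.zero_le _)
        (Finset.mem_univ k)) H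
  intro d
  induction d with
  | zero =>
    intro p hd H k
    have hc := S.coeff_zero_eq_zero_of_sum_eq_zero pt a e w y hy0 hinj hy ha hw0 hw1 hw2 p H k
    rw [eq_C_of_natDegree_le_zero (hd k), hc, map_zero]
  | succ d ih =>
    intro p hd H k
    have hc := S.coeff_zero_eq_zero_of_sum_eq_zero pt a e w y hy0 hinj hy ha hw0 hw1 hw2 p H
    have hp : ∀ k, p k = divX (p k) * X := fun k => by
      have := divX_mul_X_add (p k)
      rw [hc k, map_zero, add_zero] at this
      exact this.symm
    have H' : ∑ k, aeval y (divX (p k)) * w k = 0 := by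
      have h1 : ∑ k, aeval y (p k) * w k = y * ∑ k, aeval y (divX (p k)) * w k := by
        rw [Finset.mul_sum]
        refine Finset.sum_congr rfl fun k _ => ?_
        conv_lhs => rw [hp k]
        rw [map_mul, aeval_X]
        ring
      rw [h1] at H
      exact (mul_eq_zero.mp H).resolve_left hy0
    have hd' : ∀ k, (divX (p k)).natDegree ≤ d := fun k => by
      rw [natDegree_divX_eq_natDegree_tsub_one]
      have := hd k
      omega
    rw [hp k, ih (fun k => divX (p k)) hd' H' k, zero_mul]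


/-! ### Divisors of poles and zeros -/

open Classical in
/-- The divisor of poles of `f` (zero for `f = 0`). -/
noncomputable def poleDiv (f : F) : ι →₀ ℕ :=
  if hf : f = 0 then 0 else
    Finsupp.onFinset (S.finite_support f hf).toFinset (fun P => (-S.ord P f).toNat)
      (fun P hP => by
        rw [Set.Finite.mem_toFinset]
        intro (h : S.ord P f = 0)
        rw [h] at hP
        simp at hP)

open Classical in
/-- The divisor of zeros of `f` (zero for `f = 0`). -/
noncomputable def zeroDiv (f : F) : ι →₀ ℕ :=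
  if hf : f = 0 then 0 else
    Finsupp.onFinset (S.finite_support f hf).toFinset (fun P => (S.ord P f).toNat)
      (fun P hP => by
        rw [Set.Finite.mem_toFinset]
        intro (h : S.ord P f = 0)
        rw [h] at hP
        simp at hP)

theorem poleDiv_apply (f : F) (hf : f ≠ 0) (P : ι) : S.poleDiv f P = (-S.ord P f).toNat := by
  rw [poleDiv, dif_neg hf, Finsupp.onFinset_apply]

theorem zeroDiv_apply (f : F) (hf : f ≠ 0) (P : ι) : S.zeroDiv f P = (S.ord P f).toNat := by
  rw [zeroDiv, dif_neg hf, Finsupp.onFinset_apply]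

theorem zeroDiv_inv (f : F) (hf : f ≠ 0) : S.zeroDiv f⁻¹ = S.poleDiv f := by
  ext P
  rw [S.zeroDiv_apply _ (inv_ne_zero hf), S.poleDiv_apply _ hf, S.ord_inv P f hf]

theorem poleDiv_inv (f : F) (hf : f ≠ 0) : S.poleDiv f⁻¹ = S.zeroDiv f := by
  ext P
  rw [S.poleDiv_apply _ (inv_ne_zero hf), S.zeroDiv_apply _ hf, S.ord_inv P f hf, neg_neg]

theorem ord_eq_zeroDiv_sub_poleDiv (f : F) (hf : f ≠ 0) (P : ι) :
    S.ord P f = (S.zeroDiv f P : ℤ) - (S.poleDiv f P : ℤ) := by
  rw [S.zeroDiv_apply f hf, S.poleDiv_apply f hf]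
  omega

theorem mem_L_poleDiv (f : F) : f ∈ S.L (fun P => (S.poleDiv f P : ℤ)) := by
  by_cases hf : f = 0
  · rw [hf]; exact Submodule.zero_mem _
  · rw [S.mem_L_of_ne hf]
    intro P
    rw [S.poleDiv_apply f hf]
    omega

/-! ### The counting argument -/

open Polynomial in
/-- A polynomial of degree `≤ l` in `x⁻¹` has poles bounded by `l` times the zeros of `x`. -/
theorem vge_aeval_inv (x : F) (hx : x ≠ 0) (l : ℕ) (q : K[X]) (hq : q.natDegree < l + 1)
    (P : ι) : S.vge P (-((l : ℤ) * (S.zeroDiv x P : ℤ))) (aeval x⁻¹ q) := by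
  rw [aeval_eq_sum_range' hq]
  refine S.vge_sum P _ _ _ fun i hi => S.vge_smul P _ _ ?_
  right
  rw [S.ord_pow P _ (inv_ne_zero hx) i, S.ord_inv P x hx, S.zeroDiv_apply x hx]
  have hi' : (i : ℤ) ≤ (l : ℤ) := by
    have := Finset.mem_range.mp hi
    exact_mod_cast (by omega : i ≤ l)
  have h0 : (0 : ℤ) ≤ (i : ℤ) := Int.natCast_nonneg i
  have h1 : S.ord P x ≤ ((S.ord P x).toNat : ℤ) := Int.self_le_toNat _
  have h2 : (0 : ℤ) ≤ ((S.ord P x).toNat : ℤ) := Int.natCast_nonneg _
  nlinarith

open Polynomial in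
/-- **Poles ≤ zeros** (and hence, by symmetry, equality). -/
theorem degree_poleDiv_le (x : F) (hx : x ≠ 0) :
    (S.poleDiv x).degree ≤ (S.zeroDiv x).degree := by
  classical
  set T : Finset ι := (S.poleDiv x).support with hT
  set e : ι → ℕ := fun P => S.poleDiv x P with he
  choose W hW using fun P => S.exists_local_basis T e P
  set I : Finset (Σ _ : ι, ℕ) := T.sigma fun P => Finset.range (e P) with hI
  have hcard : Fintype.card {k // k ∈ I} = (S.poleDiv x).degree := by
    rw [Fintype.card_coe, hI, Finset.card_sigma, Finsupp.degree_apply]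
    simp [he, hT]
  have hy0 : x⁻¹ ≠ 0 := inv_ne_zero hx
  set pt : {k // k ∈ I} → ι := fun k => k.1.1 with hpt
  set a : {k // k ∈ I} → ℕ := fun k => k.1.2 with ha
  set w : {k // k ∈ I} → F := fun k => W k.1.1 k.1.2 with hw
  have hmem : ∀ k : {k // k ∈ I}, pt k ∈ T ∧ a k < e (pt k) := fun k => by
    have := Finset.mem_sigma.mp k.2
    exact ⟨this.1, Finset.mem_range.mp this.2⟩
  have hinj : ∀ k k', pt k = pt k' → a k = a k' → k = k' := by
    rintro ⟨⟨P, b⟩, hk⟩ ⟨⟨P', b'⟩, hk'⟩ h1 h2
    simp only [hpt, ha] at h1 h2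
    subst h1 h2
    rfl
  have hy : ∀ k, (e (pt k) : ℤ) ≤ S.ord (pt k) x⁻¹ := fun k => by
    have h1 : S.poleDiv x (pt k) ≠ 0 := Finsupp.mem_support_iff.mp (hmem k).1
    rw [S.ord_inv _ x hx]
    simp only [he]
    rw [S.poleDiv_apply x hx] at h1 ⊢
    omega
  have hw0 : ∀ k, w k ≠ 0 := fun k => (hW (pt k) (a k)).1
  have hw1 : ∀ k, S.ord (pt k) (w k) = a k := fun k => (hW (pt k) (a k)).2.1
  have hw2 : ∀ k k', pt k' ≠ pt k → (e (pt k) : ℤ) ≤ S.ord (pt k) (w k') := fun k k' hne =>
    (hW (pt k') (a k')).2.2 (hmem k').2 (pt k) (hmem k).1 (Ne.symm hne)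
  -- the divisor bounding the poles of all `w k`
  set C : ι →₀ ℕ := ∑ k : {k // k ∈ I}, S.poleDiv (w k) with hC
  have hwC : ∀ (k : {k // k ∈ I}) (P : ι), S.vge P (-(C P : ℤ)) (w k) := fun k P => by
    have h1 : S.poleDiv (w k) P ≤ C P := by
      rw [hC, Finsupp.finsetSum_apply]
      exact Finset.single_le_sum (f := fun k => S.poleDiv (w k) P) (fun _ _ => Nat.zero_le _)
        (Finset.mem_univ k)
    have hm : S.vge P (-(S.poleDiv (w k) P : ℤ)) (w k) := S.mem_L_poleDiv (w k) P
    refine S.vge_mono P ?_ hm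
    have : ((S.poleDiv (w k) P : ℕ) : ℤ) ≤ (C P : ℤ) := by exact_mod_cast h1
    omega
  -- the key inequality for every `l`
  have key : ∀ l : ℕ, (S.poleDiv x).degree * (l + 1) ≤ l * (S.zeroDiv x).degree + C.degree + 1 := by
    intro l
    -- the linear map `p ↦ ∑ k, p k (x⁻¹) * w k`
    let Φ : ({k // k ∈ I} → degreeLT K (l + 1)) →ₗ[K] F :=
      { toFun := fun p => ∑ k, aeval x⁻¹ (p k : K[X]) * w k
        map_add' := fun p q => by
          simp only [Pi.add_apply, Submodule.coe_add, map_add, add_mul, Finset.sum_add_distrib]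
        map_smul' := fun c p => by
          simp only [Pi.smul_apply, Submodule.coe_smul, map_smul, smul_mul_assoc,
            Finset.smul_sum, RingHom.id_apply] }
    have hΦ : ∀ p, Φ p = ∑ k, aeval x⁻¹ (p k : K[X]) * w k := fun _ => rfl
    have hΦinj : Function.Injective Φ := by
      rw [injective_iff_map_eq_zero]
      intro p hp
      rw [hΦ] at hp
      have h0 := S.eq_zero_of_sum_eq_zero pt a e w x⁻¹ hy0 hinj hy (fun k => (hmem k).2) hw0 hw1
        hw2 (fun k => (p k : K[X])) hp
      funext k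
      exact Subtype.ext (h0 k)
    have hrange : LinearMap.range Φ ≤
        S.L (fun P => (((l • S.zeroDiv x + C : ι →₀ ℕ) P : ℕ) : ℤ)) := by
      rintro _ ⟨p, rfl⟩
      rw [hΦ]
      intro P
      refine S.vge_sum P _ _ _ fun k _ => ?_
      have hdeg : (p k : K[X]).natDegree < l + 1 := by
        by_cases h0 : (p k : K[X]) = 0
        · rw [h0, natDegree_zero]; omega
        · exact (natDegree_lt_iff_degree_lt h0).mpr (mem_degreeLT.mp (p k).2)
      have h1 := S.vge_mul P (S.vge_aeval_inv x hx l (p k : K[X]) hdeg P) (hwC k P)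
      refine S.vge_mono P ?_ h1
      simp only [Finsupp.coe_add, Finsupp.coe_smul, Pi.add_apply, Pi.smul_apply, smul_eq_mul]
      push_cast
      omega
    obtain ⟨hfd, hle⟩ := S.finrank_L_le (l • S.zeroDiv x + C)
    have hdom : finrank K ({k // k ∈ I} → degreeLT K (l + 1)) =
        (S.poleDiv x).degree * (l + 1) := by
      have hfin : ∀ n : ℕ, Module.Finite K (degreeLT K n) := fun n =>
        Module.Finite.equiv (degreeLTEquiv K n).symm
      have hrk : finrank K (degreeLT K (l + 1)) = l + 1 :=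
        (degreeLTEquiv K (l + 1)).finrank_eq.trans (Module.finrank_fin_fun K)
      rw [Module.finrank_pi_fintype, Finset.sum_const, Finset.card_univ, hcard, hrk, smul_eq_mul]
    calc (S.poleDiv x).degree * (l + 1)
        = finrank K (LinearMap.range Φ) := by rw [LinearMap.finrank_range_of_inj hΦinj, hdom]
      _ ≤ finrank K (S.L (fun P => (((l • S.zeroDiv x + C : ι →₀ ℕ) P : ℕ) : ℤ))) :=
          Submodule.finrank_mono hrange
      _ ≤ (l • S.zeroDiv x + C).degree + 1 := hle
      _ = l * (S.zeroDiv x).degree + C.degree + 1 := by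
          rw [map_add, map_nsmul, smul_eq_mul]
  by_contra hcon
  have hcon' : (S.zeroDiv x).degree + 1 ≤ (S.poleDiv x).degree := by omega
  have h1 := key (C.degree + 1)
  have h2 := Nat.mul_le_mul_right (C.degree + 1 + 1) hcon'
  nlinarith

/-- **Zeros = poles.** -/
theorem degree_poleDiv_eq (x : F) (hx : x ≠ 0) :
    (S.poleDiv x).degree = (S.zeroDiv x).degree := by
  refine le_antisymm (S.degree_poleDiv_le x hx) ?_
  have h := S.degree_poleDiv_le x⁻¹ (inv_ne_zero hx)
  rwa [S.poleDiv_inv x hx, S.zeroDiv_inv x hx] at h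

/-- **The product formula**: the divisor of a nonzero function has degree zero. -/
theorem sum_ord_eq_zero (f : F) (hf : f ≠ 0) : ∑ᶠ P, S.ord P f = 0 := by
  classical
  have hsupp : Function.support (fun P => S.ord P f) ⊆
      ((S.zeroDiv f).support ∪ (S.poleDiv f).support : Finset ι) := by
    intro P hP
    rw [Function.mem_support, S.ord_eq_zeroDiv_sub_poleDiv f hf] at hP
    rw [Finset.coe_union, Set.mem_union, Finset.mem_coe, Finset.mem_coe,
      Finsupp.mem_support_iff, Finsupp.mem_support_iff]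
    by_contra h
    rw [not_or, not_not, not_not] at h
    apply hP
    rw [h.1, h.2]
    simp
  rw [finsum_eq_sum_of_support_subset _ hsupp]
  have hZ : (S.zeroDiv f).degree = ∑ P ∈ (S.zeroDiv f).support ∪ (S.poleDiv f).support,
      S.zeroDiv f P := by
    rw [Finsupp.degree_apply]
    exact Finset.sum_subset Finset.subset_union_left
      (fun P _ hP => Finsupp.notMem_support_iff.mp hP)
  have hB : (S.poleDiv f).degree = ∑ P ∈ (S.zeroDiv f).support ∪ (S.poleDiv f).support,
      S.poleDiv f P := by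
    rw [Finsupp.degree_apply]
    exact Finset.sum_subset Finset.subset_union_right
      (fun P _ hP => Finsupp.notMem_support_iff.mp hP)
  have h1 : ∀ P ∈ (S.zeroDiv f).support ∪ (S.poleDiv f).support,
      S.ord P f = (S.zeroDiv f P : ℤ) - (S.poleDiv f P : ℤ) :=
    fun P _ => S.ord_eq_zeroDiv_sub_poleDiv f hf P
  rw [Finset.sum_congr rfl h1, Finset.sum_sub_distrib, ← Nat.cast_sum, ← Nat.cast_sum, ← hZ,
    ← hB, S.degree_poleDiv_eq f hf, sub_self]

/-- **Zeros ≤ poles**: a nonzero function in `L(G)` has at most `deg G` zeros. -/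
theorem degree_zeroDiv_le_of_mem_L (G : ι →₀ ℕ) (f : F) (hf : f ≠ 0)
    (hfG : f ∈ S.L (fun P => (G P : ℤ))) : (S.zeroDiv f).degree ≤ G.degree := by
  rw [← S.degree_poleDiv_eq f hf]
  refine Finsupp.degree_mono fun P => ?_
  have h := (S.mem_L_of_ne hf).mp hfG P
  rw [S.poleDiv_apply f hf]
  omega

/-- A function in `L(G)` vanishing at some place to order `> deg G` is zero. -/
theorem eq_zero_of_mem_L_of_vge (G : ι →₀ ℕ) (f : F) (hfG : f ∈ S.L (fun P => (G P : ℤ)))
    (P₀ : ι) (h : S.vge P₀ ((G.degree : ℤ) + 1) f) : f = 0 := by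
  by_contra hf
  have h1 := (S.vge_of_ne P₀ _ f hf).mp h
  have h2 := S.degree_zeroDiv_le_of_mem_L G f hf hfG
  have h3 : S.zeroDiv f P₀ ≤ (S.zeroDiv f).degree := Finsupp.le_degree P₀ _
  rw [S.zeroDiv_apply f hf] at h3
  omega


/-- `L(D) = 0` for a divisor of negative degree. -/
theorem eq_zero_of_mem_L_of_degree_neg (D : ι →₀ ℤ) (hD : D.degree < 0) (f : F)
    (hfD : f ∈ S.L (fun P => D P)) : f = 0 := by
  classical
  by_contra hf
  have h := (S.mem_L_of_ne hf).mp hfD
  have hpf := S.sum_ord_eq_zero f hf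
  have hsupp : Function.support (fun P => S.ord P f) ⊆
      ((S.finite_support f hf).toFinset ∪ D.support : Finset ι) := by
    intro P hP
    rw [Finset.coe_union, Set.mem_union]
    left
    rw [Finset.mem_coe, Set.Finite.mem_toFinset]
    exact hP
  rw [finsum_eq_sum_of_support_subset _ hsupp] at hpf
  have hDsum : D.degree = ∑ P ∈ (S.finite_support f hf).toFinset ∪ D.support, D P := by
    rw [Finsupp.degree_apply]
    exact Finset.sum_subset Finset.subset_union_right
      (fun P _ hP => Finsupp.notMem_support_iff.mp hP)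
  have hnonneg : 0 ≤ ∑ P ∈ (S.finite_support f hf).toFinset ∪ D.support,
      (S.ord P f + D P) :=
    Finset.sum_nonneg fun P _ => by have := h P; omega
  rw [Finset.sum_add_distrib, hpf, ← hDsum] at hnonneg
  omega

end PlaceFamily

end Fermat.Agent.S26.helper1157
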