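import Mathlib
import Fermat.Prelude.Def_JacJ1Iface

set_option autoImplicit false

/-!
# S26-M0-INT: smooth connected schemes over a field are integral (and normal)
-/

namespace Fermat.Agent.S26.helper1285

open TensorProduct

section Topology

/-- A connected space in which every point has a preirreducible open neighbourhood is
irreducible. -/
theorem irreducibleSpace_of_connectedSpace_of_locally_preirreducible
    {X : Type*} [TopologicalSpace X] [ConnectedSpace X]
    (h : ∀ x : X, ∃ U : Set X, IsOpen U ∧ x ∈ U ∧ IsPreirreducible U) : IrreducibleSpace X := by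
  obtain ⟨x₀⟩ := (inferInstance : Nonempty X)
  obtain ⟨U₀, hU₀o, hx₀, hU₀⟩ := h x₀
  have hopen : IsOpen (closure U₀) := by
    rw [isOpen_iff_forall_mem_open]
    intro x hx
    obtain ⟨V, hVo, hxV, hV⟩ := h x
    refine ⟨V, ?_, hVo, hxV⟩
    have hne : (V ∩ U₀).Nonempty := by
      rw [mem_closure_iff] at hx
      exact hx V hVo hxV
    exact (subset_closure_inter_of_isPreirreducible_of_isOpen hV hU₀o hne).trans
      (closure_mono Set.inter_subset_right)
  have hcl : IsClopen (closure U₀) := ⟨isClosed_closure, hopen⟩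
  have huniv : closure U₀ = Set.univ := hcl.eq_univ ⟨x₀, subset_closure hx₀⟩
  have hpre : IsPreirreducible (Set.univ : Set X) := by
    rw [← huniv]; exact isPreirreducible_iff_closure.mpr hU₀
  have : PreirreducibleSpace X := ⟨hpre⟩
  exact ⟨⟨x₀⟩⟩

end Topology

section Algebra

/-- In a reduced artinian commutative ring every element is "von Neumann regular". -/
theorem exists_idempotent_mul_of_isArtinianRing_of_isReduced
    {W : Type*} [CommRing W] [IsArtinianRing W] [IsReduced W] (a : W) :
    ∃ e c : W, e * e = e ∧ a * c = e ∧ e * a = a := by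
  obtain ⟨k, hk⟩ := IsArtinian.monotone_stabilizes
    (R := W) (M := W)
    (⟨fun k => OrderDual.toDual (Ideal.span {a ^ k}), fun i j hij => by
      show Ideal.span {a ^ j} ≤ Ideal.span {a ^ i}
      rw [Ideal.span_singleton_le_span_singleton]
      exact pow_dvd_pow a hij⟩ : ℕ →o (Submodule W W)ᵒᵈ)
  have h1 : Ideal.span {a ^ k} = Ideal.span {a ^ (k + 1)} :=
    congrArg OrderDual.ofDual (hk (k + 1) (Nat.le_succ k))
  have h2 : a ^ k ∈ Ideal.span {a ^ (k + 1)} := h1 ▸ Ideal.mem_span_singleton_self _
  obtain ⟨c, hc⟩ := Ideal.mem_span_singleton'.mp h2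
  -- `hc : c * a ^ (k + 1) = a ^ k`
  have hnil : IsNilpotent (a * (1 - a * c)) := by
    refine ⟨k + 1, ?_⟩
    have h4 : a ^ k * (1 - a * c) = 0 := by
      have : a ^ k * (1 - a * c) = a ^ k - c * a ^ (k + 1) := by ring
      rw [this, hc, sub_self]
    calc (a * (1 - a * c)) ^ (k + 1) = a * (1 - a * c) ^ k * (a ^ k * (1 - a * c)) := by
          rw [mul_pow, pow_succ (1 - a * c) k, pow_succ a k]; ring
      _ = 0 := by rw [h4, mul_zero]
  have h0 : a * (1 - a * c) = 0 := hnil.eq_zero
  have h3 : a * a * c = a := by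
    have := h0; rw [mul_sub, mul_one, sub_eq_zero] at this; rw [mul_assoc]; exact this.symm
  refine ⟨a * c, c, ?_, rfl, ?_⟩
  · calc a * c * (a * c) = (a * a * c) * c := by ring
      _ = a * c := by rw [h3]
  · calc a * c * a = a * a * c := by ring
      _ = a := h3

/-- An idempotent of a local ring is `0` or `1`. -/
theorem eq_zero_or_eq_one_of_mul_self_eq {O : Type*} [CommRing O] [IsLocalRing O] {e : O}
    (he : e * e = e) : e = 0 ∨ e = 1 := by
  have h0 : e * (1 - e) = 0 := by rw [mul_sub, mul_one, he, sub_self]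
  rcases IsLocalRing.isUnit_or_isUnit_one_sub_self e with h | h
  · right
    exact (sub_eq_zero.mp (h.mul_right_eq_zero.mp h0)).symm
  · left
    exact h.mul_left_eq_zero.mp h0

section Criterion

variable {P O : Type*} [CommRing P] [IsDomain P] [IsIntegrallyClosed P]
  [CommRing O] [Algebra P O] [Module.Flat P O] [IsLocalRing O]

/-- The abstract local criterion: a flat local algebra `O` over an integrally closed domain `P`
such that `O ⊗[P] Frac P` is von Neumann regular and integral closure commutes with the base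
change `P → O` (for `B = Frac P`) is an integrally closed domain, with fraction ring
`O ⊗[P] Frac P`. -/
theorem isDomain_and_isIntegrallyClosed_of_criterion
    (hvn : ∀ w : O ⊗[P] FractionRing P, ∃ e c : O ⊗[P] FractionRing P,
      e * e = e ∧ w * c = e ∧ e * w = w)
    (hsurj : Function.Surjective (TensorProduct.toIntegralClosure P O (FractionRing P))) :
    IsDomain O ∧ IsIntegrallyClosed O ∧ IsFractionRing O (O ⊗[P] FractionRing P) := by
  have hι : Function.Injective (algebraMap O (O ⊗[P] FractionRing P)) :=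
    Algebra.TensorProduct.includeLeft_injective (S := O)
      (IsFractionRing.injective P (FractionRing P))
  -- integral elements come from `O`
  have hint : ∀ w : O ⊗[P] FractionRing P, IsIntegral O w →
      ∃ o : O, algebraMap O (O ⊗[P] FractionRing P) o = w := by
    intro w hw
    obtain ⟨z, hz⟩ := hsurj ⟨w, hw⟩
    have key : ∀ z : O ⊗[P] integralClosure P (FractionRing P), ∃ o : O,
        algebraMap O (O ⊗[P] FractionRing P) o =
          ((TensorProduct.toIntegralClosure P O (FractionRing P) z :
            integralClosure O (O ⊗[P] FractionRing P)) : O ⊗[P] FractionRing P) := by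
      intro z
      induction z using TensorProduct.induction_on with
      | zero => exact ⟨0, by simp⟩
      | tmul o y =>
        obtain ⟨p, hp⟩ := IsIntegrallyClosed.isIntegral_iff.mp y.2
        refine ⟨p • o, ?_⟩
        simp only [TensorProduct.toIntegralClosure, AlgHom.coe_codRestrict,
          Algebra.TensorProduct.map_tmul, AlgHom.coe_id, id_eq, Subalgebra.coe_val,
          Algebra.TensorProduct.algebraMap_apply, Algebra.algebraMap_self, RingHom.id_apply]
        rw [← hp, Algebra.algebraMap_eq_smul_one, TensorProduct.smul_tmul]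
      | add z₁ z₂ h₁ h₂ =>
        obtain ⟨o₁, h₁⟩ := h₁
        obtain ⟨o₂, h₂⟩ := h₂
        exact ⟨o₁ + o₂, by rw [map_add, map_add, h₁, h₂]; rfl⟩
    obtain ⟨o, ho⟩ := key z
    exact ⟨o, by rw [ho, hz]⟩
  -- nonzero elements of `O` become units
  have hunit : ∀ a : O, a ≠ 0 → IsUnit (algebraMap O (O ⊗[P] FractionRing P) a) := by
    intro a ha
    obtain ⟨e, c, hee, hac, hea⟩ := hvn (algebraMap O (O ⊗[P] FractionRing P) a)
    have heint : IsIntegral O e := by
      refine ⟨Polynomial.X ^ 2 - Polynomial.X, Polynomial.monic_X_pow_sub ?_, ?_⟩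
      · rw [Polynomial.degree_X]; norm_num
      · simp [pow_two, hee]
    obtain ⟨e₀, he₀⟩ := hint e heint
    have he₀' : e₀ * e₀ = e₀ := hι (by rw [map_mul, he₀, hee])
    rcases eq_zero_or_eq_one_of_mul_self_eq he₀' with h | h
    · exfalso
      apply ha
      apply hι
      rw [map_zero, ← hea, ← he₀, h, map_zero, zero_mul]
    · exact IsUnit.of_mul_eq_one c (by rw [hac, ← he₀, h, map_one])
  have hdom : IsDomain O := by
    have : NoZeroDivisors O := ⟨fun {a b} hab => by
      by_cases ha : a = 0
      · exact Or.inl ha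
      · right
        apply hι
        have h1 : algebraMap O (O ⊗[P] FractionRing P) a *
            algebraMap O (O ⊗[P] FractionRing P) b = 0 := by rw [← map_mul, hab, map_zero]
        rw [map_zero]
        exact (hunit a ha).mul_right_eq_zero.mp h1⟩
    exact NoZeroDivisors.to_isDomain O
  -- denominators
  have hden : ∀ w : O ⊗[P] FractionRing P, ∃ (p : P) (o : O), p ≠ 0 ∧
      w * algebraMap O (O ⊗[P] FractionRing P) (algebraMap P O p) =
        algebraMap O (O ⊗[P] FractionRing P) o := by
    intro w
    induction w using TensorProduct.induction_on with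
    | zero => exact ⟨1, 0, one_ne_zero, by simp⟩
    | tmul o x =>
      obtain ⟨⟨a, s⟩, hx⟩ := IsLocalization.surj (nonZeroDivisors P) x
      refine ⟨s, a • o, nonZeroDivisors.ne_zero s.2, ?_⟩
      simp only [Algebra.TensorProduct.algebraMap_apply, Algebra.algebraMap_self, RingHom.id_apply,
        Algebra.TensorProduct.tmul_mul_tmul, mul_one]
      have h1 : o * algebraMap P O (s : P) = (s : P) • o := by rw [Algebra.smul_def, mul_comm]
      have h2 : (s : P) • x = a • (1 : FractionRing P) := by
        rw [Algebra.smul_def, Algebra.smul_def, mul_one, mul_comm]; exact hx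
      rw [h1, TensorProduct.smul_tmul, h2, ← TensorProduct.smul_tmul]
    | add w₁ w₂ h₁ h₂ =>
      obtain ⟨p₁, o₁, hp₁, h₁⟩ := h₁
      obtain ⟨p₂, o₂, hp₂, h₂⟩ := h₂
      refine ⟨p₁ * p₂, algebraMap P O p₂ * o₁ + algebraMap P O p₁ * o₂, mul_ne_zero hp₁ hp₂, ?_⟩
      simp only [map_mul, map_add, ← h₁, ← h₂]
      ring
  have hfrac : IsFractionRing O (O ⊗[P] FractionRing P) := by
    refine ⟨?_, ?_, ?_⟩
    · rintro ⟨y, hy⟩
      exact hunit y (nonZeroDivisors.ne_zero hy)
    · intro w
      obtain ⟨p, o, hp, h⟩ := hden w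
      have hne : algebraMap P O p ≠ 0 := by
        intro h0
        have hreg : IsSMulRegular O p :=
          Module.Flat.isSMulRegular_of_nonZeroDivisors (mem_nonZeroDivisors_of_ne_zero hp)
        have h1 : p • (1 : O) = p • (0 : O) := by
          rw [smul_zero, ← Algebra.algebraMap_eq_smul_one, h0]
        exact one_ne_zero (hreg h1)
      exact ⟨⟨o, ⟨algebraMap P O p, mem_nonZeroDivisors_of_ne_zero hne⟩⟩, h⟩
    · intro a b hab
      exact ⟨1, by rw [hι hab]⟩
  refine ⟨hdom, ?_, hfrac⟩
  exact (isIntegrallyClosed_iff (O ⊗[P] FractionRing P)).mpr (fun {x} hx => hint x hx)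

end Criterion

section Etale
variable {P T : Type*} [CommRing P] [IsDomain P]
    [CommRing T] [Algebra P T] [Algebra.Etale P T]

/-- For `T` étale over a domain `P`, the generic fibre `T ⊗[P] Frac P` is von Neumann regular. -/
theorem exists_idempotent_mul_tensor_fractionRing_of_etale (w : T ⊗[P] FractionRing P) :
    ∃ e c : T ⊗[P] FractionRing P, e * e = e ∧ w * c = e ∧ e * w = w := by
  have hfin : Module.Finite (FractionRing P) (FractionRing P ⊗[P] T) :=
    Algebra.FormallyUnramified.finite_of_free _ _
  have hred : IsReduced (FractionRing P ⊗[P] T) :=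
    Algebra.FormallyUnramified.isReduced_of_field (FractionRing P) _
  have hart : IsArtinianRing (FractionRing P ⊗[P] T) :=
    IsArtinianRing.of_finite (FractionRing P) _
  let φ : T ⊗[P] FractionRing P ≃ₐ[P] FractionRing P ⊗[P] T :=
    Algebra.TensorProduct.comm P T (FractionRing P)
  obtain ⟨e, c, hee, hwc, hew⟩ := exists_idempotent_mul_of_isArtinianRing_of_isReduced (φ w)
  refine ⟨φ.symm e, φ.symm c, ?_, ?_, ?_⟩
  · rw [← map_mul, hee]
  · apply φ.injective
    rw [map_mul, AlgEquiv.apply_symm_apply, AlgEquiv.apply_symm_apply, hwc]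
  · apply φ.injective
    rw [map_mul, AlgEquiv.apply_symm_apply, hew]

variable (𝔮 : Ideal T) [𝔮.IsPrime]

/-- The generic fibre of a localisation of an étale algebra is von Neumann regular. -/
theorem exists_idempotent_mul_tensor_fractionRing_of_etale_localization
    (w : Localization.AtPrime 𝔮 ⊗[P] FractionRing P) :
    ∃ e c : Localization.AtPrime 𝔮 ⊗[P] FractionRing P, e * e = e ∧ w * c = e ∧ e * w = w := by
  let ψ : T ⊗[P] FractionRing P →ₐ[P] Localization.AtPrime 𝔮 ⊗[P] FractionRing P :=
    Algebra.TensorProduct.map (IsScalarTower.toAlgHom P T (Localization.AtPrime 𝔮))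
      (AlgHom.id P (FractionRing P))
  have key : ∀ w : Localization.AtPrime 𝔮 ⊗[P] FractionRing P,
      ∃ (l : T ⊗[P] FractionRing P) (s : T), s ∈ 𝔮.primeCompl ∧
        w * (algebraMap T (Localization.AtPrime 𝔮) s ⊗ₜ[P] (1 : FractionRing P)) = ψ l := by
    intro w
    induction w using TensorProduct.induction_on with
    | zero => exact ⟨0, 1, Submonoid.one_mem _, by simp⟩
    | tmul o x =>
      obtain ⟨⟨t, s⟩, hts⟩ := IsLocalization.surj 𝔮.primeCompl o
      refine ⟨t ⊗ₜ x, s, s.2, ?_⟩
      simp only [Algebra.TensorProduct.tmul_mul_tmul, mul_one, ψ, Algebra.TensorProduct.map_tmul,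
        IsScalarTower.coe_toAlgHom', AlgHom.coe_id, id_eq]
      rw [hts]
    | add w₁ w₂ h₁ h₂ =>
      obtain ⟨l₁, s₁, hs₁, h₁⟩ := h₁
      obtain ⟨l₂, s₂, hs₂, h₂⟩ := h₂
      refine ⟨l₁ * (s₂ ⊗ₜ 1) + l₂ * (s₁ ⊗ₜ 1), s₁ * s₂, Submonoid.mul_mem _ hs₁ hs₂, ?_⟩
      have e1 : (algebraMap T (Localization.AtPrime 𝔮) (s₁ * s₂) ⊗ₜ[P] (1 : FractionRing P)) =
          (algebraMap T (Localization.AtPrime 𝔮) s₁ ⊗ₜ[P] (1 : FractionRing P)) *
          (algebraMap T (Localization.AtPrime 𝔮) s₂ ⊗ₜ[P] (1 : FractionRing P)) := by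
        rw [Algebra.TensorProduct.tmul_mul_tmul, mul_one, map_mul]
      have e2 : ∀ s : T, ψ (s ⊗ₜ 1) =
          (algebraMap T (Localization.AtPrime 𝔮) s ⊗ₜ[P] (1 : FractionRing P)) := by
        intro s
        simp [ψ]
      have e3 : ψ (l₁ * (s₂ ⊗ₜ 1) + l₂ * (s₁ ⊗ₜ 1)) =
          ψ l₁ * ψ (s₂ ⊗ₜ 1) + ψ l₂ * ψ (s₁ ⊗ₜ 1) := by
        rw [map_add, map_mul, map_mul]
      rw [e3, e2, e2, ← h₁, ← h₂, e1]
      ring
  obtain ⟨l, s, hs, hl⟩ := key w
  obtain ⟨e, c, hee, hlc, hel⟩ := exists_idempotent_mul_tensor_fractionRing_of_etale l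
  have hu : IsUnit (algebraMap T (Localization.AtPrime 𝔮) s ⊗ₜ[P] (1 : FractionRing P)) := by
    have h1 : IsUnit (algebraMap T (Localization.AtPrime 𝔮) s) :=
      IsLocalization.map_units (Localization.AtPrime 𝔮) (⟨s, hs⟩ : 𝔮.primeCompl)
    exact h1.map (Algebra.TensorProduct.includeLeft
      (R := P) (S := P) (A := Localization.AtPrime 𝔮) (B := FractionRing P))
  obtain ⟨u, hu⟩ := hu
  rw [← hu] at hl
  have hw : w = ψ l * ↑u⁻¹ := by
    rw [← hl, mul_assoc, Units.mul_inv, mul_one]
  refine ⟨ψ e, ψ c * u, ?_, ?_, ?_⟩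
  · rw [← map_mul, hee]
  · rw [hw]
    calc ψ l * ↑u⁻¹ * (ψ c * ↑u) = ψ l * ψ c * (↑u⁻¹ * ↑u) := by ring
      _ = ψ e := by rw [Units.inv_mul, mul_one, ← map_mul, hlc]
  · rw [hw, ← mul_assoc, ← map_mul, hel]

/-- Localisations at primes of an étale algebra over an integrally closed domain are integrally
closed domains. -/
theorem isDomain_and_isIntegrallyClosed_localization_of_etale
    (P : Type*) {T : Type*} [CommRing P] [IsDomain P] [IsIntegrallyClosed P]
    [CommRing T] [Algebra P T] [Algebra.Etale P T] (𝔮 : Ideal T) [𝔮.IsPrime] :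
    IsDomain (Localization.AtPrime 𝔮) ∧ IsIntegrallyClosed (Localization.AtPrime 𝔮) := by
  have : Module.Flat P (Localization.AtPrime 𝔮) := Module.Flat.trans P T _
  have hsurj : Function.Bijective
      (TensorProduct.toIntegralClosure P (Localization.AtPrime 𝔮) (FractionRing P)) :=
    TensorProduct.toIntegralClosure_bijective_of_tower (S := T)
      TensorProduct.toIntegralClosure_bijective_of_smooth
      (TensorProduct.toIntegralClosure_bijective_of_isLocalization 𝔮.primeCompl)
  obtain ⟨h1, h2, -⟩ := isDomain_and_isIntegrallyClosed_of_criterion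
    (exists_idempotent_mul_tensor_fractionRing_of_etale_localization 𝔮) hsurj.2
  exact ⟨h1, h2⟩

end Etale

section Smooth

/-- **Localisations at primes of a smooth algebra over a field are integrally closed domains.** -/
theorem isDomain_and_isIntegrallyClosed_localization_of_smooth
    (K : Type*) {S : Type*} [Field K] [CommRing S] [Algebra K S] [Algebra.Smooth K S]
    (𝔮 : Ideal S) [𝔮.IsPrime] :
    IsDomain (Localization.AtPrime 𝔮) ∧ IsIntegrallyClosed (Localization.AtPrime 𝔮) := by
  obtain ⟨f, hf, n, _, _, _⟩ :=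
    Algebra.IsSmoothAt.exists_isStandardEtale_mvPolynomial (R := K) (p := 𝔮)
  have hdisj : Disjoint (Submonoid.powers f : Set S) (𝔮 : Set S) :=
    (Ideal.disjoint_powers_iff_notMem_of_isPrime _).mpr hf
  have hprime : (Ideal.map (algebraMap S (Localization.Away f)) 𝔮).IsPrime :=
    IsLocalization.isPrime_of_isPrime_disjoint (.powers f) _ _ ‹_› hdisj
  obtain ⟨h1, h2⟩ := isDomain_and_isIntegrallyClosed_localization_of_etale
    (MvPolynomial (Fin n) K) (Ideal.map (algebraMap S (Localization.Away f)) 𝔮)
  have hcomap : (Ideal.map (algebraMap S (Localization.Away f)) 𝔮).comap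
      (algebraMap S (Localization.Away f)) = 𝔮 :=
    IsLocalization.under_map_of_isPrime_disjoint (.powers f) _ ‹_› hdisj
  have hloc : IsLocalization.AtPrime
      (Localization.AtPrime (Ideal.map (algebraMap S (Localization.Away f)) 𝔮))
      ((Ideal.map (algebraMap S (Localization.Away f)) 𝔮).comap
        (algebraMap S (Localization.Away f))) :=
    IsLocalization.isLocalization_isLocalization_atPrime_isLocalization (.powers f) _ _
  have hloc' : IsLocalization.AtPrime
      (Localization.AtPrime (Ideal.map (algebraMap S (Localization.Away f)) 𝔮)) 𝔮 := by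
    convert hloc using 1
    exact hcomap.symm
  let e : Localization.AtPrime 𝔮 ≃ₐ[S]
      Localization.AtPrime (Ideal.map (algebraMap S (Localization.Away f)) 𝔮) :=
    IsLocalization.algEquiv 𝔮.primeCompl _ _
  exact ⟨e.toRingEquiv.toMulEquiv.isDomain _, IsIntegrallyClosed.of_equiv e.symm.toRingEquiv⟩

end Smooth

section Neighbourhood

variable {R : Type*} [CommRing R]

/-- In a noetherian ring, the kernel of the localisation map at a prime is killed by a single
element outside the prime. -/
theorem exists_notMem_forall_mul_eq_zero [IsNoetherianRing R] (𝔭 : Ideal R) [𝔭.IsPrime] :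
    ∃ s : R, s ∉ 𝔭 ∧ ∀ r : R, algebraMap R (Localization.AtPrime 𝔭) r = 0 → s * r = 0 := by
  classical
  obtain ⟨t, ht⟩ := (isNoetherianRing_iff_ideal_fg R).mp ‹_›
    (RingHom.ker (algebraMap R (Localization.AtPrime 𝔭)))
  have key : ∀ t : Finset R, (∀ a ∈ t, algebraMap R (Localization.AtPrime 𝔭) a = 0) →
      ∃ s : R, s ∉ 𝔭 ∧ ∀ a ∈ t, s * a = 0 := by
    intro t
    induction t using Finset.induction_on with
    | empty => exact fun _ => ⟨1, 𝔭.one_notMem, by simp⟩
    | insert a t _ ih =>
      intro h
      obtain ⟨s, hs, hst⟩ := ih (fun b hb => h b (Finset.mem_insert_of_mem hb))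
      have ha := h a (Finset.mem_insert_self a t)
      obtain ⟨⟨c, hc⟩, hca⟩ := (IsLocalization.map_eq_zero_iff 𝔭.primeCompl _ a).mp ha
      refine ⟨s * c, ‹𝔭.IsPrime›.mul_notMem hs hc, ?_⟩
      intro b hb
      rcases Finset.mem_insert.mp hb with rfl | hb
      · rw [mul_assoc, hca, mul_zero]
      · rw [mul_comm s c, mul_assoc, hst b hb, mul_zero]
  obtain ⟨s, hs, hst⟩ := key t (fun a ha => by
    have : a ∈ RingHom.ker (algebraMap R (Localization.AtPrime 𝔭)) := by
      rw [← ht]; exact Ideal.subset_span ha
    exact this)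
  refine ⟨s, hs, fun r hr => ?_⟩
  have hr' : r ∈ Ideal.span (t : Set R) := by rw [ht]; exact hr
  have hle : Ideal.span (t : Set R) ≤ LinearMap.ker (LinearMap.mulLeft R s) :=
    Ideal.span_le.mpr (fun a ha => by simpa using hst a ha)
  simpa using hle hr'

/-- If the localisation of a noetherian ring at a prime `𝔭` is a domain, then so is the
localisation away from a suitable element outside `𝔭`. -/
theorem exists_notMem_isDomain_away [IsNoetherianRing R] (𝔭 : Ideal R) [𝔭.IsPrime]
    [IsDomain (Localization.AtPrime 𝔭)] :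
    ∃ s : R, s ∉ 𝔭 ∧ ∀ (S : Type*) [CommRing S] [Algebra R S] [IsLocalization.Away s S],
      IsDomain S := by
  obtain ⟨s, hs, hker⟩ := exists_notMem_forall_mul_eq_zero 𝔭
  refine ⟨s, hs, ?_⟩
  intro S _ _ _
  have hunit : ∀ y : Submonoid.powers s, IsUnit (algebraMap R (Localization.AtPrime 𝔭) y) := by
    rintro ⟨y, n, rfl⟩
    rw [map_pow]
    exact (IsLocalization.map_units (Localization.AtPrime 𝔭) (⟨s, hs⟩ : 𝔭.primeCompl)).pow n
  have hinj : Function.Injective (IsLocalization.lift (S := S) hunit) := by
    rw [IsLocalization.lift_injective_iff]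
    intro x y
    constructor
    · intro h
      have := congrArg (IsLocalization.lift (S := S) hunit) h
      simpa using this
    · intro h
      have h0 : algebraMap R (Localization.AtPrime 𝔭) (x - y) = 0 := by
        rw [map_sub, h, sub_self]
      have h1 := hker _ h0
      rw [IsLocalization.eq_iff_exists (Submonoid.powers s) S]
      refine ⟨⟨s, Submonoid.mem_powers s⟩, ?_⟩
      rw [mul_sub, sub_eq_zero] at h1
      exact h1
  exact hinj.isDomain _

end Neighbourhood

end Algebra

section Scheme

open AlgebraicGeometry CategoryTheory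

universe u

/-- In a locally noetherian scheme, a point whose stalk is a domain has an irreducible open
neighbourhood. -/
theorem exists_isOpen_isPreirreducible_of_isDomain_stalk {X : Scheme.{u}} [IsLocallyNoetherian X]
    (x : X) [IsDomain (X.presheaf.stalk x)] :
    ∃ U : Set X, IsOpen U ∧ x ∈ U ∧ IsPreirreducible U := by
  obtain ⟨_, ⟨V, hV, rfl⟩, hxV, -⟩ :=
    X.isBasis_affineOpens.exists_subset_of_mem_open (Set.mem_univ x) isOpen_univ
  let _ : Algebra Γ(X, V) (X.presheaf.stalk x) :=
    TopCat.Presheaf.algebra_section_stalk X.presheaf ⟨x, hxV⟩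
  have hloc : IsLocalization.AtPrime (X.presheaf.stalk x) (hV.primeIdealOf ⟨x, hxV⟩).asIdeal :=
    hV.isLocalization_stalk ⟨x, hxV⟩
  have : IsNoetherianRing Γ(X, V) := IsLocallyNoetherian.component_noetherian ⟨V, hV⟩
  let e : Localization.AtPrime (hV.primeIdealOf ⟨x, hxV⟩).asIdeal ≃ₐ[Γ(X, V)]
      X.presheaf.stalk x :=
    IsLocalization.algEquiv (hV.primeIdealOf ⟨x, hxV⟩).asIdeal.primeCompl _ _
  have : IsDomain (Localization.AtPrime (hV.primeIdealOf ⟨x, hxV⟩).asIdeal) :=
    e.toRingEquiv.toMulEquiv.isDomain _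
  obtain ⟨s, hs, hdom⟩ := exists_notMem_isDomain_away (hV.primeIdealOf ⟨x, hxV⟩).asIdeal
  have hU : IsAffineOpen (X.basicOpen s) := hV.basicOpen s
  have : IsLocalization.Away s Γ(X, X.basicOpen s) := hV.isLocalization_basicOpen s
  have : IsDomain Γ(X, X.basicOpen s) := hdom _
  refine ⟨X.basicOpen s, (X.basicOpen s).isOpen, ?_, ?_⟩
  · rw [SetLike.mem_coe, Scheme.mem_basicOpen _ _ _ hxV]
    exact (IsLocalization.AtPrime.isUnit_to_map_iff (X.presheaf.stalk x)
      (hV.primeIdealOf ⟨x, hxV⟩).asIdeal s).mpr hs
  · rw [← hU.range_fromSpec, ← Set.image_univ]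
    exact IsPreirreducible.image PreirreducibleSpace.isPreirreducible_univ _
      hU.fromSpec.continuous.continuousOn

/-- A connected locally noetherian scheme whose stalks are domains is irreducible. -/
theorem irreducibleSpace_of_isDomain_stalk {X : Scheme.{u}} [IsLocallyNoetherian X]
    [ConnectedSpace X] (h : ∀ x : X, IsDomain (X.presheaf.stalk x)) : IrreducibleSpace X :=
  irreducibleSpace_of_connectedSpace_of_locally_preirreducible
    (fun x => have := h x; exists_isOpen_isPreirreducible_of_isDomain_stalk x)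

/-- A connected locally noetherian scheme whose stalks are domains is integral. -/
theorem isIntegral_of_isDomain_stalk {X : Scheme.{u}} [IsLocallyNoetherian X]
    [ConnectedSpace X] (h : ∀ x : X, IsDomain (X.presheaf.stalk x)) : IsIntegral X := by
  have := irreducibleSpace_of_isDomain_stalk h
  have : IsReduced X := isReduced_of_isReduced_stalk X
  exact isIntegral_of_irreducibleSpace_of_isReduced X

end Scheme

section SmoothScheme

open AlgebraicGeometry CategoryTheory

universe u

variable {K : Type u} [Field K] {X : Scheme.{u}} (f : X ⟶ Spec (CommRingCat.of K))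

/-- Affine form: for a smooth scheme `X` over a field and an affine open `V`, every localisation
of `Γ(X, V)` at a prime ideal is an integrally closed domain. -/
theorem isLocalization_atPrime_section_of_smooth [Smooth f] {V : X.Opens} (hV : IsAffineOpen V)
    (p : Ideal Γ(X, V)) [p.IsPrime] (S : Type*) [CommRing S] [Algebra Γ(X, V) S]
    [IsLocalization.AtPrime S p] : IsDomain S ∧ IsIntegrallyClosed S := by
  have h1 : (f.appLE ⊤ V le_top).hom.Smooth :=
    f.smooth_appLE (isAffineOpen_top (Spec (CommRingCat.of K))) hV le_top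
  have h2 : ((Scheme.ΓSpecIso (CommRingCat.of K)).inv.hom).Smooth :=
    RingHom.Smooth.of_bijective
      (ConcreteCategory.bijective_of_isIso (Scheme.ΓSpecIso (CommRingCat.of K)).inv)
  have h3 := h2.comp h1
  algebraize [(f.appLE ⊤ V le_top).hom.comp (Scheme.ΓSpecIso (CommRingCat.of K)).inv.hom]
  obtain ⟨hd, hi⟩ := isDomain_and_isIntegrallyClosed_localization_of_smooth K p
  let e : Localization.AtPrime p ≃ₐ[Γ(X, V)] S := IsLocalization.algEquiv p.primeCompl _ _
  exact ⟨e.symm.toRingEquiv.toMulEquiv.isDomain _, IsIntegrallyClosed.of_equiv e.toRingEquiv⟩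

/-- **Every stalk of a smooth scheme over a field is an integrally closed domain.** -/
theorem stalk_isDomain_and_isIntegrallyClosed_of_smooth [Smooth f] (x : X) :
    IsDomain (X.presheaf.stalk x) ∧ IsIntegrallyClosed (X.presheaf.stalk x) := by
  obtain ⟨_, ⟨V, hV, rfl⟩, hxV, -⟩ :=
    X.isBasis_affineOpens.exists_subset_of_mem_open (Set.mem_univ x) isOpen_univ
  let _ : Algebra Γ(X, V) (X.presheaf.stalk x) :=
    TopCat.Presheaf.algebra_section_stalk X.presheaf ⟨x, hxV⟩
  have : IsLocalization.AtPrime (X.presheaf.stalk x) (hV.primeIdealOf ⟨x, hxV⟩).asIdeal :=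
    hV.isLocalization_stalk ⟨x, hxV⟩
  exact isLocalization_atPrime_section_of_smooth f hV (hV.primeIdealOf ⟨x, hxV⟩).asIdeal _

theorem stalk_isDomain_of_smooth [Smooth f] (x : X) : IsDomain (X.presheaf.stalk x) :=
  (stalk_isDomain_and_isIntegrallyClosed_of_smooth f x).1

theorem stalk_isIntegrallyClosed_of_smooth [Smooth f] (x : X) :
    IsIntegrallyClosed (X.presheaf.stalk x) :=
  (stalk_isDomain_and_isIntegrallyClosed_of_smooth f x).2

/-- A smooth scheme over a field is reduced. -/
theorem isReduced_of_smooth [Smooth f] : IsReduced X := by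
  have : ∀ x : X, _root_.IsReduced (X.presheaf.stalk x) := fun x =>
    have := stalk_isDomain_of_smooth f x
    inferInstance
  exact isReduced_of_isReduced_stalk X

/-- A smooth scheme over a field is locally noetherian. -/
theorem isLocallyNoetherian_of_smooth [Smooth f] : IsLocallyNoetherian X :=
  LocallyOfFiniteType.isLocallyNoetherian f

/-- **A connected smooth scheme over a field is integral.** -/
theorem isIntegral_of_smooth_of_connectedSpace [Smooth f] [ConnectedSpace X] : IsIntegral X := by
  have := isLocallyNoetherian_of_smooth f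
  exact isIntegral_of_isDomain_stalk (fun x => stalk_isDomain_of_smooth f x)

/-- Sections of a smooth scheme over a field on an affine open are integrally closed, as soon as
they form a domain (e.g. `X` integral and the open nonempty). -/
theorem isIntegrallyClosed_section_of_smooth [Smooth f] {V : X.Opens} (hV : IsAffineOpen V)
    [IsDomain Γ(X, V)] : IsIntegrallyClosed Γ(X, V) :=
  IsIntegrallyClosed.of_localization_maximal (fun p _ _ =>
    (isLocalization_atPrime_section_of_smooth f hV p (Localization.AtPrime p)).2)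

/-- Connected fibres over a field (one-point base) means connected total space. -/
theorem connectedSpace_of_connectedFibres
    (h : ∀ s : Spec (CommRingCat.of K), _root_.IsConnected (f.base ⁻¹' {s})) :
    ConnectedSpace X := by
  have hs : ∀ s t : Spec (CommRingCat.of K), s = t := fun s t => Subsingleton.elim s t
  obtain ⟨x⟩ : Nonempty X := by
    obtain ⟨s⟩ : Nonempty (Spec (CommRingCat.of K)) := inferInstance
    exact (h s).nonempty.to_subtype.map Subtype.val
  rw [connectedSpace_iff_univ]
  convert h (f.base x) using 1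
  ext y
  simp only [Set.mem_univ, Set.mem_preimage, Set.mem_singleton_iff, true_iff]
  exact hs _ _

/-- **The frozen S26 data: an abelian scheme over a field is integral.** -/
theorem isIntegral_of_bundle (hA : GoodReductionJacobian.AbelianSchemePropertyBundle K f) :
    IsIntegral X := by
  have := hA.smooth
  have := connectedSpace_of_connectedFibres f hA.connectedFibres
  exact isIntegral_of_smooth_of_connectedSpace f

end SmoothScheme

end Fermat.Agent.S26.helper1285
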