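import Mathlib

/-!
# S26, module M2, leaf M2-POLAR (algebra core): the polar divisor of a rational function is
Cartier (helper1300)

Let `R` be a noetherian domain with fraction field `K`, `p` a prime of `R` such that `R_p` is a
unique factorization domain, and `h : K`.  Then there are `a b f : R`, `f ∉ p`, with `h = a / b`
such that for EVERY prime `q` of the basic open `D(f)` the ideal of denominators of `h` in the
local ring `O_q = R_q ⊆ K` is `b · O_q`: the polar divisor of `h` has ONE local equation `b` on a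
neighbourhood of `p`.  No factoriality is needed away from `p`.

The local ring `O_q ⊆ K` is described elementwise (`InLocal q z`: `z = r / s` with `s ∉ q`), so
that the statements plug into any model of the stalks.
-/

set_option autoImplicit false
set_option linter.style.haveILetI false

namespace Fermat.Agent.S26.helper1300

section Uniform

variable {R : Type*} [CommRing R]

/-- **Uniform denominator.**  If multiplication by `a` is injective on `R_p / b R_p`
(elementwise form `hreg`), then it is injective on `R_q / b R_q` for all `q` in a basic open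
neighbourhood `D(f)` of `p` (elementwise form of the conclusion).  Only the finite generation
of the ideal `(bR : a)` is used. -/
theorem exists_uniform_denominator [IsNoetherianRing R] (a b : R) (p : Ideal R) [p.IsPrime]
    (hreg : ∀ r, b ∣ a * r → ∃ s, s ∉ p ∧ b ∣ s * r) :
    ∃ f, f ∉ p ∧ ∀ r, b ∣ a * r → b ∣ f * r := by
  classical
  -- the ideal `(bR : a)`
  let J : Submodule R R := Submodule.comap (LinearMap.mulLeft R a) (Ideal.span {b})
  have hJ : ∀ r, r ∈ J ↔ b ∣ a * r := by
    intro r
    change a * r ∈ Ideal.span {b} ↔ _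
    rw [Ideal.mem_span_singleton]
  obtain ⟨S, hS⟩ : J.FG := IsNoetherian.noetherian J
  choose! s hs using hreg
  refine ⟨∏ g ∈ S, s g, ?_, ?_⟩
  · intro hmem
    obtain ⟨g, hg, hgp⟩ := (Ideal.IsPrime.prod_mem_iff).mp hmem
    have hgJ : g ∈ J := by
      rw [← hS]
      exact Submodule.subset_span hg
    exact (hs g ((hJ g).mp hgJ)).1 hgp
  · intro r hr
    have hrJ : r ∈ Submodule.span R (S : Set R) := by
      rw [hS]
      exact (hJ r).mpr hr
    refine Submodule.span_induction (p := fun r _ => b ∣ (∏ g ∈ S, s g) * r) ?_ ?_ ?_ ?_ hrJ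
    · intro g hg
      have hgJ : g ∈ J := by
        rw [← hS]
        exact Submodule.subset_span hg
      have h1 : b ∣ s g * g := (hs g ((hJ g).mp hgJ)).2
      have h2 : (∏ g ∈ S, s g) * g = (∏ g' ∈ S.erase g, s g') * (s g * g) := by
        rw [← Finset.mul_prod_erase S s hg]
        ring
      rw [h2]
      exact Dvd.dvd.mul_left h1 _
    · simp
    · intro x y _ _ hx hy
      rw [mul_add]
      exact dvd_add hx hy
    · intro c x _ hx
      rw [smul_eq_mul, mul_left_comm]
      exact Dvd.dvd.mul_left hx c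

end Uniform

section Reduced

variable {R : Type*} [CommRing R] [IsDomain R]

/-- **Lowest terms at a factorial point.**  If `R_p` is a unique factorization domain, a
fraction `a₀ / b₀` can be rewritten as `a / b` with `a` regular modulo `b` in `R_p`
(elementwise form). -/
theorem exists_reduced_pair (p : Ideal R) [p.IsPrime] (Rp : Type*) [CommRing Rp] [Algebra R Rp]
    [IsLocalization.AtPrime Rp p] [UniqueFactorizationMonoid Rp] (a₀ b₀ : R) (hb₀ : b₀ ≠ 0) :
    ∃ a b : R, b ≠ 0 ∧ a₀ * b = b₀ * a ∧ ∀ r, b ∣ a * r → ∃ s, s ∉ p ∧ b ∣ s * r := by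
  have hinj : Function.Injective (algebraMap R Rp) :=
    IsLocalization.injective Rp p.primeCompl_le_nonZeroDivisors
  haveI : IsLocalRing Rp := IsLocalization.AtPrime.isLocalRing Rp p
  have hβ₀ : algebraMap R Rp b₀ ≠ 0 := fun h => hb₀ (hinj (by rw [h, map_zero]))
  obtain ⟨a', b', c', hrel, ha', hb'⟩ :=
    UniqueFactorizationMonoid.exists_reduced_factors' (algebraMap R Rp a₀) (algebraMap R Rp b₀) hβ₀
  obtain ⟨⟨a₁, s₁⟩, h1⟩ := IsLocalization.surj p.primeCompl a'
  obtain ⟨⟨b₁, s₂⟩, h2⟩ := IsLocalization.surj p.primeCompl b'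
  simp only at h1 h2
  have hu₁ : IsUnit (algebraMap R Rp s₁) := IsLocalization.map_units Rp s₁
  have hu₂ : IsUnit (algebraMap R Rp s₂) := IsLocalization.map_units Rp s₂
  have hb'0 : b' ≠ 0 := by
    rintro rfl
    rw [mul_zero] at hb'
    exact hβ₀ hb'.symm
  -- `a := a₁ * s₂`, `b := b₁ * s₁`
  have hα : algebraMap R Rp (a₁ * s₂) = a' * (algebraMap R Rp s₁ * algebraMap R Rp s₂) := by
    rw [map_mul, ← h1]
    ring
  have hβ : algebraMap R Rp (b₁ * s₁) = b' * (algebraMap R Rp s₁ * algebraMap R Rp s₂) := by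
    rw [map_mul, ← h2]
    ring
  have hu : IsUnit (algebraMap R Rp s₁ * algebraMap R Rp s₂) := hu₁.mul hu₂
  refine ⟨a₁ * s₂, b₁ * s₁, ?_, ?_, ?_⟩
  · intro h0
    have : algebraMap R Rp (b₁ * s₁) = 0 := by rw [h0, map_zero]
    rw [hβ] at this
    rcases mul_eq_zero.mp this with h | h
    · exact hb'0 h
    · exact hu.ne_zero h
  · apply hinj
    rw [map_mul (algebraMap R Rp) a₀, map_mul (algebraMap R Rp) b₀, hα, hβ, ← ha', ← hb']
    ring
  · intro r hr
    have h3 : algebraMap R Rp (b₁ * s₁) ∣ algebraMap R Rp (a₁ * s₂) * algebraMap R Rp r := by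
      rw [← map_mul]
      exact map_dvd (algebraMap R Rp) hr
    rw [hα, hβ] at h3
    have h4 : b' ∣ a' * algebraMap R Rp r := by
      have h5 : b' ∣ a' * (algebraMap R Rp s₁ * algebraMap R Rp s₂) * algebraMap R Rp r :=
        (dvd_mul_right b' _).trans h3
      have h6 : a' * (algebraMap R Rp s₁ * algebraMap R Rp s₂) * algebraMap R Rp r =
          a' * algebraMap R Rp r * (algebraMap R Rp s₁ * algebraMap R Rp s₂) := by ring
      rw [h6] at h5
      exact (hu.dvd_mul_right).mp h5
    have h7 : b' ∣ algebraMap R Rp r := hrel.symm.dvd_of_dvd_mul_left h4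
    have h8 : algebraMap R Rp (b₁ * s₁) ∣ algebraMap R Rp r := by
      rw [hβ]
      exact (hu.mul_right_dvd).mpr h7
    obtain ⟨γ, hγ⟩ := h8
    obtain ⟨⟨c, t⟩, h9⟩ := IsLocalization.surj p.primeCompl γ
    simp only at h9
    refine ⟨t, t.2, ⟨c, ?_⟩⟩
    apply hinj
    rw [map_mul (algebraMap R Rp) (t : R) r, map_mul (algebraMap R Rp) (b₁ * s₁) c, hγ, ← h9]
    ring

end Reduced

section Field

variable {R : Type*} [CommRing R] [IsDomain R] (K : Type*) [Field K] [Algebra R K]
  [IsFractionRing R K]

/-- `z` lies in the local ring `O_q = R_q ⊆ K`: `z = r / s` with `s ∉ q`. -/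
def InLocal (q : Ideal R) (z : K) : Prop :=
  ∃ r s : R, s ∉ q ∧ z * algebraMap R K s = algebraMap R K r

variable {K}

omit [IsDomain R] [IsFractionRing R K] in
theorem inLocal_algebraMap (q : Ideal R) [q.IsPrime] (r : R) : InLocal K q (algebraMap R K r) :=
  ⟨r, 1, fun h => Ideal.IsPrime.ne_top ‹_› ((Ideal.eq_top_iff_one q).mpr h), by simp⟩

omit [IsDomain R] [IsFractionRing R K] in
theorem inLocal_one (q : Ideal R) [q.IsPrime] : InLocal K q (1 : K) := by
  simpa using inLocal_algebraMap (K := K) q (1 : R)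

omit [IsDomain R] in
/-- `InLocal q` is membership in the image of any model `Rq` of the localization at `q`. -/
theorem inLocal_iff_mem_range (q : Ideal R) [q.IsPrime] (Rq : Type*) [CommRing Rq] [Algebra R Rq]
    [IsLocalization.AtPrime Rq q] [Algebra Rq K] [IsScalarTower R Rq K] (z : K) :
    InLocal K q z ↔ z ∈ (algebraMap Rq K).range := by
  constructor
  · rintro ⟨r, s, hs, hz⟩
    refine ⟨IsLocalization.mk' Rq r (⟨s, hs⟩ : q.primeCompl), ?_⟩
    have hs0 : algebraMap R K s ≠ 0 := by
      intro h0
      have : s = 0 := IsFractionRing.injective R K (by rw [h0, map_zero])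
      exact hs (this ▸ q.zero_mem)
    apply mul_right_cancel₀ hs0
    rw [hz, IsScalarTower.algebraMap_apply R Rq K s, ← map_mul]
    have := IsLocalization.mk'_spec Rq r (⟨s, hs⟩ : q.primeCompl)
    simp only at this
    rw [this, ← IsScalarTower.algebraMap_apply]
  · rintro ⟨y, rfl⟩
    obtain ⟨⟨r, s⟩, hy⟩ := IsLocalization.surj q.primeCompl y
    simp only at hy
    refine ⟨r, s, s.2, ?_⟩
    rw [IsScalarTower.algebraMap_apply R Rq K, IsScalarTower.algebraMap_apply R Rq K, ← map_mul, hy]

omit [IsDomain R] in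
/-- On the basic open `D(f)` where the denominator `b` is uniform, the ideal of denominators
of `h = a / b` in `O_q` is `b · O_q`. -/
theorem inLocal_mul_iff_of_uniform {h : K} {a b f : R} (hb : b ≠ 0)
    (hab : h * algebraMap R K b = algebraMap R K a) (hf : ∀ r, b ∣ a * r → b ∣ f * r)
    (q : Ideal R) [q.IsPrime] (hfq : f ∉ q) {z : K} (hz : InLocal K q z) :
    InLocal K q (z * h) ↔ InLocal K q (z / algebraMap R K b) := by
  have hinj : Function.Injective (algebraMap R K) := IsFractionRing.injective R K
  have hβ : algebraMap R K b ≠ 0 := fun h0 => hb (hinj (by rw [h0, map_zero]))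
  constructor
  · rintro ⟨r', s', hs', hzh⟩
    obtain ⟨r, s, hs, hzs⟩ := hz
    have h1 : r' * s * b = a * (r * s') := by
      apply hinj
      simp only [map_mul]
      rw [← hzh, ← hzs, ← hab]
      ring
    have h2 : b ∣ f * (r * s') := hf _ ⟨r' * s, by rw [← h1]; ring⟩
    obtain ⟨c, hc⟩ := h2
    refine ⟨c, s * f * s', ?_, ?_⟩
    · intro hmem
      rcases (Ideal.IsPrime.mem_or_mem ‹_› hmem) with h3 | h3
      · rcases (Ideal.IsPrime.mem_or_mem ‹_› h3) with h4 | h4
        · exact hs h4
        · exact hfq h4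
      · exact hs' h3
    · have h5 : algebraMap R K (f * (r * s')) = algebraMap R K (b * c) := by rw [hc]
      simp only [map_mul] at h5 ⊢
      rw [← hzs] at h5
      field_simp
      linear_combination h5
  · rintro ⟨r₁, s₁, hs₁, hz1⟩
    refine ⟨r₁ * a, s₁, hs₁, ?_⟩
    rw [map_mul, ← hz1, ← hab]
    field_simp

end Field

section Main

variable {R : Type*} [CommRing R] [IsDomain R] {K : Type*} [Field K] [Algebra R K]
  [IsFractionRing R K]

omit [IsDomain R] in
/-- `1 / b ∈ O_q` iff `b ∉ q`. -/
theorem inLocal_inv_algebraMap_iff (q : Ideal R) [q.IsPrime] {b : R} (hb : b ≠ 0) :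
    InLocal K q (1 / algebraMap R K b) ↔ b ∉ q := by
  have hinj : Function.Injective (algebraMap R K) := IsFractionRing.injective R K
  have hβ : algebraMap R K b ≠ 0 := fun h0 => hb (hinj (by rw [h0, map_zero]))
  constructor
  · rintro ⟨r, s, hs, h1⟩ hbq
    have h2 : s = r * b := by
      apply hinj
      rw [map_mul, ← h1]
      field_simp
    exact hs (h2 ▸ Ideal.mul_mem_left q r hbq)
  · intro hbq
    exact ⟨1, b, hbq, by rw [map_one]; field_simp⟩

/-- **The polar divisor of a rational function is Cartier.**  Let `R` be a noetherian domain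
with fraction field `K`, `p` a prime with `R_p` factorial, and `h : K`.  There are `a b f : R`
with `f ∉ p` and `h = a / b` such that on the whole basic open `D(f)`:
* the ideal of denominators of `h` in `O_q` is `b · O_q` (one local equation `b`);
* `h ∈ O_q ↔ b ∉ q` (the polar locus is `V(b)`). -/
theorem exists_polar_equation [IsNoetherianRing R] (p : Ideal R) [p.IsPrime] (Rp : Type*)
    [CommRing Rp] [Algebra R Rp] [IsLocalization.AtPrime Rp p] [UniqueFactorizationMonoid Rp]
    (h : K) :
    ∃ a b f : R, b ≠ 0 ∧ f ∉ p ∧ h * algebraMap R K b = algebraMap R K a ∧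
      (∀ r, b ∣ a * r → b ∣ f * r) ∧
      ∀ (q : Ideal R) [q.IsPrime], f ∉ q →
        (∀ z : K, InLocal K q z →
          (InLocal K q (z * h) ↔ InLocal K q (z / algebraMap R K b))) ∧
        (InLocal K q h ↔ b ∉ q) := by
  have hinj : Function.Injective (algebraMap R K) := IsFractionRing.injective R K
  obtain ⟨a₀, b₀, hb₀, rfl⟩ := IsFractionRing.div_surjective (A := R) h
  have hb₀' : b₀ ≠ 0 := nonZeroDivisors.ne_zero hb₀
  have hβ₀ : algebraMap R K b₀ ≠ 0 := fun h0 => hb₀' (hinj (by rw [h0, map_zero]))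
  obtain ⟨a, b, hb, hab, hreg⟩ := exists_reduced_pair p Rp a₀ b₀ hb₀'
  obtain ⟨f, hfp, hf⟩ := exists_uniform_denominator a b p hreg
  have hab' : algebraMap R K a₀ / algebraMap R K b₀ * algebraMap R K b = algebraMap R K a := by
    have h1 : algebraMap R K a₀ * algebraMap R K b = algebraMap R K b₀ * algebraMap R K a := by
      rw [← map_mul, ← map_mul, hab]
    field_simp
    linear_combination h1
  refine ⟨a, b, f, hb, hfp, hab', hf, fun q _ hfq => ⟨fun z hz =>
    inLocal_mul_iff_of_uniform hb hab' hf q hfq hz, ?_⟩⟩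
  have h2 := inLocal_mul_iff_of_uniform hb hab' hf q hfq (inLocal_one (K := K) q)
  rw [one_mul] at h2
  rw [h2, inLocal_inv_algebraMap_iff q hb]

end Main

end Fermat.Agent.S26.helper1300
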