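import Mathlib
import Fermat.Agent.S26.helper2279_NormalizationFinite

/-!
# S26-M6c-COMPACT, middle piece (helper1463): finiteness of the relative normalization

* `finiteDimensional_fractionRing_of_quasiFinite`: for an injective quasi-finite extension of
  domains `R₀ ⊆ S`, `Frac S` is finite over `Frac R₀`.
* `finite_integralClosure_of_quasiFinite`: `R` a finitely generated algebra over a perfect field,
  `S` a domain quasi-finite over `R`: the integral closure of `R` in `S` is a finite `R`-module.
-/

set_option autoImplicit false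

universe u

noncomputable section

namespace Fermat.Agent.S26.helper1463

open TensorProduct

/-- For an injective quasi-finite extension of domains `R₀ ⊆ S`, the fraction field of `S` is
finite over the fraction field of `R₀` (no finite generation needed). -/
theorem finiteDimensional_of_quasiFinite (R₀ S F L : Type*) [CommRing R₀] [IsDomain R₀]
    [CommRing S] [IsDomain S] [Algebra R₀ S] [Algebra.QuasiFinite R₀ S]
    [Field F] [Algebra R₀ F] [IsFractionRing R₀ F] [Field L] [Algebra S L] [IsFractionRing S L]
    [Algebra R₀ L] [IsScalarTower R₀ S L] [Algebra F L] [IsScalarTower R₀ F L] :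
    FiniteDimensional F L := by
  have h1 : Algebra.QuasiFinite F (F ⊗[R₀] S) := inferInstance
  have h2 : Module.Finite F (F ⊗[R₀] S) := Module.Finite.of_quasiFinite
  let ψ : F ⊗[R₀] S →ₐ[F] L :=
    Algebra.TensorProduct.lift (Algebra.ofId F L) (IsScalarTower.toAlgHom R₀ S L)
      (fun _ _ => Commute.all _ _)
  have h3 : Module.Finite F ψ.range := Module.Finite.range ψ.toLinearMap
  have hS : ∀ s : S, algebraMap S L s ∈ ψ.range := fun s =>
    ⟨1 ⊗ₜ s, by simp [ψ]⟩
  have hsurj : Function.Surjective ψ := by
    intro x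
    obtain ⟨a, b, hb, rfl⟩ := IsFractionRing.div_surjective (A := S) x
    have hbr : algebraMap S L b ∈ ψ.range := hS b
    have halg : IsAlgebraic F ((⟨algebraMap S L b, hbr⟩ : ψ.range) : L) :=
      ((Algebra.IsAlgebraic.of_finite F ψ.range).isAlgebraic
        (⟨algebraMap S L b, hbr⟩ : ψ.range)).algHom ψ.range.val
    have hinv : (algebraMap S L b)⁻¹ ∈ ψ.range :=
      Subalgebra.inv_mem_of_algebraic ψ.range (x := (⟨algebraMap S L b, hbr⟩ : ψ.range)) halg
    have : algebraMap S L a / algebraMap S L b ∈ ψ.range := by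
      rw [div_eq_mul_inv]
      exact Subalgebra.mul_mem _ (hS a) hinv
    exact this
  exact Module.Finite.of_surjective ψ.toLinearMap hsurj

/-- **(FIN-alg)** Let `R` be a finitely generated algebra over a perfect field `K` and `S` a domain
which is quasi-finite over `R`. Then the integral closure of `R` in `S` is a finite `R`-module. -/
theorem finite_integralClosure_of_quasiFinite (K R S : Type*) [Field K] [PerfectField K]
    [CommRing R] [Algebra K R] [Algebra.FiniteType K R] [CommRing S] [IsDomain S] [Algebra R S]
    [Algebra.QuasiFinite R S] : Module.Finite R (integralClosure R S) := by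
  let I : Ideal R := RingHom.ker (algebraMap R S)
  have hI : I.IsPrime := RingHom.ker_isPrime _
  let : Algebra (R ⧸ I) S := (RingHom.kerLift (algebraMap R S)).toAlgebra
  have hinj : Function.Injective (algebraMap (R ⧸ I) S) := RingHom.kerLift_injective _
  have : IsScalarTower R (R ⧸ I) S := IsScalarTower.of_algebraMap_eq (fun x => rfl)
  have : Algebra.QuasiFinite (R ⧸ I) S := Algebra.QuasiFinite.of_restrictScalars R (R ⧸ I) S
  have hmap : ∀ x : R ⧸ I, algebraMap (R ⧸ I) (FractionRing S) x =
      algebraMap S (FractionRing S) (algebraMap (R ⧸ I) S x) := fun x =>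
    IsScalarTower.algebraMap_apply (R ⧸ I) S (FractionRing S) x
  have : FaithfulSMul (R ⧸ I) (FractionRing S) :=
    (faithfulSMul_iff_algebraMap_injective (R ⧸ I) (FractionRing S)).mpr (fun x y hxy => by
      rw [hmap, hmap] at hxy
      exact hinj (IsFractionRing.injective S (FractionRing S) hxy))
  let : Algebra (FractionRing (R ⧸ I)) (FractionRing S) :=
    FractionRing.liftAlgebra (R ⧸ I) (FractionRing S)
  have : FiniteDimensional (FractionRing (R ⧸ I)) (FractionRing S) :=
    finiteDimensional_of_quasiFinite (R ⧸ I) S (FractionRing (R ⧸ I)) (FractionRing S)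
  have h1 : Module.Finite (R ⧸ I) (integralClosure (R ⧸ I) S) :=
    helper2279.finite_integralClosure_of_injective K (R ⧸ I) (FractionRing (R ⧸ I))
      (FractionRing S) S (IsScalarTower.toAlgHom (R ⧸ I) S (FractionRing S))
      (IsFractionRing.injective S (FractionRing S))
  have h2 : Module.Finite R (integralClosure (R ⧸ I) S) := Module.Finite.trans (R ⧸ I) _
  have hint : ∀ x : S, IsIntegral (R ⧸ I) x → IsIntegral R x := fun x hx =>
    isIntegral_trans (A := R ⧸ I) x hx
  let g : integralClosure (R ⧸ I) S →ₗ[R] integralClosure R S :=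
    { toFun := fun x => ⟨x.1, hint x.1 x.2⟩
      map_add' := fun _ _ => rfl
      map_smul' := fun r x => by
        apply Subtype.ext
        show (r • x : integralClosure (R ⧸ I) S).1 = r • x.1
        rfl }
  have hg : Function.Surjective g := fun y =>
    ⟨⟨y.1, y.2.tower_top⟩, rfl⟩
  exact Module.Finite.of_surjective g hg

open AlgebraicGeometry CategoryTheory

/-- **(FIN-sch)** Let `K` be a perfect field, `a : A ⟶ Spec K` locally of finite type and
`j : Z ⟶ A` an affine, locally quasi-finite morphism from an integral scheme. Then the relative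
normalization of `A` in `Z` is finite over `A`. -/
theorem isFinite_fromNormalization {K : Type u} [Field K] [PerfectField K] {A Z : Scheme.{u}}
    (a : A ⟶ Spec (CommRingCat.of K)) [LocallyOfFiniteType a] (j : Z ⟶ A) [IsAffineHom j]
    [LocallyQuasiFinite j] [IsIntegral Z] : IsFinite j.fromNormalization := by
  refine (isFinite_iff _).mpr ⟨inferInstance, fun U hU => ?_⟩
  rw [Scheme.Hom.fromNormalization_app j hU, CommRingCat.hom_comp]
  refine RingHom.Finite.comp (RingHom.Finite.of_surjective _ ?_) ?_
  · exact (ConcreteCategory.bijective_of_isIso (j.normalizationObjIso hU).inv).2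
  -- the `K`-algebra structure on `Γ(A, U)`
  let e : K ≃+* Γ(Spec (CommRingCat.of K), ⊤) :=
    (Scheme.ΓSpecIso (CommRingCat.of K)).symm.commRingCatIsoToRingEquiv
  let φ : Γ(Spec (CommRingCat.of K), ⊤) →+* Γ(A, U) := (a.appLE ⊤ U le_top).hom
  have hφ : φ.FiniteType := a.finiteType_appLE (isAffineOpen_top _) hU le_top
  let _ : Algebra K Γ(A, U) := (φ.comp e.toRingHom).toAlgebra
  have : Algebra.FiniteType K Γ(A, U) :=
    RingHom.FiniteType.comp hφ (RingHom.FiniteType.of_surjective _ e.surjective)
  let _ : Algebra Γ(A, U) Γ(Z, j ⁻¹ᵁ U) := (j.app U).hom.toAlgebra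
  have hqf : Algebra.QuasiFinite Γ(A, U) Γ(Z, j ⁻¹ᵁ U) := by
    have h := LocallyQuasiFinite.quasiFinite_appLE (f := j) hU (hU.preimage j) le_rfl
    rwa [← Scheme.Hom.app_eq_appLE] at h
  change (algebraMap Γ(A, U) (integralClosure Γ(A, U) Γ(Z, j ⁻¹ᵁ U))).Finite
  rw [RingHom.finite_algebraMap]
  by_cases hne : Nonempty (j ⁻¹ᵁ U)
  · have : IsDomain Γ(Z, j ⁻¹ᵁ U) := inferInstance
    exact finite_integralClosure_of_quasiFinite K Γ(A, U) Γ(Z, j ⁻¹ᵁ U)
  · have hbot : j ⁻¹ᵁ U = ⊥ := by
      ext x
      simp only [TopologicalSpace.Opens.coe_bot, Set.mem_empty_iff_false, iff_false]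
      exact fun hx => hne ⟨⟨x, hx⟩⟩
    have : Subsingleton Γ(Z, j ⁻¹ᵁ U) := by
      rw [hbot]
      infer_instance
    have : Subsingleton (integralClosure Γ(A, U) Γ(Z, j ⁻¹ᵁ U)) :=
      Subtype.val_injective.subsingleton
    infer_instance

end Fermat.Agent.S26.helper1463
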