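import Fermat.Agent.S26.helper154_Spec2
import Fermat.Agent.S26.helper218_PullsTo
import Fermat.Agent.S26.helper4871_SignBound
import Fermat.Agent.S26.helper4953_Count

/-!
# S26 assembly (M9-ASM, captain helper154)

`stmt_S26_of`: the frozen statement S26 from the module statements of `helper154_Spec2`:
`Stmt_Integral`, `Stmt_NsmulDeg`, `Stmt_SepDomComp`, `Stmt_WsumNsmul`, `Stmt_TorsPow`,
`Stmt_Normal`, `Stmt_QuadN`, `Stmt_FramePos`, `Stmt_SW`, `Stmt_DivisorPos`, `Stmt_Upper`,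
`Stmt_DimZero`, using the divisor API of helper218 / helper4871 and the count of helper4953.
-/

set_option autoImplicit false

universe u

noncomputable section

open CategoryTheory CategoryTheory.Limits AlgebraicGeometry AlgebraicGeometry.RelPicard
  NeronModelInfra GoodReductionJacobian

namespace Fermat.Agent.S26.helper154

section Small

variable {X : Scheme.{u}} [IsIntegral X]

/-- Every Cartier divisor is trivial at the generic point. -/
theorem cdiv_apply_genericPoint (D : CDiv X) : D.1 (genericPoint X) = 1 := by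
  obtain ⟨f, hf⟩ := QuotientGroup.mk_surjective (D.1 (genericPoint X))
  rw [← hf]
  refine helper218.mk_eq_one_iff.2 ⟨f, ?_⟩
  apply Units.ext
  rw [helper218.coe_stalkUnit, helper218.algebraMap_stalk_eq,
    TopCat.Presheaf.stalkSpecializes_refl]
  rfl

/-- `ℓ(D) ≥ 1` for an effective divisor with `L(D)` finite-dimensional. -/
theorem one_le_ell {K : Type u} [Field K] (x : X ⟶ Spec (CommRingCat.of K)) (D : CDiv X)
    (hD : CDiv.IsEffective D) (hfin : CDiv.LFinite x D) : 1 ≤ CDiv.ell x D := by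
  letI := (constHom x).toAlgebra
  haveI : Module.Finite K (CDiv.LSub x D) := hfin
  have h1 : (1 : X.functionField) ∈ CDiv.LSub x D := fun p => by
    obtain ⟨f, hf, hmem⟩ := hD p
    exact ⟨f, hf, by rw [one_mul]; exact hmem⟩
  haveI : Nontrivial (CDiv.LSub x D) :=
    ⟨⟨⟨1, h1⟩, 0, fun h => one_ne_zero (congrArg Subtype.val h)⟩⟩
  exact Module.finrank_pos

end Small

/-- `(k + 1) ^ g ≤ g! * C(k + g, g)`. -/
theorem succ_pow_le_factorial_mul_choose (k g : ℕ) :
    (k + 1) ^ g ≤ g.factorial * Nat.choose (k + g) g := by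
  have h := Nat.pow_le_choose (α := ℚ) g (k + g)
  have h2 : k + g + 1 - g = k + 1 := by omega
  rw [h2] at h
  have hpos : (0 : ℚ) < (g.factorial : ℚ) := by exact_mod_cast Nat.factorial_pos g
  rw [div_le_iff₀ hpos] at h
  have h3 : ((k + 1 : ℕ) : ℚ) ^ g ≤ ((g.factorial * Nat.choose (k + g) g : ℕ) : ℚ) := by
    push_cast
    push_cast at h
    linarith
  exact_mod_cast h3

/-- **M9-ASM.** The frozen statement S26 from the module statements. -/
theorem stmt_S26_of (hInt : Stmt_Integral.{u}) (hDeg : Stmt_NsmulDeg.{u})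
    (hComp : Stmt_SepDomComp.{u}) (hW : Stmt_WsumNsmul.{u}) (hPow : Stmt_TorsPow.{u})
    (hNormal : Stmt_Normal.{u}) (hQuad : Stmt_QuadN.{u}) (hFrame : Stmt_FramePos.{u})
    (hSW : Stmt_SW.{u}) (hDiv : Stmt_DivisorPos.{u}) (hUp : Stmt_Upper.{u})
    (hZero : Stmt_DimZero.{u}) : Stmt_S26.{u} := by
  intro K _ _ A f L hc hA g _ n hn
  have hAb : IsAbVar K f L g := ⟨inferInstance, hc, hA, inferInstance⟩
  rcases Nat.eq_zero_or_pos g with hg0 | hg
  · subst hg0
    have h := hZero K f L hAb n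
    rw [Nat.mul_zero, pow_zero]
    exact h
  haveI : IsIntegral A := hInt K f L g hAb
  obtain ⟨l, hlen, hXint, δ, hs⟩ := hFrame K f L g hAb hg
  haveI := hXint
  obtain ⟨D, hDeff, hDsym, hD0, hDaff, a₀, ha₀, hlowD⟩ := hDiv K f L g hAb hg
  have hdom : IsDom (sumMap L l) := hs.1
  obtain ⟨E, hE⟩ := helper218.exists_pullsTo (sumMap L l) D
    (by rw [hdom]; exact cdiv_apply_genericPoint D)
  have hEeff : CDiv.IsEffective E := helper218.PullsTo.isEffective hE hDeff
  obtain ⟨c, hc'⟩ := hUp K f L g hAb l D hDeff hDsym hD0 E hE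
  haveI : IsProper (prodX l).2 := isProper_prodX l
  haveI : IsProper f := hA.proper
  haveI : Smooth f := hA.smooth
  have hnorm : ∀ U : A.Opens, IsAffineOpen U → IsIntegrallyClosed Γ(A, U) :=
    fun U hU => hNormal K f U hU
  have hsf : sumMap L l ≫ f = (prodX l).2 := (wsum L l (fun _ => 1)).2
  obtain ⟨a₁, hsw1⟩ := hSW K (prodX l).2 f (sumMap L l) hsf δ hs hnorm D hDeff hDaff E hE
    (fun m => (hc' m).1)
  have hn1 : 1 ≤ n := Nat.one_le_iff_ne_zero.mpr (fun h => hn (by rw [h, Nat.cast_zero]))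
  -- monotonicity of `ℓ(mD)` on `A`
  have hlam_mono : ∀ m j : ℕ, CDiv.ell f (D ^ m) ≤ CDiv.ell f (D ^ (m + j)) := by
    intro m j
    have h := helper4871.ell_le_mul_of_isEffective f (D ^ m)
      (helper4871.isEffective_pow hDeff j) (by rw [← pow_add]; exact (hsw1 (m + j)).1)
    rw [← pow_add] at h
    exact h.2
  have hη1 : ∀ m : ℕ, 1 ≤ CDiv.ell (prodX l).2 (E ^ m) := fun m =>
    one_le_ell _ _ (helper4871.isEffective_pow hEeff m) (hc' m).1
  have hδ : 1 ≤ δ := by
    obtain ⟨h, _, hfd, hfr⟩ := hs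
    letI := (funFieldHom (sumMap L l) h).toAlgebra
    haveI := hfd
    rw [← hfr]
    exact Module.finrank_pos
  -- lower growth of `η`
  have hlowη : ∀ m : ℕ, 1 ≤ m →
      m ^ g ≤ (g.factorial * (a₀ + a₁) ^ g) * CDiv.ell (prodX l).2 (E ^ m) := by
    intro m _
    set k : ℕ := (m - a₁) / a₀ with hk
    have hch : Nat.choose (k + g) g ≤ CDiv.ell (prodX l).2 (E ^ m) := by
      by_cases hm : a₁ ≤ m
      · have h1 : Nat.choose (k + g) g ≤ CDiv.ell f (D ^ (k * a₀)) := hlowD k (hsw1 _).1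
        have h2 : k * a₀ ≤ m - a₁ := Nat.div_mul_le_self _ _
        have h3 : CDiv.ell f (D ^ (k * a₀)) ≤ CDiv.ell f (D ^ (m - a₁)) := by
          have := hlam_mono (k * a₀) (m - a₁ - k * a₀)
          rwa [Nat.add_sub_cancel' h2] at this
        have h4 : δ * CDiv.ell f (D ^ (m - a₁)) ≤ CDiv.ell (prodX l).2 (E ^ m) := by
          have := (hsw1 (m - a₁)).2.1
          rwa [Nat.sub_add_cancel hm] at this
        calc Nat.choose (k + g) g ≤ CDiv.ell f (D ^ (m - a₁)) := h1.trans h3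
          _ ≤ δ * CDiv.ell f (D ^ (m - a₁)) := Nat.le_mul_of_pos_left _ hδ
          _ ≤ _ := h4
      · have hk0 : k = 0 := by
          rw [hk, Nat.sub_eq_zero_of_le (le_of_not_ge hm), Nat.zero_div]
        rw [hk0, Nat.zero_add, Nat.choose_self]
        exact hη1 m
    have hmle : m ≤ (k + 1) * (a₀ + a₁) := by
      by_cases hm : a₁ ≤ m
      · have h1 : m - a₁ < a₀ * ((m - a₁) / a₀ + 1) := Nat.lt_mul_div_succ _ ha₀
        rw [← hk] at h1
        nlinarith [Nat.sub_add_cancel hm]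
      · nlinarith [le_of_not_ge hm, Nat.zero_le k, Nat.zero_le a₀, Nat.zero_le a₁]
    calc m ^ g ≤ ((k + 1) * (a₀ + a₁)) ^ g := Nat.pow_le_pow_left hmle g
      _ = (k + 1) ^ g * (a₀ + a₁) ^ g := mul_pow _ _ _
      _ ≤ (g.factorial * Nat.choose (k + g) g) * (a₀ + a₁) ^ g :=
          Nat.mul_le_mul_right _ (succ_pow_le_factorial_mul_choose k g)
      _ = (g.factorial * (a₀ + a₁) ^ g) * Nat.choose (k + g) g := by ring
      _ ≤ _ := Nat.mul_le_mul_left _ hch
  -- upper growth of `η`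
  have hupη : ∀ m : ℕ, 1 ≤ m → CDiv.ell (prodX l).2 (E ^ m) ≤ (c + 1) ^ g * m ^ g := by
    intro m hm
    have h1 := (hc' m).2
    rw [hlen] at h1
    have h2 : c * m + 1 ≤ (c + 1) * m := by nlinarith
    calc CDiv.ell (prodX l).2 (E ^ m) ≤ (c * m + 1) ^ g := h1
      _ ≤ ((c + 1) * m) ^ g := Nat.pow_le_pow_left h2 g
      _ = (c + 1) ^ g * m ^ g := mul_pow _ _ _
  -- the sandwich for `[n ^ k]`
  have hsw : ∀ k : ℕ, ∃ b : ℕ, ∀ m : ℕ,
      torsCard L (n ^ k) * CDiv.ell (prodX l).2 (E ^ m) ≤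
          CDiv.ell (prodX l).2 (E ^ ((n ^ k) ^ 2 * (m + b))) ∧
        CDiv.ell (prodX l).2 (E ^ ((n ^ k) ^ 2 * m)) ≤
          torsCard L (n ^ k) * CDiv.ell (prodX l).2 (E ^ (m + b)) := by
    intro k
    set N : ℕ := n ^ k with hN
    have hNK : (N : K) ≠ 0 := by
      rw [hN, Nat.cast_pow]
      exact pow_ne_zero k hn
    have hdegN : IsSepDom (L.schemeNsmul N) (torsCard L N) := hDeg K f L g hAb N hNK
    have hWeq : (wsum L l (fun _ => (N : ℤ))).1 = sumMap L l ≫ L.schemeNsmul N := hW K f L hc l N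
    have hψ : IsSepDom (wsum L l (fun _ => (N : ℤ))).1 (δ * torsCard L N) := by
      rw [hWeq]
      exact hComp _ _ δ _ hs hdegN
    obtain ⟨EN, hEN⟩ := helper218.exists_pullsTo (wsum L l (fun _ => (N : ℤ))).1 D
      (by rw [show (wsum L l (fun _ => (N : ℤ))).1.base (genericPoint (prodX l).1) = genericPoint A
        from hψ.1]; exact cdiv_apply_genericPoint D)
    have hlin : CDiv.LinEquiv EN (E ^ (N ^ 2)) := hQuad K f L g hAb l D hDsym hD0 N E EN hE hEN
    have hlinm : ∀ m : ℕ, CDiv.LinEquiv (EN ^ m) (E ^ (N ^ 2 * m)) := by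
      intro m
      have := helper4871.linEquiv_pow hlin m
      rwa [← pow_mul] at this
    have hfinN : ∀ m : ℕ, CDiv.LFinite (prodX l).2 (EN ^ m) := fun m =>
      (helper4871.lFinite_iff_of_linEquiv (prodX l).2 (hlinm m)).2 (hc' _).1
    have hellN : ∀ m : ℕ, CDiv.ell (prodX l).2 (EN ^ m) = CDiv.ell (prodX l).2 (E ^ (N ^ 2 * m)) :=
      fun m => helper4871.ell_eq_of_linEquiv (prodX l).2 (hlinm m)
    obtain ⟨aN, hswN⟩ := hSW K (prodX l).2 f (wsum L l (fun _ => (N : ℤ))).1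
      (wsum L l (fun _ => (N : ℤ))).2 (δ * torsCard L N) hψ hnorm D hDeff hDaff EN hEN hfinN
    refine ⟨a₁ + aN, fun m => ⟨?_, ?_⟩⟩
    · have h1 := (hsw1 m).2.2
      have h2 := (hswN (m + a₁)).2.1
      rw [hellN, Nat.add_assoc] at h2
      calc torsCard L N * CDiv.ell (prodX l).2 (E ^ m)
          ≤ torsCard L N * (δ * CDiv.ell f (D ^ (m + a₁))) := Nat.mul_le_mul_left _ h1
        _ = δ * torsCard L N * CDiv.ell f (D ^ (m + a₁)) := by ring
        _ ≤ _ := h2
    · have h1 := (hswN m).2.2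
      rw [hellN] at h1
      have h2 := (hsw1 (m + aN)).2.1
      have h3 : m + aN + a₁ = m + (a₁ + aN) := by ring
      rw [h3] at h2
      calc CDiv.ell (prodX l).2 (E ^ (N ^ 2 * m))
          ≤ δ * torsCard L N * CDiv.ell f (D ^ (m + aN)) := h1
        _ = torsCard L N * (δ * CDiv.ell f (D ^ (m + aN))) := by ring
        _ ≤ _ := Nat.mul_le_mul_left _ h2
  exact helper4953.count_eq_pow_nat g (fun N => torsCard L N)
    (fun m => CDiv.ell (prodX l).2 (E ^ m)) n hn1 (fun k => hPow K f L g hAb n hn k)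
    (g.factorial * (a₀ + a₁) ^ g) hlowη ((c + 1) ^ g) hupη hsw

end Fermat.Agent.S26.helper154
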