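import Mathlib

/-!
# S26, delta D5: the count by degrees of sum maps (pure arithmetic end)

`N h` is, in the application, the function-field degree of the sum map
`∑ i, h i ∘ p i : ∏ C i ⟶ A` of a family of pointed maps `h i : C i ⟶ A` (and `0` when that
map is not dominant). The three geometric inputs are

* `(H1)` slot-wise quadraticity:
  `N (.., n • x, ..) = (n+1).choose 2 * N (.., x, ..) + n.choose 2 * N (.., -x, ..)`;
* `(H2)` `N (n • h) = d * N h`, with `d` the degree of multiplication by `n`;
* `(H3)` `0 < N f` for one family `f`.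

Then `d = n ^ (2 * g)`, `g` the number of slots: no limits, no growth estimates.
`(H1)` itself follows from one instance family of the cube relation for the function
`k ↦ N (.., k • x, ..)` on `ℤ`; this is `quad_of_rec` / `slot_quadratic_of_rec` below.
-/

namespace Fermat.Agent.S26.helper3162

open Finset

/-- `C(n+1,2) + C(n,2) = n²`. -/
theorem choose_two_add_choose_two (n : ℕ) : (n + 1).choose 2 + n.choose 2 = n ^ 2 := by
  induction n with
  | zero => simp
  | succ k ih =>
    have h1 : (k + 1 + 1).choose 2 = (k + 1) + (k + 1).choose 2 := by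
      rw [Nat.choose_succ_succ' (k + 1) 1, Nat.choose_one_right]
    have h2 : (k + 1).choose 2 = k + k.choose 2 := by
      rw [Nat.choose_succ_succ' k 1, Nat.choose_one_right]
    rw [h1]
    rw [h2] at ih ⊢
    nlinarith [ih]

/-- A function on `ℤ` with values in an abelian group, vanishing at `0` and satisfying the
second-difference recursion `q (n+2) + q n = 2 q (n+1) + q 1 + q (-1)` on the naturals, is
`q n = C(n+1,2) q 1 + C(n,2) q (-1)` there. -/
theorem quad_of_rec {P : Type*} [AddCommGroup P] (q : ℤ → P) (h0 : q 0 = 0)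
    (hrec : ∀ n : ℕ, q ((n : ℤ) + 2) + q n = (2 : ℕ) • q ((n : ℤ) + 1) + q 1 + q (-1))
    (n : ℕ) : q n = (n + 1).choose 2 • q 1 + n.choose 2 • q (-1) := by
  have key : ∀ n : ℕ,
      q n = (n + 1).choose 2 • q 1 + n.choose 2 • q (-1) ∧
      q ((n : ℤ) + 1) = (n + 2).choose 2 • q 1 + (n + 1).choose 2 • q (-1) := by
    intro n
    induction n with
    | zero => simp [h0]
    | succ k ih =>
      obtain ⟨ih1, ih2⟩ := ih
      refine ⟨by simpa using ih2, ?_⟩
      have h := hrec k
      have e : ((k + 1 : ℕ) : ℤ) + 1 = (k : ℤ) + 2 := by push_cast; ring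
      rw [e]
      have h' : q ((k : ℤ) + 2) = (2 : ℕ) • q ((k : ℤ) + 1) + q 1 + q (-1) - q k :=
        eq_sub_of_add_eq h
      rw [h', ih1, ih2]
      have c3 : (k + 1 + 2).choose 2 = (k + 2) + (k + 2).choose 2 := by
        rw [Nat.choose_succ_succ' (k + 2) 1, Nat.choose_one_right]
      have c2 : (k + 2).choose 2 = (k + 1) + (k + 1).choose 2 := by
        rw [Nat.choose_succ_succ' (k + 1) 1, Nat.choose_one_right]
      have c1 : (k + 1).choose 2 = k + k.choose 2 := by
        rw [Nat.choose_succ_succ' k 1, Nat.choose_one_right]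
      rw [c3, c2, c1]
      simp only [add_smul, smul_add, two_nsmul, one_smul]
      abel
  exact (key n).1

/-- The cube defect of a function on `ℤ`. -/
def cubeDefectInt {P : Type*} [AddCommGroup P] (q : ℤ → P) (a b c : ℤ) : P :=
  q (a + b + c) - q (a + b) - q (a + c) - q (b + c) + q a + q b + q c

/-- The instances `(n+1, 1, -1)` of the cube relation give the second-difference recursion. -/
theorem rec_of_cube {P : Type*} [AddCommGroup P] (q : ℤ → P) (h0 : q 0 = 0)
    (hcube : ∀ n : ℕ, cubeDefectInt q ((n : ℤ) + 1) 1 (-1) = 0) (n : ℕ) :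
    q ((n : ℤ) + 2) + q n = (2 : ℕ) • q ((n : ℤ) + 1) + q 1 + q (-1) := by
  have h := hcube n
  unfold cubeDefectInt at h
  have e1 : (n : ℤ) + 1 + 1 + -1 = (n : ℤ) + 1 := by ring
  have e2 : (n : ℤ) + 1 + 1 = (n : ℤ) + 2 := by ring
  have e3 : (n : ℤ) + 1 + -1 = (n : ℤ) := by ring
  have e4 : (1 : ℤ) + -1 = 0 := by ring
  rw [e1, e2, e3, e4, h0] at h
  have h2 : q ((n : ℤ) + 2) + q n = q ((n : ℤ) + 1) + q ((n : ℤ) + 1) + q 1 + q (-1) := by
    have : q ((n : ℤ) + 2) + q n =
        q ((n : ℤ) + 1) + q ((n : ℤ) + 1) + q 1 + q (-1) -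
          (q ((n : ℤ) + 1) - q ((n : ℤ) + 2) - q n - 0 + q ((n : ℤ) + 1) + q 1 + q (-1)) := by
      abel
    rw [this, h, sub_zero]
  rw [h2, two_nsmul]

/-- Cube relation (instances `(n+1, 1, -1)`) and `q 0 = 0` give
`q n = C(n+1,2) q 1 + C(n,2) q (-1)`. -/
theorem quad_of_cube {P : Type*} [AddCommGroup P] (q : ℤ → P) (h0 : q 0 = 0)
    (hcube : ∀ n : ℕ, cubeDefectInt q ((n : ℤ) + 1) 1 (-1) = 0) (n : ℕ) :
    q n = (n + 1).choose 2 • q 1 + n.choose 2 • q (-1) :=
  quad_of_rec q h0 (rec_of_cube q h0 hcube) n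

/-- `ℕ`-valued form of `quad_of_rec` (the shape in which degrees arrive). -/
theorem quad_of_rec_nat (q : ℤ → ℕ) (h0 : q 0 = 0)
    (hrec : ∀ n : ℕ, q ((n : ℤ) + 2) + q n = 2 * q ((n : ℤ) + 1) + q 1 + q (-1))
    (n : ℕ) : q n = (n + 1).choose 2 * q 1 + n.choose 2 * q (-1) := by
  have h := quad_of_rec (P := ℤ) (fun k => (q k : ℤ)) (by simp [h0])
    (fun m => by
      have := hrec m
      simp only [nsmul_eq_mul]
      exact_mod_cast this) n
  simp only [nsmul_eq_mul] at h
  exact_mod_cast h

section Count

variable {ι : Type*} [DecidableEq ι] {M : ι → Type*} [∀ i, AddCommGroup (M i)]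

/-- The family `i ↦ ε i • f i` with the slots in `J` multiplied by `n`. -/
def signFamily (f : ∀ i, M i) (n : ℕ) (J : Finset ι) (ε : ι → ℤˣ) : ∀ i, M i :=
  fun i => if i ∈ J then n • ((ε i : ℤ) • f i) else (ε i : ℤ) • f i

/-- Flipping the sign at the slot `j`. -/
def flipAt (j : ι) : Equiv.Perm (ι → ℤˣ) :=
  Function.Involutive.toPerm (fun ε => Function.update ε j (-(ε j))) (by
    intro ε
    funext i
    by_cases h : i = j
    · subst h; simp
    · simp [Function.update_of_ne h])

theorem flipAt_apply (j : ι) (ε : ι → ℤˣ) : flipAt j ε = Function.update ε j (-(ε j)) := rfl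

theorem signFamily_insert (f : ∀ i, M i) (n : ℕ) (J : Finset ι) (j : ι) (hj : j ∉ J)
    (ε : ι → ℤˣ) :
    signFamily f n (insert j J) ε =
      Function.update (signFamily f n J ε) j (n • ((ε j : ℤ) • f j)) := by
  funext i
  by_cases h : i = j
  · subst h
    simp [signFamily]
  · rw [Function.update_of_ne h]
    simp [signFamily, Finset.mem_insert, h]

theorem signFamily_update_self (f : ∀ i, M i) (n : ℕ) (J : Finset ι) (j : ι) (hj : j ∉ J)
    (ε : ι → ℤˣ) :
    Function.update (signFamily f n J ε) j ((ε j : ℤ) • f j) = signFamily f n J ε := by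
  funext i
  by_cases h : i = j
  · subst h
    simp [signFamily, hj]
  · rw [Function.update_of_ne h]

theorem signFamily_update_neg (f : ∀ i, M i) (n : ℕ) (J : Finset ι) (j : ι) (hj : j ∉ J)
    (ε : ι → ℤˣ) :
    Function.update (signFamily f n J ε) j (-((ε j : ℤ) • f j)) =
      signFamily f n J (flipAt j ε) := by
  funext i
  by_cases h : i = j
  · subst h
    simp [signFamily, hj, flipAt_apply]
  · rw [Function.update_of_ne h]
    simp [signFamily, flipAt_apply, Function.update_of_ne h]

/-- The sign sum with the slots in `J` multiplied by `n`, when `(H1)` is only known at the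
instances met while expanding slot by slot. -/
theorem sum_signFamily_of_sign [Fintype ι] (N : (∀ i, M i) → ℕ) (f : ∀ i, M i) (n : ℕ)
    (H1 : ∀ (J : Finset ι) (j : ι), j ∉ J → ∀ ε : ι → ℤˣ,
      N (Function.update (signFamily f n J ε) j (n • ((ε j : ℤ) • f j))) =
        (n + 1).choose 2 * N (Function.update (signFamily f n J ε) j ((ε j : ℤ) • f j)) +
          n.choose 2 * N (Function.update (signFamily f n J ε) j (-((ε j : ℤ) • f j))))
    (J : Finset ι) :
    ∑ ε : ι → ℤˣ, N (signFamily f n J ε) =
      n ^ (2 * J.card) * ∑ ε : ι → ℤˣ, N (signFamily f n ∅ ε) := by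
  induction J using Finset.induction_on with
  | empty => simp
  | insert j J hj ih =>
    have step : ∀ ε : ι → ℤˣ, N (signFamily f n (insert j J) ε) =
        (n + 1).choose 2 * N (signFamily f n J ε) +
          n.choose 2 * N (signFamily f n J (flipAt j ε)) := by
      intro ε
      rw [signFamily_insert f n J j hj ε, H1 J j hj ε, signFamily_update_self f n J j hj ε,
        signFamily_update_neg f n J j hj ε]
    rw [Finset.sum_congr rfl (fun ε _ => step ε), Finset.sum_add_distrib, ← Finset.mul_sum,
      ← Finset.mul_sum, Equiv.sum_comp (flipAt j) (fun ε => N (signFamily f n J ε)), ← add_mul,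
      choose_two_add_choose_two, ih, Finset.card_insert_of_notMem hj, ← mul_assoc]
    congr 1
    ring

/-- **The count (D5), minimal hypotheses.** `(H1)` is only required at the families
`signFamily f n J ε` (slots `±f i` or `±n f i`), slot `j ∉ J`, multiplier `n`; `(H2)` only at the
sign families `ε • f`. -/
theorem degree_eq_pow_of_sign_quadratic [Fintype ι] (N : (∀ i, M i) → ℕ) (n d : ℕ)
    (f : ∀ i, M i)
    (H1 : ∀ (J : Finset ι) (j : ι), j ∉ J → ∀ ε : ι → ℤˣ,
      N (Function.update (signFamily f n J ε) j (n • ((ε j : ℤ) • f j))) =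
        (n + 1).choose 2 * N (Function.update (signFamily f n J ε) j ((ε j : ℤ) • f j)) +
          n.choose 2 * N (Function.update (signFamily f n J ε) j (-((ε j : ℤ) • f j))))
    (H2 : ∀ ε : ι → ℤˣ, N (fun i => n • ((ε i : ℤ) • f i)) = d * N (fun i => (ε i : ℤ) • f i))
    (H3 : 0 < N f) :
    d = n ^ (2 * Fintype.card ι) := by
  set S : ℕ := ∑ ε : ι → ℤˣ, N (signFamily f n ∅ ε) with hS
  have hpos : 0 < S := by
    have h1 : signFamily f n ∅ (1 : ι → ℤˣ) = f := by
      funext i; simp [signFamily]
    have : N (signFamily f n ∅ (1 : ι → ℤˣ)) ≤ S :=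
      Finset.single_le_sum (f := fun ε => N (signFamily f n ∅ ε))
        (fun _ _ => Nat.zero_le _) (Finset.mem_univ _)
    rw [h1] at this
    omega
  have hall : ∑ ε : ι → ℤˣ, N (signFamily f n Finset.univ ε) = d * S := by
    rw [hS, Finset.mul_sum]
    refine Finset.sum_congr rfl (fun ε _ => ?_)
    have e1 : signFamily f n Finset.univ ε = fun i => n • ((ε i : ℤ) • f i) := by
      funext i; simp [signFamily]
    have e2 : signFamily f n ∅ ε = fun i => (ε i : ℤ) • f i := by
      funext i; simp [signFamily]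
    rw [e1, e2, H2]
  have hpow := sum_signFamily_of_sign N f n H1 Finset.univ
  rw [hall, Finset.card_univ] at hpow
  exact Nat.eq_of_mul_eq_mul_right hpos hpow

/-- **The count (D5).** If `N` is slot-wise quadratic `(H1)`, scales by `d` under multiplication
of all slots by `n` `(H2)`, and is positive at one family `(H3)`, then `d = n ^ (2 * card ι)`. -/
theorem degree_eq_pow_of_slot_quadratic [Fintype ι] (N : (∀ i, M i) → ℕ) (n d : ℕ)
    (H1 : ∀ (h : ∀ i, M i) (i : ι) (x : M i) (m : ℕ),
      N (Function.update h i (m • x)) =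
        (m + 1).choose 2 * N (Function.update h i x) + m.choose 2 * N (Function.update h i (-x)))
    (H2 : ∀ h : ∀ i, M i, N (fun i => n • h i) = d * N h)
    (f : ∀ i, M i) (H3 : 0 < N f) :
    d = n ^ (2 * Fintype.card ι) :=
  degree_eq_pow_of_sign_quadratic N n d f (fun _ j _ _ => H1 _ j _ n) (fun _ => H2 _) H3

/-- `(H1)` from the second-difference recursion in each slot and vanishing at a zero slot. -/
theorem slot_quadratic_of_rec (N : (∀ i, M i) → ℕ)
    (hzero : ∀ (h : ∀ i, M i) (i : ι), N (Function.update h i 0) = 0)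
    (hrec : ∀ (h : ∀ i, M i) (i : ι) (x : M i) (m : ℕ),
      N (Function.update h i (((m : ℤ) + 2) • x)) + N (Function.update h i ((m : ℤ) • x)) =
        2 * N (Function.update h i (((m : ℤ) + 1) • x)) + N (Function.update h i x) +
          N (Function.update h i (-x)))
    (h : ∀ i, M i) (i : ι) (x : M i) (m : ℕ) :
    N (Function.update h i (m • x)) =
      (m + 1).choose 2 * N (Function.update h i x) + m.choose 2 * N (Function.update h i (-x)) := by
  have key := quad_of_rec_nat (fun k : ℤ => N (Function.update h i (k • x)))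
    (by simpa using hzero h i)
    (fun k => by simpa using hrec h i x k) m
  simpa using key

/-- **The count (D5), recursion form.** -/
theorem degree_eq_pow_of_slot_rec [Fintype ι] (N : (∀ i, M i) → ℕ) (n d : ℕ)
    (hzero : ∀ (h : ∀ i, M i) (i : ι), N (Function.update h i 0) = 0)
    (hrec : ∀ (h : ∀ i, M i) (i : ι) (x : M i) (m : ℕ),
      N (Function.update h i (((m : ℤ) + 2) • x)) + N (Function.update h i ((m : ℤ) • x)) =
        2 * N (Function.update h i (((m : ℤ) + 1) • x)) + N (Function.update h i x) +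
          N (Function.update h i (-x)))
    (H2 : ∀ h : ∀ i, M i, N (fun i => n • h i) = d * N h)
    (f : ∀ i, M i) (H3 : 0 < N f) :
    d = n ^ (2 * Fintype.card ι) :=
  degree_eq_pow_of_slot_quadratic N n d (slot_quadratic_of_rec N hzero hrec) H2 f H3

end Count

end Fermat.Agent.S26.helper3162
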