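import Fermat.Agent.S26.helper154_Spec2
import Fermat.Agent.S26.helper3162_SignSumCount

/-!
# S26, second finishing track (D5): specification and final assembly (lead helper3162)

Findings #2834, ruling R7 of the captain. The track shares M0 (soft part), M1 (UFD stalks),
M2/M3/M4 (Cartier divisors, bridge, cube with a curve factor) and M6 (frame of curves) with the
main route and replaces the growth estimates by an identity between integers:

* `degMap φ` is the full function-field degree of a morphism of integral schemes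
  (`0` if `φ` is not dominant or the extension is infinite); no separability.
* `Stmt_D5_H1`: slot-wise quadraticity of `a ↦ degMap (wsum L l a)`;
* `Stmt_D5_H2`: `degMap (wsum L l (n a)) = #A[n] * degMap (wsum L l a)`;
* `stmt_S26_of_D5`: these, with `Stmt_Integral`, `Stmt_FramePos`, `Stmt_DimZero` of the main
  Spec, give the frozen statement `Stmt_S26` (sign-sum count of `helper3162_SignSumCount`).
-/

set_option autoImplicit false

universe u

noncomputable section

open CategoryTheory CategoryTheory.Limits AlgebraicGeometry NeronModelInfra GoodReductionJacobian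
open Fermat.Agent.S26.helper154

namespace Fermat.Agent.S26.helper3162

/-! ### The full degree of a morphism of integral schemes -/

section Degree

variable {Y X : Scheme.{u}} [IsIntegral Y] [IsIntegral X]

open Classical in
/-- The full function-field degree `[K(Y) : φ^* K(X)]` of a morphism of integral schemes:
`0` if `φ` is not dominant, and also `0` if the extension is infinite. No separability. -/
def degMap (φ : Y ⟶ X) : ℕ :=
  if h : IsDom φ then
    (letI := (funFieldHom φ h).toAlgebra
     Module.finrank X.functionField Y.functionField)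
  else 0

theorem degMap_of_isDom (φ : Y ⟶ X) (h : IsDom φ) :
    degMap φ = (letI := (funFieldHom φ h).toAlgebra
      Module.finrank X.functionField Y.functionField) := by
  unfold degMap
  rw [dif_pos h]

theorem degMap_of_not_isDom (φ : Y ⟶ X) (h : ¬ IsDom φ) : degMap φ = 0 := by
  unfold degMap
  rw [dif_neg h]

theorem degMap_eq_of_isSepDom (φ : Y ⟶ X) (δ : ℕ) (h : IsSepDom φ δ) : degMap φ = δ := by
  obtain ⟨hd, _, _, hδ⟩ := h
  rw [degMap_of_isDom φ hd]
  exact hδ

theorem degMap_pos_of_isSepDom (φ : Y ⟶ X) (δ : ℕ) (h : IsSepDom φ δ) : 0 < degMap φ := by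
  obtain ⟨hd, _, hfin, _⟩ := h
  rw [degMap_of_isDom φ hd]
  let _ := (funFieldHom φ hd).toAlgebra
  have : FiniteDimensional X.functionField Y.functionField := hfin
  exact Module.finrank_pos

theorem degMap_congr {φ ψ : Y ⟶ X} (h : φ = ψ) : degMap φ = degMap ψ := by
  rw [h]

end Degree

/-! ### The weighted sums only depend on the weights below the length -/

section Wsum

variable {K : Type u} [Field K] {A : Scheme.{u}} {f : A ⟶ Spec (CommRingCat.of K)}
  {L : RelativeGroupLaw K f}

theorem wsum_congr (l : List (PCurve K f L)) (a a' : ℕ → ℤ)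
    (h : ∀ i, i < l.length → a i = a' i) : wsum L l a = wsum L l a' := by
  induction l generalizing a a' with
  | nil => rfl
  | cons P l ih =>
    have h0 : a 0 = a' 0 := h 0 (by simp)
    have h1 : wsum L l (fun i => a (i + 1)) = wsum L l (fun i => a' (i + 1)) :=
      ih _ _ (fun i hi => h (i + 1) (by simpa using hi))
    have key : ∀ (z z' : ℤ) (w w' : SchemeHomOver (prodX l).2 f)
        (hw : (pullback.snd P.c (prodX l).2 ≫ w.1) ≫ f = (prodX (P :: l)).2)
        (hw' : (pullback.snd P.c (prodX l).2 ≫ w'.1) ≫ f = (prodX (P :: l)).2)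
        (hP : (pullback.fst P.c (prodX l).2 ≫ P.map.1) ≫ f = (prodX (P :: l)).2),
        z = z' → w = w' →
        L.mul (prodX (P :: l)).2
            (zpowPt L (prodX (P :: l)).2 z ⟨pullback.fst P.c (prodX l).2 ≫ P.map.1, hP⟩)
            ⟨pullback.snd P.c (prodX l).2 ≫ w.1, hw⟩ =
          L.mul (prodX (P :: l)).2
            (zpowPt L (prodX (P :: l)).2 z' ⟨pullback.fst P.c (prodX l).2 ≫ P.map.1, hP⟩)
            ⟨pullback.snd P.c (prodX l).2 ≫ w'.1, hw'⟩ := by
      rintro z _ w _ hw hw' hP rfl rfl
      rfl
    exact key _ _ _ _ _ _ _ h0 h1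

end Wsum

/-! ### The statements of the D5 leaves -/

/-- D5-H1 (general form). Slot-wise quadraticity of the degree of the weighted sum maps: for a
list of `g` pointed curves and every slot `i`,
`N(.., m x, ..) = C(m+1,2) N(.., x, ..) + C(m,2) N(.., -x, ..)`. -/
def Stmt_D5_H1 : Prop :=
  ∀ (K : Type u) [Field K] {A : Scheme.{u}} (f : A ⟶ Spec (CommRingCat.of K))
    (L : RelativeGroupLaw K f) (g : ℕ) [IsIntegral A], IsAbVar K f L g →
    ∀ (l : List (PCurve K f L)) [IsIntegral (prodX l).1], l.length = g →
    ∀ (a : ℕ → ℤ) (i : ℕ), i < l.length → ∀ (x : ℤ) (m : ℕ),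
      degMap (wsum L l (Function.update a i ((m : ℤ) * x))).1 =
        (m + 1).choose 2 * degMap (wsum L l (Function.update a i x)).1 +
          m.choose 2 * degMap (wsum L l (Function.update a i (-x))).1

/-- D5-H1 (the instances the count uses): `n` invertible in `K`, all weights in
`{1, -1, n, -n}`, the slot value `x = ± 1`, the multiplier `n`. -/
def Stmt_D5_H1' : Prop :=
  ∀ (K : Type u) [Field K] {A : Scheme.{u}} (f : A ⟶ Spec (CommRingCat.of K))
    (L : RelativeGroupLaw K f) (g : ℕ) [IsIntegral A], IsAbVar K f L g →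
    ∀ (l : List (PCurve K f L)) [IsIntegral (prodX l).1], l.length = g →
    ∀ n : ℕ, (n : K) ≠ 0 →
    ∀ (a : ℕ → ℤ), (∀ j, j < l.length → a j = 1 ∨ a j = -1 ∨ a j = n ∨ a j = -n) →
    ∀ (i : ℕ), i < l.length → ∀ (x : ℤ), x = 1 ∨ x = -1 →
      degMap (wsum L l (Function.update a i ((n : ℤ) * x))).1 =
        (n + 1).choose 2 * degMap (wsum L l (Function.update a i x)).1 +
          n.choose 2 * degMap (wsum L l (Function.update a i (-x))).1

/-- D5-H2. Multiplying all weights by `n` multiplies the degree by the number of `n`-torsion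
points (`wsum (n a) = wsum a ≫ [n]`, `[n]` of degree `torsCard L n`, tower law). -/
def Stmt_D5_H2 : Prop :=
  ∀ (K : Type u) [Field K] {A : Scheme.{u}} (f : A ⟶ Spec (CommRingCat.of K))
    (L : RelativeGroupLaw K f) (g : ℕ) [IsIntegral A], IsAbVar K f L g → 0 < g →
    ∀ (l : List (PCurve K f L)) [IsIntegral (prodX l).1], l.length = g →
    ∀ n : ℕ, (n : K) ≠ 0 → ∀ a : ℕ → ℤ,
      degMap (wsum L l (fun i => (n : ℤ) * a i)).1 = torsCard L n * degMap (wsum L l a).1

theorem stmt_D5_H1'_of_H1 (h : Stmt_D5_H1.{u}) : Stmt_D5_H1'.{u} := by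
  intro K _ A f L g _ hAb l _ hl n _ a _ i hi x _
  exact h K f L g hAb l hl a i hi x n

/-! ### The final assembly -/

/-- Weights on `Fin g`, extended by `0`. -/
def extW (g : ℕ) (k : Fin g → ℤ) : ℕ → ℤ :=
  fun i => if h : i < g then k ⟨i, h⟩ else 0

theorem extW_of_lt (g : ℕ) (k : Fin g → ℤ) (i : ℕ) (h : i < g) : extW g k i = k ⟨i, h⟩ := by
  unfold extW
  rw [dif_pos h]

theorem extW_update (g : ℕ) (k : Fin g → ℤ) (i : Fin g) (v : ℤ) :
    extW g (Function.update k i v) = Function.update (extW g k) (i : ℕ) v := by
  funext j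
  by_cases hj : j < g
  · by_cases hji : j = (i : ℕ)
    · subst hji
      rw [extW_of_lt g _ _ hj, Function.update_self, Function.update_self]
    · have hne : (⟨j, hj⟩ : Fin g) ≠ i := fun h => hji (congrArg Fin.val h)
      rw [extW_of_lt g _ _ hj, Function.update_of_ne hne, Function.update_of_ne hji,
        extW_of_lt g _ _ hj]
  · have hji : j ≠ (i : ℕ) := fun h => hj (h ▸ i.2)
    rw [Function.update_of_ne hji]
    unfold extW
    rw [dif_neg hj, dif_neg hj]

/-- **D5 assembly.** Integrality of `A`, the frame of curves, slot-wise quadraticity `(H1)` at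
the instances the count uses, `(H2)`, and the case `g = 0` give the frozen statement S26. -/
theorem stmt_S26_of_D5 (hInt : Stmt_Integral.{u}) (hFrame : Stmt_FramePos.{u})
    (hH1 : Stmt_D5_H1'.{u}) (hH2 : Stmt_D5_H2.{u}) (h0 : Stmt_DimZero.{u}) : Stmt_S26.{u} := by
  intro K _ _ A f L hc hA g _ n hn
  have hAb : IsAbVar K f L g := ⟨inferInstance, hc, hA, inferInstance⟩
  rcases Nat.eq_zero_or_pos g with hg | hg
  · subst hg
    have h := h0 K f L hAb n
    unfold torsCard at h
    rw [h]
    simp
  · have : IsIntegral A := hInt K f L g hAb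
    obtain ⟨l, hl, hX, δ, hδ⟩ := hFrame K f L g hAb hg
    have := hX
    have key := degree_eq_pow_of_sign_quadratic (ι := Fin g) (M := fun _ => ℤ)
      (fun k => degMap (wsum L l (extW g k)).1) n (torsCard L n) (fun _ => 1) ?_ ?_ ?_
    · rw [Fintype.card_fin] at key
      exact key
    · -- (H1) at the instances of the count
      intro J j hj ε
      simp only [extW_update, nsmul_eq_mul]
      refine hH1 K f L g hAb l hl n hn _ ?_ (j : ℕ) (hl ▸ j.2) _ ?_
      · intro i hi
        have hi' : i < g := hl ▸ hi
        rw [extW_of_lt g _ _ hi']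
        unfold signFamily
        rcases Int.units_eq_one_or (ε ⟨i, hi'⟩) with h | h
        · by_cases hJ : (⟨i, hi'⟩ : Fin g) ∈ J
          · right; right; left
            simp [hJ, h]
          · left
            simp [hJ, h]
        · by_cases hJ : (⟨i, hi'⟩ : Fin g) ∈ J
          · right; right; right
            simp [hJ, h]
          · right; left
            simp [hJ, h]
      · rcases Int.units_eq_one_or (ε j) with h | h
        · left; simp [h]
        · right; simp [h]
    · -- (H2)
      intro ε
      have e : extW g (fun i => n • ((ε i : ℤ) • (1 : ℤ))) =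
          fun i => (n : ℤ) * extW g (fun i => (ε i : ℤ) • (1 : ℤ)) i := by
        funext i
        by_cases hi : i < g
        · rw [extW_of_lt g _ _ hi, extW_of_lt g _ _ hi, nsmul_eq_mul]
        · unfold extW
          rw [dif_neg hi, dif_neg hi, mul_zero]
      show degMap (wsum L l (extW g (fun i => n • ((ε i : ℤ) • (1 : ℤ))))).1 =
        torsCard L n * degMap (wsum L l (extW g (fun i => (ε i : ℤ) • (1 : ℤ)))).1
      rw [e]
      exact hH2 K f L g hAb hg l hl n hn _
    · -- (H3)
      show 0 < degMap (wsum L l (extW g (fun _ => (1 : ℤ)))).1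
      have e : wsum L l (extW g (fun _ => (1 : ℤ))) = wsum L l (fun _ => 1) :=
        wsum_congr l _ _ (fun i hi => extW_of_lt g _ _ (hl ▸ hi))
      rw [e]
      exact degMap_pos_of_isSepDom (sumMap L l) δ hδ

end Fermat.Agent.S26.helper3162
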