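import Fermat.Agent.S26.helper4841_Comp
import Fermat.Agent.S26.helper3162_D5Spec

/-!
# S26, track D5, leaf (H2) (helper15): the degree of `n • h` is `d(n)` times the degree of `h`

* `wsum_natCast_mul`, `wsum_natCast_mul_val`: for a commutative group law, the weighted sum with
  weights `n * a i` is `wsum a ≫ [n]`, for ALL weight vectors `a`.
* `isField_stalk_of_isAlgebraic`, `eq_genericPoint_of_isField_stalk`,
  `isDom_of_isDom_comp`: dominance reflection. If `ψ : Y ⟶ X` is dominant with `K(Y)` algebraic
  over `ψ^* K(X)` and `φ ≫ ψ` is dominant, then `φ` is dominant.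
* `finrank_funFieldHom_comp`: the tower law for function-field degrees of dominant maps
  (no finiteness hypothesis).
* `degMap_comp`, `degMap_comp_of_isSepDom`: `degMap (φ ≫ ψ) = degMap ψ * degMap φ` for `ψ`
  dominant algebraic and EVERY `φ` (dominant or not), for the D5 degree `helper3162.degMap`.
* `stmt_D5_H2 : Stmt_NsmulDeg → helper3162.Stmt_D5_H2`.
-/

set_option autoImplicit false

universe u

noncomputable section

open CategoryTheory CategoryTheory.Limits AlgebraicGeometry NeronModelInfra GoodReductionJacobian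

namespace Fermat.Agent.S26.helper15

open Fermat.Agent.S26.helper154

/-! ### Weighted sums with weights `n * a i` -/

section Wsum

variable {K : Type u} [Field K] {A : Scheme.{u}} {f : A ⟶ Spec (CommRingCat.of K)}

/-- `x ^ (n * m) = [n] (x ^ m)` in the point group. -/
theorem zpowPt_natCast_mul (L : RelativeGroupLaw K f) {T : Scheme.{u}}
    (t : T ⟶ Spec (CommRingCat.of K)) (n : ℕ) (m : ℤ) (x : SchemeHomOver t f) :
    zpowPt L t ((n : ℤ) * m) x = L.nsmul t n (zpowPt L t m x) := by
  rw [helper2966.nsmul_eq_pow L t n]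
  let _ := L.pointGroup t
  show x ^ ((n : ℤ) * m) = (x ^ m) ^ n
  rw [mul_comm, zpow_mul, zpow_natCast]

/-- The weighted sum with weights `n * a i` is `n` times the weighted sum with weights `a i`,
as points (commutative group law, all weight vectors). -/
theorem wsum_natCast_mul (L : RelativeGroupLaw K f) (hc : L.IsCommutative)
    (l : List (PCurve K f L)) (n : ℕ) (a : ℕ → ℤ) :
    wsum L l (fun i => (n : ℤ) * a i) = L.nsmul (prodX l).2 n (wsum L l a) := by
  induction l generalizing a with
  | nil =>
    show L.one (𝟙 _) = L.nsmul _ n (L.one (𝟙 _))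
    exact (L.nsmul_unit _ n).symm
  | cons P l ih =>
    rw [helper4841.wsum_cons, helper4841.wsum_cons, ih (fun i => a (i + 1)), zpowPt_natCast_mul,
      helper2966.nsmul_mul L hc]
    exact congrArg (L.mul _ _) (L.nsmul_natural (prodX l).2 (prodX (P :: l)).2
      (pullback.snd P.c (prodX l).2) (helper4841.prodX_cons_str P l) n _)

/-- The weighted sum with weights `n * a i` is `wsum a ≫ [n]`, as morphisms. -/
theorem wsum_natCast_mul_val (L : RelativeGroupLaw K f) (hc : L.IsCommutative)
    (l : List (PCurve K f L)) (n : ℕ) (a : ℕ → ℤ) :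
    (wsum L l (fun i => (n : ℤ) * a i)).1 = (wsum L l a).1 ≫ L.schemeNsmul n := by
  rw [wsum_natCast_mul L hc l n a, helper2966.nsmul_val]

end Wsum

/-! ### Dominance reflection -/

section Reflect

variable {Z Y X : Scheme.{u}} [IsIntegral Z] [IsIntegral Y] [IsIntegral X]

/-- A point of an integral scheme whose local ring is a field is the generic point. -/
theorem eq_genericPoint_of_isField_stalk (p : Y) (hF : IsField (Y.presheaf.stalk p)) :
    p = genericPoint Y := by
  have hr := Scheme.range_fromSpecStalk (X := Y) (x := p)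
  have h1 : genericPoint Y ∈ Set.range (Y.fromSpecStalk p) := by
    rw [hr]
    exact (genericPoint_spec Y).specializes (Set.mem_univ p)
  have h2 : p ∈ Set.range (Y.fromSpecStalk p) := by
    rw [hr]
    exact specializes_rfl
  obtain ⟨q, hq⟩ := h1
  obtain ⟨q', hq'⟩ := h2
  have hbot : ∀ r : Spec (Y.presheaf.stalk p), r.asIdeal = ⊥ := by
    intro r
    rw [eq_bot_iff]
    intro x hx
    by_contra hx0
    obtain ⟨y, hy⟩ := hF.mul_inv_cancel (show x ≠ 0 from hx0)
    exact r.isPrime.ne_top ((Ideal.eq_top_iff_one _).mpr (hy ▸ r.asIdeal.mul_mem_right y hx))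
  have hqq : q = q' := PrimeSpectrum.ext ((hbot q).trans (hbot q').symm)
  rw [← hq', ← hq, hqq]

/-- The structure map `K(X) ⟶ O_{Y,p}` at a point `p` of `Y` lying over the generic point. -/
def stalkHomOfMapGeneric (ψ : Y ⟶ X) (p : Y) (hp : ψ.base p = genericPoint X) :
    X.functionField →+* Y.presheaf.stalk p :=
  (ψ.stalkMap p).hom.comp (X.presheaf.stalkSpecializes (specializes_of_eq hp)).hom

/-- Compatibility of `stalkHomOfMapGeneric` with the function field map. -/
theorem algebraMap_stalkHomOfMapGeneric (ψ : Y ⟶ X) (hψ : IsDom ψ) (p : Y)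
    (hp : ψ.base p = genericPoint X) (a : X.functionField) :
    algebraMap (Y.presheaf.stalk p) Y.functionField (stalkHomOfMapGeneric ψ p hp a) =
      funFieldHom ψ hψ a := by
  have hsp : genericPoint Y ⤳ p := (genericPoint_spec Y).specializes (Set.mem_univ p)
  have key : X.presheaf.stalkSpecializes (specializes_of_eq hp) ≫ ψ.stalkMap p ≫
      Y.presheaf.stalkSpecializes hsp =
      X.presheaf.stalkSpecializes (specializes_of_eq hψ) ≫ ψ.stalkMap (genericPoint Y) := by
    rw [← Scheme.Hom.stalkSpecializes_stalkMap ψ _ _ hsp,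
      TopCat.Presheaf.stalkSpecializes_comp_assoc]
  exact congrArg (fun k => k.hom a) key

/-- If `ψ : Y ⟶ X` is dominant, `K(Y)` is algebraic over `ψ^* K(X)` and `ψ p` is the generic
point of `X`, then the local ring of `Y` at `p` is a field. -/
theorem isField_stalk_of_isAlgebraic (ψ : Y ⟶ X) (hψ : IsDom ψ)
    (halg : ∀ z : Y.functionField, (funFieldHom ψ hψ).IsIntegralElem z) (p : Y)
    (hp : ψ.base p = genericPoint X) : IsField (Y.presheaf.stalk p) := by
  let _ : Algebra X.functionField (Y.presheaf.stalk p) := (stalkHomOfMapGeneric ψ p hp).toAlgebra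
  have hinj : Function.Injective (algebraMap (Y.presheaf.stalk p) Y.functionField) :=
    IsFractionRing.injective _ _
  have hint : Algebra.IsIntegral X.functionField (Y.presheaf.stalk p) := by
    refine ⟨fun s => ?_⟩
    obtain ⟨P, hP, hP0⟩ := halg (algebraMap (Y.presheaf.stalk p) Y.functionField s)
    refine ⟨P, hP, hinj ?_⟩
    rw [map_zero, Polynomial.hom_eval₂]
    have e : (algebraMap (Y.presheaf.stalk p) Y.functionField).comp
        (algebraMap X.functionField (Y.presheaf.stalk p)) = funFieldHom ψ hψ :=
      RingHom.ext (algebraMap_stalkHomOfMapGeneric ψ hψ p hp)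
    rw [e]
    exact hP0
  exact isField_of_isIntegral_of_isField' (Field.toIsField X.functionField)

/-- **Dominance reflection.** If `ψ : Y ⟶ X` is dominant with `K(Y)` algebraic over `ψ^* K(X)`
and `φ ≫ ψ` is dominant, then `φ` is dominant. -/
theorem isDom_of_isDom_comp (φ : Z ⟶ Y) (ψ : Y ⟶ X) (hψ : IsDom ψ)
    (halg : ∀ z : Y.functionField, (funFieldHom ψ hψ).IsIntegralElem z)
    (h : IsDom (φ ≫ ψ)) : IsDom φ := by
  have hp : ψ.base (φ.base (genericPoint Z)) = genericPoint X := by
    have := h
    unfold IsDom at this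
    rwa [Scheme.Hom.comp_apply] at this
  exact eq_genericPoint_of_isField_stalk _ (isField_stalk_of_isAlgebraic ψ hψ halg _ hp)

/-- A finite-dimensional extension is algebraic, in `IsIntegralElem` form. -/
theorem isIntegralElem_of_isSepDom {ψ : Y ⟶ X} {δ : ℕ} (hψ : IsSepDom ψ δ) :
    ∀ z : Y.functionField, (funFieldHom ψ hψ.1).IsIntegralElem z := by
  obtain ⟨h1, -, hfin, -⟩ := hψ
  intro z
  let _ : Algebra X.functionField Y.functionField := (funFieldHom ψ h1).toAlgebra
  exact (Algebra.IsIntegral.of_finite X.functionField Y.functionField).isIntegral z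

/-- The tower law for the function-field degrees of dominant maps (no finiteness needed). -/
theorem finrank_funFieldHom_comp {φ : Z ⟶ Y} {ψ : Y ⟶ X} (hφ : IsDom φ) (hψ : IsDom ψ) :
    (letI := (funFieldHom (φ ≫ ψ) (helper4841.isDom_comp hφ hψ)).toAlgebra;
      Module.finrank X.functionField Z.functionField) =
    (letI := (funFieldHom ψ hψ).toAlgebra;
      Module.finrank X.functionField Y.functionField) *
    (letI := (funFieldHom φ hφ).toAlgebra;
      Module.finrank Y.functionField Z.functionField) := by
  let a1 : Algebra Y.functionField Z.functionField := (funFieldHom φ hφ).toAlgebra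
  let a2 : Algebra X.functionField Y.functionField := (funFieldHom ψ hψ).toAlgebra
  let a3 : Algebra X.functionField Z.functionField :=
    (funFieldHom (φ ≫ ψ) (helper4841.isDom_comp hφ hψ)).toAlgebra
  have : IsScalarTower X.functionField Y.functionField Z.functionField :=
    IsScalarTower.of_algebraMap_eq' (helper4841.funFieldHom_comp hφ hψ)
  exact (Module.finrank_mul_finrank X.functionField Y.functionField Z.functionField).symm

end Reflect

/-! ### Multiplicativity of the D5 degree -/

section Deg

variable {Z Y X : Scheme.{u}} [IsIntegral Z] [IsIntegral Y] [IsIntegral X]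

open helper3162 in
/-- Degrees multiply along a dominant algebraic map `ψ`, for every `φ` (if `φ` is not dominant
both sides vanish, by dominance reflection). -/
theorem degMap_comp (φ : Z ⟶ Y) (ψ : Y ⟶ X) (hψ : IsDom ψ)
    (halg : ∀ z : Y.functionField, (funFieldHom ψ hψ).IsIntegralElem z) :
    degMap (φ ≫ ψ) = degMap ψ * degMap φ := by
  by_cases hφ : IsDom φ
  · rw [degMap_of_isDom _ (helper4841.isDom_comp hφ hψ), degMap_of_isDom _ hψ,
      degMap_of_isDom _ hφ]
    exact finrank_funFieldHom_comp hφ hψ
  · rw [degMap_of_not_isDom _ hφ, mul_zero]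
    exact degMap_of_not_isDom _ (fun h => hφ (isDom_of_isDom_comp φ ψ hψ halg h))

open helper3162 in
/-- `degMap (φ ≫ ψ) = δ * degMap φ` for `ψ` separable dominant of degree `δ` and every `φ`. -/
theorem degMap_comp_of_isSepDom (φ : Z ⟶ Y) {ψ : Y ⟶ X} {δ : ℕ} (hψ : IsSepDom ψ δ) :
    degMap (φ ≫ ψ) = δ * degMap φ := by
  rw [degMap_comp φ ψ hψ.1 (isIntegralElem_of_isSepDom hψ), degMap_eq_of_isSepDom ψ δ hψ]

end Deg

/-! ### (H2) -/

/-- **D5-H2.** Multiplying all weights by `n` multiplies the degree of the weighted sum map by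
the number of `n`-torsion points. -/
theorem stmt_D5_H2 (h : Stmt_NsmulDeg.{u}) : helper3162.Stmt_D5_H2.{u} := by
  intro K _ A f L g _ hAb _ l _ _ n hn a
  rw [helper3162.degMap_congr (wsum_natCast_mul_val L hAb.comm l n a)]
  exact degMap_comp_of_isSepDom _ (h K f L g hAb n hn)

end Fermat.Agent.S26.helper15
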