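import Fermat.Agent.S26.helper154_Spec

/-!
# S26-M5-GEO, geometric core (helper160, backup copy): the cube identity on `X`

Setting: `f : A ⟶ Spec K` with a relative group law `L`, a Cartier divisor `D` on `A` whose germ
at the origin is trivial; a pointed `K`-scheme `x : X ⟶ Spec K`, a pointed curve-like scheme
`c : C ⟶ Spec K`, pointed maps `π : X ⟶ C`, `a : C ⟶ A`, `v w : X ⟶ A`, `u := π ≫ a`.

Main result `cubeRel_mem_range_principal`: the alternating product of the pull-backs of `D` along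
the seven partial sums of `u, v, w` is a principal divisor on `X` (`π` need not be pointed).

Inputs (explicit hypotheses):
* `PullAPI` : the part of the `PullsTo` calculus (M2-PULL) consumed here;
* `hex`     : pointed maps pull `D` back (M2-PULL existence + triviality of `D` at the origin);
* `hcube`   : CUBE-C in divisor form (M4-DIV) on `C × (X × X)`.
-/

set_option autoImplicit false

universe u

noncomputable section

open CategoryTheory CategoryTheory.Limits AlgebraicGeometry AlgebraicGeometry.RelPicard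
  NeronModelInfra GoodReductionJacobian

namespace Fermat.Agent.S26.helper160

open Fermat.Agent.S26.helper154

/-- The part of the `PullsTo` calculus (leaf M2-PULL) that the cube computation consumes. -/
structure PullAPI : Prop where
  uniq : ∀ {X Y : Scheme.{u}} [IsIntegral X] [IsIntegral Y] (φ : Y ⟶ X) (D : CDiv X)
    (E E' : CDiv Y), CDiv.PullsTo φ D E → CDiv.PullsTo φ D E' → E = E'
  cancel : ∀ {X Y Z : Scheme.{u}} [IsIntegral X] [IsIntegral Y] [IsIntegral Z] (m : Y ⟶ X)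
    (σ : Z ⟶ Y) (D : CDiv X) (E : CDiv Y) (F : CDiv Z),
    CDiv.PullsTo m D E → CDiv.PullsTo (σ ≫ m) D F → CDiv.PullsTo σ E F
  mul : ∀ {X Y : Scheme.{u}} [IsIntegral X] [IsIntegral Y] (φ : Y ⟶ X) (D D' : CDiv X)
    (E E' : CDiv Y), CDiv.PullsTo φ D E → CDiv.PullsTo φ D' E' →
    CDiv.PullsTo φ (D * D') (E * E')
  inv : ∀ {X Y : Scheme.{u}} [IsIntegral X] [IsIntegral Y] (φ : Y ⟶ X) (D : CDiv X)
    (E : CDiv Y), CDiv.PullsTo φ D E → CDiv.PullsTo φ D⁻¹ E⁻¹
  prin : ∀ {X Y : Scheme.{u}} [IsIntegral X] [IsIntegral Y] (φ : Y ⟶ X)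
    (g : (X.functionField)ˣ) (E : CDiv Y), CDiv.PullsTo φ (CDiv.principal g) E →
    E ∈ (CDiv.principal : (Y.functionField)ˣ →* CDiv Y).range

section CommGroupAux

variable {G : Type*} [CommGroup G]

theorem cube_cancel_left (a b c : G) : a * b⁻¹ * c⁻¹ * a⁻¹ * 1 * b * c = 1 := by
  have h : a * b⁻¹ * c⁻¹ * a⁻¹ * 1 * b * c = (a * a⁻¹) * (b⁻¹ * b) * (c⁻¹ * c) * 1 := by ac_rfl
  rw [h]
  simp

theorem cube_cancel_mid (a b c : G) : a * b⁻¹ * a⁻¹ * c⁻¹ * b * 1 * c = 1 := by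
  have h : a * b⁻¹ * a⁻¹ * c⁻¹ * b * 1 * c = (a * a⁻¹) * (b⁻¹ * b) * (c⁻¹ * c) * 1 := by ac_rfl
  rw [h]
  simp

theorem cube_cancel_right (a b c : G) : a * a⁻¹ * b⁻¹ * c⁻¹ * b * c * 1 = 1 := by
  have h : a * a⁻¹ * b⁻¹ * c⁻¹ * b * c * 1 = (a * a⁻¹) * (b⁻¹ * b) * (c⁻¹ * c) * 1 := by ac_rfl
  rw [h]
  simp

end CommGroupAux

section GroupLaw

variable {K : Type u} [Field K] {A : Scheme.{u}} {f : A ⟶ Spec (CommRingCat.of K)}
  (L : RelativeGroupLaw K f)

theorem comp_mul_val {T T' : Scheme.{u}} {t : T ⟶ Spec (CommRingCat.of K)}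
    {t' : T' ⟶ Spec (CommRingCat.of K)} (σ : T' ⟶ T) (hσ : σ ≫ t = t')
    (p q : SchemeHomOver t f) :
    (L.mul t' (schemeHomOverComp σ hσ p) (schemeHomOverComp σ hσ q)).1 = σ ≫ (L.mul t p q).1 := by
  rw [← L.mul_natural t t' σ hσ p q]
  rfl

theorem comp_one_val {T T' : Scheme.{u}} (t : T ⟶ Spec (CommRingCat.of K))
    {t' : T' ⟶ Spec (CommRingCat.of K)} (σ : T' ⟶ T) (hσ : σ ≫ t = t') :
    (L.one t').1 = σ ≫ (L.one t).1 := by
  rw [← L.one_natural t t' σ hσ]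
  rfl

/-- `h` maps the base point `t₀` to the origin. -/
def IsPt {T : Scheme.{u}} {t : T ⟶ Spec (CommRingCat.of K)}
    (t₀ : SchemeHomOver (𝟙 (Spec (CommRingCat.of K))) t) (h : SchemeHomOver t f) : Prop :=
  schemeHomOverComp t₀.1 t₀.2 h = L.one (𝟙 (Spec (CommRingCat.of K)))

theorem IsPt.mul {T : Scheme.{u}} {t : T ⟶ Spec (CommRingCat.of K)}
    {t₀ : SchemeHomOver (𝟙 (Spec (CommRingCat.of K))) t} {p q : SchemeHomOver t f}
    (hp : IsPt L t₀ p) (hq : IsPt L t₀ q) : IsPt L t₀ (L.mul t p q) := by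
  unfold IsPt at *
  rw [L.mul_natural t (𝟙 _) t₀.1 t₀.2 p q, hp, hq, L.one_mul]

theorem IsPt.one {T : Scheme.{u}} {t : T ⟶ Spec (CommRingCat.of K)}
    (t₀ : SchemeHomOver (𝟙 (Spec (CommRingCat.of K))) t) : IsPt L t₀ (L.one t) :=
  L.one_natural t (𝟙 _) t₀.1 t₀.2

theorem IsPt.comp {T T' : Scheme.{u}} {t : T ⟶ Spec (CommRingCat.of K)}
    {t' : T' ⟶ Spec (CommRingCat.of K)} {t₀ : SchemeHomOver (𝟙 (Spec (CommRingCat.of K))) t}
    {t₀' : SchemeHomOver (𝟙 (Spec (CommRingCat.of K))) t'} (σ : T' ⟶ T) (hσ : σ ≫ t = t')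
    (h₀ : t₀'.1 ≫ σ = t₀.1) {p : SchemeHomOver t f} (hp : IsPt L t₀ p) :
    IsPt L t₀' (schemeHomOverComp σ hσ p) := by
  unfold IsPt at *
  rw [← hp]
  apply Subtype.ext
  simp only [schemeHomOverComp_coe]
  rw [← Category.assoc, h₀]

end GroupLaw

section CubeRel

variable {K : Type u} [Field K] {A : Scheme.{u}} [IsIntegral A]
  {f : A ⟶ Spec (CommRingCat.of K)} (L : RelativeGroupLaw K f) (D : CDiv A)

/-- `E` is the alternating product of the pull-backs of `D` along the seven partial sums of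
`u, v, w` (the "cube defect" of `u, v, w`, as a divisor). -/
def CubeRel {T : Scheme.{u}} [IsIntegral T] (t : T ⟶ Spec (CommRingCat.of K))
    (u v w : SchemeHomOver t f) (E : CDiv T) : Prop :=
  ∃ E₁ E₂ E₃ E₄ E₅ E₆ E₇ : CDiv T,
    CDiv.PullsTo (L.mul t (L.mul t u v) w).1 D E₁ ∧ CDiv.PullsTo (L.mul t u v).1 D E₂ ∧
    CDiv.PullsTo (L.mul t u w).1 D E₃ ∧ CDiv.PullsTo (L.mul t v w).1 D E₄ ∧
    CDiv.PullsTo u.1 D E₅ ∧ CDiv.PullsTo v.1 D E₆ ∧ CDiv.PullsTo w.1 D E₇ ∧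
    E = E₁ * E₂⁻¹ * E₃⁻¹ * E₄⁻¹ * E₅ * E₆ * E₇

variable {L D}

/-- The cube defect is compatible with pull-back. -/
theorem CubeRel.pullsTo (hP : PullAPI.{u}) {T T' : Scheme.{u}} [IsIntegral T] [IsIntegral T']
    {t : T ⟶ Spec (CommRingCat.of K)} {t' : T' ⟶ Spec (CommRingCat.of K)} (σ : T' ⟶ T)
    (hσ : σ ≫ t = t') {u v w : SchemeHomOver t f} {E : CDiv T} {E' : CDiv T'}
    (hE : CubeRel L D t u v w E)
    (hE' : CubeRel L D t' (schemeHomOverComp σ hσ u) (schemeHomOverComp σ hσ v)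
      (schemeHomOverComp σ hσ w) E') : CDiv.PullsTo σ E E' := by
  obtain ⟨E₁, E₂, E₃, E₄, E₅, E₆, E₇, h₁, h₂, h₃, h₄, h₅, h₆, h₇, rfl⟩ := hE
  obtain ⟨F₁, F₂, F₃, F₄, F₅, F₆, F₇, k₁, k₂, k₃, k₄, k₅, k₆, k₇, rfl⟩ := hE'
  have e₂ : (L.mul t' (schemeHomOverComp σ hσ u) (schemeHomOverComp σ hσ v)) =
      schemeHomOverComp σ hσ (L.mul t u v) := (L.mul_natural t t' σ hσ u v).symm
  rw [e₂, comp_mul_val] at k₁
  rw [comp_mul_val] at k₂ k₃ k₄
  rw [schemeHomOverComp_coe] at k₅ k₆ k₇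
  have p₁ := hP.cancel _ σ D E₁ F₁ h₁ k₁
  have p₂ := hP.cancel _ σ D E₂ F₂ h₂ k₂
  have p₃ := hP.cancel _ σ D E₃ F₃ h₃ k₃
  have p₄ := hP.cancel _ σ D E₄ F₄ h₄ k₄
  have p₅ := hP.cancel _ σ D E₅ F₅ h₅ k₅
  have p₆ := hP.cancel _ σ D E₆ F₆ h₆ k₆
  have p₇ := hP.cancel _ σ D E₇ F₇ h₇ k₇
  exact hP.mul _ _ _ _ _ (hP.mul _ _ _ _ _ (hP.mul _ _ _ _ _ (hP.mul _ _ _ _ _
    (hP.mul _ _ _ _ _ (hP.mul _ _ _ _ _ p₁ (hP.inv _ _ _ p₂)) (hP.inv _ _ _ p₃))
    (hP.inv _ _ _ p₄)) p₅) p₆) p₇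

/-- The origin pulls `D` back to the zero divisor, if the germ of `D` at the origin is trivial. -/
theorem pullsTo_one_of_germ (hD0 : ∀ s : Spec (CommRingCat.of K),
      D.1 ((L.one (𝟙 (Spec (CommRingCat.of K)))).1.base s) = 1)
    {T : Scheme.{u}} [IsIntegral T] (t : T ⟶ Spec (CommRingCat.of K)) :
    CDiv.PullsTo (L.one t).1 D 1 := by
  intro y
  refine ⟨1, ?_, ?_⟩
  · rw [comp_one_val L (𝟙 _) t (Category.comp_id t)]
    rw [map_one]
    exact hD0 (t.base y)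
  · rw [map_one]
    rfl

theorem CubeRel.eq_one_left (hP : PullAPI.{u}) (hD0 : ∀ s : Spec (CommRingCat.of K),
      D.1 ((L.one (𝟙 (Spec (CommRingCat.of K)))).1.base s) = 1)
    {T : Scheme.{u}} [IsIntegral T] {t : T ⟶ Spec (CommRingCat.of K)}
    {v w : SchemeHomOver t f} {E : CDiv T} (hE : CubeRel L D t (L.one t) v w E) : E = 1 := by
  obtain ⟨E₁, E₂, E₃, E₄, E₅, E₆, E₇, h₁, h₂, h₃, h₄, h₅, h₆, h₇, rfl⟩ := hE
  rw [L.one_mul] at h₁ h₂
  rw [L.one_mul] at h₃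
  have e₁ : E₁ = E₄ := hP.uniq _ D _ _ h₁ h₄
  have e₂ : E₂ = E₆ := hP.uniq _ D _ _ h₂ h₆
  have e₃ : E₃ = E₇ := hP.uniq _ D _ _ h₃ h₇
  have e₅ : E₅ = 1 := hP.uniq _ D _ _ h₅ (pullsTo_one_of_germ hD0 t)
  subst e₁ e₂ e₃ e₅
  exact cube_cancel_left E₁ E₂ E₃

theorem CubeRel.eq_one_mid (hP : PullAPI.{u}) (hD0 : ∀ s : Spec (CommRingCat.of K),
      D.1 ((L.one (𝟙 (Spec (CommRingCat.of K)))).1.base s) = 1)
    {T : Scheme.{u}} [IsIntegral T] {t : T ⟶ Spec (CommRingCat.of K)}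
    {u w : SchemeHomOver t f} {E : CDiv T} (hE : CubeRel L D t u (L.one t) w E) : E = 1 := by
  obtain ⟨E₁, E₂, E₃, E₄, E₅, E₆, E₇, h₁, h₂, h₃, h₄, h₅, h₆, h₇, rfl⟩ := hE
  rw [L.mul_one] at h₁ h₂
  rw [L.one_mul] at h₄
  have e₁ : E₁ = E₃ := hP.uniq _ D _ _ h₁ h₃
  have e₂ : E₂ = E₅ := hP.uniq _ D _ _ h₂ h₅
  have e₄ : E₄ = E₇ := hP.uniq _ D _ _ h₄ h₇
  have e₆ : E₆ = 1 := hP.uniq _ D _ _ h₆ (pullsTo_one_of_germ hD0 t)
  subst e₁ e₂ e₄ e₆
  exact cube_cancel_mid E₁ E₂ E₄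

theorem CubeRel.eq_one_right (hP : PullAPI.{u}) (hD0 : ∀ s : Spec (CommRingCat.of K),
      D.1 ((L.one (𝟙 (Spec (CommRingCat.of K)))).1.base s) = 1)
    {T : Scheme.{u}} [IsIntegral T] {t : T ⟶ Spec (CommRingCat.of K)}
    {u v : SchemeHomOver t f} {E : CDiv T} (hE : CubeRel L D t u v (L.one t) E) : E = 1 := by
  obtain ⟨E₁, E₂, E₃, E₄, E₅, E₆, E₇, h₁, h₂, h₃, h₄, h₅, h₆, h₇, rfl⟩ := hE
  rw [L.mul_one] at h₁ h₃ h₄
  have e₁ : E₁ = E₂ := hP.uniq _ D _ _ h₁ h₂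
  have e₃ : E₃ = E₅ := hP.uniq _ D _ _ h₃ h₅
  have e₄ : E₄ = E₆ := hP.uniq _ D _ _ h₄ h₆
  have e₇ : E₇ = 1 := hP.uniq _ D _ _ h₇ (pullsTo_one_of_germ hD0 t)
  subst e₁ e₃ e₄ e₇
  exact cube_cancel_right E₁ E₃ E₄

/-- Existence of the cube defect for pointed maps. -/
theorem CubeRel.exists_of_isPt
    (hex : ∀ {T : Scheme.{u}} [IsIntegral T] (t : T ⟶ Spec (CommRingCat.of K))
      (t₀ : SchemeHomOver (𝟙 (Spec (CommRingCat.of K))) t) (h : SchemeHomOver t f),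
      IsPt L t₀ h → ∃ E : CDiv T, CDiv.PullsTo h.1 D E)
    {T : Scheme.{u}} [IsIntegral T] {t : T ⟶ Spec (CommRingCat.of K)}
    (t₀ : SchemeHomOver (𝟙 (Spec (CommRingCat.of K))) t) {u v w : SchemeHomOver t f}
    (hu : IsPt L t₀ u) (hv : IsPt L t₀ v) (hw : IsPt L t₀ w) :
    ∃ E : CDiv T, CubeRel L D t u v w E := by
  obtain ⟨E₁, h₁⟩ := hex t t₀ _ ((hu.mul L hv).mul L hw)
  obtain ⟨E₂, h₂⟩ := hex t t₀ _ (hu.mul L hv)
  obtain ⟨E₃, h₃⟩ := hex t t₀ _ (hu.mul L hw)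
  obtain ⟨E₄, h₄⟩ := hex t t₀ _ (hv.mul L hw)
  obtain ⟨E₅, h₅⟩ := hex t t₀ _ hu
  obtain ⟨E₆, h₆⟩ := hex t t₀ _ hv
  obtain ⟨E₇, h₇⟩ := hex t t₀ _ hw
  exact ⟨_, E₁, E₂, E₃, E₄, E₅, E₆, E₇, h₁, h₂, h₃, h₄, h₅, h₆, h₇, rfl⟩

end CubeRel

section Main

variable {K : Type u} [Field K] {A : Scheme.{u}} [IsIntegral A]
  {f : A ⟶ Spec (CommRingCat.of K)} (L : RelativeGroupLaw K f) (D : CDiv A)

omit [IsIntegral A] in
theorem schemeHomOverComp_comp {T T' T'' : Scheme.{u}} {t : T ⟶ Spec (CommRingCat.of K)}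
    {t' : T' ⟶ Spec (CommRingCat.of K)} {t'' : T'' ⟶ Spec (CommRingCat.of K)}
    (σ : T'' ⟶ T') (hσ : σ ≫ t' = t'') (ψ : T' ⟶ T) (hψ : ψ ≫ t = t') (h : SchemeHomOver t f) :
    schemeHomOverComp σ hσ (schemeHomOverComp ψ hψ h) =
      schemeHomOverComp (σ ≫ ψ) (by rw [Category.assoc, hψ, hσ]) h :=
  Subtype.ext (Category.assoc _ _ _).symm

omit [IsIntegral A] in
theorem schemeHomOverComp_congr {T T' : Scheme.{u}} {t : T ⟶ Spec (CommRingCat.of K)}
    {t' : T' ⟶ Spec (CommRingCat.of K)} {ψ ψ' : T' ⟶ T} (e : ψ = ψ') (hψ : ψ ≫ t = t')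
    (hψ' : ψ' ≫ t = t') (h : SchemeHomOver t f) :
    schemeHomOverComp ψ hψ h = schemeHomOverComp ψ' hψ' h := by
  subst e; rfl

omit [IsIntegral A] in
variable {L} in
theorem comp_eq_one_of_isPt {T T' : Scheme.{u}} {t : T ⟶ Spec (CommRingCat.of K)}
    {t' : T' ⟶ Spec (CommRingCat.of K)} {t₀ : SchemeHomOver (𝟙 (Spec (CommRingCat.of K))) t}
    {h : SchemeHomOver t f} (hh : IsPt L t₀ h) (ψ : T' ⟶ T) (hψ : ψ ≫ t = t')
    (hfac : ψ = t' ≫ t₀.1) : schemeHomOverComp ψ hψ h = L.one t' := by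
  apply Subtype.ext
  rw [schemeHomOverComp_coe, hfac, comp_one_val L (𝟙 _) t' (Category.comp_id t'), Category.assoc]
  congr 1
  exact congrArg Subtype.val hh

variable {C X : Scheme.{u}} (c : C ⟶ Spec (CommRingCat.of K))
  (ε : SchemeHomOver (𝟙 (Spec (CommRingCat.of K))) c)
  (x : X ⟶ Spec (CommRingCat.of K)) (x₀ : SchemeHomOver (𝟙 (Spec (CommRingCat.of K))) x)

/-- The structure map of `X ×_K X`. -/
abbrev tXX : pullback x x ⟶ Spec (CommRingCat.of K) := pullback.fst x x ≫ x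

/-- The structure map of `C ×_K (X ×_K X)`. -/
abbrev wCXX : pullback c (tXX x) ⟶ Spec (CommRingCat.of K) := pullback.fst c (tXX x) ≫ c

variable {L D c ε x x₀}

/-- **The cube identity on `X`** (geometric core of M5-GEO). For pointed maps `π : X ⟶ C`,
`a : C ⟶ A`, `v w : X ⟶ A` and `u := π ≫ a`, the alternating product of the pull-backs of `D`
along the seven partial sums of `u, v, w` is principal on `X`. -/
theorem cubeRel_mem_range_principal [IsIntegral X] [IsIntegral (pullback x x)]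
    [IsIntegral (pullback c x)] [IsIntegral (pullback c (tXX x))]
    (hP : PullAPI.{u})
    (hD0 : ∀ s : Spec (CommRingCat.of K),
      D.1 ((L.one (𝟙 (Spec (CommRingCat.of K)))).1.base s) = 1)
    (hex : ∀ {T : Scheme.{u}} [IsIntegral T] (t : T ⟶ Spec (CommRingCat.of K))
      (t₀ : SchemeHomOver (𝟙 (Spec (CommRingCat.of K))) t) (h : SchemeHomOver t f),
      IsPt L t₀ h → ∃ E : CDiv T, CDiv.PullsTo h.1 D E)
    (iY iZ : SchemeHomOver x (tXX x))
    (hiY₁ : iY.1 ≫ pullback.fst x x = 𝟙 X) (hiY₂ : iY.1 ≫ pullback.snd x x = x ≫ x₀.1)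
    (hiZ₁ : iZ.1 ≫ pullback.fst x x = x ≫ x₀.1) (hiZ₂ : iZ.1 ≫ pullback.snd x x = 𝟙 X)
    (hcube : ∀ E : CDiv (pullback c (tXX x)),
      CDiv.PullsTo (rigSection c (tXX x) ε) E 1 → CDiv.PullsTo (baseChangeSnd c iY) E 1 →
      CDiv.PullsTo (baseChangeSnd c iZ) E 1 →
      E ∈ (CDiv.principal : _ →* CDiv (pullback c (tXX x))).range)
    (π : SchemeHomOver x c)
    (a : SchemeHomOver c f) (ha : IsPt L ε a)
    (v w : SchemeHomOver x f) (hv : IsPt L x₀ v) (hw : IsPt L x₀ w)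
    (E : CDiv X) (hE : CubeRel L D x (schemeHomOverComp π.1 π.2 a) v w E) :
    E ∈ (CDiv.principal : _ →* CDiv X).range := by
  -- the three coordinate maps on `W = C × (X × X)`
  have hC : pullback.fst c (tXX x) ≫ c = wCXX c x := rfl
  have hY : (pullback.snd c (tXX x) ≫ pullback.fst x x) ≫ x = wCXX c x := by
    rw [Category.assoc]; exact pullback.condition.symm
  have hZ : (pullback.snd c (tXX x) ≫ pullback.snd x x) ≫ x = wCXX c x := by
    rw [Category.assoc, ← pullback.condition (f := x) (g := x)]; exact pullback.condition.symm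
  set U : SchemeHomOver (wCXX c x) f := schemeHomOverComp (pullback.fst c (tXX x)) hC a with hUdef
  set V : SchemeHomOver (wCXX c x) f :=
    schemeHomOverComp (pullback.snd c (tXX x) ≫ pullback.fst x x) hY v with hVdef
  set W' : SchemeHomOver (wCXX c x) f :=
    schemeHomOverComp (pullback.snd c (tXX x) ≫ pullback.snd x x) hZ w with hWdef
  -- base points
  let t₀ : SchemeHomOver (𝟙 (Spec (CommRingCat.of K))) (tXX x) :=
    ⟨pullback.lift x₀.1 x₀.1 rfl, by rw [pullback.lift_fst_assoc]; exact x₀.2⟩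
  let w₀ : SchemeHomOver (𝟙 (Spec (CommRingCat.of K))) (wCXX c x) :=
    ⟨pullback.lift ε.1 t₀.1 (by rw [ε.2, t₀.2]), by rw [pullback.lift_fst_assoc]; exact ε.2⟩
  let p₀ : SchemeHomOver (𝟙 (Spec (CommRingCat.of K))) (pullback.fst c x ≫ c) :=
    ⟨pullback.lift ε.1 x₀.1 (by rw [ε.2, x₀.2]), by rw [pullback.lift_fst_assoc]; exact ε.2⟩
  have hU : IsPt L w₀ U := by
    unfold IsPt
    rw [hUdef, schemeHomOverComp_comp, ← ha]
    exact schemeHomOverComp_congr (pullback.lift_fst _ _ _) _ _ a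
  have hV : IsPt L w₀ V := by
    unfold IsPt
    rw [hVdef, schemeHomOverComp_comp, ← hv]
    refine schemeHomOverComp_congr ?_ _ _ v
    rw [pullback.lift_snd_assoc, pullback.lift_fst]
  have hW : IsPt L w₀ W' := by
    unfold IsPt
    rw [hWdef, schemeHomOverComp_comp, ← hw]
    refine schemeHomOverComp_congr ?_ _ _ w
    rw [pullback.lift_snd_assoc, pullback.lift_snd]
  obtain ⟨EW, hEW⟩ := CubeRel.exists_of_isPt (D := D) hex w₀ hU hV hW
  -- slice 0 : `ε × (X × X)`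
  have h0 : CDiv.PullsTo (rigSection c (tXX x) ε) EW 1 := by
    have hσ : rigSection c (tXX x) ε ≫ wCXX c x = tXX x := by
      unfold rigSection
      rw [pullback.lift_fst_assoc, Category.assoc, ε.2, Category.comp_id]
    have hb : t₀.1 ≫ rigSection c (tXX x) ε = w₀.1 := by
      apply pullback.hom_ext
      · unfold rigSection
        rw [Category.assoc, pullback.lift_fst, pullback.lift_fst, ← Category.assoc, t₀.2,
          Category.id_comp]
      · unfold rigSection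
        rw [Category.assoc, pullback.lift_snd, pullback.lift_snd, Category.comp_id]
    have hU' : schemeHomOverComp _ hσ U = L.one (tXX x) := by
      rw [hUdef, schemeHomOverComp_comp]
      refine comp_eq_one_of_isPt ha _ _ ?_
      unfold rigSection
      rw [pullback.lift_fst]
    obtain ⟨E₀, hE₀⟩ := CubeRel.exists_of_isPt (D := D) hex t₀ (hU.comp L _ hσ hb)
      (hV.comp L _ hσ hb) (hW.comp L _ hσ hb)
    have h1 : E₀ = 1 := by
      rw [hU'] at hE₀
      exact hE₀.eq_one_left hP hD0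
    rw [← h1]
    exact hEW.pullsTo hP _ hσ hE₀
  -- slice Y : `C × (X × x₀)`
  have hY' : CDiv.PullsTo (baseChangeSnd c iY) EW 1 := by
    have hσ : baseChangeSnd c iY ≫ wCXX c x = pullback.fst c x ≫ c := by
      unfold baseChangeSnd pullback.map
      rw [pullback.lift_fst_assoc, Category.comp_id]
    have hb : p₀.1 ≫ baseChangeSnd c iY = w₀.1 := by
      apply pullback.hom_ext
      · unfold baseChangeSnd pullback.map
        rw [Category.assoc, pullback.lift_fst, pullback.lift_fst, Category.comp_id,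
          pullback.lift_fst]
      · unfold baseChangeSnd pullback.map
        rw [Category.assoc, pullback.lift_snd, pullback.lift_snd, pullback.lift_snd_assoc]
        apply pullback.hom_ext
        · rw [Category.assoc, hiY₁, Category.comp_id, pullback.lift_fst]
        · rw [Category.assoc, hiY₂, ← Category.assoc, x₀.2, Category.id_comp, pullback.lift_snd]
    have hW'' : schemeHomOverComp _ hσ W' = L.one (pullback.fst c x ≫ c) := by
      rw [hWdef, schemeHomOverComp_comp]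
      refine comp_eq_one_of_isPt hw _ _ ?_
      unfold baseChangeSnd pullback.map
      rw [pullback.lift_snd_assoc, Category.assoc, hiY₂, ← Category.assoc, pullback.condition]
    obtain ⟨E₀, hE₀⟩ := CubeRel.exists_of_isPt (D := D) hex p₀ (hU.comp L _ hσ hb)
      (hV.comp L _ hσ hb) (hW.comp L _ hσ hb)
    have h1 : E₀ = 1 := by
      rw [hW''] at hE₀
      exact hE₀.eq_one_right hP hD0
    rw [← h1]
    exact hEW.pullsTo hP _ hσ hE₀
  -- slice Z : `C × (x₀ × X)`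
  have hZ' : CDiv.PullsTo (baseChangeSnd c iZ) EW 1 := by
    have hσ : baseChangeSnd c iZ ≫ wCXX c x = pullback.fst c x ≫ c := by
      unfold baseChangeSnd pullback.map
      rw [pullback.lift_fst_assoc, Category.comp_id]
    have hb : p₀.1 ≫ baseChangeSnd c iZ = w₀.1 := by
      apply pullback.hom_ext
      · unfold baseChangeSnd pullback.map
        rw [Category.assoc, pullback.lift_fst, pullback.lift_fst, Category.comp_id,
          pullback.lift_fst]
      · unfold baseChangeSnd pullback.map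
        rw [Category.assoc, pullback.lift_snd, pullback.lift_snd, pullback.lift_snd_assoc]
        apply pullback.hom_ext
        · rw [Category.assoc, hiZ₁, ← Category.assoc, x₀.2, Category.id_comp, pullback.lift_fst]
        · rw [Category.assoc, hiZ₂, Category.comp_id, pullback.lift_snd]
    have hV'' : schemeHomOverComp _ hσ V = L.one (pullback.fst c x ≫ c) := by
      rw [hVdef, schemeHomOverComp_comp]
      refine comp_eq_one_of_isPt hv _ _ ?_
      unfold baseChangeSnd pullback.map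
      rw [pullback.lift_snd_assoc, Category.assoc, hiZ₁, ← Category.assoc, pullback.condition]
    obtain ⟨E₀, hE₀⟩ := CubeRel.exists_of_isPt (D := D) hex p₀ (hU.comp L _ hσ hb)
      (hV.comp L _ hσ hb) (hW.comp L _ hσ hb)
    have h1 : E₀ = 1 := by
      rw [hV''] at hE₀
      exact hE₀.eq_one_mid hP hD0
    rw [← h1]
    exact hEW.pullsTo hP _ hσ hE₀
  -- CUBE-C
  obtain ⟨g, hg⟩ := hcube EW h0 hY' hZ'
  -- pull back along `(π, (𝟙, 𝟙)) : X ⟶ C × (X × X)`
  let Δ : X ⟶ pullback c (tXX x) := pullback.lift π.1 (pullback.lift (𝟙 X) (𝟙 X) rfl)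
    (by rw [π.2, pullback.lift_fst_assoc, Category.id_comp])
  have hΔ : Δ ≫ wCXX c x = x := by
    show pullback.lift _ _ _ ≫ pullback.fst c (tXX x) ≫ c = x
    rw [pullback.lift_fst_assoc, π.2]
  have eU : schemeHomOverComp Δ hΔ U = schemeHomOverComp π.1 π.2 a := by
    rw [hUdef, schemeHomOverComp_comp]
    exact schemeHomOverComp_congr (pullback.lift_fst _ _ _) _ _ a
  have eV : schemeHomOverComp Δ hΔ V = v := by
    apply Subtype.ext
    rw [hVdef, schemeHomOverComp_comp, schemeHomOverComp_coe]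
    show (pullback.lift _ _ _ ≫ pullback.snd c (tXX x) ≫ pullback.fst x x) ≫ v.1 = v.1
    rw [pullback.lift_snd_assoc, pullback.lift_fst, Category.id_comp]
  have eW : schemeHomOverComp Δ hΔ W' = w := by
    apply Subtype.ext
    rw [hWdef, schemeHomOverComp_comp, schemeHomOverComp_coe]
    show (pullback.lift _ _ _ ≫ pullback.snd c (tXX x) ≫ pullback.snd x x) ≫ w.1 = w.1
    rw [pullback.lift_snd_assoc, pullback.lift_snd, Category.id_comp]
  rw [← eU, ← eV, ← eW] at hE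
  have hpull : CDiv.PullsTo Δ EW E := hEW.pullsTo hP Δ hΔ hE
  rw [← hg] at hpull
  exact hP.prin Δ g E hpull

end Main

end Fermat.Agent.S26.helper160
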