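import Mathlib

/-!
# S26-M6c-COMPACT, the dimension end (helper1879)

Mathlib-only algebra:

* `isAlgebraic_quotient_of_trdeg_le_one` : in a `K`-domain of transcendence degree `≤ 1`, the
  quotient by a nonzero prime is algebraic over `K`.
* `krullDimLE_one_of_trdeg_le_one` : a `K`-domain of transcendence degree `≤ 1` has Krull
  dimension `≤ 1`.
* `trdeg_eq_of_isStandardSmoothOfRelativeDimension` : a domain which is standard smooth of
  relative dimension `n` over a field `K` has transcendence degree `n` over `K`.
* `isIntegrallyClosed_of_etale` : an étale domain over an integrally closed domain is integrally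
  closed; `isIntegrallyClosed_of_isStandardSmoothOfRelativeDimension` : a domain which is
  standard smooth over a field is integrally closed.
-/

set_option autoImplicit false

universe u v

namespace Fermat.Agent.S26.helper1879

open Polynomial Cardinal

/-- In a domain `B` over a field `K` with `trdeg K B ≤ 1`, the quotient by a nonzero prime ideal is
algebraic over `K`. -/
theorem isAlgebraic_quotient_of_trdeg_le_one {K : Type u} {B : Type v} [Field K] [CommRing B]
    [IsDomain B] [Algebra K B] (h : Algebra.trdeg K B ≤ 1) (p : Ideal B) [p.IsPrime]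
    (hp : p ≠ ⊥) : Algebra.IsAlgebraic K (B ⧸ p) := by
  by_contra hna
  rw [← Algebra.transcendental_iff_not_isAlgebraic] at hna
  obtain ⟨xb, hxb⟩ := hna.transcendental
  obtain ⟨x, rfl⟩ := Ideal.Quotient.mk_surjective xb
  -- `x` is transcendental in `B`
  have hx : Transcendental K x := by
    intro hx
    exact hxb (hx.algHom (Ideal.Quotient.mkₐ K p))
  have hinj : Function.Injective (aeval (R := K) x) := transcendental_iff_injective.mp hx
  letI : Algebra K[X] B := (aeval (R := K) x).toRingHom.toAlgebra
  have hmap : ∀ r : K[X], algebraMap K[X] B r = aeval x r := fun _ => rfl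
  haveI : IsScalarTower K K[X] B := IsScalarTower.of_algebraMap_eq' (by
    ext c
    simp [hmap, Polynomial.algebraMap_eq])
  haveI : FaithfulSMul K[X] B := (faithfulSMul_iff_algebraMap_injective _ _).mpr hinj
  have hadd := lift_trdeg_add_eq K K[X] B
  rw [Polynomial.trdeg_of_isDomain] at hadd
  have hzero : Algebra.trdeg K[X] B = 0 := by
    by_contra hne
    have h1 : (1 : Cardinal.{v}) ≤ Algebra.trdeg K[X] B := Cardinal.one_le_iff_ne_zero.mpr hne
    have h2 : lift.{u} (Algebra.trdeg K B) ≤ 1 := by
      simpa using Cardinal.lift_le.{u}.mpr h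
    have h1' : (1 : Cardinal.{max u v}) ≤ lift.{u} (Algebra.trdeg K[X] B) := by
      simpa using Cardinal.lift_le.{u}.mpr h1
    have h3 : (1 : Cardinal.{max u v}) + 1 ≤ 1 := by
      calc (1 : Cardinal.{max u v}) + 1
          ≤ lift.{v} (1 : Cardinal.{u}) + lift.{u} (Algebra.trdeg K[X] B) := by
            rw [Cardinal.lift_one]
            exact add_le_add_right h1' 1
        _ = lift.{u} (Algebra.trdeg K B) := hadd
        _ ≤ 1 := h2
    have h4 : (1 : Cardinal.{max u v}) < 1 + 1 := by
      rw [one_add_one_eq_two]
      exact Cardinal.one_lt_two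
    exact absurd h3 (not_le.mpr h4)
  have : Algebra.IsAlgebraic K[X] B := trdeg_eq_zero_iff.mp hzero
  obtain ⟨y, hyp, hy0⟩ := Submodule.exists_mem_ne_zero_of_ne_bot hp
  obtain ⟨r, hr0, hdvd⟩ := (Algebra.IsAlgebraic.isAlgebraic (R := K[X]) y).exists_nonzero_dvd
    (mem_nonZeroDivisors_of_ne_zero hy0)
  have hmem : aeval x r ∈ p := by
    rw [← hmap]
    exact Ideal.mem_of_dvd p hdvd hyp
  refine hxb ⟨r, hr0, ?_⟩
  have := Polynomial.aeval_algHom_apply (Ideal.Quotient.mkₐ K p) x r
  rw [Ideal.Quotient.mkₐ_eq_mk] at this
  rw [this]
  exact Ideal.Quotient.eq_zero_iff_mem.mpr hmem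

/-- A domain over a field `K` of transcendence degree `≤ 1` has Krull dimension `≤ 1`: every
nonzero prime ideal is maximal. -/
theorem krullDimLE_one_of_trdeg_le_one {K : Type u} {B : Type v} [Field K] [CommRing B]
    [IsDomain B] [Algebra K B] (h : Algebra.trdeg K B ≤ 1) : Ring.KrullDimLE 1 B := by
  refine Ring.KrullDimLE.mk₁' (fun I hI hIp => ?_)
  have := hIp
  have := isAlgebraic_quotient_of_trdeg_le_one h I hI
  have : Algebra.IsIntegral K (B ⧸ I) := Algebra.IsAlgebraic.isIntegral
  exact Ideal.Quotient.maximal_of_isField I
    (isField_of_isIntegral_of_isField' (R := K) (S := B ⧸ I) (Field.toIsField K))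

/-- A quasi-finite injective extension of domains is algebraic. -/
theorem isAlgebraic_of_quasiFinite {P : Type u} {S : Type v} [CommRing P] [IsDomain P]
    [CommRing S] [IsDomain S] [Algebra P S] [FaithfulSMul P S] [Algebra.QuasiFinite P S] :
    Algebra.IsAlgebraic P S := by
  letI : Algebra (FractionRing P) (FractionRing S) := FractionRing.liftAlgebra P (FractionRing S)
  have : Algebra.QuasiFinite P (FractionRing S) :=
    Algebra.QuasiFinite.of_isLocalization (R := P) (S := S) (nonZeroDivisors S)
  have : Algebra.QuasiFinite (FractionRing P) (FractionRing S) :=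
    Algebra.QuasiFinite.of_restrictScalars P (FractionRing P) (FractionRing S)
  have : Module.Finite (FractionRing P) (FractionRing S) := Module.Finite.of_quasiFinite
  have : Algebra.IsAlgebraic (FractionRing P) (FractionRing S) := Algebra.IsAlgebraic.of_finite _ _
  have hL : Algebra.IsAlgebraic P (FractionRing S) :=
    (IsFractionRing.comap_isAlgebraic_iff (K := FractionRing P)).mpr this
  refine ⟨fun s => ?_⟩
  have h1 := hL.isAlgebraic (algebraMap S (FractionRing S) s)
  exact (isAlgebraic_algebraMap_iff (IsFractionRing.injective S (FractionRing S))).mp h1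

/-- A nontrivial flat algebra over a domain is faithful. -/
theorem faithfulSMul_of_flat {P : Type u} {S : Type v} [CommRing P] [IsDomain P]
    [CommRing S] [Nontrivial S] [Algebra P S] [Module.Flat P S] : FaithfulSMul P S := by
  rw [faithfulSMul_iff_algebraMap_injective, injective_iff_map_eq_zero]
  intro r hr
  by_contra hr0
  have hreg : IsSMulRegular S r :=
    Module.Flat.isSMulRegular_of_nonZeroDivisors (mem_nonZeroDivisors_of_ne_zero hr0)
  have h1 : r • (1 : S) = r • (0 : S) := by
    rw [smul_zero, Algebra.smul_def, mul_one, hr]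
  exact one_ne_zero (hreg h1)

/-- A domain which is standard smooth of relative dimension `n` over a field `K` has
transcendence degree `n` over `K`. -/
theorem trdeg_eq_of_isStandardSmoothOfRelativeDimension (n : ℕ) (K : Type u) (S : Type v)
    [Field K] [CommRing S] [IsDomain S] [Algebra K S]
    [Algebra.IsStandardSmoothOfRelativeDimension n K S] : Algebra.trdeg K S = n := by
  obtain ⟨g, hg⟩ := Algebra.IsStandardSmoothOfRelativeDimension.exists_etale_mvPolynomial n K S
  letI : Algebra (MvPolynomial (Fin n) K) S := g.toRingHom.toAlgebra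
  have : IsScalarTower K (MvPolynomial (Fin n) K) S :=
    IsScalarTower.of_algebraMap_eq' g.comp_algebraMap.symm
  have het : Algebra.Etale (MvPolynomial (Fin n) K) S := hg
  have : FaithfulSMul (MvPolynomial (Fin n) K) S := faithfulSMul_of_flat
  have : Algebra.IsAlgebraic (MvPolynomial (Fin n) K) S := isAlgebraic_of_quasiFinite
  have h := lift_trdeg_add_eq K (MvPolynomial (Fin n) K) S
  rw [MvPolynomial.trdeg_of_isDomain, trdeg_eq_zero] at h
  simp only [Cardinal.mk_fin, Cardinal.lift_natCast, Cardinal.lift_zero, add_zero] at h
  exact (Cardinal.lift_eq_nat_iff.mp h.symm)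

open TensorProduct

attribute [local instance] Algebra.TensorProduct.rightAlgebra in
/-- An étale domain over an integrally closed domain is integrally closed. -/
theorem isIntegrallyClosed_of_etale {P : Type u} {S : Type v} [CommRing P] [IsDomain P]
    [IsIntegrallyClosed P] [CommRing S] [IsDomain S] [Algebra P S] [Algebra.Etale P S] :
    IsIntegrallyClosed S := by
  have : FaithfulSMul P S := faithfulSMul_of_flat
  have halg : Algebra.IsAlgebraic P S := isAlgebraic_of_quasiFinite
  have hT : IsLocalization (Algebra.algebraMapSubmonoid S (nonZeroDivisors P))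
      (S ⊗[P] FractionRing P) :=
    (Algebra.isLocalization_iff_isPushout (nonZeroDivisors P) (FractionRing P)).mpr inferInstance
  have hL : IsLocalization (Algebra.algebraMapSubmonoid S (nonZeroDivisors P))
      (FractionRing S) := by
    rw [isLocalization_iff]
    refine ⟨?_, ?_, ?_⟩
    · rintro ⟨_, p, hp, rfl⟩
      refine IsUnit.mk0 _ ?_
      rw [Ne, IsFractionRing.to_map_eq_zero_iff]
      exact fun h => nonZeroDivisors.ne_zero hp
        ((FaithfulSMul.algebraMap_injective P S) (by rw [map_zero]; exact h))
    · intro z
      obtain ⟨a, b, hb, rfl⟩ := IsFractionRing.div_surjective (A := S) z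
      obtain ⟨r, hr0, c, hc⟩ := (halg.isAlgebraic b).exists_nonzero_dvd hb
      refine ⟨⟨a * c, ⟨algebraMap P S r, r, mem_nonZeroDivisors_of_ne_zero hr0, rfl⟩⟩, ?_⟩
      have hb0 : algebraMap S (FractionRing S) b ≠ 0 := by
        rw [Ne, IsFractionRing.to_map_eq_zero_iff]
        exact nonZeroDivisors.ne_zero hb
      simp only [hc, map_mul]
      field_simp
    · intro x y h
      exact ⟨1, by rw [IsFractionRing.injective S (FractionRing S) h]⟩
  let e : (S ⊗[P] FractionRing P) ≃ₐ[S] FractionRing S :=
    IsLocalization.algEquiv (Algebra.algebraMapSubmonoid S (nonZeroDivisors P)) _ _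
  have bij := TensorProduct.toIntegralClosure_bijective_of_smooth (R := P) (S := S)
    (B := FractionRing P)
  have hbot : integralClosure P (FractionRing P) = ⊥ :=
    IsIntegrallyClosed.integralClosure_eq_bot P (FractionRing P)
  have key : ∀ z : S ⊗[P] integralClosure P (FractionRing P), ∃ y : S,
      algebraMap S (S ⊗[P] FractionRing P) y =
        (TensorProduct.toIntegralClosure P S (FractionRing P) z : S ⊗[P] FractionRing P) := by
    intro z
    induction z with
    | zero => exact ⟨0, by simp⟩
    | tmul s b =>
      obtain ⟨p, hp⟩ : ∃ p : P, algebraMap P (FractionRing P) p = b := by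
        have hb : (b : FractionRing P) ∈ (⊥ : Subalgebra P (FractionRing P)) := hbot ▸ b.2
        exact Algebra.mem_bot.mp hb
      refine ⟨p • s, ?_⟩
      simp only [TensorProduct.toIntegralClosure, AlgHom.coe_codRestrict,
        Algebra.TensorProduct.map_tmul, AlgHom.coe_id, id_eq, Subalgebra.coe_val, ← hp,
        Algebra.TensorProduct.algebraMap_apply, Algebra.algebraMap_self, RingHom.id_apply]
      rw [Algebra.algebraMap_eq_smul_one (A := FractionRing P), TensorProduct.tmul_smul]
      rfl
    | add z w hz hw =>
      obtain ⟨y, hy⟩ := hz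
      obtain ⟨y', hy'⟩ := hw
      exact ⟨y + y', by rw [map_add, map_add, hy, hy']; rfl⟩
  refine (isIntegrallyClosed_iff (FractionRing S)).mpr fun {x} hx => ?_
  have hx' : IsIntegral S (e.symm x) := hx.map e.symm
  obtain ⟨z, hz⟩ := bij.2 ⟨e.symm x, hx'⟩
  obtain ⟨y, hy⟩ := key z
  refine ⟨y, ?_⟩
  have h1 : algebraMap S (S ⊗[P] FractionRing P) y = e.symm x := by rw [hy, hz]
  calc algebraMap S (FractionRing S) y = e (algebraMap S (S ⊗[P] FractionRing P) y) :=
        (e.commutes y).symm
    _ = x := by rw [h1, e.apply_symm_apply]


/-- A domain which is standard smooth of relative dimension `n` over a field is integrally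
closed (it is étale over a polynomial ring, which is factorial). -/
theorem isIntegrallyClosed_of_isStandardSmoothOfRelativeDimension (n : ℕ) (K : Type u)
    (S : Type v) [Field K] [CommRing S] [IsDomain S] [Algebra K S]
    [Algebra.IsStandardSmoothOfRelativeDimension n K S] : IsIntegrallyClosed S := by
  obtain ⟨g, hg⟩ := Algebra.IsStandardSmoothOfRelativeDimension.exists_etale_mvPolynomial n K S
  letI : Algebra (MvPolynomial (Fin n) K) S := g.toRingHom.toAlgebra
  have het : Algebra.Etale (MvPolynomial (Fin n) K) S := hg
  exact isIntegrallyClosed_of_etale (P := MvPolynomial (Fin n) K)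

/-- The integral closure of `R` in an integrally closed domain `S` is an integrally closed
domain. -/
theorem isIntegrallyClosed_integralClosure (R : Type u) (S : Type v) [CommRing R] [CommRing S]
    [IsDomain S] [Algebra R S] [IsIntegrallyClosed S] :
    IsIntegrallyClosed (integralClosure R S) :=
  IsIntegrallyClosed.of_isIntegrallyClosed_of_isIntegrallyClosedIn (R := integralClosure R S)
    (S := S)

end Fermat.Agent.S26.helper1879
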