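/-
S26-M2-PULL, part 3 (helper218): the `K`-linear restriction map `L(D) → L(φ^* D)`.

Built on `helper218_PullsTo` (kit) and `helper2004_PullsTo` ((L) and (H2)).
`φ : Y ⟶ X` is a morphism of integral `K`-schemes (`φ ≫ x = y`) with `CDiv.PullsTo φ D E`.

* `PullsTo.restrict h : CDiv.LSet D → CDiv.LSet E`, `PullsTo.restrictsTo_restrict`.
* `PullsTo.restrictL x y hxy h : CDiv.LSub x D →ₗ[K] CDiv.LSub y E`.
* dominant `φ`: `PullsTo.restrictL_apply_of_isDom` (it is `funFieldHom φ`),
  `PullsTo.restrictL_injective`, and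
  `PullsTo.lFinite_and_ell_le : CDiv.LFinite y E → CDiv.LFinite x D ∧ CDiv.ell x D ≤ CDiv.ell y E`.
* `exists_pullsTo_of_isDom`, `existsUnique_pullsTo_of_notMem_supp`.
-/
import Fermat.Agent.S26.helper2004_PullsTo

set_option autoImplicit false

universe u

open AlgebraicGeometry CategoryTheory TopologicalSpace

namespace Fermat.Agent.S26.helper218

open Fermat.Agent.S26.helper154

section Exists

variable {X Y : Scheme.{u}} [IsIntegral X] [IsIntegral Y]

/-- Every Cartier divisor is trivial at the generic point. -/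
theorem apply_genericPoint_eq_one (D : CDiv X) : D.1 (genericPoint X) = 1 := by
  obtain ⟨f, hf⟩ := QuotientGroup.mk_surjective (D.1 (genericPoint X))
  rw [← hf]
  refine mk_eq_one_iff.2 ⟨f, ?_⟩
  ext
  rw [coe_stalkUnit, algebraMap_stalk_eq]
  simp [TopCat.Presheaf.stalkSpecializes_refl]

/-- A dominant morphism pulls back every divisor. -/
theorem exists_pullsTo_of_isDom (φ : Y ⟶ X) (h : IsDom φ) (D : CDiv X) :
    ∃ E : CDiv Y, CDiv.PullsTo φ D E := by
  refine exists_pullsTo φ D ?_
  have h' : φ.base (genericPoint Y) = genericPoint X := h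
  rw [h']
  exact apply_genericPoint_eq_one D

/-- **(H4)** A divisor whose support misses one point of the image of `φ` has a unique
pull-back along `φ`. -/
theorem existsUnique_pullsTo_of_notMem_supp (φ : Y ⟶ X) (D : CDiv X) (y₀ : Y)
    (h : φ.base y₀ ∉ CDiv.supp D) : ∃! E : CDiv Y, CDiv.PullsTo φ D E := by
  obtain ⟨E, hE⟩ := helper2004.exists_pullsTo_of_notMem_supp φ D y₀ h
  exact ⟨E, hE, fun E' hE' => PullsTo.unique hE' hE⟩

end Exists

/-! ### The `K`-linear restriction map `L(D) → L(φ^* D)` -/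

section Linear

variable {X Y : Scheme.{u}} [IsIntegral X] [IsIntegral Y] {K : Type u} [Field K]

/-- The restriction of an element of `L(D)` along `φ`, as an element of `L(E)`. -/
noncomputable def PullsTo.restrict {φ : Y ⟶ X} {D : CDiv X} {E : CDiv Y}
    (h : CDiv.PullsTo φ D E) (f : CDiv.LSet D) : CDiv.LSet E :=
  ⟨(helper2004.PullsTo.exists_restrictsTo_mem_LSet h f.2).choose,
    (helper2004.PullsTo.exists_restrictsTo_mem_LSet h f.2).choose_spec.2⟩

theorem PullsTo.restrictsTo_restrict {φ : Y ⟶ X} {D : CDiv X} {E : CDiv Y}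
    (h : CDiv.PullsTo φ D E) (f : CDiv.LSet D) :
    RestrictsTo φ (f : X.functionField) (PullsTo.restrict h f : Y.functionField) :=
  (helper2004.PullsTo.exists_restrictsTo_mem_LSet h f.2).choose_spec.1

/-- Characterisation: `restrict h f` is THE restriction of `f`. -/
theorem PullsTo.restrict_eq {φ : Y ⟶ X} {D : CDiv X} {E : CDiv Y}
    (h : CDiv.PullsTo φ D E) (f : CDiv.LSet D) {g : Y.functionField}
    (hg : RestrictsTo φ (f : X.functionField) g) : (PullsTo.restrict h f : Y.functionField) = g :=
  (PullsTo.restrictsTo_restrict h f).unique hg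

theorem PullsTo.restrict_eq_funFieldHom {φ : Y ⟶ X} {D : CDiv X} {E : CDiv Y}
    (h : CDiv.PullsTo φ D E) (hdom : IsDom φ) (f : CDiv.LSet D) :
    (PullsTo.restrict h f : Y.functionField) = funFieldHom φ hdom f :=
  PullsTo.restrict_eq h f (helper2004.restrictsTo_funFieldHom φ hdom f)

/-- **The `K`-linear restriction map** `L(D) → L(E)` for a morphism `φ` of `K`-schemes along
which `D` pulls back to `E`. -/
noncomputable def PullsTo.restrictL (x : X ⟶ Spec (CommRingCat.of K))
    (y : Y ⟶ Spec (CommRingCat.of K)) {φ : Y ⟶ X} (hxy : φ ≫ x = y) {D : CDiv X} {E : CDiv Y}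
    (h : CDiv.PullsTo φ D E) :
    letI := (constHom x).toAlgebra
    letI := (constHom y).toAlgebra
    CDiv.LSub x D →ₗ[K] CDiv.LSub y E :=
  letI := (constHom x).toAlgebra
  letI := (constHom y).toAlgebra
  { toFun := fun f => PullsTo.restrict h f
    map_add' := fun f f' => Subtype.ext
      (PullsTo.restrict_eq h (f + f')
        ((PullsTo.restrictsTo_restrict h f).add (PullsTo.restrictsTo_restrict h f')))
    map_smul' := fun a f => Subtype.ext
      (PullsTo.restrict_eq h (a • f)
        ((helper2004.restrictsTo_constHom φ x y hxy a).mul (PullsTo.restrictsTo_restrict h f))) }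

theorem PullsTo.restrictsTo_restrictL (x : X ⟶ Spec (CommRingCat.of K))
    (y : Y ⟶ Spec (CommRingCat.of K)) {φ : Y ⟶ X} (hxy : φ ≫ x = y) {D : CDiv X} {E : CDiv Y}
    (h : CDiv.PullsTo φ D E) :
    letI := (constHom x).toAlgebra
    letI := (constHom y).toAlgebra
    ∀ f : CDiv.LSub x D, RestrictsTo φ (f : X.functionField)
      (PullsTo.restrictL x y hxy h f : Y.functionField) :=
  fun f => PullsTo.restrictsTo_restrict h f

theorem PullsTo.restrictL_apply_of_isDom (x : X ⟶ Spec (CommRingCat.of K))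
    (y : Y ⟶ Spec (CommRingCat.of K)) {φ : Y ⟶ X} (hxy : φ ≫ x = y) {D : CDiv X} {E : CDiv Y}
    (h : CDiv.PullsTo φ D E) (hdom : IsDom φ) :
    letI := (constHom x).toAlgebra
    letI := (constHom y).toAlgebra
    ∀ f : CDiv.LSub x D, (PullsTo.restrictL x y hxy h f : Y.functionField) =
      funFieldHom φ hdom f :=
  fun f => PullsTo.restrict_eq_funFieldHom h hdom f

/-- The kernel of the restriction map: the functions of `L(D)` restricting to `0`. -/
theorem PullsTo.restrictL_eq_zero_iff (x : X ⟶ Spec (CommRingCat.of K))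
    (y : Y ⟶ Spec (CommRingCat.of K)) {φ : Y ⟶ X} (hxy : φ ≫ x = y) {D : CDiv X} {E : CDiv Y}
    (h : CDiv.PullsTo φ D E) :
    letI := (constHom x).toAlgebra
    letI := (constHom y).toAlgebra
    ∀ f : CDiv.LSub x D, PullsTo.restrictL x y hxy h f = 0 ↔
      RestrictsTo φ (f : X.functionField) 0 := by
  intro f
  constructor
  · intro hf
    have h1 := PullsTo.restrictsTo_restrictL x y hxy h f
    rw [hf] at h1
    exact h1
  · intro hf
    exact Subtype.ext (PullsTo.restrict_eq h f hf)

/-- For dominant `φ` the restriction map `L(D) → L(E)` is injective. -/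
theorem PullsTo.restrictL_injective (x : X ⟶ Spec (CommRingCat.of K))
    (y : Y ⟶ Spec (CommRingCat.of K)) {φ : Y ⟶ X} (hxy : φ ≫ x = y) {D : CDiv X} {E : CDiv Y}
    (h : CDiv.PullsTo φ D E) (hdom : IsDom φ) :
    letI := (constHom x).toAlgebra
    letI := (constHom y).toAlgebra
    Function.Injective (PullsTo.restrictL x y hxy h) := by
  intro f f' hff'
  apply Subtype.ext
  apply (funFieldHom φ hdom).injective
  rw [← PullsTo.restrict_eq_funFieldHom h hdom f, ← PullsTo.restrict_eq_funFieldHom h hdom f']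
  exact congrArg Subtype.val hff'

/-- **Finiteness and the dimension inequality along a dominant morphism**: if `L(φ^* D)` is
finite-dimensional, then so is `L(D)`, and `ℓ(D) ≤ ℓ(φ^* D)`. -/
theorem PullsTo.lFinite_and_ell_le (x : X ⟶ Spec (CommRingCat.of K))
    (y : Y ⟶ Spec (CommRingCat.of K)) {φ : Y ⟶ X} (hxy : φ ≫ x = y) {D : CDiv X} {E : CDiv Y}
    (h : CDiv.PullsTo φ D E) (hdom : IsDom φ) (hfin : CDiv.LFinite y E) :
    CDiv.LFinite x D ∧ CDiv.ell x D ≤ CDiv.ell y E := by
  let _ := (constHom x).toAlgebra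
  let _ := (constHom y).toAlgebra
  have hinj := PullsTo.restrictL_injective x y hxy h hdom
  have : Module.Finite K (CDiv.LSub y E) := hfin
  exact ⟨Module.Finite.of_injective (PullsTo.restrictL x y hxy h) hinj,
    LinearMap.finrank_le_finrank_of_injective hinj⟩

end Linear

end Fermat.Agent.S26.helper218
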