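import Mathlib

/-!
# S26-M7a : the integrality lemma (INT) consumed by the sandwich step (SW)

Mathlib-only.  Everything lives on Mathlib's `X.functionField` (stalk at the generic point) with
`O_{X,x}` inside it through the Mathlib instance `Algebra (X.presheaf.stalk x) X.functionField`.

"`z` is regular at `x`" means `z ∈ Set.range (algebraMap (X.presheaf.stalk x) X.functionField)`
(definitionally the membership in the subring `(algebraMap _ _).range`).

Contents.

* `exists_valuationSubring_not_mem` : integral closure = intersection of valuation rings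
  (element form; not needed below, since Mathlib already packages the valuative criterion as
  `isIntegral_appTop_of_universallyClosed`).
* `isIntegral_app_of_universallyClosed` : for a universally closed (e.g. proper) `ψ : X ⟶ A` and
  an affine open `V` of `A`, the ring map `Γ(A, V) ⟶ Γ(X, ψ ⁻¹ᵁ V)` is integral.
* `exists_section_of_forall_mem_range_stalk` : on an integral scheme, an element of the function
  field regular at every point of an open `U` is the generic germ of a section over `U`;
  `isOpen_regular_locus` : the regular locus of a rational function is open.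
* `FunFieldCompat ψ φ` : the ring hom `φ : K(A) →+* K(X)` is the one induced by `ψ`
  (section-level, at the generic points); `funFieldCompat_stalkMap` : the stalk map at the generic
  point satisfies it; `FunFieldCompat.stalk` / `funFieldCompat_of_stalk` : equivalence with the
  stalk-level compatibility at every point.
* `isIntegralElem_of_regular` (affine open), `isIntegralElem_stalk_of_regular` (neighbourhood of a
  point), `isIntegralElem_stalk_of_regular_on_fibre` (fibre over a point) : **(INT)**.
* `mem_range_stalk_of_isIntegralElem(_germ)` : converse on a normal source (integral over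
  `O_{A, ψ x}` implies regular at `x`); `isIntegralElem_stalk_iff_regular_on_fibre`.
* `trace_mem_range_germ`, `trace_mem_range_stalk`, `trace_mem_range_stalk_of_regular_on_fibre` :
  the trace corollaries used by (SW)-UPPER.
-/

set_option autoImplicit false

universe u

open AlgebraicGeometry CategoryTheory TopologicalSpace Opposite

namespace Fermat.Agent.S26.helper2482

section Algebra

variable {K : Type*} [Field K]

/-- An element of a field which is not integral over a subring `R` is missed by some valuation
subring containing `R`. -/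
theorem exists_valuationSubring_not_mem (R : Subring K) {z : K} (hz : ¬ IsIntegral R z) :
    ∃ V : ValuationSubring K, R ≤ V.toSubring ∧ z ∉ V := by
  by_contra h
  apply hz
  have h1 : z ∈ (⨅ V : {V : ValuationSubring K // (R : Set K) ⊆ V.toSubring}, V.1.toSubring) := by
    rw [Subring.mem_iInf]
    rintro ⟨V, hV⟩
    by_contra hzV
    exact h ⟨V, hV, hzV⟩
  rw [iInf_valuationSubring_superset] at h1
  have h2 : Subring.closure (R : Set K) = R := Subring.closure_eq R
  rw [h2] at h1
  exact h1

end Algebra

section Sections

/-- **(INT), section form.** For a universally closed morphism `ψ : X ⟶ A` and an affine open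
`V ⊆ A`, every section of `X` over `ψ ⁻¹ᵁ V` is integral over `Γ(A, V)`. -/
theorem isIntegral_app_of_universallyClosed {X A : Scheme.{u}} (ψ : X ⟶ A)
    [UniversallyClosed ψ] {V : A.Opens} (hV : IsAffineOpen V) :
    (ψ.app V).hom.IsIntegral := by
  have : IsAffine V := hV
  have h := isIntegral_appTop_of_universallyClosed (ψ ∣_ V)
  have h2 : RingHom.IsIntegral (CommRingCat.Hom.hom (ψ.app (V.ι ''ᵁ ⊤) ≫
      X.presheaf.map (eqToHom (image_morphismRestrict_preimage ψ V ⊤)).op)) := by
    intro x
    have hx := h x
    rw [morphismRestrict_appTop] at hx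
    exact hx
  rw [CommRingCat.hom_comp, RingHom.isIntegral_respectsIso.cancel_right_isIso] at h2
  have key : ∀ (W : A.Opens), W = V → (ψ.app W).hom.IsIntegral → (ψ.app V).hom.IsIntegral := by
    rintro W rfl hW
    exact hW
  exact key _ (by simp) h2

/-- The generic point of an irreducible scheme lies in every nonempty open. -/
theorem genericPoint_mem_of_mem {X : Scheme.{u}} [IrreducibleSpace X] {U : X.Opens} {x : X}
    (hx : x ∈ U) : genericPoint X ∈ U :=
  ((genericPoint_spec X).mem_open_set_iff U.isOpen).mpr ⟨x, trivial, hx⟩

/-- Local form of regularity: an element of the function field lying in the stalk at `x ∈ U` is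
the generic germ of a section over a neighbourhood of `x` contained in `U`. -/
theorem exists_section_nhds {X : Scheme.{u}} [IsIntegral X] {U : X.Opens} {x : X} (hx : x ∈ U)
    (z : X.functionField)
    (hz : z ∈ Set.range (algebraMap (X.presheaf.stalk x) X.functionField)) :
    ∃ (W : X.Opens) (hxW : x ∈ W) (_ : W ≤ U) (s : Γ(X, W)),
      X.presheaf.germ W (genericPoint X) (genericPoint_mem_of_mem hxW) s = z := by
  obtain ⟨t, rfl⟩ := hz
  obtain ⟨W, hxW, s, rfl⟩ := X.presheaf.exists_germ_eq t
  refine ⟨W ⊓ U, ⟨hxW, hx⟩, inf_le_right, X.presheaf.map (homOfLE inf_le_left).op s, ?_⟩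
  have : Nonempty W := ⟨⟨x, hxW⟩⟩
  rw [TopCat.Presheaf.germ_res_apply]
  exact (Scheme.algebraMap_germ_eq_germToFunctionField X hxW s).symm

/-- On an integral scheme, an element of the function field that is regular at every point of an
open `U` is the generic germ of a section over `U`. -/
theorem exists_section_of_forall_mem_range_stalk {X : Scheme.{u}} [IsIntegral X] (U : X.Opens)
    (hgen : genericPoint X ∈ U) (z : X.functionField)
    (hz : ∀ x ∈ U, z ∈ Set.range (algebraMap (X.presheaf.stalk x) X.functionField)) :
    ∃ s : Γ(X, U), X.presheaf.germ U (genericPoint X) hgen s = z := by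
  choose W hxW hWU sf hsf using fun x : U => exists_section_nhds x.2 z (hz x.1 x.2)
  have hcompat : TopCat.Presheaf.IsCompatible X.sheaf.1 W sf := by
    intro i j
    have hgen' : genericPoint X ∈ W i ⊓ W j :=
      ⟨genericPoint_mem_of_mem (hxW i), genericPoint_mem_of_mem (hxW j)⟩
    apply germ_injective_of_isIntegral X (genericPoint X) hgen'
    erw [TopCat.Presheaf.germ_res_apply, TopCat.Presheaf.germ_res_apply]
    rw [hsf i, hsf j]
  have hcover : U ≤ iSup W := by
    intro x hx
    exact Opens.mem_iSup.mpr ⟨⟨x, hx⟩, hxW ⟨x, hx⟩⟩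
  obtain ⟨s, hs, -⟩ :=
    X.sheaf.existsUnique_gluing' W U (fun i => homOfLE (hWU i)) hcover sf hcompat
  refine ⟨s, ?_⟩
  have h1 := hs ⟨genericPoint X, hgen⟩
  have h2 := hsf ⟨genericPoint X, hgen⟩
  rw [← h1] at h2
  erw [TopCat.Presheaf.germ_res_apply] at h2
  exact h2

/-- The same with Mathlib's `germToFunctionField`. -/
theorem exists_germToFunctionField_eq {X : Scheme.{u}} [IsIntegral X] (U : X.Opens)
    [Nonempty U] (z : X.functionField)
    (hz : ∀ x ∈ U, z ∈ Set.range (algebraMap (X.presheaf.stalk x) X.functionField)) :
    ∃ s : Γ(X, U), X.germToFunctionField U s = z :=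
  exists_section_of_forall_mem_range_stalk U _ z hz

/-- Conversely the generic germ of a section over `U` is regular at every point of `U`. -/
theorem germ_mem_range_stalk {X : Scheme.{u}} [IrreducibleSpace X] (U : X.Opens)
    (hgen : genericPoint X ∈ U) (s : Γ(X, U)) {x : X} (hx : x ∈ U) :
    X.presheaf.germ U (genericPoint X) hgen s ∈
      Set.range (algebraMap (X.presheaf.stalk x) X.functionField) := by
  have : Nonempty U := ⟨⟨x, hx⟩⟩
  exact ⟨X.presheaf.germ U x hx s, Scheme.algebraMap_germ_eq_germToFunctionField X hx s⟩

end Sections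

section FunctionField

variable {X A : Scheme.{u}}

/-- A dominant morphism of irreducible schemes maps the generic point to the generic point. -/
theorem map_genericPoint_of_isDominant [IrreducibleSpace X] [IrreducibleSpace A]
    (ψ : X ⟶ A) [IsDominant ψ] : ψ (genericPoint X) = genericPoint A := by
  apply ((genericPoint_spec A).eq _).symm
  have h := (genericPoint_spec X).image ψ.continuous
  rw [Set.image_univ, ψ.denseRange.closure_range] at h
  exact h

/-- Compatibility of a ring homomorphism of function fields with a morphism of schemes: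
it sends the generic germ of a section `a` over `V` to the generic germ of `ψ^* a`. -/
def FunFieldCompat [IrreducibleSpace X] [IrreducibleSpace A] (ψ : X ⟶ A)
    (φ : A.functionField →+* X.functionField) : Prop :=
  ∀ (V : A.Opens) (hV : genericPoint A ∈ V) (hV' : genericPoint X ∈ ψ ⁻¹ᵁ V) (a : Γ(A, V)),
    φ (A.presheaf.germ V (genericPoint A) hV a) =
      X.presheaf.germ (ψ ⁻¹ᵁ V) (genericPoint X) hV' (ψ.app V a)

/-- The canonical map of function fields (stalk map at the generic point, transported along
`ψ (genericPoint X) ⤳ genericPoint A`) is compatible with `ψ`. -/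
theorem funFieldCompat_stalkMap [IrreducibleSpace X] [IrreducibleSpace A]
    (ψ : X ⟶ A) (hs : ψ (genericPoint X) ⤳ genericPoint A) :
    FunFieldCompat ψ ((ψ.stalkMap (genericPoint X)).hom.comp
      (A.presheaf.stalkSpecializes hs).hom) := by
  intro V hV hV' a
  rw [RingHom.comp_apply]
  have h1 : (A.presheaf.stalkSpecializes hs).hom (A.presheaf.germ V (genericPoint A) hV a) =
      A.presheaf.germ V (ψ (genericPoint X)) hV' a := by
    rw [← A.presheaf.germ_stalkSpecializes hV hs]
    rfl
  rw [h1]
  exact Scheme.Hom.germ_stalkMap_apply ψ V (genericPoint X) hV' a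

/-- Stalk-level form of the compatibility: `φ` restricted to `O_{A, ψ x}` is the stalk map
`O_{A, ψ x} ⟶ O_{X, x}`. -/
theorem FunFieldCompat.stalk [IrreducibleSpace X] [IrreducibleSpace A]
    {ψ : X ⟶ A} {φ : A.functionField →+* X.functionField} (hφ : FunFieldCompat ψ φ) (x : X)
    (t : A.presheaf.stalk (ψ x)) :
    φ (algebraMap (A.presheaf.stalk (ψ x)) A.functionField t) =
      algebraMap (X.presheaf.stalk x) X.functionField (ψ.stalkMap x t) := by
  obtain ⟨V, hxV, a, rfl⟩ := A.presheaf.exists_germ_eq t
  have hxV' : x ∈ ψ ⁻¹ᵁ V := hxV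
  have : Nonempty V := ⟨⟨_, hxV⟩⟩
  have : Nonempty (ψ ⁻¹ᵁ V) := ⟨⟨x, hxV'⟩⟩
  rw [Scheme.Hom.germ_stalkMap_apply, Scheme.algebraMap_germ_eq_germToFunctionField]
  have h2 := Scheme.algebraMap_germ_eq_germToFunctionField X hxV' (ψ.app V a)
  exact (hφ V _ _ a).trans h2.symm

/-- A compatible `φ` maps functions regular at `ψ x` to functions regular at `x`. -/
theorem FunFieldCompat.map_mem_range_stalk [IrreducibleSpace X] [IrreducibleSpace A]
    {ψ : X ⟶ A} {φ : A.functionField →+* X.functionField} (hφ : FunFieldCompat ψ φ) (x : X)
    {u : A.functionField}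
    (hu : u ∈ Set.range (algebraMap (A.presheaf.stalk (ψ x)) A.functionField)) :
    φ u ∈ Set.range (algebraMap (X.presheaf.stalk x) X.functionField) := by
  obtain ⟨t, rfl⟩ := hu
  exact ⟨ψ.stalkMap x t, (hφ.stalk x t).symm⟩

end FunctionField

section INT

variable {X A : Scheme.{u}}

/-- **(INT), function-field form over an affine open.**  `ψ : X ⟶ A` universally closed, `X`
integral, `V ⊆ A` affine open, `z ∈ K(X)` regular at every point of `ψ⁻¹(V)`.  Then `z` is
integral over `Γ(A, V)` (mapped to `K(X)` through `K(A)` by any `φ` compatible with `ψ`). -/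
theorem isIntegralElem_of_regular [IsIntegral X] [IrreducibleSpace A] (ψ : X ⟶ A)
    [UniversallyClosed ψ] {φ : A.functionField →+* X.functionField} (hφ : FunFieldCompat ψ φ)
    {V : A.Opens} (hV : IsAffineOpen V) (hgenA : genericPoint A ∈ V)
    (hgenX : genericPoint X ∈ ψ ⁻¹ᵁ V) (z : X.functionField)
    (hz : ∀ x ∈ ψ ⁻¹ᵁ V, z ∈ Set.range (algebraMap (X.presheaf.stalk x) X.functionField)) :
    (φ.comp (A.presheaf.germ V (genericPoint A) hgenA).hom).IsIntegralElem z := by
  obtain ⟨s, rfl⟩ := exists_section_of_forall_mem_range_stalk (ψ ⁻¹ᵁ V) hgenX z hz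
  have h1 := (isIntegral_app_of_universallyClosed ψ hV s).map
    (X.presheaf.germ (ψ ⁻¹ᵁ V) (genericPoint X) hgenX).hom
  have h2 : (X.presheaf.germ (ψ ⁻¹ᵁ V) (genericPoint X) hgenX).hom.comp (ψ.app V).hom =
      φ.comp (A.presheaf.germ V (genericPoint A) hgenA).hom := by
    ext a
    exact (hφ V hgenA hgenX a).symm
  rw [h2] at h1
  exact h1

/-- **(INT), function-field form over a stalk.**  `ψ : X ⟶ A` universally closed and mapping
the generic point to the generic point, `X` integral, `V` any open neighbourhood of `a : A`,
`z ∈ K(X)` regular at every point of `ψ⁻¹(V)`.  Then `z` is integral over `O_{A,a}`. -/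
theorem isIntegralElem_stalk_of_regular [IsIntegral X] [IrreducibleSpace A] (ψ : X ⟶ A)
    [UniversallyClosed ψ] (hgen : ψ (genericPoint X) = genericPoint A)
    {φ : A.functionField →+* X.functionField} (hφ : FunFieldCompat ψ φ)
    (a : A) {V : A.Opens} (haV : a ∈ V) (z : X.functionField)
    (hz : ∀ x ∈ ψ ⁻¹ᵁ V, z ∈ Set.range (algebraMap (X.presheaf.stalk x) X.functionField)) :
    (φ.comp (algebraMap (A.presheaf.stalk a) A.functionField)).IsIntegralElem z := by
  obtain ⟨_, ⟨W, hW, rfl⟩, haW, hWV⟩ :=
    A.isBasis_affineOpens.exists_subset_of_mem_open haV V.isOpen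
  have hgenA : genericPoint A ∈ W := genericPoint_mem_of_mem haW
  have hgenX : genericPoint X ∈ ψ ⁻¹ᵁ W := by
    show ψ (genericPoint X) ∈ W
    rw [hgen]
    exact hgenA
  have h1 := isIntegralElem_of_regular ψ hφ hW hgenA hgenX z (fun x hx => hz x (hWV hx))
  have h2 : (A.presheaf.germ W (genericPoint A) hgenA).hom =
      (algebraMap (A.presheaf.stalk a) A.functionField).comp (A.presheaf.germ W a haW).hom := by
    ext s
    have : Nonempty W := ⟨⟨a, haW⟩⟩
    exact (Scheme.algebraMap_germ_eq_germToFunctionField A haW s).symm
  rw [h2, ← RingHom.comp_assoc] at h1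
  exact RingHom.IsIntegralElem.of_comp h1

/-- **Converse on a normal source.**  If `O_{X,x}` is integrally closed and `z ∈ K(X)` is
integral over `O_{A, ψ x}`, then `z` is regular at `x`. -/
theorem mem_range_stalk_of_isIntegralElem [IsIntegral X] [IrreducibleSpace A] {ψ : X ⟶ A}
    {φ : A.functionField →+* X.functionField} (hφ : FunFieldCompat ψ φ)
    (x : X) [IsIntegrallyClosed (X.presheaf.stalk x)] (z : X.functionField)
    (hz : (φ.comp (algebraMap (A.presheaf.stalk (ψ x)) A.functionField)).IsIntegralElem z) :
    z ∈ Set.range (algebraMap (X.presheaf.stalk x) X.functionField) := by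
  have h2 : φ.comp (algebraMap (A.presheaf.stalk (ψ x)) A.functionField) =
      (algebraMap (X.presheaf.stalk x) X.functionField).comp (ψ.stalkMap x).hom := by
    ext t
    exact hφ.stalk x t
  rw [h2] at hz
  have h3 : IsIntegral (X.presheaf.stalk x) z := RingHom.IsIntegralElem.of_comp hz
  exact IsIntegrallyClosed.isIntegral_iff.mp h3

/-- Section form of the converse: if `z ∈ K(X)` is integral over `Γ(A, V)` and `O_{X,x}` is
integrally closed for some `x ∈ ψ⁻¹(V)`, then `z` is regular at `x`. -/
theorem mem_range_stalk_of_isIntegralElem_germ [IsIntegral X] [IrreducibleSpace A] {ψ : X ⟶ A}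
    {φ : A.functionField →+* X.functionField} (hφ : FunFieldCompat ψ φ)
    {V : A.Opens} (hgenA : genericPoint A ∈ V) (x : X) (hx : ψ x ∈ V)
    [IsIntegrallyClosed (X.presheaf.stalk x)] (z : X.functionField)
    (hz : (φ.comp (A.presheaf.germ V (genericPoint A) hgenA).hom).IsIntegralElem z) :
    z ∈ Set.range (algebraMap (X.presheaf.stalk x) X.functionField) := by
  apply mem_range_stalk_of_isIntegralElem hφ x z
  have h2 : (A.presheaf.germ V (genericPoint A) hgenA).hom =
      (algebraMap (A.presheaf.stalk (ψ x)) A.functionField).comp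
        (A.presheaf.germ V (ψ x) hx).hom := by
    ext s
    have : Nonempty V := ⟨⟨_, hx⟩⟩
    exact (Scheme.algebraMap_germ_eq_germToFunctionField A hx s).symm
  rw [h2, ← RingHom.comp_assoc] at hz
  exact RingHom.IsIntegralElem.of_comp hz

end INT

section Trace

variable {X A : Scheme.{u}}

/-- **Trace corollary, stalk form (the shape (SW)-UPPER consumes).**  `ψ : X ⟶ A` universally
closed, generic point to generic point, `X`, `A` integral, `K(X)` an algebra over `K(A)` through a
map compatible with `ψ`; `a : A` with `O_{A,a}` integrally closed, `V` an open neighbourhood of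
`a`, `z ∈ K(X)` regular at every point of `ψ⁻¹(V)`.  Then `Tr_{K(X)/K(A)} z ∈ O_{A,a}`. -/
theorem trace_mem_range_stalk [IsIntegral X] [IsIntegral A] (ψ : X ⟶ A) [UniversallyClosed ψ]
    (hgen : ψ (genericPoint X) = genericPoint A)
    [Algebra A.functionField X.functionField]
    (hφ : FunFieldCompat ψ (algebraMap A.functionField X.functionField))
    (a : A) [IsIntegrallyClosed (A.presheaf.stalk a)] {V : A.Opens} (haV : a ∈ V)
    (z : X.functionField)
    (hz : ∀ x ∈ ψ ⁻¹ᵁ V, z ∈ Set.range (algebraMap (X.presheaf.stalk x) X.functionField)) :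
    Algebra.trace A.functionField X.functionField z ∈
      Set.range (algebraMap (A.presheaf.stalk a) A.functionField) := by
  have h1 := isIntegralElem_stalk_of_regular ψ hgen hφ a haV z hz
  let _ : Algebra (A.presheaf.stalk a) X.functionField :=
    ((algebraMap A.functionField X.functionField).comp
      (algebraMap (A.presheaf.stalk a) A.functionField)).toAlgebra
  have : IsScalarTower (A.presheaf.stalk a) A.functionField X.functionField :=
    IsScalarTower.of_algebraMap_eq (fun _ => rfl)
  have h2 : IsIntegral (A.presheaf.stalk a) z := h1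
  by_cases hfin : FiniteDimensional A.functionField X.functionField
  · have h3 : IsIntegral (A.presheaf.stalk a)
        (Algebra.trace A.functionField X.functionField z) := Algebra.isIntegral_trace h2
    exact IsIntegrallyClosed.isIntegral_iff.mp h3
  · have h0 : Algebra.trace A.functionField X.functionField = 0 := by
      apply Algebra.trace_eq_zero_of_not_exists_basis
      rintro ⟨s, ⟨b⟩⟩
      exact hfin (Module.Finite.of_basis b)
    rw [h0]
    exact ⟨0, by simp⟩

end Trace

section Fibre

variable {X A : Scheme.{u}}



/-- Stalk-level compatibility (for all points) implies the section-level one. -/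
theorem funFieldCompat_of_stalk [IrreducibleSpace X] [IrreducibleSpace A] {ψ : X ⟶ A}
    {φ : A.functionField →+* X.functionField}
    (h : ∀ (x : X) (t : A.presheaf.stalk (ψ x)),
      φ (algebraMap (A.presheaf.stalk (ψ x)) A.functionField t) =
        algebraMap (X.presheaf.stalk x) X.functionField (ψ.stalkMap x t)) :
    FunFieldCompat ψ φ := by
  intro V hV hV' a
  have hV'' : ψ (genericPoint X) ∈ V := hV'
  have : Nonempty V := ⟨⟨_, hV⟩⟩
  have : Nonempty (ψ ⁻¹ᵁ V) := ⟨⟨_, hV'⟩⟩
  have h1 := h (genericPoint X) (A.presheaf.germ V (ψ (genericPoint X)) hV'' a)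
  rw [Scheme.algebraMap_germ_eq_germToFunctionField, Scheme.Hom.germ_stalkMap_apply] at h1
  have h2 := Scheme.algebraMap_germ_eq_germToFunctionField X hV' (ψ.app V a)
  exact h1.trans h2

/-- The set of points where a rational function is regular is open. -/
theorem isOpen_regular_locus [IsIntegral X] (z : X.functionField) :
    IsOpen {x : X | z ∈ Set.range (algebraMap (X.presheaf.stalk x) X.functionField)} := by
  rw [isOpen_iff_forall_mem_open]
  intro x hx
  obtain ⟨W, hxW, -, s, hs⟩ := exists_section_nhds (U := ⊤) (x := x) trivial z hx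
  refine ⟨W, ?_, W.isOpen, hxW⟩
  intro y hy
  rw [← hs]
  exact germ_mem_range_stalk W _ s hy

/-- **(INT), fibre form.**  `ψ : X ⟶ A` universally closed, generic point to generic point, `X`
integral, `p : A`, and `z ∈ K(X)` regular at every point of the fibre `ψ⁻¹(p)`.  Then `z` is
integral over `O_{A,p}`. -/
theorem isIntegralElem_stalk_of_regular_on_fibre [IsIntegral X] [IrreducibleSpace A] (ψ : X ⟶ A)
    [UniversallyClosed ψ] (hgen : ψ (genericPoint X) = genericPoint A)
    {φ : A.functionField →+* X.functionField} (hφ : FunFieldCompat ψ φ)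
    (p : A) (z : X.functionField)
    (hz : ∀ y : X, ψ y = p → z ∈ Set.range (algebraMap (X.presheaf.stalk y) X.functionField)) :
    (φ.comp (algebraMap (A.presheaf.stalk p) A.functionField)).IsIntegralElem z := by
  have hopen := isOpen_regular_locus z
  set W : Set X := {x : X | z ∈ Set.range (algebraMap (X.presheaf.stalk x) X.functionField)}
  have hclosed : IsClosed (ψ '' Wᶜ) := ψ.isClosedMap _ hopen.isClosed_compl
  let V : A.Opens := ⟨(ψ '' Wᶜ)ᶜ, hclosed.isOpen_compl⟩
  have hpV : p ∈ V := by
    rintro ⟨y, hyW, hy⟩
    exact hyW (hz y hy)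
  refine isIntegralElem_stalk_of_regular ψ hgen hφ p hpV z ?_
  intro x hx
  by_contra hxW
  exact hx ⟨x, hxW, rfl⟩

/-- **Pointwise criterion.**  For `ψ` universally closed and dominant between integral schemes,
`p : A`, with `O_{X,y}` integrally closed for all `y` over `p`: `z ∈ K(X)` is integral over
`O_{A,p}` iff it is regular at every point of the fibre over `p`. -/
theorem isIntegralElem_stalk_iff_regular_on_fibre [IsIntegral X] [IrreducibleSpace A] (ψ : X ⟶ A)
    [UniversallyClosed ψ] (hgen : ψ (genericPoint X) = genericPoint A)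
    {φ : A.functionField →+* X.functionField} (hφ : FunFieldCompat ψ φ)
    (p : A) (hnorm : ∀ y : X, ψ y = p → IsIntegrallyClosed (X.presheaf.stalk y))
    (z : X.functionField) :
    (φ.comp (algebraMap (A.presheaf.stalk p) A.functionField)).IsIntegralElem z ↔
      ∀ y : X, ψ y = p → z ∈ Set.range (algebraMap (X.presheaf.stalk y) X.functionField) := by
  constructor
  · rintro h y rfl
    have := hnorm y rfl
    exact mem_range_stalk_of_isIntegralElem hφ y z h
  · exact isIntegralElem_stalk_of_regular_on_fibre ψ hgen hφ p z

/-- **Trace corollary, affine-section form.** -/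
theorem trace_mem_range_germ [IsIntegral X] [IsIntegral A] (ψ : X ⟶ A) [UniversallyClosed ψ]
    [Algebra A.functionField X.functionField]
    (hφ : FunFieldCompat ψ (algebraMap A.functionField X.functionField))
    {V : A.Opens} (hV : IsAffineOpen V) [IsIntegrallyClosed Γ(A, V)]
    (hgenA : genericPoint A ∈ V) (hgenX : genericPoint X ∈ ψ ⁻¹ᵁ V) (z : X.functionField)
    (hz : ∀ x ∈ ψ ⁻¹ᵁ V, z ∈ Set.range (algebraMap (X.presheaf.stalk x) X.functionField)) :
    Algebra.trace A.functionField X.functionField z ∈
      Set.range (A.presheaf.germ V (genericPoint A) hgenA) := by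
  have h1 := isIntegralElem_of_regular ψ hφ hV hgenA hgenX z hz
  have : Nonempty V := ⟨⟨_, hgenA⟩⟩
  have hfrac := functionField_isFractionRing_of_isAffineOpen A V hV
  let _ : Algebra Γ(A, V) X.functionField :=
    ((algebraMap A.functionField X.functionField).comp
      (algebraMap Γ(A, V) A.functionField)).toAlgebra
  have : IsScalarTower Γ(A, V) A.functionField X.functionField :=
    IsScalarTower.of_algebraMap_eq (fun _ => rfl)
  have h2 : IsIntegral Γ(A, V) z := h1
  by_cases hfin : FiniteDimensional A.functionField X.functionField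
  · have h3 : IsIntegral Γ(A, V)
        (Algebra.trace A.functionField X.functionField z) := Algebra.isIntegral_trace h2
    exact IsIntegrallyClosed.isIntegral_iff.mp h3
  · have h0 : Algebra.trace A.functionField X.functionField = 0 := by
      apply Algebra.trace_eq_zero_of_not_exists_basis
      rintro ⟨s, ⟨b⟩⟩
      exact hfin (Module.Finite.of_basis b)
    rw [h0]
    exact ⟨0, by simp⟩

/-- **Trace corollary, fibre form.**  As `trace_mem_range_stalk`, but `z` is only assumed regular
at the points of the fibre over `p`. -/
theorem trace_mem_range_stalk_of_regular_on_fibre [IsIntegral X] [IsIntegral A] (ψ : X ⟶ A)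
    [UniversallyClosed ψ] (hgen : ψ (genericPoint X) = genericPoint A)
    [Algebra A.functionField X.functionField]
    (hφ : FunFieldCompat ψ (algebraMap A.functionField X.functionField))
    (p : A) [IsIntegrallyClosed (A.presheaf.stalk p)] (z : X.functionField)
    (hz : ∀ y : X, ψ y = p → z ∈ Set.range (algebraMap (X.presheaf.stalk y) X.functionField)) :
    Algebra.trace A.functionField X.functionField z ∈
      Set.range (algebraMap (A.presheaf.stalk p) A.functionField) := by
  have hopen := isOpen_regular_locus z
  set W : Set X := {x : X | z ∈ Set.range (algebraMap (X.presheaf.stalk x) X.functionField)}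
  have hclosed : IsClosed (ψ '' Wᶜ) := ψ.isClosedMap _ hopen.isClosed_compl
  let V : A.Opens := ⟨(ψ '' Wᶜ)ᶜ, hclosed.isOpen_compl⟩
  have hpV : p ∈ V := by
    rintro ⟨y, hyW, hy⟩
    exact hyW (hz y hy)
  refine trace_mem_range_stalk ψ hgen hφ p hpV z ?_
  intro x hx
  by_contra hxW
  exact hx ⟨x, hxW, rfl⟩

end Fibre

end Fermat.Agent.S26.helper2482
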