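import Fermat.Agent.S26.helper154_Spec

/-!
# S26-M2-CORE: basic API of the Cartier divisors `CDiv` of the S26 specification file

Everything is stated on the definitions of `Fermat.Agent.S26.helper154` verbatim
(`localSubring`, `unitsAt`, `LocDiv`, `CDiv`, `CDiv.principal`, `CDiv.IsEffective`, `CDiv.supp`,
`CDiv.LSet`, `CDiv.LSub`, `CDiv.ell`, `CDiv.LFinite`).

Contents:
* local rings and their units inside the function field, generisation, the generic point;
* representative independence for germs of divisors;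
* the group structure pointwise, local equations;
* supports (closed, stable under generisation, additive for effective divisors);
* effective divisors;
* `L(D)`: independence of the local equation, products, monotonicity, principal shifts;
* the `K`-subspaces `LSub`: graded structure, linear equivalence, finiteness and `ell`;
* charts of an effective divisor: an affine open neighbourhood with a regular local equation.
-/

set_option autoImplicit false

/- `rw`/`simp` with group lemmas on `LocDiv X x` and `CDiv X` need a nested instance synthesis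
during unification (the units of `K(X)` carry a `Group` structure coming from the `Field`
instance and a `CommGroup` structure coming from the `CommRingCat` carrier). -/
set_option maxSynthPendingDepth 3

universe u

open AlgebraicGeometry CategoryTheory TopologicalSpace
open Fermat.Agent.S26.helper154

namespace Fermat.Agent.S26.helper2677

noncomputable section

variable {X : Scheme.{u}} [IsIntegral X]

/-! ### Local rings and their units inside the function field -/

lemma mem_localSubring_iff {x : X} {h : X.functionField} :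
    h ∈ localSubring X x ↔
      ∃ a : X.presheaf.stalk x, algebraMap (X.presheaf.stalk x) X.functionField a = h :=
  Iff.rfl

lemma algebraMap_mem_localSubring (x : X) (a : X.presheaf.stalk x) :
    algebraMap (X.presheaf.stalk x) X.functionField a ∈ localSubring X x :=
  ⟨a, rfl⟩

lemma algebraMap_stalk_injective (x : X) :
    Function.Injective (algebraMap (X.presheaf.stalk x) X.functionField) :=
  IsFractionRing.injective _ _

lemma mem_unitsAt_iff {x : X} {f : X.functionFieldˣ} :
    f ∈ unitsAt X x ↔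
      ∃ u : (X.presheaf.stalk x)ˣ,
        algebraMap (X.presheaf.stalk x) X.functionField (u : X.presheaf.stalk x) =
          (f : X.functionField) := by
  constructor
  · rintro ⟨u, rfl⟩
    exact ⟨u, rfl⟩
  · rintro ⟨u, hu⟩
    exact ⟨u, Units.ext hu⟩

/-- `f` is a unit of `O_x` iff `f` and `f⁻¹` both lie in `O_x`. -/
lemma mem_unitsAt_iff_mem_localSubring {x : X} {f : X.functionFieldˣ} :
    f ∈ unitsAt X x ↔ (f : X.functionField) ∈ localSubring X x ∧
      ((f⁻¹ : X.functionFieldˣ) : X.functionField) ∈ localSubring X x := by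
  rw [mem_unitsAt_iff]
  constructor
  · rintro ⟨u, hu⟩
    refine ⟨⟨u, hu⟩, ⟨((u⁻¹ : (X.presheaf.stalk x)ˣ) : X.presheaf.stalk x), ?_⟩⟩
    rw [Units.val_inv_eq_inv_val]
    apply eq_inv_of_mul_eq_one_left
    rw [← hu, ← map_mul, Units.inv_mul, map_one]
  · rintro ⟨⟨a, ha⟩, ⟨b, hb⟩⟩
    have hab : a * b = 1 := by
      apply algebraMap_stalk_injective x
      rw [map_mul, ha, hb, map_one, ← Units.val_mul, mul_inv_cancel, Units.val_one]
    exact ⟨Units.mkOfMulEqOne a b hab, ha⟩

lemma coe_mem_localSubring_of_mem_unitsAt {x : X} {f : X.functionFieldˣ} (hf : f ∈ unitsAt X x) :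
    (f : X.functionField) ∈ localSubring X x :=
  (mem_unitsAt_iff_mem_localSubring.1 hf).1

lemma coe_inv_mem_localSubring_of_mem_unitsAt {x : X} {f : X.functionFieldˣ}
    (hf : f ∈ unitsAt X x) : ((f⁻¹ : X.functionFieldˣ) : X.functionField) ∈ localSubring X x :=
  (mem_unitsAt_iff_mem_localSubring.1 hf).2

/-- The map `O_x → K(X)` factors through `O_{x'}` for every generisation `x'` of `x`. -/
lemma algebraMap_stalkSpecializes {x x' : X} (h : x' ⤳ x) (a : X.presheaf.stalk x) :
    algebraMap (X.presheaf.stalk x') X.functionField (X.presheaf.stalkSpecializes h a) =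
      algebraMap (X.presheaf.stalk x) X.functionField a := by
  simp only [RingHom.algebraMap_toAlgebra]
  exact TopCat.Presheaf.stalkSpecializes_comp_apply X.presheaf
    ((genericPoint_spec X).specializes trivial) h a

/-- The image in `K(X)` of the germ of a section does not depend on the point. -/
lemma algebraMap_germ_eq (V : X.Opens) {x y : X} (hx : x ∈ V) (hy : y ∈ V) (s : Γ(X, V)) :
    algebraMap (X.presheaf.stalk x) X.functionField (X.presheaf.germ V x hx s) =
      algebraMap (X.presheaf.stalk y) X.functionField (X.presheaf.germ V y hy s) := by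
  have : Nonempty V := ⟨⟨x, hx⟩⟩
  rw [Scheme.algebraMap_germ_eq_germToFunctionField, Scheme.algebraMap_germ_eq_germToFunctionField]

lemma localSubring_le_of_specializes {x x' : X} (h : x' ⤳ x) :
    localSubring X x ≤ localSubring X x' := by
  rintro _ ⟨a, rfl⟩
  exact ⟨X.presheaf.stalkSpecializes h a, algebraMap_stalkSpecializes h a⟩

/-- A unit of the stalk at `x` is a unit of the stalk at every generisation of `x`. -/
lemma unitsAt_le_of_specializes {x x' : X} (h : x' ⤳ x) : unitsAt X x ≤ unitsAt X x' := by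
  intro f hf
  rw [mem_unitsAt_iff_mem_localSubring] at hf ⊢
  exact ⟨localSubring_le_of_specializes h hf.1, localSubring_le_of_specializes h hf.2⟩

lemma genericPoint_specializes (x : X) : genericPoint X ⤳ x :=
  (genericPoint_spec X).specializes trivial

lemma localSubring_genericPoint : localSubring X (genericPoint X) = ⊤ := by
  rw [eq_top_iff]
  intro h _
  refine ⟨h, ?_⟩
  simp only [RingHom.algebraMap_toAlgebra]
  have := TopCat.Presheaf.stalkSpecializes_refl X.presheaf (genericPoint X)
  exact congrArg (fun φ => φ.hom h) this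

lemma unitsAt_genericPoint : unitsAt X (genericPoint X) = ⊤ := by
  rw [eq_top_iff]
  intro f _
  rw [mem_unitsAt_iff_mem_localSubring, localSubring_genericPoint]
  exact ⟨trivial, trivial⟩

/-! ### Germs of divisors -/

lemma mk_eq_one_iff {x : X} {f : X.functionFieldˣ} :
    (QuotientGroup.mk f : LocDiv X x) = 1 ↔ f ∈ unitsAt X x :=
  QuotientGroup.eq_one_iff f

lemma mk_eq_mk_iff {x : X} {f g : X.functionFieldˣ} :
    (QuotientGroup.mk f : LocDiv X x) = QuotientGroup.mk g ↔ f⁻¹ * g ∈ unitsAt X x :=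
  QuotientGroup.eq

lemma mk_eq_mk_iff_div {x : X} {f g : X.functionFieldˣ} :
    (QuotientGroup.mk f : LocDiv X x) = QuotientGroup.mk g ↔ g / f ∈ unitsAt X x := by
  rw [mk_eq_mk_iff, div_eq_mul_inv, mul_comm]

lemma exists_mk_eq (x : X) (d : LocDiv X x) : ∃ f : X.functionFieldˣ, d = QuotientGroup.mk f := by
  obtain ⟨f, hf⟩ := QuotientGroup.mk_surjective d
  exact ⟨f, hf.symm⟩

/-- Representative independence: if `h * f ∈ O_x` and `g` is another local equation of the same
germ, then `h * g ∈ O_x`. -/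
lemma mul_mem_localSubring_of_mk_eq {x : X} {f g : X.functionFieldˣ}
    (hfg : (QuotientGroup.mk f : LocDiv X x) = QuotientGroup.mk g) {h : X.functionField}
    (hh : h * (f : X.functionField) ∈ localSubring X x) :
    h * (g : X.functionField) ∈ localSubring X x := by
  have h1 := coe_mem_localSubring_of_mem_unitsAt (mk_eq_mk_iff.1 hfg)
  have h2 : h * (g : X.functionField) =
      h * (f : X.functionField) * ((f⁻¹ * g : X.functionFieldˣ) : X.functionField) := by
    rw [Units.val_mul, Units.val_inv_eq_inv_val]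
    field_simp
  rw [h2]
  exact Subring.mul_mem _ hh h1

lemma coe_mem_localSubring_of_mk_eq {x : X} {f g : X.functionFieldˣ}
    (hfg : (QuotientGroup.mk f : LocDiv X x) = QuotientGroup.mk g)
    (hf : (f : X.functionField) ∈ localSubring X x) :
    (g : X.functionField) ∈ localSubring X x := by
  have := mul_mem_localSubring_of_mk_eq hfg (h := 1) (by rwa [one_mul])
  rwa [one_mul] at this

/-! ### The group of divisors, pointwise -/

namespace CDiv

lemma ext {D E : CDiv X} (h : ∀ x, D.1 x = E.1 x) : D = E := Subtype.ext (funext h)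

lemma ext_iff {D E : CDiv X} : D = E ↔ ∀ x, D.1 x = E.1 x :=
  ⟨fun h x => by rw [h], ext⟩

@[simp] lemma one_apply (x : X) : (1 : CDiv X).1 x = 1 := rfl
@[simp] lemma mul_apply (D E : CDiv X) (x : X) : (D * E).1 x = D.1 x * E.1 x := rfl
@[simp] lemma inv_apply (D : CDiv X) (x : X) : (D⁻¹).1 x = (D.1 x)⁻¹ := rfl
@[simp] lemma div_apply (D E : CDiv X) (x : X) : (D / E).1 x = D.1 x / E.1 x := by
  rw [div_eq_mul_inv, div_eq_mul_inv, mul_apply, inv_apply]
@[simp] lemma pow_apply (D : CDiv X) (n : ℕ) (x : X) : (D ^ n).1 x = D.1 x ^ n := by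
  induction n with
  | zero => simp
  | succ n ih => rw [pow_succ, pow_succ, mul_apply, ih]

@[simp] lemma principal_apply (f : X.functionFieldˣ) (x : X) :
    (CDiv.principal f : CDiv X).1 x = QuotientGroup.mk f := rfl

lemma exists_eq_mk (D : CDiv X) (x : X) : ∃ f : X.functionFieldˣ, D.1 x = QuotientGroup.mk f :=
  exists_mk_eq x (D.1 x)

/-- `f` is a local equation of `D` on the open set `U`. -/
def IsLocalEq (D : CDiv X) (U : X.Opens) (f : X.functionFieldˣ) : Prop :=
  ∀ y ∈ U, D.1 y = QuotientGroup.mk f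

lemma exists_isLocalEq (D : CDiv X) (x : X) :
    ∃ U : X.Opens, x ∈ U ∧ ∃ f : X.functionFieldˣ, IsLocalEq D U f := D.2 x

lemma IsLocalEq.mono {D : CDiv X} {U V : X.Opens} {f : X.functionFieldˣ}
    (h : IsLocalEq D U f) (hVU : V ≤ U) : IsLocalEq D V f := fun y hy => h y (hVU hy)

lemma IsLocalEq.mul {D E : CDiv X} {U V : X.Opens} {f g : X.functionFieldˣ}
    (hD : IsLocalEq D U f) (hE : IsLocalEq E V g) : IsLocalEq (D * E) (U ⊓ V) (f * g) :=
  fun y hy => by rw [mul_apply, hD y hy.1, hE y hy.2]; rfl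

lemma IsLocalEq.inv {D : CDiv X} {U : X.Opens} {f : X.functionFieldˣ}
    (hD : IsLocalEq D U f) : IsLocalEq D⁻¹ U f⁻¹ :=
  fun y hy => by rw [inv_apply, hD y hy]; rfl

lemma IsLocalEq.pow {D : CDiv X} {U : X.Opens} {f : X.functionFieldˣ}
    (hD : IsLocalEq D U f) (n : ℕ) : IsLocalEq (D ^ n) U (f ^ n) :=
  fun y hy => by rw [pow_apply, hD y hy]; rfl

lemma principal_isLocalEq (f : X.functionFieldˣ) (U : X.Opens) :
    IsLocalEq (CDiv.principal f : CDiv X) U f := fun _ _ => rfl

/-! ### Supports -/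

lemma notMem_supp_iff {D : CDiv X} {x : X} : x ∉ CDiv.supp D ↔ D.1 x = 1 := not_not

lemma mem_supp_iff {D : CDiv X} {x : X} : x ∈ CDiv.supp D ↔ D.1 x ≠ 1 := Iff.rfl

lemma notMem_supp_iff_of_eq {D : CDiv X} {x : X} {f : X.functionFieldˣ}
    (hf : D.1 x = QuotientGroup.mk f) : x ∉ CDiv.supp D ↔ f ∈ unitsAt X x := by
  rw [notMem_supp_iff, hf, mk_eq_one_iff]

@[simp] lemma supp_one : CDiv.supp (1 : CDiv X) = ∅ := by
  ext x
  simp [CDiv.supp]

lemma supp_inv (D : CDiv X) : CDiv.supp D⁻¹ = CDiv.supp D := by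
  ext x
  simp [CDiv.supp]

lemma supp_mul_subset (D E : CDiv X) : CDiv.supp (D * E) ⊆ CDiv.supp D ∪ CDiv.supp E := by
  intro x hx
  by_contra h
  rw [Set.mem_union, not_or] at h
  apply hx
  show D.1 x * E.1 x = 1
  rw [notMem_supp_iff.1 h.1, notMem_supp_iff.1 h.2]
  exact mul_one (1 : LocDiv X x)

lemma supp_pow_subset (D : CDiv X) (n : ℕ) : CDiv.supp (D ^ n) ⊆ CDiv.supp D := by
  intro x hx
  by_contra h
  exact hx (by rw [pow_apply, notMem_supp_iff.1 h, one_pow])

lemma supp_principal (f : X.functionFieldˣ) :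
    CDiv.supp (CDiv.principal f : CDiv X) = {x | f ∉ unitsAt X x} := by
  ext x
  rw [mem_supp_iff, principal_apply, Ne, mk_eq_one_iff]
  rfl

/-- The complement of the support is stable under generisation. -/
lemma notMem_supp_of_specializes {D : CDiv X} {x x' : X} (h : x' ⤳ x)
    (hx : x ∉ CDiv.supp D) : x' ∉ CDiv.supp D := by
  obtain ⟨U, hxU, f, hf⟩ := exists_isLocalEq D x
  have hx'U : x' ∈ U := h.mem_open U.isOpen hxU
  rw [notMem_supp_iff_of_eq (hf x' hx'U)]
  exact unitsAt_le_of_specializes h ((notMem_supp_iff_of_eq (hf x hxU)).1 hx)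

/-- The generic point is never in the support. -/
lemma genericPoint_notMem_supp (D : CDiv X) : genericPoint X ∉ CDiv.supp D := by
  obtain ⟨f, hf⟩ := exists_eq_mk D (genericPoint X)
  rw [notMem_supp_iff_of_eq hf, unitsAt_genericPoint]
  trivial

lemma apply_genericPoint (D : CDiv X) : D.1 (genericPoint X) = 1 :=
  notMem_supp_iff.1 (genericPoint_notMem_supp D)

/-- The support of a divisor is closed. -/
lemma isClosed_supp (D : CDiv X) : IsClosed (CDiv.supp D) := by
  rw [← isOpen_compl_iff, isOpen_iff_forall_mem_open]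
  intro x hx
  obtain ⟨U, hxU, f, hf⟩ := exists_isLocalEq D x
  obtain ⟨u, hu⟩ := mem_unitsAt_iff.1 ((notMem_supp_iff_of_eq (hf x hxU)).1 hx)
  obtain ⟨V, hxV, s, hs⟩ := X.presheaf.exists_germ_eq (u : X.presheaf.stalk x)
  have hxs : x ∈ X.basicOpen s := by
    rw [Scheme.mem_basicOpen X s x hxV, hs]
    exact u.isUnit
  refine ⟨(X.basicOpen s ⊓ U : X.Opens), ?_, (X.basicOpen s ⊓ U).isOpen, ⟨hxs, hxU⟩⟩
  rintro y ⟨hys, hyU⟩
  have hyV : y ∈ V := X.basicOpen_le s hys
  show y ∉ CDiv.supp D
  rw [notMem_supp_iff_of_eq (hf y hyU), mem_unitsAt_iff]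
  have hunit : IsUnit (X.presheaf.germ V y hyV s) := (Scheme.mem_basicOpen X s y hyV).1 hys
  refine ⟨hunit.unit, ?_⟩
  rw [IsUnit.unit_spec, algebraMap_germ_eq V hyV hxV s, hs, hu]

lemma isOpen_compl_supp (D : CDiv X) : IsOpen (CDiv.supp D)ᶜ :=
  (isClosed_supp D).isOpen_compl

/-! ### Effective divisors -/

/-- Effectivity does not depend on the local equation. -/
lemma isEffective_iff {D : CDiv X} : CDiv.IsEffective D ↔
    ∀ (x : X) (f : X.functionFieldˣ), D.1 x = QuotientGroup.mk f →
      (f : X.functionField) ∈ localSubring X x := by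
  constructor
  · intro hD x f hf
    obtain ⟨g, hg, hgmem⟩ := hD x
    exact coe_mem_localSubring_of_mk_eq (hg.symm.trans hf) hgmem
  · intro h x
    obtain ⟨f, hf⟩ := exists_eq_mk D x
    exact ⟨f, hf, h x f hf⟩

lemma mem_localSubring_of_isEffective {D : CDiv X} (hD : CDiv.IsEffective D) {x : X}
    {f : X.functionFieldˣ} (hf : D.1 x = QuotientGroup.mk f) :
    (f : X.functionField) ∈ localSubring X x :=
  isEffective_iff.1 hD x f hf

lemma isEffective_one : CDiv.IsEffective (1 : CDiv X) :=
  fun x => ⟨1, rfl, by rw [Units.val_one]; exact Subring.one_mem _⟩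

lemma isEffective_mul {D E : CDiv X} (hD : CDiv.IsEffective D) (hE : CDiv.IsEffective E) :
    CDiv.IsEffective (D * E) := by
  intro x
  obtain ⟨f, hf, hfmem⟩ := hD x
  obtain ⟨g, hg, hgmem⟩ := hE x
  refine ⟨f * g, by rw [mul_apply, hf, hg]; rfl, ?_⟩
  rw [Units.val_mul]
  exact Subring.mul_mem _ hfmem hgmem

lemma isEffective_pow {D : CDiv X} (hD : CDiv.IsEffective D) (n : ℕ) :
    CDiv.IsEffective (D ^ n) := by
  induction n with
  | zero => rw [pow_zero]; exact isEffective_one
  | succ n ih => rw [pow_succ]; exact isEffective_mul ih hD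

lemma isEffective_principal_iff {f : X.functionFieldˣ} :
    CDiv.IsEffective (CDiv.principal f : CDiv X) ↔
      ∀ x : X, (f : X.functionField) ∈ localSubring X x := by
  rw [isEffective_iff]
  constructor
  · intro h x
    exact h x f rfl
  · intro h x g hg
    exact coe_mem_localSubring_of_mk_eq hg (h x)

/-- For effective divisors the support of a sum is the union of the supports. -/
lemma supp_mul_of_isEffective {D E : CDiv X} (hD : CDiv.IsEffective D)
    (hE : CDiv.IsEffective E) : CDiv.supp (D * E) = CDiv.supp D ∪ CDiv.supp E := by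
  apply Set.Subset.antisymm (supp_mul_subset D E)
  intro x hx
  by_contra hx'
  obtain ⟨f, hf, hfmem⟩ := hD x
  obtain ⟨g, hg, hgmem⟩ := hE x
  have hfg : (D * E).1 x = QuotientGroup.mk (f * g) := by rw [mul_apply, hf, hg]; rfl
  have hunit := (notMem_supp_iff_of_eq hfg).1 hx'
  have hinv := coe_inv_mem_localSubring_of_mem_unitsAt hunit
  have hf' : f ∈ unitsAt X x := by
    rw [mem_unitsAt_iff_mem_localSubring]
    refine ⟨hfmem, ?_⟩
    have : ((f⁻¹ : X.functionFieldˣ) : X.functionField) =
        (((f * g)⁻¹ : X.functionFieldˣ) : X.functionField) * (g : X.functionField) := by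
      rw [← Units.val_mul]
      congr 1
      rw [mul_inv, inv_mul_cancel_right]
    rw [this]
    exact Subring.mul_mem _ hinv hgmem
  have hg' : g ∈ unitsAt X x := by
    rw [mem_unitsAt_iff_mem_localSubring]
    refine ⟨hgmem, ?_⟩
    have : ((g⁻¹ : X.functionFieldˣ) : X.functionField) =
        (((f * g)⁻¹ : X.functionFieldˣ) : X.functionField) * (f : X.functionField) := by
      rw [← Units.val_mul]
      congr 1
      rw [mul_inv_rev, inv_mul_cancel_right]
    rw [this]
    exact Subring.mul_mem _ hinv hfmem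
  rcases hx with hx | hx
  · exact (notMem_supp_iff_of_eq hf).2 hf' hx
  · exact (notMem_supp_iff_of_eq hg).2 hg' hx

lemma supp_pow_of_isEffective {D : CDiv X} (hD : CDiv.IsEffective D) {n : ℕ} (hn : n ≠ 0) :
    CDiv.supp (D ^ n) = CDiv.supp D := by
  obtain ⟨k, rfl⟩ := Nat.exists_eq_succ_of_ne_zero hn
  induction k with
  | zero => rw [Nat.succ_eq_add_one, zero_add, pow_one]
  | succ k ih =>
    rw [pow_succ, supp_mul_of_isEffective (isEffective_pow hD _) hD, ih (Nat.succ_ne_zero k),
      Set.union_self]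

/-! ### The space `L(D)` -/

/-- Membership in `L(D)` does not depend on the local equation. -/
lemma mem_LSet_iff {D : CDiv X} {h : X.functionField} : h ∈ CDiv.LSet D ↔
    ∀ (x : X) (f : X.functionFieldˣ), D.1 x = QuotientGroup.mk f →
      h * (f : X.functionField) ∈ localSubring X x := by
  constructor
  · intro hh x f hf
    obtain ⟨g, hg, hgmem⟩ := hh x
    exact mul_mem_localSubring_of_mk_eq (hg.symm.trans hf) hgmem
  · intro hh x
    obtain ⟨f, hf⟩ := exists_eq_mk D x
    exact ⟨f, hf, hh x f hf⟩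

lemma mul_mem_localSubring_of_mem_LSet {D : CDiv X} {h : X.functionField}
    (hh : h ∈ CDiv.LSet D) {x : X} {f : X.functionFieldˣ} (hf : D.1 x = QuotientGroup.mk f) :
    h * (f : X.functionField) ∈ localSubring X x :=
  mem_LSet_iff.1 hh x f hf

lemma zero_mem_LSet (D : CDiv X) : (0 : X.functionField) ∈ CDiv.LSet D := by
  rw [mem_LSet_iff]
  intro x f _
  rw [zero_mul]
  exact Subring.zero_mem _

lemma add_mem_LSet {D : CDiv X} {h k : X.functionField} (hh : h ∈ CDiv.LSet D)
    (hk : k ∈ CDiv.LSet D) : h + k ∈ CDiv.LSet D := by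
  rw [mem_LSet_iff] at hh hk ⊢
  intro x f hf
  rw [add_mul]
  exact Subring.add_mem _ (hh x f hf) (hk x f hf)

lemma neg_mem_LSet {D : CDiv X} {h : X.functionField} (hh : h ∈ CDiv.LSet D) :
    -h ∈ CDiv.LSet D := by
  rw [mem_LSet_iff] at hh ⊢
  intro x f hf
  rw [neg_mul]
  exact Subring.neg_mem _ (hh x f hf)

lemma sub_mem_LSet {D : CDiv X} {h k : X.functionField} (hh : h ∈ CDiv.LSet D)
    (hk : k ∈ CDiv.LSet D) : h - k ∈ CDiv.LSet D := by
  rw [sub_eq_add_neg]
  exact add_mem_LSet hh (neg_mem_LSet hk)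

/-- `L(D) · L(E) ⊆ L(D + E)`. -/
lemma mul_mem_LSet {D E : CDiv X} {h k : X.functionField} (hh : h ∈ CDiv.LSet D)
    (hk : k ∈ CDiv.LSet E) : h * k ∈ CDiv.LSet (D * E) := by
  intro x
  obtain ⟨f, hf, hfmem⟩ := hh x
  obtain ⟨g, hg, hgmem⟩ := hk x
  refine ⟨f * g, by rw [mul_apply, hf, hg]; rfl, ?_⟩
  have : h * k * ((f * g : X.functionFieldˣ) : X.functionField) =
      h * (f : X.functionField) * (k * (g : X.functionField)) := by
    rw [Units.val_mul]; ring
  rw [this]
  exact Subring.mul_mem _ hfmem hgmem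

lemma pow_mem_LSet {D : CDiv X} {h : X.functionField} (hh : h ∈ CDiv.LSet D) (n : ℕ) :
    h ^ n ∈ CDiv.LSet (D ^ n) := by
  induction n with
  | zero =>
    rw [pow_zero, pow_zero]
    intro x
    exact ⟨1, rfl, by rw [Units.val_one, mul_one]; exact Subring.one_mem _⟩
  | succ n ih => rw [pow_succ, pow_succ]; exact mul_mem_LSet ih hh

/-- `L(0)` is the ring of everywhere regular functions. -/
lemma mem_LSet_one_iff {h : X.functionField} :
    h ∈ CDiv.LSet (1 : CDiv X) ↔ ∀ x : X, h ∈ localSubring X x := by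
  rw [mem_LSet_iff]
  constructor
  · intro hh x
    have := hh x 1 rfl
    rwa [Units.val_one, mul_one] at this
  · intro hh x f hf
    have hf' : f ∈ unitsAt X x := mk_eq_one_iff.1 hf.symm
    exact Subring.mul_mem _ (hh x) (coe_mem_localSubring_of_mem_unitsAt hf')

/-- `1 ∈ L(D)` iff `D` is effective. -/
lemma one_mem_LSet_iff {D : CDiv X} : (1 : X.functionField) ∈ CDiv.LSet D ↔ CDiv.IsEffective D := by
  rw [mem_LSet_iff, isEffective_iff]
  simp only [one_mul]

/-- `L(D) ⊆ L(D + E)` for effective `E`. -/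
lemma LSet_subset_mul {D E : CDiv X} (hE : CDiv.IsEffective E) :
    CDiv.LSet D ⊆ CDiv.LSet (D * E) := by
  intro h hh
  have := mul_mem_LSet hh (one_mem_LSet_iff.2 hE)
  rwa [mul_one] at this

/-- Regular functions times `L(D)` stay in `L(D)`. -/
lemma mul_mem_LSet_of_regular {D : CDiv X} {c h : X.functionField}
    (hc : ∀ x : X, c ∈ localSubring X x) (hh : h ∈ CDiv.LSet D) : c * h ∈ CDiv.LSet D := by
  have := mul_mem_LSet (mem_LSet_one_iff.2 hc) hh
  rwa [one_mul] at this

/-- For effective `D` the spaces `L(mD)` increase with `m`. -/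
lemma LSet_pow_mono {D : CDiv X} (hD : CDiv.IsEffective D) {m n : ℕ} (hmn : m ≤ n) :
    CDiv.LSet (D ^ m) ⊆ CDiv.LSet (D ^ n) := by
  obtain ⟨k, rfl⟩ := Nat.exists_eq_add_of_le hmn
  rw [pow_add]
  exact LSet_subset_mul (isEffective_pow hD k)

/-- `h ∈ L(div f + D)` iff `h f ∈ L(D)`. -/
lemma mem_LSet_principal_mul {D : CDiv X} {f : X.functionFieldˣ} {h : X.functionField} :
    h ∈ CDiv.LSet (CDiv.principal f * D) ↔ h * (f : X.functionField) ∈ CDiv.LSet D := by
  rw [mem_LSet_iff, mem_LSet_iff]
  constructor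
  · intro hh x g hg
    have := hh x (f * g) (by rw [mul_apply, principal_apply, hg]; rfl)
    rwa [Units.val_mul, ← mul_assoc] at this
  · intro hh x g hg
    have hg' : D.1 x = QuotientGroup.mk (f⁻¹ * g) := by
      rw [mul_apply, principal_apply] at hg
      have : D.1 x = (QuotientGroup.mk f : LocDiv X x)⁻¹ * QuotientGroup.mk g := by
        rw [← hg, inv_mul_cancel_left]
      rw [this]
      rfl
    have := hh x (f⁻¹ * g) hg'
    have h2 : h * (f : X.functionField) * ((f⁻¹ * g : X.functionFieldˣ) : X.functionField) =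
        h * (g : X.functionField) := by
      rw [Units.val_mul, Units.val_inv_eq_inv_val]
      field_simp
    rwa [h2] at this

lemma mem_LSet_mul_principal {D : CDiv X} {f : X.functionFieldˣ} {h : X.functionField} :
    h ∈ CDiv.LSet (D * CDiv.principal f) ↔ h * (f : X.functionField) ∈ CDiv.LSet D := by
  rw [mul_comm D, mem_LSet_principal_mul]

/-- A nonzero `h` lies in `L(D)` iff `div h + D` is effective. -/
lemma coe_mem_LSet_iff {D : CDiv X} {h : X.functionFieldˣ} :
    (h : X.functionField) ∈ CDiv.LSet D ↔ CDiv.IsEffective (CDiv.principal h * D) := by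
  rw [← one_mem_LSet_iff, mem_LSet_principal_mul, one_mul]

/-! ### Linear equivalence -/

lemma linEquiv_iff {D E : CDiv X} :
    CDiv.LinEquiv D E ↔ D / E ∈ (CDiv.principal : X.functionFieldˣ →* CDiv X).range := by
  constructor
  · rintro ⟨f, rfl⟩
    exact ⟨f, by rw [mul_div_cancel_left]⟩
  · rintro ⟨f, hf⟩
    exact ⟨f, by rw [hf, mul_div_cancel]⟩

lemma linEquiv_refl (D : CDiv X) : CDiv.LinEquiv D D :=
  ⟨1, by rw [map_one, mul_one]⟩

lemma linEquiv_symm {D E : CDiv X} (h : CDiv.LinEquiv D E) : CDiv.LinEquiv E D := by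
  obtain ⟨f, rfl⟩ := h
  exact ⟨f⁻¹, by rw [map_inv, mul_inv_cancel_right]⟩

lemma linEquiv_trans {D E F : CDiv X} (h : CDiv.LinEquiv D E) (h' : CDiv.LinEquiv E F) :
    CDiv.LinEquiv D F := by
  obtain ⟨f, rfl⟩ := h
  obtain ⟨g, rfl⟩ := h'
  exact ⟨g * f, by rw [map_mul, mul_assoc]⟩

lemma linEquiv_mul {D E D' E' : CDiv X} (h : CDiv.LinEquiv D E) (h' : CDiv.LinEquiv D' E') :
    CDiv.LinEquiv (D * D') (E * E') := by
  obtain ⟨f, rfl⟩ := h
  obtain ⟨g, rfl⟩ := h'
  exact ⟨f * g, by rw [map_mul, mul_mul_mul_comm]⟩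

lemma linEquiv_inv {D E : CDiv X} (h : CDiv.LinEquiv D E) : CDiv.LinEquiv D⁻¹ E⁻¹ := by
  obtain ⟨f, rfl⟩ := h
  exact ⟨f⁻¹, by rw [map_inv, mul_inv]⟩

lemma linEquiv_pow {D E : CDiv X} (h : CDiv.LinEquiv D E) (n : ℕ) :
    CDiv.LinEquiv (D ^ n) (E ^ n) := by
  obtain ⟨f, rfl⟩ := h
  exact ⟨f ^ n, by rw [map_pow, mul_pow]⟩

lemma linEquiv_one_iff {D : CDiv X} :
    CDiv.LinEquiv D 1 ↔ D ∈ (CDiv.principal : X.functionFieldˣ →* CDiv X).range := by
  rw [linEquiv_iff, div_one]

/-! ### The `K`-subspaces `LSub`, finiteness and `ell` -/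

section KStructure

variable {K : Type u} [Field K] (x : X ⟶ Spec (CommRingCat.of K))

theorem LSub_le_of_LSet_subset {D E : CDiv X} (h : CDiv.LSet D ⊆ CDiv.LSet E) :
    letI := (constHom x).toAlgebra
    CDiv.LSub x D ≤ CDiv.LSub x E :=
  fun _ hh => h hh

theorem LSub_le_mul {D E : CDiv X} (hE : CDiv.IsEffective E) :
    letI := (constHom x).toAlgebra
    CDiv.LSub x D ≤ CDiv.LSub x (D * E) :=
  fun _ hh => LSet_subset_mul hE hh

/-- For effective `D` the subspaces `L(mD)` form an increasing chain. -/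
theorem LSub_pow_monotone {D : CDiv X} (hD : CDiv.IsEffective D) :
    letI := (constHom x).toAlgebra
    Monotone fun m : ℕ => CDiv.LSub x (D ^ m) :=
  fun _ _ hmn _ hh => LSet_pow_mono hD hmn hh

theorem one_mem_LSub_pow_zero (D : CDiv X) :
    letI := (constHom x).toAlgebra
    (1 : X.functionField) ∈ CDiv.LSub x (D ^ 0) := by
  show (1 : X.functionField) ∈ CDiv.LSet (D ^ 0)
  rw [pow_zero]
  exact one_mem_LSet_iff.2 isEffective_one

theorem mul_mem_LSub_pow (D : CDiv X) (a b : ℕ) (h k : X.functionField) :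
    letI := (constHom x).toAlgebra
    h ∈ CDiv.LSub x (D ^ a) → k ∈ CDiv.LSub x (D ^ b) → h * k ∈ CDiv.LSub x (D ^ (a + b)) := by
  intro hh hk
  show h * k ∈ CDiv.LSet (D ^ (a + b))
  rw [pow_add]
  exact mul_mem_LSet hh hk

/-- The constants lie in `L(D)` for effective `D`. -/
theorem constHom_mem_LSet {D : CDiv X} (hD : CDiv.IsEffective D) (a : K) :
    constHom x a ∈ CDiv.LSet D := by
  have := mul_mem_LSet_of_regular (c := constHom x a) (constHom_mem_localSubring x a)
    (one_mem_LSet_iff.2 hD)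
  rwa [mul_one] at this

theorem lFinite_of_LSet_subset {D E : CDiv X} (h : CDiv.LSet D ⊆ CDiv.LSet E)
    (hE : CDiv.LFinite x E) : CDiv.LFinite x D := by
  letI := (constHom x).toAlgebra
  have hE' : Module.Finite K (CDiv.LSub x E) := hE
  exact Submodule.finiteDimensional_of_le (LSub_le_of_LSet_subset x h)

theorem ell_le_of_LSet_subset {D E : CDiv X} (h : CDiv.LSet D ⊆ CDiv.LSet E)
    (hE : CDiv.LFinite x E) : CDiv.ell x D ≤ CDiv.ell x E := by
  letI := (constHom x).toAlgebra
  have hE' : Module.Finite K (CDiv.LSub x E) := hE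
  exact Submodule.finrank_mono (LSub_le_of_LSet_subset x h)

/-- Multiplication by `f` is a `K`-linear isomorphism `L(E + div f) ≃ L(E)`. -/
def LSubMulEquiv (f : X.functionFieldˣ) (E : CDiv X) :
    letI := (constHom x).toAlgebra
    CDiv.LSub x (E * CDiv.principal f) ≃ₗ[K] CDiv.LSub x E :=
  letI := (constHom x).toAlgebra
  { toFun := fun h => ⟨h.1 * (f : X.functionField), mem_LSet_mul_principal.1 h.2⟩
    map_add' := fun h k => Subtype.ext (add_mul _ _ _)
    map_smul' := fun a h => Subtype.ext (smul_mul_assoc _ _ _)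
    invFun := fun h => ⟨h.1 * ((f⁻¹ : X.functionFieldˣ) : X.functionField),
      mem_LSet_mul_principal.2 (by
        rw [mul_assoc, ← Units.val_mul, inv_mul_cancel, Units.val_one, mul_one]
        exact h.2)⟩
    left_inv := fun h => Subtype.ext (by
      show h.1 * (f : X.functionField) * ((f⁻¹ : X.functionFieldˣ) : X.functionField) = h.1
      rw [mul_assoc, ← Units.val_mul, mul_inv_cancel, Units.val_one, mul_one])
    right_inv := fun h => Subtype.ext (by
      show h.1 * ((f⁻¹ : X.functionFieldˣ) : X.functionField) * (f : X.functionField) = h.1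
      rw [mul_assoc, ← Units.val_mul, inv_mul_cancel, Units.val_one, mul_one]) }

theorem ell_mul_principal (f : X.functionFieldˣ) (E : CDiv X) :
    CDiv.ell x (E * CDiv.principal f) = CDiv.ell x E := by
  letI := (constHom x).toAlgebra
  exact LinearEquiv.finrank_eq (LSubMulEquiv x f E)

theorem lFinite_mul_principal_iff (f : X.functionFieldˣ) (E : CDiv X) :
    CDiv.LFinite x (E * CDiv.principal f) ↔ CDiv.LFinite x E := by
  letI := (constHom x).toAlgebra
  constructor
  · intro h
    have h' : Module.Finite K (CDiv.LSub x (E * CDiv.principal f)) := h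
    exact Module.Finite.equiv (LSubMulEquiv x f E)
  · intro h
    have h' : Module.Finite K (CDiv.LSub x E) := h
    exact Module.Finite.equiv (LSubMulEquiv x f E).symm

/-- `ℓ` only depends on the linear equivalence class. -/
theorem ell_eq_of_linEquiv {D E : CDiv X} (h : CDiv.LinEquiv D E) :
    CDiv.ell x D = CDiv.ell x E := by
  obtain ⟨f, rfl⟩ := h
  exact ell_mul_principal x f E

theorem lFinite_iff_of_linEquiv {D E : CDiv X} (h : CDiv.LinEquiv D E) :
    CDiv.LFinite x D ↔ CDiv.LFinite x E := by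
  obtain ⟨f, rfl⟩ := h
  exact lFinite_mul_principal_iff x f E

end KStructure

/-! ### Charts of an effective divisor -/

/-- If the germ of `t` at `y` represents `f`, then `f` is a unit of `O_y` iff `y` lies in the
basic open set of `t`. -/
lemma mem_unitsAt_iff_mem_basicOpen {V : X.Opens} {y : X} (hy : y ∈ V) (t : Γ(X, V))
    {f : X.functionFieldˣ}
    (ht : algebraMap (X.presheaf.stalk y) X.functionField (X.presheaf.germ V y hy t) =
      (f : X.functionField)) :
    f ∈ unitsAt X y ↔ y ∈ X.basicOpen t := by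
  rw [Scheme.mem_basicOpen X t y hy, mem_unitsAt_iff]
  constructor
  · rintro ⟨u, hu⟩
    have : (u : X.presheaf.stalk y) = X.presheaf.germ V y hy t :=
      algebraMap_stalk_injective y (hu.trans ht.symm)
    rw [← this]
    exact u.isUnit
  · intro hunit
    exact ⟨hunit.unit, by rw [IsUnit.unit_spec, ht]⟩

/-- Chart form of an effective divisor: every point has an affine open neighbourhood `V` and a
section `t ∈ Γ(X, V)` which is a local equation of `D` on all of `V`; on `V` the support of `D`
is the zero locus of `t`. -/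
theorem exists_chart_of_isEffective {D : CDiv X} (hD : CDiv.IsEffective D) (x : X) :
    ∃ (V : X.Opens) (t : Γ(X, V)) (f : X.functionFieldˣ), IsAffineOpen V ∧ x ∈ V ∧
      (∀ (y : X) (hy : y ∈ V), algebraMap (X.presheaf.stalk y) X.functionField
        (X.presheaf.germ V y hy t) = (f : X.functionField)) ∧
      IsLocalEq D V f ∧
      CDiv.supp D ∩ (V : Set X) = (V : Set X) \ (X.basicOpen t : Set X) := by
  obtain ⟨U, hxU, f, hf⟩ := exists_isLocalEq D x
  obtain ⟨a, ha⟩ := mem_localSubring_of_isEffective hD (hf x hxU)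
  obtain ⟨W, hxW, s, hs⟩ := X.presheaf.exists_germ_eq a
  obtain ⟨_, ⟨V, hV, rfl⟩, hxV, hVUW⟩ :=
    X.isBasis_affineOpens.exists_subset_of_mem_open
      (show x ∈ ((U ⊓ W : X.Opens) : Set X) from ⟨hxU, hxW⟩) (U ⊓ W).isOpen
  have hVU : V ≤ U := fun y hy => (hVUW hy).1
  have hVW : V ≤ W := fun y hy => (hVUW hy).2
  have ht : ∀ (y : X) (hy : y ∈ V), algebraMap (X.presheaf.stalk y) X.functionField
      (X.presheaf.germ V y hy (X.presheaf.map (homOfLE hVW).op s)) = (f : X.functionField) := by
    intro y hy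
    rw [algebraMap_germ_eq V hy hxV, TopCat.Presheaf.germ_res_apply, hs, ha]
  refine ⟨V, X.presheaf.map (homOfLE hVW).op s, f, hV, hxV, ht, hf.mono hVU, ?_⟩
  ext y
  constructor
  · rintro ⟨hy, hyV⟩
    refine ⟨hyV, fun hyt => ?_⟩
    exact (notMem_supp_iff_of_eq (hf y (hVU hyV))).2
      ((mem_unitsAt_iff_mem_basicOpen hyV _ (ht y hyV)).2 hyt) hy
  · rintro ⟨hyV, hyt⟩
    refine ⟨fun hy => hyt ?_, hyV⟩
    exact (mem_unitsAt_iff_mem_basicOpen hyV _ (ht y hyV)).1
      ((notMem_supp_iff_of_eq (hf y (hVU hyV))).1 (notMem_supp_iff.2 hy))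

end CDiv

end

end Fermat.Agent.S26.helper2677
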