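/-
helper3146 — S26, module M7b: the (SW) SANDWICH, algebra core (backup copy of board row 1609).

Setting: fields `k ⊆ F ⊆ E` (in the application `k` is the algebraically closed ground field,
`F = ψ^* K(A)`, `E = K(X)` for a dominant generically étale `ψ : X ⟶ A`), `Λ ≤ F`, `Η ≤ E`
`k`-subspaces (the Riemann–Roch spaces `L_A(mD)`, `L_X(m ψ^*D)`).

* `sw_lower`     : `Λ • e i ⊆ Η` for an `F`-linearly independent family `e` gives
                   `#ι * dim Λ ≤ dim Η`.
* `sw_upper`     : `Tr_{E/F}(Η * b i) ⊆ Λ` for an `F`-basis `b` of a finite separable `E/F`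
                   gives `dim Η ≤ #ι * dim Λ` (and finite-dimensionality of `Η`).
* `exists_basis_integral` : an `F`-basis of `E`, indexed by `Fin [E:F]`, integral over `R`
                   (`F = Frac R`).
* `trace_mem_range_of_isIntegral` : `R` integrally closed, `z` integral over `R` gives
                   `Tr_{E/F} z ∈ R`.
* `trace_mul_mem_range_of_isIntegral` : the same for `Tr_{E/F}(z * e)`, `z`, `e` integral.
* `traceCoords`, `traceCoords_injective`, `combo`, `combo_injective` : the two injective linear
                   maps `x ↦ (Tr (x * b i))_i` and `(u_i) ↦ ∑ u_i • e i` themselves (take `k := F`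
                   for the `F`-linear versions).
* `sw_sandwich`  : the packaged two-sided inequality for families `Λ m`, `Η m`.
* `sandwich_compose` : the numeric composition of two sandwiches (maps `s` and `[n] ∘ s`) into
                   `d * η(m) ≤ η'(m + a + a')` and `η'(m) ≤ d * η(m + a + a')`.
-/
import Mathlib

set_option autoImplicit false

namespace Fermat.Agent.S26.helper3146

open Module

section Core

variable {k F E : Type*} [Field k] [Field F] [Field E]
  [Algebra k F] [Algebra F E] [Algebra k E] [IsScalarTower k F E]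

/-- The `k`-linear map `(u_i)_i ↦ ∑ i, u_i • e i` from `ι → Λ` to `E`. -/
noncomputable def combo {ι : Type*} [Fintype ι] (e : ι → E) (Λ : Submodule k F) :
    (ι → Λ) →ₗ[k] E where
  toFun u := ∑ i, (u i : F) • e i
  map_add' u v := by
    simp only [Pi.add_apply, Submodule.coe_add, add_smul, Finset.sum_add_distrib]
  map_smul' c u := by
    simp only [Pi.smul_apply, Submodule.coe_smul, RingHom.id_apply, Finset.smul_sum, smul_assoc]

lemma combo_injective {ι : Type*} [Fintype ι] (e : ι → E) (he : LinearIndependent F e)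
    (Λ : Submodule k F) : Function.Injective (combo e Λ) := by
  rw [← LinearMap.ker_eq_bot, LinearMap.ker_eq_bot']
  intro u hu
  have h0 : ∑ i, (u i : F) • e i = 0 := hu
  have := (Fintype.linearIndependent_iff.mp he) (fun i => (u i : F)) h0
  funext i
  exact Subtype.ext (this i)

/-- **(SW-LOWER)**: if `u • e i ∈ Η` for all `u ∈ Λ` and all members of an `F`-linearly
independent family `e`, then `#ι * dim_k Λ ≤ dim_k Η`. -/
theorem sw_lower {ι : Type*} [Fintype ι] (e : ι → E) (he : LinearIndependent F e)
    (Λ : Submodule k F) (Η : Submodule k E) [FiniteDimensional k Η]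
    (h : ∀ u ∈ Λ, ∀ i, u • e i ∈ Η) :
    Fintype.card ι * finrank k Λ ≤ finrank k Η := by
  classical
  rcases isEmpty_or_nonempty ι with hι | ⟨⟨i₀⟩⟩
  · simp [Fintype.card_eq_zero]
  -- `Λ` is finite-dimensional: it embeds into `Η` by `u ↦ u • e i₀`
  have hmem : ∀ u : ι → Λ, combo e Λ u ∈ Η := fun u =>
    Submodule.sum_mem _ fun i _ => h _ (u i).2 i
  let Φ : (ι → Λ) →ₗ[k] Η := (combo e Λ).codRestrict Η hmem
  have hΦ : Function.Injective Φ := fun u v huv =>
    combo_injective e he Λ (congrArg Subtype.val huv)
  have : FiniteDimensional k (ι → Λ) := FiniteDimensional.of_injective Φ hΦ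
  have : FiniteDimensional k Λ := by
    let ev : Λ →ₗ[k] (ι → Λ) := LinearMap.single k (fun _ : ι => Λ) i₀
    exact FiniteDimensional.of_injective ev (fun u v huv => Pi.single_injective i₀ huv)
  have h1 : finrank k (ι → Λ) ≤ finrank k Η := LinearMap.finrank_le_finrank_of_injective hΦ
  rwa [Module.finrank_pi_fintype, Finset.sum_const, Finset.card_univ, smul_eq_mul] at h1

/-- The `k`-linear map `x ↦ (Tr_{E/F}(x * b i))_i`. -/
noncomputable def traceCoords {ι : Type*} (b : ι → E) : E →ₗ[k] (ι → F) where
  toFun x i := Algebra.trace F E (x * b i)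
  map_add' x y := by
    funext i
    simp only [add_mul, map_add, Pi.add_apply]
  map_smul' c x := by
    funext i
    have hc : (c • x) * b i = (algebraMap k F c) • (x * b i) := by
      rw [algebraMap_smul, smul_mul_assoc]
    simp only [RingHom.id_apply, Pi.smul_apply]
    rw [hc, map_smul, Algebra.smul_def (algebraMap k F c), Algebra.smul_def c]
    rfl

lemma traceCoords_injective [FiniteDimensional F E] [Algebra.IsSeparable F E] {ι : Type*}
    [Fintype ι] (b : Basis ι F E) :
    Function.Injective (traceCoords (k := k) (F := F) (fun i => b i)) := by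
  rw [← LinearMap.ker_eq_bot, LinearMap.ker_eq_bot']
  intro x hx
  have hx' : ∀ i, Algebra.trace F E (x * b i) = 0 := fun i => congrFun hx i
  have hnd := traceForm_nondegenerate F E
  refine hnd.1 x fun y => ?_
  rw [Algebra.traceForm_apply, ← b.sum_repr y, Finset.mul_sum, map_sum]
  refine Finset.sum_eq_zero fun i _ => ?_
  rw [mul_smul_comm, map_smul, hx' i, smul_zero]

/-- **(SW-UPPER)**: if `Tr_{E/F}(x * b i) ∈ Λ` for all `x ∈ Η` and all members of an `F`-basis
`b` of the finite separable extension `E/F`, and `Λ` is finite-dimensional over `k`, then `Η`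
is finite-dimensional and `dim_k Η ≤ #ι * dim_k Λ`. -/
theorem sw_upper [FiniteDimensional F E] [Algebra.IsSeparable F E] {ι : Type*} [Fintype ι]
    (b : Basis ι F E) (Λ : Submodule k F) [FiniteDimensional k Λ] (Η : Submodule k E)
    (h : ∀ x ∈ Η, ∀ i, Algebra.trace F E (x * b i) ∈ Λ) :
    FiniteDimensional k Η ∧ finrank k Η ≤ Fintype.card ι * finrank k Λ := by
  classical
  let Ψ : Η →ₗ[k] (ι → Λ) :=
    { toFun := fun x i => ⟨Algebra.trace F E ((x : E) * b i), h x x.2 i⟩
      map_add' := fun x y => by
        funext i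
        apply Subtype.ext
        simp only [Submodule.coe_add, add_mul, map_add, Pi.add_apply]
      map_smul' := fun c x => by
        funext i
        apply Subtype.ext
        simp }
  have hΨ : Function.Injective Ψ := by
    intro x y hxy
    apply Subtype.ext
    apply traceCoords_injective (k := k) b
    funext i
    exact congrArg Subtype.val (congrFun hxy i)
  have : FiniteDimensional k Η := FiniteDimensional.of_injective Ψ hΨ
  refine ⟨inferInstance, ?_⟩
  have h1 : finrank k Η ≤ finrank k (ι → Λ) := LinearMap.finrank_le_finrank_of_injective hΨ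
  rwa [Module.finrank_pi_fintype, Finset.sum_const, Finset.card_univ, smul_eq_mul] at h1

end Core

section Integral

variable (R F E : Type*) [CommRing R] [IsDomain R] [Field F] [Field E]
  [Algebra R F] [IsFractionRing R F] [Algebra F E] [Algebra R E] [IsScalarTower R F E]
  [FiniteDimensional F E]

/-- **(SW-BASIS)**: an `F`-basis of `E` indexed by `Fin [E:F]` whose members are integral over
`R` (`F = Frac R`). -/
theorem exists_basis_integral :
    ∃ b : Basis (Fin (finrank F E)) F E, ∀ i, IsIntegral R (b i) := by
  classical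
  obtain ⟨s, b, hb⟩ := FiniteDimensional.exists_is_basis_integral R F E
  have hcard : Fintype.card s = finrank F E := (Module.finrank_eq_card_basis b).symm
  let e : s ≃ Fin (finrank F E) := Fintype.equivFinOfCardEq hcard
  refine ⟨b.reindex e, fun i => ?_⟩
  rw [Basis.reindex_apply]
  exact hb _

omit [IsDomain R] in
/-- **(TR)**: for `R` integrally closed with fraction field `F`, the trace of an element of
`E` integral over `R` lies in (the image of) `R`. -/
theorem trace_mem_range_of_isIntegral [IsIntegrallyClosed R] {z : E} (hz : IsIntegral R z) :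
    ∃ r : R, algebraMap R F r = Algebra.trace F E z :=
  IsIntegrallyClosed.isIntegral_iff.mp (Algebra.isIntegral_trace hz)

omit [IsDomain R] in
/-- **(TR-MUL)**: the coordinates `Tr_{E/F}(z * e)` of an integral `z` against an integral `e`
lie in `R`: so `x ↦ (Tr (x * b i))_i` maps the integral closure of `R` in `E` into `R^ι` when
the basis `b` is integral over `R`. -/
theorem trace_mul_mem_range_of_isIntegral [IsIntegrallyClosed R] {z e : E}
    (hz : IsIntegral R z) (he : IsIntegral R e) :
    ∃ r : R, algebraMap R F r = Algebra.trace F E (z * e) :=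
  trace_mem_range_of_isIntegral R F E (hz.mul he)

end Integral

section Packaged

variable {k F E : Type*} [Field k] [Field F] [Field E]
  [Algebra k F] [Algebra F E] [Algebra k E] [IsScalarTower k F E]

/-- **(SW-SANDWICH)**: for families `Λ m ≤ F`, `Η m ≤ E` of `k`-subspaces, an `F`-basis `b`
of the finite separable extension `E/F` and a shift `a` with
(i) `u • b i ∈ Η (m + a)` for `u ∈ Λ m`, (ii) `Tr (x * b i) ∈ Λ (m + a)` for `x ∈ Η m`,
all `Λ m` finite-dimensional: every `Η m` is finite-dimensional and
`d * dim Λ m ≤ dim Η (m + a)`, `dim Η m ≤ d * dim Λ (m + a)` with `d = [E:F]`. -/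
theorem sw_sandwich [FiniteDimensional F E] [Algebra.IsSeparable F E] {ι : Type*} [Fintype ι]
    (b : Basis ι F E) (Λ : ℕ → Submodule k F) (Η : ℕ → Submodule k E) (a : ℕ)
    (hΛ : ∀ m, FiniteDimensional k (Λ m))
    (hlow : ∀ m, ∀ u ∈ Λ m, ∀ i, u • b i ∈ Η (m + a))
    (hup : ∀ m, ∀ x ∈ Η m, ∀ i, Algebra.trace F E (x * b i) ∈ Λ (m + a)) :
    ∀ m, FiniteDimensional k (Η m) ∧
      finrank F E * finrank k (Λ m) ≤ finrank k (Η (m + a)) ∧
      finrank k (Η m) ≤ finrank F E * finrank k (Λ (m + a)) := by
  intro m
  have hd : Fintype.card ι = finrank F E := (Module.finrank_eq_card_basis b).symm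
  have := hΛ (m + a)
  have := hΛ (m + a + a)
  obtain ⟨hfin, hU⟩ := sw_upper b (Λ (m + a)) (Η m) (hup m)
  obtain ⟨hfin', -⟩ := sw_upper b (Λ (m + a + a)) (Η (m + a)) (hup (m + a))
  have := hfin'
  have hL := sw_lower (fun i => b i) b.linearIndependent (Λ m) (Η (m + a)) (hlow m)
  rw [hd] at hU hL
  exact ⟨hfin, hL, hU⟩

/-- Numeric composition of two sandwiches against the same `λ`: if
`dl * λ m ≤ η (m + a)`, `η m ≤ dl * λ (m + a)` (the map `s`, degree `dl`) and
`d * dl * λ m ≤ η' (m + a')`, `η' m ≤ d * dl * λ (m + a')` (the map `[n] ∘ s`, degree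
`d * dl`), then `d * η m ≤ η' (m + a + a')` and `η' m ≤ d * η (m + a + a')`. -/
theorem sandwich_compose (lam eta eta' : ℕ → ℕ) (dl d a a' : ℕ)
    (h1 : ∀ m, dl * lam m ≤ eta (m + a)) (h2 : ∀ m, eta m ≤ dl * lam (m + a))
    (h1' : ∀ m, d * dl * lam m ≤ eta' (m + a')) (h2' : ∀ m, eta' m ≤ d * dl * lam (m + a')) :
    ∀ m, d * eta m ≤ eta' (m + a + a') ∧ eta' m ≤ d * eta (m + a + a') := by
  intro m
  constructor
  · calc d * eta m ≤ d * (dl * lam (m + a)) := Nat.mul_le_mul_left d (h2 m)
      _ = d * dl * lam (m + a) := (Nat.mul_assoc d dl _).symm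
      _ ≤ eta' (m + a + a') := h1' (m + a)
  · calc eta' m ≤ d * dl * lam (m + a') := h2' m
      _ = d * (dl * lam (m + a')) := Nat.mul_assoc d dl _
      _ ≤ d * eta (m + a' + a) := Nat.mul_le_mul_left d (h1 (m + a'))
      _ = d * eta (m + a + a') := by rw [Nat.add_right_comm]

end Packaged

end Fermat.Agent.S26.helper3146
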