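/-
S26, leaf M7c-GEO (helper2726): the sandwich `Stmt_SW` of `helper154_Spec2`.

Inputs: (INT) + trace (helper2482_Integrality), pole bound (helper3890), linear algebra
(helper3146),
and the Mathlib-only core `helper2726_SWGeo` (basis of `K(X)/K(A)` regular over `ψ⁻¹(U)`,
with NO normality hypothesis on `X`).
-/
import Fermat.Agent.S26.helper154_Spec2
import Fermat.Agent.S26.helper3146_Sandwich
import Fermat.Agent.S26.helper3890_LowerGeo
import Fermat.Agent.S26.helper2482_Integrality
import Fermat.Agent.S26.helper2726_SWGeo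

set_option autoImplicit false
set_option linter.style.haveILetI false

universe u

noncomputable section

open CategoryTheory CategoryTheory.Limits AlgebraicGeometry TopologicalSpace

namespace Fermat.Agent.S26.helper2726

open Fermat.Agent.S26.helper154

section Adapter

variable {X A : Scheme.{u}} [IsIntegral X] [IsIntegral A]

/-- The Spec's `funFieldHom` is compatible with the stalk maps. -/
theorem stalkCompat_funFieldHom (ψ : X ⟶ A) (h : IsDom ψ) :
    StalkCompat ψ (funFieldHom ψ h) :=
  fun x r => (helper2482.funFieldCompat_stalkMap ψ (specializes_of_eq h)).stalk x r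

/-- A stalk of `A` is integrally closed as soon as the rings of sections over affine opens are
(the normality hypothesis of `Stmt_SW`). -/
theorem isIntegrallyClosed_stalk_of_sections
    (hnorm : ∀ U : A.Opens, IsAffineOpen U → IsIntegrallyClosed Γ(A, U)) (a : A) :
    IsIntegrallyClosed (A.presheaf.stalk a) := by
  obtain ⟨_, ⟨W, hW, rfl⟩, haW, -⟩ :=
    A.isBasis_affineOpens.exists_subset_of_mem_open (Set.mem_univ a) isOpen_univ
  have := hnorm W hW
  have : Nonempty W := ⟨⟨a, haW⟩⟩
  let _ : Algebra Γ(A, W) (A.presheaf.stalk a) :=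
    TopCat.Presheaf.algebra_section_stalk A.presheaf ⟨a, haW⟩
  have hloc : IsLocalization.AtPrime (A.presheaf.stalk a) (hW.primeIdealOf ⟨a, haW⟩).asIdeal :=
    hW.isLocalization_stalk ⟨a, haW⟩
  exact isIntegrallyClosed_of_isLocalization (A.presheaf.stalk a)
    (hW.primeIdealOf ⟨a, haW⟩).asIdeal.primeCompl (Ideal.primeCompl_le_nonZeroDivisors _)

/-- Trace of a function regular over an open neighbourhood `V` of `a` lies in `O_{A,a}`
((INT) of helper2482 + normality of `A`). -/
theorem trace_mem_localSubring (ψ : X ⟶ A) [UniversallyClosed ψ] (h : IsDom ψ)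
    (hnorm : ∀ U : A.Opens, IsAffineOpen U → IsIntegrallyClosed Γ(A, U))
    (a : A) {V : A.Opens} (haV : a ∈ V) (z : X.functionField)
    (hz : ∀ p : X, ψ.base p ∈ V → z ∈ localSubring X p) :
    letI := (funFieldHom ψ h).toAlgebra
    Algebra.trace A.functionField X.functionField z ∈ localSubring A a := by
  let _ := (funFieldHom ψ h).toAlgebra
  have := isIntegrallyClosed_stalk_of_sections hnorm a
  exact helper2482.trace_mem_range_stalk ψ h
    (helper2482.funFieldCompat_stalkMap ψ (specializes_of_eq h)) a haV z (fun p hp => hz p hp)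

/-- `funFieldHom` on `O_{A, ψ η}` is the stalk map at the generic point. -/
theorem funFieldHom_algebraMap_generic (ψ : X ⟶ A) (h : IsDom ψ)
    (r : A.presheaf.stalk (ψ.base (genericPoint X))) :
    funFieldHom ψ h (algebraMap (A.presheaf.stalk (ψ.base (genericPoint X))) A.functionField r) =
      (ψ.stalkMap (genericPoint X)).hom r := by
  rw [stalkCompat_funFieldHom ψ h (genericPoint X) r]
  change (X.presheaf.stalkSpecializes _).hom _ = _
  rw [TopCat.Presheaf.stalkSpecializes_refl]
  rfl

/-- **Local equations pull back.** If `E` is the pull-back of `D` along the dominant `ψ` and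
`t` is a local equation of `D` at `ψ p`, then `ψ^* t` is a local equation of `E` at `p`. -/
theorem pullsTo_apply {ψ : X ⟶ A} (h : IsDom ψ) {D : CDiv A} {E : CDiv X}
    (hE : CDiv.PullsTo ψ D E) (p : X) (t : (A.functionField)ˣ)
    (ht : D.1 (ψ.base p) = QuotientGroup.mk t) :
    E.1 p = QuotientGroup.mk
      (Units.map (funFieldHom ψ h : A.functionField →* X.functionField) t) := by
  obtain ⟨r, hr1, hr2⟩ := hE p
  rw [hr2]
  rw [ht] at hr1
  have h1 := QuotientGroup.eq.mp hr1
  obtain ⟨u, hu⟩ := h1
  apply QuotientGroup.eq.mpr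
  refine ⟨(Units.map (ψ.stalkMap p).hom.toMonoidHom u)⁻¹, Units.ext ?_⟩
  have hu' := congrArg (fun w : (A.functionField)ˣ => funFieldHom ψ h (w : A.functionField)) hu
  simp only [Units.coe_map, MonoidHom.coe_coe, Units.val_mul, Units.val_inv_eq_inv_val,
    map_mul, map_inv₀] at hu'
  rw [stalkCompat_funFieldHom ψ h p, funFieldHom_algebraMap_generic ψ h] at hu'
  simp only [Units.coe_map, MonoidHom.coe_coe, Units.val_mul, Units.val_inv_eq_inv_val,
    map_inv, RingHom.toMonoidHom_eq_coe]
  have key : algebraMap (X.presheaf.stalk p) X.functionField ((ψ.stalkMap p).hom (u : _)) =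
      (funFieldHom ψ h (t : A.functionField))⁻¹ *
        (ψ.stalkMap (genericPoint X)).hom (r : _) := hu'
  rw [key, mul_inv_rev, inv_inv]

/-- The pull-back of an effective divisor along a dominant morphism is effective. -/
theorem pullsTo_isEffective {ψ : X ⟶ A} (h : IsDom ψ) {D : CDiv A} {E : CDiv X}
    (hE : CDiv.PullsTo ψ D E) (hD : CDiv.IsEffective D) : CDiv.IsEffective E := by
  intro p
  obtain ⟨t, ht, htm⟩ := hD (ψ.base p)
  exact ⟨_, pullsTo_apply h hE p t ht, (stalkCompat_funFieldHom ψ h).regAt htm⟩

/-- The support of the pull-back of an effective divisor contains the preimage of the support. -/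
theorem pullsTo_mem_supp {ψ : X ⟶ A} (h : IsDom ψ) {D : CDiv A} {E : CDiv X}
    (hE : CDiv.PullsTo ψ D E) (hD : CDiv.IsEffective D) {p : X}
    (hp : ψ.base p ∈ CDiv.supp D) : p ∈ CDiv.supp E := by
  intro hE1
  apply hp
  obtain ⟨t, ht, σ, hσ⟩ := hD (ψ.base p)
  have h1 := pullsTo_apply h hE p t ht
  rw [hE1] at h1
  have h2 := (QuotientGroup.eq_one_iff _).mp h1.symm
  obtain ⟨u, hu⟩ := h2
  have h3 : algebraMap (X.presheaf.stalk p) X.functionField (u : X.presheaf.stalk p) =
      algebraMap (X.presheaf.stalk p) X.functionField ((ψ.stalkMap p).hom σ) := by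
    have h4 := congrArg (fun w : (X.functionField)ˣ => (w : X.functionField)) hu
    simp only [Units.coe_map, MonoidHom.coe_coe] at h4
    rw [h4, ← hσ]
    exact stalkCompat_funFieldHom ψ h p σ
  have h5 : (u : X.presheaf.stalk p) = (ψ.stalkMap p).hom σ :=
    IsFractionRing.injective (X.presheaf.stalk p) X.functionField h3
  have h6 : IsUnit ((ψ.stalkMap p).hom σ) := h5 ▸ u.isUnit
  have h7 : IsUnit σ := isUnit_of_map_unit (ψ.stalkMap p).hom σ h6
  rw [ht]
  exact helper3890.mk_eq_one_of_isUnit t σ h7 hσ

/-- Pull-back of functions: `ψ^* L(D^m) ⊆ L(E^m)`. -/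
theorem pullsTo_map_mem_LSet_pow {ψ : X ⟶ A} (h : IsDom ψ) {D : CDiv A} {E : CDiv X}
    (hE : CDiv.PullsTo ψ D E) (m : ℕ) {w : A.functionField} (hw : w ∈ CDiv.LSet (D ^ m)) :
    funFieldHom ψ h w ∈ CDiv.LSet (E ^ m) := by
  intro p
  obtain ⟨t, ht⟩ := QuotientGroup.mk_surjective (D.1 (ψ.base p))
  obtain ⟨f', hf', hwf⟩ := hw (ψ.base p)
  have e1 : (D ^ m).1 (ψ.base p) = QuotientGroup.mk (t ^ m) := by
    change (D.1 (ψ.base p)) ^ m = _
    rw [← ht]
    rfl
  have h1 : w * ((t ^ m : (A.functionField)ˣ) : A.functionField) ∈ localSubring A (ψ.base p) :=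
    helper3890.mul_mem_localSubring_of_mk_eq (hf'.symm.trans e1) hwf
  refine ⟨(Units.map (funFieldHom ψ h : A.functionField →* X.functionField) t) ^ m, ?_, ?_⟩
  · change (E.1 p) ^ m = _
    rw [pullsTo_apply h hE p t ht.symm]
    rfl
  · have h2 : funFieldHom ψ h (w * ((t ^ m : (A.functionField)ˣ) : A.functionField)) ∈
        localSubring X p := (stalkCompat_funFieldHom ψ h).regAt h1
    rw [map_mul] at h2
    convert h2 using 2
    simp

/-- The `K`-structures are compatible: `K → K(A) → K(X)` is `K → K(X)`. -/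
theorem funFieldHom_constHom {K : Type u} [Field K] (x : X ⟶ Spec (CommRingCat.of K))
    (f : A ⟶ Spec (CommRingCat.of K)) (ψ : X ⟶ A) (hψ : ψ ≫ f = x) (h : IsDom ψ) (c : K) :
    funFieldHom ψ h (constHom f c) = constHom x c := by
  subst hψ
  have hηX : genericPoint X ∈ ψ ⁻¹ᵁ (⊤ : A.Opens) := trivial
  have h1 := (stalkCompat_funFieldHom ψ h).map_germ (⊤ : A.Opens) (x := genericPoint X) hηX
    (f.appTop ((Scheme.ΓSpecIso (CommRingCat.of K)).inv c))
  have h2 : constHom f c =
      A.germToFunctionField ⊤ (f.appTop ((Scheme.ΓSpecIso (CommRingCat.of K)).inv c)) := rfl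
  rw [h2, h1]
  haveI : Nonempty (ψ ⁻¹ᵁ (⊤ : A.Opens)) := ⟨⟨_, hηX⟩⟩
  rw [Scheme.algebraMap_germ_eq_germToFunctionField]
  change _ = X.germToFunctionField ⊤ ((ψ ≫ f).appTop ((Scheme.ΓSpecIso (CommRingCat.of K)).inv c))
  rw [Scheme.Hom.comp_appTop]
  rfl

end Adapter

/-- **M7 (SW)**: the sandwich, exactly `helper154.Stmt_SW`. -/
theorem stmt_SW : Stmt_SW.{u} := by
  intro K _ X A _ _ x f _ _ ψ hψ δ hsep hnorm D hD hU E hE hfinX
  obtain ⟨U, hUaff, hUD⟩ := hU
  obtain ⟨hdom, hsp, hfd, hrk⟩ := hsep
  letI algFF : Algebra A.functionField X.functionField := (funFieldHom ψ hdom).toAlgebra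
  haveI : Algebra.IsSeparable A.functionField X.functionField := hsp
  haveI : FiniteDimensional A.functionField X.functionField := hfd
  haveI hprop : IsProper ψ := by
    subst hψ
    exact IsProper.of_comp ψ f
  have hcompat : StalkCompat ψ (algebraMap A.functionField X.functionField) :=
    stalkCompat_funFieldHom ψ hdom
  -- `U` is nonempty: it contains the generic point
  have hηU : genericPoint A ∈ U := by
    have h1 : genericPoint A ∈ (U : Set A) := by
      rw [hUD]
      exact helper3890.genericPoint_notMem_supp D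
    exact h1
  haveI : Nonempty U := ⟨⟨_, hηU⟩⟩
  -- a basis of `K(X)/K(A)` regular off `supp E`
  obtain ⟨b, hb⟩ := exists_basis_regAt hcompat hdom hUaff
  have hEeff : CDiv.IsEffective E := pullsTo_isEffective hdom hE hD
  haveI : CompactSpace X := QuasiCompact.compactSpace_of_compactSpace x
  have hbL : ∀ i, ∃ n : ℕ, ∀ m, n ≤ m → b i ∈ CDiv.LSet (E ^ m) := fun i =>
    helper3890.exists_forall_mem_LSet_pow E hEeff (b i) (fun p hp => hb i p (by
      have h1 : ψ.base p ∉ CDiv.supp D := fun h' => hp (pullsTo_mem_supp hdom hE hD h')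
      have h2 : ψ.base p ∈ (U : Set A) := by
        rw [hUD]
        exact h1
      exact h2))
  choose n hn using hbL
  have hba : ∀ i, b i ∈ CDiv.LSet (E ^ (Finset.univ.sup n)) := fun i =>
    hn i _ (Finset.le_sup (Finset.mem_univ i))
  -- the `K`-structures
  letI algKA : Algebra K A.functionField := (constHom f).toAlgebra
  letI algKX : Algebra K X.functionField := (constHom x).toAlgebra
  haveI : IsScalarTower K A.functionField X.functionField :=
    IsScalarTower.of_algebraMap_eq (fun c => (funFieldHom_constHom x f ψ hψ hdom c).symm)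
  -- (i) lower inclusion
  have hlow : ∀ m, ∀ w ∈ CDiv.LSub f (D ^ m), ∀ i,
      w • b i ∈ CDiv.LSub x (E ^ (m + Finset.univ.sup n)) := by
    intro m w hw i
    have h1 : funFieldHom ψ hdom w ∈ CDiv.LSet (E ^ m) := pullsTo_map_mem_LSet_pow hdom hE m hw
    have h2 := helper3890.mul_mem_LSet_mul h1 (hba i)
    rw [← pow_add] at h2
    exact h2
  -- (ii) upper inclusion
  have hup : ∀ m, ∀ h ∈ CDiv.LSub x (E ^ m), ∀ i,
      Algebra.trace A.functionField X.functionField (h * b i) ∈
        CDiv.LSub f (D ^ (m + Finset.univ.sup n)) := by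
    intro m h hh i y
    obtain ⟨V, hyV, t, ht⟩ := D.2 y
    -- `z := h * b i * ψ^*(t)^(m+a)` is regular over `V`
    have hz : ∀ p : X, ψ.base p ∈ V →
        h * b i * funFieldHom ψ hdom ((t ^ (m + Finset.univ.sup n) : (A.functionField)ˣ) :
          A.functionField) ∈ localSubring X p := by
      intro p hp
      have hEp := pullsTo_apply hdom hE p t (ht _ hp)
      obtain ⟨f1, hf1, hm1⟩ := hh p
      obtain ⟨f2, hf2, hm2⟩ := hba i p
      have e1 : (E ^ m).1 p = QuotientGroup.mk
          ((Units.map (funFieldHom ψ hdom : A.functionField →* X.functionField) t) ^ m) := by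
        change (E.1 p) ^ m = _
        rw [hEp]
        rfl
      have e2 : (E ^ (Finset.univ.sup n)).1 p = QuotientGroup.mk
          ((Units.map (funFieldHom ψ hdom : A.functionField →* X.functionField) t) ^
            (Finset.univ.sup n)) := by
        change (E.1 p) ^ (Finset.univ.sup n) = _
        rw [hEp]
        rfl
      have g1 := helper3890.mul_mem_localSubring_of_mk_eq (hf1.symm.trans e1) hm1
      have g2 := helper3890.mul_mem_localSubring_of_mk_eq (hf2.symm.trans e2) hm2
      have g3 := Subring.mul_mem _ g1 g2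
      convert g3 using 1
      simp only [Units.val_pow_eq_pow_val, Units.coe_map, MonoidHom.coe_coe, map_pow]
      rw [pow_add]
      ring
    have htr := trace_mem_localSubring ψ hdom hnorm y hyV _ hz
    refine ⟨t ^ (m + Finset.univ.sup n), ?_, ?_⟩
    · change (D.1 y) ^ (m + Finset.univ.sup n) = _
      rw [ht y hyV]
      rfl
    · have e3 : Algebra.trace A.functionField X.functionField
          (h * b i * funFieldHom ψ hdom ((t ^ (m + Finset.univ.sup n) : (A.functionField)ˣ) :
            A.functionField)) =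
          Algebra.trace A.functionField X.functionField (h * b i) *
            ((t ^ (m + Finset.univ.sup n) : (A.functionField)ˣ) : A.functionField) := by
        have e4 : funFieldHom ψ hdom ((t ^ (m + Finset.univ.sup n) : (A.functionField)ˣ) :
            A.functionField) * (h * b i) =
            ((t ^ (m + Finset.univ.sup n) : (A.functionField)ˣ) : A.functionField) • (h * b i) :=
          (Algebra.smul_def _ (h * b i)).symm
        rw [mul_comm (h * b i), e4, map_smul, smul_eq_mul, mul_comm]
      rw [← e3]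
      exact htr
  refine ⟨Finset.univ.sup n, fun m => ?_⟩
  have hfinXm : ∀ k, FiniteDimensional K (CDiv.LSub x (E ^ k)) := fun k => hfinX k
  have hδ : Fintype.card (Fin (Module.finrank A.functionField X.functionField)) = δ := by
    rw [Fintype.card_fin, hrk]
  have hpos : 0 < Module.finrank A.functionField X.functionField := Module.finrank_pos
  -- `L_A(D^k)` is finite-dimensional: it embeds into `L_X(E^(k+a))` by `w ↦ w • b i₀`
  have hfinA : ∀ k, FiniteDimensional K (CDiv.LSub f (D ^ k)) := by
    intro k
    haveI := hfinXm (k + Finset.univ.sup n)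
    let i₀ : Fin (Module.finrank A.functionField X.functionField) := ⟨0, hpos⟩
    let Φ : CDiv.LSub f (D ^ k) →ₗ[K] CDiv.LSub x (E ^ (k + Finset.univ.sup n)) :=
      { toFun := fun w => ⟨(w : A.functionField) • b i₀, hlow k w w.2 i₀⟩
        map_add' := fun w w' => by
          apply Subtype.ext
          simp only [Submodule.coe_add, add_smul]
        map_smul' := fun c w => by
          apply Subtype.ext
          simp only [Submodule.coe_smul, RingHom.id_apply, smul_assoc] }
    have hΦ : Function.Injective Φ := by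
      intro w w' hww
      have h1 : (w : A.functionField) • b i₀ = (w' : A.functionField) • b i₀ :=
        congrArg Subtype.val hww
      have h2 : ((w : A.functionField) - w') • b i₀ = 0 := by rw [sub_smul, h1, sub_self]
      rcases smul_eq_zero.mp h2 with h3 | h3
      · exact Subtype.ext (sub_eq_zero.mp h3)
      · exact absurd h3 (b.ne_zero i₀)
    exact FiniteDimensional.of_injective Φ hΦ
  refine ⟨hfinA m, ?_, ?_⟩
  · haveI := hfinXm (m + Finset.univ.sup n)
    have h1 := helper3146.sw_lower (fun i => b i) b.linearIndependent (CDiv.LSub f (D ^ m))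
      (CDiv.LSub x (E ^ (m + Finset.univ.sup n))) (hlow m)
    rw [hδ] at h1
    exact h1
  · haveI := hfinA (m + Finset.univ.sup n)
    have h1 := (helper3146.sw_upper b (CDiv.LSub f (D ^ (m + Finset.univ.sup n)))
      (CDiv.LSub x (E ^ m)) (hup m)).2
    rw [hδ] at h1
    exact h1

end Fermat.Agent.S26.helper2726
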