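/-
S26, leaf M7c-GEO (helper2726): geometric inputs of the sandwich (SW).
Mathlib-only core.  `X`, `A` integral schemes, `ψ : X ⟶ A`, `ι : K(A) → K(X)` a ring
homomorphism compatible with the stalk maps of `ψ`.
-/
import Mathlib

set_option autoImplicit false
set_option linter.style.haveILetI false

open AlgebraicGeometry CategoryTheory TopologicalSpace

universe u

namespace Fermat.Agent.S26.helper2726

/-- `z ∈ K(X)` is regular at `x`: it lies in the local ring `O_{X,x} ⊆ K(X)`. -/
def RegAt (X : Scheme.{u}) [IsIntegral X] (x : X) (z : X.functionField) : Prop :=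
  z ∈ (algebraMap (X.presheaf.stalk x) X.functionField).range

section RegAt

variable {X : Scheme.{u}} [IsIntegral X]

theorem RegAt.mul {x : X} {z w : X.functionField} (hz : RegAt X x z) (hw : RegAt X x w) :
    RegAt X x (z * w) := mul_mem hz hw

theorem RegAt.pow {x : X} {z : X.functionField} (hz : RegAt X x z) (n : ℕ) :
    RegAt X x (z ^ n) := pow_mem hz n

theorem RegAt.add {x : X} {z w : X.functionField} (hz : RegAt X x z) (hw : RegAt X x w) :
    RegAt X x (z + w) := add_mem hz hw

theorem regAt_one (x : X) : RegAt X x 1 := one_mem _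

theorem regAt_zero (x : X) : RegAt X x 0 := zero_mem _

theorem regAt_germ {U : X.Opens} [Nonempty U] {x : X} (hx : x ∈ U) (s : Γ(X, U)) :
    RegAt X x (X.germToFunctionField U s) :=
  ⟨X.presheaf.germ U x hx s, Scheme.algebraMap_germ_eq_germToFunctionField X hx s⟩

/-- An element of `K(X)` integral over a normal local ring `O_{X,x}` lies in it. -/
theorem regAt_of_isIntegral {x : X} [IsIntegrallyClosed (X.presheaf.stalk x)]
    {z : X.functionField} (hz : IsIntegral (X.presheaf.stalk x) z) : RegAt X x z := by
  obtain ⟨y, hy⟩ := (IsIntegrallyClosed.isIntegral_iff (R := X.presheaf.stalk x)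
    (K := X.functionField)).mp hz
  exact ⟨y, hy⟩

end RegAt


section Compat

variable {X A : Scheme.{u}} [IsIntegral X] [IsIntegral A]

/-- `ι : K(A) → K(X)` is compatible with the stalk maps of `ψ : X ⟶ A`. -/
def StalkCompat (ψ : X ⟶ A) (ι : A.functionField →+* X.functionField) : Prop :=
  ∀ (x : X) (r : A.presheaf.stalk (ψ x)),
    ι (algebraMap (A.presheaf.stalk (ψ x)) A.functionField r) =
      algebraMap (X.presheaf.stalk x) X.functionField (ψ.stalkMap x r)

variable {ψ : X ⟶ A} {ι : A.functionField →+* X.functionField}

/-- Pulling back a function regular at `ψ x` gives a function regular at `x`. -/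
theorem StalkCompat.regAt (hι : StalkCompat ψ ι) {x : X} {w : A.functionField}
    (hw : RegAt A (ψ x) w) : RegAt X x (ι w) := by
  obtain ⟨r, rfl⟩ := hw
  exact ⟨ψ.stalkMap x r, (hι x r).symm⟩

/-- `ι` on the germ of a section over `V` is the germ of its pullback. -/
theorem StalkCompat.map_germ (hι : StalkCompat ψ ι) (V : A.Opens) [Nonempty V] {x : X}
    (hx : ψ x ∈ V) (s : Γ(A, V)) :
    ι (A.germToFunctionField V s) =
      algebraMap (X.presheaf.stalk x) X.functionField
        (X.presheaf.germ (ψ ⁻¹ᵁ V) x hx (ψ.app V s)) := by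
  rw [← Scheme.algebraMap_germ_eq_germToFunctionField A hx s, hι x,
    Scheme.Hom.germ_stalkMap_apply]

end Compat

section PoleBound

variable {X A : Scheme.{u}} [IsIntegral X] [IsIntegral A]
variable {ψ : X ⟶ A} {ι : A.functionField →+* X.functionField}

/-- `z ∈ K(X)` is integral over the ring of sections `Γ(A, V)` (acting through `ι`). -/
def IntOver (ι : A.functionField →+* X.functionField) (V : A.Opens) [Nonempty V]
    (z : X.functionField) : Prop :=
  (ι.comp (A.germToFunctionField V).hom).IsIntegralElem z

theorem IntOver.mono {V W : A.Opens} [Nonempty V] [Nonempty W] (h : W ≤ V)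
    {z : X.functionField} (hz : IntOver ι V z) : IntOver ι W z := by
  obtain ⟨p, hp, hpz⟩ := hz
  refine ⟨p.map (A.presheaf.map (homOfLE h).op).hom, hp.map _, ?_⟩
  rw [Polynomial.eval₂_map]
  convert hpz using 2
  ext s
  simp only [RingHom.comp_apply]
  congr 1
  exact A.presheaf.germ_res_apply (homOfLE h) _ _ s

/-- Single chart pole bound. -/
theorem exists_pow_regAt_of_intOver (hι : StalkCompat ψ ι) {V : A.Opens}
    (hV : IsAffineOpen V) [Nonempty V] (t : Γ(A, V)) [Nonempty (A.basicOpen t)]
    (e : X.functionField) (he : IntOver ι (A.basicOpen t) e) :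
    ∃ N : ℕ, ∀ x : X, ψ x ∈ V → IsIntegrallyClosed (X.presheaf.stalk x) →
      RegAt X x (ι (A.germToFunctionField V t) ^ N * e) := by
  letI algV : Algebra Γ(A, V) X.functionField :=
    (ι.comp (A.germToFunctionField V).hom).toAlgebra
  letI algD : Algebra Γ(A, A.basicOpen t) X.functionField :=
    (ι.comp (A.germToFunctionField (A.basicOpen t)).hom).toAlgebra
  haveI : IsScalarTower Γ(A, V) Γ(A, A.basicOpen t) X.functionField :=
    IsScalarTower.of_algebraMap_eq (fun s => by
      change ι (A.germToFunctionField V s) = ι (A.germToFunctionField (A.basicOpen t) _)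
      congr 1
      exact (A.presheaf.germ_res_apply (homOfLE (A.basicOpen_le t)) _ _ s).symm)
  haveI := hV.isLocalization_basicOpen t
  have he' : IsIntegral Γ(A, A.basicOpen t) e := he
  obtain ⟨⟨_, N, rfl⟩, hN⟩ :=
    IsIntegral.exists_multiple_integral_of_isLocalization (Submonoid.powers t) e he'
  refine ⟨N, fun x hx hcl => ?_⟩
  have hN' : IsIntegral Γ(A, V) (ι (A.germToFunctionField V t) ^ N * e) := by
    have : (⟨t ^ N, N, rfl⟩ : Submonoid.powers t) • e =
        ι (A.germToFunctionField V t) ^ N * e := by
      rw [Submonoid.smul_def, Algebra.smul_def]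
      change ι (A.germToFunctionField V (t ^ N)) * e = _
      rw [map_pow, map_pow]
    rw [← this]
    exact hN
  letI algS : Algebra Γ(A, V) (X.presheaf.stalk x) :=
    ((ψ.app V ≫ X.presheaf.germ (ψ ⁻¹ᵁ V) x hx).hom).toAlgebra
  haveI : IsScalarTower Γ(A, V) (X.presheaf.stalk x) X.functionField :=
    IsScalarTower.of_algebraMap_eq (fun s => hι.map_germ V hx s)
  exact regAt_of_isIntegral (IsIntegral.tower_top hN')

/-- **(G1) Pole bound on charts.**  `e ∈ K(X)` integral over `Γ(A, U)`; the complement of
`U` is cut out on each chart `V j` by `t j`.  Then `e` has poles of bounded order along the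
pullback of the divisor `(t j)`. -/
theorem exists_pow_regAt (hι : StalkCompat ψ ι)
    (hX : ∀ x : X, IsIntegrallyClosed (X.presheaf.stalk x))
    {U : A.Opens} [Nonempty U] {J : Type*} [Finite J] (V : J → A.Opens)
    (hV : ∀ j, IsAffineOpen (V j)) [∀ j, Nonempty (V j)] (t : ∀ j, Γ(A, V j))
    (hUV : ∀ j, U ⊓ V j = A.basicOpen (t j)) (e : X.functionField) (he : IntOver ι U e) :
    ∃ a : ℕ, ∀ j (x : X), ψ x ∈ V j →
      RegAt X x (e * ι (A.germToFunctionField (V j) (t j)) ^ a) := by
  have hne : ∀ j, Nonempty (A.basicOpen (t j)) := fun j => by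
    rw [← hUV j]
    obtain ⟨y, hy⟩ := nonempty_preirreducible_inter U.isOpen (V j).isOpen
      (Set.nonempty_coe_sort.mp ‹Nonempty U›)
      (Set.nonempty_coe_sort.mp (inferInstance : Nonempty (V j)))
    exact ⟨⟨y, hy⟩⟩
  have key : ∀ j, ∃ N : ℕ, ∀ x : X, ψ x ∈ V j → IsIntegrallyClosed (X.presheaf.stalk x) →
      RegAt X x (ι (A.germToFunctionField (V j) (t j)) ^ N * e) := fun j => by
    haveI := hne j
    exact exists_pow_regAt_of_intOver hι (hV j) (t j) e
      (he.mono (by rw [← hUV j]; exact inf_le_left))
  choose N hN using key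
  cases nonempty_fintype J
  refine ⟨Finset.univ.sup N, fun j x hx => ?_⟩
  have hle : N j ≤ Finset.univ.sup N := Finset.le_sup (Finset.mem_univ j)
  obtain ⟨k, hk⟩ := Nat.exists_eq_add_of_le hle
  have h1 := hN j x hx (hX x)
  have h2 : RegAt X x (ι (A.germToFunctionField (V j) (t j))) :=
    hι.regAt (regAt_germ hx (t j))
  have : e * ι (A.germToFunctionField (V j) (t j)) ^ Finset.univ.sup N =
      ι (A.germToFunctionField (V j) (t j)) ^ N j * e *
        ι (A.germToFunctionField (V j) (t j)) ^ k := by
    rw [hk, pow_add]; ring
  rw [this]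
  exact h1.mul (h2.pow k)

end PoleBound

section Trace

variable {X A : Scheme.{u}} [IsIntegral X] [IsIntegral A]
variable [Algebra A.functionField X.functionField]

/-- **(G2) Trace.**  If `z ∈ K(X)` is integral over `Γ(A, V)` then its trace is regular at
every point of `V` whose local ring is integrally closed. -/
theorem regAt_trace [FiniteDimensional A.functionField X.functionField]
    {V : A.Opens} [Nonempty V] {z : X.functionField}
    (hz : IntOver (algebraMap A.functionField X.functionField) V z) {y : A} (hy : y ∈ V)
    [IsIntegrallyClosed (A.presheaf.stalk y)] :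
    RegAt A y (Algebra.trace A.functionField X.functionField z) := by
  letI algV : Algebra Γ(A, V) X.functionField :=
    ((algebraMap A.functionField X.functionField).comp (A.germToFunctionField V).hom).toAlgebra
  haveI : IsScalarTower Γ(A, V) A.functionField X.functionField :=
    IsScalarTower.of_algebraMap_eq (fun _ => rfl)
  have h1 : IsIntegral Γ(A, V) z := hz
  have h2 : IsIntegral Γ(A, V) (Algebra.trace A.functionField X.functionField z) :=
    Algebra.isIntegral_trace h1
  letI algS : Algebra Γ(A, V) (A.presheaf.stalk y) := (A.presheaf.germ V y hy).hom.toAlgebra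
  haveI : IsScalarTower Γ(A, V) (A.presheaf.stalk y) A.functionField :=
    IsScalarTower.of_algebraMap_eq
      (fun s => (Scheme.algebraMap_germ_eq_germToFunctionField A hy s).symm)
  exact regAt_of_isIntegral (IsIntegral.tower_top h2)

end Trace

section Package

variable {X A : Scheme.{u}} [IsIntegral X] [IsIntegral A]
variable [Algebra A.functionField X.functionField]

/-- A `K(A)`-basis of `K(X)` indexed by `Fin (finrank)` whose members are integral over
`Γ(A, U)`, for `U` a nonempty affine open of `A`. -/
theorem exists_basis_intOver [FiniteDimensional A.functionField X.functionField]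
    {U : A.Opens} (hU : IsAffineOpen U) [Nonempty U] :
    ∃ b : Module.Basis (Fin (Module.finrank A.functionField X.functionField))
        A.functionField X.functionField,
      ∀ i, IntOver (algebraMap A.functionField X.functionField) U (b i) := by
  letI algU : Algebra Γ(A, U) X.functionField :=
    ((algebraMap A.functionField X.functionField).comp (A.germToFunctionField U).hom).toAlgebra
  haveI : IsScalarTower Γ(A, U) A.functionField X.functionField :=
    IsScalarTower.of_algebraMap_eq (fun _ => rfl)
  haveI := functionField_isFractionRing_of_isAffineOpen A U hU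
  obtain ⟨s, b, hb⟩ := FiniteDimensional.exists_is_basis_integral Γ(A, U) A.functionField
    X.functionField
  have hcard : Fintype.card s = Module.finrank A.functionField X.functionField :=
    (Module.finrank_eq_card_basis b).symm
  refine ⟨b.reindex (Fintype.equivFinOfCardEq hcard), fun i => ?_⟩
  rw [Module.Basis.reindex_apply]
  exact hb _

/-- **(G3) Package**: the two inclusions behind the sandwich (SW), on charts.
`τ j` is the local equation `t j` seen in `K(A)`. -/
theorem exists_basis_sw [FiniteDimensional A.functionField X.functionField]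
    {ψ : X ⟶ A} (hι : StalkCompat ψ (algebraMap A.functionField X.functionField))
    (hX : ∀ x : X, IsIntegrallyClosed (X.presheaf.stalk x))
    (hA : ∀ y : A, IsIntegrallyClosed (A.presheaf.stalk y))
    {U : A.Opens} (hU : IsAffineOpen U) [Nonempty U] {J : Type*} [Finite J] (V : J → A.Opens)
    (hV : ∀ j, IsAffineOpen (V j)) [∀ j, Nonempty (V j)] (t : ∀ j, Γ(A, V j))
    (hUV : ∀ j, U ⊓ V j = A.basicOpen (t j))
    (hINT : ∀ j (z : X.functionField), (∀ x : X, ψ x ∈ V j → RegAt X x z) →
      IntOver (algebraMap A.functionField X.functionField) (V j) z) :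
    ∃ (a : ℕ) (b : Module.Basis (Fin (Module.finrank A.functionField X.functionField))
        A.functionField X.functionField),
      (∀ i j (x : X), ψ x ∈ V j → RegAt X x (b i *
        algebraMap A.functionField X.functionField (A.germToFunctionField (V j) (t j)) ^ a)) ∧
      (∀ (m : ℕ) (w : A.functionField),
        (∀ j (y : A), y ∈ V j → RegAt A y (w * A.germToFunctionField (V j) (t j) ^ m)) →
        ∀ i j (x : X), ψ x ∈ V j → RegAt X x (algebraMap A.functionField X.functionField w * b i *
          algebraMap A.functionField X.functionField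
            (A.germToFunctionField (V j) (t j)) ^ (m + a))) ∧
      (∀ (m : ℕ) (h : X.functionField),
        (∀ j (x : X), ψ x ∈ V j → RegAt X x (h *
          algebraMap A.functionField X.functionField (A.germToFunctionField (V j) (t j)) ^ m)) →
        ∀ i j (y : A), y ∈ V j →
          RegAt A y (Algebra.trace A.functionField X.functionField (h * b i) *
            A.germToFunctionField (V j) (t j) ^ (m + a))) := by
  obtain ⟨b, hb⟩ := exists_basis_intOver (X := X) hU
  have key : ∀ i, ∃ a : ℕ, ∀ j (x : X), ψ x ∈ V j → RegAt X x (b i *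
      algebraMap A.functionField X.functionField (A.germToFunctionField (V j) (t j)) ^ a) :=
    fun i => exists_pow_regAt hι hX V hV t hUV (b i) (hb i)
  choose N hN using key
  set a := Finset.univ.sup N with ha
  have hτ : ∀ j (x : X), ψ x ∈ V j → RegAt X x
      (algebraMap A.functionField X.functionField (A.germToFunctionField (V j) (t j))) :=
    fun j x hx => hι.regAt (regAt_germ hx (t j))
  have hb' : ∀ i j (x : X), ψ x ∈ V j → RegAt X x (b i *
      algebraMap A.functionField X.functionField (A.germToFunctionField (V j) (t j)) ^ a) := by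
    intro i j x hx
    have hle : N i ≤ a := Finset.le_sup (Finset.mem_univ i)
    obtain ⟨k, hk⟩ := Nat.exists_eq_add_of_le hle
    rw [hk, pow_add, ← mul_assoc]
    exact (hN i j x hx).mul ((hτ j x hx).pow k)
  refine ⟨a, b, hb', ?_, ?_⟩
  · intro m w hw i j x hx
    have h1 : RegAt X x (algebraMap A.functionField X.functionField
        (w * A.germToFunctionField (V j) (t j) ^ m)) := hι.regAt (hw j (ψ x) hx)
    have : algebraMap A.functionField X.functionField w * b i *
        algebraMap A.functionField X.functionField (A.germToFunctionField (V j) (t j)) ^ (m + a)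
        = algebraMap A.functionField X.functionField
            (w * A.germToFunctionField (V j) (t j) ^ m) *
          (b i * algebraMap A.functionField X.functionField
            (A.germToFunctionField (V j) (t j)) ^ a) := by
      rw [map_mul, map_pow, pow_add]; ring
    rw [this]
    exact h1.mul (hb' i j x hx)
  · intro m h hh i j y hy
    have hz : ∀ x : X, ψ x ∈ V j → RegAt X x (h * b i *
        algebraMap A.functionField X.functionField
          (A.germToFunctionField (V j) (t j)) ^ (m + a)) := by
      intro x hx
      have : h * b i * algebraMap A.functionField X.functionField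
          (A.germToFunctionField (V j) (t j)) ^ (m + a) =
          h * algebraMap A.functionField X.functionField
            (A.germToFunctionField (V j) (t j)) ^ m *
          (b i * algebraMap A.functionField X.functionField
            (A.germToFunctionField (V j) (t j)) ^ a) := by
        rw [pow_add]; ring
      rw [this]
      exact (hh j x hx).mul (hb' i j x hx)
    haveI := hA y
    have h3 := regAt_trace (hINT j _ hz) hy
    have : Algebra.trace A.functionField X.functionField (h * b i *
        algebraMap A.functionField X.functionField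
          (A.germToFunctionField (V j) (t j)) ^ (m + a)) =
        Algebra.trace A.functionField X.functionField (h * b i) *
          A.germToFunctionField (V j) (t j) ^ (m + a) := by
      rw [← map_pow, mul_comm _ (algebraMap A.functionField X.functionField _),
        ← Algebra.smul_def, map_smul, smul_eq_mul, mul_comm]
    rw [← this]
    exact h3

end Package

section GenericFibre

variable {X A : Scheme.{u}} [IsIntegral X] [IsIntegral A]

/-- A point of an integral scheme whose local ring is a field is the generic point. -/
theorem eq_genericPoint_of_isField_stalk {x : X} (h : IsField (X.presheaf.stalk x)) :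
    x = genericPoint X := by
  by_contra hne
  have hspec : genericPoint X ⤳ x := (genericPoint_spec X).specializes trivial
  have hnot : ¬ x ⤳ genericPoint X := fun h' => hne (h'.antisymm hspec).eq
  rw [specializes_iff_forall_open] at hnot
  push Not at hnot
  obtain ⟨S, hSo, hηS, hxS⟩ := hnot
  obtain ⟨_, ⟨V, hV, rfl⟩, hxV, -⟩ :=
    X.isBasis_affineOpens.exists_subset_of_mem_open (Set.mem_univ x) isOpen_univ
  have hηV : genericPoint X ∈ V :=
    ((genericPoint_spec X).mem_open_set_iff V.isOpen).mpr ⟨x, trivial, hxV⟩
  let W : X.Opens := ⟨S, hSo⟩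
  obtain ⟨f, hfW, hηf⟩ := hV.exists_basicOpen_le (V := W) ⟨genericPoint X, hηS⟩ hηV
  have hxf : x ∉ X.basicOpen f := fun hx => hxS (hfW hx)
  rw [Scheme.mem_basicOpen X f x hxV] at hxf
  rw [Scheme.mem_basicOpen X f (genericPoint X) hηV] at hηf
  have h0 : X.presheaf.germ V x hxV f = 0 := by
    by_contra hne0
    obtain ⟨r', hr'⟩ := h.mul_inv_cancel hne0
    exact hxf (IsUnit.of_mul_eq_one _ hr')
  haveI : Nonempty V := ⟨⟨x, hxV⟩⟩
  have h1 : X.germToFunctionField V f = 0 := by
    rw [← Scheme.algebraMap_germ_eq_germToFunctionField X hxV f, h0, map_zero]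
  have h2 : X.presheaf.germ V (genericPoint X) hηV f = 0 := h1
  rw [h2] at hηf
  exact not_isUnit_zero hηf

theorem algebraMap_stalk_surjective_of_eq {y : A} (hy : y = genericPoint A) :
    Function.Surjective (algebraMap (A.presheaf.stalk y) A.functionField) := by
  subst hy
  intro c
  refine ⟨c, ?_⟩
  change (A.presheaf.stalkSpecializes _).hom c = c
  rw [TopCat.Presheaf.stalkSpecializes_refl]
  rfl

variable [Algebra A.functionField X.functionField]

/-- If `K(X)` is algebraic over `K(A)`, the only point of `X` above the generic point of `A`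
is the generic point of `X`. -/
theorem eq_genericPoint_of_map_eq [Algebra.IsAlgebraic A.functionField X.functionField]
    {ψ : X ⟶ A} (hι : StalkCompat ψ (algebraMap A.functionField X.functionField)) {x : X}
    (hx : ψ x = genericPoint A) : x = genericPoint X := by
  apply eq_genericPoint_of_isField_stalk
  let S : Subalgebra A.functionField X.functionField :=
    { (algebraMap (X.presheaf.stalk x) X.functionField).range with
      algebraMap_mem' := fun c => by
        obtain ⟨c', rfl⟩ := algebraMap_stalk_surjective_of_eq hx c
        exact ⟨ψ.stalkMap x c', (hι x c').symm⟩ }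
  have hinj : Function.Injective (algebraMap (X.presheaf.stalk x) X.functionField) :=
    IsFractionRing.injective _ _
  refine ⟨⟨0, 1, zero_ne_one⟩, mul_comm, fun {r} hr => ?_⟩
  have hz : (algebraMap (X.presheaf.stalk x) X.functionField r) ∈ S := ⟨r, rfl⟩
  have hinv := S.inv_mem_of_algebraic (x := ⟨_, hz⟩)
    (Algebra.IsAlgebraic.isAlgebraic (R := A.functionField) _)
  obtain ⟨r', hr'⟩ := hinv
  refine ⟨r', hinj ?_⟩
  rw [map_mul, hr', map_one]
  exact mul_inv_cancel₀ (fun h0 => hr (hinj (by rw [h0, map_zero])))

/-- **Denominators from the base.**  `ψ : X ⟶ A` universally closed, quasi-compact and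
quasi-separated (e.g. proper), `K(X)` algebraic over `K(A)`, `U` a nonempty affine open of `A`.
Every `e ∈ K(X)` becomes regular over `U` after multiplication by (the pull-back of) a nonzero
function `c ∈ Γ(A, U)`.  No normality of `X` is needed. -/
theorem exists_mul_regAt [Algebra.IsAlgebraic A.functionField X.functionField]
    {ψ : X ⟶ A} [UniversallyClosed ψ] [QuasiCompact ψ] [QuasiSeparated ψ]
    (hι : StalkCompat ψ (algebraMap A.functionField X.functionField))
    (hdom : ψ (genericPoint X) = genericPoint A)
    {U : A.Opens} (hU : IsAffineOpen U) [Nonempty U] (e : X.functionField) :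
    ∃ c : Γ(A, U), A.germToFunctionField U c ≠ 0 ∧ ∀ x : X, ψ x ∈ U →
      RegAt X x (e * algebraMap A.functionField X.functionField (A.germToFunctionField U c)) := by
  obtain ⟨W, hηW, σ, hσ⟩ := X.presheaf.exists_germ_eq e
  have hηU : genericPoint A ∈ U :=
    ((genericPoint_spec A).mem_open_set_iff U.isOpen).mpr
      (by simpa using (inferInstance : Nonempty U))
  -- the closed set `ψ (X \ W)` misses the generic point of `A`
  have hZ : IsClosed ((W : Set X)ᶜ) := W.isOpen.isClosed_compl
  have hC : IsClosed (ψ.base '' (W : Set X)ᶜ) := ψ.isClosedMap _ hZ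
  have hηC : genericPoint A ∉ ψ.base '' (W : Set X)ᶜ := by
    rintro ⟨x, hxZ, hx⟩
    have := eq_genericPoint_of_map_eq hι hx
    subst this
    exact hxZ hηW
  let O : A.Opens := ⟨(ψ.base '' (W : Set X)ᶜ)ᶜ, hC.isOpen_compl⟩
  obtain ⟨s, hsO, hηs⟩ := hU.exists_basicOpen_le (V := O) ⟨genericPoint A, hηC⟩ hηU
  have hpre : ψ ⁻¹ᵁ (A.basicOpen s) = X.basicOpen (ψ.app U s) := Scheme.preimage_basicOpen ψ s
  have hle : X.basicOpen (ψ.app U s) ≤ W := by
    intro x hx
    rw [← hpre] at hx
    by_contra hxW
    exact hsO hx ⟨x, hxW, rfl⟩
  have hηb : genericPoint X ∈ X.basicOpen (ψ.app U s) := by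
    rw [← hpre]
    change ψ (genericPoint X) ∈ A.basicOpen s
    rw [hdom]
    exact hηs
  have hηY : genericPoint X ∈ ψ ⁻¹ᵁ U := by
    change ψ (genericPoint X) ∈ U
    rw [hdom]
    exact hηU
  haveI : Nonempty (ψ ⁻¹ᵁ U) := ⟨⟨_, hηY⟩⟩
  haveI loc := isLocalization_basicOpen_of_qcqs (ψ.isCompact_preimage hU.isCompact)
    (ψ.isQuasiSeparated_preimage hU.isQuasiSeparated) (ψ.app U s)
  obtain ⟨N, b, hb⟩ := IsLocalization.Away.surj (ψ.app U s)
    (X.presheaf.map (homOfLE hle).op σ)
  -- take germs at the generic point
  have hg := congrArg (X.presheaf.germ (X.basicOpen (ψ.app U s)) (genericPoint X) hηb) hb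
  rw [map_mul, map_pow] at hg
  have e1 : X.presheaf.germ (X.basicOpen (ψ.app U s)) (genericPoint X) hηb
      (X.presheaf.map (homOfLE hle).op σ) = e := by
    rw [← hσ]
    exact X.presheaf.germ_res_apply (homOfLE hle) _ _ σ
  have e2 : ∀ r : Γ(X, ψ ⁻¹ᵁ U), X.presheaf.germ (X.basicOpen (ψ.app U s)) (genericPoint X) hηb
      (algebraMap Γ(X, ψ ⁻¹ᵁ U) Γ(X, X.basicOpen (ψ.app U s)) r) =
      X.germToFunctionField (ψ ⁻¹ᵁ U) r := fun r =>
    X.presheaf.germ_res_apply (homOfLE (X.basicOpen_le (ψ.app U s))) _ _ r
  rw [e1, e2, e2] at hg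
  have e3 : algebraMap A.functionField X.functionField (A.germToFunctionField U s) =
      X.germToFunctionField (ψ ⁻¹ᵁ U) (ψ.app U s) := by
    rw [hι.map_germ U (x := genericPoint X) hηY s,
      Scheme.algebraMap_germ_eq_germToFunctionField]
  refine ⟨s ^ N, ?_, fun x hx => ?_⟩
  · rw [map_pow]
    apply pow_ne_zero
    have hu := (Scheme.mem_basicOpen A s (genericPoint A) hηU).mp hηs
    exact hu.ne_zero
  · rw [map_pow, map_pow, e3, hg]
    exact regAt_germ (U := ψ ⁻¹ᵁ U) hx b

/-- **Basis regular over `U`** (input of (SW)-LOWER, no normality of `X`): a `K(A)`-basis of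
`K(X)` all of whose members are regular at every point of `ψ ⁻¹ U`. -/
theorem exists_basis_regAt [FiniteDimensional A.functionField X.functionField]
    {ψ : X ⟶ A} [UniversallyClosed ψ] [QuasiCompact ψ] [QuasiSeparated ψ]
    (hι : StalkCompat ψ (algebraMap A.functionField X.functionField))
    (hdom : ψ (genericPoint X) = genericPoint A)
    {U : A.Opens} (hU : IsAffineOpen U) [Nonempty U] :
    ∃ b : Module.Basis (Fin (Module.finrank A.functionField X.functionField))
        A.functionField X.functionField,
      ∀ i (x : X), ψ x ∈ U → RegAt X x (b i) := by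
  let b₀ := Module.finBasis A.functionField X.functionField
  choose c hc0 hc using fun i => exists_mul_regAt hι hdom hU (b₀ i)
  refine ⟨b₀.unitsSMul (fun i => Units.mk0 _ (hc0 i)), fun i x hx => ?_⟩
  rw [Module.Basis.unitsSMul_apply, Units.smul_def, Units.val_mk0, Algebra.smul_def, mul_comm]
  exact hc i x hx

end GenericFibre

end Fermat.Agent.S26.helper2726
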