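import Mathlib

/-!
# S26-M6c-CHART: étale coordinates and coordinate curves at a rational point of a smooth scheme

(helper3190; board row 1618; route #2746 M6 / D4.)
-/

set_option autoImplicit false

namespace Fermat.Agent.S26.helper3190

open TensorProduct

universe u v w

section StdSmoothPoly

variable (R : Type u) [CommRing R] (ι : Type v)

/-- The presentation of `MvPolynomial ι R` over `R` with generators the variables and no
relations. -/
noncomputable def mvPolyPresentation : Algebra.Presentation R (MvPolynomial ι R) ι PEmpty.{1} where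
  __ := Algebra.Generators.mvPolynomial R ι
  relation := PEmpty.elim
  span_range_relation_eq_ker := by
    have h : Set.range (PEmpty.elim : PEmpty.{1} → (Algebra.Generators.mvPolynomial R ι).Ring) = ∅ :=
      Set.range_eq_empty _
    rw [h, Ideal.span_empty]
    symm
    rw [eq_bot_iff]
    intro x hx
    rw [Algebra.Generators.ker_eq_ker_aeval_val, RingHom.mem_ker] at hx
    simpa using hx

/-- The (pre)submersive presentation of `MvPolynomial ι R` over `R` with no relations. -/
noncomputable def mvPolyPreSubmersive :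
    Algebra.PreSubmersivePresentation R (MvPolynomial ι R) ι PEmpty.{1} where
  toPresentation := mvPolyPresentation R ι
  map := PEmpty.elim
  map_inj (a b : PEmpty) _ := by contradiction

lemma mvPolyPreSubmersive_jacobian : (mvPolyPreSubmersive R ι).jacobian = 1 := by
  rw [Algebra.PreSubmersivePresentation.jacobian_eq_jacobiMatrix_det, RingHom.map_det]
  exact Matrix.det_isEmpty

/-- The submersive presentation of `MvPolynomial ι R` over `R` with no relations. -/
noncomputable def mvPolySubmersive :
    Algebra.SubmersivePresentation R (MvPolynomial ι R) ι PEmpty.{1} where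
  __ := mvPolyPreSubmersive R ι
  jacobian_isUnit := by
    rw [mvPolyPreSubmersive_jacobian]
    exact isUnit_one

/-- A polynomial ring in finitely many variables is standard smooth of relative dimension
the number of variables. -/
theorem isStandardSmoothOfRelativeDimension_mvPolynomial [Finite ι] :
    Algebra.IsStandardSmoothOfRelativeDimension (Nat.card ι) R (MvPolynomial ι R) :=
  (mvPolySubmersive R ι).isStandardSmoothOfRelativeDimension
    (by simp [Algebra.Presentation.dimension])

/-- The univariate polynomial ring is standard smooth of relative dimension one. -/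
theorem isStandardSmoothOfRelativeDimension_polynomial :
    Algebra.IsStandardSmoothOfRelativeDimension 1 R (Polynomial R) := by
  have h := isStandardSmoothOfRelativeDimension_mvPolynomial R PUnit.{1}
  rw [Nat.card_unique] at h
  exact Algebra.IsStandardSmoothOfRelativeDimension.of_algEquiv 1 (MvPolynomial.uniqueAlgEquiv R PUnit.{1})

end StdSmoothPoly

section LocalDomain

/-- A noetherian local ring whose maximal ideal is generated by one regular element is a domain. -/
theorem isDomain_of_maximalIdeal_eq_span {O : Type*} [CommRing O] [IsLocalRing O]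
    [IsNoetherianRing O] (ϖ : O) (hϖ : IsLocalRing.maximalIdeal O = Ideal.span {ϖ})
    (hreg : IsSMulRegular O ϖ) : IsDomain O := by
  have hK := Ideal.iInf_pow_eq_bot_of_isLocalRing (IsLocalRing.maximalIdeal O)
    (IsLocalRing.maximalIdeal.isMaximal O).ne_top
  have key : ∀ x : O, x ≠ 0 → ∃ n : ℕ, ∃ u : O, IsUnit u ∧ x = ϖ ^ n * u := by
    intro x hx
    have hex : ∃ n, x ∉ IsLocalRing.maximalIdeal O ^ n := by
      by_contra h
      push Not at h
      have h' : x ∈ ⨅ i, IsLocalRing.maximalIdeal O ^ i := (Ideal.mem_iInf).mpr h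
      rw [hK] at h'
      exact hx h'
    classical
    let n := Nat.find hex
    have hn : x ∉ IsLocalRing.maximalIdeal O ^ n := Nat.find_spec hex
    have hn0 : n ≠ 0 := by
      intro h0
      rw [h0, pow_zero, Ideal.one_eq_top] at hn
      exact hn Submodule.mem_top
    obtain ⟨k, hk⟩ := Nat.exists_eq_succ_of_ne_zero hn0
    have hxk : x ∈ IsLocalRing.maximalIdeal O ^ k := by
      by_contra h
      exact Nat.find_min hex (by omega : k < n) h
    rw [hϖ, Ideal.span_singleton_pow, Ideal.mem_span_singleton'] at hxk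
    obtain ⟨u, hu⟩ := hxk
    refine ⟨k, u, ?_, by rw [← hu, mul_comm]⟩
    by_contra hnu
    have hum : u ∈ IsLocalRing.maximalIdeal O := (IsLocalRing.mem_maximalIdeal u).mpr hnu
    rw [hϖ, Ideal.mem_span_singleton'] at hum
    obtain ⟨v, hv⟩ := hum
    apply hn
    rw [hk, hϖ, Ideal.span_singleton_pow, Ideal.mem_span_singleton']
    refine ⟨v, ?_⟩
    rw [← hu, ← hv, pow_succ]
    ring
  have hnz : NoZeroDivisors O := by
    refine ⟨fun {x y} hxy => ?_⟩
    by_contra h
    push Not at h
    obtain ⟨n, u, hu, rfl⟩ := key x h.1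
    obtain ⟨k, v, hv, rfl⟩ := key y h.2
    have h1 : ϖ ^ (n + k) * (u * v) = 0 := by rw [← hxy]; ring
    have h2 : ϖ ^ (n + k) = 0 := by
      exact (hu.mul hv).mul_left_eq_zero.mp h1
    have h3 : (1 : O) = 0 := by
      apply (hreg.pow (n + k))
      simp [h2]
    exact one_ne_zero h3
  exact NoZeroDivisors.to_isDomain O

/-- In a noetherian ring, if the localisation at a prime is a domain then so is the
localisation away from a suitable element outside the prime. -/
theorem exists_away_isDomain_of_atPrime {S : Type*} [CommRing S] [IsNoetherianRing S]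
    (m : Ideal S) [m.IsPrime] [IsDomain (Localization.AtPrime m)] :
    ∃ h : S, h ∉ m ∧ IsDomain (Localization.Away h) := by
  classical
  let O := Localization.AtPrime m
  let I : Ideal S := RingHom.ker (algebraMap S O)
  obtain ⟨T, hT⟩ : I.FG := IsNoetherian.noetherian I
  have hex : ∀ t : S, t ∈ I → ∃ u : S, u ∉ m ∧ u * t = 0 := by
    intro t ht
    have := (IsLocalization.map_eq_zero_iff m.primeCompl O t).mp ht
    obtain ⟨c, hc⟩ := this
    exact ⟨c.1, c.2, hc⟩
  have hTI : ∀ t ∈ T, t ∈ I := fun t ht => hT ▸ Ideal.subset_span ht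
  choose! u hu using hex
  let h : S := ∏ t ∈ T, u t
  have hhm : h ∉ m := by
    intro hmem
    obtain ⟨t, ht, htm⟩ := (Ideal.IsPrime.prod_mem_iff (hp := (inferInstance : m.IsPrime))).mp hmem
    exact (hu t (hTI t ht)).1 htm
  have hkill : ∀ s ∈ I, h * s = 0 := by
    intro s hs
    rw [← hT] at hs
    refine Submodule.span_induction (p := fun s _ => h * s = 0) ?_ ?_ ?_ ?_ hs
    · intro t ht
      obtain ⟨w, hw⟩ := Finset.dvd_prod_of_mem u ht
      show h * t = 0
      rw [show h = u t * w from hw, mul_assoc, mul_comm w t, ← mul_assoc, (hu t (hTI t ht)).2,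
        zero_mul]
    · simp
    · intro x y _ _ hx hy
      rw [mul_add, hx, hy, add_zero]
    · intro a x _ hx
      rw [smul_eq_mul, mul_left_comm, hx, mul_zero]
  refine ⟨h, hhm, ?_⟩
  have hunit : IsUnit (algebraMap S O h) :=
    IsLocalization.map_units O (⟨h, hhm⟩ : m.primeCompl)
  have hg : ∀ y : Submonoid.powers h, IsUnit (algebraMap S O y) := by
    rintro ⟨_, k, rfl⟩
    simpa using hunit.pow k
  let φ : Localization.Away h →+* O := IsLocalization.lift hg
  have hinj : Function.Injective φ := by
    refine (IsLocalization.lift_injective_iff hg).mpr ?_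
    intro x y
    constructor
    · intro hxy
      obtain ⟨c, hc⟩ := (IsLocalization.eq_iff_exists (Submonoid.powers h) (Localization.Away h)).mp hxy
      obtain ⟨k, hk⟩ := c.2
      have hcu : IsUnit (algebraMap S O c.1) := by
        rw [← hk, map_pow]; exact hunit.pow k
      have := congrArg (algebraMap S O) hc
      rw [map_mul, map_mul] at this
      exact hcu.mul_left_cancel this
    · intro hxy
      have hI : x - y ∈ I := by
        show algebraMap S O (x - y) = 0
        rw [map_sub, hxy, sub_self]
      have := hkill _ hI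
      rw [IsLocalization.eq_iff_exists (Submonoid.powers h) (Localization.Away h)]
      refine ⟨⟨h, Submonoid.mem_powers h⟩, ?_⟩
      rw [mul_sub] at this
      exact sub_eq_zero.mp this
  exact Function.Injective.isDomain φ hinj

/-- Every local ring of an étale algebra over a principal ideal domain is a domain. -/
theorem isDomain_atPrime_of_etale_pid {R S : Type*} [CommRing R] [IsDomain R]
    [IsPrincipalIdealRing R] [CommRing S] [Algebra R S] [Algebra.Etale R S]
    (m : Ideal S) [m.IsPrime] : IsDomain (Localization.AtPrime m) := by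
  let p : Ideal R := m.under R
  have hpp : p.IsPrime := inferInstance
  have hlo : m.LiesOver p := inferInstance
  let algloc := Localization.AtPrime.algebraOfLiesOver p m
  have hunr : Algebra.IsUnramifiedAt R m := by
    show Algebra.FormallyUnramified R (Localization.AtPrime m)
    exact Algebra.FormallyUnramified.comp R S (Localization.AtPrime m)
  have hmax := ((Algebra.isUnramifiedAt_iff_map_eq R p m).mp hunr).2
  obtain ⟨f, hf⟩ : ∃ f, p = Ideal.span {f} := (IsPrincipalIdealRing.principal p).principal
  rw [hf, Ideal.map_span, Set.image_singleton] at hmax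
  have hSn : IsNoetherianRing S := Algebra.FiniteType.isNoetherianRing R S
  have hOn : IsNoetherianRing (Localization.AtPrime m) :=
    IsLocalization.isNoetherianRing m.primeCompl _ hSn
  by_cases hf0 : f = 0
  · rw [hf0, map_zero, Ideal.span_singleton_zero] at hmax
    exact (IsLocalRing.isField_iff_maximalIdeal_eq.mpr hmax.symm).isDomain
  · have hflat : Module.Flat R (Localization.AtPrime m) := by
      have h1 : Module.Flat R S := Algebra.Smooth.flat R S
      have h2 : Module.Flat S (Localization.AtPrime m) := IsLocalization.flat _ m.primeCompl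
      exact Module.Flat.trans R S _
    have hreg : IsSMulRegular R f := (IsRegular.of_ne_zero hf0).isSMulRegular
    exact isDomain_of_maximalIdeal_eq_span _ hmax.symm (IsSMulRegular.of_flat hreg)

end LocalDomain

section AlgCore

open Polynomial

/-- The `K`-algebra map `K[T₁, …, Tₙ] → K[X]` of the `i`-th coordinate line through `a`. -/
noncomputable def axisHom {K : Type u} [Field K] {n : ℕ} (a : Fin n → K) (i : Fin n) :
    MvPolynomial (Fin n) K →ₐ[K] K[X] :=
  MvPolynomial.aeval (Function.update (fun k => Polynomial.C (a k)) i Polynomial.X)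

lemma axisHom_X_self {K : Type u} [Field K] {n : ℕ} (a : Fin n → K) (i : Fin n) :
    axisHom a i (MvPolynomial.X i) = Polynomial.X := by
  simp [axisHom]

lemma axisHom_X_ne {K : Type u} [Field K] {n : ℕ} (a : Fin n → K) {i k : Fin n} (h : k ≠ i) :
    axisHom a i (MvPolynomial.X k) = Polynomial.C (a k) := by
  simp [axisHom, Function.update_of_ne h]

lemma axisHom_surjective {K : Type u} [Field K] {n : ℕ} (a : Fin n → K) (i : Fin n) :
    Function.Surjective (axisHom a i) := by
  rw [← AlgHom.range_eq_top, eq_top_iff, ← Polynomial.adjoin_X]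
  exact Algebra.adjoin_le (by rintro _ rfl; exact ⟨MvPolynomial.X i, axisHom_X_self a i⟩)

theorem exists_axis_algebra {K B : Type u} [Field K] [CommRing B] [Algebra K B] {n : ℕ}
    (g : MvPolynomial (Fin n) K →ₐ[K] B) (hg : g.toRingHom.Etale) (a : Fin n → K) (i : Fin n) :
    ∃ (S : Type u) (_ : CommRing S) (_ : Algebra K S) (π : B →ₐ[K] S) (τ : K[X] →ₐ[K] S),
      Function.Surjective π ∧ τ.toRingHom.Etale ∧ π (g (MvPolynomial.X i)) = τ X ∧
      (∀ k, k ≠ i → π (g (MvPolynomial.X k)) = algebraMap K S (a k)) ∧
      ∀ e : B →ₐ[K] K, (∀ k, e (g (MvPolynomial.X k)) = a k) → ∃ e' : S →ₐ[K] K, e'.comp π = e := by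
  classical
  let algB : Algebra (MvPolynomial (Fin n) K) B := g.toRingHom.toAlgebra
  let algX : Algebra (MvPolynomial (Fin n) K) K[X] := (axisHom a i).toRingHom.toAlgebra
  have : Algebra.Etale (MvPolynomial (Fin n) K) B := hg
  have hB : ∀ p : MvPolynomial (Fin n) K, algebraMap (MvPolynomial (Fin n) K) B p = g p := fun _ => rfl
  have hX : ∀ p : MvPolynomial (Fin n) K, algebraMap (MvPolynomial (Fin n) K) K[X] p = axisHom a i p :=
    fun _ => rfl
  let S := K[X] ⊗[MvPolynomial (Fin n) K] B
  let τ₀ : K[X] →+* S := algebraMap K[X] S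
  let π₀ : B →+* S := (Algebra.TensorProduct.includeRight : B →ₐ[MvPolynomial (Fin n) K] S).toRingHom
  have hτπ : ∀ p : MvPolynomial (Fin n) K, π₀ (g p) = τ₀ (axisHom a i p) := by
    intro p
    show (1 : K[X]) ⊗ₜ[MvPolynomial (Fin n) K] (g p) = algebraMap K[X] S (axisHom a i p)
    rw [Algebra.TensorProduct.algebraMap_apply, ← hB, ← hX, Algebra.algebraMap_eq_smul_one,
      Algebra.algebraMap_eq_smul_one, TensorProduct.tmul_smul, TensorProduct.smul_tmul']
    rfl
  let algS : Algebra K S := (τ₀.comp (algebraMap K K[X])).toAlgebra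
  have hS : ∀ c : K, algebraMap K S c = τ₀ (Polynomial.C c) := fun _ => rfl
  let π : B →ₐ[K] S :=
    { toRingHom := π₀
      commutes' := by
        intro c
        have h1 : algebraMap K B c = g (MvPolynomial.C c) := by
          rw [← MvPolynomial.algebraMap_eq, AlgHom.commutes]
        show π₀ (algebraMap K B c) = algebraMap K S c
        rw [h1, hτπ, hS]
        congr 1
        rw [← MvPolynomial.algebraMap_eq, AlgHom.commutes]; rfl }
  let τ : K[X] →ₐ[K] S :=
    { toRingHom := τ₀
      commutes' := fun c => rfl }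
  refine ⟨S, inferInstance, algS, π, τ, ?_, ?_, ?_, ?_, ?_⟩
  · exact Algebra.TensorProduct.includeRight_surjective B (axisHom_surjective a i)
  · show (algebraMap K[X] S).Etale
    exact RingHom.etale_algebraMap.mpr (Algebra.Etale.baseChange _ _ _)
  · show π₀ (g (MvPolynomial.X i)) = τ₀ X
    rw [hτπ, axisHom_X_self]
  · intro k hk
    show π₀ (g (MvPolynomial.X k)) = algebraMap K S (a k)
    rw [hτπ, axisHom_X_ne a hk, hS]
  · intro e he
    let algK : Algebra (MvPolynomial (Fin n) K) K :=
      (MvPolynomial.aeval a : MvPolynomial (Fin n) K →ₐ[K] K).toRingHom.toAlgebra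
    have hK : ∀ p : MvPolynomial (Fin n) K,
        algebraMap (MvPolynomial (Fin n) K) K p = MvPolynomial.aeval a p := fun _ => rfl
    have h1 : (Polynomial.aeval (a i) : K[X] →ₐ[K] K).comp (axisHom a i) = MvPolynomial.aeval a := by
      apply MvPolynomial.algHom_ext
      intro k
      by_cases hk : k = i
      · subst hk
        simp [axisHom_X_self]
      · simp [axisHom_X_ne a hk]
    have h2 : e.comp g = MvPolynomial.aeval a := by
      apply MvPolynomial.algHom_ext
      intro k
      simp [he k]
    let f' : K[X] →ₐ[MvPolynomial (Fin n) K] K :=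
      { toRingHom := (Polynomial.aeval (a i) : K[X] →ₐ[K] K).toRingHom
        commutes' := fun p => by
          rw [hX, hK, ← h1]
          rfl }
    let g' : B →ₐ[MvPolynomial (Fin n) K] K :=
      { toRingHom := e.toRingHom
        commutes' := fun p => by
          rw [hB, hK, ← h2]
          rfl }
    let ρ : S →ₐ[MvPolynomial (Fin n) K] K := Algebra.TensorProduct.productMap f' g'
    let e' : S →ₐ[K] K :=
      { toRingHom := ρ.toRingHom
        commutes' := fun c => by
          show ρ (algebraMap K[X] S (Polynomial.C c)) = algebraMap K K c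
          rw [Algebra.TensorProduct.algebraMap_apply, Algebra.TensorProduct.productMap_apply_tmul]
          show Polynomial.aeval (a i) (algebraMap K[X] K[X] (Polynomial.C c)) * e 1 = _
          simp }
    refine ⟨e', ?_⟩
    ext b
    exact DFunLike.congr_fun (Algebra.TensorProduct.productMap_right f' g') b

/-- **Coordinate curves, algebra form.**  Let `B` be standard smooth of relative dimension `n`
over a field `K` and `e : B → K` a `K`-point.  There are étale coordinates `t₁, …, tₙ` on `B`
and, for every `i`, a `K`-algebra `S` which is a domain, étale over `K[X]` (hence standard smooth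
of relative dimension one over `K`), together with a map `π : B → S` that identifies `Spec S` with
a closed subscheme of a basic open `D(h)` of `Spec B` containing the point `e`, such that
`π (t i) = X` and `π (t k)` is the constant `e (t k)` for `k ≠ i`. -/
theorem exists_coordCurve_algebra {K B : Type u} [Field K] [CommRing B] [Algebra K B] (n : ℕ)
    [Algebra.IsStandardSmoothOfRelativeDimension n K B] (e : B →ₐ[K] K) :
    ∃ t : Fin n → B,
      (MvPolynomial.aeval t : MvPolynomial (Fin n) K →ₐ[K] B).toRingHom.Etale ∧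
      ∀ i : Fin n, ∃ (S : Type u) (_ : CommRing S) (_ : IsDomain S) (_ : Algebra K S)
        (π : B →ₐ[K] S) (τ : K[X] →ₐ[K] S) (e' : S →ₐ[K] K) (h : B) (hu : IsUnit (π h)),
        e'.comp π = e ∧ τ.toRingHom.Etale ∧
        Algebra.IsStandardSmoothOfRelativeDimension 1 K S ∧
        π (t i) = τ X ∧ (∀ k, k ≠ i → π (t k) = algebraMap K S (e (t k))) ∧
        Function.Surjective (IsLocalization.Away.lift (S := Localization.Away h) h hu) := by
  obtain ⟨g, hg⟩ := Algebra.IsStandardSmoothOfRelativeDimension.exists_etale_mvPolynomial n K B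
  refine ⟨fun k => g (MvPolynomial.X k), ?_, ?_⟩
  · have hgg : (MvPolynomial.aeval fun k => g (MvPolynomial.X k)) = g := by
      apply MvPolynomial.algHom_ext
      intro k
      simp
    rw [hgg]
    exact hg
  intro i
  obtain ⟨S₀, _, _, π₀, τ₀, hπ₀, hτ₀, hi, hk, he⟩ :=
    exists_axis_algebra g hg (fun k => e (g (MvPolynomial.X k))) i
  obtain ⟨e₀, he₀⟩ := he e (fun k => rfl)
  let algXS : Algebra K[X] S₀ := τ₀.toRingHom.toAlgebra
  have hsc : IsScalarTower K K[X] S₀ := IsScalarTower.of_algebraMap_eq' τ₀.comp_algebraMap.symm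
  have hEt : Algebra.Etale K[X] S₀ := hτ₀
  let m : Ideal S₀ := RingHom.ker e₀.toRingHom
  have hm : m.IsPrime := RingHom.ker_isPrime _
  have hdom : IsDomain (Localization.AtPrime m) := isDomain_atPrime_of_etale_pid (R := K[X]) m
  have hSn : IsNoetherianRing S₀ := Algebra.FiniteType.isNoetherianRing K[X] S₀
  obtain ⟨h₀, hh₀, hdomh⟩ := exists_away_isDomain_of_atPrime m
  obtain ⟨h, hh⟩ := hπ₀ h₀
  let S := Localization.Away h₀
  let ι : S₀ →ₐ[K] S := IsScalarTower.toAlgHom K S₀ S
  let π : B →ₐ[K] S := ι.comp π₀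
  let τ : K[X] →ₐ[K] S := ι.comp τ₀
  have he₀h : IsUnit (e₀ h₀) := by
    rw [isUnit_iff_ne_zero]
    exact fun h0 => hh₀ h0
  have hpow : ∀ y : Submonoid.powers h₀, IsUnit (e₀ y) := by
    rintro ⟨_, k, rfl⟩
    simpa using he₀h.pow k
  let e' : S →ₐ[K] K := IsLocalization.liftAlgHom (M := Submonoid.powers h₀) (f := e₀) hpow
  have hu : IsUnit (π h) := by
    show IsUnit (algebraMap S₀ S (π₀ h))
    rw [hh]
    exact IsLocalization.Away.algebraMap_isUnit h₀
  refine ⟨S, inferInstance, hdomh, inferInstance, π, τ, e', h, hu, ?_, ?_, ?_, ?_, ?_, ?_⟩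
  · ext b
    show IsLocalization.lift hpow (algebraMap S₀ S (π₀ b)) = e b
    rw [IsLocalization.lift_eq, ← he₀]
    rfl
  · have hτ : τ.toRingHom = algebraMap K[X] S := by
      ext p
      · rfl
      · rfl
    rw [hτ]
    exact RingHom.etale_algebraMap.mpr inferInstance
  · have h0 : Algebra.IsStandardSmoothOfRelativeDimension 0 K[X] S :=
      Algebra.Etale.iff_isStandardSmoothOfRelativeDimension_zero.mp inferInstance
    have h1 := isStandardSmoothOfRelativeDimension_polynomial K
    exact Algebra.IsStandardSmoothOfRelativeDimension.trans 1 0 K K[X] S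
  · show algebraMap S₀ S (π₀ (g (MvPolynomial.X i))) = algebraMap S₀ S (τ₀ X)
    rw [hi]
  · intro k hki
    show algebraMap S₀ S (π₀ (g (MvPolynomial.X k))) = algebraMap K S (e (g (MvPolynomial.X k)))
    rw [hk k hki, IsScalarTower.algebraMap_apply K S₀ S]
  · intro s
    obtain ⟨⟨s₀, ⟨_, k, rfl⟩⟩, hs⟩ := IsLocalization.surj (Submonoid.powers h₀) s
    obtain ⟨b, hb⟩ := hπ₀ s₀
    refine ⟨IsLocalization.mk' (Localization.Away h) b (⟨h ^ k, k, rfl⟩ : Submonoid.powers h), ?_⟩
    refine (IsLocalization.lift_mk'_spec _ _ _ _).mpr ?_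
    show algebraMap S₀ S (π₀ b) = algebraMap S₀ S (π₀ (h ^ k)) * s
    rw [hb, map_pow, hh, mul_comm]
    exact hs.symm

end AlgCore

open AlgebraicGeometry CategoryTheory

section SchemeWrapper

variable {K : Type u} [Field K] {A : Scheme.{u}}

/-- The structure homomorphism `K → Γ(A, V)` of a `K`-scheme `f : A ⟶ Spec K`. -/
noncomputable def strHom (f : A ⟶ Spec (CommRingCat.of K)) (V : A.Opens) :
    CommRingCat.of K ⟶ Γ(A, V) :=
  (Scheme.ΓSpecIso (CommRingCat.of K)).inv ≫ f.appLE ⊤ V le_top

/-- Evaluation `Γ(A, V) → K` at a `K`-point `e` lying in `V`. -/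
noncomputable def evalHom (e : Spec (CommRingCat.of K) ⟶ A) (V : A.Opens) (h : ⊤ ≤ e ⁻¹ᵁ V) :
    Γ(A, V) ⟶ CommRingCat.of K :=
  e.appLE V ⊤ h ≫ (Scheme.ΓSpecIso (CommRingCat.of K)).hom

lemma fromSpec_comp_eq (f : A ⟶ Spec (CommRingCat.of K)) {V : A.Opens} (hV : IsAffineOpen V) :
    hV.fromSpec ≫ f = Spec.map (strHom f V) := by
  rw [strHom, Spec.map_comp, ← IsAffineOpen.SpecMap_appLE_fromSpec f (isAffineOpen_top _) hV le_top,
    IsAffineOpen.fromSpec_top, Scheme.isoSpec_Spec_inv]

lemma SpecMap_evalHom_fromSpec (e : Spec (CommRingCat.of K) ⟶ A) {V : A.Opens}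
    (hV : IsAffineOpen V) (h : ⊤ ≤ e ⁻¹ᵁ V) :
    Spec.map (evalHom e V h) ≫ hV.fromSpec = e := by
  rw [evalHom, Spec.map_comp, Category.assoc,
    IsAffineOpen.SpecMap_appLE_fromSpec e hV (isAffineOpen_top _) h,
    IsAffineOpen.fromSpec_top, Scheme.isoSpec_Spec_inv, ← Spec.map_comp_assoc]
  simp

lemma strHom_evalHom (f : A ⟶ Spec (CommRingCat.of K)) (e : Spec (CommRingCat.of K) ⟶ A)
    (he : e ≫ f = 𝟙 _) {V : A.Opens} (hV : IsAffineOpen V) (h : ⊤ ≤ e ⁻¹ᵁ V) :
    strHom f V ≫ evalHom e V h = 𝟙 _ := by
  apply Spec.map_injective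
  rw [Spec.map_comp, ← fromSpec_comp_eq f hV, ← Category.assoc, SpecMap_evalHom_fromSpec e hV h,
    he, Spec.map_id]

lemma top_le_preimage_of_mem (e : Spec (CommRingCat.of K) ⟶ A) (V : A.Opens)
    (h : e.base default ∈ V) : ⊤ ≤ e ⁻¹ᵁ V := by
  intro x _
  have : x = default := Subsingleton.elim _ _
  subst this
  exact h

/-- A smooth `K`-scheme of relative dimension `g` has, around every `K`-point, an affine open
chart whose coordinate ring is standard smooth of relative dimension `g` over `K`. -/
theorem exists_stdSmooth_chart (f : A ⟶ Spec (CommRingCat.of K)) (g : ℕ)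
    [SmoothOfRelativeDimension g f] (x : A) :
    ∃ (V : A.Opens) (_ : IsAffineOpen V), x ∈ V ∧
      (strHom f V).hom.IsStandardSmoothOfRelativeDimension g := by
  obtain ⟨U, hU, V, hV, hx, le, hf⟩ :=
    SmoothOfRelativeDimension.exists_isStandardSmoothOfRelativeDimension (n := g) (f := f) x
  have hUtop : U = ⊤ := by
    rw [eq_top_iff]
    intro y _
    have : y = f.base x := Subsingleton.elim _ _
    rw [this]
    exact le hx
  subst hUtop
  refine ⟨V, hV, hx, ?_⟩
  exact ((RingHom.isStandardSmoothOfRelativeDimension_respectsIso (n := g)).cancel_left_isIso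
    (Scheme.ΓSpecIso (CommRingCat.of K)).inv (f.appLE ⊤ V le_top)).mpr hf

/-- **Coordinate curves at a rational point of a smooth scheme (chart form).** -/
theorem exists_coordCurve_chart (f : A ⟶ Spec (CommRingCat.of K)) (g : ℕ)
    [SmoothOfRelativeDimension g f] (e : Spec (CommRingCat.of K) ⟶ A) (he : e ≫ f = 𝟙 _) :
    ∃ (V : A.Opens) (hV : IsAffineOpen V) (hVe : ⊤ ≤ e ⁻¹ᵁ V),
      letI : Algebra K Γ(A, V) := (strHom f V).hom.toAlgebra
      ∃ (ev : Γ(A, V) →ₐ[K] K) (t : Fin g → Γ(A, V)),
        ev.toRingHom = (evalHom e V hVe).hom ∧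
        (MvPolynomial.aeval t : MvPolynomial (Fin g) K →ₐ[K] Γ(A, V)).toRingHom.Etale ∧
        ∀ i : Fin g, ∃ (S : Type u) (_ : CommRing S) (_ : IsDomain S) (_ : Algebra K S)
          (π : Γ(A, V) →ₐ[K] S) (τ : Polynomial K →ₐ[K] S) (e' : S →ₐ[K] K),
          e'.comp π = ev ∧ τ.toRingHom.Etale ∧
          Algebra.IsStandardSmoothOfRelativeDimension 1 K S ∧
          π (t i) = τ Polynomial.X ∧ (∀ k, k ≠ i → π (t k) = algebraMap K S (ev (t k))) ∧
          IsImmersion (Spec.map (CommRingCat.ofHom π.toRingHom) ≫ hV.fromSpec) ∧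
          (Spec.map (CommRingCat.ofHom π.toRingHom) ≫ hV.fromSpec) ≫ f =
            Spec.map (CommRingCat.ofHom (algebraMap K S)) ∧
          SmoothOfRelativeDimension 1 (Spec.map (CommRingCat.ofHom (algebraMap K S))) ∧
          Spec.map (CommRingCat.ofHom e'.toRingHom) ≫
            Spec.map (CommRingCat.ofHom π.toRingHom) ≫ hV.fromSpec = e := by
  obtain ⟨V, hV, hx, hsm⟩ := exists_stdSmooth_chart f g (e.base default)
  have hVe := top_le_preimage_of_mem e V hx
  refine ⟨V, hV, hVe, ?_⟩
  let algV : Algebra K Γ(A, V) := (strHom f V).hom.toAlgebra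
  have hsm' : Algebra.IsStandardSmoothOfRelativeDimension g K Γ(A, V) := hsm
  let ev : Γ(A, V) →ₐ[K] K :=
    { toRingHom := (evalHom e V hVe).hom
      commutes' := fun c => by
        have := strHom_evalHom f e he hV hVe
        exact congrArg (fun φ => φ.hom c) this }
  obtain ⟨t, ht, hcurves⟩ := exists_coordCurve_algebra g ev
  refine ⟨ev, t, rfl, ht, ?_⟩
  intro i
  obtain ⟨S, _, _, _, π, τ, e', h, hu, hev, hτ, hS, hi, hk, hsurj⟩ := hcurves i
  refine ⟨S, inferInstance, inferInstance, inferInstance, π, τ, e', hev, hτ, hS, hi, hk,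
    ?_, ?_, ?_, ?_⟩
  · have hfac : CommRingCat.ofHom π.toRingHom =
        CommRingCat.ofHom (algebraMap Γ(A, V) (Localization.Away h)) ≫
          CommRingCat.ofHom (IsLocalization.Away.lift (S := Localization.Away h) h hu) := by
      ext b
      exact (IsLocalization.Away.lift_eq h hu b).symm
    rw [hfac, Spec.map_comp, Category.assoc]
    have : IsClosedImmersion (Spec.map (CommRingCat.ofHom
        (IsLocalization.Away.lift (S := Localization.Away h) h hu))) :=
      IsClosedImmersion.spec_of_surjective _ hsurj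
    infer_instance
  · rw [Category.assoc, fromSpec_comp_eq f hV, ← Spec.map_comp]
    congr 1
    ext c
    exact π.commutes c
  · rw [HasRingHomProperty.Spec_iff (P := @SmoothOfRelativeDimension 1)]
    exact RingHom.locally_of RingHom.isStandardSmoothOfRelativeDimension_respectsIso _
      ((RingHom.isStandardSmoothOfRelativeDimension_algebraMap (n := 1)).mpr hS)
  · rw [← Category.assoc, ← Spec.map_comp]
    have : CommRingCat.ofHom π.toRingHom ≫ CommRingCat.ofHom e'.toRingHom = evalHom e V hVe := by
      ext b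
      exact DFunLike.congr_fun hev b
    rw [this, SpecMap_evalHom_fromSpec]

/-- **Coordinate curves at a rational point of a smooth scheme (scheme form).** -/
theorem exists_coordCurves (f : A ⟶ Spec (CommRingCat.of K)) (g : ℕ)
    [SmoothOfRelativeDimension g f] (e : Spec (CommRingCat.of K) ⟶ A) (he : e ≫ f = 𝟙 _)
    (i : Fin g) :
    ∃ (C : Scheme.{u}) (j : C ⟶ A) (z : Spec (CommRingCat.of K) ⟶ C),
      IsAffine C ∧ IsIntegral C ∧ IsImmersion j ∧ SmoothOfRelativeDimension 1 (j ≫ f) ∧
      z ≫ j = e := by
  obtain ⟨V, hV, hVe, hrest⟩ := exists_coordCurve_chart f g e he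
  let algV : Algebra K Γ(A, V) := (strHom f V).hom.toAlgebra
  obtain ⟨ev, t, -, -, hcurves⟩ := hrest
  obtain ⟨S, _, _, _, π, τ, e', -, -, -, -, -, himm, hfac, hsm, hpt⟩ := hcurves i
  refine ⟨Spec (CommRingCat.of S), Spec.map (CommRingCat.ofHom π.toRingHom) ≫ hV.fromSpec,
    Spec.map (CommRingCat.ofHom e'.toRingHom), inferInstance, inferInstance, himm, ?_, hpt⟩
  rw [hfac]
  exact hsm

/-- **M6c-COMPACT**, as a `Prop` (the contract between the coordinate curves above and the
tangent frame `helper3190_Frame.lean`): an affine integral smooth curve immersed in a proper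
`K`-scheme (`K` algebraically closed) extends to a proper smooth integral curve mapping to it,
containing the given curve as an open subscheme. -/
def Stmt_Compact : Prop :=
  ∀ (K : Type u) [Field K] [IsAlgClosed K] {A C0 : Scheme.{u}} (a : A ⟶ Spec (CommRingCat.of K))
    [IsProper a] (j : C0 ⟶ A) [IsAffine C0] [IsIntegral C0] [IsImmersion j]
    [SmoothOfRelativeDimension 1 (j ≫ a)],
    ∃ (C : Scheme.{u}) (ι : C0 ⟶ C) (φ : C ⟶ A), IsOpenImmersion ι ∧ ι ≫ φ = j ∧ IsIntegral C ∧
      IsProper (φ ≫ a) ∧ SmoothOfRelativeDimension 1 (φ ≫ a)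

end SchemeWrapper

end Fermat.Agent.S26.helper3190
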