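/-
S26 D5-SHEAR (helper3489): the functor-of-points part of step (b) of the D5 finishing
(findings #2834), stated on the frozen data `(R, f, L : RelativeGroupLaw R f)`.

For `u : C ⟶ A`, `iZ : Z ⟶ A` over `S = Spec R` and a section `a` of `f`:

* `sumPt L u iZ`      : the sum map `σ(c, z) = u(c) · z` on `C ×_S Z`;
* `diffPt L u a`      : the map `τ(c) = u(c)⁻¹ · a` on `C` (additively: `a - u(c)`);
* `isPullback_shear`  : the scheme fibre of `σ` over `a` is the pull-back of `Z` along `τ`;
* `shearFibreIso`     : the resulting isomorphism `pullback σ a ≅ pullback τ iZ`.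

No commutativity is needed for these.
-/
import Mathlib
import Fermat.Prelude.Def_GoodReductionJacobian_RelativeGroupLawKernel
import Fermat.Agent.S26.helper2966_TorsionGroup

set_option autoImplicit false
set_option linter.style.haveILetI false

noncomputable section

open CategoryTheory CategoryTheory.Limits AlgebraicGeometry NeronModelInfra GoodReductionJacobian

universe u

namespace Fermat.Agent.S26.helper3489

open Fermat.Agent.S26.helper2966

variable {R : Type u} [CommRing R] {A : Scheme.{u}} {f : A ⟶ Spec (CommRingCat.of R)}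

/-! ### Group identities on points -/

/-- Inverses are natural in the test scheme. -/
theorem inv_natural (L : RelativeGroupLaw R f) {T T' : Scheme.{u}}
    (t : T ⟶ Spec (CommRingCat.of R)) (t' : T' ⟶ Spec (CommRingCat.of R))
    (ψ : T' ⟶ T) (hψ : ψ ≫ t = t') (x : SchemeHomOver t f) :
    schemeHomOverComp ψ hψ (L.inv t x) = L.inv t' (schemeHomOverComp ψ hψ x) := by
  letI := L.pointGroup t'
  have h : L.mul t' (schemeHomOverComp ψ hψ (L.inv t x)) (schemeHomOverComp ψ hψ x) = L.one t' := by
    rw [← L.mul_natural t t' ψ hψ, L.inv_mul_cancel, L.one_natural t t' ψ hψ]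
  exact eq_inv_of_mul_eq_one_left h

/-- `x * y = a ↔ y = x⁻¹ * a` on points. -/
theorem mul_eq_iff_eq_inv_mul (L : RelativeGroupLaw R f) {T : Scheme.{u}}
    (t : T ⟶ Spec (CommRingCat.of R)) (x y a : SchemeHomOver t f) :
    L.mul t x y = a ↔ y = L.mul t (L.inv t x) a := by
  letI := L.pointGroup t
  exact (eq_inv_mul_iff_mul_eq (a := y) (b := x) (c := a)).symm

/-! ### The sum map and the difference map -/

section Shear

variable (L : RelativeGroupLaw R f) {C Z : Scheme.{u}} {c : C ⟶ Spec (CommRingCat.of R)}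
  {z : Z ⟶ Spec (CommRingCat.of R)} (u : SchemeHomOver c f) (iZ : SchemeHomOver z f)
  (a : SchemeHomOver (𝟙 (Spec (CommRingCat.of R))) f)

/-- The sum map `σ(c, z) = u(c) · z` on `C ×_S Z`, as a point of `A` over `C ×_S Z`. -/
def sumPt : SchemeHomOver (pullback.fst c z ≫ c) f :=
  L.mul (pullback.fst c z ≫ c) (schemeHomOverComp (pullback.fst c z) rfl u)
    (schemeHomOverComp (pullback.snd c z) pullback.condition.symm iZ)

/-- The map `τ(c) = u(c)⁻¹ · a` on `C` (additively `a - u(c)`), as a point of `A` over `C`. -/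
def diffPt : SchemeHomOver c f :=
  L.mul c (L.inv c u) (constPoint c a)

/-- The sum map evaluated on a `T`-point `(tc, tz)` of `C ×_S Z`. -/
theorem comp_sumPt {T : Scheme.{u}} (t : T ⟶ Spec (CommRingCat.of R)) (tc : T ⟶ C) (tz : T ⟶ Z)
    (hc : tc ≫ c = t) (hz : tz ≫ z = t) (p : T ⟶ pullback c z)
    (hp1 : p ≫ pullback.fst c z = tc) (hp2 : p ≫ pullback.snd c z = tz) :
    schemeHomOverComp p (by rw [← Category.assoc, hp1, hc]) (sumPt L u iZ) =
      L.mul t (schemeHomOverComp tc hc u) (schemeHomOverComp tz hz iZ) := by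
  unfold sumPt
  rw [L.mul_natural _ t p (by rw [← Category.assoc, hp1, hc])]
  congr 1
  · exact Subtype.ext (by simp [← hp1])
  · exact Subtype.ext (by simp [← hp2])

/-- The sum map composed with a lift `(tc, tz) : T ⟶ C ×_S Z`, as a morphism. This is the form
for an abstract product `X` with projections `tc`, `tz`: `σ_X = lift tc tz ≫ σ`. -/
theorem lift_sumPt {T : Scheme.{u}} (t : T ⟶ Spec (CommRingCat.of R)) (tc : T ⟶ C) (tz : T ⟶ Z)
    (hc : tc ≫ c = t) (hz : tz ≫ z = t) :
    pullback.lift tc tz (hc.trans hz.symm) ≫ (sumPt L u iZ).1 =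
      (L.mul t (schemeHomOverComp tc hc u) (schemeHomOverComp tz hz iZ)).1 :=
  congrArg Subtype.val (comp_sumPt L u iZ t tc tz hc hz (pullback.lift tc tz (hc.trans hz.symm))
    (pullback.lift_fst _ _ _) (pullback.lift_snd _ _ _))

/-- The difference map evaluated on a `T`-point `tc` of `C`. -/
theorem comp_diffPt {T : Scheme.{u}} (t : T ⟶ Spec (CommRingCat.of R)) (tc : T ⟶ C)
    (hc : tc ≫ c = t) :
    schemeHomOverComp tc hc (diffPt L u a) =
      L.mul t (L.inv t (schemeHomOverComp tc hc u)) (constPoint t a) := by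
  unfold diffPt
  rw [L.mul_natural c t tc hc, inv_natural L c t tc hc, constPoint_comp c t tc hc]

/-- THE SHEAR ON POINTS: `u(tc) · tz = a ↔ tz = u(tc)⁻¹ · a`. -/
theorem shear_point_iff {T : Scheme.{u}} (t : T ⟶ Spec (CommRingCat.of R)) (tc : T ⟶ C)
    (tz : T ⟶ Z) (hc : tc ≫ c = t) (hz : tz ≫ z = t) (p : T ⟶ pullback c z)
    (hp1 : p ≫ pullback.fst c z = tc) (hp2 : p ≫ pullback.snd c z = tz) :
    p ≫ (sumPt L u iZ).1 = t ≫ a.1 ↔ tc ≫ (diffPt L u a).1 = tz ≫ iZ.1 := by
  have h1 := comp_sumPt L u iZ t tc tz hc hz p hp1 hp2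
  have h2 := comp_diffPt L u a t tc hc
  have h3 := mul_eq_iff_eq_inv_mul L t (schemeHomOverComp tc hc u) (schemeHomOverComp tz hz iZ)
    (constPoint t a)
  rw [← h1, ← h2] at h3
  constructor
  · intro h
    have := h3.mp (Subtype.ext h)
    exact (congrArg Subtype.val this).symm
  · intro h
    have := h3.mpr (Subtype.ext h.symm)
    exact congrArg Subtype.val this

/-- The two projections of `τ⁻¹(Z)` agree over `S`. -/
theorem shear_lift_cond :
    pullback.fst (diffPt L u a).1 iZ.1 ≫ c = pullback.snd (diffPt L u a).1 iZ.1 ≫ z := by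
  have h1 : pullback.fst (diffPt L u a).1 iZ.1 ≫ c =
      (pullback.fst (diffPt L u a).1 iZ.1 ≫ (diffPt L u a).1) ≫ f := by
    rw [Category.assoc, (diffPt L u a).2]
  have h2 : pullback.snd (diffPt L u a).1 iZ.1 ≫ z =
      (pullback.snd (diffPt L u a).1 iZ.1 ≫ iZ.1) ≫ f := by
    rw [Category.assoc, iZ.2]
  rw [h1, h2, pullback.condition]

/-- The inclusion of `τ⁻¹(Z) = {(c, z) | z = u(c)⁻¹ · a}` into `C ×_S Z`. -/
def shearIncl : pullback (diffPt L u a).1 iZ.1 ⟶ pullback c z :=
  pullback.lift (pullback.fst (diffPt L u a).1 iZ.1) (pullback.snd (diffPt L u a).1 iZ.1)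
    (shear_lift_cond L u iZ a)

@[simp]
theorem shearIncl_fst :
    shearIncl L u iZ a ≫ pullback.fst c z = pullback.fst (diffPt L u a).1 iZ.1 :=
  pullback.lift_fst _ _ _

@[simp]
theorem shearIncl_snd :
    shearIncl L u iZ a ≫ pullback.snd c z = pullback.snd (diffPt L u a).1 iZ.1 :=
  pullback.lift_snd _ _ _

/-- (SQ) THE SHEAR SQUARE: the scheme-theoretic fibre of the sum map `σ(c, z) = u(c) · z`
over the section `a` is the pull-back of `Z` along `τ(c) = u(c)⁻¹ · a`. -/
theorem isPullback_shear :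
    IsPullback (shearIncl L u iZ a) (pullback.fst (diffPt L u a).1 iZ.1 ≫ c)
      (sumPt L u iZ).1 a.1 := by
  have hw : shearIncl L u iZ a ≫ (sumPt L u iZ).1 =
      (pullback.fst (diffPt L u a).1 iZ.1 ≫ c) ≫ a.1 :=
    (shear_point_iff L u iZ a (pullback.fst (diffPt L u a).1 iZ.1 ≫ c)
      (pullback.fst (diffPt L u a).1 iZ.1) (pullback.snd (diffPt L u a).1 iZ.1) rfl
      (shear_lift_cond L u iZ a).symm (shearIncl L u iZ a) (shearIncl_fst L u iZ a)
      (shearIncl_snd L u iZ a)).mpr pullback.condition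
  have key : ∀ s : PullbackCone (sumPt L u iZ).1 a.1,
      (s.fst ≫ pullback.fst c z) ≫ (diffPt L u a).1 = (s.fst ≫ pullback.snd c z) ≫ iZ.1 := by
    intro s
    have hs : s.snd = s.fst ≫ pullback.fst c z ≫ c := by
      have := congrArg (· ≫ f) s.condition
      simp only [Category.assoc] at this
      rw [(sumPt L u iZ).2, a.2, Category.comp_id] at this
      exact this.symm
    refine (shear_point_iff L u iZ a (s.fst ≫ pullback.fst c z ≫ c) (s.fst ≫ pullback.fst c z)
      (s.fst ≫ pullback.snd c z) (Category.assoc _ _ _)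
      (by rw [Category.assoc, ← pullback.condition]) s.fst rfl rfl).mp ?_
    rw [s.condition, hs]
  refine IsPullback.mk ⟨hw⟩ ⟨PullbackCone.IsLimit.mk hw
    (fun s => pullback.lift (s.fst ≫ pullback.fst c z) (s.fst ≫ pullback.snd c z) (key s))
    ?_ ?_ ?_⟩
  · intro s
    apply pullback.hom_ext
    · rw [Category.assoc, shearIncl_fst, pullback.lift_fst]
    · rw [Category.assoc, shearIncl_snd, pullback.lift_snd]
  · intro s
    have hs : s.snd = s.fst ≫ pullback.fst c z ≫ c := by
      have := congrArg (· ≫ f) s.condition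
      simp only [Category.assoc] at this
      rw [(sumPt L u iZ).2, a.2, Category.comp_id] at this
      exact this.symm
    rw [← Category.assoc, pullback.lift_fst, hs, Category.assoc]
  · intro s m hm1 _
    apply pullback.hom_ext
    · rw [pullback.lift_fst, ← hm1, Category.assoc, shearIncl_fst]
    · rw [pullback.lift_snd, ← hm1, Category.assoc, shearIncl_snd]

/-- (ISO) The fibre of the sum map over `a` is `τ⁻¹(Z)`. -/
def shearFibreIso : pullback (sumPt L u iZ).1 a.1 ≅ pullback (diffPt L u a).1 iZ.1 :=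
  (isPullback_shear L u iZ a).isoPullback.symm

@[reassoc (attr := simp)]
theorem shearFibreIso_inv_fst :
    (shearFibreIso L u iZ a).inv ≫ pullback.fst (sumPt L u iZ).1 a.1 = shearIncl L u iZ a :=
  (isPullback_shear L u iZ a).isoPullback_hom_fst

@[reassoc (attr := simp)]
theorem shearFibreIso_inv_snd :
    (shearFibreIso L u iZ a).inv ≫ pullback.snd (sumPt L u iZ).1 a.1 =
      pullback.fst (diffPt L u a).1 iZ.1 ≫ c :=
  (isPullback_shear L u iZ a).isoPullback_hom_snd

@[reassoc (attr := simp)]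
theorem shearFibreIso_hom_incl :
    (shearFibreIso L u iZ a).hom ≫ shearIncl L u iZ a = pullback.fst (sumPt L u iZ).1 a.1 := by
  rw [← shearFibreIso_inv_fst, Iso.hom_inv_id_assoc]

@[reassoc (attr := simp)]
theorem shearFibreIso_hom_fst :
    (shearFibreIso L u iZ a).hom ≫ pullback.fst (diffPt L u a).1 iZ.1 =
      pullback.fst (sumPt L u iZ).1 a.1 ≫ pullback.fst c z := by
  rw [← shearFibreIso_hom_incl L u iZ a, Category.assoc, shearIncl_fst]

@[reassoc (attr := simp)]
theorem shearFibreIso_hom_snd :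
    (shearFibreIso L u iZ a).hom ≫ pullback.snd (diffPt L u a).1 iZ.1 =
      pullback.fst (sumPt L u iZ).1 a.1 ≫ pullback.snd c z := by
  rw [← shearFibreIso_hom_incl L u iZ a, Category.assoc, shearIncl_snd]

/-- The isomorphism is over `S`. -/
theorem shearFibreIso_hom_over :
    (shearFibreIso L u iZ a).hom ≫ pullback.fst (diffPt L u a).1 iZ.1 ≫ c =
      pullback.snd (sumPt L u iZ).1 a.1 := by
  rw [← shearFibreIso_inv_snd L u iZ a, Iso.hom_inv_id_assoc]

end Shear

/-! ### Variants: commutative law, the reflection `x ↦ x⁻¹ · a`, factorisations -/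

section Variants

variable (L : RelativeGroupLaw R f) {C Z : Scheme.{u}} {c : C ⟶ Spec (CommRingCat.of R)}
  {z : Z ⟶ Spec (CommRingCat.of R)} (u : SchemeHomOver c f) (iZ : SchemeHomOver z f)
  (a : SchemeHomOver (𝟙 (Spec (CommRingCat.of R))) f)

/-- (COMM) For a commutative law, `τ(c) = a · u(c)⁻¹`, i.e. `a - u(c)`. -/
theorem diffPt_eq_of_comm (hc : L.IsCommutative) :
    diffPt L u a = L.mul c (constPoint c a) (L.inv c u) :=
  hc c _ _

/-- The reflection `x ↦ x⁻¹ · a` of `A` (additively `x ↦ a - x`). -/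
def reflect : A ⟶ A :=
  (diffPt L (RelativeGroupLaw.idPoint (f := f)) a).1

theorem reflect_over : reflect L a ≫ f = f :=
  (diffPt L (RelativeGroupLaw.idPoint (f := f)) a).2

/-- `τ = u ≫ (x ↦ x⁻¹ · a)`. -/
theorem diffPt_val : (diffPt L u a).1 = u.1 ≫ reflect L a := by
  have h := comp_diffPt L (RelativeGroupLaw.idPoint (f := f)) a c u.1 u.2
  rw [schemeHomOverComp_idPoint] at h
  exact (congrArg Subtype.val h).symm

/-- The reflection on `T`-points. -/
theorem comp_reflect {T : Scheme.{u}} (t : T ⟶ Spec (CommRingCat.of R)) (x : SchemeHomOver t f) :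
    x.1 ≫ reflect L a = (L.mul t (L.inv t x) (constPoint t a)).1 := by
  rw [← diffPt_val]; rfl

/-- The reflection on sections: `x ↦ x⁻¹ · a`. -/
theorem section_comp_reflect (x : SchemeHomOver (𝟙 (Spec (CommRingCat.of R))) f) :
    x.1 ≫ reflect L a = (L.mul (𝟙 _) (L.inv (𝟙 _) x) a).1 := by
  rw [comp_reflect L a (𝟙 _) x, constPoint_id]

/-- The reflection sends the unit section to `a`. -/
theorem one_comp_reflect : (L.one (𝟙 (Spec (CommRingCat.of R)))).1 ≫ reflect L a = a.1 := by
  rw [section_comp_reflect]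
  letI := L.pointGroup (𝟙 (Spec (CommRingCat.of R)))
  exact congrArg Subtype.val (show (1 : SchemeHomOver (𝟙 (Spec (CommRingCat.of R))) f)⁻¹ * a = a by
    rw [inv_one, one_mul])

/-- The reflection sends `a` to the unit section. -/
theorem self_comp_reflect : a.1 ≫ reflect L a = (L.one (𝟙 (Spec (CommRingCat.of R)))).1 := by
  rw [section_comp_reflect, L.inv_mul_cancel]

/-- For a commutative law the reflection is an involution. -/
theorem reflect_comp_reflect (hc : L.IsCommutative) : reflect L a ≫ reflect L a = 𝟙 A := by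
  have h := comp_reflect L a f ⟨reflect L a, reflect_over L a⟩
  rw [h]
  have h2 : (⟨reflect L a, reflect_over L a⟩ : SchemeHomOver f f) =
      L.mul f (L.inv f RelativeGroupLaw.idPoint) (constPoint f a) := rfl
  rw [h2]
  letI := pointCommGroup L hc f
  exact congrArg Subtype.val
    (show ((RelativeGroupLaw.idPoint (f := f))⁻¹ * constPoint f a)⁻¹ * constPoint f a =
      RelativeGroupLaw.idPoint by rw [mul_inv_rev, inv_inv, mul_comm, mul_inv_cancel_left])

/-- The reflection as an automorphism of `A` (commutative law). -/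
def reflectIso (hc : L.IsCommutative) : A ≅ A where
  hom := reflect L a
  inv := reflect L a
  hom_inv_id := reflect_comp_reflect L a hc
  inv_hom_id := reflect_comp_reflect L a hc

theorem isIso_reflect_of_comm (hc : L.IsCommutative) : IsIso (reflect L a) :=
  (reflectIso L a hc).isIso_hom

/-- `τ⁻¹(Z) = u⁻¹(a - Z)`: the pull-back of `Z` along `τ = a - u` is the pull-back along `u`
of the reflected copy `iZ ≫ (x ↦ a - x)` of `Z`. -/
def diffPullbackIso (hc : L.IsCommutative) :
    pullback (diffPt L u a).1 iZ.1 ≅ pullback u.1 (iZ.1 ≫ reflect L a) :=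
  haveI := isIso_reflect_of_comm L a hc
  asIso (pullback.map (diffPt L u a).1 iZ.1 u.1 (iZ.1 ≫ reflect L a) (𝟙 C) (𝟙 Z) (reflect L a)
    (by rw [diffPt_val, Category.assoc, reflect_comp_reflect L a hc, Category.comp_id,
      Category.id_comp])
    (by rw [Category.id_comp]))

@[reassoc (attr := simp)]
theorem diffPullbackIso_hom_fst (hc : L.IsCommutative) :
    (diffPullbackIso L u iZ a hc).hom ≫ pullback.fst u.1 (iZ.1 ≫ reflect L a) =
      pullback.fst (diffPt L u a).1 iZ.1 := by
  simp only [diffPullbackIso, asIso_hom, pullback.map, Category.comp_id]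
  exact pullback.lift_fst _ _ _

@[reassoc (attr := simp)]
theorem diffPullbackIso_hom_snd (hc : L.IsCommutative) :
    (diffPullbackIso L u iZ a hc).hom ≫ pullback.snd u.1 (iZ.1 ≫ reflect L a) =
      pullback.snd (diffPt L u a).1 iZ.1 := by
  simp only [diffPullbackIso, asIso_hom, pullback.map, Category.comp_id]
  exact pullback.lift_snd _ _ _

/-- (FAC) The sum map is natural in both factors: for `G : C' ⟶ C` and `F : Z' ⟶ Z` over `S`,
the sum map of `(G ≫ u, F ≫ iZ)` on `C' ×_S Z'` is `(G × F) ≫ σ`. -/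
theorem sumPt_map {C' Z' : Scheme.{u}} {c' : C' ⟶ Spec (CommRingCat.of R)}
    {z' : Z' ⟶ Spec (CommRingCat.of R)} (G : C' ⟶ C) (hG : G ≫ c = c') (F : Z' ⟶ Z)
    (hF : F ≫ z = z') :
    (sumPt L (schemeHomOverComp G hG u) (schemeHomOverComp F hF iZ)).1 =
      pullback.map c' z' c z G F (𝟙 _) (by rw [Category.comp_id, hG])
        (by rw [Category.comp_id, hF]) ≫ (sumPt L u iZ).1 := by
  have h := comp_sumPt L u iZ (pullback.fst c' z' ≫ c') (pullback.fst c' z' ≫ G)
    (pullback.snd c' z' ≫ F) (by rw [Category.assoc, hG])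
    (by rw [Category.assoc, hF, pullback.condition])
    (pullback.map c' z' c z G F (𝟙 _) (by rw [Category.comp_id, hG])
        (by rw [Category.comp_id, hF])) (pullback.lift_fst _ _ _) (pullback.lift_snd _ _ _)
  refine Eq.trans ?_ (congrArg Subtype.val h).symm
  unfold sumPt
  congr 2

/-- (H2-pts) For a commutative law, `[n]` of the sum map is the sum map of the multiples. -/
theorem nsmul_sumPt (hc : L.IsCommutative) (n : ℕ) :
    L.nsmul _ n (sumPt L u iZ) = sumPt L (L.nsmul c n u) (L.nsmul z n iZ) := by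
  unfold sumPt
  rw [nsmul_mul L hc, L.nsmul_natural c _ (pullback.fst c z) rfl,
    L.nsmul_natural z _ (pullback.snd c z) pullback.condition.symm]

/-- (H2-pts) `s_(nu, nz) = s_(u, z) ≫ [n]`. -/
theorem sumPt_nsmul_val (hc : L.IsCommutative) (n : ℕ) :
    (sumPt L (L.nsmul c n u) (L.nsmul z n iZ)).1 = (sumPt L u iZ).1 ≫ L.schemeNsmul n := by
  rw [← nsmul_sumPt L u iZ hc n, nsmul_val]

/-- (H2-pts), finite families: `[n]` of a product of points is the product of the multiples. -/
theorem nsmul_finset_prod (hc : L.IsCommutative) {T : Scheme.{u}}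
    (t : T ⟶ Spec (CommRingCat.of R)) (n : ℕ) {ι : Type*} (s : Finset ι)
    (x : ι → SchemeHomOver t f) :
    letI := pointCommGroup L hc t
    L.nsmul t n (∏ i ∈ s, x i) = ∏ i ∈ s, L.nsmul t n (x i) := by
  letI := pointCommGroup L hc t
  rw [nsmul_eq_pow' L hc, ← Finset.prod_pow]
  exact Finset.prod_congr rfl fun i _ => (nsmul_eq_pow' L hc t n (x i)).symm

end Variants

/-! ### Global sections of the fibre -/

section Sections

/-- The `R`-algebra structure map on the global sections of a scheme over `Spec R`. -/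
def topHom {X : Scheme.{u}} (x : X ⟶ Spec (CommRingCat.of R)) : R →+* Γ(X, ⊤) :=
  ((Scheme.ΓSpecIso (CommRingCat.of R)).inv ≫ x.appTop).hom

/-- An isomorphism over `Spec R` induces an `R`-algebra isomorphism on global sections. -/
def topAlgEquivOfIso {X Y : Scheme.{u}} (x : X ⟶ Spec (CommRingCat.of R))
    (y : Y ⟶ Spec (CommRingCat.of R)) (e : X ≅ Y) (he : e.hom ≫ y = x) :
    letI := (topHom x).toAlgebra
    letI := (topHom y).toAlgebra
    Γ(Y, ⊤) ≃ₐ[R] Γ(X, ⊤) :=
  letI := (topHom x).toAlgebra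
  letI := (topHom y).toAlgebra
  AlgEquiv.ofRingEquiv (f := (Scheme.Γ.mapIso e.op).commRingCatIsoToRingEquiv) (fun k => by
    show e.hom.appTop.hom (y.appTop.hom ((Scheme.ΓSpecIso (CommRingCat.of R)).inv.hom k)) =
      x.appTop.hom ((Scheme.ΓSpecIso (CommRingCat.of R)).inv.hom k)
    rw [← he, Scheme.Hom.comp_appTop]
    rfl)

/-- Isomorphic schemes over `Spec R` have global sections of the same rank. -/
theorem finrank_top_eq_of_iso {X Y : Scheme.{u}} (x : X ⟶ Spec (CommRingCat.of R))
    (y : Y ⟶ Spec (CommRingCat.of R)) (e : X ≅ Y) (he : e.hom ≫ y = x) :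
    (letI := (topHom x).toAlgebra; Module.finrank R Γ(X, ⊤)) =
      (letI := (topHom y).toAlgebra; Module.finrank R Γ(Y, ⊤)) := by
  letI := (topHom x).toAlgebra
  letI := (topHom y).toAlgebra
  exact (topAlgEquivOfIso x y e he).toLinearEquiv.finrank_eq.symm

variable (L : RelativeGroupLaw R f) {C Z : Scheme.{u}} {c : C ⟶ Spec (CommRingCat.of R)}
  {z : Z ⟶ Spec (CommRingCat.of R)} (u : SchemeHomOver c f) (iZ : SchemeHomOver z f)
  (a : SchemeHomOver (𝟙 (Spec (CommRingCat.of R))) f)

/-- (FIB) The global sections of the fibre of the sum map over `a` and of `τ⁻¹(Z)` have the same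
rank over `R`; the fibre has its structure through `pullback.snd σ a`. -/
theorem finrank_shearFibre :
    (letI := (topHom (pullback.snd (sumPt L u iZ).1 a.1)).toAlgebra;
      Module.finrank R Γ(pullback (sumPt L u iZ).1 a.1, ⊤)) =
    (letI := (topHom (pullback.fst (diffPt L u a).1 iZ.1 ≫ c)).toAlgebra;
      Module.finrank R Γ(pullback (diffPt L u a).1 iZ.1, ⊤)) :=
  finrank_top_eq_of_iso _ _ (shearFibreIso L u iZ a) (shearFibreIso_hom_over L u iZ a)

/-- (FIB), commutative law: the fibre of the sum map over `a` and `u⁻¹(a - Z)` have global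
sections of the same rank. -/
theorem finrank_shearFibre_reflect (hc : L.IsCommutative) :
    (letI := (topHom (pullback.snd (sumPt L u iZ).1 a.1)).toAlgebra;
      Module.finrank R Γ(pullback (sumPt L u iZ).1 a.1, ⊤)) =
    (letI := (topHom (pullback.fst u.1 (iZ.1 ≫ reflect L a) ≫ c)).toAlgebra;
      Module.finrank R Γ(pullback u.1 (iZ.1 ≫ reflect L a), ⊤)) :=
  (finrank_shearFibre L u iZ a).trans
    (finrank_top_eq_of_iso _ _ (diffPullbackIso L u iZ a hc)
      (by rw [diffPullbackIso_hom_fst_assoc]))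

end Sections

end Fermat.Agent.S26.helper3489
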