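import Mathlib

/-!
# Transcendence-degree core for the S26 project (leaf D5-TRDEG)

Mathlib-only algebra:

* `trdeg_lt_of_surjective_of_not_injective`, `trdeg_quotient_lt` (T3): a nonzero prime of a
  domain of finite transcendence degree drops the transcendence degree of the quotient.
* `exists_prime_span_of_trdeg_le` (ZP): in a UFD, a prime whose quotient has transcendence
  degree at least `trdeg - 1` is principal, generated by a prime element.
* `trdeg_eq_of_isFractionRing` (TF): a domain and its fraction field have the same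
  transcendence degree.
* `finiteDimensional_of_trdeg_le` (T4): a finitely generated field extension which does not
  raise the transcendence degree is finite.
* `trdeg_le_add_of_sup_eq_top` (T2): subadditivity of the transcendence degree for a field
  generated by two subfields.
-/

namespace Fermat.Agent.S26.helper3620

open Cardinal

universe u v

/-- A surjective, non-injective algebra map between domains, the source of finite
transcendence degree over the field `K`, strictly drops the transcendence degree. -/
theorem trdeg_lt_of_surjective_of_not_injective {K : Type u} {A B : Type v} [Field K]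
    [CommRing A] [IsDomain A] [CommRing B] [IsDomain B] [Algebra K A] [Algebra K B]
    (f : A →ₐ[K] B) (hf : Function.Surjective f) (hker : ¬ Function.Injective f)
    (hfin : Algebra.trdeg K A < ℵ₀) : Algebra.trdeg K B < Algebra.trdeg K A := by
  have hle : Algebra.trdeg K B ≤ Algebra.trdeg K A := trdeg_le_of_surjective f hf
  refine lt_of_le_of_ne hle fun heq => ?_
  have : FaithfulSMul K B :=
    (faithfulSMul_iff_algebraMap_injective K B).mpr (algebraMap K B).injective
  obtain ⟨s, hs⟩ := exists_isTranscendenceBasis K B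
  choose lift hlift using hf
  let x : s → A := fun i => lift i
  have hcomp : (fun i => f (x i)) = ((↑) : s → B) := by
    funext i
    exact hlift i
  have hx : AlgebraicIndependent K x :=
    AlgebraicIndependent.of_comp f (by
      have : f ∘ x = ((↑) : s → B) := hcomp
      rw [this]; exact hs.1)
  have hcard : Algebra.trdeg K A ≤ #s := by rw [← heq, hs.cardinalMk_eq_trdeg]
  have hxb : IsTranscendenceBasis K x := hx.isTranscendenceBasis_of_trdeg_le hfin hcard
  obtain ⟨a, ha0, hfa⟩ : ∃ a : A, a ≠ 0 ∧ f a = 0 := by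
    by_contra hcon
    exact hker ((injective_iff_map_eq_zero f).mpr fun a ha => by
      by_contra h0
      exact hcon ⟨a, h0, ha⟩)
  have halg : IsAlgebraic (Algebra.adjoin K (Set.range x)) a :=
    hxb.isAlgebraic.isAlgebraic a
  obtain ⟨r, hr0, hdvd⟩ := halg.exists_nonzero_dvd (mem_nonZeroDivisors_of_ne_zero ha0)
  have hfr : f (r : A) = 0 := by
    obtain ⟨c, hc⟩ := hdvd
    have : (r : A) = a * c := hc
    rw [this, map_mul, hfa, zero_mul]
  apply hr0
  obtain ⟨r, hr⟩ := r
  rw [Algebra.adjoin_range_eq_range_aeval] at hr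
  obtain ⟨p, rfl⟩ := hr
  have h0 : MvPolynomial.aeval ((↑) : s → B) p = 0 := by
    have h1 := MvPolynomial.comp_aeval_apply f (f := x) p
    rw [hcomp] at h1
    rw [← h1]
    exact hfr
  have hp0 : p = 0 := hs.1.eq_zero_of_aeval_eq_zero p h0
  subst hp0
  ext
  simp

/-- (T3) In a domain `R` of finite transcendence degree over a field `K`, the quotient by a
nonzero prime has strictly smaller transcendence degree. -/
theorem trdeg_quotient_lt {K : Type u} {R : Type v} [Field K] [CommRing R] [IsDomain R]
    [Algebra K R] (P : Ideal R) [P.IsPrime] (hP : P ≠ ⊥) (hfin : Algebra.trdeg K R < ℵ₀) :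
    Algebra.trdeg K (R ⧸ P) < Algebra.trdeg K R := by
  refine trdeg_lt_of_surjective_of_not_injective (Ideal.Quotient.mkₐ K P)
    Ideal.Quotient.mk_surjective (fun hinj => hP ?_) hfin
  rw [eq_bot_iff]
  intro a ha
  have : Ideal.Quotient.mkₐ K P a = Ideal.Quotient.mkₐ K P 0 := by
    rw [map_zero]
    exact Ideal.Quotient.eq_zero_iff_mem.mpr ha
  exact hinj this

/-- Relative form of (T3): for primes `Q < P` of a `K`-algebra, with `R ⧸ Q` of finite
transcendence degree, `R ⧸ P` has strictly smaller transcendence degree than `R ⧸ Q`. -/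
theorem trdeg_quotient_lt_of_lt {K : Type u} {R : Type v} [Field K] [CommRing R]
    [Algebra K R] (Q P : Ideal R) [Q.IsPrime] [P.IsPrime] (hQP : Q < P)
    (hfin : Algebra.trdeg K (R ⧸ Q) < ℵ₀) :
    Algebra.trdeg K (R ⧸ P) < Algebra.trdeg K (R ⧸ Q) := by
  refine trdeg_lt_of_surjective_of_not_injective (Ideal.Quotient.factorₐ K hQP.le)
    (Ideal.Quotient.factor_surjective hQP.le) (fun hinj => hQP.not_ge ?_) hfin
  intro a ha
  have : Ideal.Quotient.factorₐ K hQP.le (Ideal.Quotient.mk Q a) =
      Ideal.Quotient.factorₐ K hQP.le 0 := by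
    rw [map_zero, Ideal.Quotient.factorₐ_apply_mk]
    exact Ideal.Quotient.eq_zero_iff_mem.mpr ha
  exact Ideal.Quotient.eq_zero_iff_mem.mp (hinj this)

/-- (ZP) In a UFD `R` of finite transcendence degree over `K`, a nonzero prime `P` with
`trdeg K R ≤ trdeg K (R ⧸ P) + 1` is generated by a prime element. -/
theorem exists_prime_span_of_trdeg_le {K : Type u} {R : Type v} [Field K] [CommRing R]
    [IsDomain R] [UniqueFactorizationMonoid R] [Algebra K R] (P : Ideal R) [P.IsPrime]
    (hP : P ≠ ⊥) (hfin : Algebra.trdeg K R < ℵ₀)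
    (h : Algebra.trdeg K R ≤ Algebra.trdeg K (R ⧸ P) + 1) :
    ∃ π : R, Prime π ∧ P = Ideal.span {π} := by
  obtain ⟨π, hπP, hπ⟩ := Ideal.IsPrime.exists_mem_prime_of_ne_bot ‹P.IsPrime› hP
  refine ⟨π, hπ, ?_⟩
  have hQprime : (Ideal.span {π} : Ideal R).IsPrime :=
    (Ideal.span_singleton_prime hπ.ne_zero).mpr hπ
  have hQP : Ideal.span {π} ≤ P := (Ideal.span_singleton_le_iff_mem _).mpr hπP
  by_contra hne
  have hlt : Ideal.span {π} < P := lt_of_le_of_ne hQP (Ne.symm hne)
  have hQ0 : (Ideal.span {π} : Ideal R) ≠ ⊥ := by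
    rw [Ne, Ideal.span_singleton_eq_bot]
    exact hπ.ne_zero
  have h1 : Algebra.trdeg K (R ⧸ Ideal.span {π}) < Algebra.trdeg K R :=
    trdeg_quotient_lt _ hQ0 hfin
  have h2 : Algebra.trdeg K (R ⧸ P) < Algebra.trdeg K (R ⧸ Ideal.span {π}) :=
    trdeg_quotient_lt_of_lt _ _ hlt (h1.trans hfin)
  obtain ⟨c, hc⟩ := Cardinal.lt_aleph0.mp hfin
  obtain ⟨b, hb⟩ := Cardinal.lt_aleph0.mp (h1.trans hfin)
  obtain ⟨a, ha⟩ := Cardinal.lt_aleph0.mp (h2.trans (h1.trans hfin))
  rw [hc, hb] at h1
  rw [hb, ha] at h2
  rw [hc, ha] at h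
  have h1' : b < c := by exact_mod_cast h1
  have h2' : a < b := by exact_mod_cast h2
  have h' : c ≤ a + 1 := by exact_mod_cast h
  omega

/-- (TF) A domain and its fraction field have the same transcendence degree. -/
theorem trdeg_eq_of_isFractionRing {K : Type u} {R F : Type v} [Field K] [CommRing R]
    [IsDomain R] [Field F] [Algebra K R] [Algebra R F] [Algebra K F] [IsScalarTower K R F]
    [IsFractionRing R F] : Algebra.trdeg K F = Algebra.trdeg K R := by
  have h1 : FaithfulSMul K R :=
    (faithfulSMul_iff_algebraMap_injective K R).mpr (algebraMap K R).injective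
  have h2 : FaithfulSMul R F :=
    (faithfulSMul_iff_algebraMap_injective R F).mpr (IsFractionRing.injective R F)
  have h3 : Algebra.IsAlgebraic R F := IsLocalization.isAlgebraic F (nonZeroDivisors R)
  have h4 : Algebra.trdeg R F = 0 := trdeg_eq_zero
  rw [← trdeg_add_eq K R (A := F), h4, add_zero]

/-- If `S` generates the field `E` over `K` as a field, then `E` is algebraic over the
`K`-subalgebra generated by `S`. -/
theorem isAlgebraic_adjoin_of_adjoin_eq_top {K : Type u} {E : Type v} [Field K] [Field E]
    [Algebra K E] (S : Set E) (hS : IntermediateField.adjoin K S = ⊤) :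
    Algebra.IsAlgebraic (Algebra.adjoin K S) E := by
  refine ⟨fun e => ?_⟩
  have he : e ∈ IntermediateField.adjoin K S := hS ▸ IntermediateField.mem_top
  obtain ⟨r, hr, s, hs, rfl⟩ := IntermediateField.mem_adjoin_iff_div.mp he
  have h1 : IsAlgebraic (Algebra.adjoin K S) r :=
    isAlgebraic_algebraMap (⟨r, hr⟩ : Algebra.adjoin K S)
  have h2 : IsAlgebraic (Algebra.adjoin K S) s :=
    isAlgebraic_algebraMap (⟨s, hs⟩ : Algebra.adjoin K S)
  rw [div_eq_mul_inv]
  exact h1.mul h2.inv

/-- A field generated (as a field) by a set `S` has transcendence degree at most `#S`. -/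
theorem trdeg_le_mk_of_adjoin_eq_top {K : Type u} {E : Type v} [Field K] [Field E]
    [Algebra K E] (S : Set E) (hS : IntermediateField.adjoin K S = ⊤) :
    Algebra.trdeg K E ≤ #S := by
  have := isAlgebraic_adjoin_of_adjoin_eq_top S hS
  exact Algebra.IsAlgebraic.trdeg_le_cardinalMk K S

/-- (T2) If the field `E` is generated over `K`, as a field, by the images of two `K`-algebras
`F₁` and `F₂`, then `trdeg K E ≤ trdeg K F₁ + trdeg K F₂`. -/
theorem trdeg_le_add_of_adjoin_eq_top {K : Type u} {F₁ F₂ E : Type v} [Field K]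
    [CommRing F₁] [CommRing F₂] [Field E] [Algebra K F₁] [Algebra K F₂] [Algebra K E]
    (i₁ : F₁ →ₐ[K] E) (i₂ : F₂ →ₐ[K] E)
    (hgen : IntermediateField.adjoin K (Set.range i₁ ∪ Set.range i₂) = ⊤) :
    Algebra.trdeg K E ≤ Algebra.trdeg K F₁ + Algebra.trdeg K F₂ := by
  have halg := isAlgebraic_adjoin_of_adjoin_eq_top _ hgen
  obtain ⟨B, hBS, hB⟩ := exists_isTranscendenceBasis_subset (R := K)
    (Set.range i₁ ∪ Set.range i₂)
  -- a general bound for the part of `B` inside the range of an algebra map
  have key : ∀ {F : Type v} [CommRing F] [Algebra K F] (i : F →ₐ[K] E) (T : Set E),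
      T ⊆ B → T ⊆ Set.range i → #T ≤ Algebra.trdeg K F := by
    intro F _ _ i T hTB hTi
    have hT : AlgebraicIndependent K ((↑) : T → E) := hB.1.mono hTB
    choose x hx using fun t : T => hTi t.2
    have hcomp : i ∘ x = ((↑) : T → E) := funext hx
    have hxi : AlgebraicIndependent K x :=
      AlgebraicIndependent.of_comp i (by rw [hcomp]; exact hT)
    exact hxi.cardinalMk_le_trdeg
  have h1 := key i₁ (B ∩ Set.range i₁) Set.inter_subset_left Set.inter_subset_right
  have h2 := key i₂ (B \ Set.range i₁) Set.sdiff_subset (fun b hb => by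
    rcases hBS hb.1 with h | h
    · exact absurd h hb.2
    · exact h)
  have hunion : B = (B ∩ Set.range i₁) ∪ (B \ Set.range i₁) :=
    (Set.inter_union_sdiff B (Set.range i₁)).symm
  calc Algebra.trdeg K E = #B := hB.cardinalMk_eq_trdeg.symm
    _ = #((B ∩ Set.range i₁ : Set E) ∪ (B \ Set.range i₁) : Set E) := by rw [← hunion]
    _ ≤ #(B ∩ Set.range i₁ : Set E) + #(B \ Set.range i₁ : Set E) := Cardinal.mk_union_le _ _
    _ ≤ Algebra.trdeg K F₁ + Algebra.trdeg K F₂ := add_le_add h1 h2

/-- (T4) A field extension `E / F` over `K`, essentially of finite type, with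
`trdeg K E` finite and at most `trdeg K F`, is finite. -/
theorem finite_of_trdeg_le' {K : Type u} {F E : Type v} [Field K] [Field F] [Field E]
    [Algebra K F] [Algebra F E] [Algebra K E] [IsScalarTower K F E]
    [Algebra.EssFiniteType F E] (hfin : Algebra.trdeg K E < ℵ₀)
    (hle : Algebra.trdeg K E ≤ Algebra.trdeg K F) : Module.Finite F E := by
  have htower : Algebra.trdeg K F + Algebra.trdeg F E = Algebra.trdeg K E :=
    trdeg_add_eq K F (A := E)
  have hFfin : Algebra.trdeg K F < ℵ₀ :=
    lt_of_le_of_lt (le_self_add.trans htower.le) hfin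
  have hFEfin : Algebra.trdeg F E < ℵ₀ :=
    lt_of_le_of_lt (le_add_self.trans htower.le) hfin
  have hzero : Algebra.trdeg F E = 0 := by
    obtain ⟨a, ha⟩ := Cardinal.lt_aleph0.mp hFfin
    obtain ⟨b, hb⟩ := Cardinal.lt_aleph0.mp hFEfin
    obtain ⟨c, hc⟩ := Cardinal.lt_aleph0.mp hfin
    rw [ha, hb, hc] at htower
    rw [ha, hc] at hle
    have h1 : a + b = c := by exact_mod_cast htower
    have h2 : c ≤ a := by exact_mod_cast hle
    have hb0 : b = 0 := by omega
    rw [hb, hb0]
    simp
  have halg : Algebra.IsAlgebraic F E := trdeg_eq_zero_iff.mp hzero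
  exact Algebra.finite_of_essFiniteType_of_isAlgebraic

/-- (T4) A field extension `E / F` with `E` essentially of finite type over `K` and
`trdeg K E ≤ trdeg K F` is finite. -/
theorem finite_of_trdeg_le {K : Type u} {F E : Type v} [Field K] [Field F] [Field E]
    [Algebra K F] [Algebra F E] [Algebra K E] [IsScalarTower K F E]
    [Algebra.EssFiniteType K E] (hle : Algebra.trdeg K E ≤ Algebra.trdeg K F) :
    Module.Finite F E := by
  have : Algebra.EssFiniteType F E := Algebra.EssFiniteType.of_comp K F E
  exact finite_of_trdeg_le' (K := K) (trdeg_lt_aleph0 K E) hle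

/-- The fraction field of a finite-type domain is essentially of finite type. -/
theorem essFiniteType_of_isFractionRing (K : Type u) (R F : Type v) [Field K] [CommRing R]
    [Field F] [Algebra K R] [Algebra R F] [Algebra K F] [IsScalarTower K R F]
    [Algebra.FiniteType K R] [IsFractionRing R F] : Algebra.EssFiniteType K F := by
  have : Algebra.EssFiniteType R F := Algebra.EssFiniteType.of_isLocalization F (nonZeroDivisors R)
  exact Algebra.EssFiniteType.comp K R F

end Fermat.Agent.S26.helper3620
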