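/-
S26-M8b (helper3918; backup of board row 1673, split of team chat #48): the two
Spec-independent geometric inputs of the PRODUCT-TYPE BOUND
`ℓ_{C × Y}(p₁^* G₁ + p₂^* G₂) ≤ (n₁ + 1) * ℓ_Y(G₂)`
(route #2746 D2), proved by evaluation on `n₁ + 1` slices `{c_k} × Y`:

* step (2): `K`-points of `pullback c y`, the slice `i_{c₀} = (c₀, id) : Y ⟶ C × Y`, the fibre
  `j_{y₀} = (id, y₀) : C ⟶ C × Y`, `i_{c₀} ∘ y₀ = (c₀, y₀) = j_{y₀} ∘ c₀`, and the fact that for a
  rational function `h` regular at `(c₀, y₀)` the restrictions of `h` to the slice and to the fibre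
  vanish simultaneously at `y₀` resp. `c₀` (`vanishAt_fibre_of_slice_eq_zero`);
* step (4): density — a nonzero rational function on `C × Y` is a unit of the local ring at some
  `K`-point `(c₀, y₀)` with `y₀` in a prescribed nonempty open of `Y` (`exists_pairPt_unitAt`), so
  its restriction to the fibre `C × {y₀}` is nonzero; and an integral `K`-scheme locally of finite
  type with more than one point has infinitely many `K`-points in every nonempty open
  (`infinite_kpoints_mem`, `exists_finset_kpoints`).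

MAIN RESULT (`ell_prod_le`, the binary product-type bound in the Spec vocabulary): for `K`
algebraically closed, `C`, `Y`, `C × Y` integral and locally of finite type over `K`,
`G₁ ∈ CDiv C`, `G₂ ∈ CDiv Y`, `Q₁ = p₁^* G₁`, `Q₂ = p₂^* G₂`:
`ℓ_{C × Y}(Q₁ * Q₂) ≤ ℓ_C(G₁) * ℓ_Y(G₂)` (and finiteness).  No curve hypothesis, no properness.
Proof: by linear algebra (`exists_finset_forall_mem_imp_eq_zero`) choose `r ≤ ℓ_C(G₁)` `K`-points
`c_k` of `C` outside `supp G₁` such that no nonzero element of `L(G₁)` vanishes at all of them;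
the restrictions to the slices `{c_k} × Y` give a `K`-linear map `L(Q₁ * Q₂) → L(G₂)^r`
(`exists_slice_linearMap`), injective by steps (2) and (4) applied to the restriction to a fibre
`C × {y₀}` (`exists_fibre_restrict`).  Slices and fibres are both instances of one lemma,
`exists_funPullsTo_section` (restriction along a section of a projection).

Pull-back of rational functions along an arbitrary morphism of integral schemes is the relation
`FunPullsTo φ h g` (`g = φ^* h`, defined when `h` is regular at the image of the generic point),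
in the same style as `CDiv.PullsTo` of the Spec.
-/
import Fermat.Agent.S26.helper154_Spec
import Fermat.Agent.S26.helper218_PullsTo

set_option autoImplicit false
set_option linter.style.haveILetI false

universe u

noncomputable section

open CategoryTheory CategoryTheory.Limits AlgebraicGeometry

namespace Fermat.Agent.S26.helper3918

open Fermat.Agent.S26.helper154

/-! ### Pull-back of rational functions -/

section FunPull

variable {Y X : Scheme.{u}} [IsIntegral Y] [IsIntegral X]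

/-- The maximal ideal `m_x` of the local ring at `x`, as a subset of the function field. -/
def vanishAt (X : Scheme.{u}) [IsIntegral X] (x : X) : Set X.functionField :=
  (algebraMap (X.presheaf.stalk x) X.functionField) ''
    (IsLocalRing.maximalIdeal (X.presheaf.stalk x))

/-- The units of the local ring at `x`, as a subset of the function field. -/
def unitAt (X : Scheme.{u}) [IsIntegral X] (x : X) : Set X.functionField :=
  (algebraMap (X.presheaf.stalk x) X.functionField) '' {r | IsUnit r}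

/-- Pull-back of rational functions along an arbitrary morphism of integral schemes, as a
relation: `g = φ^* h`, defined when `h` is regular at the image of the generic point. -/
def FunPullsTo (φ : Y ⟶ X) (h : X.functionField) (g : Y.functionField) : Prop :=
  ∃ r : X.presheaf.stalk (φ.base (genericPoint Y)),
    algebraMap (X.presheaf.stalk (φ.base (genericPoint Y))) X.functionField r = h ∧
      (φ.stalkMap (genericPoint Y)).hom r = g

theorem algebraMap_stalk_injective (X : Scheme.{u}) [IsIntegral X] (x : X) :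
    Function.Injective (algebraMap (X.presheaf.stalk x) X.functionField) :=
  IsFractionRing.injective _ _

theorem algebraMap_stalk_eq (X : Scheme.{u}) [IsIntegral X] (x : X) :
    algebraMap (X.presheaf.stalk x) X.functionField =
      (X.presheaf.stalkSpecializes ((genericPoint_spec X).specializes trivial)).hom := rfl

theorem genericPoint_specializes (X : Scheme.{u}) [IsIntegral X] (x : X) : genericPoint X ⤳ x :=
  (genericPoint_spec X).specializes trivial

theorem mem_localSubring_of_mem_unitAt {x : X} {h : X.functionField} (hu : h ∈ unitAt X x) :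
    h ∈ localSubring X x := by
  obtain ⟨s, -, rfl⟩ := hu
  exact ⟨s, rfl⟩

theorem mem_localSubring_of_mem_vanishAt {x : X} {h : X.functionField} (hu : h ∈ vanishAt X x) :
    h ∈ localSubring X x := by
  obtain ⟨s, -, rfl⟩ := hu
  exact ⟨s, rfl⟩

theorem ne_zero_of_mem_unitAt {x : X} {h : X.functionField} (hu : h ∈ unitAt X x) : h ≠ 0 := by
  obtain ⟨s, hsu, rfl⟩ := hu
  exact (IsUnit.map _ hsu).ne_zero

theorem zero_mem_vanishAt (x : X) : (0 : X.functionField) ∈ vanishAt X x :=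
  ⟨0, Ideal.zero_mem _, map_zero _⟩

/-- A function is not at the same time a unit and in the maximal ideal at `x`. -/
theorem not_mem_vanishAt_of_mem_unitAt {x : X} {h : X.functionField} (hu : h ∈ unitAt X x) :
    h ∉ vanishAt X x := by
  rintro ⟨m, hm, hmh⟩
  obtain ⟨s, hsu, hs⟩ := hu
  have := algebraMap_stalk_injective X x (hmh.trans hs.symm)
  rw [SetLike.mem_coe, IsLocalRing.mem_maximalIdeal, mem_nonunits_iff] at hm
  exact hm (this ▸ hsu)

/-- The basic compatibility: a germ at `φ y` pulls back to its image under the stalk map. -/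
theorem funPullsTo_of_stalk (φ : Y ⟶ X) (y : Y) (s : X.presheaf.stalk (φ.base y)) :
    FunPullsTo φ (algebraMap (X.presheaf.stalk (φ.base y)) X.functionField s)
      (algebraMap (Y.presheaf.stalk y) Y.functionField ((φ.stalkMap y).hom s)) := by
  have hsp : genericPoint Y ⤳ y := genericPoint_specializes Y y
  refine ⟨(X.presheaf.stalkSpecializes (hsp.map φ.base.hom.continuous)).hom s, ?_, ?_⟩
  · rw [algebraMap_stalk_eq, algebraMap_stalk_eq]
    rw [← CommRingCat.comp_apply, TopCat.Presheaf.stalkSpecializes_comp]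
  · rw [algebraMap_stalk_eq]
    exact Scheme.Hom.stalkSpecializes_stalkMap_apply φ (genericPoint Y) y hsp s

/-- The pull-back of a rational function is unique. -/
theorem FunPullsTo.unique {φ : Y ⟶ X} {h : X.functionField} {g g' : Y.functionField}
    (hg : FunPullsTo φ h g) (hg' : FunPullsTo φ h g') : g = g' := by
  obtain ⟨r, hr, rfl⟩ := hg
  obtain ⟨r', hr', rfl⟩ := hg'
  rw [algebraMap_stalk_injective X _ (hr.trans hr'.symm)]

/-- The pull-back exists as soon as `h` is regular at the image of some point. -/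
theorem exists_funPullsTo (φ : Y ⟶ X) (y : Y) {h : X.functionField}
    (hreg : h ∈ localSubring X (φ.base y)) : ∃ g : Y.functionField, FunPullsTo φ h g := by
  obtain ⟨s, rfl⟩ := hreg
  exact ⟨_, funPullsTo_of_stalk φ y s⟩

/-- If `h` is the image of the germ `s` at `φ y`, its pull-back is the image of `φ^# s`. -/
theorem FunPullsTo.eq_of_stalk {φ : Y ⟶ X} {h : X.functionField} {g : Y.functionField}
    (hg : FunPullsTo φ h g) (y : Y) (s : X.presheaf.stalk (φ.base y))
    (hs : algebraMap (X.presheaf.stalk (φ.base y)) X.functionField s = h) :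
    g = algebraMap (Y.presheaf.stalk y) Y.functionField ((φ.stalkMap y).hom s) :=
  hg.unique (hs ▸ funPullsTo_of_stalk φ y s)

theorem FunPullsTo.zero (φ : Y ⟶ X) : FunPullsTo φ 0 0 :=
  ⟨0, map_zero _, map_zero _⟩

theorem FunPullsTo.one (φ : Y ⟶ X) : FunPullsTo φ 1 1 :=
  ⟨1, map_one _, map_one _⟩

theorem FunPullsTo.add {φ : Y ⟶ X} {h h' : X.functionField} {g g' : Y.functionField}
    (hg : FunPullsTo φ h g) (hg' : FunPullsTo φ h' g') : FunPullsTo φ (h + h') (g + g') := by
  obtain ⟨r, rfl, rfl⟩ := hg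
  obtain ⟨r', rfl, rfl⟩ := hg'
  exact ⟨r + r', map_add _ _ _, map_add _ _ _⟩

theorem FunPullsTo.mul {φ : Y ⟶ X} {h h' : X.functionField} {g g' : Y.functionField}
    (hg : FunPullsTo φ h g) (hg' : FunPullsTo φ h' g') : FunPullsTo φ (h * h') (g * g') := by
  obtain ⟨r, rfl, rfl⟩ := hg
  obtain ⟨r', rfl, rfl⟩ := hg'
  exact ⟨r * r', map_mul _ _ _, map_mul _ _ _⟩

theorem FunPullsTo.neg {φ : Y ⟶ X} {h : X.functionField} {g : Y.functionField}
    (hg : FunPullsTo φ h g) : FunPullsTo φ (-h) (-g) := by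
  obtain ⟨r, rfl, rfl⟩ := hg
  exact ⟨-r, map_neg _ _, map_neg _ _⟩

theorem FunPullsTo.sub {φ : Y ⟶ X} {h h' : X.functionField} {g g' : Y.functionField}
    (hg : FunPullsTo φ h g) (hg' : FunPullsTo φ h' g') : FunPullsTo φ (h - h') (g - g') := by
  obtain ⟨r, rfl, rfl⟩ := hg
  obtain ⟨r', rfl, rfl⟩ := hg'
  exact ⟨r - r', map_sub _ _ _, map_sub _ _ _⟩

/-- Regular functions pull back to regular functions. -/
theorem FunPullsTo.mem_localSubring {φ : Y ⟶ X} {h : X.functionField} {g : Y.functionField}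
    (hg : FunPullsTo φ h g) (y : Y) (hreg : h ∈ localSubring X (φ.base y)) :
    g ∈ localSubring Y y := by
  obtain ⟨s, hs⟩ := hreg
  exact ⟨_, (hg.eq_of_stalk y s hs).symm⟩

/-- Functions vanishing at `φ y` pull back to functions vanishing at `y`. -/
theorem FunPullsTo.mem_vanishAt {φ : Y ⟶ X} {h : X.functionField} {g : Y.functionField}
    (hg : FunPullsTo φ h g) (y : Y) (hv : h ∈ vanishAt X (φ.base y)) :
    g ∈ vanishAt Y y := by
  obtain ⟨s, hsm, hs⟩ := hv
  refine ⟨(φ.stalkMap y).hom s, ?_, (hg.eq_of_stalk y s hs).symm⟩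
  rw [SetLike.mem_coe, IsLocalRing.mem_maximalIdeal, mem_nonunits_iff] at hsm ⊢
  exact fun hu => hsm (isUnit_of_map_unit (φ.stalkMap y).hom s hu)

/-- Units at `φ y` pull back to units at `y`. -/
theorem FunPullsTo.mem_unitAt {φ : Y ⟶ X} {h : X.functionField} {g : Y.functionField}
    (hg : FunPullsTo φ h g) (y : Y) (hu : h ∈ unitAt X (φ.base y)) :
    g ∈ unitAt Y y := by
  obtain ⟨s, hsu, hs⟩ := hu
  exact ⟨(φ.stalkMap y).hom s, IsUnit.map _ hsu, (hg.eq_of_stalk y s hs).symm⟩

/-- If `h` is regular at `φ y` and its pull-back vanishes at `y`, then `h` vanishes at `φ y`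
(the stalk map is a local homomorphism). -/
theorem FunPullsTo.vanishAt_of_vanishAt {φ : Y ⟶ X} {h : X.functionField} {g : Y.functionField}
    (hg : FunPullsTo φ h g) (y : Y) (hreg : h ∈ localSubring X (φ.base y))
    (hv : g ∈ vanishAt Y y) : h ∈ vanishAt X (φ.base y) := by
  obtain ⟨s, hs⟩ := hreg
  obtain ⟨m, hm, hmg⟩ := hv
  have h1 := hg.eq_of_stalk y s hs
  rw [← hmg] at h1
  have h2 := algebraMap_stalk_injective Y y h1
  refine ⟨s, ?_, hs⟩
  rw [SetLike.mem_coe, IsLocalRing.mem_maximalIdeal, mem_nonunits_iff] at hm ⊢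
  intro hu
  exact hm (h2 ▸ IsUnit.map _ hu)

/-- If `h` is regular at `φ y` and `φ^* h = 0`, then `h` vanishes at `φ y`. -/
theorem FunPullsTo.vanishAt_of_eq_zero {φ : Y ⟶ X} {h : X.functionField}
    (hg : FunPullsTo φ h 0) (y : Y) (hreg : h ∈ localSubring X (φ.base y)) :
    h ∈ vanishAt X (φ.base y) :=
  hg.vanishAt_of_vanishAt y hreg (zero_mem_vanishAt y)

end FunPull

/-! ### Step (2): `K`-points of a product, slices and fibres -/

section Product

variable {K : Type u} [Field K] {C Y : Scheme.{u}}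
  (c : C ⟶ Spec (CommRingCat.of K)) (y : Y ⟶ Spec (CommRingCat.of K))

/-- The slice `Y → C × Y`, `y' ↦ (c₀, y')`, attached to a `K`-point `c₀` of `C`. -/
def slice (c₀ : Spec (CommRingCat.of K) ⟶ C) (hc₀ : c₀ ≫ c = 𝟙 _) : Y ⟶ pullback c y :=
  pullback.lift (y ≫ c₀) (𝟙 Y) (by rw [Category.assoc, hc₀, Category.comp_id, Category.id_comp])

/-- The fibre `C → C × Y`, `c' ↦ (c', y₀)`, attached to a `K`-point `y₀` of `Y`. -/
def fibre (y₀ : Spec (CommRingCat.of K) ⟶ Y) (hy₀ : y₀ ≫ y = 𝟙 _) : C ⟶ pullback c y :=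
  pullback.lift (𝟙 C) (c ≫ y₀) (by rw [Category.assoc, hy₀, Category.comp_id, Category.id_comp])

/-- The `K`-point `(c₀, y₀)` of `C × Y`. -/
def pairPt (c₀ : Spec (CommRingCat.of K) ⟶ C) (hc₀ : c₀ ≫ c = 𝟙 _)
    (y₀ : Spec (CommRingCat.of K) ⟶ Y) (hy₀ : y₀ ≫ y = 𝟙 _) :
    Spec (CommRingCat.of K) ⟶ pullback c y :=
  pullback.lift c₀ y₀ (by rw [hc₀, hy₀])

variable {c y}

@[reassoc (attr := simp)]
theorem slice_fst (c₀ : Spec (CommRingCat.of K) ⟶ C) (hc₀ : c₀ ≫ c = 𝟙 _) :
    slice c y c₀ hc₀ ≫ pullback.fst c y = y ≫ c₀ := pullback.lift_fst _ _ _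

@[reassoc (attr := simp)]
theorem slice_snd (c₀ : Spec (CommRingCat.of K) ⟶ C) (hc₀ : c₀ ≫ c = 𝟙 _) :
    slice c y c₀ hc₀ ≫ pullback.snd c y = 𝟙 Y := pullback.lift_snd _ _ _

@[reassoc (attr := simp)]
theorem fibre_fst (y₀ : Spec (CommRingCat.of K) ⟶ Y) (hy₀ : y₀ ≫ y = 𝟙 _) :
    fibre c y y₀ hy₀ ≫ pullback.fst c y = 𝟙 C := pullback.lift_fst _ _ _

@[reassoc (attr := simp)]
theorem fibre_snd (y₀ : Spec (CommRingCat.of K) ⟶ Y) (hy₀ : y₀ ≫ y = 𝟙 _) :
    fibre c y y₀ hy₀ ≫ pullback.snd c y = c ≫ y₀ := pullback.lift_snd _ _ _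

@[reassoc (attr := simp)]
theorem pairPt_fst (c₀ : Spec (CommRingCat.of K) ⟶ C) (hc₀ : c₀ ≫ c = 𝟙 _)
    (y₀ : Spec (CommRingCat.of K) ⟶ Y) (hy₀ : y₀ ≫ y = 𝟙 _) :
    pairPt c y c₀ hc₀ y₀ hy₀ ≫ pullback.fst c y = c₀ := pullback.lift_fst _ _ _

@[reassoc (attr := simp)]
theorem pairPt_snd (c₀ : Spec (CommRingCat.of K) ⟶ C) (hc₀ : c₀ ≫ c = 𝟙 _)
    (y₀ : Spec (CommRingCat.of K) ⟶ Y) (hy₀ : y₀ ≫ y = 𝟙 _) :
    pairPt c y c₀ hc₀ y₀ hy₀ ≫ pullback.snd c y = y₀ := pullback.lift_snd _ _ _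

/-- `(c₀, y₀)` is a `K`-point of `C × Y` (structure map through the first factor). -/
theorem pairPt_over (c₀ : Spec (CommRingCat.of K) ⟶ C) (hc₀ : c₀ ≫ c = 𝟙 _)
    (y₀ : Spec (CommRingCat.of K) ⟶ Y) (hy₀ : y₀ ≫ y = 𝟙 _) :
    pairPt c y c₀ hc₀ y₀ hy₀ ≫ pullback.fst c y ≫ c = 𝟙 _ := by
  rw [pairPt_fst_assoc, hc₀]

/-- `(c₀, y₀) = i_{c₀} ∘ y₀`. -/
theorem comp_slice (c₀ : Spec (CommRingCat.of K) ⟶ C) (hc₀ : c₀ ≫ c = 𝟙 _)
    (y₀ : Spec (CommRingCat.of K) ⟶ Y) (hy₀ : y₀ ≫ y = 𝟙 _) :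
    y₀ ≫ slice c y c₀ hc₀ = pairPt c y c₀ hc₀ y₀ hy₀ := by
  apply pullback.hom_ext
  · rw [Category.assoc, slice_fst, pairPt_fst, reassoc_of% hy₀]
  · rw [Category.assoc, slice_snd, pairPt_snd, Category.comp_id]

/-- `(c₀, y₀) = j_{y₀} ∘ c₀`. -/
theorem comp_fibre (c₀ : Spec (CommRingCat.of K) ⟶ C) (hc₀ : c₀ ≫ c = 𝟙 _)
    (y₀ : Spec (CommRingCat.of K) ⟶ Y) (hy₀ : y₀ ≫ y = 𝟙 _) :
    c₀ ≫ fibre c y y₀ hy₀ = pairPt c y c₀ hc₀ y₀ hy₀ := by
  apply pullback.hom_ext
  · rw [Category.assoc, fibre_fst, pairPt_fst, Category.comp_id]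
  · rw [Category.assoc, fibre_snd, pairPt_snd, reassoc_of% hc₀]

/-- On points: `i_{c₀}(y₀) = (c₀, y₀)`. -/
theorem slice_base (c₀ : Spec (CommRingCat.of K) ⟶ C) (hc₀ : c₀ ≫ c = 𝟙 _)
    (y₀ : Spec (CommRingCat.of K) ⟶ Y) (hy₀ : y₀ ≫ y = 𝟙 _) (p : Spec (CommRingCat.of K)) :
    (slice c y c₀ hc₀).base (y₀.base p) = (pairPt c y c₀ hc₀ y₀ hy₀).base p := by
  rw [← comp_slice c₀ hc₀ y₀ hy₀]
  rfl

/-- On points: `j_{y₀}(c₀) = (c₀, y₀)`. -/
theorem fibre_base (c₀ : Spec (CommRingCat.of K) ⟶ C) (hc₀ : c₀ ≫ c = 𝟙 _)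
    (y₀ : Spec (CommRingCat.of K) ⟶ Y) (hy₀ : y₀ ≫ y = 𝟙 _) (p : Spec (CommRingCat.of K)) :
    (fibre c y y₀ hy₀).base (c₀.base p) = (pairPt c y c₀ hc₀ y₀ hy₀).base p := by
  rw [← comp_fibre c₀ hc₀ y₀ hy₀]
  rfl

/-- On points: `p₁(c₀, y₀) = c₀`. -/
theorem fst_pairPt_base (c₀ : Spec (CommRingCat.of K) ⟶ C) (hc₀ : c₀ ≫ c = 𝟙 _)
    (y₀ : Spec (CommRingCat.of K) ⟶ Y) (hy₀ : y₀ ≫ y = 𝟙 _) (p : Spec (CommRingCat.of K)) :
    (pullback.fst c y).base ((pairPt c y c₀ hc₀ y₀ hy₀).base p) = c₀.base p := by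
  conv_rhs => rw [← pairPt_fst c₀ hc₀ y₀ hy₀]
  rfl

/-- On points: `p₂(c₀, y₀) = y₀`. -/
theorem snd_pairPt_base (c₀ : Spec (CommRingCat.of K) ⟶ C) (hc₀ : c₀ ≫ c = 𝟙 _)
    (y₀ : Spec (CommRingCat.of K) ⟶ Y) (hy₀ : y₀ ≫ y = 𝟙 _) (p : Spec (CommRingCat.of K)) :
    (pullback.snd c y).base ((pairPt c y c₀ hc₀ y₀ hy₀).base p) = y₀.base p := by
  conv_rhs => rw [← pairPt_snd c₀ hc₀ y₀ hy₀]
  rfl

/-- Every `K`-point of `C × Y` is a pair. -/
theorem eq_pairPt (s : Spec (CommRingCat.of K) ⟶ pullback c y)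
    (hs : s ≫ pullback.fst c y ≫ c = 𝟙 _) :
    s = pairPt c y (s ≫ pullback.fst c y) (by rw [Category.assoc, hs])
      (s ≫ pullback.snd c y) (by rw [Category.assoc, ← pullback.condition, hs]) := by
  apply pullback.hom_ext
  · rw [pairPt_fst]
  · rw [pairPt_snd]

variable [IsIntegral C] [IsIntegral Y] [IsIntegral (pullback c y)]

/-- **Step (2), general form.** Let `h` be regular at `(c₀, y₀)`. If the restriction `ρ` of `h`
to the slice `{c₀} × Y` vanishes at `y₀`, then the restriction `σ` of `h` to the fibre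
`C × {y₀}` vanishes at `c₀`: both say that `h` lies in the maximal ideal at `(c₀, y₀)`. -/
theorem vanishAt_fibre_of_vanishAt_slice
    (c₀ : Spec (CommRingCat.of K) ⟶ C) (hc₀ : c₀ ≫ c = 𝟙 _)
    (y₀ : Spec (CommRingCat.of K) ⟶ Y) (hy₀ : y₀ ≫ y = 𝟙 _) (p : Spec (CommRingCat.of K))
    {h : (pullback c y).functionField} {ρ : Y.functionField} {σ : C.functionField}
    (hreg : h ∈ localSubring (pullback c y) ((pairPt c y c₀ hc₀ y₀ hy₀).base p))
    (hρ : FunPullsTo (slice c y c₀ hc₀) h ρ) (hρ0 : ρ ∈ vanishAt Y (y₀.base p))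
    (hσ : FunPullsTo (fibre c y y₀ hy₀) h σ) :
    σ ∈ vanishAt C (c₀.base p) := by
  have h1 : h ∈ vanishAt (pullback c y) ((slice c y c₀ hc₀).base (y₀.base p)) :=
    hρ.vanishAt_of_vanishAt (y₀.base p) (by rw [slice_base c₀ hc₀ y₀ hy₀]; exact hreg) hρ0
  rw [slice_base c₀ hc₀ y₀ hy₀, ← fibre_base c₀ hc₀ y₀ hy₀] at h1
  exact hσ.mem_vanishAt _ h1

/-- **Step (2).** Let `h` be regular at `(c₀, y₀)`. If the restriction of `h` to the slice
`{c₀} × Y` is zero, then the restriction `σ` of `h` to the fibre `C × {y₀}` vanishes at `c₀`. -/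
theorem vanishAt_fibre_of_slice_eq_zero
    (c₀ : Spec (CommRingCat.of K) ⟶ C) (hc₀ : c₀ ≫ c = 𝟙 _)
    (y₀ : Spec (CommRingCat.of K) ⟶ Y) (hy₀ : y₀ ≫ y = 𝟙 _) (p : Spec (CommRingCat.of K))
    {h : (pullback c y).functionField} {σ : C.functionField}
    (hreg : h ∈ localSubring (pullback c y) ((pairPt c y c₀ hc₀ y₀ hy₀).base p))
    (hρ : FunPullsTo (slice c y c₀ hc₀) h 0)
    (hσ : FunPullsTo (fibre c y y₀ hy₀) h σ) :
    σ ∈ vanishAt C (c₀.base p) :=
  vanishAt_fibre_of_vanishAt_slice c₀ hc₀ y₀ hy₀ p hreg hρ (zero_mem_vanishAt _) hσ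

omit [IsIntegral Y] in
/-- If `h` is a unit at `(c₀, y₀)`, its restriction to the fibre `C × {y₀}` is a unit at `c₀`,
in particular it is nonzero. -/
theorem unitAt_fibre_of_unitAt
    (c₀ : Spec (CommRingCat.of K) ⟶ C) (hc₀ : c₀ ≫ c = 𝟙 _)
    (y₀ : Spec (CommRingCat.of K) ⟶ Y) (hy₀ : y₀ ≫ y = 𝟙 _) (p : Spec (CommRingCat.of K))
    {h : (pullback c y).functionField} {σ : C.functionField}
    (hu : h ∈ unitAt (pullback c y) ((pairPt c y c₀ hc₀ y₀ hy₀).base p))
    (hσ : FunPullsTo (fibre c y y₀ hy₀) h σ) :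
    σ ∈ unitAt C (c₀.base p) := by
  rw [← fibre_base c₀ hc₀ y₀ hy₀] at hu
  exact hσ.mem_unitAt _ hu

omit [IsIntegral C] in
/-- If `h` is a unit at `(c₀, y₀)`, its restriction to the slice `{c₀} × Y` is a unit at `y₀`. -/
theorem unitAt_slice_of_unitAt
    (c₀ : Spec (CommRingCat.of K) ⟶ C) (hc₀ : c₀ ≫ c = 𝟙 _)
    (y₀ : Spec (CommRingCat.of K) ⟶ Y) (hy₀ : y₀ ≫ y = 𝟙 _) (p : Spec (CommRingCat.of K))
    {h : (pullback c y).functionField} {ρ : Y.functionField}
    (hu : h ∈ unitAt (pullback c y) ((pairPt c y c₀ hc₀ y₀ hy₀).base p))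
    (hρ : FunPullsTo (slice c y c₀ hc₀) h ρ) :
    ρ ∈ unitAt Y (y₀.base p) := by
  rw [← slice_base c₀ hc₀ y₀ hy₀] at hu
  exact hρ.mem_unitAt _ hu

end Product

/-! ### Step (4): density of `K`-points -/

section Density

variable {K : Type u} [Field K]

/-- A nonzero rational function is a unit of the local ring at every point of some nonempty
open. -/
theorem exists_open_unitAt {X : Scheme.{u}} [IsIntegral X] (h : X.functionField) (hh : h ≠ 0) :
    ∃ V : X.Opens, (V : Set X).Nonempty ∧ ∀ x ∈ V, h ∈ unitAt X x := by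
  obtain ⟨V, -, f', hne, hf', hu⟩ := exists_isUnit_germ_eq X h hh
  refine ⟨V, ?_, fun x hx => ⟨X.presheaf.germ V x hx f', hu.map _, ?_⟩⟩
  · obtain ⟨⟨x, hx⟩⟩ := hne
    exact ⟨x, hx⟩
  · rw [Scheme.algebraMap_germ_eq_germToFunctionField, hf']

/-- In a Jacobson space every nonempty open contains a closed point. -/
theorem exists_closedPoint_mem_of_isOpen {T : Type*} [TopologicalSpace T] [JacobsonSpace T]
    {W : Set T} (hW : IsOpen W) (hne : W.Nonempty) : ∃ x ∈ W, IsClosed ({x} : Set T) := by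
  by_contra hcon
  have hemp : W ∩ closedPoints T = ∅ := by
    ext x
    simp only [Set.mem_inter_iff, Set.mem_empty_iff_false, iff_false, not_and]
    intro hx hcl
    exact hcon ⟨x, hx, hcl⟩
  have h1 := JacobsonSpace.closure_inter_closedPoints_eq_closure hW.isLocallyClosed
  rw [hemp, closure_empty] at h1
  obtain ⟨x, hx⟩ := hne
  have : x ∈ closure W := subset_closure hx
  rw [← h1] at this
  exact this

variable [IsAlgClosed K]

/-- A nonzero rational function on an integral `K`-scheme locally of finite type (`K`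
algebraically closed) is a unit at some `K`-point lying in any given nonempty open. -/
theorem exists_kpoint_unitAt {X : Scheme.{u}} [IsIntegral X] (x : X ⟶ Spec (CommRingCat.of K))
    [LocallyOfFiniteType x] (h : X.functionField) (hh : h ≠ 0) (W : X.Opens)
    (hW : (W : Set X).Nonempty) :
    ∃ s : Spec (CommRingCat.of K) ⟶ X, s ≫ x = 𝟙 _ ∧
      s.base (IsLocalRing.closedPoint K) ∈ W ∧
      h ∈ unitAt X (s.base (IsLocalRing.closedPoint K)) := by
  obtain ⟨V, hVne, hV⟩ := exists_open_unitAt h hh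
  have : JacobsonSpace ↥X := LocallyOfFiniteType.jacobsonSpace x
  have hne : ((V ⊓ W : X.Opens) : Set X).Nonempty :=
    nonempty_preirreducible_inter V.isOpen W.isOpen hVne hW
  obtain ⟨p, hp, hcl⟩ := exists_closedPoint_mem_of_isOpen (V ⊓ W).isOpen hne
  refine ⟨pointOfClosedPoint x p hcl, pointOfClosedPoint_comp x p hcl, ?_, ?_⟩
  · rw [show (pointOfClosedPoint x p hcl).base (IsLocalRing.closedPoint K) = p from
      pointOfClosedPoint_apply x p hcl _]
    exact hp.2
  · rw [show (pointOfClosedPoint x p hcl).base (IsLocalRing.closedPoint K) = p from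
      pointOfClosedPoint_apply x p hcl _]
    exact hV p hp.1

/-- **Step (4).** `K` algebraically closed, `X = C × Y` integral and locally of finite type.
A nonzero rational function `h` on `X` is a unit of the local ring at some `K`-point `(c₀, y₀)`
with `y₀` in a prescribed nonempty open `U` of `Y`. -/
theorem exists_pairPt_unitAt {C Y : Scheme.{u}} (c : C ⟶ Spec (CommRingCat.of K))
    (y : Y ⟶ Spec (CommRingCat.of K)) [IsIntegral (pullback c y)]
    [LocallyOfFiniteType (pullback.fst c y ≫ c)] [Nonempty C]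
    (h : (pullback c y).functionField) (hh : h ≠ 0) (U : Y.Opens) (hU : (U : Set Y).Nonempty) :
    ∃ (c₀ : Spec (CommRingCat.of K) ⟶ C) (hc₀ : c₀ ≫ c = 𝟙 _)
      (y₀ : Spec (CommRingCat.of K) ⟶ Y) (hy₀ : y₀ ≫ y = 𝟙 _),
      y₀.base (IsLocalRing.closedPoint K) ∈ U ∧
      h ∈ unitAt (pullback c y) ((pairPt c y c₀ hc₀ y₀ hy₀).base (IsLocalRing.closedPoint K)) := by
  have hW : (((pullback.snd c y) ⁻¹ᵁ U : (pullback c y).Opens) : Set ↥(pullback c y)).Nonempty := by
    obtain ⟨u, hu⟩ := hU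
    obtain ⟨w, rfl⟩ := (pullback.snd c y).surjective u
    exact ⟨w, hu⟩
  obtain ⟨s, hs, hsW, hsu⟩ := exists_kpoint_unitAt (pullback.fst c y ≫ c) h hh _ hW
  have hs' : s ≫ pullback.fst c y ≫ c = 𝟙 _ := hs
  have hpair := eq_pairPt s hs'
  refine ⟨s ≫ pullback.fst c y, by rw [Category.assoc, hs'], s ≫ pullback.snd c y,
    by rw [Category.assoc, ← pullback.condition, hs'], hsW, ?_⟩
  rw [← hpair]
  exact hsu

/-- An integral `K`-scheme, locally of finite type, with at least two points has infinitely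
many `K`-points in every nonempty open subset. -/
theorem infinite_kpoints_mem {C : Scheme.{u}} [IsIntegral C] (c : C ⟶ Spec (CommRingCat.of K))
    [LocallyOfFiniteType c] [Nontrivial C] (U : C.Opens) (hU : (U : Set C).Nonempty) :
    {s : {p : Spec (CommRingCat.of K) ⟶ C // p ≫ c = 𝟙 _} |
      s.1.base (IsLocalRing.closedPoint K) ∈ U}.Infinite := by
  have : JacobsonSpace ↥C := LocallyOfFiniteType.jacobsonSpace c
  intro hfin
  -- the closed points in `U` form a finite set
  have hF : ((U : Set C) ∩ closedPoints C).Finite := by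
    have himg := hfin.image (fun s => ((pointEquivClosedPoint c) s : C))
    refine himg.subset ?_
    rintro p ⟨hpU, hpcl⟩
    refine ⟨(pointEquivClosedPoint c).symm ⟨p, hpcl⟩, ?_, ?_⟩
    · show ((pointEquivClosedPoint c).symm ⟨p, hpcl⟩).1.base (IsLocalRing.closedPoint K) ∈ U
      rw [show ((pointEquivClosedPoint c).symm ⟨p, hpcl⟩).1.base (IsLocalRing.closedPoint K) = p
        from pointOfClosedPoint_apply c p hpcl _]
      exact hpU
    · simp
  have hdense : closure ((U : Set C) ∩ closedPoints C) = Set.univ := by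
    rw [JacobsonSpace.closure_inter_closedPoints_eq_closure U.isOpen.isLocallyClosed]
    exact (U.isOpen.dense hU).closure_eq
  have hclosed : IsClosed ((U : Set C) ∩ closedPoints C) := by
    have : (U : Set C) ∩ closedPoints C = ⋃ p ∈ ((U : Set C) ∩ closedPoints C), {p} := by
      ext q; simp
    rw [this]
    exact hF.isClosed_biUnion fun p hp => hp.2
  rw [hclosed.closure_eq] at hdense
  -- hence every point is closed, in particular the generic point
  have hgen : genericPoint C ∈ closedPoints C := by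
    have : genericPoint C ∈ (U : Set C) ∩ closedPoints C := hdense ▸ Set.mem_univ _
    exact this.2
  have hgen' : IsClosed ({genericPoint C} : Set C) := hgen
  have h1 : closure ({genericPoint C} : Set C) = Set.univ := genericPoint_spec C
  rw [hgen'.closure_eq] at h1
  obtain ⟨a, b, hab⟩ := exists_pair_ne C
  have ha : a ∈ ({genericPoint C} : Set C) := h1 ▸ Set.mem_univ a
  have hb : b ∈ ({genericPoint C} : Set C) := h1 ▸ Set.mem_univ b
  exact hab (ha.trans hb.symm)

/-- Any number `n` of distinct `K`-points can be found in a nonempty open of an integral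
`K`-scheme locally of finite type with at least two points (e.g. a curve). -/
theorem exists_finset_kpoints {C : Scheme.{u}} [IsIntegral C] (c : C ⟶ Spec (CommRingCat.of K))
    [LocallyOfFiniteType c] [Nontrivial C] (U : C.Opens) (hU : (U : Set C).Nonempty) (n : ℕ) :
    ∃ T : Finset {p : Spec (CommRingCat.of K) ⟶ C // p ≫ c = 𝟙 _}, T.card = n ∧
      ∀ s ∈ T, s.1.base (IsLocalRing.closedPoint K) ∈ U := by
  obtain ⟨T, hT, hcard⟩ := (infinite_kpoints_mem c U hU).exists_subset_card_eq n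
  exact ⟨T, hcard, fun s hs => hT hs⟩

end Density

/-! ### More calculus: identity, composites, constants, `L`-compatibility -/

section FunPull2

variable {Z Y X : Scheme.{u}} [IsIntegral Z] [IsIntegral Y] [IsIntegral X]

theorem algebraMap_genericPoint (h : X.functionField) :
    @algebraMap (X.presheaf.stalk (genericPoint X)) X.functionField _ _
      (stalkFunctionFieldAlgebra X (genericPoint X)) h = h := by
  show (X.presheaf.stalkSpecializes ((genericPoint_spec X).specializes trivial)).hom h = h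
  rw [TopCat.Presheaf.stalkSpecializes_refl]
  rfl

theorem mem_localSubring_genericPoint (h : X.functionField) :
    h ∈ localSubring X (genericPoint X) :=
  ⟨h, algebraMap_genericPoint h⟩

theorem mem_unitAt_genericPoint {h : X.functionField} (hh : h ≠ 0) :
    h ∈ unitAt X (genericPoint X) :=
  ⟨h, isUnit_iff_ne_zero.mpr hh, algebraMap_genericPoint h⟩

theorem FunPullsTo.id (f : X.functionField) : FunPullsTo (𝟙 X) f f := by
  refine ⟨f, algebraMap_genericPoint f, ?_⟩
  rw [Scheme.Hom.stalkMap_id]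
  rfl

theorem FunPullsTo.comp {ψ : Z ⟶ Y} {φ : Y ⟶ X} {f : X.functionField} {e : Y.functionField}
    {d : Z.functionField} (h1 : FunPullsTo φ f e) (h2 : FunPullsTo ψ e d)
    (hreg : f ∈ localSubring X (φ.base (ψ.base (genericPoint Z)))) :
    FunPullsTo (ψ ≫ φ) f d := by
  obtain ⟨s, hs⟩ := hreg
  have he := h1.eq_of_stalk (ψ.base (genericPoint Z)) s hs
  obtain ⟨r, hr, hrd⟩ := h2
  rw [he] at hr
  have hr' := algebraMap_stalk_injective Y _ hr
  refine ⟨s, hs, ?_⟩
  rw [Scheme.Hom.stalkMap_comp, ← hrd, hr']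
  rfl

end FunPull2

section Units

variable {X : Scheme.{u}} [IsIntegral X]

theorem mem_unitAt_iff {x : X} {f : (X.functionField)ˣ} :
    (f : X.functionField) ∈ unitAt X x ↔ f ∈ unitsAt X x := by
  rw [helper218.mem_unitsAt]
  constructor
  · rintro ⟨r, hr, hrf⟩
    exact ⟨hr.unit, Units.ext hrf⟩
  · rintro ⟨u, rfl⟩
    exact ⟨u, u.isUnit, rfl⟩

theorem mk_eq_one_iff_mem_unitAt {x : X} {f : (X.functionField)ˣ} :
    (QuotientGroup.mk f : LocDiv X x) = 1 ↔ (f : X.functionField) ∈ unitAt X x := by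
  rw [mem_unitAt_iff, QuotientGroup.eq_one_iff]

theorem mul_mem_vanishAt {x : X} {g f : X.functionField} (hg : g ∈ localSubring X x)
    (hf : f ∈ vanishAt X x) : g * f ∈ vanishAt X x := by
  obtain ⟨s, rfl⟩ := hg
  obtain ⟨m, hm, rfl⟩ := hf
  exact ⟨s * m, Ideal.mul_mem_left _ _ hm, map_mul _ _ _⟩

theorem add_mem_vanishAt {x : X} {g f : X.functionField} (hg : g ∈ vanishAt X x)
    (hf : f ∈ vanishAt X x) : g + f ∈ vanishAt X x := by
  obtain ⟨s, hs, rfl⟩ := hg
  obtain ⟨m, hm, rfl⟩ := hf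
  exact ⟨s + m, Ideal.add_mem _ hs hm, map_add _ _ _⟩

theorem mem_localSubring_of_mul_unitAt {x : X} {a u : X.functionField}
    (hau : a * u ∈ localSubring X x) (hu : u ∈ unitAt X x) : a ∈ localSubring X x := by
  obtain ⟨r, hr, rfl⟩ := hu
  obtain ⟨v, hv⟩ := hr
  have h2 : a = a * algebraMap (X.presheaf.stalk x) X.functionField r *
      algebraMap (X.presheaf.stalk x) X.functionField (↑v⁻¹ : X.presheaf.stalk x) := by
    rw [mul_assoc, ← map_mul, ← hv, Units.mul_inv, map_one, mul_one]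
  rw [h2]
  exact Subring.mul_mem _ hau ⟨_, rfl⟩

theorem mul_mem_localSubring_of_mem_LSet {D : CDiv X} {h : X.functionField}
    (hh : h ∈ CDiv.LSet D) {x : X} {f : (X.functionField)ˣ}
    (hf : D.1 x = QuotientGroup.mk f) : h * (f : X.functionField) ∈ localSubring X x := by
  obtain ⟨f', hf', hmem⟩ := hh x
  rw [hf] at hf'
  obtain ⟨u, hu⟩ := helper218.mk_eq_mk_iff.1 hf'
  have h3 : h * (f : X.functionField) = h * (f' : X.functionField) *
      algebraMap (X.presheaf.stalk x) X.functionField (↑u⁻¹ : X.presheaf.stalk x) := by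
    rw [hu, Units.val_mul, helper218.coe_stalkUnit, mul_assoc, mul_assoc, ← map_mul,
      Units.mul_inv, map_one, mul_one]
  rw [h3]
  exact Subring.mul_mem _ hmem ⟨_, rfl⟩

theorem mem_localSubring_of_mem_LSet {D : CDiv X} {h : X.functionField}
    (hh : h ∈ CDiv.LSet D) {x : X} (hx : D.1 x = 1) : h ∈ localSubring X x := by
  have := mul_mem_localSubring_of_mem_LSet hh (x := x) (f := 1) (by rw [hx]; rfl)
  simpa using this

end Units

section LCompat

variable {Y X : Scheme.{u}} [IsIntegral Y] [IsIntegral X]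

/-- Pointwise data of a pull-back: local equations `f` of `D` at `φ y` and `e` of `E` at `y`
with `e = φ^* f`, and `f` a unit at the image of the generic point. -/
theorem exists_localEq_of_pullsTo {φ : Y ⟶ X} {D : CDiv X} {E : CDiv Y}
    (hp : CDiv.PullsTo φ D E) (y : Y) :
    ∃ (f : (X.functionField)ˣ) (e : (Y.functionField)ˣ), D.1 (φ.base y) = QuotientGroup.mk f ∧
      E.1 y = QuotientGroup.mk e ∧ FunPullsTo φ (f : X.functionField) (e : Y.functionField) ∧
      (f : X.functionField) ∈ unitAt X (φ.base (genericPoint Y)) := by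
  obtain ⟨r, hr, hE⟩ := helper218.pullsTo_iff.1 hp y
  exact ⟨helper218.unitK φ r, helper218.unitPull φ r, hr, hE, helper218.restrictsTo_unitK φ r,
    ⟨r, r.isUnit, rfl⟩⟩

/-- If `D` is trivial at `φ y`, its pull-back is trivial at `y`. -/
theorem apply_eq_one_of_pullsTo {φ : Y ⟶ X} {D : CDiv X} {E : CDiv Y}
    (hp : CDiv.PullsTo φ D E) (y : Y) (hD : D.1 (φ.base y) = 1) : E.1 y = 1 := by
  obtain ⟨f, e, hf, he, hfe, -⟩ := exists_localEq_of_pullsTo hp y
  rw [hf, mk_eq_one_iff_mem_unitAt] at hD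
  rw [he, mk_eq_one_iff_mem_unitAt]
  exact hfe.mem_unitAt y hD

/-- Elements of `L(D)` are regular at the image of the generic point, so they can be pulled
back. -/
theorem exists_funPullsTo_of_mem_LSet {φ : Y ⟶ X} {D : CDiv X} {E : CDiv Y}
    (hp : CDiv.PullsTo φ D E) {h : X.functionField} (hh : h ∈ CDiv.LSet D) :
    ∃ g : Y.functionField, FunPullsTo φ h g := by
  obtain ⟨f, e, hf, -, -, hfu⟩ := exists_localEq_of_pullsTo hp (genericPoint Y)
  have h1 := mul_mem_localSubring_of_mem_LSet hh hf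
  exact exists_funPullsTo φ (genericPoint Y) (mem_localSubring_of_mul_unitAt h1 hfu)

/-- **`L`-compatibility of pull-backs, any morphism.** If `E = φ^* D` and `h ∈ L(D)`, then
`φ^* h ∈ L(E)`. -/
theorem FunPullsTo.mem_LSet {φ : Y ⟶ X} {D : CDiv X} {E : CDiv Y}
    (hp : CDiv.PullsTo φ D E) {h : X.functionField} {g : Y.functionField}
    (hh : h ∈ CDiv.LSet D) (hg : FunPullsTo φ h g) : g ∈ CDiv.LSet E := by
  intro y
  obtain ⟨f, e, hf, he, hfe, -⟩ := exists_localEq_of_pullsTo hp y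
  exact ⟨e, he, (hg.mul hfe).mem_localSubring y (mul_mem_localSubring_of_mem_LSet hh hf)⟩


/-- Transport of triviality along an equality of points. -/
theorem apply_eq_one_of_eq (D : CDiv X) {p q : X} (hpq : p = q) (h : D.1 q = 1) : D.1 p = 1 := by
  subst hpq
  exact h

/-- Transport of a local equation along an equality of points. -/
theorem apply_eq_mk_of_eq (D : CDiv X) {p q : X} (hpq : p = q) {f : (X.functionField)ˣ}
    (h : D.1 p = QuotientGroup.mk f) : D.1 q = QuotientGroup.mk f := by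
  subst hpq
  exact h

/-- **Restriction along a section.** Let `π₁ : X ⟶ Y₁`, `π₂ : X ⟶ Y₂` and `ι : Y₂ ⟶ X` with
`ι ≫ π₂ = 𝟙`. If `Q₁ = π₁^* D₁`, `Q₂ = π₂^* D₂` and `D₁` is trivial along the image of
`ι ≫ π₁`, then every `h ∈ L(Q₁ * Q₂)` can be restricted along `ι`, and `ι^* h ∈ L(D₂)`.
(For `X = C × Y` this covers both the slices `{c₀} × Y` and the fibres `C × {y₀}`.) -/
theorem exists_funPullsTo_section {X Y₁ Y₂ : Scheme.{u}} [IsIntegral X] [IsIntegral Y₁]
    [IsIntegral Y₂] (π₁ : X ⟶ Y₁) (π₂ : X ⟶ Y₂) (ι : Y₂ ⟶ X) (hι : ι ≫ π₂ = 𝟙 Y₂)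
    {D₁ : CDiv Y₁} {D₂ : CDiv Y₂} {Q₁ Q₂ : CDiv X}
    (h₁ : CDiv.PullsTo π₁ D₁ Q₁) (h₂ : CDiv.PullsTo π₂ D₂ Q₂)
    (htriv : ∀ y' : Y₂, D₁.1 (π₁.base (ι.base y')) = 1)
    {h : X.functionField} (hh : h ∈ CDiv.LSet (Q₁ * Q₂)) :
    ∃ ρ : Y₂.functionField, FunPullsTo ι h ρ ∧ ρ ∈ CDiv.LSet D₂ := by
  have hpt : ∀ y' : Y₂, π₂.base (ι.base y') = y' := fun y' => by
    have := congrArg (fun f : Y₂ ⟶ Y₂ => f.base y') hι
    exact this
  have P : ∀ y' : Y₂, ∃ (f₂ : (Y₂.functionField)ˣ) (e₂ : X.functionField),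
      D₂.1 y' = QuotientGroup.mk f₂ ∧ FunPullsTo ι e₂ (f₂ : Y₂.functionField) ∧
      FunPullsTo π₂ (f₂ : Y₂.functionField) e₂ ∧ h * e₂ ∈ localSubring X (ι.base y') := by
    intro y'
    obtain ⟨f₂, e₂, hf₂, he₂, hfe₂, -⟩ := exists_localEq_of_pullsTo h₂ (ι.base y')
    have hQ1 : Q₁.1 (ι.base y') = 1 := apply_eq_one_of_pullsTo h₁ (ι.base y') (htriv y')
    have hQ : (Q₁ * Q₂).1 (ι.base y') = QuotientGroup.mk e₂ := by
      show Q₁.1 (ι.base y') * Q₂.1 (ι.base y') = _
      rw [hQ1, he₂]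
      exact one_mul (QuotientGroup.mk e₂ : LocDiv X (ι.base y'))
    have hmem := mul_mem_localSubring_of_mem_LSet hh hQ
    have hreg_f₂ : (f₂ : Y₂.functionField) ∈
        localSubring Y₂ (π₂.base (ι.base (genericPoint Y₂))) := by
      rw [hpt]; exact mem_localSubring_genericPoint _
    have hreg_e₂ : (e₂ : X.functionField) ∈ localSubring X (ι.base (genericPoint Y₂)) :=
      hfe₂.mem_localSubring _ hreg_f₂
    obtain ⟨d, hd⟩ := exists_funPullsTo ι (genericPoint Y₂) hreg_e₂
    have hcomp := hfe₂.comp hd hreg_f₂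
    rw [hι] at hcomp
    have hdf : d = f₂ := hcomp.unique (FunPullsTo.id _)
    rw [hdf] at hd
    exact ⟨f₂, e₂, apply_eq_mk_of_eq D₂ (hpt y') hf₂, hd, hfe₂, hmem⟩
  obtain ⟨f₂, e₂, -, -, hπe, hmem⟩ := P (genericPoint Y₂)
  have hu : e₂ ∈ unitAt X (ι.base (genericPoint Y₂)) :=
    hπe.mem_unitAt _ (by rw [hpt]; exact mem_unitAt_genericPoint f₂.ne_zero)
  obtain ⟨ρ, hρ⟩ := exists_funPullsTo ι (genericPoint Y₂) (mem_localSubring_of_mul_unitAt hmem hu)
  refine ⟨ρ, hρ, fun y' => ?_⟩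
  obtain ⟨f₂, e₂, hf₂, hιe, -, hmem⟩ := P y'
  exact ⟨f₂, hf₂, (hρ.mul hιe).mem_localSubring y' hmem⟩

end LCompat

section Const

variable {Y X : Scheme.{u}} [IsIntegral Y] [IsIntegral X] {K : Type u} [Field K]

/-- Constants pull back to constants along a morphism over `K`. -/
theorem funPullsTo_constHom (φ : Y ⟶ X) (x : X ⟶ Spec (CommRingCat.of K))
    (y : Y ⟶ Spec (CommRingCat.of K)) (hφ : φ ≫ x = y) (a : K) :
    FunPullsTo φ (constHom x a) (constHom y a) := by
  have h1 := funPullsTo_of_stalk φ (genericPoint Y)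
    (X.presheaf.germ ⊤ (φ.base (genericPoint Y)) (TopologicalSpace.Opens.mem_top _)
      (x.appTop ((Scheme.ΓSpecIso (CommRingCat.of K)).inv a)))
  rw [Scheme.algebraMap_germ_eq_germToFunctionField] at h1
  have h2 : (φ.stalkMap (genericPoint Y)).hom
      (X.presheaf.germ ⊤ (φ.base (genericPoint Y)) (TopologicalSpace.Opens.mem_top _)
        (x.appTop ((Scheme.ΓSpecIso (CommRingCat.of K)).inv a))) =
      Y.presheaf.germ ⊤ (genericPoint Y) (TopologicalSpace.Opens.mem_top _)
        (y.appTop ((Scheme.ΓSpecIso (CommRingCat.of K)).inv a)) := by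
    rw [← hφ, Scheme.Hom.comp_appTop]
    exact Scheme.Hom.germ_stalkMap_apply φ ⊤ (genericPoint Y) (TopologicalSpace.Opens.mem_top _) _
  rw [h2, Scheme.algebraMap_germ_eq_germToFunctionField] at h1
  exact h1

end Const

section LinAlg

variable {K V : Type*} [Field K] [AddCommGroup V] [Module K V]

/-- **Point selection.** If a finite-dimensional subspace `V'` meets the family of subspaces
`W i` trivially (every nonzero `v ∈ V'` is outside some `W i`), then at most `dim V'` of the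
`W i` already meet `V'` trivially. -/
theorem exists_finset_forall_mem_imp_eq_zero {ι : Type*} (W : ι → Submodule K V)
    (V' : Submodule K V) [FiniteDimensional K V']
    (h : ∀ v ∈ V', v ≠ 0 → ∃ i, v ∉ W i) :
    ∃ T : Finset ι, T.card ≤ Module.finrank K V' ∧
      ∀ v ∈ V', (∀ i ∈ T, v ∈ W i) → v = 0 := by
  classical
  induction hn : Module.finrank K V' using Nat.strong_induction_on generalizing V' with
  | _ n ih =>
    by_cases hbot : V' = ⊥
    · refine ⟨∅, by simp, fun v hv _ => ?_⟩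
      rw [hbot] at hv
      exact (Submodule.mem_bot K).mp hv
    · obtain ⟨v, hv, hv0⟩ := (Submodule.ne_bot_iff V').mp hbot
      obtain ⟨i, hi⟩ := h v hv hv0
      have hlt : V' ⊓ W i < V' := by
        refine lt_of_le_of_ne inf_le_left fun heq => hi ?_
        have hv' : v ∈ V' ⊓ W i := by rw [heq]; exact hv
        exact hv'.2
      have : FiniteDimensional K ↥(V' ⊓ W i) :=
        Submodule.finiteDimensional_of_le inf_le_left
      have hfr : Module.finrank K ↥(V' ⊓ W i) < n := hn ▸ Submodule.finrank_lt_finrank_of_lt hlt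
      obtain ⟨T, hT, hTv⟩ := ih _ hfr (V' ⊓ W i)
        (fun w hw hw0 => h w hw.1 hw0) rfl
      refine ⟨insert i T, ?_, fun w hw hwT => ?_⟩
      · calc (insert i T).card ≤ T.card + 1 := Finset.card_insert_le i T
          _ ≤ Module.finrank K ↥(V' ⊓ W i) + 1 := Nat.add_le_add_right hT 1
          _ ≤ n := hfr
      · exact hTv w ⟨hw, hwT i (Finset.mem_insert_self i T)⟩
          (fun j hj => hwT j (Finset.mem_insert_of_mem hj))

/-- **Counting.** A family of linear maps `ρ i : V →ₗ W` (`i` in a finite set `T`) with trivial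
common kernel bounds `dim V ≤ |T| * dim W`. -/
theorem finrank_le_card_mul_of_forall_eq_zero {W : Type*} [AddCommGroup W] [Module K W]
    [FiniteDimensional K W] {ι : Type*} (T : Finset ι) (ρ : ι → V →ₗ[K] W)
    (h : ∀ v : V, (∀ i ∈ T, ρ i v = 0) → v = 0) :
    FiniteDimensional K V ∧ Module.finrank K V ≤ T.card * Module.finrank K W := by
  classical
  let F : V →ₗ[K] (T → W) := LinearMap.pi fun i => ρ i.1
  have hF : Function.Injective F := by
    rw [injective_iff_map_eq_zero]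
    intro v hv
    refine h v fun i hi => ?_
    have := congrFun hv ⟨i, hi⟩
    exact this
  have hfin : FiniteDimensional K V := FiniteDimensional.of_injective F hF
  refine ⟨hfin, ?_⟩
  have := LinearMap.finrank_le_finrank_of_injective hF
  rw [Module.finrank_pi_fintype] at this
  simpa using this

end LinAlg


section Assembly

variable {K : Type u} [Field K]

/-- A Cartier divisor is trivial on a nonempty open. -/
theorem exists_open_trivial {X : Scheme.{u}} [IsIntegral X] (D : CDiv X) :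
    ∃ U : X.Opens, (U : Set X).Nonempty ∧ ∀ p ∈ U, D.1 p = 1 := by
  obtain ⟨U, hηU, f, hf⟩ := D.2 (genericPoint X)
  obtain ⟨V, hVne, hV⟩ := exists_open_unitAt (f : X.functionField) f.ne_zero
  refine ⟨U ⊓ V, nonempty_preirreducible_inter U.isOpen V.isOpen ⟨_, hηU⟩ hVne, fun p hp => ?_⟩
  rw [hf p hp.1, mk_eq_one_iff_mem_unitAt]
  exact hV p hp.2

/-- The functions vanishing at `p`, as a `K`-subspace of the function field. -/
def vanishSub {X : Scheme.{u}} [IsIntegral X] (x : X ⟶ Spec (CommRingCat.of K)) (p : X) :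
    letI := (constHom x).toAlgebra
    Submodule K X.functionField :=
  letI := (constHom x).toAlgebra
  { carrier := vanishAt X p
    zero_mem' := zero_mem_vanishAt p
    add_mem' := add_mem_vanishAt
    smul_mem' := fun a f hf => by
      rw [Algebra.smul_def]
      exact mul_mem_vanishAt (constHom_mem_localSubring x a p) hf }

variable {C Y : Scheme.{u}} (c : C ⟶ Spec (CommRingCat.of K)) (y : Y ⟶ Spec (CommRingCat.of K))
  [IsIntegral C] [IsIntegral Y] [IsIntegral (pullback c y)]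

omit [IsIntegral C] [IsIntegral Y] [IsIntegral (pullback c y)] in
/-- The first projection of a point of the slice `{c₀} × Y` is `c₀`. -/
theorem fst_slice_base (c₀ : Spec (CommRingCat.of K) ⟶ C) (hc₀ : c₀ ≫ c = 𝟙 _) (y' : Y) :
    (pullback.fst c y).base ((slice c y c₀ hc₀).base y') =
      c₀.base (IsLocalRing.closedPoint K) := by
  have e := congrArg (fun f : Y ⟶ C => f.base y') (slice_fst (y := y) c₀ hc₀)
  calc (pullback.fst c y).base ((slice c y c₀ hc₀).base y') = (y ≫ c₀).base y' := e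
    _ = c₀.base (y.base y') := rfl
    _ = c₀.base (IsLocalRing.closedPoint K) := by
        rw [Subsingleton.elim (y.base y') (IsLocalRing.closedPoint K)]

omit [IsIntegral C] [IsIntegral Y] [IsIntegral (pullback c y)] in
/-- The second projection of a point of the fibre `C × {y₀}` is `y₀`. -/
theorem snd_fibre_base (y₀ : Spec (CommRingCat.of K) ⟶ Y) (hy₀ : y₀ ≫ y = 𝟙 _) (c' : C) :
    (pullback.snd c y).base ((fibre c y y₀ hy₀).base c') =
      y₀.base (IsLocalRing.closedPoint K) := by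
  have e := congrArg (fun f : C ⟶ Y => f.base c') (fibre_snd (c := c) y₀ hy₀)
  calc (pullback.snd c y).base ((fibre c y y₀ hy₀).base c') = (c ≫ y₀).base c' := e
    _ = y₀.base (c.base c') := rfl
    _ = y₀.base (IsLocalRing.closedPoint K) := by
        rw [Subsingleton.elim (c.base c') (IsLocalRing.closedPoint K)]

variable {c y}

/-- **Step (1), slices.** If `G₁` is trivial at the `K`-point `c₀`, every `h ∈ L(Q₁ * Q₂)`
restricts to the slice `{c₀} × Y`, the restriction lies in `L(G₂)`, and restriction is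
`K`-linear. -/
theorem exists_slice_linearMap {G1 : CDiv C} {G2 : CDiv Y} {Q1 Q2 : CDiv (pullback c y)}
    (h1 : CDiv.PullsTo (pullback.fst c y) G1 Q1) (h2 : CDiv.PullsTo (pullback.snd c y) G2 Q2)
    (c₀ : Spec (CommRingCat.of K) ⟶ C) (hc₀ : c₀ ≫ c = 𝟙 _)
    (htriv : G1.1 (c₀.base (IsLocalRing.closedPoint K)) = 1) :
    letI := (constHom (pullback.snd c y ≫ y)).toAlgebra
    letI := (constHom y).toAlgebra
    ∃ ρ : CDiv.LSub (pullback.snd c y ≫ y) (Q1 * Q2) →ₗ[K] CDiv.LSub y G2,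
      ∀ h, FunPullsTo (slice c y c₀ hc₀) h.1 (ρ h).1 := by
  letI := (constHom (pullback.snd c y ≫ y)).toAlgebra
  letI := (constHom y).toAlgebra
  have ex : ∀ h : CDiv.LSub (pullback.snd c y ≫ y) (Q1 * Q2),
      ∃ ρ : Y.functionField, FunPullsTo (slice c y c₀ hc₀) h.1 ρ ∧ ρ ∈ CDiv.LSet G2 :=
    fun h => exists_funPullsTo_section (pullback.fst c y) (pullback.snd c y) (slice c y c₀ hc₀)
      (slice_snd c₀ hc₀) h1 h2 (fun y' => by rw [fst_slice_base]; exact htriv) h.2
  have hover : slice c y c₀ hc₀ ≫ pullback.snd c y ≫ y = y := by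
    rw [slice_snd_assoc]
  refine ⟨{ toFun := fun h => ⟨Classical.choose (ex h), (Classical.choose_spec (ex h)).2⟩
            map_add' := fun a b => Subtype.ext ?_
            map_smul' := fun a h => Subtype.ext ?_ }, fun h => (Classical.choose_spec (ex h)).1⟩
  · exact (Classical.choose_spec (ex (a + b))).1.unique
      ((Classical.choose_spec (ex a)).1.add (Classical.choose_spec (ex b)).1)
  · refine (Classical.choose_spec (ex (a • h))).1.unique ?_
    have hc := funPullsTo_constHom (slice c y c₀ hc₀) (pullback.snd c y ≫ y) y hover a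
    have := hc.mul (Classical.choose_spec (ex h)).1
    exact this

/-- **Step (1), fibres.** If `G₂` is trivial at the `K`-point `y₀`, every `h ∈ L(Q₁ * Q₂)`
restricts to the fibre `C × {y₀}`, and the restriction lies in `L(G₁)`. -/
theorem exists_fibre_restrict {G1 : CDiv C} {G2 : CDiv Y} {Q1 Q2 : CDiv (pullback c y)}
    (h1 : CDiv.PullsTo (pullback.fst c y) G1 Q1) (h2 : CDiv.PullsTo (pullback.snd c y) G2 Q2)
    (y₀ : Spec (CommRingCat.of K) ⟶ Y) (hy₀ : y₀ ≫ y = 𝟙 _)
    (htriv : G2.1 (y₀.base (IsLocalRing.closedPoint K)) = 1)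
    {h : (pullback c y).functionField} (hh : h ∈ CDiv.LSet (Q1 * Q2)) :
    ∃ σ : C.functionField, FunPullsTo (fibre c y y₀ hy₀) h σ ∧ σ ∈ CDiv.LSet G1 :=
  exists_funPullsTo_section (pullback.snd c y) (pullback.fst c y) (fibre c y y₀ hy₀)
    (fibre_fst y₀ hy₀) h2 h1 (fun c' => by rw [snd_fibre_base]; exact htriv)
    (by rw [mul_comm Q2 Q1]; exact hh)

variable (c y)

/-- **The product-type bound** (M8-PROD): for `K` algebraically closed and `C`, `Y`, `C × Y`
integral and locally of finite type over `K`,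
`ℓ_{C × Y}(p₁^* G₁ + p₂^* G₂) ≤ ℓ_C(G₁) * ℓ_Y(G₂)`. -/
theorem ell_prod_le [IsAlgClosed K] [LocallyOfFiniteType c] [LocallyOfFiniteType y]
    (G1 : CDiv C) (G2 : CDiv Y) (Q1 Q2 : CDiv (pullback c y))
    (h1 : CDiv.PullsTo (pullback.fst c y) G1 Q1) (h2 : CDiv.PullsTo (pullback.snd c y) G2 Q2)
    (hF1 : CDiv.LFinite c G1) (hF2 : CDiv.LFinite y G2) :
    CDiv.LFinite (pullback.snd c y ≫ y) (Q1 * Q2) ∧
      CDiv.ell (pullback.snd c y ≫ y) (Q1 * Q2) ≤ CDiv.ell c G1 * CDiv.ell y G2 := by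
  letI := (constHom c).toAlgebra
  letI := (constHom y).toAlgebra
  letI := (constHom (pullback.snd c y ≫ y)).toAlgebra
  obtain ⟨U1, hU1ne, hU1⟩ := exists_open_trivial G1
  obtain ⟨U2, hU2ne, hU2⟩ := exists_open_trivial G2
  have hF1' : FiniteDimensional K (CDiv.LSub c G1) := hF1
  have hF2' : FiniteDimensional K (CDiv.LSub y G2) := hF2
  -- point selection on `C`
  obtain ⟨T, hTcard, hT⟩ := exists_finset_forall_mem_imp_eq_zero
    (fun s : {s : {p : Spec (CommRingCat.of K) ⟶ C // p ≫ c = 𝟙 _} //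
        s.1.base (IsLocalRing.closedPoint K) ∈ U1} =>
      vanishSub c (s.1.1.base (IsLocalRing.closedPoint K)))
    (CDiv.LSub c G1) (fun v _ hv0 => by
      obtain ⟨s, hs, hsU, hsu⟩ := exists_kpoint_unitAt c v hv0 U1 hU1ne
      exact ⟨⟨⟨s, hs⟩, hsU⟩, fun hmem => not_mem_vanishAt_of_mem_unitAt hsu hmem⟩)
  -- restriction maps to the slices
  have hρ : ∀ s : {s : {p : Spec (CommRingCat.of K) ⟶ C // p ≫ c = 𝟙 _} //
        s.1.base (IsLocalRing.closedPoint K) ∈ U1},
      ∃ ρ : CDiv.LSub (pullback.snd c y ≫ y) (Q1 * Q2) →ₗ[K] CDiv.LSub y G2,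
        ∀ h, FunPullsTo (slice c y s.1.1 s.1.2) h.1 (ρ h).1 :=
    fun s => exists_slice_linearMap h1 h2 s.1.1 s.1.2 (hU1 _ s.2)
  choose ρ hρ using hρ
  have key := finrank_le_card_mul_of_forall_eq_zero T ρ (fun h hh0 => by
    by_contra hne
    have hne' : h.1 ≠ 0 := fun h0 => hne (Subtype.ext h0)
    obtain ⟨c', hc', y₀, hy₀, hy₀U, hunit⟩ := exists_pairPt_unitAt c y h.1 hne' U2 hU2ne
    obtain ⟨σ, hσ, hσL⟩ := exists_fibre_restrict h1 h2 y₀ hy₀ (hU2 _ hy₀U) h.2
    have hσ0 : σ ≠ 0 := ne_zero_of_mem_unitAt (unitAt_fibre_of_unitAt c' hc' y₀ hy₀ _ hunit hσ)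
    refine hσ0 (hT σ hσL fun s hs => ?_)
    have hreg : h.1 ∈ localSubring (pullback c y)
        ((pairPt c y s.1.1 s.1.2 y₀ hy₀).base (IsLocalRing.closedPoint K)) := by
      apply mem_localSubring_of_mem_LSet h.2
      have hq1 : Q1.1 ((pairPt c y s.1.1 s.1.2 y₀ hy₀).base (IsLocalRing.closedPoint K)) = 1 :=
        apply_eq_one_of_pullsTo h1 _ (apply_eq_one_of_eq G1 (fst_pairPt_base _ _ _ _ _) (hU1 _ s.2))
      have hq2 : Q2.1 ((pairPt c y s.1.1 s.1.2 y₀ hy₀).base (IsLocalRing.closedPoint K)) = 1 :=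
        apply_eq_one_of_pullsTo h2 _ (apply_eq_one_of_eq G2 (snd_pairPt_base _ _ _ _ _) (hU2 _ hy₀U))
      show Q1.1 _ * Q2.1 _ = 1
      rw [hq1, hq2]
      exact one_mul (1 : LocDiv (pullback c y) _)
    have hρ0 : FunPullsTo (slice c y s.1.1 s.1.2) h.1 0 := by
      have := hρ s h
      rw [hh0 s hs] at this
      exact this
    exact vanishAt_fibre_of_slice_eq_zero s.1.1 s.1.2 y₀ hy₀ _ hreg hρ0 hσ)
  exact ⟨key.1, key.2.trans (Nat.mul_le_mul_right _ hTcard)⟩

end Assembly

end Fermat.Agent.S26.helper3918
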