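import Fermat.Agent.S26.helper154_Spec
import Fermat.Agent.S26.helper2482_Integrality

/-!
# S26 (SW): regular bases without normality of the source (helper4523)

`Stmt_SW` of `helper154_Spec2` has no normality hypothesis on the source `X`.  The lemma (REG)
below replaces "a `K(A)`-basis of `K(X)` integral over `Γ(A, U)` is regular on `ψ⁻¹ U` because
`X` is normal" by a denominator argument that works for every integral `X`:

* `exists_ne_zero_mul_eq_algebraMap` : the commutative-algebra core;
* `exists_ne_zero_forall_mul_regular` (REG) : for a quasi-compact `ψ : X ⟶ A` of integral schemes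
  with `K(X)` algebraic over `K(A)`, an affine open `U ⊆ A` and `e ∈ K(X)` there is `r ≠ 0` in
  `Γ(A, U)` with `r * e` regular at every point of `ψ⁻¹ U`;
* `exists_basis_regular` : a `K(A)`-basis of `K(X)` regular at every point of `ψ⁻¹ U`;
* `exists_basis_localSubring` : the same in the vocabulary of `helper154_Spec`
  (`IsSepDom`, `funFieldHom`, `localSubring`).
-/

set_option autoImplicit false

universe u

open AlgebraicGeometry CategoryTheory TopologicalSpace Opposite

namespace Fermat.Agent.S26.helper4523

section Algebra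

/-- Commutative-algebra core of (REG): `R → B` domains with fraction fields `F → E`, `E`
algebraic over `F`.  Every `e : E` has a nonzero multiple `r * e`, `r : R`, lying in `B`. -/
theorem exists_ne_zero_mul_eq_algebraMap (R B F E : Type*) [CommRing R] [IsDomain R] [CommRing B]
    [IsDomain B] [Field F] [Field E] [Algebra R B] [Algebra R F] [Algebra B E] [Algebra F E]
    [Algebra R E] [IsScalarTower R B E] [IsScalarTower R F E] [IsFractionRing R F]
    [IsFractionRing B E] [Algebra.IsAlgebraic F E] (e : E) :
    ∃ r : R, r ≠ 0 ∧ ∃ c : B, algebraMap R E r * e = algebraMap B E c := by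
  obtain ⟨b, b', hb', rfl⟩ := IsFractionRing.div_surjective (A := B) e
  have hb'0 : b' ≠ 0 := nonZeroDivisors.ne_zero hb'
  have h1 : IsAlgebraic F (algebraMap B E b') := Algebra.IsAlgebraic.isAlgebraic _
  have h2 : IsAlgebraic R (algebraMap B E b') := (IsFractionRing.isAlgebraic_iff R F E).mpr h1
  have h3 : IsAlgebraic R b' := (isAlgebraic_algebraMap_iff (IsFractionRing.injective B E)).mp h2
  obtain ⟨r, hr, c, hc⟩ := h3.exists_nonzero_dvd hb'
  refine ⟨r, hr, c * b, ?_⟩
  have hne : algebraMap B E b' ≠ 0 := by
    rw [Ne, map_eq_zero_iff _ (IsFractionRing.injective B E)]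
    exact hb'0
  rw [IsScalarTower.algebraMap_apply R B E, hc, map_mul, map_mul]
  field_simp

end Algebra

section Schemes

variable {X A : Scheme.{u}}

/-- (REG) on one affine open `W` of `X` mapping into the affine open `U` of `A`. -/
theorem exists_ne_zero_mul_regular_of_affine [IsIntegral X] [IsIntegral A] (ψ : X ⟶ A)
    [Algebra A.functionField X.functionField]
    [Algebra.IsAlgebraic A.functionField X.functionField]
    (hφ : helper2482.FunFieldCompat ψ (algebraMap A.functionField X.functionField))
    {U : A.Opens} (hU : IsAffineOpen U) [Nonempty U]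
    {W : X.Opens} (hW : IsAffineOpen W) [Nonempty W] (hWU : W ≤ ψ ⁻¹ᵁ U)
    (e : X.functionField) :
    ∃ r : Γ(A, U), r ≠ 0 ∧ ∀ y ∈ W,
      algebraMap A.functionField X.functionField (A.germToFunctionField U r) * e ∈
        Set.range (algebraMap (X.presheaf.stalk y) X.functionField) := by
  let ρ : Γ(A, U) →+* Γ(X, W) := (ψ.app U ≫ X.presheaf.map (homOfLE hWU).op).hom
  letI : Algebra Γ(A, U) Γ(X, W) := ρ.toAlgebra
  letI : Algebra Γ(A, U) X.functionField :=
    ((algebraMap Γ(X, W) X.functionField).comp ρ).toAlgebra
  haveI : IsScalarTower Γ(A, U) Γ(X, W) X.functionField :=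
    IsScalarTower.of_algebraMap_eq (fun _ => rfl)
  have hgenA : genericPoint A ∈ U := helper2482.genericPoint_mem_of_mem (Nonempty.some ‹Nonempty U›).2
  have hgenW : genericPoint X ∈ W := helper2482.genericPoint_mem_of_mem (Nonempty.some ‹Nonempty W›).2
  have hgenX : genericPoint X ∈ ψ ⁻¹ᵁ U := hWU hgenW
  have htower : ∀ r : Γ(A, U), algebraMap Γ(A, U) X.functionField r =
      algebraMap A.functionField X.functionField (algebraMap Γ(A, U) A.functionField r) := by
    intro r
    have h1 := hφ U hgenA hgenX r
    have h2 : X.presheaf.germ W (genericPoint X) hgenW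
        (X.presheaf.map (homOfLE hWU).op (ψ.app U r)) =
        X.presheaf.germ (ψ ⁻¹ᵁ U) (genericPoint X) hgenX (ψ.app U r) :=
      TopCat.Presheaf.germ_res_apply _ _ _ _ _
    exact h2.trans h1.symm
  haveI : IsScalarTower Γ(A, U) A.functionField X.functionField :=
    IsScalarTower.of_algebraMap_eq htower
  haveI : IsFractionRing Γ(A, U) A.functionField :=
    functionField_isFractionRing_of_isAffineOpen A U hU
  haveI : IsFractionRing Γ(X, W) X.functionField :=
    functionField_isFractionRing_of_isAffineOpen X W hW
  obtain ⟨r, hr, c, hc⟩ := exists_ne_zero_mul_eq_algebraMap Γ(A, U) Γ(X, W) A.functionField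
    X.functionField e
  refine ⟨r, hr, fun y hy => ?_⟩
  have h3 : algebraMap A.functionField X.functionField (A.germToFunctionField U r) * e =
      X.presheaf.germ W (genericPoint X) hgenW c := by
    rw [htower] at hc
    exact hc
  rw [h3]
  exact helper2482.germ_mem_range_stalk W hgenW c hy

/-- The image in `K(X)` of a section of `A` over `U` is regular at every point of `ψ⁻¹ U`. -/
theorem map_germ_regular [IsIntegral X] [IsIntegral A] (ψ : X ⟶ A)
    [Algebra A.functionField X.functionField]
    (hφ : helper2482.FunFieldCompat ψ (algebraMap A.functionField X.functionField))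
    (U : A.Opens) [Nonempty U] (s : Γ(A, U)) {y : X} (hy : ψ.base y ∈ U) :
    algebraMap A.functionField X.functionField (A.germToFunctionField U s) ∈
      Set.range (algebraMap (X.presheaf.stalk y) X.functionField) :=
  hφ.map_mem_range_stalk y
    (helper2482.germ_mem_range_stalk U (helper2482.genericPoint_mem_of_mem hy) s hy)

/-- **(REG).** `ψ : X ⟶ A` a quasi-compact morphism of integral schemes with `K(X)` algebraic
over `K(A)`, `U ⊆ A` a nonempty affine open, `e ∈ K(X)`.  Then some nonzero `r ∈ Γ(A, U)` makes
`r * e` regular at every point of `ψ⁻¹ U`.  No normality assumption on `X`. -/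
theorem exists_ne_zero_forall_mul_regular [IsIntegral X] [IsIntegral A] (ψ : X ⟶ A)
    [QuasiCompact ψ] [Algebra A.functionField X.functionField]
    [Algebra.IsAlgebraic A.functionField X.functionField]
    (hφ : helper2482.FunFieldCompat ψ (algebraMap A.functionField X.functionField))
    {U : A.Opens} (hU : IsAffineOpen U) [Nonempty U] (e : X.functionField) :
    ∃ r : Γ(A, U), r ≠ 0 ∧ ∀ y : X, ψ.base y ∈ U →
      algebraMap A.functionField X.functionField (A.germToFunctionField U r) * e ∈
        Set.range (algebraMap (X.presheaf.stalk y) X.functionField) := by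
  classical
  have hcomp : IsCompact ((ψ ⁻¹ᵁ U : X.Opens) : Set X) := ψ.isCompact_preimage hU.isCompact
  have hloc : ∀ y : (ψ ⁻¹ᵁ U : X.Opens), ∃ W : X.Opens, IsAffineOpen W ∧ (y : X) ∈ W ∧
      W ≤ ψ ⁻¹ᵁ U := fun y => by
    obtain ⟨W, hW, hyW, hWU⟩ := exists_isAffineOpen_mem_and_subset (x := (y : X)) y.2
    exact ⟨W, hW, hyW, hWU⟩
  choose W hWaff hyW hWU using hloc
  obtain ⟨t, ht⟩ := hcomp.elim_finite_subcover (fun y => ((W y : X.Opens) : Set X))
    (fun y => (W y).isOpen) (fun x hx => Set.mem_iUnion.mpr ⟨⟨x, hx⟩, hyW _⟩)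
  have hr : ∀ y : (ψ ⁻¹ᵁ U : X.Opens), ∃ r : Γ(A, U), r ≠ 0 ∧ ∀ x ∈ W y,
      algebraMap A.functionField X.functionField (A.germToFunctionField U r) * e ∈
        Set.range (algebraMap (X.presheaf.stalk x) X.functionField) := fun y => by
    haveI : Nonempty (W y) := ⟨⟨y, hyW y⟩⟩
    exact exists_ne_zero_mul_regular_of_affine ψ hφ hU (hWaff y) (hWU y) e
  choose r hr0 hr using hr
  refine ⟨∏ y ∈ t, r y, Finset.prod_ne_zero_iff.mpr (fun y _ => hr0 y), fun x hx => ?_⟩
  obtain ⟨y, hyt, hxy⟩ : ∃ y ∈ t, x ∈ W y := by
    have := ht hx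
    simpa using this
  rw [← Finset.mul_prod_erase t r hyt, map_mul, map_mul, mul_right_comm]
  exact Subring.mul_mem (algebraMap (X.presheaf.stalk x) X.functionField).range
    (hr y x hxy) (map_germ_regular ψ hφ U _ hx)

/-- A `K(A)`-basis of `K(X)` all of whose members are regular at every point of `ψ⁻¹ U`
(`U` a nonempty affine open of `A`); no normality assumption on `X`. -/
theorem exists_basis_regular [IsIntegral X] [IsIntegral A] (ψ : X ⟶ A)
    [QuasiCompact ψ] [Algebra A.functionField X.functionField]
    [FiniteDimensional A.functionField X.functionField]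
    (hφ : helper2482.FunFieldCompat ψ (algebraMap A.functionField X.functionField))
    {U : A.Opens} (hU : IsAffineOpen U) [Nonempty U] :
    ∃ b : Module.Basis (Fin (Module.finrank A.functionField X.functionField)) A.functionField
        X.functionField,
      ∀ i, ∀ y : X, ψ.base y ∈ U →
        b i ∈ Set.range (algebraMap (X.presheaf.stalk y) X.functionField) := by
  let b0 := Module.finBasis A.functionField X.functionField
  have h := fun i => exists_ne_zero_forall_mul_regular ψ hφ hU (b0 i)
  choose r hr0 hr using h
  have hne : ∀ i, A.germToFunctionField U (r i) ≠ 0 := fun i h0 =>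
    hr0 i (A.germToFunctionField_injective U (h0.trans (map_zero _).symm))
  refine ⟨b0.unitsSMul (fun i => Units.mk0 _ (hne i)), fun i y hy => ?_⟩
  rw [Module.Basis.unitsSMul_apply, Units.smul_def, Algebra.smul_def]
  exact hr i y hy

end Schemes

section SpecForm

open Fermat.Agent.S26.helper154

variable {X A : Scheme.{u}} [IsIntegral X] [IsIntegral A]

/-- The function-field map of the Spec is compatible with `ψ` in the sense of `helper2482`. -/
theorem funFieldCompat_funFieldHom (ψ : X ⟶ A) (h : IsDom ψ) :
    helper2482.FunFieldCompat ψ (funFieldHom ψ h) :=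
  helper2482.funFieldCompat_stalkMap ψ (specializes_of_eq h)

/-- **(REG), Spec vocabulary.**  For a quasi-compact dominant `ψ : X ⟶ A` of integral schemes
with `K(X)` finite over `K(A)` and a nonempty affine open `U ⊆ A` there is a `K(A)`-basis of
`K(X)` whose members lie in `localSubring X y` for every `y` with `ψ y ∈ U`.
No normality assumption on `X`. -/
theorem exists_basis_localSubring (ψ : X ⟶ A) [QuasiCompact ψ] (h : IsDom ψ)
    (hfin : letI := (funFieldHom ψ h).toAlgebra
      FiniteDimensional A.functionField X.functionField)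
    {U : A.Opens} (hU : IsAffineOpen U) (hne : (U : Set A).Nonempty) :
    letI := (funFieldHom ψ h).toAlgebra
    ∃ b : Module.Basis (Fin (Module.finrank A.functionField X.functionField)) A.functionField
        X.functionField,
      ∀ i, ∀ y : X, ψ.base y ∈ U → b i ∈ localSubring X y := by
  letI := (funFieldHom ψ h).toAlgebra
  haveI : FiniteDimensional A.functionField X.functionField := hfin
  haveI : Nonempty U := ⟨⟨hne.some, hne.some_mem⟩⟩
  exact exists_basis_regular ψ (funFieldCompat_funFieldHom ψ h) hU

/-- The same for `IsSepDom ψ δ`, with the basis indexed by `Fin δ`. -/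
theorem exists_basis_localSubring_of_isSepDom (ψ : X ⟶ A) [QuasiCompact ψ] (δ : ℕ)
    (hψ : IsSepDom ψ δ) {U : A.Opens} (hU : IsAffineOpen U) (hne : (U : Set A).Nonempty) :
    ∃ h : IsDom ψ,
      letI := (funFieldHom ψ h).toAlgebra
      ∃ b : Module.Basis (Fin δ) A.functionField X.functionField,
        ∀ i, ∀ y : X, ψ.base y ∈ U → b i ∈ localSubring X y := by
  obtain ⟨h, -, hfin, hrank⟩ := hψ
  refine ⟨h, ?_⟩
  letI := (funFieldHom ψ h).toAlgebra
  obtain ⟨b, hb⟩ := exists_basis_localSubring ψ h hfin hU hne
  refine ⟨b.reindex (finCongr hrank), fun i y hy => ?_⟩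
  rw [Module.Basis.reindex_apply]
  exact hb _ y hy

/-- A proper morphism over a separated base is quasi-compact: the instance needed above in the
situation of `Stmt_SW` (`x` proper, `f` separated, `ψ ≫ f = x`). -/
theorem quasiCompact_of_comp_eq {S : Scheme.{u}} (ψ : X ⟶ A) (f : A ⟶ S) (x : X ⟶ S)
    [IsProper x] [IsSeparated f] (hψ : ψ ≫ f = x) : QuasiCompact ψ := by
  subst hψ
  haveI : IsProper ψ := IsProper.of_comp ψ f
  infer_instance

end SpecForm

end Fermat.Agent.S26.helper4523
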