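import Mathlib

/-!
# S26-M4-GEOMINT, backup (helper5165): geometric integrality over an algebraically closed field
by the TENSOR-PRODUCT-OF-DOMAINS route.

Uncorrelated with the owner's file (`helper1513_GeomIntegral`): no smoothness and no
"smooth over an arbitrary field is integral" input is used.

* `isDomain_tensorProduct` : over an algebraically closed field `K`, the tensor product
  `A ⊗[K] B` of two `K`-algebras that are domains is a domain (no finiteness hypothesis).
* `geometricallyIntegral_SpecMap` : `Spec L ⟶ Spec K` is geometrically integral for every field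
  extension `L / K`.
* `geometricallyIntegral_of_isIntegral` : an integral, locally noetherian `K`-scheme is
  geometrically integral over `K`.
* `isIntegral_pullback`, `geometricallyIntegral_pullback` : products over `K` of integral schemes
  locally of finite type are integral and geometrically integral.
-/

set_option autoImplicit false

universe u

open CategoryTheory CategoryTheory.Limits AlgebraicGeometry TensorProduct

namespace Fermat.Agent.S26.helper5165

section Algebra

variable {K : Type*} [Field K] [IsAlgClosed K]

/-- Nullstellensatz form: in a reduced algebra of finite type over an algebraically closed field,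
an element killed by every `K`-point is zero. -/
theorem eq_zero_of_forall_algHom_eq_zero {A : Type*} [CommRing A] [Algebra K A]
    [Algebra.FiniteType K A] [IsReduced A] (a : A) (h : ∀ χ : A →ₐ[K] K, χ a = 0) : a = 0 := by
  have hJ : IsJacobsonRing A := isJacobsonRing_of_finiteType (A := K)
  have hrad : (⊥ : Ideal A).IsRadical := by
    rw [← Ideal.radical_eq_iff]
    exact Ideal.radical_bot_of_isReduced
  have hmem : a ∈ (⊥ : Ideal A).jacobson := by
    rw [Ideal.jacobson, Ideal.mem_sInf]
    rintro m ⟨-, hm⟩
    have := hm
    let _ := Ideal.Quotient.field m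
    have hfin : Module.Finite K (A ⧸ m) := finite_of_finite_type_of_isJacobsonRing K (A ⧸ m)
    have hbij : Function.Bijective (algebraMap K (A ⧸ m)) :=
      IsAlgClosed.algebraMap_bijective_of_isIntegral
    let e : K ≃ₐ[K] (A ⧸ m) := AlgEquiv.ofBijective (Algebra.ofId K (A ⧸ m)) hbij
    let χ : A →ₐ[K] K := (e.symm : (A ⧸ m) →ₐ[K] K).comp (Ideal.Quotient.mkₐ K m)
    have h1 : e.symm (Ideal.Quotient.mk m a) = 0 := h χ
    have h2 : Ideal.Quotient.mk m a = 0 := by
      have := congrArg e h1
      simpa using this
    exact Ideal.Quotient.eq_zero_iff_mem.mp h2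
  rw [hJ.out hrad] at hmem
  simpa using hmem

omit [IsAlgClosed K] in
/-- Every element of `A ⊗[K] B` is a finite sum `∑ c i ⊗ 𝔟 i` along a `K`-basis `𝔟` of `B`. -/
theorem exists_repr {A B : Type*} [CommRing A] [CommRing B] [Algebra K A] [Algebra K B]
    {ι : Type*} (𝔟 : Module.Basis ι K B) (x : A ⊗[K] B) :
    x = ∑ i ∈ ((Algebra.TensorProduct.basis A 𝔟).repr x).support,
      ((Algebra.TensorProduct.basis A 𝔟).repr x) i ⊗ₜ[K] 𝔟 i := by
  classical
  conv_lhs => rw [← (Algebra.TensorProduct.basis A 𝔟).linearCombination_repr x]
  rw [Finsupp.linearCombination_apply, Finsupp.sum]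
  refine Finset.sum_congr rfl fun i _ => ?_
  rw [Algebra.TensorProduct.basis_apply, TensorProduct.smul_tmul', smul_eq_mul, mul_one]

/-- Finite type case of `mul_eq_zero_tensor`. -/
theorem mul_eq_zero_tensor_of_finiteType {A B : Type*} [CommRing A] [CommRing B] [Algebra K A]
    [Algebra K B] [IsDomain A] [Algebra.FiniteType K A] [IsDomain B] (x y : A ⊗[K] B)
    (h : x * y = 0) : x = 0 ∨ y = 0 := by
  classical
  let 𝔟 := Module.Free.chooseBasis K B
  let β := Algebra.TensorProduct.basis A 𝔟
  have key : ∀ χ : A →ₐ[K] K, (∀ i, χ (β.repr x i) = 0) ∨ (∀ j, χ (β.repr y j) = 0) := by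
    intro χ
    let χB : A ⊗[K] B →ₐ[K] B :=
      (Algebra.TensorProduct.lid K B).toAlgHom.comp (Algebra.TensorProduct.map χ (AlgHom.id K B))
    have hχ : ∀ (a : A) (b : B), χB (a ⊗ₜ[K] b) = χ a • b := by
      intro a b
      simp [χB]
    have ex : ∀ z : A ⊗[K] B, χB z = ∑ i ∈ (β.repr z).support, χ (β.repr z i) • 𝔟 i := by
      intro z
      conv_lhs => rw [exists_repr 𝔟 z]
      rw [map_sum]
      exact Finset.sum_congr rfl fun i _ => hχ _ _
    have hz : ∀ z : A ⊗[K] B, χB z = 0 → ∀ i, χ (β.repr z i) = 0 := by
      intro z hz0 i
      by_cases hi : i ∈ (β.repr z).support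
      · rw [ex z] at hz0
        exact linearIndependent_iff'.mp 𝔟.linearIndependent (β.repr z).support
          (fun i => χ (β.repr z i)) hz0 i hi
      · rw [Finsupp.notMem_support_iff.mp hi, map_zero]
    have h1 : χB x * χB y = 0 := by rw [← map_mul, h, map_zero]
    rcases mul_eq_zero.mp h1 with h0 | h0
    · exact Or.inl (hz x h0)
    · exact Or.inr (hz y h0)
  have prod_zero : ∀ i j, β.repr x i * β.repr y j = 0 := by
    intro i j
    apply eq_zero_of_forall_algHom_eq_zero (K := K)
    intro χ
    rcases key χ with h' | h'
    · rw [map_mul, h' i, zero_mul]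
    · rw [map_mul, h' j, mul_zero]
  by_cases hc : β.repr x = 0
  · exact Or.inl (β.repr.map_eq_zero_iff.mp hc)
  · right
    obtain ⟨i, hi⟩ := Finsupp.ne_iff.mp hc
    have hd : β.repr y = 0 := by
      ext j
      exact (mul_eq_zero.mp (prod_zero i j)).resolve_left hi
    exact β.repr.map_eq_zero_iff.mp hd

/-- Over an algebraically closed field, the tensor product of two domains has no zero
divisors. No finiteness hypothesis. -/
theorem mul_eq_zero_tensor {A B : Type*} [CommRing A] [CommRing B] [Algebra K A]
    [Algebra K B] [IsDomain A] [IsDomain B] (x y : A ⊗[K] B) (h : x * y = 0) :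
    x = 0 ∨ y = 0 := by
  classical
  let 𝔟 := Module.Free.chooseBasis K B
  let β := Algebra.TensorProduct.basis A 𝔟
  let S : Finset A := (β.repr x).support.image (β.repr x) ∪ (β.repr y).support.image (β.repr y)
  let A' : Subalgebra K A := Algebra.adjoin K (S : Set A)
  have hft : Algebra.FiniteType K A' := (Subalgebra.fg_iff_finiteType A').mp
    (Subalgebra.fg_adjoin_finset S)
  have hxS : ∀ i ∈ (β.repr x).support, β.repr x i ∈ A' := fun i hi =>
    Algebra.subset_adjoin (Finset.mem_coe.mpr (Finset.mem_union_left _
      (Finset.mem_image_of_mem _ hi)))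
  have hyS : ∀ i ∈ (β.repr y).support, β.repr y i ∈ A' := fun i hi =>
    Algebra.subset_adjoin (Finset.mem_coe.mpr (Finset.mem_union_right _
      (Finset.mem_image_of_mem _ hi)))
  let φ : A' ⊗[K] B →ₐ[K] A ⊗[K] B := Algebra.TensorProduct.map A'.val (AlgHom.id K B)
  have hφ : Function.Injective φ := by
    have h1 : Function.Injective (LinearMap.rTensor B A'.val.toLinearMap) :=
      Module.Flat.rTensor_preserves_injective_linearMap _ Subtype.val_injective
    have h2 : ∀ z, φ z = LinearMap.rTensor B A'.val.toLinearMap z := by
      intro z
      induction z using TensorProduct.induction_on with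
      | zero => simp
      | tmul a b => simp [φ]
      | add z w hz hw => rw [map_add, map_add, hz, hw]
    intro z w hzw
    exact h1 (by rw [← h2, ← h2, hzw])
  let x' : A' ⊗[K] B := ∑ i ∈ (β.repr x).support.attach,
    (⟨β.repr x i, hxS i i.2⟩ : A') ⊗ₜ[K] 𝔟 i
  let y' : A' ⊗[K] B := ∑ i ∈ (β.repr y).support.attach,
    (⟨β.repr y i, hyS i i.2⟩ : A') ⊗ₜ[K] 𝔟 i
  have hx' : φ x' = x := by
    conv_rhs => rw [exists_repr 𝔟 x]
    rw [← Finset.sum_attach, map_sum]
    exact Finset.sum_congr rfl fun i _ => by simp [φ, β]
  have hy' : φ y' = y := by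
    conv_rhs => rw [exists_repr 𝔟 y]
    rw [← Finset.sum_attach, map_sum]
    exact Finset.sum_congr rfl fun i _ => by simp [φ, β]
  have h' : x' * y' = 0 := hφ (by rw [map_mul, hx', hy', h, map_zero])
  rcases mul_eq_zero_tensor_of_finiteType x' y' h' with h0 | h0
  · left
    rw [← hx', h0, map_zero]
  · right
    rw [← hy', h0, map_zero]

/-- Over an algebraically closed field `K`, the tensor product of two `K`-algebras that are
domains is a domain. -/
theorem isDomain_tensorProduct (K : Type*) [Field K] [IsAlgClosed K] (A B : Type*) [CommRing A]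
    [CommRing B] [Algebra K A] [Algebra K B] [IsDomain A] [IsDomain B] : IsDomain (A ⊗[K] B) := by
  have hnt : Nontrivial (A ⊗[K] B) :=
    (Algebra.TensorProduct.includeLeft_injective (R := K) (S := K) (A := A) (B := B)
      (algebraMap K B).injective).nontrivial
  have hnz : NoZeroDivisors (A ⊗[K] B) := ⟨fun {x y} h => mul_eq_zero_tensor x y h⟩
  exact NoZeroDivisors.to_isDomain _

end Algebra

section Schemes

variable {K : Type u} [Field K] [IsAlgClosed K] {X Y : Scheme.{u}}

/-- For a field extension `L / K` of an algebraically closed field, `Spec L ⟶ Spec K` is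
geometrically integral. -/
theorem geometricallyIntegral_SpecMap (L : Type u) [Field L] [Algebra K L] :
    GeometricallyIntegral (Spec.map (CommRingCat.ofHom (algebraMap K L))) := by
  refine ⟨geometrically_iff_of_commRing.mpr fun F _ _ Z fst snd h => ?_⟩
  have hdom : IsDomain (L ⊗[K] F) := isDomain_tensorProduct K L F
  have h1 : IsIntegral (Spec (CommRingCat.of (L ⊗[K] F))) := inferInstance
  have h2 : IsIntegral (pullback (Spec.map (CommRingCat.ofHom (algebraMap K L)))
      (Spec.map (CommRingCat.ofHom (algebraMap K F)))) :=
    IsIntegral.of_isIso (pullbackSpecIso K L F).inv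
  exact IsIntegral.of_isIso h.isoPullback.inv

/-- Base change of an integral locally noetherian `K`-scheme to any field extension is
integral. -/
theorem isIntegral_pullback_SpecMap (x : X ⟶ Spec (CommRingCat.of K)) [IsIntegral X]
    [IsLocallyNoetherian X] (L : Type u) [Field L] [Algebra K L] :
    IsIntegral (pullback x (Spec.map (CommRingCat.ofHom (algebraMap K L)))) := by
  have := geometricallyIntegral_SpecMap (K := K) L
  infer_instance

/-- Over an algebraically closed field, an integral locally noetherian scheme is geometrically
integral. -/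
theorem geometricallyIntegral_of_isIntegral (x : X ⟶ Spec (CommRingCat.of K)) [IsIntegral X]
    [IsLocallyNoetherian X] : GeometricallyIntegral x := by
  refine ⟨geometrically_iff_of_commRing.mpr fun L _ _ Z fst snd h => ?_⟩
  have := isIntegral_pullback_SpecMap x L
  exact IsIntegral.of_isIso h.isoPullback.inv

/-- Over an algebraically closed field, an integral scheme locally of finite type is
geometrically integral. -/
theorem geometricallyIntegral_of_isIntegral_of_locallyOfFiniteType
    (x : X ⟶ Spec (CommRingCat.of K)) [IsIntegral X] [LocallyOfFiniteType x] :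
    GeometricallyIntegral x := by
  have : IsLocallyNoetherian X := LocallyOfFiniteType.isLocallyNoetherian x
  exact geometricallyIntegral_of_isIntegral x

/-- Over an algebraically closed field, the product of two integral locally noetherian schemes
is integral. -/
theorem isIntegral_pullback (x : X ⟶ Spec (CommRingCat.of K)) (y : Y ⟶ Spec (CommRingCat.of K))
    [IsIntegral X] [IsLocallyNoetherian X] [IsIntegral Y] [IsLocallyNoetherian Y] :
    IsIntegral (pullback x y) := by
  have := geometricallyIntegral_of_isIntegral x
  infer_instance

/-- Over an algebraically closed field, the product of two integral schemes locally of finite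
type is geometrically integral. -/
theorem geometricallyIntegral_pullback (x : X ⟶ Spec (CommRingCat.of K))
    (y : Y ⟶ Spec (CommRingCat.of K)) [IsIntegral X] [LocallyOfFiniteType x] [IsIntegral Y]
    [LocallyOfFiniteType y] : GeometricallyIntegral (pullback.fst x y ≫ x) := by
  have : IsLocallyNoetherian X := LocallyOfFiniteType.isLocallyNoetherian x
  have : IsLocallyNoetherian Y := LocallyOfFiniteType.isLocallyNoetherian y
  have : IsIntegral (pullback x y) := isIntegral_pullback x y
  exact geometricallyIntegral_of_isIntegral_of_locallyOfFiniteType (pullback.fst x y ≫ x)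

/-- `isIntegral_pullback` with finite-type hypotheses. -/
theorem isIntegral_pullback_of_locallyOfFiniteType (x : X ⟶ Spec (CommRingCat.of K))
    (y : Y ⟶ Spec (CommRingCat.of K)) [IsIntegral X] [LocallyOfFiniteType x] [IsIntegral Y]
    [LocallyOfFiniteType y] : IsIntegral (pullback x y) := by
  have : IsLocallyNoetherian X := LocallyOfFiniteType.isLocallyNoetherian x
  have : IsLocallyNoetherian Y := LocallyOfFiniteType.isLocallyNoetherian y
  exact isIntegral_pullback x y

/-- `geometricallyIntegral_pullback`, structure map through the second factor. -/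
theorem geometricallyIntegral_pullback' (x : X ⟶ Spec (CommRingCat.of K))
    (y : Y ⟶ Spec (CommRingCat.of K)) [IsIntegral X] [LocallyOfFiniteType x] [IsIntegral Y]
    [LocallyOfFiniteType y] : GeometricallyIntegral (pullback.snd x y ≫ y) := by
  rw [← pullback.condition]
  exact geometricallyIntegral_pullback x y

/-- Over an algebraically closed field, an integral locally noetherian scheme is geometrically
irreducible, geometrically reduced and geometrically connected. -/
theorem geometricallyIrreducible_of_isIntegral (x : X ⟶ Spec (CommRingCat.of K)) [IsIntegral X]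
    [IsLocallyNoetherian X] : GeometricallyIrreducible x := by
  have := geometricallyIntegral_of_isIntegral x
  infer_instance

theorem geometricallyReduced_of_isIntegral (x : X ⟶ Spec (CommRingCat.of K)) [IsIntegral X]
    [IsLocallyNoetherian X] : GeometricallyReduced x := by
  have := geometricallyIntegral_of_isIntegral x
  infer_instance

theorem geometricallyConnected_of_isIntegral (x : X ⟶ Spec (CommRingCat.of K)) [IsIntegral X]
    [IsLocallyNoetherian X] : GeometricallyConnected x := by
  have := geometricallyIntegral_of_isIntegral x
  refine ⟨fun L _ ℓ Z fst snd h => ?_⟩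
  have : IsIntegral Z := GeometricallyIntegral.geometrically_isIntegral ℓ fst snd h
  infer_instance

end Schemes

end Fermat.Agent.S26.helper5165
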