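import Fermat.Agent.S26.helper154_Spec2
import Fermat.Agent.S26.helper5165_GeomIntegralT

/-!
# S26: integrality and geometric integrality of the products of curves `prodX l` (helper5165)

Consumers: `Stmt_Frame` / `Stmt_FramePos` (the witness `IsIntegral (prodX l).1`), the instance
hypotheses `[GeometricallyIntegral y] [GeometricallyIntegral z] [IsIntegral (pullback ..)]` of
`Stmt_CubeMod` / `Stmt_CubeDiv`, and `[IsIntegral (prodX l).1]` of `Stmt_QuadN` / `Stmt_Upper`.

Everything is derived from `helper5165_GeomIntegralT` (tensor product of domains over an
algebraically closed field): only "integral + locally of finite type" is used, no smoothness.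
-/

set_option autoImplicit false

universe u

open CategoryTheory CategoryTheory.Limits AlgebraicGeometry NeronModelInfra GoodReductionJacobian

namespace Fermat.Agent.S26.helper5165

open Fermat.Agent.S26.helper154

variable {K : Type u} [Field K] {A : Scheme.{u}} {f : A ⟶ Spec (CommRingCat.of K)}
  {L : RelativeGroupLaw K f}

/-- The structure map of a product of proper curves is locally of finite type. -/
theorem locallyOfFiniteType_prodX (l : List (PCurve K f L)) : LocallyOfFiniteType (prodX l).2 := by
  have := isProper_prodX l
  infer_instance

/-- The structure map of a pointed curve is locally of finite type. -/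
theorem pcurve_locallyOfFiniteType (P : PCurve K f L) : LocallyOfFiniteType P.c := by
  have := P.proper
  infer_instance

variable [IsAlgClosed K]

/-- A pointed curve of the Spec is geometrically integral (`K` algebraically closed). -/
theorem pcurve_geometricallyIntegral (P : PCurve K f L) : GeometricallyIntegral P.c := by
  have := P.integral
  have := pcurve_locallyOfFiniteType P
  exact geometricallyIntegral_of_isIntegral_of_locallyOfFiniteType P.c

/-- The product of a list of pointed curves is an integral scheme (`K` algebraically closed). -/
theorem isIntegral_prodX (l : List (PCurve K f L)) : IsIntegral (prodX l).1 := by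
  induction l with
  | nil => exact inferInstanceAs (IsIntegral (Spec (CommRingCat.of K)))
  | cons P l ih =>
    have := ih
    have := P.integral
    have := pcurve_locallyOfFiniteType P
    have := locallyOfFiniteType_prodX l
    exact isIntegral_pullback_of_locallyOfFiniteType P.c (prodX l).2

/-- The product of a list of pointed curves is geometrically integral over `K`. -/
theorem geometricallyIntegral_prodX (l : List (PCurve K f L)) :
    GeometricallyIntegral (prodX l).2 := by
  have := isIntegral_prodX l
  have := locallyOfFiniteType_prodX l
  exact geometricallyIntegral_of_isIntegral_of_locallyOfFiniteType (prodX l).2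

/-- The integrality hypotheses of `Stmt_CubeDiv`, for integral proper `K`-schemes `C`, `Y`, `Z`:
`C × (Y × Z)`, `C × Y`, `C × Z` and `Y × Z` are integral, `Y`, `Z` are geometrically integral. -/
theorem cube_integrality {C Y Z : Scheme.{u}} (c : C ⟶ Spec (CommRingCat.of K))
    (y : Y ⟶ Spec (CommRingCat.of K)) (z : Z ⟶ Spec (CommRingCat.of K))
    [IsIntegral C] [IsIntegral Y] [IsIntegral Z]
    [LocallyOfFiniteType c] [LocallyOfFiniteType y] [LocallyOfFiniteType z] :
    GeometricallyIntegral y ∧ GeometricallyIntegral z ∧
      GeometricallyIntegral (pullback.fst y z ≫ y) ∧
      IsIntegral (pullback y z) ∧ IsIntegral (pullback c y) ∧ IsIntegral (pullback c z) ∧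
      IsIntegral (pullback c (pullback.fst y z ≫ y)) := by
  have hyz : IsIntegral (pullback y z) := isIntegral_pullback_of_locallyOfFiniteType y z
  refine ⟨geometricallyIntegral_of_isIntegral_of_locallyOfFiniteType y,
    geometricallyIntegral_of_isIntegral_of_locallyOfFiniteType z,
    geometricallyIntegral_pullback y z, hyz,
    isIntegral_pullback_of_locallyOfFiniteType c y,
    isIntegral_pullback_of_locallyOfFiniteType c z,
    isIntegral_pullback_of_locallyOfFiniteType c (pullback.fst y z ≫ y)⟩

end Fermat.Agent.S26.helper5165
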