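/-
S26, leaf M2-ASMFACTS (helper5865): the three small divisor facts consumed by the assembly
`helper26.stmt_S26_of`, with exactly the types of `helper26_Assembly.lean`:

* `stmt_PullDom`     : `helper26.Stmt_PullDom`     (a Cartier divisor pulls back along every
  dominant morphism of integral schemes);
* `stmt_EllLinEquiv` : `helper26.Stmt_EllLinEquiv` (`LFinite` and `ell` depend only on the linear
  equivalence class);
* `stmt_EllMono`     : `helper26.Stmt_EllMono`     (`m ↦ ell (D ^ m)` is monotone for effective `D`).
-/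
import Fermat.Agent.S26.helper26_Assembly
import Fermat.Agent.S26.helper218_PullsTo

set_option autoImplicit false

universe u

open CategoryTheory AlgebraicGeometry

namespace Fermat.Agent.S26.helper5865

open Fermat.Agent.S26.helper154

/-! ### Germs of divisors: independence of the local equation -/

section Germs

variable {X : Scheme.{u}} [IsIntegral X]

/-- Regularity of `h * f` at `p` only depends on the class of the local equation `f`. -/
theorem mul_mem_localSubring_of_mk_eq {p : X} {f g : (X.functionField)ˣ}
    (hfg : (QuotientGroup.mk f : LocDiv X p) = QuotientGroup.mk g) {h : X.functionField}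
    (hf : h * (f : X.functionField) ∈ localSubring X p) :
    h * (g : X.functionField) ∈ localSubring X p := by
  obtain ⟨v, rfl⟩ := helper218.mk_eq_mk_iff.1 hfg
  rw [Units.val_mul, ← mul_assoc, helper218.coe_stalkUnit]
  exact Subring.mul_mem _ hf ⟨_, rfl⟩

/-- The membership condition of `L(D)` at `p`, for any given local equation `g` at `p`. -/
theorem lset_local_iff (D : CDiv X) (p : X) {g : (X.functionField)ˣ}
    (hg : D.1 p = QuotientGroup.mk g) (h : X.functionField) :
    (∃ f : (X.functionField)ˣ, D.1 p = QuotientGroup.mk f ∧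
      h * (f : X.functionField) ∈ localSubring X p) ↔
      h * (g : X.functionField) ∈ localSubring X p := by
  constructor
  · rintro ⟨f, hf, hmem⟩
    exact mul_mem_localSubring_of_mk_eq (hf.symm.trans hg) hmem
  · intro hmem
    exact ⟨g, hg, hmem⟩

theorem coe_mul_principal_apply (E : CDiv X) (f : (X.functionField)ˣ) (p : X)
    {g : (X.functionField)ˣ} (hg : E.1 p = QuotientGroup.mk g) :
    (E * CDiv.principal f).1 p = QuotientGroup.mk (g * f) := by
  show E.1 p * (CDiv.principal f).1 p = QuotientGroup.mk (g * f)
  rw [hg]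
  rfl

theorem coe_pow_apply (D : CDiv X) (m : ℕ) (p : X) {g : (X.functionField)ˣ}
    (hg : D.1 p = QuotientGroup.mk g) :
    (D ^ m).1 p = QuotientGroup.mk (g ^ m) := by
  induction m with
  | zero => rw [pow_zero, pow_zero]; rfl
  | succ m ih =>
    rw [pow_succ, pow_succ]
    show (D ^ m).1 p * D.1 p = QuotientGroup.mk (g ^ m * g)
    rw [ih, hg]
    rfl

/-- `h ∈ L(E + div f)` iff `h f ∈ L(E)`. -/
theorem mem_LSet_mul_principal_iff (E : CDiv X) (f : (X.functionField)ˣ) (h : X.functionField) :
    h ∈ CDiv.LSet (E * CDiv.principal f) ↔ h * (f : X.functionField) ∈ CDiv.LSet E := by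
  have key : ∀ p : X,
      (∃ f' : (X.functionField)ˣ, (E * CDiv.principal f).1 p = QuotientGroup.mk f' ∧
        h * (f' : X.functionField) ∈ localSubring X p) ↔
      (∃ f' : (X.functionField)ˣ, E.1 p = QuotientGroup.mk f' ∧
        h * (f : X.functionField) * (f' : X.functionField) ∈ localSubring X p) := by
    intro p
    obtain ⟨g, hg⟩ := QuotientGroup.mk_surjective (E.1 p)
    rw [lset_local_iff (E * CDiv.principal f) p (coe_mul_principal_apply E f p hg.symm) h,
      lset_local_iff E p hg.symm (h * (f : X.functionField)), Units.val_mul]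
    have e : h * ((g : X.functionField) * (f : X.functionField)) =
        h * (f : X.functionField) * (g : X.functionField) := by ring
    rw [e]
  constructor
  · intro hh p
    exact (key p).1 (hh p)
  · intro hh p
    exact (key p).2 (hh p)

/-- For an effective divisor, `L(mD) ⊆ L(m'D)` when `m ≤ m'`. -/
theorem LSet_pow_mono {D : CDiv X} (hD : CDiv.IsEffective D) {m m' : ℕ} (hm : m ≤ m') :
    CDiv.LSet (D ^ m) ⊆ CDiv.LSet (D ^ m') := by
  intro h hh p
  obtain ⟨f, hf, hfmem⟩ := hD p
  have h1 := (lset_local_iff (D ^ m) p (coe_pow_apply D m p hf) h).1 (hh p)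
  refine (lset_local_iff (D ^ m') p (coe_pow_apply D m' p hf) h).2 ?_
  obtain ⟨k, rfl⟩ := Nat.exists_eq_add_of_le hm
  rw [pow_add, Units.val_mul, ← mul_assoc, Units.val_pow_eq_pow_val, Units.val_pow_eq_pow_val]
  rw [Units.val_pow_eq_pow_val] at h1
  exact Subring.mul_mem _ h1 (Subring.pow_mem _ hfmem k)

end Germs

/-! ### `Stmt_PullDom` -/

section PullDom

variable {X : Scheme.{u}} [IsIntegral X]

/-- At the generic point every germ of a Cartier divisor is trivial. -/
theorem apply_genericPoint_eq_one (D : CDiv X) : D.1 (genericPoint X) = 1 := by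
  obtain ⟨f, hf⟩ := QuotientGroup.mk_surjective (D.1 (genericPoint X))
  rw [← hf]
  refine helper218.mk_eq_one_iff.2 ⟨f, ?_⟩
  apply Units.ext
  rw [helper218.coe_stalkUnit, helper218.algebraMap_stalk_eq]
  have h := TopCat.Presheaf.stalkSpecializes_refl X.presheaf (genericPoint X)
  have h2 : X.presheaf.stalkSpecializes ((genericPoint_spec X).specializes trivial) =
      𝟙 (X.presheaf.stalk (genericPoint X)) := h
  rw [h2]
  rfl

end PullDom

/-- **`Stmt_PullDom`.** -/
theorem stmt_PullDom : helper26.Stmt_PullDom.{u} := by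
  intro Y X _ _ φ hφ D
  refine helper218.exists_pullsTo φ D ?_
  have h : φ.base (genericPoint Y) = genericPoint X := hφ
  rw [h]
  exact apply_genericPoint_eq_one D

/-! ### `Stmt_EllLinEquiv` -/

section Ell

variable {K : Type u} [Field K] {X : Scheme.{u}} [IsIntegral X]

/-- Multiplication by `f` as a `K`-linear isomorphism `L(E + div f) ≃ L(E)`. -/
noncomputable def mulEquiv (x : X ⟶ Spec (CommRingCat.of K)) (E : CDiv X) (f : (X.functionField)ˣ) :
    letI := (constHom x).toAlgebra
    CDiv.LSub x (E * CDiv.principal f) ≃ₗ[K] CDiv.LSub x E :=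
  letI := (constHom x).toAlgebra
  { toFun := fun h => ⟨h.1 * (f : X.functionField),
      (mem_LSet_mul_principal_iff E f h.1).1 h.2⟩
    map_add' := fun a b => Subtype.ext (add_mul a.1 b.1 _)
    map_smul' := fun c a => Subtype.ext (smul_mul_assoc c a.1 _)
    invFun := fun h => ⟨h.1 * ((f⁻¹ : (X.functionField)ˣ) : X.functionField),
      (mem_LSet_mul_principal_iff E f _).2 (by
        have e : h.1 * ((f⁻¹ : (X.functionField)ˣ) : X.functionField) * (f : X.functionField) =
            h.1 := by
          rw [mul_assoc, Units.inv_mul, mul_one]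
        rw [e]
        exact h.2)⟩
    left_inv := fun h => Subtype.ext (by
      show h.1 * (f : X.functionField) * ((f⁻¹ : (X.functionField)ˣ) : X.functionField) = h.1
      rw [mul_assoc, Units.mul_inv, mul_one])
    right_inv := fun h => Subtype.ext (by
      show h.1 * ((f⁻¹ : (X.functionField)ˣ) : X.functionField) * (f : X.functionField) = h.1
      rw [mul_assoc, Units.inv_mul, mul_one]) }

end Ell

/-- **`Stmt_EllLinEquiv`.** -/
theorem stmt_EllLinEquiv : helper26.Stmt_EllLinEquiv.{u} := by
  intro K _ X _ x D E hDE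
  obtain ⟨f, rfl⟩ := hDE
  letI := (constHom x).toAlgebra
  refine ⟨⟨fun h => ?_, fun h => ?_⟩, ?_⟩
  · have h' : Module.Finite K (CDiv.LSub x (E * CDiv.principal f)) := h
    exact Module.Finite.equiv (mulEquiv x E f)
  · have h' : Module.Finite K (CDiv.LSub x E) := h
    exact Module.Finite.equiv (mulEquiv x E f).symm
  · exact LinearEquiv.finrank_eq (mulEquiv x E f)

/-- **`Stmt_EllMono`.** -/
theorem stmt_EllMono : helper26.Stmt_EllMono.{u} := by
  intro K _ X _ x D hD m m' hm hfin
  letI := (constHom x).toAlgebra
  have hle : CDiv.LSub x (D ^ m) ≤ CDiv.LSub x (D ^ m') := LSet_pow_mono hD hm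
  have h' : Module.Finite K (CDiv.LSub x (D ^ m')) := hfin
  exact LinearMap.finrank_le_finrank_of_injective (Submodule.inclusion_injective hle)

end Fermat.Agent.S26.helper5865
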