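import Fermat.Agent.S26.helper154_Spec2

/-!
# S26, leaf M6-TAN (helper752): étale at a point ⟹ dominant with finite separable function field

(TAN-A) A morphism `φ : Y ⟶ X` of integral schemes that is étale on a nonempty open of `Y`
is dominant, and `K(Y)` is a finite separable extension of `K(X)`:
`∃ δ, 0 < δ ∧ IsSepDom φ δ`.
-/

set_option autoImplicit false

universe u

noncomputable section

open CategoryTheory CategoryTheory.Limits AlgebraicGeometry TopologicalSpace NeronModelInfra
  GoodReductionJacobian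

namespace Fermat.Agent.S26.helper752

open Fermat.Agent.S26.helper154

section TanA

variable {X Y : Scheme.{u}}

/-- The stalk map along an equality of points is bijective. -/
theorem stalkSpecializes_bijective_of_eq (X : Scheme.{u}) {a b : X} (h : a = b) :
    Function.Bijective (X.presheaf.stalkSpecializes (specializes_of_eq h)).hom := by
  subst h
  have : X.presheaf.stalkSpecializes (specializes_of_eq (rfl : a = a)) = 𝟙 _ :=
    TopCat.Presheaf.stalkSpecializes_refl _ _
  rw [this]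
  exact Function.bijective_id

/-- A flat morphism of integral schemes defined on a nonempty open is dominant. -/
theorem isDom_of_flat_on_open [IsIntegral X] [IsIntegral Y] (φ : Y ⟶ X) (U : Y.Opens)
    (hU : (U : Set Y).Nonempty) [Flat (U.ι ≫ φ)] : IsDom φ := by
  have hη : genericPoint Y ∈ U :=
    ((genericPoint_spec Y).mem_open_set_iff U.2).mpr (by simpa using hU)
  have hgen : GeneralizingMap (U.ι ≫ φ) := Flat.generalizingMap (U.ι ≫ φ)
  have h1 : genericPoint X ⤳ (U.ι ≫ φ) ⟨genericPoint Y, hη⟩ :=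
    (genericPoint_spec X).specializes (Set.mem_univ _)
  obtain ⟨a', ha', ha'2⟩ := hgen h1
  have h2 : (U.ι a') ⤳ genericPoint Y := by
    have := ha'.map U.ι.continuous
    simpa using this
  have h3 : genericPoint Y ⤳ U.ι a' := (genericPoint_spec Y).specializes (Set.mem_univ _)
  have h4 : U.ι a' = genericPoint Y := (h2.antisymm h3).eq
  unfold IsDom
  rw [← ha'2, ← h4]
  simp

/-- Stalk maps of a morphism that is formally unramified on an open `U` are formally
unramified at the points of `U`. -/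
theorem formallyUnramified_stalkMap_of_mem (φ : Y ⟶ X) (U : Y.Opens)
    [FormallyUnramified (U.ι ≫ φ)] (y : Y) (hy : y ∈ U) :
    (φ.stalkMap y).hom.FormallyUnramified := by
  have h1 := FormallyUnramified.stalkMap (U.ι ≫ φ) ⟨y, hy⟩
  rw [Scheme.Hom.stalkMap_comp] at h1
  have h2 : (φ.stalkMap (U.ι ⟨y, hy⟩)).hom.FormallyUnramified :=
    (RingHom.FormallyUnramified.respectsIso.cancel_right_isIso _ (U.ι.stalkMap ⟨y, hy⟩)).mp h1
  exact h2

/-- Stalk maps of a morphism that is locally of finite type on an open `U` are essentially of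
finite type at the points of `U`. -/
theorem essFiniteType_stalkMap_of_mem (φ : Y ⟶ X) (U : Y.Opens)
    [LocallyOfFiniteType (U.ι ≫ φ)] (y : Y) (hy : y ∈ U) :
    (φ.stalkMap y).hom.EssFiniteType := by
  have h1 := LocallyOfFiniteType.stalkMap (U.ι ≫ φ) ⟨y, hy⟩
  rw [Scheme.Hom.stalkMap_comp] at h1
  have h2 : (φ.stalkMap (U.ι ⟨y, hy⟩)).hom.EssFiniteType :=
    (RingHom.EssFiniteType.respectsIso.cancel_right_isIso _ (U.ι.stalkMap ⟨y, hy⟩)).mp h1
  exact h2

/-- **(TAN-A)** A morphism of integral schemes which is étale on a nonempty open of the source is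
dominant, and the extension of function fields is finite separable. -/
theorem exists_isSepDom_of_etale_on_open [IsIntegral X] [IsIntegral Y] (φ : Y ⟶ X) (U : Y.Opens)
    (hU : (U : Set Y).Nonempty) [Etale (U.ι ≫ φ)] : ∃ δ, 0 < δ ∧ IsSepDom φ δ := by
  have hη : genericPoint Y ∈ U :=
    ((genericPoint_spec Y).mem_open_set_iff U.2).mpr (by simpa using hU)
  have hdom : IsDom φ := isDom_of_flat_on_open φ U hU
  have hb := stalkSpecializes_bijective_of_eq X hdom
  have e1 : (X.presheaf.stalkSpecializes (specializes_of_eq hdom)).hom.EssFiniteType :=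
    RingHom.FiniteType.essFiniteType (RingHom.FiniteType.of_surjective _ hb.2)
  have hfu : (funFieldHom φ hdom).FormallyUnramified :=
    RingHom.FormallyUnramified.comp (RingHom.FormallyUnramified.of_surjective hb.2)
      (formallyUnramified_stalkMap_of_mem φ U _ hη)
  have hef : (funFieldHom φ hdom).EssFiniteType :=
    RingHom.EssFiniteType.comp e1 (essFiniteType_stalkMap_of_mem φ U _ hη)
  letI := (funFieldHom φ hdom).toAlgebra
  haveI : Algebra.FormallyUnramified X.functionField Y.functionField := hfu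
  haveI : Algebra.EssFiniteType X.functionField Y.functionField := hef
  haveI : Module.Finite X.functionField Y.functionField :=
    Algebra.FormallyUnramified.finite_of_free _ _
  haveI := Algebra.FormallyUnramified.isSeparable X.functionField Y.functionField
  exact ⟨Module.finrank X.functionField Y.functionField, Module.finrank_pos, hdom,
    inferInstance, inferInstance, rfl⟩

end TanA

/-! ### Tangent vectors as points with values in the dual numbers -/

section Tan

/-- The spectrum of the dual numbers `K[ε]`. -/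
abbrev Sε (K : Type u) [Field K] : Scheme.{u} := Spec (CommRingCat.of (TrivSqZeroExt K K))

/-- The structure map `Spec K[ε] ⟶ Spec K`. -/
def tε (K : Type u) [Field K] : Sε K ⟶ Spec (CommRingCat.of K) :=
  Spec.map (CommRingCat.ofHom (algebraMap K (TrivSqZeroExt K K)))

/-- The closed point `Spec K ⟶ Spec K[ε]`. -/
def ιε (K : Type u) [Field K] : Spec (CommRingCat.of K) ⟶ Sε K :=
  Spec.map (CommRingCat.ofHom (TrivSqZeroExt.fstHom K K K).toRingHom)

theorem ιε_tε (K : Type u) [Field K] : ιε K ≫ tε K = 𝟙 _ := by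
  unfold ιε tε
  rw [← Spec.map_comp, ← CommRingCat.ofHom_comp]
  have : ((TrivSqZeroExt.fstHom K K K).toRingHom).comp (algebraMap K (TrivSqZeroExt K K)) =
      RingHom.id K := by
    ext a
    simp
  rw [this]
  exact Spec.map_id _

variable {K : Type u} [Field K]

/-- Tangent vectors of the `K`-scheme `y : Y ⟶ Spec K` at the `K`-point `y₀`: the `K[ε]`-points
of `Y` restricting to `y₀`. -/
def Tan {Y : Scheme.{u}} (y : Y ⟶ Spec (CommRingCat.of K)) (y₀ : Spec (CommRingCat.of K) ⟶ Y) :
    Type u :=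
  {v : SchemeHomOver (tε K) y // ιε K ≫ v.1 = y₀}

@[ext]
theorem Tan.ext {Y : Scheme.{u}} {y : Y ⟶ Spec (CommRingCat.of K)}
    {y₀ : Spec (CommRingCat.of K) ⟶ Y} {v w : Tan y y₀} (h : v.1.1 = w.1.1) : v = w :=
  Subtype.ext (Subtype.ext h)

/-- Push-forward of tangent vectors along a pointed `K`-morphism. -/
def Tan.map {Y Z : Scheme.{u}} {y : Y ⟶ Spec (CommRingCat.of K)}
    {z : Z ⟶ Spec (CommRingCat.of K)} {y₀ : Spec (CommRingCat.of K) ⟶ Y}
    {z₀ : Spec (CommRingCat.of K) ⟶ Z} (φ : Y ⟶ Z) (hφ : φ ≫ z = y) (h₀ : y₀ ≫ φ = z₀)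
    (v : Tan y y₀) : Tan z z₀ :=
  ⟨⟨v.1.1 ≫ φ, by rw [Category.assoc, hφ, v.1.2]⟩, by
    show ιε K ≫ v.1.1 ≫ φ = z₀
    rw [← Category.assoc, v.2, h₀]⟩

@[simp]
theorem Tan.map_val {Y Z : Scheme.{u}} {y : Y ⟶ Spec (CommRingCat.of K)}
    {z : Z ⟶ Spec (CommRingCat.of K)} {y₀ : Spec (CommRingCat.of K) ⟶ Y}
    {z₀ : Spec (CommRingCat.of K) ⟶ Z} (φ : Y ⟶ Z) (hφ : φ ≫ z = y) (h₀ : y₀ ≫ φ = z₀)
    (v : Tan y y₀) : (Tan.map φ hφ h₀ v).1.1 = v.1.1 ≫ φ :=
  rfl

/-- The tangent space of `Spec K` at its point is a point. -/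
theorem Tan.eq_of_id (v w : Tan (𝟙 (Spec (CommRingCat.of K))) (𝟙 (Spec (CommRingCat.of K)))) :
    v = w := by
  apply Tan.ext
  have h1 := v.1.2
  have h2 := w.1.2
  rw [Category.comp_id] at h1 h2
  rw [h1, h2]

/-- The zero tangent vector of `Spec K`. -/
def Tan.pt : Tan (𝟙 (Spec (CommRingCat.of K))) (𝟙 (Spec (CommRingCat.of K))) :=
  ⟨⟨tε K, Category.comp_id _⟩, ιε_tε K⟩

/-- Tangent vectors of a fibre product are pairs of tangent vectors. -/
def Tan.prodEquiv {Y Z : Scheme.{u}} (y : Y ⟶ Spec (CommRingCat.of K))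
    (z : Z ⟶ Spec (CommRingCat.of K)) (y₀ : Spec (CommRingCat.of K) ⟶ Y)
    (z₀ : Spec (CommRingCat.of K) ⟶ Z) (h : y₀ ≫ y = z₀ ≫ z) :
    Tan (pullback.snd y z ≫ z) (pullback.lift y₀ z₀ h) ≃ Tan y y₀ × Tan z z₀ where
  toFun v :=
    (Tan.map (pullback.fst y z) pullback.condition (pullback.lift_fst _ _ _) v,
      Tan.map (pullback.snd y z) rfl (pullback.lift_snd _ _ _) v)
  invFun p :=
    ⟨⟨pullback.lift p.1.1.1 p.2.1.1 (by rw [p.1.1.2, p.2.1.2]), by
      rw [pullback.lift_snd_assoc, p.2.1.2]⟩, by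
      apply pullback.hom_ext
      · simp only [Category.assoc, pullback.lift_fst]
        exact p.1.2
      · simp only [Category.assoc, pullback.lift_snd]
        exact p.2.2⟩
  left_inv v := by
    apply Tan.ext
    apply pullback.hom_ext
    · exact pullback.lift_fst _ _ _
    · exact pullback.lift_snd _ _ _
  right_inv p := by
    apply Prod.ext
    · apply Tan.ext
      exact pullback.lift_fst _ _ _
    · apply Tan.ext
      exact pullback.lift_snd _ _ _

end Tan

/-! ### The tangent space at the origin as a group -/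

section TanGroup

variable {K : Type u} [Field K] {A : Scheme.{u}} {f : A ⟶ Spec (CommRingCat.of K)}

/-- Composition with a morphism commutes with the inverse of the group law. -/
theorem comp_inv (L : RelativeGroupLaw K f) {T T' : Scheme.{u}}
    (t : T ⟶ Spec (CommRingCat.of K)) (t' : T' ⟶ Spec (CommRingCat.of K)) (ψ : T' ⟶ T)
    (hψ : ψ ≫ t = t') (x : SchemeHomOver t f) :
    schemeHomOverComp ψ hψ (L.inv t x) = L.inv t' (schemeHomOverComp ψ hψ x) := by
  letI := L.pointGroup t'
  have h : L.mul t' (schemeHomOverComp ψ hψ (L.inv t x)) (schemeHomOverComp ψ hψ x) =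
      L.one t' := by
    rw [← L.mul_natural, L.inv_mul_cancel, L.one_natural]
  exact eq_inv_of_mul_eq_one_left h

/-- Composition with a morphism commutes with integer powers for the group law. -/
theorem comp_zpowPt (L : RelativeGroupLaw K f) {T T' : Scheme.{u}}
    (t : T ⟶ Spec (CommRingCat.of K)) (t' : T' ⟶ Spec (CommRingCat.of K)) (ψ : T' ⟶ T)
    (hψ : ψ ≫ t = t') (m : ℤ) (x : SchemeHomOver t f) :
    schemeHomOverComp ψ hψ (helper154.zpowPt L t m x) =
      helper154.zpowPt L t' m (schemeHomOverComp ψ hψ x) := by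
  letI := L.pointGroup t
  letI := L.pointGroup t'
  let φ : SchemeHomOver t f →* SchemeHomOver t' f :=
    MonoidHom.mk' (schemeHomOverComp ψ hψ) (fun a b => L.mul_natural t t' ψ hψ a b)
  exact map_zpow φ x m

/-- The tangent space of `A` at the origin, with the group structure induced by `L`. -/
def TanGrp (L : RelativeGroupLaw K f) : Type u :=
  Tan f (L.one (𝟙 (Spec (CommRingCat.of K)))).1

theorem TanGrp.base_eq (L : RelativeGroupLaw K f) (v : TanGrp L) :
    schemeHomOverComp (ιε K) (ιε_tε K) v.1 = L.one (𝟙 _) :=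
  Subtype.ext v.2

instance TanGrp.instGroup (L : RelativeGroupLaw K f) : Group (TanGrp L) where
  mul v w := ⟨L.mul (tε K) v.1 w.1, by
    have h := congrArg Subtype.val (L.mul_natural (tε K) (𝟙 _) (ιε K) (ιε_tε K) v.1 w.1)
    rw [TanGrp.base_eq, TanGrp.base_eq, L.one_mul] at h
    exact h⟩
  one := ⟨L.one (tε K), congrArg Subtype.val (L.one_natural (tε K) (𝟙 _) (ιε K) (ιε_tε K))⟩
  inv v := ⟨L.inv (tε K) v.1, by
    have h := congrArg Subtype.val (comp_inv L (tε K) (𝟙 _) (ιε K) (ιε_tε K) v.1)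
    rw [TanGrp.base_eq] at h
    have h2 : L.inv (𝟙 _) (L.one (𝟙 _)) = L.one (𝟙 (Spec (CommRingCat.of K))) := by
      letI := L.pointGroup (𝟙 (Spec (CommRingCat.of K)))
      exact inv_one
    rw [h2] at h
    exact h⟩
  mul_assoc a b c := Subtype.ext (L.mul_assoc _ _ _ _)
  one_mul a := Subtype.ext (L.one_mul _ _)
  mul_one a := Subtype.ext (L.mul_one _ _)
  inv_mul_cancel a := Subtype.ext (L.inv_mul_cancel _ _)

theorem TanGrp.mul_val (L : RelativeGroupLaw K f) (v w : TanGrp L) :
    (v * w).1 = L.mul (tε K) v.1 w.1 :=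
  rfl

theorem TanGrp.one_val (L : RelativeGroupLaw K f) : (1 : TanGrp L).1 = L.one (tε K) :=
  rfl

theorem TanGrp.zpow_val (L : RelativeGroupLaw K f) (v : TanGrp L) (m : ℤ) :
    (v ^ m).1 = helper154.zpowPt L (tε K) m v.1 := by
  letI := L.pointGroup (tε K)
  let φ : TanGrp L →* SchemeHomOver (tε K) f :=
    MonoidHom.mk' (fun v => v.1) (fun a b => rfl)
  exact map_zpow φ v m

/-- The tangent map at a point of a pointed morphism to `A`. -/
def tanMap (L : RelativeGroupLaw K f) {Y : Scheme.{u}} {y : Y ⟶ Spec (CommRingCat.of K)}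
    {y₀ : Spec (CommRingCat.of K) ⟶ Y} (h : SchemeHomOver y f)
    (hpt : y₀ ≫ h.1 = (L.one (𝟙 (Spec (CommRingCat.of K)))).1) (v : Tan y y₀) : TanGrp L :=
  Tan.map h.1 h.2 hpt v

theorem tanMap_val (L : RelativeGroupLaw K f) {Y : Scheme.{u}} {y : Y ⟶ Spec (CommRingCat.of K)}
    {y₀ : Spec (CommRingCat.of K) ⟶ Y} (h : SchemeHomOver y f)
    (hpt : y₀ ≫ h.1 = (L.one (𝟙 (Spec (CommRingCat.of K)))).1) (v : Tan y y₀) :
    (tanMap L h hpt v).1 = schemeHomOverComp v.1.1 v.1.2 h :=
  rfl

theorem tanMap_one (L : RelativeGroupLaw K f) {Y : Scheme.{u}} {y : Y ⟶ Spec (CommRingCat.of K)}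
    {y₀ : Spec (CommRingCat.of K) ⟶ Y}
    (hpt : y₀ ≫ (L.one y).1 = (L.one (𝟙 (Spec (CommRingCat.of K)))).1) (v : Tan y y₀) :
    tanMap L (L.one y) hpt v = 1 := by
  apply Subtype.ext
  rw [tanMap_val, L.one_natural]
  rfl

theorem tanMap_mul (L : RelativeGroupLaw K f) {Y : Scheme.{u}} {y : Y ⟶ Spec (CommRingCat.of K)}
    {y₀ : Spec (CommRingCat.of K) ⟶ Y} (h₁ h₂ : SchemeHomOver y f)
    (hpt₁ : y₀ ≫ h₁.1 = (L.one (𝟙 (Spec (CommRingCat.of K)))).1)
    (hpt₂ : y₀ ≫ h₂.1 = (L.one (𝟙 (Spec (CommRingCat.of K)))).1)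
    (hpt : y₀ ≫ (L.mul y h₁ h₂).1 = (L.one (𝟙 (Spec (CommRingCat.of K)))).1) (v : Tan y y₀) :
    tanMap L (L.mul y h₁ h₂) hpt v = tanMap L h₁ hpt₁ v * tanMap L h₂ hpt₂ v := by
  apply Subtype.ext
  rw [tanMap_val, L.mul_natural, TanGrp.mul_val]
  rfl

theorem tanMap_zpow (L : RelativeGroupLaw K f) {Y : Scheme.{u}} {y : Y ⟶ Spec (CommRingCat.of K)}
    {y₀ : Spec (CommRingCat.of K) ⟶ Y} (h : SchemeHomOver y f) (m : ℤ)
    (hpt₁ : y₀ ≫ h.1 = (L.one (𝟙 (Spec (CommRingCat.of K)))).1)
    (hpt : y₀ ≫ (helper154.zpowPt L y m h).1 = (L.one (𝟙 (Spec (CommRingCat.of K)))).1)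
    (v : Tan y y₀) :
    tanMap L (helper154.zpowPt L y m h) hpt v = tanMap L h hpt₁ v ^ m := by
  apply Subtype.ext
  rw [tanMap_val, comp_zpowPt, TanGrp.zpow_val]
  rfl

theorem tanMap_precomp (L : RelativeGroupLaw K f) {Y Z : Scheme.{u}}
    {y : Y ⟶ Spec (CommRingCat.of K)} {z : Z ⟶ Spec (CommRingCat.of K)}
    {y₀ : Spec (CommRingCat.of K) ⟶ Y} {z₀ : Spec (CommRingCat.of K) ⟶ Z} (ψ : Y ⟶ Z)
    (hψ : ψ ≫ z = y) (h₀ : y₀ ≫ ψ = z₀) (h : SchemeHomOver z f)
    (hpt : z₀ ≫ h.1 = (L.one (𝟙 (Spec (CommRingCat.of K)))).1)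
    (h' : SchemeHomOver y f) (hh' : h'.1 = ψ ≫ h.1)
    (hpt' : y₀ ≫ h'.1 = (L.one (𝟙 (Spec (CommRingCat.of K)))).1) (v : Tan y y₀) :
    tanMap L h' hpt' v = tanMap L h hpt (Tan.map ψ hψ h₀ v) := by
  apply Tan.ext
  show v.1.1 ≫ h'.1 = (v.1.1 ≫ ψ) ≫ h.1
  rw [hh', Category.assoc]

end TanGroup

/-! ### The tangent map of the weighted sum map -/

section Wsum

open Fermat.Agent.S26.helper154 (PCurve prodX prodPt wsum zpowPt sumMap)

variable {K : Type u} [Field K] {A : Scheme.{u}} {f : A ⟶ Spec (CommRingCat.of K)}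
  {L : RelativeGroupLaw K f}

/-- The first coordinate map of a product of curves, as a point of `A`. -/
def headMap (P : PCurve K f L) (l : List (PCurve K f L)) : SchemeHomOver (prodX (P :: l)).2 f :=
  ⟨pullback.fst P.c (prodX l).2 ≫ P.map.1, by
    show (pullback.fst P.c (prodX l).2 ≫ P.map.1) ≫ f =
      pullback.snd P.c (prodX l).2 ≫ (prodX l).2
    rw [Category.assoc, P.map.2, pullback.condition]⟩

/-- The weighted sum of the remaining coordinate maps, as a point of `A`. -/
def tailMap (P : PCurve K f L) (l : List (PCurve K f L)) (a : ℕ → ℤ) :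
    SchemeHomOver (prodX (P :: l)).2 f :=
  ⟨pullback.snd P.c (prodX l).2 ≫ (wsum L l (fun i => a (i + 1))).1, by
    show (pullback.snd P.c (prodX l).2 ≫ (wsum L l (fun i => a (i + 1))).1) ≫ f =
      pullback.snd P.c (prodX l).2 ≫ (prodX l).2
    rw [Category.assoc, (wsum L l (fun i => a (i + 1))).2]⟩

theorem wsum_cons (P : PCurve K f L) (l : List (PCurve K f L)) (a : ℕ → ℤ) :
    wsum L (P :: l) a =
      L.mul (prodX (P :: l)).2 (zpowPt L (prodX (P :: l)).2 (a 0) (headMap P l))
        (tailMap P l a) :=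
  rfl

theorem prodPt_cons_val (P : PCurve K f L) (l : List (PCurve K f L)) :
    (prodPt (P :: l)).1 =
      pullback.lift P.pt.1 (prodPt l).1 (by rw [P.pt.2, (prodPt l).2]) :=
  rfl

theorem headMap_pt (P : PCurve K f L) (l : List (PCurve K f L)) :
    (prodPt (P :: l)).1 ≫ (headMap P l).1 = (L.one (𝟙 (Spec (CommRingCat.of K)))).1 := by
  rw [prodPt_cons_val]
  show pullback.lift P.pt.1 (prodPt l).1 _ ≫ pullback.fst P.c (prodX l).2 ≫ P.map.1 = _
  rw [pullback.lift_fst_assoc, P.map_pt]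

/-- The weighted sum maps are pointed. -/
theorem wsum_pt : ∀ (l : List (PCurve K f L)) (a : ℕ → ℤ),
    (prodPt l).1 ≫ (wsum L l a).1 = (L.one (𝟙 (Spec (CommRingCat.of K)))).1
  | [], a => by
    show 𝟙 _ ≫ (L.one (𝟙 (Spec (CommRingCat.of K)))).1 = _
    rw [Category.id_comp]
  | P :: l, a => by
    have ih := wsum_pt l (fun i => a (i + 1))
    have h2 : (prodPt (P :: l)).1 ≫ (tailMap P l a).1 =
        (L.one (𝟙 (Spec (CommRingCat.of K)))).1 := by
      rw [prodPt_cons_val]
      show pullback.lift P.pt.1 (prodPt l).1 _ ≫ pullback.snd P.c (prodX l).2 ≫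
        (wsum L l (fun i => a (i + 1))).1 = _
      rw [pullback.lift_snd_assoc, ih]
    have h := congrArg Subtype.val (L.mul_natural (prodX (P :: l)).2 (𝟙 _) (prodPt (P :: l)).1
      (prodPt (P :: l)).2 (zpowPt L (prodX (P :: l)).2 (a 0) (headMap P l)) (tailMap P l a))
    rw [comp_zpowPt] at h
    have e1 : schemeHomOverComp (prodPt (P :: l)).1 (prodPt (P :: l)).2 (headMap P l) =
        L.one (𝟙 _) := Subtype.ext (headMap_pt P l)
    have e2 : schemeHomOverComp (prodPt (P :: l)).1 (prodPt (P :: l)).2 (tailMap P l a) =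
        L.one (𝟙 _) := Subtype.ext h2
    rw [e1, e2] at h
    have e3 : zpowPt L (𝟙 (Spec (CommRingCat.of K))) (a 0) (L.one (𝟙 _)) = L.one (𝟙 _) := by
      letI := L.pointGroup (𝟙 (Spec (CommRingCat.of K)))
      exact one_zpow (a 0)
    rw [e3, L.one_mul] at h
    rw [wsum_cons]
    exact h

theorem tailMap_pt (P : PCurve K f L) (l : List (PCurve K f L)) (a : ℕ → ℤ) :
    (prodPt (P :: l)).1 ≫ (tailMap P l a).1 = (L.one (𝟙 (Spec (CommRingCat.of K)))).1 := by
  rw [prodPt_cons_val]
  show pullback.lift P.pt.1 (prodPt l).1 _ ≫ pullback.snd P.c (prodX l).2 ≫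
    (wsum L l (fun i => a (i + 1))).1 = _
  rw [pullback.lift_snd_assoc, wsum_pt]

theorem prodPt_cond (P : PCurve K f L) (l : List (PCurve K f L)) :
    P.pt.1 ≫ P.c = (prodPt l).1 ≫ (prodX l).2 := by
  rw [P.pt.2, (prodPt l).2]

/-- Tangent vectors of the product of curves are pairs. -/
def tanProdEquiv (P : PCurve K f L) (l : List (PCurve K f L)) :
    Tan (prodX (P :: l)).2 (prodPt (P :: l)).1 ≃
      Tan P.c P.pt.1 × Tan (prodX l).2 (prodPt l).1 :=
  Tan.prodEquiv P.c (prodX l).2 P.pt.1 (prodPt l).1 (prodPt_cond P l)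

/-- The tangent map of the weighted sum: `(u, v') ↦ a₀ • df(u) + d(wsum')(v')`. -/
theorem tanMap_wsum_cons (P : PCurve K f L) (l : List (PCurve K f L)) (a : ℕ → ℤ)
    (v : Tan (prodX (P :: l)).2 (prodPt (P :: l)).1) :
    tanMap L (wsum L (P :: l) a) (wsum_pt (P :: l) a) v =
      tanMap L P.map P.map_pt (tanProdEquiv P l v).1 ^ (a 0) *
        tanMap L (wsum L l (fun i => a (i + 1))) (wsum_pt l _) (tanProdEquiv P l v).2 := by
  have hz : (prodPt (P :: l)).1 ≫ (zpowPt L (prodX (P :: l)).2 (a 0) (headMap P l)).1 =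
      (L.one (𝟙 (Spec (CommRingCat.of K)))).1 := by
    have h := congrArg Subtype.val (comp_zpowPt L (prodX (P :: l)).2 (𝟙 _) (prodPt (P :: l)).1
      (prodPt (P :: l)).2 (a 0) (headMap P l))
    have e1 : schemeHomOverComp (prodPt (P :: l)).1 (prodPt (P :: l)).2 (headMap P l) =
        L.one (𝟙 _) := Subtype.ext (headMap_pt P l)
    have e3 : zpowPt L (𝟙 (Spec (CommRingCat.of K))) (a 0) (L.one (𝟙 _)) = L.one (𝟙 _) := by
      letI := L.pointGroup (𝟙 (Spec (CommRingCat.of K)))
      exact one_zpow (a 0)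
    rw [e1, e3] at h
    exact h
  have step1 : tanMap L (wsum L (P :: l) a) (wsum_pt (P :: l) a) v =
      tanMap L (zpowPt L (prodX (P :: l)).2 (a 0) (headMap P l)) hz v *
        tanMap L (tailMap P l a) (tailMap_pt P l a) v :=
    tanMap_mul L _ _ hz (tailMap_pt P l a) (wsum_pt (P :: l) a) v
  rw [step1, tanMap_zpow L (headMap P l) (a 0) (headMap_pt P l) hz v]
  rfl

end Wsum

/-! ### Frames: the tangent map of the weighted sum is bijective -/

section FrameSec

open Fermat.Agent.S26.helper154 (PCurve prodX prodPt wsum zpowPt sumMap)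

variable {K : Type u} [Field K] {A : Scheme.{u}} {f : A ⟶ Spec (CommRingCat.of K)}
  {L : RelativeGroupLaw K f}

theorem coord_one (κ : TanGrp L → ℕ → K) (κ_mul : ∀ v w, κ (v * w) = κ v + κ w) :
    κ 1 = 0 := by
  have h := κ_mul 1 1
  rw [mul_one] at h
  exact left_eq_add.mp h

theorem coord_zpow (κ : TanGrp L → ℕ → K) (κ_mul : ∀ v w, κ (v * w) = κ v + κ w)
    (v : TanGrp L) (m : ℤ) : κ (v ^ m) = m • κ v := by
  let φ : TanGrp L →* Multiplicative (ℕ → K) :=
    MonoidHom.mk' (fun v => Multiplicative.ofAdd (κ v)) (fun a b => by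
      show Multiplicative.ofAdd (κ (a * b)) = Multiplicative.ofAdd (κ a + κ b)
      rw [κ_mul])
  exact map_zpow φ v m

/-- The inductive computation of the tangent map of a weighted sum in coordinates. -/
theorem tan_wsum_aux (κ : TanGrp L → ℕ → K) (κ_mul : ∀ v w, κ (v * w) = κ v + κ w) (G : ℕ) :
    ∀ (l : List (PCurve K f L)) (k : ℕ) (a : ℕ → ℤ), k + l.length ≤ G →
      (∀ (i : ℕ) (hi : i < l.length) (u : Tan (l[i]).c (l[i]).pt.1) (j : ℕ), j < G →
        j ≠ k + i → κ (tanMap L (l[i]).map (l[i]).map_pt u) j = 0) →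
      (∀ (i : ℕ) (hi : i < l.length), Function.Bijective
        (fun u : Tan (l[i]).c (l[i]).pt.1 => κ (tanMap L (l[i]).map (l[i]).map_pt u) (k + i))) →
      (∀ i, i < l.length → ((a i : ℤ) : K) ≠ 0) →
      (∀ (v : Tan (prodX l).2 (prodPt l).1) (j : ℕ), j < G → (j < k ∨ k + l.length ≤ j) →
        κ (tanMap L (wsum L l a) (wsum_pt l a) v) j = 0) ∧
      (∀ c : ℕ → K, ∃! v : Tan (prodX l).2 (prodPt l).1, ∀ j, k ≤ j → j < k + l.length →
        κ (tanMap L (wsum L l a) (wsum_pt l a) v) j = c j)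
  | [], k, a, _, _, _, _ => by
    have hone : ∀ v : Tan (prodX ([] : List (PCurve K f L))).2 (prodPt []).1,
        tanMap L (wsum L [] a) (wsum_pt [] a) v = 1 := fun v => tanMap_one L _ v
    refine ⟨fun v j _ _ => by rw [hone, coord_one κ κ_mul]; rfl, fun c => ⟨Tan.pt, ?_, ?_⟩⟩
    · intro j hj1 hj2
      simp only [List.length_nil, add_zero] at hj2
      omega
    · intro w _
      exact Tan.eq_of_id _ _
  | P :: l, k, a, hG, h0, hb, ha => by
    have hlen : (P :: l).length = l.length + 1 := List.length_cons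
    obtain ⟨ih0, ih1⟩ := tan_wsum_aux κ κ_mul G l (k + 1) (fun i => a (i + 1))
      (by rw [hlen] at hG; omega)
      (fun i hi u j hj hne => h0 (i + 1) (by rw [hlen]; omega) u j hj (by omega))
      (fun i hi => by
        have h := hb (i + 1) (by rw [hlen]; omega)
        rw [show k + (i + 1) = k + 1 + i by omega] at h
        exact h)
      (fun i hi => ha (i + 1) (by rw [hlen]; omega))
    have hP0 : ∀ (u : Tan P.c P.pt.1) (j : ℕ), j < G → j ≠ k →
        κ (tanMap L P.map P.map_pt u) j = 0 :=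
      fun u j hj hne => h0 0 (by rw [hlen]; omega) u j hj (by omega)
    have hPb : Function.Bijective (fun u : Tan P.c P.pt.1 => κ (tanMap L P.map P.map_pt u) k) :=
      hb 0 (by rw [hlen]; omega)
    have ha0 : ((a 0 : ℤ) : K) ≠ 0 := ha 0 (by rw [hlen]; omega)
    have key : ∀ (v : Tan (prodX (P :: l)).2 (prodPt (P :: l)).1) (j : ℕ),
        κ (tanMap L (wsum L (P :: l) a) (wsum_pt (P :: l) a) v) j =
          ((a 0 : ℤ) : K) * κ (tanMap L P.map P.map_pt (tanProdEquiv P l v).1) j +
            κ (tanMap L (wsum L l (fun i => a (i + 1))) (wsum_pt l _)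
              (tanProdEquiv P l v).2) j := by
      intro v j
      rw [tanMap_wsum_cons, κ_mul, coord_zpow κ κ_mul, Pi.add_apply, Pi.smul_apply,
        zsmul_eq_mul]
    rw [hlen] at hG
    constructor
    · intro v j hj hjk
      rw [key]
      rcases hjk with hjk | hjk
      · rw [hP0 _ j hj (by omega), ih0 _ j hj (Or.inl (by omega)), mul_zero, add_zero]
      · rw [hP0 _ j hj (by rw [hlen] at hjk; omega),
          ih0 _ j hj (Or.inr (by rw [hlen] at hjk; omega)), mul_zero, add_zero]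
    · intro c
      obtain ⟨u, hu⟩ := hPb.2 (c k / ((a 0 : ℤ) : K))
      obtain ⟨v', hv', hv'uniq⟩ := ih1 c
      refine ⟨(tanProdEquiv P l).symm (u, v'), ?_, ?_⟩
      · intro j hj1 hj2
        rw [hlen] at hj2
        rw [key, Equiv.apply_symm_apply]
        by_cases hjk : j = k
        · subst hjk
          have hu' : κ (tanMap L P.map P.map_pt u) j = c j / ((a 0 : ℤ) : K) := hu
          rw [hu', ih0 v' j (by omega) (Or.inl (by omega)), add_zero]
          field_simp
        · rw [hP0 u j (by omega) hjk, hv' j (by omega) (by omega), mul_zero, zero_add]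
      · intro w hw
        apply (tanProdEquiv P l).injective
        rw [Equiv.apply_symm_apply]
        have hw1 : (tanProdEquiv P l w).1 = u := by
          apply hPb.1
          show κ (tanMap L P.map P.map_pt (tanProdEquiv P l w).1) k =
            κ (tanMap L P.map P.map_pt u) k
          have hu' : κ (tanMap L P.map P.map_pt u) k = c k / ((a 0 : ℤ) : K) := hu
          rw [hu']
          have h := hw k le_rfl (by rw [hlen]; omega)
          rw [key, ih0 _ k (by omega) (Or.inl (by omega)), add_zero] at h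
          rw [← h]
          field_simp
        have hw2 : (tanProdEquiv P l w).2 = v' := by
          apply hv'uniq
          intro j hj1 hj2
          have h := hw j (by omega) (by rw [hlen]; omega)
          rw [key, hP0 _ j (by omega) (by omega), mul_zero, zero_add] at h
          exact h
        exact Prod.ext hw1 hw2

/-- **Tangent frame.** A list of pointed curves through the origin of `A` is a tangent frame if
there are additive coordinates `κ` on the tangent space of `A` at the origin, bijective in the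
first `l.length` coordinates, such that the tangent line of the `i`-th curve is the `i`-th
coordinate axis. -/
def IsFrame (L : RelativeGroupLaw K f) (l : List (PCurve K f L)) : Prop :=
  ∃ κ : TanGrp L → ℕ → K,
    (∀ v w, κ (v * w) = κ v + κ w) ∧
    Function.Bijective (fun (v : TanGrp L) (j : Fin l.length) => κ v j) ∧
    (∀ (i : ℕ) (hi : i < l.length) (u : Tan (l[i]).c (l[i]).pt.1) (j : ℕ), j < l.length →
      j ≠ i → κ (tanMap L (l[i]).map (l[i]).map_pt u) j = 0) ∧
    (∀ (i : ℕ) (hi : i < l.length), Function.Bijective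
      (fun u : Tan (l[i]).c (l[i]).pt.1 => κ (tanMap L (l[i]).map (l[i]).map_pt u) i))

/-- **(TAN-B)** For a tangent frame, the tangent map at the base point of every weighted sum
map with weights invertible in `K` is bijective. -/
theorem tanMap_wsum_bijective (l : List (PCurve K f L)) (hF : IsFrame L l) (a : ℕ → ℤ)
    (ha : ∀ i, i < l.length → ((a i : ℤ) : K) ≠ 0) :
    Function.Bijective (tanMap L (wsum L l a) (wsum_pt l a)) := by
  obtain ⟨κ, κ_mul, κ_bij, h0, hb⟩ := hF
  obtain ⟨-, aux⟩ := tan_wsum_aux κ κ_mul l.length l 0 a (by omega)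
    (fun i hi u j hj hne => h0 i hi u j hj (by omega))
    (fun i hi => by
      rw [Nat.zero_add]
      exact hb i hi) ha
  constructor
  · intro v w hvw
    obtain ⟨x, -, hx⟩ := aux (κ (tanMap L (wsum L l a) (wsum_pt l a) v))
    rw [hx v (fun j _ _ => rfl), hx w (fun j _ _ => by rw [hvw])]
  · intro n
    obtain ⟨v, hv, -⟩ := aux (κ n)
    refine ⟨v, κ_bij.1 (funext fun j => hv j (Nat.zero_le _) (by have := j.2; omega))⟩

end FrameSec

/-! ### From the frame to `IsSepDom` -/

section Final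

open Fermat.Agent.S26.helper154 (PCurve prodX prodPt wsum zpowPt sumMap)

/-- **(TAN-C)**, the scheme-level tangent criterion, as a `Prop` (leaf of helper2320, algebra core
`helper1321.isEtaleAt_of_tangent`): a `K`-morphism from a smooth `K`-scheme which is bijective on
tangent vectors at a `K`-point is étale on an open neighbourhood of that point. -/
def Stmt_TanCrit : Prop :=
  ∀ (K : Type u) [Field K] {X Y : Scheme.{u}} (x : X ⟶ Spec (CommRingCat.of K))
    (y : Y ⟶ Spec (CommRingCat.of K)) [Smooth x] [LocallyOfFiniteType y] (φ : X ⟶ Y)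
    (_ : φ ≫ y = x) (x₀ : Spec (CommRingCat.of K) ⟶ X) (_ : x₀ ≫ x = 𝟙 _),
    (∀ v w : Sε K ⟶ X, v ≫ x = tε K → w ≫ x = tε K → ιε K ≫ v = x₀ → ιε K ≫ w = x₀ →
      v ≫ φ = w ≫ φ → v = w) →
    (∀ w : Sε K ⟶ Y, w ≫ y = tε K → ιε K ≫ w = x₀ ≫ φ →
      ∃ v : Sε K ⟶ X, v ≫ x = tε K ∧ ιε K ≫ v = x₀ ∧ v ≫ φ = w) →
    ∃ U : X.Opens, Set.range x₀.base ⊆ (U : Set X) ∧ Etale (U.ι ≫ φ)

variable {K : Type u} [Field K] {A : Scheme.{u}} {f : A ⟶ Spec (CommRingCat.of K)}
  {L : RelativeGroupLaw K f}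

/-- The product of smooth curves is smooth over `K`. -/
theorem smooth_prodX : ∀ l : List (PCurve K f L), Smooth (prodX l).2
  | [] => inferInstanceAs (Smooth (𝟙 (Spec (CommRingCat.of K))))
  | P :: l => by
    haveI := smooth_prodX l
    haveI : Smooth P.c := by
      haveI := P.smooth
      exact SmoothOfRelativeDimension.smooth 1 P.c
    exact inferInstanceAs (Smooth (pullback.snd P.c (prodX l).2 ≫ (prodX l).2))

/-- For a tangent frame, every weighted sum map with weights invertible in `K` is étale on an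
open neighbourhood of the base point. -/
theorem exists_etale_open_wsum (hcrit : Stmt_TanCrit.{u}) [LocallyOfFiniteType f]
    (l : List (PCurve K f L)) (hF : IsFrame L l) (a : ℕ → ℤ)
    (ha : ∀ i, i < l.length → ((a i : ℤ) : K) ≠ 0) :
    ∃ U : (prodX l).1.Opens, Set.range (prodPt l).1.base ⊆ (U : Set (prodX l).1) ∧
      Etale (U.ι ≫ (wsum L l a).1) := by
  haveI := smooth_prodX l
  have hbij := tanMap_wsum_bijective l hF a ha
  refine hcrit K (prodX l).2 f (wsum L l a).1 (wsum L l a).2 (prodPt l).1 (prodPt l).2 ?_ ?_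
  · intro v w hv hw hv0 hw0 hvw
    have h := @hbij.1 ⟨⟨v, hv⟩, hv0⟩ ⟨⟨w, hw⟩, hw0⟩ (Tan.ext hvw)
    exact congrArg (fun t : Tan (prodX l).2 (prodPt l).1 => t.1.1) h
  · intro w hw hw0
    obtain ⟨v, hv⟩ := hbij.2 ⟨⟨w, hw⟩, by rw [hw0, wsum_pt]⟩
    exact ⟨v.1.1, v.1.2, v.2, congrArg (fun t : TanGrp L => t.1.1) hv⟩

/-- **M6-TAN.** For a tangent frame of curves on an integral `A`, every weighted sum map with
weights invertible in `K` is dominant and generically finite separable. -/
theorem exists_isSepDom_wsum (hcrit : Stmt_TanCrit.{u}) [IsIntegral A] [LocallyOfFiniteType f]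
    (l : List (PCurve K f L)) [IsIntegral (prodX l).1] (hF : IsFrame L l) (a : ℕ → ℤ)
    (ha : ∀ i, i < l.length → ((a i : ℤ) : K) ≠ 0) :
    ∃ δ, 0 < δ ∧ IsSepDom (wsum L l a).1 δ := by
  obtain ⟨U, hU, hE⟩ := exists_etale_open_wsum hcrit l hF a ha
  haveI := hE
  have hne : Nonempty (Spec (CommRingCat.of K)) :=
    inferInstanceAs (Nonempty (PrimeSpectrum K))
  exact exists_isSepDom_of_etale_on_open (wsum L l a).1 U
    ⟨_, hU ⟨hne.some, rfl⟩⟩

/-- The sum map of a tangent frame is dominant and generically finite separable. -/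
theorem exists_isSepDom_sumMap (hcrit : Stmt_TanCrit.{u}) [IsIntegral A] [LocallyOfFiniteType f]
    (l : List (PCurve K f L)) [IsIntegral (prodX l).1] (hF : IsFrame L l) :
    ∃ δ, 0 < δ ∧ IsSepDom (sumMap L l) δ :=
  exists_isSepDom_wsum hcrit l hF (fun _ => 1) (fun _ _ => by simp)

end Final

end Fermat.Agent.S26.helper752
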