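/-
# S26 — (INT-LOC): stalk form of the integrality lemma behind (SW)-UPPER (helper895)

Route #2694 + #2746 (D1) + #2799 item 2.  Everything here is stated at a POINT `y` of the target,
so no affine open, no gluing of sections and no integrally closed coordinate ring is needed:

* `exists_stalk_le_valuationSubring` : a valuation ring of `K(X)` containing the image of
  `O_{A,y}` contains a local ring `O_{X,x}` with `ψ x ⤳ y` (valuative criterion, existence part).
* `isIntegralElem_of_forall_mem_stalk` : **(INT-LOC)** `z ∈ K(X)` lying in `O_{X,x}` for all `x`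
  with `ψ x ⤳ y` is integral over `O_{A,y}`.
* `trace_mem_range_of_forall_mem_stalk` : if moreover `O_{A,y}` is integrally closed, then
  `Tr_{K(X)/K(A)} z ∈ O_{A,y}` (any ring hom `j : K(A) → K(X)` compatible with `ψ` at `y`).
* on the vocabulary of `helper154_Spec`: `funFieldHom_algebraMap_stalk` (compatibility of
  `funFieldHom` with all stalk maps), `trace_mem_localSubring`, `PullsTo` bookkeeping
  (`pullsTo_apply_eq`), and **(UP)** `trace_mem_LSet` : `PullsTo ψ D E`, `w ∈ L_X(E)` gives
  `Tr w ∈ L_A(D)`.
-/
import Fermat.Agent.S26.helper154_Spec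

set_option autoImplicit false

universe u

open CategoryTheory AlgebraicGeometry

namespace Fermat.Agent.S26.helper895

section Core

variable {X A : Scheme.{u}} [IsIntegral X]

/-- Valuation rings of `K(X)` containing the image of `O_{A,y}` are centred on `X` over a
generization of `y`, when `ψ` satisfies the existence part of the valuative criterion. -/
theorem exists_stalk_le_valuationSubring (ψ : X ⟶ A) (hψ : ValuativeCriterion.Existence ψ)
    (y : A) (hy : ψ.base (genericPoint X) ⤳ y)
    (V : ValuationSubring X.functionField)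
    (hV : ∀ r : A.presheaf.stalk y,
      (ψ.stalkMap (genericPoint X)).hom ((A.presheaf.stalkSpecializes hy).hom r) ∈ V) :
    ∃ x : X, ψ.base x ⤳ y ∧
      ∀ w : X.presheaf.stalk x, algebraMap (X.presheaf.stalk x) X.functionField w ∈ V := by
  classical
  let ι : A.presheaf.stalk y →+* X.functionField :=
    (ψ.stalkMap (genericPoint X)).hom.comp (A.presheaf.stalkSpecializes hy).hom
  let ιV : A.presheaf.stalk y →+* V := ι.codRestrict V.toSubring hV
  let S : ValuativeCommSq ψ :=
    { R := V
      K := X.functionField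
      i₁ := X.fromSpecStalk (genericPoint X)
      i₂ := Spec.map (CommRingCat.ofHom ιV) ≫ A.fromSpecStalk y
      commSq := ⟨by
        rw [← Scheme.SpecMap_stalkMap_fromSpecStalk,
          ← Scheme.SpecMap_stalkSpecializes_fromSpecStalk hy, ← Spec.map_comp_assoc,
          ← Spec.map_comp_assoc]
        rfl⟩ }
  obtain ⟨⟨l, h₁, h₂⟩⟩ := (hψ S).exists_lift
  have h₁' : Spec.map (CommRingCat.ofHom (algebraMap V X.functionField)) ≫ l =
      X.fromSpecStalk (genericPoint X) := h₁
  have h₂' : l ≫ ψ = Spec.map (CommRingCat.ofHom ιV) ≫ A.fromSpecStalk y := h₂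
  have : IsLocalRing (CommRingCat.of V) := inferInstanceAs (IsLocalRing V)
  refine ⟨l.base (IsLocalRing.closedPoint (CommRingCat.of V)), ?_, ?_⟩
  · have h3 : ψ.base (l.base (IsLocalRing.closedPoint (CommRingCat.of V))) ∈
        Set.range (A.fromSpecStalk y).base := by
      refine ⟨(Spec.map (CommRingCat.ofHom ιV)).base
        (IsLocalRing.closedPoint (CommRingCat.of V)), ?_⟩
      have h5 := congrArg (fun f : Spec (CommRingCat.of V) ⟶ A =>
        f.base (IsLocalRing.closedPoint (CommRingCat.of V))) h₂'
      exact h5.symm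
    rw [Scheme.range_fromSpecStalk] at h3
    exact h3
  · intro w
    have hx : genericPoint X ⤳ l.base (IsLocalRing.closedPoint (CommRingCat.of V)) :=
      (genericPoint_spec X).specializes trivial
    have key : Scheme.stalkClosedPointTo l ≫ CommRingCat.ofHom (algebraMap V X.functionField) =
        X.presheaf.stalkSpecializes hx := by
      apply Spec.map_injective
      rw [← cancel_mono (X.fromSpecStalk (l.base (IsLocalRing.closedPoint (CommRingCat.of V)))),
        Scheme.SpecMap_stalkSpecializes_fromSpecStalk, Spec.map_comp, Category.assoc,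
        Scheme.Spec_stalkClosedPointTo_fromSpecStalk, h₁']
    have h4 : algebraMap (X.presheaf.stalk _) X.functionField w =
        algebraMap V X.functionField ((Scheme.stalkClosedPointTo l).hom w) := by
      have := congrArg (fun φ => φ.hom w) key
      exact this.symm
    rw [h4]
    exact ((Scheme.stalkClosedPointTo l).hom w).2

/-- **(INT-LOC)**: stalk form of the integrality lemma. If `ψ : X ⟶ A` satisfies the existence
part of the valuative criterion (e.g. `ψ` proper), `y : A` is a specialization of the image of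
the generic point of `X`, and `z ∈ K(X)` lies in `O_{X,x}` for every `x` with `ψ x ⤳ y`, then
`z` is integral over `O_{A,y}` (mapped to `K(X)` by `ψ`). -/
theorem isIntegralElem_of_forall_mem_stalk (ψ : X ⟶ A) (hψ : ValuativeCriterion.Existence ψ)
    (y : A) (hy : ψ.base (genericPoint X) ⤳ y) (z : X.functionField)
    (hz : ∀ x : X, ψ.base x ⤳ y →
      z ∈ (algebraMap (X.presheaf.stalk x) X.functionField).range) :
    ((ψ.stalkMap (genericPoint X)).hom.comp
      (A.presheaf.stalkSpecializes hy).hom).IsIntegralElem z := by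
  classical
  set ι : A.presheaf.stalk y →+* X.functionField :=
    (ψ.stalkMap (genericPoint X)).hom.comp (A.presheaf.stalkSpecializes hy).hom with hι
  have h1 : z ∈ ⨅ V : {V : ValuationSubring X.functionField //
      Set.range ι ⊆ V.toSubring}, V.1.toSubring := by
    rw [Subring.mem_iInf]
    rintro ⟨V, hV⟩
    obtain ⟨x, hx, hxV⟩ := exists_stalk_le_valuationSubring ψ hψ y hy V (fun r => hV ⟨r, rfl⟩)
    obtain ⟨w, rfl⟩ := hz x hx
    exact hxV w
  rw [iInf_valuationSubring_superset] at h1
  have h2 : IsIntegral (Subring.closure (Set.range ι)) z := h1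
  obtain ⟨p, hp, hpz⟩ := h2
  let ρ : A.presheaf.stalk y →+* Subring.closure (Set.range ι) :=
    ι.codRestrict _ (fun r => Subring.subset_closure ⟨r, rfl⟩)
  have hρ : Function.Surjective ρ := by
    rintro ⟨t, ht⟩
    have ht' : t ∈ ι.range := by
      have hle : Subring.closure (Set.range ι) ≤ ι.range :=
        Subring.closure_le.mpr (fun a ha => ha)
      exact hle ht
    obtain ⟨r, rfl⟩ := ht'
    exact ⟨r, rfl⟩
  have hl : p ∈ Polynomial.lifts ρ := by
    obtain ⟨q, hq⟩ := Polynomial.map_surjective ρ hρ p
    exact (Polynomial.mem_lifts p).mpr ⟨q, hq⟩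
  obtain ⟨q, hq, -, hqm⟩ := Polynomial.lifts_and_degree_eq_and_monic hl hp
  refine ⟨q, hqm, ?_⟩
  rw [← hpz, ← hq, Polynomial.eval₂_map]
  rfl

end Core

section Trace

variable {X A : Scheme.{u}} [IsIntegral X] [IsIntegral A]

omit [IsIntegral X] [IsIntegral A] in
/-- The existence part of the valuative criterion for a universally closed morphism
(in particular for a proper one). -/
theorem existence_of_universallyClosed (ψ : X ⟶ A) [UniversallyClosed ψ] :
    ValuativeCriterion.Existence ψ := by
  have h : UniversallyClosed ψ := inferInstance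
  rw [UniversallyClosed.eq_valuativeCriterion] at h
  exact h.1

/-- **(INT-LOC), trace form**: if `O_{A,y}` is integrally closed and `z ∈ K(X)` lies in
`O_{X,x}` for every `x` with `ψ x ⤳ y`, then `Tr_{K(X)/K(A)} z ∈ O_{A,y}`.  The field map
`j : K(A) → K(X)` is any ring hom compatible with `ψ` on `O_{A,y}`; no finiteness hypothesis
(the trace of an infinite extension is `0`). -/
theorem trace_mem_range_of_forall_mem_stalk (ψ : X ⟶ A) (hψ : ValuativeCriterion.Existence ψ)
    (y : A) (hy : ψ.base (genericPoint X) ⤳ y) [IsIntegrallyClosed (A.presheaf.stalk y)]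
    (j : A.functionField →+* X.functionField)
    (hj : ∀ r : A.presheaf.stalk y, j (algebraMap (A.presheaf.stalk y) A.functionField r) =
      (ψ.stalkMap (genericPoint X)).hom ((A.presheaf.stalkSpecializes hy).hom r))
    (z : X.functionField)
    (hz : ∀ x : X, ψ.base x ⤳ y →
      z ∈ (algebraMap (X.presheaf.stalk x) X.functionField).range) :
    letI := j.toAlgebra
    Algebra.trace A.functionField X.functionField z ∈
      (algebraMap (A.presheaf.stalk y) A.functionField).range := by
  letI := j.toAlgebra
  letI : Algebra (A.presheaf.stalk y) X.functionField :=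
    ((ψ.stalkMap (genericPoint X)).hom.comp (A.presheaf.stalkSpecializes hy).hom).toAlgebra
  haveI : IsScalarTower (A.presheaf.stalk y) A.functionField X.functionField :=
    IsScalarTower.of_algebraMap_eq (fun r => (hj r).symm)
  have hint : IsIntegral (A.presheaf.stalk y) z :=
    isIntegralElem_of_forall_mem_stalk ψ hψ y hy z hz
  by_cases hfin : FiniteDimensional A.functionField X.functionField
  · exact IsIntegrallyClosed.isIntegral_iff.mp (Algebra.isIntegral_trace hint)
  · rw [Algebra.trace_eq_zero_of_not_exists_basis]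
    · exact ⟨0, by simp⟩
    · rintro ⟨s, ⟨b⟩⟩
      exact hfin (Module.Finite.of_basis b)

end Trace

section Spec

open Fermat.Agent.S26.helper154

variable {X A : Scheme.{u}} [IsIntegral X] [IsIntegral A]

/-- `funFieldHom` restricted to `O_{A,y}`, for any `y` specializing `ψ (generic point)`. -/
theorem funFieldHom_algebraMap (ψ : X ⟶ A) (hd : IsDom ψ) (y : A)
    (hy : ψ.base (genericPoint X) ⤳ y) (r : A.presheaf.stalk y) :
    funFieldHom ψ hd (algebraMap (A.presheaf.stalk y) A.functionField r) =
      (ψ.stalkMap (genericPoint X)).hom ((A.presheaf.stalkSpecializes hy).hom r) := by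
  have key : A.presheaf.stalkSpecializes ((genericPoint_spec A).specializes trivial) ≫
      A.presheaf.stalkSpecializes (specializes_of_eq hd) = A.presheaf.stalkSpecializes hy :=
    TopCat.Presheaf.stalkSpecializes_comp _ _ _
  exact congrArg (fun φ => (ψ.stalkMap (genericPoint X)).hom (φ.hom r)) key

/-- Compatibility of `funFieldHom` with the stalk maps of `ψ` at EVERY point `x`. -/
theorem funFieldHom_algebraMap_stalk (ψ : X ⟶ A) (hd : IsDom ψ) (x : X)
    (r : A.presheaf.stalk (ψ.base x)) :
    funFieldHom ψ hd (algebraMap (A.presheaf.stalk (ψ.base x)) A.functionField r) =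
      algebraMap (X.presheaf.stalk x) X.functionField ((ψ.stalkMap x).hom r) := by
  have hx : genericPoint X ⤳ x := (genericPoint_spec X).specializes trivial
  rw [funFieldHom_algebraMap ψ hd (ψ.base x) (ψ.base.hom.map_specializes hx) r]
  exact Scheme.Hom.stalkSpecializes_stalkMap_apply ψ (genericPoint X) x hx r

/-- `funFieldHom` on `O_{A, ψ η}` is the stalk map at the generic point. -/
theorem funFieldHom_algebraMap_generic (ψ : X ⟶ A) (hd : IsDom ψ)
    (r : A.presheaf.stalk (ψ.base (genericPoint X))) :
    funFieldHom ψ hd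
        (algebraMap (A.presheaf.stalk (ψ.base (genericPoint X))) A.functionField r) =
      (ψ.stalkMap (genericPoint X)).hom r := by
  rw [funFieldHom_algebraMap ψ hd _ (specializes_refl _) r,
    TopCat.Presheaf.stalkSpecializes_refl]
  rfl

/-- **(INT-LOC), trace form, Spec vocabulary**: `ψ` dominant with the existence part of the
valuative criterion, `O_{A,y}` integrally closed, `z ∈ O_{X,x}` for all `x` with `ψ x ⤳ y`;
then `Tr_{K(X)/K(A)} z ∈ O_{A,y}` (algebra structure `funFieldHom ψ hd`). -/
theorem trace_mem_localSubring (ψ : X ⟶ A) (hψ : ValuativeCriterion.Existence ψ) (hd : IsDom ψ)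
    (y : A) [IsIntegrallyClosed (A.presheaf.stalk y)] (z : X.functionField)
    (hz : ∀ x : X, ψ.base x ⤳ y → z ∈ localSubring X x) :
    letI := (funFieldHom ψ hd).toAlgebra
    Algebra.trace A.functionField X.functionField z ∈ localSubring A y :=
  have hy : ψ.base (genericPoint X) ⤳ y :=
    (specializes_of_eq hd).trans ((genericPoint_spec A).specializes trivial)
  trace_mem_range_of_forall_mem_stalk ψ hψ y hy (funFieldHom ψ hd)
    (funFieldHom_algebraMap ψ hd y hy) z hz

/-- `PullsTo` bookkeeping for a dominant `ψ`: a local equation `f` of `D` at `ψ x` pulls back to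
the local equation `ψ^* f` of `E` at `x`. -/
theorem pullsTo_apply_eq (ψ : X ⟶ A) (hd : IsDom ψ) {D : CDiv A} {E : CDiv X}
    (hp : CDiv.PullsTo ψ D E) (x : X) (f : (A.functionField)ˣ)
    (hf : D.1 (ψ.base x) = QuotientGroup.mk f) :
    E.1 x = QuotientGroup.mk
      (Units.map (funFieldHom ψ hd : A.functionField →* X.functionField) f) := by
  obtain ⟨r, hr1, hr2⟩ := hp x
  rw [hr2]
  rw [hr1] at hf
  obtain ⟨u, hu⟩ : (Units.map (algebraMap (A.presheaf.stalk (ψ.base (genericPoint X)))
      A.functionField : A.presheaf.stalk (ψ.base (genericPoint X)) →* A.functionField) r)⁻¹ * f ∈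
      unitsAt A (ψ.base x) := QuotientGroup.eq.mp hf
  refine QuotientGroup.eq.mpr ⟨Units.map ((ψ.stalkMap x).hom :
    A.presheaf.stalk (ψ.base x) →* X.presheaf.stalk x) u, ?_⟩
  have hf' : f = Units.map (algebraMap (A.presheaf.stalk (ψ.base (genericPoint X)))
      A.functionField : A.presheaf.stalk (ψ.base (genericPoint X)) →* A.functionField) r *
      Units.map (algebraMap (A.presheaf.stalk (ψ.base x)) A.functionField :
        A.presheaf.stalk (ψ.base x) →* A.functionField) u := by
    rw [hu]; group
  have h1 : Units.map (funFieldHom ψ hd : A.functionField →* X.functionField)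
      (Units.map (algebraMap (A.presheaf.stalk (ψ.base (genericPoint X)))
      A.functionField : A.presheaf.stalk (ψ.base (genericPoint X)) →* A.functionField) r) =
      Units.map ((ψ.stalkMap (genericPoint X)).hom :
        A.presheaf.stalk (ψ.base (genericPoint X)) →* X.functionField) r :=
    Units.ext (funFieldHom_algebraMap_generic ψ hd r)
  have h2 : Units.map (funFieldHom ψ hd : A.functionField →* X.functionField)
      (Units.map (algebraMap (A.presheaf.stalk (ψ.base x)) A.functionField :
        A.presheaf.stalk (ψ.base x) →* A.functionField) u) =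
      Units.map (algebraMap (X.presheaf.stalk x) X.functionField :
        X.presheaf.stalk x →* X.functionField)
        (Units.map ((ψ.stalkMap x).hom : A.presheaf.stalk (ψ.base x) →* X.presheaf.stalk x) u) :=
    Units.ext (funFieldHom_algebraMap_stalk ψ hd x u)
  rw [hf', map_mul, h1, h2]
  group

/-- **(UP)**: the trace maps `L_X(ψ^* D)` into `L_A(D)`.  `ψ` dominant with the existence part
of the valuative criterion (e.g. proper), stalks of `A` integrally closed, `PullsTo ψ D E`.
No finiteness/separability, no affine open, no DVR: with `D := D₀ ^ (m + a)`,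
`w := h * e`, this is `Tr (h e) ∈ L_A((m + a) D₀)` of (SW)-UPPER. -/
theorem trace_mem_LSet (ψ : X ⟶ A) (hψ : ValuativeCriterion.Existence ψ) (hd : IsDom ψ)
    (hn : ∀ y : A, IsIntegrallyClosed (A.presheaf.stalk y)) {D : CDiv A} {E : CDiv X}
    (hp : CDiv.PullsTo ψ D E) {w : X.functionField} (hw : w ∈ CDiv.LSet E) :
    letI := (funFieldHom ψ hd).toAlgebra
    Algebra.trace A.functionField X.functionField w ∈ CDiv.LSet D := by
  letI := (funFieldHom ψ hd).toAlgebra
  intro y
  obtain ⟨U, hyU, f, hf⟩ := D.2 y
  refine ⟨f, hf y hyU, ?_⟩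
  haveI := hn y
  have key := trace_mem_localSubring ψ hψ hd y (w * funFieldHom ψ hd f) ?_
  · have h3 : Algebra.trace A.functionField X.functionField (w * funFieldHom ψ hd f) =
        Algebra.trace A.functionField X.functionField w * f := by
      have h4 : w * funFieldHom ψ hd f = (f : A.functionField) • w := by
        rw [Algebra.smul_def, mul_comm]; rfl
      rw [h4, map_smul, smul_eq_mul, mul_comm]
    rwa [h3] at key
  · intro x hx
    have hxU : ψ.base x ∈ U := hx.mem_open U.isOpen hyU
    have hE := pullsTo_apply_eq ψ hd hp x f (hf _ hxU)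
    obtain ⟨f', hf', hwf'⟩ := hw x
    rw [hE] at hf'
    obtain ⟨v, hv⟩ : (Units.map (funFieldHom ψ hd : A.functionField →* X.functionField) f)⁻¹ *
        f' ∈ unitsAt X x := QuotientGroup.eq.mp hf'
    have h5 : (funFieldHom ψ hd f : X.functionField) =
        (f' : X.functionField) * algebraMap (X.presheaf.stalk x) X.functionField
          ((v⁻¹ : (X.presheaf.stalk x)ˣ) : X.presheaf.stalk x) := by
      have h6 : Units.map (funFieldHom ψ hd : A.functionField →* X.functionField) f =
          f' * Units.map (algebraMap (X.presheaf.stalk x) X.functionField :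
            X.presheaf.stalk x →* X.functionField) v⁻¹ := by
        rw [map_inv, hv]; group
      exact congrArg Units.val h6
    rw [h5, ← mul_assoc]
    exact Subring.mul_mem _ hwf' ⟨_, rfl⟩

/-- `PullsTo` is compatible with powers. -/
theorem pullsTo_pow {ψ : X ⟶ A} {D : CDiv A} {E : CDiv X} (hp : CDiv.PullsTo ψ D E) (k : ℕ) :
    CDiv.PullsTo ψ (D ^ k) (E ^ k) := by
  intro x
  obtain ⟨r, hr1, hr2⟩ := hp x
  refine ⟨r ^ k, ?_, ?_⟩
  · show (D.1 ^ k) (ψ.base x) = _
    rw [Pi.pow_apply, hr1, map_pow]
    rfl
  · show (E.1 ^ k) x = _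
    rw [Pi.pow_apply, hr2, map_pow]
    rfl

/-- `L(D) * L(D') ⊆ L(D * D')`. -/
theorem mul_mem_LSet {D D' : CDiv X} {h h' : X.functionField} (hh : h ∈ CDiv.LSet D)
    (hh' : h' ∈ CDiv.LSet D') : h * h' ∈ CDiv.LSet (D * D') := by
  intro x
  obtain ⟨f, hf, hhf⟩ := hh x
  obtain ⟨f', hf', hhf'⟩ := hh' x
  refine ⟨f * f', ?_, ?_⟩
  · show D.1 x * D'.1 x = _
    rw [hf, hf']
    rfl
  · have h1 : h * h' * ((f * f' : (X.functionField)ˣ) : X.functionField) =
        h * (f : X.functionField) * (h' * (f' : X.functionField)) := by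
      push_cast; ring
    rw [h1]
    exact Subring.mul_mem _ hhf hhf'

/-- **(UP), sandwich shape**: for `h ∈ L_X(m ψ^*D)` and `e ∈ L_X(a ψ^*D)`:
`Tr (h * e) ∈ L_A((m + a) D)`.  This is hypothesis `hup` of `helper3146.sw_sandwich` /
`sw_upper` with `Λ m := LSub _ (D ^ m)`, `Η m := LSub _ (E ^ m)`, `b i := e`. -/
theorem trace_mul_mem_LSet_pow (ψ : X ⟶ A) (hψ : ValuativeCriterion.Existence ψ) (hd : IsDom ψ)
    (hn : ∀ y : A, IsIntegrallyClosed (A.presheaf.stalk y)) {D : CDiv A} {E : CDiv X}
    (hp : CDiv.PullsTo ψ D E) (m a : ℕ) {h e : X.functionField}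
    (hh : h ∈ CDiv.LSet (E ^ m)) (he : e ∈ CDiv.LSet (E ^ a)) :
    letI := (funFieldHom ψ hd).toAlgebra
    Algebra.trace A.functionField X.functionField (h * e) ∈ CDiv.LSet (D ^ (m + a)) := by
  have h1 : h * e ∈ CDiv.LSet (E ^ (m + a)) := by
    rw [pow_add]
    exact mul_mem_LSet hh he
  exact trace_mem_LSet ψ hψ hd hn (pullsTo_pow hp (m + a)) h1

/-- Adapter to the normality hypothesis of `Stmt_SW` (`Stmt_Normal`): if all affine opens of `A`
have integrally closed coordinate rings, then all stalks of `A` are integrally closed. -/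
theorem isIntegrallyClosed_stalk_of_affineOpens
    (hA : ∀ U : A.Opens, IsAffineOpen U → IsIntegrallyClosed Γ(A, U)) (y : A) :
    IsIntegrallyClosed (A.presheaf.stalk y) := by
  obtain ⟨_, ⟨U, hU, rfl⟩, hyU, -⟩ :=
    A.isBasis_affineOpens.exists_subset_of_mem_open (Set.mem_univ y) isOpen_univ
  haveI := hA U hU
  haveI : Nonempty U := ⟨⟨y, hyU⟩⟩
  letI := A.presheaf.algebra_section_stalk ⟨y, hyU⟩
  haveI := hU.isLocalization_stalk ⟨y, hyU⟩
  exact isIntegrallyClosed_of_isLocalization (R := Γ(A, U)) (A.presheaf.stalk y)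
    (hU.primeIdealOf ⟨y, hyU⟩).asIdeal.primeCompl (Ideal.primeCompl_le_nonZeroDivisors _)

/-- **(UP) in the exact shape of `Stmt_SW`** (hypotheses: `ψ` proper-like, dominant; affine opens
of `A` integrally closed): `Tr (h * e) ∈ L_A((m + a) D)` for `h ∈ L_X(m E)`, `e ∈ L_X(a E)`. -/
theorem trace_mul_mem_LSet_pow_of_affineOpens (ψ : X ⟶ A) [UniversallyClosed ψ] (hd : IsDom ψ)
    (hA : ∀ U : A.Opens, IsAffineOpen U → IsIntegrallyClosed Γ(A, U)) {D : CDiv A} {E : CDiv X}
    (hp : CDiv.PullsTo ψ D E) (m a : ℕ) {h e : X.functionField}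
    (hh : h ∈ CDiv.LSet (E ^ m)) (he : e ∈ CDiv.LSet (E ^ a)) :
    letI := (funFieldHom ψ hd).toAlgebra
    Algebra.trace A.functionField X.functionField (h * e) ∈ CDiv.LSet (D ^ (m + a)) :=
  trace_mul_mem_LSet_pow ψ (existence_of_universallyClosed ψ) hd
    (isIntegrallyClosed_stalk_of_affineOpens hA) hp m a hh he

end Spec

end Fermat.Agent.S26.helper895
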